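/-
S55 package [HERBRAND] (helper54), part B4: the cyclic layer `hcyc` of the devissage, in Mathlib's
`groupCohomology` vocabulary, from Herbrand quotient statements.

For a group `Q` of prime order `p`, a generator `g` and `B : Rep k Q`:
`q(B) = p` (first inequality) and `|H0(B)| ∣ p` (second inequality) imply
`H¹(Q, B) = 0`, `H²(Q, B)` finite of order `p`.
No `CommGroup` or `Fintype` instance is required in the statement.
Mathlib only (+ Herbrand54, HerbrandCyclic54, HerbrandRep54).
-/
import Mathlib
import Fermat.Agent.S55.HerbrandRep54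

set_option autoImplicit false

namespace Fermat.Agent.S55.HerbrandHcyc54

open Fermat.Agent.S55.Herbrand54 Fermat.Agent.S55.HerbrandCyclic54 Fermat.Agent.S55.HerbrandRep54
open CategoryTheory

universe u

section Monoid

variable {k Q : Type u} [CommRing k] [Monoid Q] (B : Rep k Q)

/-- The action of `Q` on the underlying abelian group of `B : Rep k Q` (any monoid `Q`). -/
def repRhoM : Q →* AddMonoid.End B.V where
  toFun τ := (B.ρ τ).toAddMonoidHom
  map_one' := by
    rw [map_one]
    rfl
  map_mul' σ τ := by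
    rw [map_mul]
    rfl

theorem repRhoM_apply (τ : Q) (x : B.V) : repRhoM B τ x = B.ρ τ x := rfl

end Monoid

section Comm

variable {k G : Type u} [CommRing k] [CommGroup G] [Fintype G] (A : Rep k G) (g : G)
  (hg : ∀ x, x ∈ Subgroup.zpowers g)

omit [Fintype G] in
theorem repRhoM_eq_repRho : repRhoM A = repRho A := rfl

include hg

/-- Commutative form: `q = p`, `|H0| ∣ p`, `p > 0` give `H¹ = 0`, `|H²| = p`. -/
theorem hcyc_comm (p : ℕ) (hp : 0 < p) (hdef : (cyclicPair (repRho A) g).IsDefined)
    (hq : (cyclicPair (repRho A) g).q = p)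
    (hH0 : Nat.card (cyclicPair (repRho A) g).H0 ∣ p) :
    Limits.IsZero (groupCohomology A 1) ∧ Finite (groupCohomology A 2) ∧
      Nat.card (groupCohomology A 2) = p := by
  obtain ⟨hfin0, hfin1⟩ := hdef
  have h0pos : 0 < Nat.card (cyclicPair (repRho A) g).H0 := Nat.card_pos
  have h1pos : 0 < Nat.card (cyclicPair (repRho A) g).H1 := Nat.card_pos
  -- `|H0| = p * |H1|`
  have hmul : Nat.card (cyclicPair (repRho A) g).H0 = p * Nat.card (cyclicPair (repRho A) g).H1 := by
    unfold Pair.q at hq
    have h1ne : (Nat.card (cyclicPair (repRho A) g).H1 : ℚ) ≠ 0 := by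
      exact_mod_cast h1pos.ne'
    rw [div_eq_iff h1ne] at hq
    exact_mod_cast hq
  have hle : Nat.card (cyclicPair (repRho A) g).H0 ≤ p := Nat.le_of_dvd hp hH0
  have hH1 : Nat.card (cyclicPair (repRho A) g).H1 = 1 := by
    have : p * Nat.card (cyclicPair (repRho A) g).H1 ≤ p * 1 := by
      rw [← hmul, mul_one]; exact hle
    have := Nat.le_of_mul_le_mul_left this hp
    omega
  have hH0' : Nat.card (cyclicPair (repRho A) g).H0 = p := by rw [hmul, hH1, mul_one]
  refine ⟨?_, ?_, ?_⟩
  · have hsub : Subsingleton (cyclicPair (repRho A) g).H1 :=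
      (Nat.card_eq_one_iff_unique.1 hH1).1
    have : Subsingleton (groupCohomology A 1) :=
      (H1equivOdd A g hg 1 (by decide)).symm.toEquiv.subsingleton
    exact ModuleCat.isZero_of_subsingleton _
  · exact Finite.of_equiv _ (H0equivEven A g hg 2 (by decide)).toEquiv
  · rw [card_H2 A g hg, hH0']

end Comm

section Group

variable {k Q : Type u} [CommRing k] [Group Q] (B : Rep k Q)

/-- **The cyclic layer `hcyc`.** `Q` any group with a generator `g` (no `CommGroup`/`Fintype`
instance in the statement beyond `[Fintype Q]` used by the norm), `p > 0`: the first inequality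
`q = p` and the second inequality `|H0| ∣ p` imply `H¹(Q,B) = 0` and `|H²(Q,B)| = p`. -/
theorem hcyc [Fintype Q] (g : Q) (hg : ∀ x, x ∈ Subgroup.zpowers g) (p : ℕ) (hp : 0 < p)
    (hdef : (cyclicPair (repRhoM B) g).IsDefined)
    (hq : (cyclicPair (repRhoM B) g).q = p)
    (hH0 : Nat.card (cyclicPair (repRhoM B) g).H0 ∣ p) :
    Limits.IsZero (groupCohomology B 1) ∧ Finite (groupCohomology B 2) ∧
      Nat.card (groupCohomology B 2) = p := by
  have hcyc : IsCyclic Q := ⟨g, hg⟩
  let _ : CommGroup Q := IsCyclic.commGroup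
  exact hcyc_comm (k := k) (G := Q) B g hg p hp hdef hq hH0

/-- The `∣ p` form consumed by `Devissage38.pGroup_devissage` / `InfRes9.devissage`. -/
theorem hcyc_dvd [Fintype Q] (g : Q) (hg : ∀ x, x ∈ Subgroup.zpowers g) (p : ℕ) (hp : 0 < p)
    (hdef : (cyclicPair (repRhoM B) g).IsDefined)
    (hq : (cyclicPair (repRhoM B) g).q = p)
    (hH0 : Nat.card (cyclicPair (repRhoM B) g).H0 ∣ p) :
    Limits.IsZero (groupCohomology B 1) ∧ Finite (groupCohomology B 2) ∧
      Nat.card (groupCohomology B 2) ∣ p := by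
  obtain ⟨h1, h2, h3⟩ := hcyc B g hg p hp hdef hq hH0
  exact ⟨h1, h2, h3 ▸ dvd_rfl⟩

end Group

end Fermat.Agent.S55.HerbrandHcyc54
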