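/-
S55 / leaf 38-ES-DIV, shape-independent CORE (helper20).

`Q_S` = the union of all finite extensions of `ℚ` inside `ℚ̄` unramified outside `S` (Prelude
vocabulary `IntermediateField.IsUnramifiedOutside`), `E_S` = the group of `S`-units of `Q_S`.
For a prime `p` with `p ∈ S`:

* `root_mem_QS`        : a `p`-th root of an `S`-unit of `Q_S` is again an `S`-unit of `Q_S`;
* `zeta_mem_QS`        : `μ_p ⊆ Q_S`;
* `ES_pow_surjective`  : `E_S` is `p`-divisible;
* `ES_pow_eq_one_iff`  : `E_S[p] = μ_p`;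
* the same for `p ^ n`;
* `QS`/`ES` are stable under `G_ℚ`.

So `0 → μ_p → E_S → E_S → 0` (Kummer sequence) is an exact sequence of `G_ℚ`-stable groups.
-/
import Mathlib
import Fermat.Prelude.Def_GroupCohomology_ContinuousUnramified
import Fermat.Agent.Lib.InertiaGenerate

set_option autoImplicit false
set_option linter.style.haveILetI false

open IntermediateField ExtCitation
open scoped Pointwise

namespace Fermat.Agent.S55.ESDiv20

/-- `ℚ̄` -/
abbrev Qb : Type := AlgebraicClosure ℚ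

/-- `G_ℚ` -/
abbrev GQ : Type := AlgebraicClosure ℚ ≃ₐ[ℚ] AlgebraicClosure ℚ

/-! ### inertia acts trivially modulo the maximal ideal -/

section Inertia

variable {A : ValuationSubring Qb}

theorem inertia_sub_mem_nonunits {τ : GQ} (hτ : τ ∈ A.inertiaSubgroupIn ℚ) {a : Qb}
    (ha : a ∈ A) : τ a - a ∈ A.nonunits := by
  obtain ⟨d, hd, rfl⟩ := hτ
  have hd' : d ∈ A.inertiaSubgroup ℚ := hd
  rw [ValuationSubring.inertiaSubgroup, MonoidHom.mem_ker] at hd'
  have h1 : d • (IsLocalRing.residue A ⟨a, ha⟩) = IsLocalRing.residue A ⟨a, ha⟩ := by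
    have := congrArg (fun f : RingAut (IsLocalRing.ResidueField A) =>
      f (IsLocalRing.residue A ⟨a, ha⟩)) hd'
    exact this
  rw [← IsLocalRing.ResidueField.residue_smul, ← sub_eq_zero, ← map_sub,
    IsLocalRing.residue_eq_zero_iff, ← A.coe_mem_nonunits_iff] at h1
  exact h1

theorem inertia_valuation_sub_lt_one {τ : GQ} (hτ : τ ∈ A.inertiaSubgroupIn ℚ) {a : Qb}
    (ha : a ∈ A) : A.valuation (τ a - a) < 1 :=
  (ValuationSubring.mem_nonunits_iff A).1 (inertia_sub_mem_nonunits hτ ha)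

end Inertia

/-! ### the field `Q_S` -/

section QS

variable (S : Finset Nat.Primes)

/-- `Q_S`: the union of the finite subextensions of `ℚ̄/ℚ` unramified outside `S`. -/
def QS : IntermediateField ℚ Qb where
  carrier := {x | ∃ F : IntermediateField ℚ Qb, F.IsUnramifiedOutside S ∧ x ∈ F}
  mul_mem' := by
    rintro x y ⟨F, hF, hx⟩ ⟨F', hF', hy⟩
    exact ⟨F ⊔ F', hF.sup hF', mul_mem ((le_sup_left : F ≤ F ⊔ F') hx)
      ((le_sup_right : F' ≤ F ⊔ F') hy)⟩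
  one_mem' := ⟨⊥, isUnramifiedOutside_bot S, one_mem _⟩
  add_mem' := by
    rintro x y ⟨F, hF, hx⟩ ⟨F', hF', hy⟩
    exact ⟨F ⊔ F', hF.sup hF', add_mem ((le_sup_left : F ≤ F ⊔ F') hx)
      ((le_sup_right : F' ≤ F ⊔ F') hy)⟩
  zero_mem' := ⟨⊥, isUnramifiedOutside_bot S, zero_mem _⟩
  algebraMap_mem' r := ⟨⊥, isUnramifiedOutside_bot S, IntermediateField.algebraMap_mem _ r⟩
  inv_mem' := by
    rintro x ⟨F, hF, hx⟩
    exact ⟨F, hF, inv_mem hx⟩

variable {S}

theorem mem_QS_iff {x : Qb} :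
    x ∈ QS S ↔ ∃ F : IntermediateField ℚ Qb, F.IsUnramifiedOutside S ∧ x ∈ F := Iff.rfl

theorem le_QS {F : IntermediateField ℚ Qb} (hF : F.IsUnramifiedOutside S) : F ≤ QS S :=
  fun _ hx => ⟨F, hF, hx⟩

/-- inertia outside `S` fixes `Q_S` pointwise -/
theorem inertia_fixes_QS {q : Nat.Primes} (hq : q ∉ S) {A : ValuationSubring Qb}
    (hA : A.LiesOverPrime (q : ℕ)) {s : GQ} (hs : s ∈ A.inertiaSubgroupIn ℚ) {x : Qb}
    (hx : x ∈ QS S) : s x = x := by
  obtain ⟨F, hF, hxF⟩ := hx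
  have h := hF.2 q hq A hA hs
  rw [IntermediateField.mem_fixingSubgroup_iff] at h
  exact h x hxF

end QS

/-! ### `S`-units -/

section SUnit

variable (S : Finset Nat.Primes)

/-- `u` is a unit at every valuation subring of `ℚ̄` over a prime outside `S` -/
def IsSUnitAt (u : Qb) : Prop :=
  u ≠ 0 ∧ ∀ q : Nat.Primes, q ∉ S → ∀ A : ValuationSubring Qb, A.LiesOverPrime (q : ℕ) →
    u ∈ A ∧ u⁻¹ ∈ A

variable {S}

theorem isSUnitAt_one : IsSUnitAt S 1 :=
  ⟨one_ne_zero, fun _ _ A _ => ⟨A.one_mem, by rw [inv_one]; exact A.one_mem⟩⟩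

theorem IsSUnitAt.mul {u v : Qb} (hu : IsSUnitAt S u) (hv : IsSUnitAt S v) :
    IsSUnitAt S (u * v) :=
  ⟨mul_ne_zero hu.1 hv.1, fun q hq A hA => ⟨A.mul_mem _ _ (hu.2 q hq A hA).1 (hv.2 q hq A hA).1, by
    rw [mul_inv]; exact A.mul_mem _ _ (hu.2 q hq A hA).2 (hv.2 q hq A hA).2⟩⟩

theorem IsSUnitAt.inv {u : Qb} (hu : IsSUnitAt S u) : IsSUnitAt S u⁻¹ :=
  ⟨inv_ne_zero hu.1, fun q hq A hA => ⟨(hu.2 q hq A hA).2, by
    rw [inv_inv]; exact (hu.2 q hq A hA).1⟩⟩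

theorem IsSUnitAt.pow {u : Qb} (hu : IsSUnitAt S u) (n : ℕ) : IsSUnitAt S (u ^ n) := by
  induction n with
  | zero => simpa using isSUnitAt_one
  | succ n ih => rw [pow_succ]; exact ih.mul hu

theorem valuation_eq_one_of_mem {A : ValuationSubring Qb} {u : Qb} (h1 : u ∈ A)
    (h2 : u⁻¹ ∈ A) (h0 : u ≠ 0) : A.valuation u = 1 := by
  have a1 : A.valuation u ≤ 1 := (A.valuation_le_one_iff u).2 h1
  have a2 : A.valuation u⁻¹ ≤ 1 := (A.valuation_le_one_iff _).2 h2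
  rw [map_inv₀] at a2
  have hv0 : A.valuation u ≠ 0 := (Valuation.ne_zero_iff _).2 h0
  have a3 : 1 ≤ A.valuation u := by
    have := (inv_le_one₀ (zero_lt_iff.2 hv0)).1 a2
    exact this
  exact le_antisymm a1 a3

theorem mem_of_valuation_eq_one {A : ValuationSubring Qb} {u : Qb} (h : A.valuation u = 1) :
    u ∈ A ∧ u⁻¹ ∈ A := by
  refine ⟨(A.valuation_le_one_iff u).1 h.le, (A.valuation_le_one_iff _).1 ?_⟩
  rw [map_inv₀, h, inv_one]

/-- Galois conjugates of `S`-units are `S`-units -/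
theorem IsSUnitAt.map {u : Qb} (hu : IsSUnitAt S u) (g : GQ) : IsSUnitAt S (g u) := by
  refine ⟨(map_ne_zero g).2 hu.1, fun q hq A hA => ?_⟩
  have hA' : (g⁻¹ • A).LiesOverPrime (q : ℕ) :=
    Fermat.Agent.Lib.InertiaGenerate.liesOverPrime_smul hA g⁻¹
  obtain ⟨h1, h2⟩ := hu.2 q hq (g⁻¹ • A) hA'
  rw [ValuationSubring.mem_pointwise_smul_iff_inv_smul_mem, inv_inv, AlgEquiv.smul_def] at h1 h2
  exact ⟨h1, by rw [← map_inv₀]; exact h2⟩

end SUnit

/-! ### roots of `S`-units -/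

section Roots

variable {S : Finset Nat.Primes} {p : ℕ} [Fact p.Prime]

/-- KEY: inertia at a prime `q ≠ p` fixes every `p`-th root of a fixed unit. -/
theorem inertia_fixes_root {q : ℕ} (hq : q.Prime) (hqp : q ≠ p) {A : ValuationSubring Qb}
    (hA : A.LiesOverPrime q) {s : GQ} (hs : s ∈ A.inertiaSubgroupIn ℚ) {u x : Qb}
    (hu0 : u ≠ 0) (hu : u ∈ A) (hu' : u⁻¹ ∈ A) (hsu : s u = u) (hx : x ^ p = u) :
    s x = x ∧ A.valuation x = 1 := by
  have hp : p.Prime := Fact.out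
  set v := A.valuation with hv
  have hx0 : x ≠ 0 := by
    rintro rfl
    rw [zero_pow hp.ne_zero] at hx
    exact hu0 hx.symm
  have hvu : v u = 1 := valuation_eq_one_of_mem hu hu' hu0
  have hvx : v x = 1 := by
    have h1 : v x ^ p = 1 := by rw [← map_pow, hx, hvu]
    exact (pow_eq_one_iff_left hp.ne_zero).1 h1
  refine ⟨?_, hvx⟩
  have hxA : x ∈ A := (mem_of_valuation_eq_one hvx).1
  by_contra hne
  -- the root of unity `z = s x / x`
  set z : Qb := s x * x⁻¹ with hz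
  have hzp : z ^ p = 1 := by
    rw [hz, mul_pow, ← map_pow, inv_pow, hx, hsu, mul_inv_cancel₀ hu0]
  have hz1 : z ≠ 1 := by
    intro h
    apply hne
    have : s x = z * x := by rw [hz, mul_assoc, inv_mul_cancel₀ hx0, mul_one]
    rw [this, h, one_mul]
  have hvz1 : v (z - 1) < 1 := by
    have h1 : z - 1 = (s x - x) * x⁻¹ := by
      rw [hz, sub_mul, mul_inv_cancel₀ hx0]
    rw [h1, map_mul, map_inv₀, hvx, inv_one, mul_one]
    exact inertia_valuation_sub_lt_one hs hxA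
  have hvz : v z ≤ 1 := by
    have : z = (z - 1) + 1 := by ring
    rw [this]
    exact (v.map_add _ _).trans (max_le hvz1.le (by rw [map_one]))
  have hvpow : ∀ i : ℕ, v (z ^ i) ≤ 1 := fun i => by
    rw [map_pow]; exact pow_le_one₀ zero_le hvz
  have hvzi : ∀ i : ℕ, v (z ^ i - 1) < 1 := by
    intro i
    have h1 : z ^ i - 1 = (z - 1) * ∑ j ∈ Finset.range i, z ^ j := (mul_geom_sum z i).symm
    rw [h1, map_mul]
    have h2 : v (∑ j ∈ Finset.range i, z ^ j) ≤ 1 :=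
      v.map_sum_le fun j _ => hvpow j
    calc v (z - 1) * v (∑ j ∈ Finset.range i, z ^ j) ≤ v (z - 1) * 1 :=
          mul_le_mul' le_rfl h2
      _ = v (z - 1) := mul_one _
      _ < 1 := hvz1
  -- `∑_{i<p} z^i = 0`
  have hsum : ∑ i ∈ Finset.range p, z ^ i = 0 := by
    have h1 : (z - 1) * ∑ i ∈ Finset.range p, z ^ i = 0 := by
      rw [mul_geom_sum, hzp, sub_self]
    exact (mul_eq_zero.1 h1).resolve_left (sub_ne_zero.2 hz1)
  have hpval : v (p : Qb) < 1 := by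
    have h1 : (p : Qb) = - ∑ i ∈ Finset.range p, (z ^ i - 1) := by
      rw [Finset.sum_sub_distrib, hsum]
      simp
    rw [h1, Valuation.map_neg]
    exact v.map_sum_lt (by norm_num) fun i _ => hvzi i
  have hqval : v (q : Qb) < 1 := (ValuationSubring.mem_nonunits_iff A).1 hA
  -- Bézout
  have hcop : Nat.Coprime p q := (Nat.coprime_primes hp hq).2 (Ne.symm hqp)
  have hbez := Nat.Coprime.gcd_eq_one hcop
  have hb : ((p : ℤ) * Nat.gcdA p q + (q : ℤ) * Nat.gcdB p q : ℤ) = 1 := by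
    have := Nat.gcd_eq_gcd_ab p q
    rw [hbez] at this
    exact_mod_cast this.symm
  have hb' : ((p : Qb) * ((Nat.gcdA p q : ℤ) : Qb) + (q : Qb) * ((Nat.gcdB p q : ℤ) : Qb)) = 1 := by
    exact_mod_cast congrArg (fun n : ℤ => (n : Qb)) hb
  have hint : ∀ n : ℤ, v (n : Qb) ≤ 1 := fun n =>
    (A.valuation_le_one_iff _).2 (intCast_mem A n)
  have h1lt : v (1 : Qb) < 1 := by
    rw [← hb']
    refine lt_of_le_of_lt (v.map_add _ _) (max_lt ?_ ?_)
    · rw [map_mul]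
      calc v (p : Qb) * v ((Nat.gcdA p q : ℤ) : Qb) ≤ v (p : Qb) * 1 :=
            mul_le_mul' le_rfl (hint _)
        _ = v (p : Qb) := mul_one _
        _ < 1 := hpval
    · rw [map_mul]
      calc v (q : Qb) * v ((Nat.gcdB p q : ℤ) : Qb) ≤ v (q : Qb) * 1 :=
            mul_le_mul' le_rfl (hint _)
        _ = v (q : Qb) := mul_one _
        _ < 1 := hqval
  rw [map_one] at h1lt
  exact lt_irrefl _ h1lt

theorem isIntegral_Qb (x : Qb) : IsIntegral ℚ x :=
  ((AlgebraicClosure.isAlgebraic ℚ).isAlgebraic x).isIntegral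

theorem mem_fixingSubgroup_adjoin_simple {s : GQ} {x : Qb} (h : s x = x) :
    s ∈ (ℚ⟮x⟯).fixingSubgroup := by
  rw [IntermediateField.mem_fixingSubgroup_iff]
  intro y hy
  have hle : ℚ⟮x⟯ ≤ IntermediateField.fixedField (Subgroup.zpowers s) := by
    rw [IntermediateField.adjoin_simple_le_iff, IntermediateField.mem_fixedField_iff]
    rintro g hg
    obtain ⟨n, rfl⟩ := Subgroup.mem_zpowers_iff.1 hg
    have hs' : ∀ m : ℕ, (s ^ m) x = x := by
      intro m
      induction m with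
      | zero => simp
      | succ m ih => rw [pow_succ, AlgEquiv.mul_apply, h, ih]
    have hsi : ∀ m : ℕ, ((s ^ m)⁻¹) x = x := by
      intro m
      have := hs' m
      rw [AlgEquiv.aut_inv]
      exact (AlgEquiv.symm_apply_eq _).2 this.symm
    cases n with
    | ofNat m => simpa using hs' m
    | negSucc m => simpa [zpow_negSucc] using hsi (m + 1)
  have := (IntermediateField.mem_fixedField_iff _ _).1 (hle hy) s (Subgroup.mem_zpowers s)
  exact this

/-- **`p`-th roots of `S`-units of `Q_S` are `S`-units of `Q_S`** (`p ∈ S`). -/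
theorem root_mem_QS (hpS : pPrime p ∈ S) {u x : Qb} (hu : u ∈ QS S) (hunit : IsSUnitAt S u)
    (hx : x ^ p = u) : x ∈ QS S ∧ IsSUnitAt S x := by
  have hp : p.Prime := Fact.out
  obtain ⟨F, hF, huF⟩ := hu
  have key : ∀ q : Nat.Primes, q ∉ S → ∀ A : ValuationSubring Qb, A.LiesOverPrime (q : ℕ) →
      ∀ s ∈ A.inertiaSubgroupIn ℚ, s x = x ∧ A.valuation x = 1 := by
    intro q hq A hA s hs
    have hqp : (q : ℕ) ≠ p := by
      intro h
      apply hq
      have : q = pPrime p := Subtype.ext h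
      rw [this]; exact hpS
    obtain ⟨h1, h2⟩ := hunit.2 q hq A hA
    have hsu : s u = u := by
      have := hF.2 q hq A hA hs
      rw [IntermediateField.mem_fixingSubgroup_iff] at this
      exact this u huF
    exact inertia_fixes_root q.2 hqp hA hs hunit.1 h1 h2 hsu hx
  have hx0 : x ≠ 0 := by
    rintro rfl
    rw [zero_pow hp.ne_zero] at hx
    exact hunit.1 hx.symm
  refine ⟨⟨F ⊔ ℚ⟮x⟯, ⟨?_, ?_⟩, ?_⟩, hx0, ?_⟩
  · haveI := hF.1
    haveI : FiniteDimensional ℚ ℚ⟮x⟯ := IntermediateField.adjoin.finiteDimensional (isIntegral_Qb x)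
    exact IntermediateField.finiteDimensional_sup F ℚ⟮x⟯
  · intro q hq A hA s hs
    rw [IntermediateField.fixingSubgroup_sup]
    exact ⟨hF.2 q hq A hA hs, mem_fixingSubgroup_adjoin_simple (key q hq A hA s hs).1⟩
  · exact (le_sup_right : ℚ⟮x⟯ ≤ F ⊔ ℚ⟮x⟯) (IntermediateField.mem_adjoin_simple_self ℚ x)
  · intro q hq A hA
    exact mem_of_valuation_eq_one (key q hq A hA 1 (Subgroup.one_mem _)).2

/-- `μ_p ⊆ Q_S` for `p ∈ S` -/
theorem zeta_mem_QS (hpS : pPrime p ∈ S) {z : Qb} (hz : z ^ p = 1) : z ∈ QS S :=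
  (root_mem_QS hpS (one_mem (QS S)) isSUnitAt_one hz).1

theorem zeta_isSUnitAt (hpS : pPrime p ∈ S) {z : Qb} (hz : z ^ p = 1) : IsSUnitAt S z :=
  (root_mem_QS hpS (one_mem (QS S)) isSUnitAt_one hz).2

/-- the `p ^ n` version -/
theorem root_pow_mem_QS (hpS : pPrime p ∈ S) (n : ℕ) {u x : Qb} (hu : u ∈ QS S)
    (hunit : IsSUnitAt S u) (hx : x ^ (p ^ n) = u) : x ∈ QS S ∧ IsSUnitAt S x := by
  induction n generalizing u x with
  | zero =>
    rw [pow_zero, pow_one] at hx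
    rw [hx]; exact ⟨hu, hunit⟩
  | succ n ih =>
    have h1 : (x ^ (p ^ n)) ^ p = u := by rw [← pow_mul, ← pow_succ]; exact hx
    obtain ⟨hy, hyu⟩ := root_mem_QS hpS hu hunit h1
    exact ih hy hyu rfl

end Roots

/-! ### Galois stability -/

section Galois

variable {S : Finset Nat.Primes}

theorem isUnramifiedOutside_map {F : IntermediateField ℚ Qb} (hF : F.IsUnramifiedOutside S)
    (g : GQ) : (F.map (g : Qb →ₐ[ℚ] Qb)).IsUnramifiedOutside S := by
  haveI := hF.1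
  refine ⟨?_, fun q hq A hA s hs => ?_⟩
  · exact LinearEquiv.finiteDimensional (F.equivMap (g : Qb →ₐ[ℚ] Qb)).toLinearEquiv
  · rw [IntermediateField.mem_fixingSubgroup_iff]
    rintro y ⟨x, hxF, rfl⟩
    have hA' : (g⁻¹ • A).LiesOverPrime (q : ℕ) :=
      Fermat.Agent.Lib.InertiaGenerate.liesOverPrime_smul hA g⁻¹
    have hconj := Fermat.Agent.Lib.InertiaGenerate.conj_mem_inertiaSubgroupIn q.2 hA g⁻¹ hs
    rw [inv_inv] at hconj
    have hfix := hF.2 q hq (g⁻¹ • A) hA' hconj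
    rw [IntermediateField.mem_fixingSubgroup_iff] at hfix
    have h := hfix x hxF
    have h2 : g ((g⁻¹ * s * g) x) = g x := congrArg g h
    simpa [AlgEquiv.mul_apply, AlgEquiv.aut_inv] using h2

/-- `Q_S / ℚ` is stable under `G_ℚ` (normal) -/
theorem QS_galois_stable (g : GQ) {x : Qb} (hx : x ∈ QS S) : g x ∈ QS S := by
  obtain ⟨F, hF, hxF⟩ := hx
  exact ⟨F.map (g : Qb →ₐ[ℚ] Qb), isUnramifiedOutside_map hF g, ⟨x, hxF, rfl⟩⟩

end Galois

/-! ### the group `E_S` -/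

section ES

variable (S : Finset Nat.Primes)

/-- `E_S`: the `S`-units of `Q_S`, as a subgroup of `ℚ̄ˣ` -/
def ES : Subgroup Qbˣ where
  carrier := {u | (u : Qb) ∈ QS S ∧ IsSUnitAt S (u : Qb)}
  mul_mem' := by
    rintro u v ⟨hu, hu'⟩ ⟨hv, hv'⟩
    exact ⟨by rw [Units.val_mul]; exact mul_mem hu hv, by rw [Units.val_mul]; exact hu'.mul hv'⟩
  one_mem' := ⟨by rw [Units.val_one]; exact one_mem _, by rw [Units.val_one]; exact isSUnitAt_one⟩
  inv_mem' := by
    rintro u ⟨hu, hu'⟩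
    exact ⟨by rw [Units.val_inv_eq_inv_val]; exact inv_mem hu,
      by rw [Units.val_inv_eq_inv_val]; exact hu'.inv⟩

variable {S}

theorem mem_ES_iff {u : Qbˣ} : u ∈ ES S ↔ (u : Qb) ∈ QS S ∧ IsSUnitAt S (u : Qb) := Iff.rfl

/-- `E_S` is stable under `G_ℚ` -/
theorem ES_galois_stable (g : GQ) {u : Qbˣ} (hu : u ∈ ES S) :
    Units.map (g : Qb →* Qb) u ∈ ES S :=
  ⟨QS_galois_stable g hu.1, hu.2.map g⟩

variable {p : ℕ} [Fact p.Prime]

/-- **`E_S` is `p`-divisible** (`p ∈ S`). -/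
theorem ES_pow_surjective (hpS : pPrime p ∈ S) (u : Qbˣ) (hu : u ∈ ES S) :
    ∃ x ∈ ES S, x ^ p = u := by
  have hp : p.Prime := Fact.out
  obtain ⟨x, hx⟩ := IsAlgClosed.exists_pow_nat_eq (u : Qb) hp.pos
  have hx0 : x ≠ 0 := by
    rintro rfl
    rw [zero_pow hp.ne_zero] at hx
    exact u.ne_zero hx.symm
  obtain ⟨h1, h2⟩ := root_mem_QS hpS hu.1 hu.2 hx
  exact ⟨Units.mk0 x hx0, ⟨h1, h2⟩, Units.ext (by simpa using hx)⟩

/-- `E_S` is `p ^ n`-divisible -/
theorem ES_pow_pow_surjective (hpS : pPrime p ∈ S) (n : ℕ) (u : Qbˣ) (hu : u ∈ ES S) :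
    ∃ x ∈ ES S, x ^ (p ^ n) = u := by
  have hp : p.Prime := Fact.out
  obtain ⟨x, hx⟩ := IsAlgClosed.exists_pow_nat_eq (u : Qb) (pow_pos hp.pos n)
  have hx0 : x ≠ 0 := by
    rintro rfl
    rw [zero_pow (pow_ne_zero n hp.ne_zero)] at hx
    exact u.ne_zero hx.symm
  obtain ⟨h1, h2⟩ := root_pow_mem_QS hpS n hu.1 hu.2 hx
  exact ⟨Units.mk0 x hx0, ⟨h1, h2⟩, Units.ext (by simpa using hx)⟩

/-- `E_S[p] = μ_p` -/
theorem ES_pow_eq_one_iff (hpS : pPrime p ∈ S) (x : Qbˣ) :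
    (x ∈ ES S ∧ x ^ p = 1) ↔ x ^ p = 1 := by
  refine ⟨fun h => h.2, fun h => ⟨?_, h⟩⟩
  have hx : (x : Qb) ^ p = 1 := by
    have := congrArg (fun y : Qbˣ => (y : Qb)) h
    simpa using this
  exact ⟨zeta_mem_QS hpS hx, zeta_isSUnitAt hpS hx⟩

/-- `μ_{p^n} ⊆ E_S` -/
theorem rootsOfUnity_le_ES (hpS : pPrime p ∈ S) (n : ℕ) : rootsOfUnity (p ^ n) Qb ≤ ES S := by
  intro x hx
  have hx' : (x : Qb) ^ (p ^ n) = 1 := by
    have := congrArg (fun y : Qbˣ => (y : Qb)) ((mem_rootsOfUnity _ _).1 hx)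
    simpa using this
  obtain ⟨h1, h2⟩ := root_pow_mem_QS hpS n (one_mem (QS S)) isSUnitAt_one hx'
  exact ⟨h1, h2⟩

end ES

end Fermat.Agent.S55.ESDiv20
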