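/-
S55 / 38b-ES-REP (helper20): `Rep ℤ G_ℚ` packaging of the Galois modules `Q_S^×`, `E_S`, `μ_n`
over the landed `Profin15` level API: smoothness for `globalLevels S`, the Kummer short exact
sequence `0 → μ_p → E_S -p→ E_S → 0`, Hilbert 90 in level cohomology.
-/
import Fermat.Agent.S55.ESDiv20
import Fermat.Agent.S55.Profin15.Global

set_option autoImplicit false
set_option linter.style.haveILetI false

open CategoryTheory groupCohomology IntermediateField ExtCitation

namespace Fermat.Agent.S55.ESRep20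

open Fermat.Agent.S55.ESDiv20 Fermat.Agent.S55.Profin15
open Fermat.Agent.Lib.FrobeniusExists (isAlgebraic_Qb isAlgClosure_Qb isGalois_Qb)

attribute [local instance] isAlgebraic_Qb isAlgClosure_Qb isGalois_Qb

/-! ### Galois-stable subgroups of `ℚ̄ˣ` as `Rep ℤ G_ℚ` -/

/-- Galois-stable subgroups of `ℚ̄ˣ`. -/
def GalStable (H : Subgroup Qbˣ) : Prop :=
  ∀ (g : GQ) (u : Qbˣ), u ∈ H → Units.map (g : Qb →* Qb) u ∈ H

/-- the Galois action on a Galois-stable subgroup of `ℚ̄ˣ` -/
@[reducible] noncomputable def galAction (H : Subgroup Qbˣ) (hH : GalStable H) :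
    MulDistribMulAction GQ ↥H where
  smul g u := ⟨Units.map (g : Qb →* Qb) u, hH g u u.2⟩
  one_smul u := Subtype.ext (Units.ext rfl)
  mul_smul g h u := Subtype.ext (Units.ext rfl)
  smul_mul g u v := Subtype.ext (map_mul _ _ _)
  smul_one g := Subtype.ext (map_one _)

/-- The `G_ℚ`-module (over `ℤ`) attached to a Galois-stable subgroup of `ℚ̄ˣ`; carrier
`Additive ↥H`. -/
noncomputable def unitsRep (H : Subgroup Qbˣ) (hH : GalStable H) : Rep ℤ GQ :=
  letI := galAction H hH
  Rep.ofMulDistribMulAction GQ ↥H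

variable {H H' : Subgroup Qbˣ} {hH : GalStable H} {hH' : GalStable H'}

theorem unitsRep_ρ_apply (g : GQ) (u : ↥H) :
    (unitsRep H hH).ρ g (Additive.ofMul u) =
      Additive.ofMul (⟨Units.map (g : Qb →* Qb) u, hH g u u.2⟩ : ↥H) := rfl

/-- morphism of `unitsRep`s induced by an equivariant group homomorphism -/
noncomputable def homOfMonoidHom (φ : ↥H →* ↥H')
    (hφ : ∀ (g : GQ) (u : ↥H),
      φ ⟨Units.map (g : Qb →* Qb) u, hH g u u.2⟩ =
        ⟨Units.map (g : Qb →* Qb) (φ u), hH' g (φ u) (φ u).2⟩) :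
    unitsRep H hH ⟶ unitsRep H' hH' :=
  Rep.ofHom (ρ := (unitsRep H hH).ρ) (σ := (unitsRep H' hH').ρ)
    { toLinearMap := (MonoidHom.toAdditive φ).toIntLinearMap
      isIntertwining' := fun g => LinearMap.ext fun v => hφ g (Additive.toMul v) }

theorem homOfMonoidHom_apply (φ : ↥H →* ↥H') (hφ) (u : ↥H) :
    (homOfMonoidHom (hH := hH) (hH' := hH') φ hφ).hom (Additive.ofMul u) =
      Additive.ofMul (φ u) := rfl

/-- inclusion of Galois-stable subgroups -/
noncomputable def incl (h : H ≤ H') : unitsRep H hH ⟶ unitsRep H' hH' :=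
  homOfMonoidHom (Subgroup.inclusion h) (fun _ _ => rfl)

/-- the `n`-th power map -/
noncomputable def powHom (n : ℕ) : unitsRep H hH ⟶ unitsRep H hH :=
  homOfMonoidHom (powMonoidHom n) (fun g u => Subtype.ext (by simp))

theorem incl_apply (h : H ≤ H') (u : ↥H) :
    (incl (hH := hH) (hH' := hH') h).hom (Additive.ofMul u) =
      Additive.ofMul (Subgroup.inclusion h u) := rfl

theorem powHom_apply (n : ℕ) (u : ↥H) :
    (powHom (hH := hH) n).hom (Additive.ofMul u) = Additive.ofMul (u ^ n) := rfl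

theorem powHom_eq_nsmul (n : ℕ) (x : unitsRep H hH) : (powHom (hH := hH) n).hom x = n • x := rfl

theorem incl_injective (h : H ≤ H') :
    Function.Injective (incl (hH := hH) (hH' := hH') h).hom := by
  intro x y hxy
  have : Subgroup.inclusion h (Additive.toMul (show Additive ↥H from x)) =
      Subgroup.inclusion h (Additive.toMul (show Additive ↥H from y)) := congrArg Additive.toMul hxy
  exact congrArg Additive.ofMul (Subgroup.inclusion_injective h this)

/-! ### smoothness for `globalLevels S` -/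

section Smooth

variable {S : Finset Nat.Primes}

theorem unitsRep_isSmooth (h : ∀ u ∈ H, (u : Qb) ∈ QS S) :
    (globalLevels S).IsSmooth (unitsRep H hH) := by
  intro x
  obtain ⟨F, hF, hxF⟩ := h (Additive.toMul (show Additive ↥H from x) : ↥H)
    (Additive.toMul (show Additive ↥H from x) : ↥H).2
  obtain ⟨U, hU, hle⟩ := exists_level_le hF
  refine ⟨U, hU, fun s hs => ?_⟩
  have hs' : s ∈ F.fixingSubgroup := hle hs
  have h1 : s ((Additive.toMul (show Additive ↥H from x) : ↥H) : Qbˣ) =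
      ((Additive.toMul (show Additive ↥H from x) : ↥H) : Qbˣ) :=
    (IntermediateField.mem_fixingSubgroup_iff _ _).1 hs' _ hxF
  exact congrArg Additive.ofMul (Subtype.ext (Units.ext h1))

end Smooth

/-! ### the instances `Q_S^×`, `E_S`, `μ_n` -/

section Instances

variable (S : Finset Nat.Primes)

/-- `Q_S^×` as a subgroup of `ℚ̄ˣ` -/
def QSx : Subgroup Qbˣ where
  carrier := {u | (u : Qb) ∈ QS S}
  mul_mem' {u v} hu hv := by
    show ((u * v : Qbˣ) : Qb) ∈ QS S
    rw [Units.val_mul]; exact (QS S).mul_mem hu hv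
  one_mem' := (QS S).one_mem
  inv_mem' {u} hu := by
    show ((u⁻¹ : Qbˣ) : Qb) ∈ QS S
    rw [Units.val_inv_eq_inv_val]; exact (QS S).inv_mem hu

variable {S}

theorem mem_QSx_iff {u : Qbˣ} : u ∈ QSx S ↔ (u : Qb) ∈ QS S := Iff.rfl

theorem QSx_galStable : GalStable (QSx S) := fun g _ hu => QS_galois_stable g hu

theorem ES_galStable : GalStable (ES S) := fun g _ hu => ES_galois_stable g hu

theorem ES_le_QSx : ES S ≤ QSx S := fun _ hu => hu.1

theorem rootsOfUnity_galStable (n : ℕ) : GalStable (rootsOfUnity n Qb) := by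
  intro g u hu
  rw [mem_rootsOfUnity] at hu ⊢
  rw [← map_pow, hu, map_one]

variable (S)

/-- `Q_S^×` as a `G_ℚ`-module -/
noncomputable abbrev QSxRep : Rep ℤ GQ := unitsRep (QSx S) QSx_galStable

/-- `E_S` as a `G_ℚ`-module -/
noncomputable abbrev ESRep : Rep ℤ GQ := unitsRep (ES S) ES_galStable

/-- `μ_n(ℚ̄)` as a `G_ℚ`-module -/
noncomputable abbrev muRep (n : ℕ) : Rep ℤ GQ := unitsRep (rootsOfUnity n Qb) (rootsOfUnity_galStable n)

theorem QSxRep_isSmooth : (globalLevels S).IsSmooth (QSxRep S) :=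
  unitsRep_isSmooth fun _ hu => hu

theorem ESRep_isSmooth : (globalLevels S).IsSmooth (ESRep S) :=
  unitsRep_isSmooth fun _ hu => hu.1

variable {S} {p : ℕ} [Fact p.Prime]

theorem muRep_isSmooth (hpS : pPrime p ∈ S) (n : ℕ) :
    (globalLevels S).IsSmooth (muRep (p ^ n)) :=
  unitsRep_isSmooth fun _ hu => (rootsOfUnity_le_ES hpS n hu).1

end Instances

/-! ### the Kummer sequence `0 → μ_{p^n} → E_S → E_S → 0` -/

section Kummer

variable {S : Finset Nat.Primes} {p : ℕ} [Fact p.Prime]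

/-- `μ_{p^n} → E_S` -/
noncomputable def kummerι (hpS : pPrime p ∈ S) (n : ℕ) : muRep (p ^ n) ⟶ ESRep S :=
  incl (rootsOfUnity_le_ES hpS n)

theorem kummerι_injective (hpS : pPrime p ∈ S) (n : ℕ) :
    Function.Injective (kummerι hpS n).hom :=
  incl_injective _

theorem kummer_pow_surjective (hpS : pPrime p ∈ S) (n : ℕ) :
    Function.Surjective (powHom (hH := ES_galStable (S := S)) (p ^ n)).hom := by
  intro y
  obtain ⟨x, hx, hxy⟩ := ES_pow_pow_surjective hpS n
    ((Additive.toMul (show Additive ↥(ES S) from y) : ↥(ES S)) : Qbˣ)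
    (Additive.toMul (show Additive ↥(ES S) from y) : ↥(ES S)).2
  refine ⟨Additive.ofMul (⟨x, hx⟩ : ↥(ES S)), ?_⟩
  exact congrArg Additive.ofMul (Subtype.ext hxy)

theorem kummer_exact (hpS : pPrime p ∈ S) (n : ℕ) (x : ESRep S) :
    (powHom (hH := ES_galStable (S := S)) (p ^ n)).hom x = 0 ↔
      ∃ a : muRep (p ^ n), (kummerι hpS n).hom a = x := by
  constructor
  · intro hx
    have h1 : (Additive.toMul (show Additive ↥(ES S) from x) : ↥(ES S)) ^ (p ^ n) = 1 :=
      congrArg Additive.toMul hx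
    have h2 : ((Additive.toMul (show Additive ↥(ES S) from x) : ↥(ES S)) : Qbˣ) ^ (p ^ n) = 1 := by
      have := congrArg (Subtype.val) h1
      simpa using this
    refine ⟨Additive.ofMul (⟨((Additive.toMul (show Additive ↥(ES S) from x) : ↥(ES S)) : Qbˣ),
      (mem_rootsOfUnity _ _).2 h2⟩ : ↥(rootsOfUnity (p ^ n) Qb)), ?_⟩
    rfl
  · rintro ⟨a, rfl⟩
    have ha : ((Additive.toMul (show Additive ↥(rootsOfUnity (p ^ n) Qb) from a) :
        ↥(rootsOfUnity (p ^ n) Qb)) : Qbˣ) ^ (p ^ n) = 1 :=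
      (mem_rootsOfUnity _ _).1 (Additive.toMul (show Additive ↥(rootsOfUnity (p ^ n) Qb) from a) :
        ↥(rootsOfUnity (p ^ n) Qb)).2
    exact congrArg Additive.ofMul (Subtype.ext ha)

end Kummer

/-! ### Hilbert 90 in level cohomology -/

section Hilbert90

/-- **Hilbert 90 for level cochains**, in the generality of an arbitrary group `Γ` mapping to
`G_ℚ` (subgroups of `G_ℚ`, `G_ℚ` itself, local Galois groups): a multiplicative `1`-cocycle
`z : Γ → ℚ̄ˣ` which is constant modulo (the preimage of) the fixing subgroup of a finite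
extension `F/ℚ` is a coboundary, `z σ = σ b / b`; moreover `b` can be found in any subfield `M`
containing the values of `z` and the `Γ`-conjugates of `F`. -/
theorem hilbert90_level {Γ : Type*} [Group Γ] (r : Γ →* GQ) (z : Γ → Qbˣ)
    (hz : ∀ σ τ : Γ, z (σ * τ) = z σ * Units.map ((r σ : GQ) : Qb →* Qb) (z τ))
    (F : IntermediateField ℚ Qb) [FiniteDimensional ℚ F]
    (hc : ∀ σ s : Γ, r s ∈ F.fixingSubgroup → z (σ * s) = z σ)
    (M : IntermediateField ℚ Qb) (hzM : ∀ σ, (z σ : Qb) ∈ M)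
    (hFM : ∀ σ : Γ, ∀ c ∈ F, r σ c ∈ M) :
    ∃ b : Qbˣ, (b : Qb) ∈ M ∧ ∀ σ : Γ, z σ = Units.map ((r σ : GQ) : Qb →* Qb) b / b := by
  classical
  haveI : F.fixingSubgroup.FiniteIndex := fixingSubgroup_finiteIndex F
  set W : Subgroup Γ := F.fixingSubgroup.comap r with hW
  haveI : W.FiniteIndex := ⟨by
    rw [hW, Subgroup.index_comap]
    exact (Subgroup.instFiniteIndex_subgroupOf F.fixingSubgroup r.range).index_ne_zero⟩
  haveI : Finite (Γ ⧸ W) := Subgroup.finite_quotient_of_finiteIndex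
  letI : Fintype (Γ ⧸ W) := Fintype.ofFinite _
  -- the summands
  let φ : F → Γ → Qb := fun c σ => (z σ : Qb) * r σ (c : Qb)
  have hφ : ∀ (c : F) (σ τ : Γ), (σ : Γ ⧸ W) = τ → φ c σ = φ c τ := by
    intro c σ τ h
    have h' : σ⁻¹ * τ ∈ W := QuotientGroup.eq.1 h
    have hs : r (σ⁻¹ * τ) ∈ F.fixingSubgroup := h'
    have e : σ * (σ⁻¹ * τ) = τ := by group
    have h1 : z τ = z σ := by rw [← e]; exact hc σ _ hs
    have h2 : r τ (c : Qb) = r σ (c : Qb) := by
      rw [← e, map_mul, AlgEquiv.mul_apply]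
      congr 1
      exact (IntermediateField.mem_fixingSubgroup_iff _ _).1 hs _ c.2
    show (z σ : Qb) * r σ (c : Qb) = (z τ : Qb) * r τ (c : Qb)
    rw [h1, h2]
  let P : F → Qb := fun c => ∑ q : Γ ⧸ W, φ c (Quotient.out q)
  -- transformation rule
  have hP : ∀ (c : F) (τ : Γ), r τ (P c) = ((z τ : Qb))⁻¹ * P c := by
    intro c τ
    have h1 : ∀ q : Γ ⧸ W, r τ (φ c (Quotient.out q)) =
        ((z τ : Qb))⁻¹ * φ c (Quotient.out (τ • q)) := by
      intro q
      have hq : ((τ * Quotient.out q : Γ) : Γ ⧸ W) = (Quotient.out (τ • q) : Γ) := by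
        rw [QuotientGroup.out_eq']
        conv_rhs => rw [← QuotientGroup.out_eq' q]
        rfl
      rw [← hφ c _ _ hq]
      show r τ ((z (Quotient.out q) : Qb) * r (Quotient.out q) (c : Qb)) =
        ((z τ : Qb))⁻¹ * ((z (τ * Quotient.out q) : Qb) * r (τ * Quotient.out q) (c : Qb))
      rw [hz τ (Quotient.out q), Units.val_mul, map_mul, map_mul, AlgEquiv.mul_apply, ← mul_assoc,
        ← mul_assoc, inv_mul_cancel₀ (Units.ne_zero _), one_mul]
      rfl
    show r τ (∑ q : Γ ⧸ W, φ c (Quotient.out q)) = _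
    rw [map_sum, Finset.sum_congr rfl (fun q _ => h1 q), ← Finset.mul_sum]
    congr 1
    exact Fintype.sum_equiv (MulAction.toPerm τ) _ _ (fun q => rfl)
  -- non-vanishing, by Dedekind
  obtain ⟨c, hcne⟩ : ∃ c : F, P c ≠ 0 := by
    by_contra hcon
    push Not at hcon
    let χ : Γ ⧸ W → (F →* Qb) := fun q =>
      ((r (Quotient.out q) : GQ) : Qb →* Qb).comp ((algebraMap F Qb : F →+* Qb) : F →* Qb)
    have hχ : Function.Injective χ := by
      intro q q' h
      rw [← QuotientGroup.out_eq' q, ← QuotientGroup.out_eq' q']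
      refine QuotientGroup.eq.2 ?_
      show r ((Quotient.out q)⁻¹ * Quotient.out q') ∈ F.fixingSubgroup
      rw [IntermediateField.mem_fixingSubgroup_iff]
      intro x hx
      have := DFunLike.congr_fun h (⟨x, hx⟩ : F)
      have h' : r (Quotient.out q) x = r (Quotient.out q') x := this
      rw [map_mul, map_inv, AlgEquiv.mul_apply, ← h']
      exact (r (Quotient.out q)).symm_apply_apply x
    have hli : LinearIndependent Qb (fun q : Γ ⧸ W => ((χ q : F →* Qb) : F → Qb)) :=
      (linearIndependent_monoidHom F Qb).comp χ hχ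
    have h0 := Fintype.linearIndependent_iff.1 hli (fun q => (z (Quotient.out q) : Qb)) (by
      funext c
      simp only [Finset.sum_apply, Pi.smul_apply, smul_eq_mul, Pi.zero_apply]
      exact hcon c)
    exact Units.ne_zero _ (h0 ((1 : Γ) : Γ ⧸ W))
  refine ⟨(Units.mk0 (P c) hcne)⁻¹, ?_, fun σ => ?_⟩
  · rw [Units.val_inv_eq_inv_val, Units.val_mk0]
    refine M.inv_mem (M.sum_mem fun q _ => M.mul_mem (hzM _) (hFM _ _ c.2))
  · apply Units.ext
    rw [Units.val_div_eq_div_val, Units.coe_map, Units.val_inv_eq_inv_val, Units.val_mk0]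
    show (z σ : Qb) = r σ (P c)⁻¹ / (P c)⁻¹
    rw [map_inv₀, hP c σ, mul_inv, inv_inv, div_eq_mul_inv, inv_inv, mul_assoc,
      inv_mul_cancel₀ hcne, mul_one]

end Hilbert90

/-! ### `H¹(G_S, Q_S^×) = 0` -/

section H1QS

variable (S : Finset Nat.Primes)

/-- every level `1`-cocycle of `Q_S^×` is a coboundary -/
theorem mem_coboundaries₁_QSxRep (f : GQ → QSxRep S)
    (hf : f ∈ (globalLevels S).Z₁ (QSxRep S)) : f ∈ coboundaries₁ (QSxRep S) := by
  obtain ⟨hcoc, U, ⟨_, F, hF, rfl⟩, hconst⟩ := hf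
  haveI := hF.1
  have hcoc' := (mem_cocycles₁_iff f).1 hcoc
  let z : GQ → Qbˣ := fun σ => ((Additive.toMul (show Additive ↥(QSx S) from f σ) : ↥(QSx S)) : Qbˣ)
  obtain ⟨b, hbM, hb⟩ := hilbert90_level (MonoidHom.id GQ) z
    (fun σ τ => by
      have h := hcoc' σ τ
      have h' := congrArg (fun x : QSxRep S =>
        ((Additive.toMul (show Additive ↥(QSx S) from x) : ↥(QSx S)) : Qbˣ)) h
      show z (σ * τ) = z σ * Units.map ((σ : GQ) : Qb →* Qb) (z τ)
      rw [mul_comm]
      exact h')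
    F
    (fun σ s hs => by
      show z (σ * s) = z σ
      simp only [z, hconst σ s hs])
    (QS S) (fun σ => (Additive.toMul (show Additive ↥(QSx S) from f σ) : ↥(QSx S)).2)
    (fun σ c hc => QS_galois_stable σ (le_QS hF hc))
  refine ⟨Additive.ofMul (⟨b, hbM⟩ : ↥(QSx S)), funext fun σ => ?_⟩
  have h1 : z σ = Units.map ((σ : GQ) : Qb →* Qb) b / b := hb σ
  symm
  show f σ = Additive.ofMul ((⟨Units.map ((σ : GQ) : Qb →* Qb) b, _⟩ : ↥(QSx S)) /
    (⟨b, hbM⟩ : ↥(QSx S)))
  have h2 : (Additive.toMul (show Additive ↥(QSx S) from f σ) : ↥(QSx S)) =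
      (⟨Units.map ((σ : GQ) : Qb →* Qb) b, QSx_galStable σ b hbM⟩ : ↥(QSx S)) /
        (⟨b, hbM⟩ : ↥(QSx S)) := Subtype.ext h1
  exact congrArg Additive.ofMul h2

/-- **`H¹(G_S, Q_S^×) = 0`** in level cohomology. -/
theorem H1_QSxRep_subsingleton : Subsingleton ((globalLevels S).H1 (QSxRep S)) := by
  refine ⟨fun x y => ?_⟩
  obtain ⟨a, rfl⟩ := Submodule.mkQ_surjective _ x
  obtain ⟨b, rfl⟩ := Submodule.mkQ_surjective _ y
  have ha : (globalLevels S).H1π (QSxRep S) a = 0 :=
    ((globalLevels S).H1π_eq_zero_iff (QSxRep S) a).2 (mem_coboundaries₁_QSxRep S a a.2)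
  have hb : (globalLevels S).H1π (QSxRep S) b = 0 :=
    ((globalLevels S).H1π_eq_zero_iff (QSxRep S) b).2 (mem_coboundaries₁_QSxRep S b b.2)
  exact ha.trans hb.symm

end H1QS

end Fermat.Agent.S55.ESRep20
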