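/-
S55 / 15c-PLACE-DICT (helper58): dictionary between the place-free "coind" model of the ideles
(norms `‖padicEmbedding q (σ x)‖` in `PadicAlgCl q`, `σ : L →ₐ[ℚ] ℚbar`) and Mathlib's primes of a
number field (`IsDedekindDomain.HeightOneSpectrum (𝓞 L)`, `v.valuation`).

Mathlib + Prelude `Def_GaloisRep_CompletionBridge` only.
-/
import Mathlib
import Fermat.Prelude.Def_GaloisRep_CompletionBridge

set_option autoImplicit false
set_option linter.unusedSectionVars false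

open NumberField IsDedekindDomain

namespace Fermat.Agent.S55.PlaceDict58

/-- `ℚbar` -/
abbrev Qb := AlgebraicClosure ℚ

/-- a finite-dimensional intermediate field of `ℚbar/ℚ` is a number field (not a global instance) -/
theorem numberField_of_finiteDimensional (L : IntermediateField ℚ Qb) [FiniteDimensional ℚ L] :
    NumberField L :=
  { to_charZero := inferInstance, to_finiteDimensional := inferInstance }

section Norm

variable (q : ℕ) [Fact q.Prime] (L : IntermediateField ℚ Qb) (σ : L →ₐ[ℚ] Qb)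

/-- the ring hom `L → PadicAlgCl q`, `x ↦ padicEmbedding q (σ x)` -/
noncomputable def emb : L →+* PadicAlgCl q :=
  ((padicEmbedding q).comp σ).toRingHom

@[simp] theorem emb_apply (x : L) : emb q L σ x = padicEmbedding q (σ x) := rfl

/-- the `q`-adic norm of `x : L` through the embedding `σ` -/
noncomputable def nrm (x : L) : ℝ := ‖padicEmbedding q (σ x)‖

theorem nrm_def (x : L) : nrm q L σ x = ‖emb q L σ x‖ := rfl

@[simp] theorem nrm_zero : nrm q L σ 0 = 0 := by simp [nrm]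

@[simp] theorem nrm_one : nrm q L σ 1 = 1 := by simp [nrm]

theorem nrm_mul (x y : L) : nrm q L σ (x * y) = nrm q L σ x * nrm q L σ y := by
  simp [nrm]

theorem nrm_nonneg (x : L) : 0 ≤ nrm q L σ x := norm_nonneg _

theorem nrm_eq_zero_iff {x : L} : nrm q L σ x = 0 ↔ x = 0 := by
  rw [nrm, norm_eq_zero]
  constructor
  · intro h
    have h1 : σ x = 0 := (map_eq_zero_iff _ (padicEmbedding q).injective).1 h
    exact (map_eq_zero_iff _ σ.injective).1 h1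
  · rintro rfl; simp

theorem nrm_pos {x : L} (hx : x ≠ 0) : 0 < nrm q L σ x :=
  lt_of_le_of_ne (nrm_nonneg q L σ x) (fun h => hx ((nrm_eq_zero_iff q L σ).1 h.symm))

theorem nrm_inv (x : L) : nrm q L σ x⁻¹ = (nrm q L σ x)⁻¹ := by
  simp [nrm]

theorem nrm_div (x y : L) : nrm q L σ (x / y) = nrm q L σ x / nrm q L σ y := by
  simp [nrm]

theorem nrm_pow (x : L) (n : ℕ) : nrm q L σ (x ^ n) = nrm q L σ x ^ n := by
  simp [nrm]

theorem nrm_zpow (x : L) (n : ℤ) : nrm q L σ (x ^ n) = nrm q L σ x ^ n := by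
  simp [nrm]

theorem nrm_neg (x : L) : nrm q L σ (-x) = nrm q L σ x := by
  simp [nrm]

theorem nrm_add_le_max (x y : L) : nrm q L σ (x + y) ≤ max (nrm q L σ x) (nrm q L σ y) := by
  simp only [nrm, map_add]
  exact IsUltrametricDist.norm_add_le_max _ _

theorem nrm_sub_le_max (x y : L) : nrm q L σ (x - y) ≤ max (nrm q L σ x) (nrm q L σ y) := by
  rw [sub_eq_add_neg]
  exact (nrm_add_le_max q L σ x (-y)).trans (by rw [nrm_neg])

theorem nrm_algebraMap_rat (r : ℚ) : nrm q L σ (algebraMap ℚ L r) = ‖(r : ℚ_[q])‖ := by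
  rw [nrm]
  have h1 : padicEmbedding q (σ (algebraMap ℚ L r)) = algebraMap ℚ (PadicAlgCl q) r := by
    rw [AlgHom.commutes, AlgHom.commutes]
  rw [h1]
  have h2 : algebraMap ℚ (PadicAlgCl q) r = algebraMap ℚ_[q] (PadicAlgCl q) (r : ℚ_[q]) := by
    rw [IsScalarTower.algebraMap_apply ℚ ℚ_[q] (PadicAlgCl q)]
    simp
  rw [h2, PadicAlgCl.norm_extends]

theorem nrm_natCast (n : ℕ) : nrm q L σ (n : L) = ‖(n : ℚ_[q])‖ := by
  have h := nrm_algebraMap_rat q L σ (n : ℚ)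
  simpa using h

theorem nrm_intCast (n : ℤ) : nrm q L σ (n : L) = ‖(n : ℚ_[q])‖ := by
  have h := nrm_algebraMap_rat q L σ (n : ℚ)
  simpa using h

theorem nrm_natCast_q : nrm q L σ (q : L) = (q : ℝ)⁻¹ := by
  rw [nrm_natCast, Padic.norm_p]

theorem nrm_natCast_q_lt_one : nrm q L σ (q : L) < 1 := by
  rw [nrm_natCast_q]
  have hq : (1 : ℝ) < q := by exact_mod_cast (Fact.out : q.Prime).one_lt
  exact inv_lt_one_of_one_lt₀ hq

/-- a prime `ℓ ≠ q` is a `q`-adic unit -/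
theorem nrm_natCast_prime_ne {ℓ : ℕ} (hℓ : ℓ.Prime) (hne : ℓ ≠ q) : nrm q L σ (ℓ : L) = 1 := by
  rw [nrm_natCast]
  have hq : q.Prime := Fact.out
  have hcop : ¬ q ∣ ℓ := fun h => hne ((Nat.prime_dvd_prime_iff_eq hq hℓ).1 h).symm
  rw [Padic.norm_natCast_eq_one_iff]
  exact (Nat.Prime.coprime_iff_not_dvd hq).2 hcop

/-- the valuation subring `{x | ‖x‖_σ ≤ 1}` of `L` -/
noncomputable def ballSubring : ValuationSubring L :=
  (padicIntegers q).comap (emb q L σ)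

theorem mem_ballSubring_iff {x : L} : x ∈ ballSubring q L σ ↔ nrm q L σ x ≤ 1 := by
  rw [ballSubring, ValuationSubring.mem_comap, mem_padicIntegers_iff, nrm_def]
  rw [← NNReal.coe_le_coe]
  simp

theorem nrm_le_one_of_isIntegral {x : L} (hx : IsIntegral ℤ x) : nrm q L σ x ≤ 1 := by
  rw [← mem_ballSubring_iff]
  have h1 : IsIntegral (ballSubring q L σ) x := hx.tower_top
  obtain ⟨y, hy⟩ := IsIntegrallyClosed.algebraMap_eq_of_integral (R := ballSubring q L σ) (K := L) h1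
  rw [← hy]; exact y.2

theorem ballSubring_ne_top : ballSubring q L σ ≠ ⊤ := by
  intro h
  have hmem : ((q : L))⁻¹ ∈ ballSubring q L σ := by rw [h]; trivial
  rw [mem_ballSubring_iff, nrm_inv, nrm_natCast_q, inv_inv] at hmem
  have hq : (1 : ℝ) < q := by exact_mod_cast (Fact.out : q.Prime).one_lt
  linarith

end Norm

section Place

variable (q : ℕ) [Fact q.Prime] (L : IntermediateField ℚ Qb) [NumberField L] (σ : L →ₐ[ℚ] Qb)

theorem nrm_le_one_of_mem_ringOfIntegers (x : 𝓞 L) : nrm q L σ (x : L) ≤ 1 :=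
  nrm_le_one_of_isIntegral q L σ (RingOfIntegers.isIntegral_coe x)

/-- the prime ideal `{x ∈ 𝓞 L | ‖x‖_σ < 1}` -/
noncomputable def primeIdeal : Ideal (𝓞 L) where
  carrier := {x | nrm q L σ (x : L) < 1}
  add_mem' := by
    intro a b ha hb
    change nrm q L σ (a : L) < 1 at ha
    change nrm q L σ (b : L) < 1 at hb
    change nrm q L σ ((a + b : 𝓞 L) : L) < 1
    have hab : ((a + b : 𝓞 L) : L) = (a : L) + (b : L) := by push_cast; rfl
    rw [hab]
    exact (nrm_add_le_max q L σ _ _).trans_lt (max_lt ha hb)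
  zero_mem' := by simp
  smul_mem' := by
    intro c x hx
    change nrm q L σ (x : L) < 1 at hx
    change nrm q L σ ((c * x : 𝓞 L) : L) < 1
    have hcx : ((c * x : 𝓞 L) : L) = (c : L) * (x : L) := by push_cast; rfl
    rw [hcx, nrm_mul]
    calc nrm q L σ (c : L) * nrm q L σ (x : L) ≤ 1 * nrm q L σ (x : L) :=
          mul_le_mul_of_nonneg_right (nrm_le_one_of_mem_ringOfIntegers q L σ c) (nrm_nonneg _ _ _ _)
      _ < 1 := by rw [one_mul]; exact hx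

theorem mem_primeIdeal_iff (x : 𝓞 L) : x ∈ primeIdeal q L σ ↔ nrm q L σ (x : L) < 1 := Iff.rfl

theorem natCast_mem_primeIdeal : (q : 𝓞 L) ∈ primeIdeal q L σ := by
  rw [mem_primeIdeal_iff]
  simpa using nrm_natCast_q_lt_one q L σ

instance primeIdeal_isPrime : (primeIdeal q L σ).IsPrime := by
  refine ⟨?_, ?_⟩
  · intro h
    have h1 : (1 : 𝓞 L) ∈ primeIdeal q L σ := by rw [h]; trivial
    rw [mem_primeIdeal_iff] at h1
    simp at h1
  · intro x y hxy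
    have hxy' : ((x * y : 𝓞 L) : L) = (x : L) * (y : L) := by push_cast; rfl
    rw [mem_primeIdeal_iff, hxy', nrm_mul] at hxy
    by_contra hcon
    push Not at hcon
    rw [mem_primeIdeal_iff, mem_primeIdeal_iff] at hcon
    have hx : nrm q L σ (x : L) = 1 :=
      le_antisymm (nrm_le_one_of_mem_ringOfIntegers q L σ x) (not_lt.1 hcon.1)
    have hy : nrm q L σ (y : L) = 1 :=
      le_antisymm (nrm_le_one_of_mem_ringOfIntegers q L σ y) (not_lt.1 hcon.2)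
    rw [hx, hy] at hxy
    simp at hxy

theorem primeIdeal_ne_bot : primeIdeal q L σ ≠ ⊥ := by
  intro h
  have h1 := natCast_mem_primeIdeal q L σ
  rw [h, Ideal.mem_bot] at h1
  have hq : (q : 𝓞 L) ≠ 0 := by
    have : (q : ℕ) ≠ 0 := (Fact.out : q.Prime).ne_zero
    exact_mod_cast this
  exact hq h1

/-- the place of `𝓞 L` cut out by the `q`-adic norm through `σ` -/
noncomputable def placeOf : HeightOneSpectrum (𝓞 L) :=
  ⟨primeIdeal q L σ, primeIdeal_isPrime q L σ, primeIdeal_ne_bot q L σ⟩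

theorem mem_placeOf_iff (x : 𝓞 L) : x ∈ (placeOf q L σ).asIdeal ↔ nrm q L σ (x : L) < 1 := Iff.rfl

theorem natCast_mem_placeOf : (q : 𝓞 L) ∈ (placeOf q L σ).asIdeal := natCast_mem_primeIdeal q L σ

theorem nrm_eq_one_of_notMem {x : 𝓞 L} (hx : x ∉ (placeOf q L σ).asIdeal) :
    nrm q L σ (x : L) = 1 :=
  le_antisymm (nrm_le_one_of_mem_ringOfIntegers q L σ x) (not_lt.1 hx)

theorem valuationSubringAtPrime_le_ballSubring :
    HeightOneSpectrum.valuationSubringAtPrime L (placeOf q L σ) ≤ ballSubring q L σ := by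
  rintro x ⟨a, s, hs, rfl⟩
  rw [mem_ballSubring_iff, nrm_mul, nrm_inv]
  have hs1 : nrm q L σ ((s : 𝓞 L) : L) = 1 := nrm_eq_one_of_notMem q L σ hs
  have ha : nrm q L σ ((a : 𝓞 L) : L) ≤ 1 := nrm_le_one_of_mem_ringOfIntegers q L σ a
  simpa [hs1] using ha

theorem valuationSubring_eq_ballSubring :
    ((placeOf q L σ).valuation L).valuationSubring = ballSubring q L σ := by
  rw [← HeightOneSpectrum.valuationSubringAtPrime_eq_valuationSubring]
  exact ValuationSubring.eq_of_le_of_ne_top _ (valuationSubringAtPrime_le_ballSubring q L σ)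
    (ballSubring_ne_top q L σ)

/-- **(P2)** `‖x‖_σ ≤ 1 ↔ v_σ(x) ≤ 1` -/
theorem nrm_le_one_iff (x : L) : nrm q L σ x ≤ 1 ↔ (placeOf q L σ).valuation L x ≤ 1 := by
  rw [← mem_ballSubring_iff, ← valuationSubring_eq_ballSubring, Valuation.mem_valuationSubring_iff]

/-- `‖x‖_σ = 1 ↔ v_σ(x) = 1` -/
theorem nrm_eq_one_iff (x : L) : nrm q L σ x = 1 ↔ (placeOf q L σ).valuation L x = 1 := by
  by_cases hx : x = 0
  · subst hx; simp
  constructor
  · intro h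
    have h1 : (placeOf q L σ).valuation L x ≤ 1 := (nrm_le_one_iff q L σ x).1 h.le
    have h2 : (placeOf q L σ).valuation L x⁻¹ ≤ 1 :=
      (nrm_le_one_iff q L σ x⁻¹).1 (by rw [nrm_inv, h, inv_one])
    rw [map_inv₀] at h2
    have h3 : 1 ≤ (placeOf q L σ).valuation L x := by
      have hne : (placeOf q L σ).valuation L x ≠ 0 := by simpa using hx
      exact (inv_le_one₀ (zero_lt_iff.2 hne)).1 h2
    exact le_antisymm h1 h3
  · intro h
    have h1 : nrm q L σ x ≤ 1 := (nrm_le_one_iff q L σ x).2 h.le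
    have h2 : nrm q L σ x⁻¹ ≤ 1 :=
      (nrm_le_one_iff q L σ x⁻¹).2 (by rw [map_inv₀, h, inv_one])
    rw [nrm_inv] at h2
    have h3 : 1 ≤ nrm q L σ x := (inv_le_one₀ (nrm_pos q L σ hx)).1 h2
    exact le_antisymm h1 h3

/-- `‖x‖_σ < 1 ↔ v_σ(x) < 1` -/
theorem nrm_lt_one_iff (x : L) : nrm q L σ x < 1 ↔ (placeOf q L σ).valuation L x < 1 := by
  rw [lt_iff_le_and_ne, lt_iff_le_and_ne, nrm_le_one_iff, Ne, Ne, nrm_eq_one_iff]

/-- `1 < ‖x‖_σ ↔ 1 < v_σ(x)` -/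
theorem one_lt_nrm_iff (x : L) : 1 < nrm q L σ x ↔ 1 < (placeOf q L σ).valuation L x := by
  rw [← not_le, ← not_le, nrm_le_one_iff]

end Place

section Finite

variable (L : IntermediateField ℚ Qb)

theorem isAlgebraic_int (x : L) : IsAlgebraic ℤ x := by
  have h0 : IsAlgebraic ℚ (x : Qb) := (AlgebraicClosure.isAlgebraic ℚ).isAlgebraic _
  have h : IsAlgebraic ℚ x := by
    rw [← isAlgebraic_algebraMap_iff (algebraMap L Qb).injective]
    exact h0
  exact (IsFractionRing.isAlgebraic_iff ℤ ℚ L).2 h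

theorem norm_intCast_eq_one_of_not_dvd {ℓ : ℕ} [hℓ : Fact ℓ.Prime] {y : ℤ} (h : ¬ ℓ ∣ y.natAbs) :
    ‖(y : ℚ_[ℓ])‖ = 1 := by
  rw [Padic.norm_intCast_eq_one_iff, Int.isCoprime_iff_gcd_eq_one, Int.gcd, Int.natAbs_natCast]
  exact Nat.Coprime.symm ((Nat.Prime.coprime_iff_not_dvd hℓ.out).2 h)

/-- one-sided bound: `‖x‖_σ ≤ 1` for every embedding and every prime not dividing `N` -/
theorem exists_nat_forall_nrm_le_one (x : L) :
    ∃ N : ℕ, N ≠ 0 ∧ ∀ (ℓ : ℕ) [Fact ℓ.Prime], ¬ ℓ ∣ N → ∀ σ : L →ₐ[ℚ] Qb, nrm ℓ L σ x ≤ 1 := by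
  obtain ⟨y, hy, hint⟩ := (isAlgebraic_int L x).exists_integral_multiple
  refine ⟨y.natAbs, Int.natAbs_ne_zero.2 hy, ?_⟩
  intro ℓ hℓ hdvd σ
  have h1 : nrm ℓ L σ (y • x) ≤ 1 := nrm_le_one_of_isIntegral ℓ L σ hint
  have h2 : y • x = (y : L) * x := by rw [zsmul_eq_mul]
  rw [h2, nrm_mul, nrm_intCast, norm_intCast_eq_one_of_not_dvd hdvd, one_mul] at h1
  exact h1

/-- **(P4), bound form**: a unit `x` of `L` has `‖x‖_σ = 1` for all `σ` at all primes `ℓ ∤ N`. -/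
theorem exists_nat_forall_nrm_eq_one (x : Lˣ) :
    ∃ N : ℕ, N ≠ 0 ∧ ∀ (ℓ : ℕ) [Fact ℓ.Prime], ¬ ℓ ∣ N →
      ∀ σ : L →ₐ[ℚ] Qb, nrm ℓ L σ (x : L) = 1 := by
  obtain ⟨N₁, hN₁, h₁⟩ := exists_nat_forall_nrm_le_one L (x : L)
  obtain ⟨N₂, hN₂, h₂⟩ := exists_nat_forall_nrm_le_one L ((x⁻¹ : Lˣ) : L)
  refine ⟨N₁ * N₂, Nat.mul_ne_zero hN₁ hN₂, ?_⟩
  intro ℓ hℓ hdvd σ
  have ha : nrm ℓ L σ (x : L) ≤ 1 := h₁ ℓ (fun h => hdvd (h.mul_right _)) σ
  have hb : nrm ℓ L σ ((x⁻¹ : Lˣ) : L) ≤ 1 := h₂ ℓ (fun h => hdvd (h.mul_left _)) σ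
  rw [Units.val_inv_eq_inv_val, nrm_inv] at hb
  have hpos : 0 < nrm ℓ L σ (x : L) := nrm_pos ℓ L σ x.ne_zero
  exact le_antisymm ha ((inv_le_one₀ hpos).1 hb)

/-- **(P4)** almost-all-units: only finitely many primes `ℓ` see `x ∈ Lˣ` as a non-unit
through some embedding. -/
theorem finite_setOf_exists_nrm_ne_one (x : Lˣ) :
    {ℓ : Nat.Primes | ∃ σ : L →ₐ[ℚ] Qb,
      haveI : Fact (ℓ : ℕ).Prime := ⟨ℓ.2⟩; nrm (ℓ : ℕ) L σ (x : L) ≠ 1}.Finite := by
  obtain ⟨N, hN, h⟩ := exists_nat_forall_nrm_eq_one L x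
  have hfin : {ℓ : Nat.Primes | (ℓ : ℕ) ∣ N}.Finite := by
    have h1 : {n : ℕ | n ∣ N}.Finite := by
      apply Set.Finite.subset (Set.finite_Iic N)
      intro n hn
      exact Nat.le_of_dvd (Nat.pos_of_ne_zero hN) hn
    exact Set.Finite.preimage (f := fun ℓ : Nat.Primes => (ℓ : ℕ))
      (Subtype.val_injective.injOn) h1
  refine hfin.subset ?_
  rintro ℓ ⟨σ, hσ⟩
  by_contra hcon
  have : Fact (ℓ : ℕ).Prime := ⟨ℓ.2⟩
  exact hσ (h ℓ hcon σ)

/-- **(P4), finset form** -/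
theorem exists_finset_forall_nrm_eq_one (x : Lˣ) :
    ∃ T : Finset Nat.Primes, ∀ ℓ : Nat.Primes, ℓ ∉ T → ∀ σ : L →ₐ[ℚ] Qb,
      haveI : Fact (ℓ : ℕ).Prime := ⟨ℓ.2⟩; nrm (ℓ : ℕ) L σ (x : L) = 1 := by
  refine ⟨(finite_setOf_exists_nrm_ne_one L x).toFinset, ?_⟩
  intro ℓ hℓ σ
  by_contra hcon
  exact hℓ ((Set.Finite.mem_toFinset _).2 ⟨σ, hcon⟩)

end Finite

section SUnits

/-- `x ↦ ‖x‖_σ` as a monoid-with-zero homomorphism -/
noncomputable def nrmHom (q : ℕ) [Fact q.Prime] (L : IntermediateField ℚ Qb) (σ : L →ₐ[ℚ] Qb) :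
    L →*₀ ℝ where
  toFun := nrm q L σ
  map_zero' := nrm_zero q L σ
  map_one' := nrm_one q L σ
  map_mul' := nrm_mul q L σ

@[simp] theorem nrmHom_apply (q : ℕ) [Fact q.Prime] (L : IntermediateField ℚ Qb)
    (σ : L →ₐ[ℚ] Qb) (x : L) : nrmHom q L σ x = nrm q L σ x := rfl

variable (L : IntermediateField ℚ Qb) [NumberField L]

/-- the only rational prime in `placeOf q L σ` is `q` -/
theorem natCast_prime_mem_placeOf_iff (q : ℕ) [Fact q.Prime] (σ : L →ₐ[ℚ] Qb) {ℓ : ℕ}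
    (hℓ : ℓ.Prime) : ((ℓ : ℕ) : 𝓞 L) ∈ (placeOf q L σ).asIdeal ↔ ℓ = q := by
  constructor
  · intro h
    by_contra hne
    rw [mem_placeOf_iff] at h
    have h1 : nrm q L σ ((ℓ : 𝓞 L) : L) = 1 := by
      simpa using nrm_natCast_prime_ne q L σ hℓ hne
    rw [h1] at h
    exact lt_irrefl _ h
  · rintro rfl
    exact natCast_mem_placeOf ℓ L σ

/-- every finite place of `L` lies above a rational prime -/
theorem exists_prime_mem (v : HeightOneSpectrum (𝓞 L)) :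
    ∃ ℓ : Nat.Primes, ((ℓ : ℕ) : 𝓞 L) ∈ v.asIdeal := by
  have : NeZero v.asIdeal := ⟨v.ne_bot⟩
  exact ⟨⟨_, Nat.absNorm_under_prime v.asIdeal⟩, Int.absNorm_under_mem v.asIdeal⟩

/-- two distinct rational primes cannot lie in the same place -/
theorem prime_eq_of_mem_of_mem (v : HeightOneSpectrum (𝓞 L)) {ℓ ℓ' : ℕ} (hℓ : ℓ.Prime)
    (hℓ' : ℓ'.Prime) (h : (ℓ : 𝓞 L) ∈ v.asIdeal) (h' : (ℓ' : 𝓞 L) ∈ v.asIdeal) : ℓ = ℓ' := by
  by_contra hne
  have hcop : Nat.Coprime ℓ ℓ' := (Nat.coprime_primes hℓ hℓ').2 hne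
  have h1 : ((Nat.gcd ℓ ℓ' : ℤ) : 𝓞 L) ∈ v.asIdeal := by
    rw [Nat.gcd_eq_gcd_ab]
    push_cast
    exact v.asIdeal.add_mem (v.asIdeal.mul_mem_right _ h) (v.asIdeal.mul_mem_right _ h')
  rw [hcop.gcd_eq_one] at h1
  have : (1 : 𝓞 L) ∈ v.asIdeal := by simpa using h1
  exact v.isPrime.ne_top ((Ideal.eq_top_iff_one _).2 this)

/-- the orbit hypothesis: every place above `ℓ` comes from an embedding `L → ℚ̄ → ℚ̄_ℓ`
(true for every number field; for normal `L` it is Galois transitivity). -/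
def OrbitHyp : Prop :=
  ∀ (ℓ : ℕ) [Fact ℓ.Prime] (v : HeightOneSpectrum (𝓞 L)), ((ℓ : ℕ) : 𝓞 L) ∈ v.asIdeal →
    ∃ σ : L →ₐ[ℚ] Qb, placeOf ℓ L σ = v

/-- per-prime S-unit dictionary, easy direction (no orbit hypothesis) -/
theorem forall_nrm_eq_one_of_forall_valuation (q : ℕ) [Fact q.Prime] (x : L)
    (h : ∀ v : HeightOneSpectrum (𝓞 L), ((q : ℕ) : 𝓞 L) ∈ v.asIdeal → v.valuation L x = 1)
    (σ : L →ₐ[ℚ] Qb) : nrm q L σ x = 1 :=
  (nrm_eq_one_iff q L σ x).2 (h _ (natCast_mem_placeOf q L σ))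

/-- per-prime S-unit dictionary -/
theorem forall_valuation_eq_one_iff (horb : OrbitHyp L) (q : ℕ) [Fact q.Prime] (x : L) :
    (∀ v : HeightOneSpectrum (𝓞 L), ((q : ℕ) : 𝓞 L) ∈ v.asIdeal → v.valuation L x = 1) ↔
      ∀ σ : L →ₐ[ℚ] Qb, nrm q L σ x = 1 := by
  constructor
  · intro h σ
    exact forall_nrm_eq_one_of_forall_valuation L q x h σ
  · intro h v hv
    obtain ⟨σ, rfl⟩ := horb q v hv
    exact (nrm_eq_one_iff q L σ x).1 (h σ)

/-- **(P5)** S-unit dictionary: `x` is a unit at all embeddings at all primes outside `S` iff it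
is a unit at all finite places of `L` not above `S`. -/
theorem forall_nrm_eq_one_iff (horb : OrbitHyp L) (S : Finset Nat.Primes) (x : L) :
    (∀ ℓ : Nat.Primes, ℓ ∉ S → ∀ σ : L →ₐ[ℚ] Qb,
        haveI : Fact (ℓ : ℕ).Prime := ⟨ℓ.2⟩; nrm (ℓ : ℕ) L σ x = 1) ↔
      ∀ v : HeightOneSpectrum (𝓞 L), (∀ ℓ ∈ S, ((ℓ : ℕ) : 𝓞 L) ∉ v.asIdeal) →
        v.valuation L x = 1 := by
  constructor
  · intro h v hv
    obtain ⟨ℓ, hℓ⟩ := exists_prime_mem L v
    have : Fact (ℓ : ℕ).Prime := ⟨ℓ.2⟩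
    have hℓS : ℓ ∉ S := fun hmem => hv ℓ hmem hℓ
    obtain ⟨σ, rfl⟩ := horb ℓ v hℓ
    exact (nrm_eq_one_iff ℓ L σ x).1 (h ℓ hℓS σ)
  · intro h ℓ hℓS σ
    have : Fact (ℓ : ℕ).Prime := ⟨ℓ.2⟩
    refine (nrm_eq_one_iff ℓ L σ x).2 (h _ ?_)
    intro ℓ' hℓ' hmem
    have : (ℓ' : ℕ) = ℓ := (natCast_prime_mem_placeOf_iff L ℓ σ ℓ'.2).1 hmem
    exact hℓS (by rwa [← Subtype.ext this])

end SUnits

end Fermat.Agent.S55.PlaceDict58
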