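import Mathlib
import Fermat.Prelude.Def_GaloisRep_CompletionBridge
import Fermat.Prelude.Def_GroupCohomology_ContinuousH2

/-!
# `[KRASNER-COFINAL]` (helper81): algebraic numbers generate every finite extension of `ℚ_q`

Every element of `PadicAlgCl q` lies in `ℚ_q(ι b)` for some algebraic number `b`
(Krasner's lemma + density of `ℚ` in `ℚ_q`).  Consequences: the open subgroups of the local
Galois group `Gal(PadicAlgCl q / ℚ_q)` pulled back from the global Galois group along
`localGaloisToGlobal q` are cofinal among all open subgroups, and `localGaloisToGlobal q` is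
injective.
-/

set_option autoImplicit false

namespace Fermat.Agent.S55.Krasner81

open Polynomial IntermediateField

section Generic

variable {L : Type*} [NormedField L]

/-- A finite set not containing `α` stays at a positive distance from `α`. -/
lemma exists_pos_le_norm_sub (T : Finset L) (α : L) (h : α ∉ T) :
    ∃ δ : ℝ, 0 < δ ∧ ∀ t ∈ T, δ ≤ ‖α - t‖ := by
  classical
  induction T using Finset.induction_on with
  | empty => exact ⟨1, one_pos, by simp⟩
  | insert a s ha ih =>
    obtain ⟨δ, hδ, h'⟩ := ih (fun hm => h (Finset.mem_insert_of_mem hm))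
    have hpos : 0 < ‖α - a‖ :=
      norm_pos_iff.mpr (sub_ne_zero.mpr (fun e => h (e ▸ Finset.mem_insert_self _ _)))
    refine ⟨min δ ‖α - a‖, lt_min hδ hpos, ?_⟩
    intro t ht
    rcases Finset.mem_insert.mp ht with rfl | ht
    · exact min_le_right _ _
    · exact (min_le_left _ _).trans (h' t ht)

/-- If a product `∏ (α - β)` is smaller than `δ ^ (number of factors)`, one factor is `< δ`. -/
lemma exists_norm_sub_lt_of_prod_lt (s : Multiset L) (α : L) (δ : ℝ) (hδ : 0 < δ)
    (h : ‖(s.map (fun β => α - β)).prod‖ < δ ^ Multiset.card s) :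
    ∃ β ∈ s, ‖α - β‖ < δ := by
  induction s using Multiset.induction_on with
  | empty => simp at h
  | cons b s ih =>
    by_cases hb : ‖α - b‖ < δ
    · exact ⟨b, Multiset.mem_cons_self _ _, hb⟩
    · have hb' : δ ≤ ‖α - b‖ := not_lt.mp hb
      have hlt : ‖(s.map (fun β => α - β)).prod‖ < δ ^ Multiset.card s := by
        by_contra hcon
        have hcon' := not_lt.mp hcon
        rw [Multiset.map_cons, Multiset.prod_cons, norm_mul, Multiset.card_cons, pow_succ'] at h
        have : δ * δ ^ Multiset.card s ≤ ‖α - b‖ * ‖(s.map (fun β => α - β)).prod‖ :=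
          mul_le_mul hb' hcon' (pow_nonneg hδ.le _) (norm_nonneg _)
        exact absurd h (not_lt.mpr this)
      obtain ⟨β, hβ, hβ'⟩ := ih hlt
      exact ⟨β, Multiset.mem_cons_of_mem hβ, hβ'⟩

/-- An automorphism fixing `x` fixes `K⟮x⟯` pointwise. -/
lemma mem_fixingSubgroup_adjoin_simple {K E : Type*} [Field K] [Field E] [Algebra K E]
    (τ : E ≃ₐ[K] E) (x : E) (h : τ x = x) : τ ∈ (K⟮x⟯).fixingSubgroup := by
  have h1 : Subgroup.zpowers τ ≤ MulAction.stabilizer (E ≃ₐ[K] E) x := by
    rw [Subgroup.zpowers_le]; exact h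
  have h2 : K⟮x⟯ ≤ IntermediateField.fixedField (Subgroup.zpowers τ) := by
    rw [adjoin_simple_le_iff, IntermediateField.mem_fixedField_iff]
    intro σ hσ; exact h1 hσ
  exact (IntermediateField.le_iff_le _ _).1 h2 (Subgroup.mem_zpowers τ)

/-- A finite separable intermediate field is generated by one element (ambient form). -/
lemma exists_eq_adjoin_simple {K E : Type*} [Field K] [Field E] [Algebra K E]
    (L : IntermediateField K E) [FiniteDimensional K L] [Algebra.IsSeparable K L] :
    ∃ a : E, L = K⟮a⟯ := by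
  obtain ⟨a, ha⟩ := Field.exists_primitive_element K L
  refine ⟨(a : E), ?_⟩
  have := congrArg IntermediateField.lift ha
  rw [IntermediateField.lift_adjoin_simple, IntermediateField.lift_top] at this
  exact this.symm

end Generic

section Padic

variable (q : ℕ) [Fact q.Prime]

/-- Rational approximation of the minimal polynomial: a monic `g ∈ ℚ[X]` of the same degree as
`minpoly ℚ_q α` with `‖g(α)‖` as small as we like. -/
lemma exists_rat_monic_aeval_lt (α : PadicAlgCl q) {η : ℝ} (hη : 0 < η) :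
    ∃ g : ℚ[X], g.Monic ∧ g.natDegree = (minpoly ℚ_[q] α).natDegree ∧ ‖aeval α g‖ < η := by
  classical
  set f := minpoly ℚ_[q] α with hf
  have hint : IsIntegral ℚ_[q] α := (PadicAlgCl.isAlgebraic q).isIntegral.1 α
  have hmonic : f.Monic := minpoly.monic hint
  set n := f.natDegree with hn
  set Cs : ℝ := ∑ i ∈ Finset.range n, ‖α‖ ^ i with hCs
  have hCs0 : 0 ≤ Cs := Finset.sum_nonneg (fun i _ => pow_nonneg (norm_nonneg _) _)
  set ε : ℝ := η / (Cs + 1) with hε
  have hεpos : 0 < ε := div_pos hη (by linarith)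
  have hεC : ε * Cs < η := by
    rw [hε, div_mul_eq_mul_div, div_lt_iff₀ (by linarith)]
    nlinarith
  choose r hr using fun i : ℕ => Padic.rat_dense q (f.coeff i) hεpos
  set t : ℚ[X] := ∑ i ∈ Finset.range n, C (r i) * X ^ i with ht
  have hdeg : t.degree < n := by
    rw [ht, ← Fin.sum_univ_eq_sum_range (fun i => C (r i) * X ^ i) n]
    exact degree_sum_fin_lt (fun i : Fin n => r i)
  refine ⟨X ^ n + t, monic_X_pow_add hdeg, ?_, ?_⟩
  · rw [natDegree_add_eq_left_of_degree_lt (by rwa [degree_X_pow]), natDegree_X_pow]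
  · have h0 : (0 : PadicAlgCl q) = α ^ n +
        ∑ i ∈ Finset.range n, algebraMap ℚ_[q] (PadicAlgCl q) (f.coeff i) * α ^ i := by
      have := congrArg (aeval α) hmonic.as_sum
      rw [hf, minpoly.aeval] at this
      simpa [← hf, ← hn] using this
    have h1 : aeval α (X ^ n + t) = α ^ n +
        ∑ i ∈ Finset.range n, algebraMap ℚ_[q] (PadicAlgCl q) (r i : ℚ_[q]) * α ^ i := by
      simp [ht, map_sum]
    have h2 : aeval α (X ^ n + t) =
        ∑ i ∈ Finset.range n, algebraMap ℚ_[q] (PadicAlgCl q) ((r i : ℚ_[q]) - f.coeff i) * α ^ i := by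
      have : aeval α (X ^ n + t) = aeval α (X ^ n + t) - 0 := (sub_zero _).symm
      rw [this, h1]
      conv_lhs => rw [h0]
      rw [add_sub_add_left_eq_sub, ← Finset.sum_sub_distrib]
      refine Finset.sum_congr rfl (fun i _ => ?_)
      rw [map_sub, sub_mul]
    rw [h2]
    calc ‖∑ i ∈ Finset.range n, algebraMap ℚ_[q] (PadicAlgCl q) ((r i : ℚ_[q]) - f.coeff i) * α ^ i‖
        ≤ ∑ i ∈ Finset.range n,
            ‖algebraMap ℚ_[q] (PadicAlgCl q) ((r i : ℚ_[q]) - f.coeff i) * α ^ i‖ :=
          norm_sum_le _ _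
      _ ≤ ∑ i ∈ Finset.range n, ε * ‖α‖ ^ i := by
          refine Finset.sum_le_sum (fun i _ => ?_)
          rw [norm_mul, norm_pow, norm_algebraMap', norm_sub_rev]
          exact mul_le_mul_of_nonneg_right (hr i).le (pow_nonneg (norm_nonneg _) _)
      _ = ε * Cs := by rw [hCs, Finset.mul_sum]
      _ < η := hεC

/-- **(K0) Krasner cofinality, core form.**  Every element of `PadicAlgCl q` lies in the
extension of `ℚ_q` generated by (the image of) a single algebraic number. -/
theorem exists_mem_adjoin_padicEmbedding (α : PadicAlgCl q) :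
    ∃ b : AlgebraicClosure ℚ, α ∈ ℚ_[q]⟮padicEmbedding q b⟯ := by
  classical
  have hint : IsIntegral ℚ_[q] α := (PadicAlgCl.isAlgebraic q).isIntegral.1 α
  have hsep : (minpoly ℚ_[q] α).Separable := (minpoly.irreducible hint).separable
  have sp : ((minpoly ℚ_[q] α).map (algebraMap ℚ_[q] (PadicAlgCl q))).Splits :=
    IsAlgClosed.splits _
  -- distance to the other conjugates
  obtain ⟨δ, hδ, hδT⟩ := exists_pos_le_norm_sub
    (((minpoly ℚ_[q] α).aroots (PadicAlgCl q)).toFinset.erase α) α (Finset.notMem_erase _ _)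
  -- rational approximation of the minimal polynomial
  obtain ⟨g, hgm, hgdeg, hglt⟩ := exists_rat_monic_aeval_lt q α
    (pow_pos hδ (minpoly ℚ_[q] α).natDegree)
  have hgs : (g.map (algebraMap ℚ (PadicAlgCl q))).Splits := IsAlgClosed.splits _
  have hcard : Multiset.card (g.aroots (PadicAlgCl q)) = (minpoly ℚ_[q] α).natDegree := by
    rw [← hgdeg, aroots, ← hgs.natDegree_eq_card_roots, natDegree_map]
  rw [hgs.aeval_eq_prod_aroots_of_monic hgm α, ← hcard] at hglt
  obtain ⟨β, hβ, hβlt⟩ := exists_norm_sub_lt_of_prod_lt _ α δ hδ hglt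
  -- `β` comes from an algebraic number
  have hβroot : β ∈ g.rootSet (PadicAlgCl q) := by
    rw [rootSet, Finset.mem_coe, Multiset.mem_toFinset]; exact hβ
  have himg := (IsAlgClosed.splits (g.map (algebraMap ℚ (AlgebraicClosure ℚ)))).image_rootSet
    (padicEmbedding q)
  rw [← himg] at hβroot
  obtain ⟨b, -, rfl⟩ := hβroot
  refine ⟨b, ?_⟩
  have hy : IsIntegral ℚ_[q] (padicEmbedding q b) :=
    (PadicAlgCl.isAlgebraic q).isIntegral.1 _
  refine IsKrasner.krasner hsep sp hy (fun x' hx' hne => lt_of_lt_of_le hβlt (hδT x' ?_))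
  rw [Finset.mem_erase, Multiset.mem_toFinset]
  refine ⟨fun e => hne e.symm, ?_⟩
  have := (isConjRoot_iff_mem_minpoly_rootSet hint).1 hx'
  rw [rootSet, Finset.mem_coe, Multiset.mem_toFinset] at this
  exact this

/-- **(K1)** every finite extension of `ℚ_q` inside `PadicAlgCl q` is contained in the
extension generated by one algebraic number. -/
theorem exists_algebraic_generator (L : IntermediateField ℚ_[q] (PadicAlgCl q))
    [FiniteDimensional ℚ_[q] L] :
    ∃ b : AlgebraicClosure ℚ, L ≤ ℚ_[q]⟮padicEmbedding q b⟯ := by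
  obtain ⟨a, rfl⟩ := exists_eq_adjoin_simple L
  obtain ⟨b, hb⟩ := exists_mem_adjoin_padicEmbedding q a
  exact ⟨b, adjoin_simple_le_iff.mpr hb⟩

/-- `τ` fixes `ι b` iff its global image fixes `b`. -/
lemma localGaloisToGlobal_apply_eq_iff (τ : PadicAlgCl q ≃ₐ[ℚ_[q]] PadicAlgCl q)
    (b : AlgebraicClosure ℚ) :
    localGaloisToGlobal q τ b = b ↔ τ (padicEmbedding q b) = padicEmbedding q b := by
  rw [← padicEmbedding_localGaloisToGlobal]
  exact ⟨fun h => by rw [h], fun h => (padicEmbedding q).injective h⟩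

/-- **(K2) cofinality of global levels.**  For every finite `L/ℚ_q` there is a number field `F`
such that every local automorphism whose global image fixes `F` fixes `L`. -/
theorem exists_level (L : IntermediateField ℚ_[q] (PadicAlgCl q)) [FiniteDimensional ℚ_[q] L] :
    ∃ F : IntermediateField ℚ (AlgebraicClosure ℚ), FiniteDimensional ℚ F ∧
      ∀ τ : PadicAlgCl q ≃ₐ[ℚ_[q]] PadicAlgCl q,
        localGaloisToGlobal q τ ∈ F.fixingSubgroup → τ ∈ L.fixingSubgroup := by
  obtain ⟨b, hb⟩ := exists_algebraic_generator q L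
  have hbint : IsIntegral ℚ b := (AlgebraicClosure.isAlgebraic ℚ).isIntegral.1 b
  refine ⟨ℚ⟮b⟯, IntermediateField.adjoin.finiteDimensional hbint, fun τ hτ => ?_⟩
  have h1 : localGaloisToGlobal q τ b = b :=
    (IntermediateField.mem_fixingSubgroup_iff _ _).1 hτ b (mem_adjoin_simple_self ℚ b)
  have h2 := (localGaloisToGlobal_apply_eq_iff q τ b).1 h1
  exact IntermediateField.fixingSubgroup_antitone hb (mem_fixingSubgroup_adjoin_simple τ _ h2)

/-- **(K3) converse of (K2).**  For every number field `F` there is a finite `L/ℚ_q` such that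
every local automorphism fixing `L` has global image fixing `F`. -/
theorem level_fixing (F : IntermediateField ℚ (AlgebraicClosure ℚ)) [FiniteDimensional ℚ F] :
    ∃ L : IntermediateField ℚ_[q] (PadicAlgCl q), FiniteDimensional ℚ_[q] L ∧
      ∀ τ : PadicAlgCl q ≃ₐ[ℚ_[q]] PadicAlgCl q,
        τ ∈ L.fixingSubgroup → localGaloisToGlobal q τ ∈ F.fixingSubgroup := by
  obtain ⟨a, rfl⟩ := exists_eq_adjoin_simple F
  have hint : IsIntegral ℚ_[q] (padicEmbedding q a) :=
    (PadicAlgCl.isAlgebraic q).isIntegral.1 _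
  refine ⟨ℚ_[q]⟮padicEmbedding q a⟯, IntermediateField.adjoin.finiteDimensional hint,
    fun τ hτ => ?_⟩
  have h1 : τ (padicEmbedding q a) = padicEmbedding q a :=
    (IntermediateField.mem_fixingSubgroup_iff _ _).1 hτ _ (mem_adjoin_simple_self _ _)
  exact mem_fixingSubgroup_adjoin_simple _ _ ((localGaloisToGlobal_apply_eq_iff q τ a).2 h1)

/-- **(K4)** `localGaloisToGlobal q` is injective. -/
theorem localGaloisToGlobal_injective : Function.Injective (localGaloisToGlobal q) := by
  refine (injective_iff_map_eq_one _).2 (fun τ hτ => ?_)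
  ext α
  obtain ⟨b, hb⟩ := exists_mem_adjoin_padicEmbedding q α
  have h1 : τ (padicEmbedding q b) = padicEmbedding q b :=
    (localGaloisToGlobal_apply_eq_iff q τ b).1 (by rw [hτ]; rfl)
  exact (IntermediateField.mem_fixingSubgroup_iff _ _).1
    (mem_fixingSubgroup_adjoin_simple τ _ h1) α hb

/-- **(K5a)** level-constancy of a local 1-cochain in local terms. -/
theorem isLevelConstant₁_iff {X : Type*} (f : (PadicAlgCl q ≃ₐ[ℚ_[q]] PadicAlgCl q) → X) :
    groupCohomology.IsLevelConstant₁ (localGaloisToGlobal q) f ↔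
      ∃ L : IntermediateField ℚ_[q] (PadicAlgCl q), FiniteDimensional ℚ_[q] L ∧
        ∀ g s : PadicAlgCl q ≃ₐ[ℚ_[q]] PadicAlgCl q, s ∈ L.fixingSubgroup → f (g * s) = f g := by
  constructor
  · rintro ⟨F, hF, h⟩
    have := hF
    obtain ⟨L, hL, hLF⟩ := level_fixing q F
    exact ⟨L, hL, fun g s hs => h g s (hLF s hs)⟩
  · rintro ⟨L, hL, h⟩
    have := hL
    obtain ⟨F, hF, hFL⟩ := exists_level q L
    exact ⟨F, hF, fun g s hs => h g s (hFL s hs)⟩

/-- **(K5b)** level-constancy of a local 2-cochain in local terms. -/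
theorem isLevelConstant₂_iff {X : Type*}
    (f : (PadicAlgCl q ≃ₐ[ℚ_[q]] PadicAlgCl q) × (PadicAlgCl q ≃ₐ[ℚ_[q]] PadicAlgCl q) → X) :
    groupCohomology.IsLevelConstant₂ (localGaloisToGlobal q) f ↔
      ∃ L : IntermediateField ℚ_[q] (PadicAlgCl q), FiniteDimensional ℚ_[q] L ∧
        ∀ g g' s s' : PadicAlgCl q ≃ₐ[ℚ_[q]] PadicAlgCl q, s ∈ L.fixingSubgroup →
          s' ∈ L.fixingSubgroup → f (g * s, g' * s') = f (g, g') := by
  constructor
  · rintro ⟨F, hF, h⟩
    have := hF
    obtain ⟨L, hL, hLF⟩ := level_fixing q F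
    exact ⟨L, hL, fun g g' s s' hs hs' => h g g' s s' (hLF s hs) (hLF s' hs')⟩
  · rintro ⟨L, hL, h⟩
    have := hL
    obtain ⟨F, hF, hFL⟩ := exists_level q L
    exact ⟨F, hF, fun g g' s s' hs hs' => h g g' s s' (hFL s hs) (hFL s' hs')⟩

end Padic

end Fermat.Agent.S55.Krasner81
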