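/-
S55 / 36e-CLASS-LIMIT-COMPARE (helper72): `p`-primary level cohomology of a submodule with
prime-to-`p` torsion cokernel.

Situation: `0 → C' → C → Cl → 0` a short exact sequence of smooth modules over a level structure,
`Cl` torsion of order prime to `p` (in the application `C' = J_S/E_S`, `C` the class-formation
module `coker(K_Sˣ → J_S ⊕ I^S)` at infinite level, `Cl = colim Cl_S(L)`, whose `p`-part vanishes
by `p`-capitulation, `Capit72`).  Then

* `H1_primary_eq_zero` : if `H¹(C)` has no `p`-primary torsion, neither has `H¹(C')`;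
* `H2map_eq_zero_of_primary` : `H²(C') → H²(C)` is injective on `p`-primary classes.

Profin15 LES only.  Complete proofs.
-/
import Fermat.Agent.S55.Profin15.LES1

set_option autoImplicit false

universe u

open CategoryTheory groupCohomology

namespace Fermat.Agent.S55.ClassLimit72

open Fermat.Agent.S55.Profin15 Fermat.Agent.S55.Profin15.LevelStr

/-- every element is killed by an integer prime to `p` -/
def IsPrimeToP (p : ℕ) (M : Type*) [AddCommMonoid M] : Prop :=
  ∀ x : M, ∃ m : ℕ, m.Coprime p ∧ m • x = 0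

/-- an element killed by two coprime integers is zero -/
theorem eq_zero_of_coprime_nsmul {M : Type*} [AddCommGroup M] {a b : ℕ} (hab : a.Coprime b)
    {x : M} (ha : a • x = 0) (hb : b • x = 0) : x = 0 := by
  have h1 : ((a.gcd b : ℕ) : ℤ) = (a : ℤ) * Nat.gcdA a b + (b : ℤ) * Nat.gcdB a b :=
    Nat.gcd_eq_gcd_ab a b
  rw [Nat.Coprime.gcd_eq_one hab] at h1
  have h2 : ((1 : ℕ) : ℤ) • x = 0 := by
    rw [h1, add_smul, mul_comm (a : ℤ), mul_comm (b : ℤ), mul_smul, mul_smul, natCast_zsmul,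
      natCast_zsmul, ha, hb, smul_zero, smul_zero, add_zero]
  simpa using h2

/-- a function with finite range into a prime-to-`p` torsion group is killed by a single integer
prime to `p` -/
theorem exists_nsmul_eq_zero_of_finite_range {p : ℕ} {M : Type*} [AddCommMonoid M]
    (hM : IsPrimeToP p M) {X : Type*} (f : X → M) (hf : (Set.range f).Finite) :
    ∃ m : ℕ, m.Coprime p ∧ ∀ t, m • f t = 0 := by
  classical
  choose mf hmf using hM
  refine ⟨∏ v ∈ hf.toFinset, mf v, Nat.Coprime.prod_left fun v _ => (hmf v).1, fun t => ?_⟩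
  have hmem : f t ∈ hf.toFinset := hf.mem_toFinset.mpr ⟨t, rfl⟩
  obtain ⟨c, hc⟩ := Finset.dvd_prod_of_mem mf hmem
  rw [hc, mul_comm, mul_smul, (hmf (f t)).2, smul_zero]

variable {k G : Type u} [CommRing k] [Group G] (𝒰 : LevelStr G) {p : ℕ}

/-- (T0) `H⁰` of a prime-to-`p` torsion module is prime-to-`p` torsion -/
theorem isPrimeToP_H0 {M : Rep.{u} k G} (hM : IsPrimeToP p M) : IsPrimeToP p ↥(LevelStr.H0 M) := by
  intro x
  obtain ⟨m, hm, h⟩ := hM (x : M)
  exact ⟨m, hm, Subtype.ext h⟩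

/-- (T0) level `H¹` of a prime-to-`p` torsion module is prime-to-`p` torsion -/
theorem isPrimeToP_H1 {M : Rep.{u} k G} (hM : IsPrimeToP p M) : IsPrimeToP p (𝒰.H1 M) := by
  intro x
  obtain ⟨z, rfl⟩ := Submodule.Quotient.mk_surjective _ x
  obtain ⟨m, hm, h⟩ := exists_nsmul_eq_zero_of_finite_range hM (z : G → M)
    (IsConst₁.finite_range z.2.2)
  refine ⟨m, hm, ?_⟩
  have hz : m • z = 0 := by
    apply Subtype.ext
    funext g
    exact h g
  rw [← Submodule.Quotient.mk_smul, hz, Submodule.Quotient.mk_zero]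

variable {C' C Cl : Rep.{u} k G} {φ : C' →ₗ[k] C} {ψ : C →ₗ[k] Cl}

/-- **(T1)** if `Cl` is prime-to-`p` torsion and level `H¹(C)` has no `p`-primary torsion, then
level `H¹(C')` has no `p`-primary torsion. -/
theorem H1_primary_eq_zero (h : ShortExact φ ψ) (hC : 𝒰.IsSmooth C) (hCl : IsPrimeToP p Cl)
    (hH1C : ∀ (c : 𝒰.H1 C) (n : ℕ), p ^ n • c = 0 → c = 0)
    (c' : 𝒰.H1 C') (n : ℕ) (hc : p ^ n • c' = 0) : c' = 0 := by
  have h0 : 𝒰.H1map φ h.equivariant_left c' = 0 :=
    hH1C _ n (by rw [← map_nsmul, hc, map_zero])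
  obtain ⟨y, rfl⟩ := (h.exact_δ₀_H1map 𝒰 hC c').1 h0
  obtain ⟨m, hm, hy⟩ := isPrimeToP_H0 hCl y
  refine eq_zero_of_coprime_nsmul (Nat.Coprime.pow_right n hm) ?_ hc
  rw [← map_nsmul, hy, map_zero]

/-- **(T2)** if `Cl` is prime-to-`p` torsion, `H²(C') → H²(C)` is injective on `p`-primary
classes. -/
theorem H2map_eq_zero_of_primary (h : ShortExact φ ψ) (hC : 𝒰.IsSmooth C)
    (hCl : IsPrimeToP p Cl) (x : 𝒰.H2 C') (n : ℕ) (hx : p ^ n • x = 0)
    (h0 : 𝒰.H2map φ h.equivariant_left x = 0) : x = 0 := by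
  obtain ⟨y, rfl⟩ := (h.exact_δ₁_H2map 𝒰 hC x).1 h0
  obtain ⟨m, hm, hy⟩ := isPrimeToP_H1 𝒰 hCl y
  refine eq_zero_of_coprime_nsmul (Nat.Coprime.pow_right n hm) ?_ hx
  rw [← map_nsmul, hy, map_zero]

/-! ### (T3) the short exact sequence `0 → C' → C → Cl → 0`, model-free

Data: `diag : K → J`, `div : K → I`; `π' : J → C'` onto with kernel `diag (ker div)`
(`C' = J / E`); `a : J → C`, `b : I → C` jointly onto with `a j + b i = 0 ↔ (j, i) = (diag x, div x)`
(`C = coker (K → J ⊕ I)`); `κ : I → Cl` onto with kernel `range div` (`Cl = I / div K`). -/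

section Factor

variable {R : Type*} [CommRing R] {X Y Z : Type*} [AddCommGroup X] [AddCommGroup Y]
  [AddCommGroup Z] [Module R X] [Module R Y] [Module R Z]

/-- factor a linear map through a surjection killing at least as much -/
noncomputable def factor (π : X →ₗ[R] Y) (f : X →ₗ[R] Z) (hs : Function.Surjective π)
    (hle : LinearMap.ker π ≤ LinearMap.ker f) : Y →ₗ[R] Z :=
  ((LinearMap.ker π).liftQ f hle) ∘ₗ
    (π.quotKerEquivOfSurjective hs).symm.toLinearMap

@[simp] theorem factor_apply (π : X →ₗ[R] Y) (f : X →ₗ[R] Z) (hs : Function.Surjective π)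
    (hle : LinearMap.ker π ≤ LinearMap.ker f) (x : X) : factor π f hs hle (π x) = f x := by
  have h1 : (π.quotKerEquivOfSurjective hs).symm (π x) = Submodule.Quotient.mk x := by
    rw [LinearEquiv.symm_apply_eq]
    rfl
  simp only [factor, LinearMap.comp_apply, LinearEquiv.coe_coe, h1, Submodule.liftQ_apply]

end Factor

section SES

variable {K J I : Rep.{u} k G}
variable (diag : K →ₗ[k] J) (div : K →ₗ[k] I) (π' : J →ₗ[k] C') (a : J →ₗ[k] C)
  (b : I →ₗ[k] C) (κ : I →ₗ[k] Cl)

/-- the hypotheses of the comparison, bundled -/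
structure ClassData : Prop where
  equivariant_π' : IsEquivariant π'
  equivariant_a : IsEquivariant a
  equivariant_b : IsEquivariant b
  equivariant_κ : IsEquivariant κ
  surjective_π' : Function.Surjective π'
  ker_π' : ∀ j, π' j = 0 ↔ ∃ e, div e = 0 ∧ diag e = j
  surjective_ab : ∀ c, ∃ j i, a j + b i = c
  ker_ab : ∀ j i, a j + b i = 0 ↔ ∃ x, diag x = j ∧ div x = i
  surjective_κ : Function.Surjective κ
  ker_κ : ∀ i, κ i = 0 ↔ ∃ x, div x = i

variable {diag div π' a b κ}

namespace ClassData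

variable (D : ClassData diag div π' a b κ)
include D

theorem ker_π'_le : LinearMap.ker π' ≤ LinearMap.ker a := by
  intro j hj
  obtain ⟨e, he, rfl⟩ := (D.ker_π' j).1 (LinearMap.mem_ker.1 hj)
  rw [LinearMap.mem_ker]
  have := (D.ker_ab (diag e) 0).2 ⟨e, rfl, he⟩
  simpa using this

theorem surjective_coprod : Function.Surjective (a.coprod b) := by
  intro c
  obtain ⟨j, i, h⟩ := D.surjective_ab c
  exact ⟨(j, i), by simpa using h⟩

theorem ker_coprod_le :
    LinearMap.ker (a.coprod b) ≤ LinearMap.ker (κ ∘ₗ LinearMap.snd k J I) := by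
  rintro ⟨j, i⟩ hji
  rw [LinearMap.mem_ker, LinearMap.coprod_apply] at hji
  obtain ⟨x, -, rfl⟩ := (D.ker_ab j i).1 hji
  rw [LinearMap.mem_ker, LinearMap.comp_apply, LinearMap.snd_apply]
  exact (D.ker_κ _).2 ⟨x, rfl⟩

/-- the inclusion `C' → C` -/
noncomputable def phi : C' →ₗ[k] C := factor π' a D.surjective_π' D.ker_π'_le

/-- the projection `C → Cl` -/
noncomputable def psi : C →ₗ[k] Cl :=
  factor (a.coprod b) (κ ∘ₗ LinearMap.snd k J I) D.surjective_coprod D.ker_coprod_le

@[simp] theorem phi_apply (j : J) : D.phi (π' j) = a j := factor_apply _ _ _ _ j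

@[simp] theorem psi_apply (j : J) (i : I) : D.psi (a j + b i) = κ i := by
  have := factor_apply (a.coprod b) (κ ∘ₗ LinearMap.snd k J I) D.surjective_coprod
    D.ker_coprod_le (j, i)
  simpa [psi] using this

theorem psi_a (j : J) : D.psi (a j) = 0 := by
  have := D.psi_apply j 0
  simpa using this

theorem psi_b (i : I) : D.psi (b i) = κ i := by
  have := D.psi_apply 0 i
  simpa using this

/-- **(T3)** the short exact sequence `0 → C' → C → Cl → 0`. -/
theorem shortExact : ShortExact D.phi D.psi where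
  equivariant_left := by
    intro g c'
    obtain ⟨j, rfl⟩ := D.surjective_π' c'
    rw [← D.equivariant_π' g j, D.phi_apply, D.phi_apply, D.equivariant_a g j]
  equivariant_right := by
    intro g c
    obtain ⟨j, i, rfl⟩ := D.surjective_ab c
    rw [map_add, ← D.equivariant_a g j, ← D.equivariant_b g i, D.psi_apply, D.psi_apply,
      D.equivariant_κ g i]
  injective := by
    rw [← LinearMap.ker_eq_bot, LinearMap.ker_eq_bot']
    intro c' hc'
    obtain ⟨j, rfl⟩ := D.surjective_π' c'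
    rw [D.phi_apply] at hc'
    obtain ⟨x, hx, hx0⟩ := (D.ker_ab j 0).1 (by simpa using hc')
    exact (D.ker_π' j).2 ⟨x, hx0, hx⟩
  surjective := by
    intro cl
    obtain ⟨i, rfl⟩ := D.surjective_κ cl
    exact ⟨b i, D.psi_b i⟩
  exact := by
    intro c
    constructor
    · intro hc
      obtain ⟨j, i, rfl⟩ := D.surjective_ab c
      rw [D.psi_apply] at hc
      obtain ⟨x, rfl⟩ := (D.ker_κ i).1 hc
      refine ⟨π' (j - diag x), ?_⟩
      rw [D.phi_apply, map_sub]
      have h0 : a (diag x) + b (div x) = 0 := (D.ker_ab _ _).2 ⟨x, rfl, rfl⟩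
      rw [sub_eq_iff_eq_add, add_assoc, add_comm (b (div x)), h0, add_zero]
    · rintro ⟨c', rfl⟩
      obtain ⟨j, rfl⟩ := D.surjective_π' c'
      rw [D.phi_apply, D.psi_a]

/-- `Cl = I / div K` is prime-to-`p` torsion as soon as every element of `I` has a multiple prime
to `p` in the image of `div`. -/
theorem isPrimeToP (hI : ∀ i : I, ∃ m : ℕ, m.Coprime p ∧ ∃ x : K, div x = m • i) :
    IsPrimeToP p Cl := by
  intro cl
  obtain ⟨i, rfl⟩ := D.surjective_κ cl
  obtain ⟨m, hm, x, hx⟩ := hI i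
  refine ⟨m, hm, ?_⟩
  rw [← map_nsmul, ← hx]
  exact (D.ker_κ _).2 ⟨x, rfl⟩

/-- **(T1) in the concrete shape**: no `p`-primary torsion in level `H¹(C)` ⟹ none in `H¹(C')`. -/
theorem H1_primary_eq_zero (hC : 𝒰.IsSmooth C)
    (hI : ∀ i : I, ∃ m : ℕ, m.Coprime p ∧ ∃ x : K, div x = m • i)
    (hH1C : ∀ (c : 𝒰.H1 C) (n : ℕ), p ^ n • c = 0 → c = 0)
    (c' : 𝒰.H1 C') (n : ℕ) (hc : p ^ n • c' = 0) : c' = 0 :=
  ClassLimit72.H1_primary_eq_zero 𝒰 D.shortExact hC (D.isPrimeToP hI) hH1C c' n hc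

/-- **(T2) in the concrete shape**: `H²(C') → H²(C)` is injective on `p`-primary classes. -/
theorem H2map_eq_zero_of_primary (hC : 𝒰.IsSmooth C)
    (hI : ∀ i : I, ∃ m : ℕ, m.Coprime p ∧ ∃ x : K, div x = m • i)
    (x : 𝒰.H2 C') (n : ℕ) (hx : p ^ n • x = 0)
    (h0 : 𝒰.H2map D.phi D.shortExact.equivariant_left x = 0) : x = 0 :=
  ClassLimit72.H2map_eq_zero_of_primary 𝒰 D.shortExact hC (D.isPrimeToP hI) x n hx h0

end ClassData

end SES

/-! ### torsion + `p`-capitulation ⟹ every ideal has a principal multiple prime to `p` -/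

section Capit

variable {K I : Type*} [AddCommGroup K] [AddCommGroup I] (div : K →+ I)

/-- iterate the capitulation step -/
theorem exists_of_pow_capit {p : ℕ}
    (capit : ∀ (i : I) (x : K), div x = p • i → ∃ y : K, div y = i) (k : ℕ) :
    ∀ (i : I) (x : K), div x = p ^ k • i → ∃ y : K, div y = i := by
  induction k with
  | zero =>
    intro i x hx
    exact ⟨x, by simpa using hx⟩
  | succ k ih =>
    intro i x hx
    have hx' : div x = p • (p ^ k • i) := by rw [hx, pow_succ, mul_comm, mul_smul]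
    obtain ⟨y, hy⟩ := capit _ x hx'
    exact ih i y hy

/-- If every element of `I` has a nonzero multiple in `div K` (finiteness of class groups) and
`div x = p • i` implies `i ∈ div K` (`p`-capitulation + `I` torsion-free), then every element of
`I` has a multiple prime to `p` in `div K`. -/
theorem exists_coprime_of_tors_capit {p : ℕ} (hp : p.Prime)
    (tors : ∀ i : I, ∃ n : ℕ, 0 < n ∧ ∃ x : K, div x = n • i)
    (capit : ∀ (i : I) (x : K), div x = p • i → ∃ y : K, div y = i) (i : I) :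
    ∃ m : ℕ, m.Coprime p ∧ ∃ x : K, div x = m • i := by
  obtain ⟨n, hn, x, hx⟩ := tors i
  obtain ⟨e, m, hm, rfl⟩ := Nat.exists_eq_pow_mul_and_not_dvd hn.ne' p hp.ne_one
  refine ⟨m, ((Nat.Prime.coprime_iff_not_dvd hp).2 hm).symm, ?_⟩
  exact exists_of_pow_capit div capit e (m • i) x (by rw [hx, mul_smul])

end Capit

end Fermat.Agent.S55.ClassLimit72
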