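/-
S55 / 33d-DESCENT-GENERIC (helper99).  Mathlib only.

Generic Galois-descent lemmas for `Rep k G`, consumed by 33d (descent of idele class modules):

* `coindInvariantsIso` : `(coind φ A)^N ≅ coind (π ∘ φ) A` as `G ⧸ N`-representations
  (`π : G → G ⧸ N`), for a normal subgroup `N` of `G`;
* `coindResIso` : transport of coinduced modules along a group isomorphism;
* `invariants_shortExact` : for a short exact sequence `0 → E → J → C → 0` in `Rep k G` with
  `H¹(N, E) = 0`, the sequence `0 → E^N → J^N → C^N → 0` of `G ⧸ N`-representations is short exact.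
-/
import Mathlib

set_option autoImplicit false

open CategoryTheory Rep

universe u v w t

namespace Fermat.Agent.S55.Descent99

section Coind

variable {k : Type u} [CommRing k] {Γ : Type v} {G : Type w} [Group Γ] [Group G]
  (φ : Γ →* G) (A : Rep.{t} k Γ) (N : Subgroup G) [N.Normal]

/-- the projection followed by `φ` -/
abbrev projComp : Γ →* G ⧸ N := (QuotientGroup.mk' N).comp φ

theorem coe_invariants_apply_mul
    (x : ((Rep.coind φ A).quotientToInvariants N).V) (g : G) {n : G} (hn : n ∈ N) :
    ((x : (Rep.coind φ A).V) : G → A.V) (g * n) = ((x : (Rep.coind φ A).V) : G → A.V) g := by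
  have h := x.2 ⟨n, hn⟩
  have h2 := congrArg (fun y : (Rep.coind φ A).V => (y : G → A.V) g) h
  exact h2

/-- the function on `G ⧸ N` induced by an `N`-invariant element of `coind φ A` -/
noncomputable def descFun (x : ((Rep.coind φ A).quotientToInvariants N).V) : G ⧸ N → A.V :=
  fun q => Quotient.liftOn' q ((x : (Rep.coind φ A).V) : G → A.V) (fun a b hab => by
    have hab' : a⁻¹ * b ∈ N := QuotientGroup.leftRel_apply.mp hab
    have := coe_invariants_apply_mul φ A N x a hab'
    rw [mul_inv_cancel_left] at this
    exact this.symm)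

@[simp]
theorem descFun_mk (x : ((Rep.coind φ A).quotientToInvariants N).V) (g : G) :
    descFun φ A N x (QuotientGroup.mk g) = ((x : (Rep.coind φ A).V) : G → A.V) g := rfl

theorem descFun_mem (x : ((Rep.coind φ A).quotientToInvariants N).V) :
    descFun φ A N x ∈ Representation.coindV (projComp φ N) A.ρ := by
  intro γ q
  induction q using QuotientGroup.induction_on with
  | H g =>
    show descFun φ A N x (QuotientGroup.mk (φ γ * g)) = _
    rw [descFun_mk, descFun_mk]
    exact (x : (Rep.coind φ A).V).2 γ g

/-- the `N`-invariant element of `coind φ A` attached to an element of `coind (π ∘ φ) A` -/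
noncomputable def liftFun (y : (Rep.coind (projComp φ N) A).V) :
    ((Rep.coind φ A).quotientToInvariants N).V :=
  ⟨⟨fun g => (y : G ⧸ N → A.V) (QuotientGroup.mk g), fun γ g => by
      have := y.2 γ (QuotientGroup.mk g)
      exact this⟩, fun n => by
    apply Subtype.ext
    funext g
    show (y : G ⧸ N → A.V) (QuotientGroup.mk (g * (n : G))) = (y : G ⧸ N → A.V) (QuotientGroup.mk g)
    rw [QuotientGroup.mk_mul, (QuotientGroup.eq_one_iff (n : G)).mpr n.2, mul_one]⟩

@[simp]
theorem liftFun_apply (y : (Rep.coind (projComp φ N) A).V) (g : G) :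
    (((liftFun φ A N y : ((Rep.coind φ A).quotientToInvariants N).V) : (Rep.coind φ A).V) :
      G → A.V) g = (y : G ⧸ N → A.V) (QuotientGroup.mk g) := rfl

/-- `(coind φ A)^N ≃ coind (π ∘ φ) A` as `k`-modules -/
noncomputable def coindInvariantsEquiv :
    ((Rep.coind φ A).quotientToInvariants N).V ≃ₗ[k] (Rep.coind (projComp φ N) A).V where
  toFun x := ⟨descFun φ A N x, descFun_mem φ A N x⟩
  map_add' x y := by
    apply Subtype.ext
    funext q
    induction q using QuotientGroup.induction_on with
    | H g => rfl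
  map_smul' c x := by
    apply Subtype.ext
    funext q
    induction q using QuotientGroup.induction_on with
    | H g => rfl
  invFun := liftFun φ A N
  left_inv x := by
    apply Subtype.ext
    apply Subtype.ext
    funext g
    rfl
  right_inv y := by
    apply Subtype.ext
    funext q
    induction q using QuotientGroup.induction_on with
    | H g => rfl

theorem coindInvariantsEquiv_apply_mk (x : ((Rep.coind φ A).quotientToInvariants N).V) (g : G) :
    ((coindInvariantsEquiv φ A N x : (Rep.coind (projComp φ N) A).V) : G ⧸ N → A.V)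
      (QuotientGroup.mk g) = ((x : (Rep.coind φ A).V) : G → A.V) g := rfl

/-- **`N`-invariants of a coinduced module**: `(coind φ A)^N ≅ coind (π ∘ φ) A` as representations
of `G ⧸ N`. -/
noncomputable def coindInvariantsIso :
    (Rep.coind φ A).quotientToInvariants N ≅ Rep.coind (projComp φ N) A :=
  Rep.mkIso <| .mk (coindInvariantsEquiv φ A N) fun q => by
    induction q using QuotientGroup.induction_on with
    | H g =>
      ext x q'
      induction q' using QuotientGroup.induction_on with
      | H g' => rfl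

/-! ### transport of coinduced modules along a group isomorphism -/

variable {G' : Type w} [Group G'] (e : G ≃* G')

/-- `coind φ A ≃ coind (e ∘ φ) A`, `f ↦ f ∘ e⁻¹` -/
noncomputable def coindCongrEquiv :
    (Rep.coind φ A).V ≃ₗ[k] (Rep.coind (e.toMonoidHom.comp φ) A).V where
  toFun x := ⟨fun g' => (x : G → A.V) (e.symm g'), fun γ g' => by
    have := x.2 γ (e.symm g')
    show (x : G → A.V) (e.symm (e (φ γ) * g')) = _
    rw [map_mul, MulEquiv.symm_apply_apply]
    exact this⟩
  map_add' _ _ := rfl
  map_smul' _ _ := rfl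
  invFun y := ⟨fun g => (y : G' → A.V) (e g), fun γ g => by
    have := y.2 γ (e g)
    show (y : G' → A.V) (e (φ γ * g)) = _
    rw [map_mul]
    exact this⟩
  left_inv x := by
    apply Subtype.ext
    funext g
    show (x : G → A.V) (e.symm (e g)) = _
    rw [MulEquiv.symm_apply_apply]
  right_inv y := by
    apply Subtype.ext
    funext g'
    show (y : G' → A.V) (e (e.symm g')) = _
    rw [MulEquiv.apply_symm_apply]

theorem coindCongrEquiv_apply (x : (Rep.coind φ A).V) (g' : G') :
    ((coindCongrEquiv φ A e x : (Rep.coind (e.toMonoidHom.comp φ) A).V) : G' → A.V) g' =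
      (x : G → A.V) (e.symm g') := rfl

/-- **transport along a group isomorphism** `e : G ≃* G'`:
`res e⁻¹ (coind φ A) ≅ coind (e ∘ φ) A` as representations of `G'`. -/
noncomputable def coindResIso :
    Rep.res e.symm.toMonoidHom (Rep.coind φ A) ≅ Rep.coind (e.toMonoidHom.comp φ) A :=
  Rep.mkIso <| .mk (coindCongrEquiv φ A e) fun g' => by
    ext x y
    show (x : G → A.V) (e.symm y * e.symm g') = (x : G → A.V) (e.symm (y * g'))
    rw [map_mul]

end Coind

/-! ### descent of invariants along a short exact sequence -/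

section Invariants

open groupCohomology Limits

variable {k G : Type u} [CommRing k] [Group G]

/-- `H¹(N, E) = 0` in elementary form. -/
theorem exists_eq_sub_of_isZero_H1 (E : Rep.{u, u, u} k G) (N : Subgroup G)
    (h1 : IsZero (groupCohomology (Rep.res N.subtype E) 1))
    (z : N → E.V) (hz : ∀ n m : N, z (n * m) = E.ρ (n : G) (z m) + z n) :
    ∃ y : E.V, ∀ n : N, E.ρ (n : G) y - y = z n := by
  have hmem : z ∈ cocycles₁ (Rep.res N.subtype E) := by
    rw [mem_cocycles₁_iff]
    intro g h
    exact hz g h
  have hss := ModuleCat.subsingleton_of_isZero h1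
  have h0 : H1π (Rep.res N.subtype E) ⟨z, hmem⟩ = 0 := Subsingleton.elim _ _
  rw [H1π_eq_zero_iff] at h0
  obtain ⟨y, hy⟩ := h0
  refine ⟨y, fun s => ?_⟩
  have := congrFun hy s
  simp only [d₀₁_hom_apply] at this
  exact this

variable {E J C : Rep.{u, u, u} k G} (f : E ⟶ J) (g : J ⟶ C)

/-- **surjectivity on invariants**: if `0 → E → J → C → 0` is exact and `H¹(N, E) = 0` then every
`N`-invariant element of `C` lifts to an `N`-invariant element of `J`. -/
theorem exists_invariant_lift (hf : Function.Injective f.hom) (hg : Function.Surjective g.hom)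
    (hex : ∀ j : J.V, g.hom j = 0 ↔ ∃ x : E.V, f.hom x = j)
    (N : Subgroup G) (h1 : IsZero (groupCohomology (Rep.res N.subtype E) 1))
    (c : C.V) (hc : ∀ n ∈ N, C.ρ n c = c) :
    ∃ j : J.V, (∀ n ∈ N, J.ρ n j = j) ∧ g.hom j = c := by
  classical
  obtain ⟨j, rfl⟩ := hg c
  have hker : ∀ n : N, g.hom (J.ρ (n : G) j - j) = 0 := fun n => by
    rw [map_sub, hom_comm_apply, hc n n.2, sub_self]
  choose z hz using fun n : N => (hex _).mp (hker n)
  have hcoc : ∀ n m : N, z (n * m) = E.ρ (n : G) (z m) + z n := fun n m => by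
    apply hf
    rw [map_add, hom_comm_apply, hz, hz, hz]
    have : J.ρ ((n * m : N) : G) j = J.ρ (n : G) (J.ρ (m : G) j) := by
      rw [Subgroup.coe_mul, map_mul]
      rfl
    rw [this, map_sub]
    abel
  obtain ⟨y, hy⟩ := exists_eq_sub_of_isZero_H1 E N h1 z hcoc
  refine ⟨j - f.hom y, fun n hn => ?_, ?_⟩
  · have h2 := hz ⟨n, hn⟩
    have h3 := hy ⟨n, hn⟩
    have h4 : f.hom (E.ρ n y - y) = J.ρ n j - j := by
      rw [← h2]
      exact congrArg f.hom h3
    rw [map_sub, hom_comm_apply] at h4
    rw [map_sub]
    have : J.ρ n j - J.ρ n (f.hom y) - (j - f.hom y) = 0 := by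
      have h5 : J.ρ n j - J.ρ n (f.hom y) - (j - f.hom y) =
          (J.ρ n j - j) - (J.ρ n (f.hom y) - f.hom y) := by abel
      rw [h5, h4, sub_self]
    exact sub_eq_zero.mp this
  · have hgf : g.hom (f.hom y) = 0 := (hex _).mpr ⟨y, rfl⟩
    rw [map_sub, hgf, sub_zero]

/-- exactness in `Rep k G`, elementwise. -/
theorem rep_exact_iff (S : ShortComplex (Rep.{u, u, u} k G)) :
    S.Exact ↔ ∀ x : S.X₂.V, S.g.hom x = 0 → ∃ y : S.X₁.V, S.f.hom y = x := by
  rw [← ShortComplex.exact_map_iff_of_faithful S (forget₂ (Rep.{u, u, u} k G) (ModuleCat k)),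
    ShortComplex.moduleCat_exact_iff]
  rfl

theorem rep_zero_apply (S : ShortComplex (Rep.{u, u, u} k G)) (x : S.X₁.V) :
    S.g.hom (S.f.hom x) = 0 := by
  have h := S.zero
  have h2 : (S.f ≫ S.g).hom x = (0 : S.X₁ ⟶ S.X₃).hom x := by rw [h]
  exact h2

variable (N : Subgroup G) [N.Normal]

instance quotientToInvariantsFunctor_preservesZeroMorphisms :
    (quotientToInvariantsFunctor k N :
      Rep.{u, u, u} k G ⥤ Rep k (G ⧸ N)).PreservesZeroMorphisms where
  map_zero X Y := by
    ext x
    rfl

theorem quotientToInvariantsFunctor_map_val {X Y : Rep.{u, u, u} k G} (f : X ⟶ Y)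
    (x : (X.quotientToInvariants N).V) :
    (show (Y.quotientToInvariants N).V from
      ((quotientToInvariantsFunctor k N).map f).hom x).1 = f.hom x.1 := rfl

/-- **descent of invariants along a short exact sequence**: if `0 → E → J → C → 0` is short exact
in `Rep k G` and `H¹(N, E) = 0` for the normal subgroup `N`, then `0 → E^N → J^N → C^N → 0` is
short exact in `Rep k (G ⧸ N)`. -/
theorem invariants_shortExact (S : ShortComplex (Rep.{u, u, u} k G)) (hS : S.ShortExact)
    (h1 : IsZero (groupCohomology (Rep.res N.subtype S.X₁) 1)) :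
    (S.map (quotientToInvariantsFunctor k N)).ShortExact := by
  have hf : Function.Injective S.f.hom := (Rep.mono_iff_injective S.f).1 hS.mono_f
  have hg : Function.Surjective S.g.hom := (Rep.epi_iff_surjective S.g).1 hS.epi_g
  have hex : ∀ j : S.X₂.V, S.g.hom j = 0 ↔ ∃ x : S.X₁.V, S.f.hom x = j := fun j =>
    ⟨(rep_exact_iff S).1 hS.exact j, fun ⟨x, hx⟩ => hx ▸ rep_zero_apply S x⟩
  have hexact : (S.map (quotientToInvariantsFunctor k N)).Exact := by
    rw [rep_exact_iff]
    intro x hx
    have hx' : S.g.hom x.1 = 0 := congrArg Subtype.val hx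
    obtain ⟨y, hy⟩ := (hex _).1 hx'
    refine ⟨⟨y, fun n => ?_⟩, Subtype.ext hy⟩
    apply hf
    have h2 := x.2 n
    show S.f.hom (S.X₁.ρ (n : G) y) = S.f.hom y
    rw [hom_comm_apply, hy]
    exact h2
  have hmono : Mono (S.map (quotientToInvariantsFunctor k N)).f := by
    refine (Rep.mono_iff_injective _).2 fun x y hxy => ?_
    apply Subtype.ext
    apply hf
    exact congrArg Subtype.val hxy
  have hepi : Epi (S.map (quotientToInvariantsFunctor k N)).g := by
    refine (Rep.epi_iff_surjective _).2 fun c => ?_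
    obtain ⟨j, hj, hjc⟩ := exists_invariant_lift S.f S.g hf hg hex N h1 c.1
      (fun n hn => c.2 ⟨n, hn⟩)
    exact ⟨⟨j, fun n => hj n n.2⟩, Subtype.ext hjc⟩
  exact { exact := hexact, mono_f := hmono, epi_g := hepi }

end Invariants

end Fermat.Agent.S55.Descent99
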