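/-
S55 package [HERBRAND] (helper54): abstract Herbrand quotient calculus.

For an abelian group `A` with two endomorphisms `f g : A →+ A` such that `f ∘ g = 0 = g ∘ f`
(a `Pair`), put `H0 = ker f / im g`, `H1 = ker g / im f` and `q = |H0| / |H1|`.
We prove: the exact hexagon attached to a short exact sequence of pairs, multiplicativity of `q`,
`q = 1` for finite groups, invariance under finite-index subgroups, products.
Mathlib only.
-/
import Mathlib

set_option autoImplicit false

namespace Fermat.Agent.S55.Herbrand54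

open QuotientAddGroup

/-- A pair of endomorphisms with `f ∘ g = 0 = g ∘ f`. -/
structure Pair (A : Type*) [AddCommGroup A] where
  f : A →+ A
  g : A →+ A
  fg : f.comp g = 0
  gf : g.comp f = 0

namespace Pair

variable {A B C : Type*} [AddCommGroup A] [AddCommGroup B] [AddCommGroup C]

theorem f_g (P : Pair A) (x : A) : P.f (P.g x) = 0 := DFunLike.congr_fun P.fg x
theorem g_f (P : Pair A) (x : A) : P.g (P.f x) = 0 := DFunLike.congr_fun P.gf x

/-- The swapped pair. -/
def swap (P : Pair A) : Pair A := ⟨P.g, P.f, P.gf, P.fg⟩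

@[simp] theorem swap_f (P : Pair A) : P.swap.f = P.g := rfl
@[simp] theorem swap_g (P : Pair A) : P.swap.g = P.f := rfl
@[simp] theorem swap_swap (P : Pair A) : P.swap.swap = P := rfl

/-- The subgroup `im g ∩ ker f` of `ker f`. -/
def B0 (P : Pair A) : AddSubgroup P.f.ker := P.g.range.addSubgroupOf P.f.ker

/-- `H0 = ker f / im g`. -/
abbrev H0 (P : Pair A) : Type _ := ↥P.f.ker ⧸ P.B0

/-- `H1 = ker g / im f`. -/
abbrev H1 (P : Pair A) : Type _ := P.swap.H0

theorem mem_B0 (P : Pair A) (x : P.f.ker) : x ∈ P.B0 ↔ ∃ y, P.g y = x := by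
  rw [B0, AddSubgroup.mem_addSubgroupOf, AddMonoidHom.mem_range]

/-- The class in `H0` of an element of `ker f`. -/
def cls (P : Pair A) (x : A) (hx : P.f x = 0) : P.H0 :=
  QuotientAddGroup.mk (⟨x, hx⟩ : P.f.ker)

theorem cls_eq_zero_iff (P : Pair A) (x : A) (hx : P.f x = 0) :
    P.cls x hx = 0 ↔ ∃ y, P.g y = x := by
  rw [cls, QuotientAddGroup.eq_zero_iff, mem_B0]

theorem cls_add (P : Pair A) (x y : A) (hx : P.f x = 0) (hy : P.f y = 0) :
    P.cls (x + y) (by rw [map_add, hx, hy, add_zero]) = P.cls x hx + P.cls y hy := rfl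

theorem cls_surj (P : Pair A) (z : P.H0) : ∃ x hx, P.cls x hx = z := by
  obtain ⟨⟨x, hx⟩, rfl⟩ := QuotientAddGroup.mk_surjective z
  exact ⟨x, hx, rfl⟩

theorem cls_eq_cls_iff (P : Pair A) (x y : A) (hx : P.f x = 0) (hy : P.f y = 0) :
    P.cls x hx = P.cls y hy ↔ ∃ z, P.g z = x - y := by
  rw [cls, cls, QuotientAddGroup.eq_iff_sub_mem, mem_B0]
  rfl

/-- `q` is defined when both `H0` and `H1` are finite. -/
def IsDefined (P : Pair A) : Prop := Finite P.H0 ∧ Finite P.H1

/-- The Herbrand quotient `|H0| / |H1|`. -/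
noncomputable def q (P : Pair A) : ℚ := (Nat.card P.H0 : ℚ) / (Nat.card P.H1 : ℚ)

theorem isDefined_swap (P : Pair A) : P.swap.IsDefined ↔ P.IsDefined := by
  unfold IsDefined H1
  rw [swap_swap]
  exact and_comm

theorem q_swap (P : Pair A) : P.swap.q = (P.q)⁻¹ := by
  unfold q H1
  rw [swap_swap, inv_div]

/-- Morphisms of pairs. -/
structure Hom (P : Pair A) (Q : Pair B) where
  toFun : A →+ B
  comm_f : ∀ x, toFun (P.f x) = Q.f (toFun x)
  comm_g : ∀ x, toFun (P.g x) = Q.g (toFun x)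

namespace Hom

variable {P : Pair A} {Q : Pair B} {R : Pair C}

/-- The swapped morphism. -/
def swap (i : Hom P Q) : Hom P.swap Q.swap := ⟨i.toFun, i.comm_g, i.comm_f⟩

@[simp] theorem swap_toFun (i : Hom P Q) : i.swap.toFun = i.toFun := rfl

/-- The induced map on `ker f`. -/
def kerMap (i : Hom P Q) : P.f.ker →+ Q.f.ker :=
  (i.toFun.comp P.f.ker.subtype).codRestrict Q.f.ker (fun x => by
    rw [AddMonoidHom.mem_ker, AddMonoidHom.comp_apply, AddSubgroup.subtype_apply, ← i.comm_f,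
      x.2, map_zero])

@[simp] theorem coe_kerMap (i : Hom P Q) (x : P.f.ker) : (i.kerMap x : B) = i.toFun x := rfl

/-- The induced map on `H0`. -/
def mapH0 (i : Hom P Q) : P.H0 →+ Q.H0 :=
  QuotientAddGroup.map _ _ i.kerMap (by
    intro x hx
    rw [AddSubgroup.mem_comap, Pair.mem_B0]
    obtain ⟨y, hy⟩ := (Pair.mem_B0 P x).1 hx
    exact ⟨i.toFun y, by rw [← i.comm_g, hy, coe_kerMap]⟩)

theorem mapH0_cls (i : Hom P Q) (x : A) (hx : P.f x = 0) :
    i.mapH0 (P.cls x hx) = Q.cls (i.toFun x) (by rw [← i.comm_f, hx, map_zero]) := rfl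

/-- The induced map on `H1`. -/
def mapH1 (i : Hom P Q) : P.H1 →+ Q.H1 := i.swap.mapH0

end Hom

/-- A short exact sequence of pairs `0 → P → Q → R → 0`. -/
structure SES (P : Pair A) (Q : Pair B) (R : Pair C) where
  i : Hom P Q
  p : Hom Q R
  inj : Function.Injective i.toFun
  surj : Function.Surjective p.toFun
  exact : ∀ b, p.toFun b = 0 ↔ ∃ a, i.toFun a = b

namespace SES

variable {P : Pair A} {Q : Pair B} {R : Pair C}

/-- The swapped short exact sequence. -/
def swap (S : SES P Q R) : SES P.swap Q.swap R.swap :=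
  ⟨S.i.swap, S.p.swap, S.inj, S.surj, S.exact⟩

theorem p_i (S : SES P Q R) (a : A) : S.p.toFun (S.i.toFun a) = 0 := (S.exact _).2 ⟨a, rfl⟩

/-- Exactness at `H0 Q`. -/
theorem exact_H0_mid (S : SES P Q R) (z : Q.H0) :
    S.p.mapH0 z = 0 ↔ ∃ w, S.i.mapH0 w = z := by
  obtain ⟨b, hb, rfl⟩ := Q.cls_surj z
  rw [Hom.mapH0_cls, cls_eq_zero_iff]
  constructor
  · rintro ⟨c, hc⟩
    obtain ⟨b', rfl⟩ := S.surj c
    -- p (b - g b') = 0
    have h0 : S.p.toFun (b - Q.g b') = 0 := by
      rw [map_sub, S.p.comm_g, hc, sub_self]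
    obtain ⟨a, ha⟩ := (S.exact _).1 h0
    have haf : P.f a = 0 := by
      apply S.inj
      rw [S.i.comm_f, ha, map_sub, hb, Q.f_g, sub_zero, map_zero]
    refine ⟨P.cls a haf, ?_⟩
    rw [Hom.mapH0_cls, cls_eq_cls_iff]
    exact ⟨-b', by rw [map_neg, ha]; abel⟩
  · rintro ⟨w, hw⟩
    obtain ⟨a, ha, rfl⟩ := P.cls_surj w
    rw [Hom.mapH0_cls, cls_eq_cls_iff] at hw
    obtain ⟨y, hy⟩ := hw
    refine ⟨S.p.toFun (-y), ?_⟩
    rw [← S.p.comm_g, map_neg, hy, neg_sub, map_sub, S.p_i, sub_zero]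

/-- The subgroup `p⁻¹(ker f_R)` of `B`. -/
def T (S : SES P Q R) : AddSubgroup B := R.f.ker.comap S.p.toFun

theorem mem_T (S : SES P Q R) (b : B) : b ∈ S.T ↔ R.f (S.p.toFun b) = 0 := Iff.rfl

theorem f_mem_range_of_mem_T (S : SES P Q R) {b : B} (hb : b ∈ S.T) :
    Q.f b ∈ S.i.toFun.range := by
  rw [AddMonoidHom.mem_range]
  apply (S.exact _).1
  rw [S.p.comm_f]
  exact hb

/-- `b ↦ i⁻¹ (f b)` on `T`. -/
noncomputable def psi (S : SES P Q R) : S.T →+ A :=
  ((AddMonoidHom.ofInjective S.inj).symm.toAddMonoidHom).comp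
    ((Q.f.comp S.T.subtype).codRestrict S.i.toFun.range
      (fun b => S.f_mem_range_of_mem_T b.2))

theorem i_psi (S : SES P Q R) (b : S.T) : S.i.toFun (S.psi b) = Q.f b := by
  have := (AddMonoidHom.ofInjective S.inj).apply_symm_apply
    (((Q.f.comp S.T.subtype).codRestrict S.i.toFun.range
      (fun b => S.f_mem_range_of_mem_T b.2)) b)
  exact congrArg Subtype.val this

theorem g_psi (S : SES P Q R) (b : S.T) : P.g (S.psi b) = 0 := by
  apply S.inj
  rw [S.i.comm_g, S.i_psi, Q.g_f, map_zero]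

/-- `T → H1 P`. -/
noncomputable def phi (S : SES P Q R) : S.T →+ P.H1 :=
  (QuotientAddGroup.mk' P.swap.B0).comp
    (S.psi.codRestrict P.g.ker (fun b => S.g_psi b))

theorem phi_apply (S : SES P Q R) (b : S.T) :
    S.phi b = P.swap.cls (S.psi b) (show P.swap.f (S.psi b) = 0 from S.g_psi b) := rfl

/-- `T → H0 R`, `b ↦ [p b]`. -/
def pi (S : SES P Q R) : S.T →+ R.H0 :=
  (QuotientAddGroup.mk' R.B0).comp
    ((S.p.toFun.comp S.T.subtype).codRestrict R.f.ker (fun b => b.2))

theorem pi_apply (S : SES P Q R) (b : S.T) :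
    S.pi b = R.cls (S.p.toFun b) ((S.mem_T b).1 b.2) := rfl

theorem pi_surjective (S : SES P Q R) : Function.Surjective S.pi := by
  intro z
  obtain ⟨c, hc, rfl⟩ := R.cls_surj z
  obtain ⟨b, rfl⟩ := S.surj c
  exact ⟨⟨b, hc⟩, rfl⟩

theorem ker_pi_le_ker_phi (S : SES P Q R) : S.pi.ker ≤ S.phi.ker := by
  intro b hb
  rw [AddMonoidHom.mem_ker, pi_apply, cls_eq_zero_iff] at hb
  obtain ⟨c, hc⟩ := hb
  obtain ⟨b', rfl⟩ := S.surj c
  have h0 : S.p.toFun ((b : B) - Q.g b') = 0 := by
    rw [map_sub, S.p.comm_g, hc, sub_self]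
  obtain ⟨a, ha⟩ := (S.exact _).1 h0
  rw [AddMonoidHom.mem_ker, phi_apply, cls_eq_zero_iff]
  refine ⟨a, ?_⟩
  apply S.inj
  rw [swap_g, S.i.comm_f, ha, S.i_psi, map_sub, Q.f_g, sub_zero]

/-- The connecting homomorphism `H0 R → H1 P`. -/
noncomputable def delta (S : SES P Q R) : R.H0 →+ P.H1 :=
  S.pi.liftOfSurjective S.pi_surjective ⟨S.phi, S.ker_pi_le_ker_phi⟩

theorem delta_pi (S : SES P Q R) (b : S.T) : S.delta (S.pi b) = S.phi b := by
  rw [delta]
  exact AddMonoidHom.liftOfRightInverse_comp_apply _ _ _ _ b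

/-- Exactness at `H0 R`. -/
theorem exact_H0_right (S : SES P Q R) (z : R.H0) :
    S.delta z = 0 ↔ ∃ w, S.p.mapH0 w = z := by
  obtain ⟨b, rfl⟩ := S.pi_surjective z
  rw [delta_pi, phi_apply, cls_eq_zero_iff]
  constructor
  · rintro ⟨a, ha⟩
    rw [swap_g] at ha
    -- f (b - i a) = 0
    have hf : Q.f ((b : B) - S.i.toFun a) = 0 := by
      rw [map_sub, ← S.i.comm_f, ha, S.i_psi, sub_self]
    refine ⟨Q.cls _ hf, ?_⟩
    rw [Hom.mapH0_cls, pi_apply, cls_eq_cls_iff]
    exact ⟨0, by rw [map_zero, map_sub, S.p_i, sub_zero, sub_self]⟩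
  · rintro ⟨w, hw⟩
    obtain ⟨b', hb', rfl⟩ := Q.cls_surj w
    rw [Hom.mapH0_cls, pi_apply, cls_eq_cls_iff] at hw
    obtain ⟨c, hc⟩ := hw
    obtain ⟨b'', rfl⟩ := S.surj c
    have h0 : S.p.toFun (b' - (b : B) - Q.g b'') = 0 := by
      rw [map_sub, map_sub, S.p.comm_g, hc, sub_self]
    obtain ⟨a, ha⟩ := (S.exact _).1 h0
    refine ⟨-a, ?_⟩
    apply S.inj
    rw [swap_g, S.i.comm_f, map_neg, ha, S.i_psi, map_neg, map_sub, map_sub, hb', Q.f_g]
    abel

/-- Exactness at `H1 P`. -/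
theorem exact_H1_left (S : SES P Q R) (z : P.H1) :
    S.i.mapH1 z = 0 ↔ ∃ w, S.delta w = z := by
  obtain ⟨a, ha, rfl⟩ := P.swap.cls_surj z
  rw [swap_f] at ha
  rw [Hom.mapH1, Hom.mapH0_cls, cls_eq_zero_iff]
  constructor
  · rintro ⟨b, hb⟩
    rw [swap_g, Hom.swap_toFun] at hb
    have hbT : b ∈ S.T := by
      rw [mem_T, ← S.p.comm_f, hb, S.p_i]
    refine ⟨S.pi ⟨b, hbT⟩, ?_⟩
    rw [delta_pi, phi_apply, cls_eq_cls_iff]
    refine ⟨0, ?_⟩
    rw [map_zero, eq_comm, sub_eq_zero]
    apply S.inj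
    rw [S.i_psi]
    exact hb
  · rintro ⟨w, hw⟩
    obtain ⟨b, rfl⟩ := S.pi_surjective w
    rw [delta_pi, phi_apply, cls_eq_cls_iff] at hw
    obtain ⟨a', ha'⟩ := hw
    rw [swap_g] at ha'
    refine ⟨(b : B) - S.i.toFun a', ?_⟩
    rw [swap_g, Hom.swap_toFun, map_sub, ← S.i.comm_f, ha', map_sub, S.i_psi]
    abel

end SES

end Pair

section Counting

variable {X Y Z : Type*} [AddCommGroup X] [AddCommGroup Y] [AddCommGroup Z]

/-- In an exact sequence `X → Y → Z`, `|Y| = |im u| * |im v|` (as natural numbers, `Nat.card`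
conventions: no finiteness hypothesis needed). -/
theorem card_mid (u : X →+ Y) (v : Y →+ Z) (h : ∀ y, v y = 0 ↔ ∃ x, u x = y) :
    Nat.card Y = Nat.card u.range * Nat.card v.range := by
  have hker : v.ker = u.range := by
    ext y
    rw [AddMonoidHom.mem_ker, AddMonoidHom.mem_range]
    exact h y
  rw [AddSubgroup.card_eq_card_quotient_mul_card_addSubgroup v.ker,
    Nat.card_congr (QuotientAddGroup.quotientKerEquivRange v).toEquiv, hker, mul_comm]

/-- In an exact sequence `X → Y → Z` with `X`, `Z` finite, `Y` is finite. -/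
theorem finite_mid (u : X →+ Y) (v : Y →+ Z) (h : ∀ y, v y = 0 ↔ ∃ x, u x = y)
    [Finite X] [Finite Z] : Finite Y := by
  have : Finite u.range := Finite.of_surjective u.rangeRestrict u.rangeRestrict_surjective
  have : Finite v.range := Finite.of_injective v.range.subtype v.range.subtype_injective
  apply Nat.finite_of_card_ne_zero
  rw [card_mid u v h]
  exact Nat.mul_ne_zero Nat.card_pos.ne' Nat.card_pos.ne'

end Counting

namespace Pair

variable {A B C : Type*} [AddCommGroup A] [AddCommGroup B] [AddCommGroup C]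

namespace SES

variable {P : Pair A} {Q : Pair B} {R : Pair C}

/-- The second connecting homomorphism `H1 R → H0 P`. -/
noncomputable def delta' (S : SES P Q R) : R.H1 →+ P.H0 := S.swap.delta

/-- Exactness at `H1 Q`. -/
theorem exact_H1_mid (S : SES P Q R) (z : Q.H1) :
    S.p.mapH1 z = 0 ↔ ∃ w, S.i.mapH1 w = z := S.swap.exact_H0_mid z

/-- Exactness at `H1 R`. -/
theorem exact_H1_right (S : SES P Q R) (z : R.H1) :
    S.delta' z = 0 ↔ ∃ w, S.p.mapH1 w = z := S.swap.exact_H0_right z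

/-- Exactness at `H0 P`. -/
theorem exact_H0_left (S : SES P Q R) (z : P.H0) :
    S.i.mapH0 z = 0 ↔ ∃ w, S.delta' w = z := S.swap.exact_H1_left z

/-- The hexagon identity `|H0 P| |H0 R| |H1 Q| = |H0 Q| |H1 P| |H1 R|` (unconditional). -/
theorem card_hexagon (S : SES P Q R) :
    Nat.card P.H0 * Nat.card R.H0 * Nat.card Q.H1 =
      Nat.card Q.H0 * Nat.card P.H1 * Nat.card R.H1 := by
  have e1 := card_mid S.delta' S.i.mapH0 S.exact_H0_left
  have e2 := card_mid S.i.mapH0 S.p.mapH0 S.exact_H0_mid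
  have e3 := card_mid S.p.mapH0 S.delta S.exact_H0_right
  have e4 := card_mid S.delta S.i.mapH1 S.exact_H1_left
  have e5 := card_mid S.i.mapH1 S.p.mapH1 S.exact_H1_mid
  have e6 := card_mid S.p.mapH1 S.delta' S.exact_H1_right
  rw [e1, e2, e3, e4, e5, e6]
  ring

theorem isDefined_mid (S : SES P Q R) (hP : P.IsDefined) (hR : R.IsDefined) : Q.IsDefined := by
  obtain ⟨hP0, hP1⟩ := hP
  obtain ⟨hR0, hR1⟩ := hR
  exact ⟨finite_mid S.i.mapH0 S.p.mapH0 S.exact_H0_mid,
    finite_mid S.i.mapH1 S.p.mapH1 S.exact_H1_mid⟩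

theorem isDefined_left (S : SES P Q R) (hQ : Q.IsDefined) (hR : R.IsDefined) : P.IsDefined := by
  obtain ⟨hQ0, hQ1⟩ := hQ
  obtain ⟨hR0, hR1⟩ := hR
  exact ⟨finite_mid S.delta' S.i.mapH0 S.exact_H0_left,
    finite_mid S.delta S.i.mapH1 S.exact_H1_left⟩

theorem isDefined_right (S : SES P Q R) (hP : P.IsDefined) (hQ : Q.IsDefined) : R.IsDefined := by
  obtain ⟨hP0, hP1⟩ := hP
  obtain ⟨hQ0, hQ1⟩ := hQ
  exact ⟨finite_mid S.p.mapH0 S.delta S.exact_H0_right,
    finite_mid S.p.mapH1 S.delta' S.exact_H1_right⟩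

/-- Multiplicativity of the Herbrand quotient. -/
theorem q_mul (S : SES P Q R) (hP : P.IsDefined) (hR : R.IsDefined) : Q.q = P.q * R.q := by
  have hQ := S.isDefined_mid hP hR
  obtain ⟨hP0, hP1⟩ := hP
  obtain ⟨hR0, hR1⟩ := hR
  obtain ⟨hQ0, hQ1⟩ := hQ
  have h := S.card_hexagon
  have hq : ((Nat.card P.H0 : ℚ) * Nat.card R.H0 * Nat.card Q.H1) =
      (Nat.card Q.H0 : ℚ) * Nat.card P.H1 * Nat.card R.H1 := by exact_mod_cast h
  have n1 : (Nat.card P.H1 : ℚ) ≠ 0 := Nat.cast_ne_zero.2 Nat.card_pos.ne'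
  have n2 : (Nat.card R.H1 : ℚ) ≠ 0 := Nat.cast_ne_zero.2 Nat.card_pos.ne'
  have n3 : (Nat.card Q.H1 : ℚ) ≠ 0 := Nat.cast_ne_zero.2 Nat.card_pos.ne'
  unfold q
  field_simp
  linarith

end SES

/-! ### Finite groups have Herbrand quotient `1` -/

section Finite

variable (P : Pair A)

theorem card_ker_f (P : Pair A) : Nat.card P.f.ker = Nat.card P.H0 * Nat.card P.g.range := by
  have hle : P.g.range ≤ P.f.ker := by
    rintro _ ⟨y, rfl⟩
    exact P.f_g y
  rw [AddSubgroup.card_eq_card_quotient_mul_card_addSubgroup P.B0, B0,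
    Nat.card_congr (AddSubgroup.addSubgroupOfEquivOfLe hle).toEquiv]
  rfl

theorem card_eq_range_mul_ker (u : A →+ A) : Nat.card A = Nat.card u.range * Nat.card u.ker := by
  rw [AddSubgroup.card_eq_card_quotient_mul_card_addSubgroup u.ker,
    Nat.card_congr (QuotientAddGroup.quotientKerEquivRange u).toEquiv]

theorem isDefined_of_finite [Finite A] (P : Pair A) : P.IsDefined :=
  ⟨inferInstance, inferInstance⟩

theorem card_H0_eq_card_H1_of_finite [Finite A] (P : Pair A) :
    Nat.card P.H0 = Nat.card P.H1 := by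
  have h1 := card_eq_range_mul_ker P.f
  have h2 := card_eq_range_mul_ker P.g
  have h3 := P.card_ker_f
  have h4 := P.swap.card_ker_f
  rw [swap_f, swap_g] at h4
  have hf : Nat.card P.f.range ≠ 0 := Nat.card_pos.ne'
  have hg : Nat.card P.g.range ≠ 0 := Nat.card_pos.ne'
  -- |A| = |im f| |H0| |im g| = |im g| |H1| |im f|
  have key : Nat.card P.H0 * (Nat.card P.f.range * Nat.card P.g.range) =
      Nat.card P.H1 * (Nat.card P.f.range * Nat.card P.g.range) := by
    calc Nat.card P.H0 * (Nat.card P.f.range * Nat.card P.g.range)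
        = Nat.card P.f.range * (Nat.card P.H0 * Nat.card P.g.range) := by ring
      _ = Nat.card A := by rw [← h3, ← h1]
      _ = Nat.card P.g.range * (Nat.card P.H1 * Nat.card P.f.range) := by rw [← h4, ← h2]
      _ = Nat.card P.H1 * (Nat.card P.f.range * Nat.card P.g.range) := by ring
  exact Nat.eq_of_mul_eq_mul_right (Nat.pos_of_ne_zero (Nat.mul_ne_zero hf hg)) key

/-- A pair on a finite group has Herbrand quotient `1`. -/
theorem q_of_finite [Finite A] (P : Pair A) : P.q = 1 := by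
  unfold q
  rw [P.card_H0_eq_card_H1_of_finite]
  exact div_self (Nat.cast_ne_zero.2 Nat.card_pos.ne')

end Finite

/-! ### Isomorphism invariance -/

section Iso

variable {P : Pair A} {Q : Pair B}

/-- An isomorphism of pairs. -/
structure Iso (P : Pair A) (Q : Pair B) where
  e : A ≃+ B
  comm_f : ∀ x, e (P.f x) = Q.f (e x)
  comm_g : ∀ x, e (P.g x) = Q.g (e x)

namespace Iso

/-- The underlying morphism. -/
def hom (I : Iso P Q) : Hom P Q := ⟨I.e.toAddMonoidHom, I.comm_f, I.comm_g⟩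

/-- The inverse isomorphism. -/
def symm (I : Iso P Q) : Iso Q P :=
  ⟨I.e.symm, fun x => by
    apply I.e.injective
    rw [I.comm_f, AddEquiv.apply_symm_apply, AddEquiv.apply_symm_apply],
   fun x => by
    apply I.e.injective
    rw [I.comm_g, AddEquiv.apply_symm_apply, AddEquiv.apply_symm_apply]⟩

/-- The swapped isomorphism. -/
def swap (I : Iso P Q) : Iso P.swap Q.swap := ⟨I.e, I.comm_g, I.comm_f⟩

/-- The induced equivalence on `H0`. -/
def equivH0 (I : Iso P Q) : P.H0 ≃+ Q.H0 where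
  toFun := I.hom.mapH0
  invFun := I.symm.hom.mapH0
  left_inv z := by
    obtain ⟨x, hx, rfl⟩ := P.cls_surj z
    rw [Hom.mapH0_cls, Hom.mapH0_cls]
    congr 1
    exact I.e.symm_apply_apply x
  right_inv z := by
    obtain ⟨x, hx, rfl⟩ := Q.cls_surj z
    rw [Hom.mapH0_cls, Hom.mapH0_cls]
    congr 1
    exact I.e.apply_symm_apply x
  map_add' := map_add _

/-- The induced equivalence on `H1`. -/
def equivH1 (I : Iso P Q) : P.H1 ≃+ Q.H1 := I.swap.equivH0

theorem isDefined_iff (I : Iso P Q) : P.IsDefined ↔ Q.IsDefined := by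
  unfold IsDefined
  rw [I.equivH0.toEquiv.finite_iff, I.equivH1.toEquiv.finite_iff]

theorem q_eq (I : Iso P Q) : P.q = Q.q := by
  unfold q
  rw [Nat.card_congr I.equivH0.toEquiv, Nat.card_congr I.equivH1.toEquiv]

end Iso

end Iso

/-! ### Subgroups, quotients, finite index -/

section Restrict

variable (P : Pair A) (A' : AddSubgroup A)
  (hf : ∀ x ∈ A', P.f x ∈ A') (hg : ∀ x ∈ A', P.g x ∈ A')

/-- The restriction of a pair to a stable subgroup. -/
def restrict : Pair A' where
  f := (P.f.comp A'.subtype).codRestrict A' (fun x => hf x x.2)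
  g := (P.g.comp A'.subtype).codRestrict A' (fun x => hg x x.2)
  fg := by
    ext x
    exact P.f_g x
  gf := by
    ext x
    exact P.g_f x

/-- The pair induced on the quotient by a stable subgroup. -/
def quot : Pair (A ⧸ A') where
  f := QuotientAddGroup.map A' A' P.f (fun x hx => hf x hx)
  g := QuotientAddGroup.map A' A' P.g (fun x hx => hg x hx)
  fg := by
    ext x
    change ((QuotientAddGroup.mk (P.f (P.g x)) : A ⧸ A')) = 0
    rw [P.f_g]
    rfl
  gf := by
    ext x
    change ((QuotientAddGroup.mk (P.g (P.f x)) : A ⧸ A')) = 0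
    rw [P.g_f]
    rfl

/-- The short exact sequence `0 → P|A' → P → P/A' → 0`. -/
def sesRestrict : SES (P.restrict A' hf hg) P (P.quot A' hf hg) where
  i := ⟨A'.subtype, fun _ => rfl, fun _ => rfl⟩
  p := ⟨QuotientAddGroup.mk' A', fun _ => rfl, fun _ => rfl⟩
  inj := A'.subtype_injective
  surj := QuotientAddGroup.mk'_surjective A'
  exact b := by
    change (QuotientAddGroup.mk b : A ⧸ A') = 0 ↔ _
    rw [QuotientAddGroup.eq_zero_iff]
    constructor
    · intro hb
      exact ⟨⟨b, hb⟩, rfl⟩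
    · rintro ⟨a, rfl⟩
      exact a.2

/-- Invariance of the Herbrand quotient under passage to a stable subgroup of finite index. -/
theorem isDefined_restrict_iff [A'.FiniteIndex] :
    (P.restrict A' hf hg).IsDefined ↔ P.IsDefined := by
  have : Finite (A ⧸ A') := AddSubgroup.finite_quotient_of_finiteIndex
  have hQ : (P.quot A' hf hg).IsDefined := isDefined_of_finite _
  exact ⟨fun h => (P.sesRestrict A' hf hg).isDefined_mid h hQ,
    fun h => (P.sesRestrict A' hf hg).isDefined_left h hQ⟩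

theorem q_restrict [A'.FiniteIndex] (h : P.IsDefined) : (P.restrict A' hf hg).q = P.q := by
  have : Finite (A ⧸ A') := AddSubgroup.finite_quotient_of_finiteIndex
  have hQ : (P.quot A' hf hg).IsDefined := isDefined_of_finite _
  have h' := (P.isDefined_restrict_iff A' hf hg).2 h
  rw [(P.sesRestrict A' hf hg).q_mul h' hQ, q_of_finite (P.quot A' hf hg), mul_one]

/-- If the stable subgroup `A'` is finite, `P` and `P/A'` have the same Herbrand quotient. -/
theorem isDefined_quot_iff [Finite A'] :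
    (P.quot A' hf hg).IsDefined ↔ P.IsDefined := by
  have hR : (P.restrict A' hf hg).IsDefined := isDefined_of_finite _
  exact ⟨fun h => (P.sesRestrict A' hf hg).isDefined_mid hR h,
    fun h => (P.sesRestrict A' hf hg).isDefined_right hR h⟩

theorem q_quot [Finite A'] (h : P.IsDefined) : (P.quot A' hf hg).q = P.q := by
  have hR : (P.restrict A' hf hg).IsDefined := isDefined_of_finite _
  have h' := (P.isDefined_quot_iff A' hf hg).2 h
  rw [(P.sesRestrict A' hf hg).q_mul hR h', q_of_finite (P.restrict A' hf hg), one_mul]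

end Restrict

/-! ### Products -/

section Prod

variable (P : Pair A) (Q : Pair B)

/-- The product of two pairs. -/
def prod : Pair (A × B) where
  f := P.f.prodMap Q.f
  g := P.g.prodMap Q.g
  fg := by
    refine AddMonoidHom.ext fun x => Prod.ext ?_ ?_
    · exact P.f_g x.1
    · exact Q.f_g x.2
  gf := by
    refine AddMonoidHom.ext fun x => Prod.ext ?_ ?_
    · exact P.g_f x.1
    · exact Q.g_f x.2

/-- The short exact sequence `0 → P → P × Q → Q → 0`. -/
def sesProd : SES P (P.prod Q) Q where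
  i := ⟨AddMonoidHom.inl A B, fun x => by
      change (P.f x, (0 : B)) = (P.f x, Q.f 0)
      rw [map_zero], fun x => by
      change (P.g x, (0 : B)) = (P.g x, Q.g 0)
      rw [map_zero]⟩
  p := ⟨AddMonoidHom.snd A B, fun _ => rfl, fun _ => rfl⟩
  inj := fun x y h => (Prod.ext_iff.1 h).1
  surj := fun b => ⟨(0, b), rfl⟩
  exact b := by
    constructor
    · intro hb
      refine ⟨b.1, ?_⟩
      change (b.1, (0 : B)) = b
      exact Prod.ext rfl hb.symm
    · rintro ⟨a, rfl⟩
      rfl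

theorem isDefined_prod (hP : P.IsDefined) (hQ : Q.IsDefined) : (P.prod Q).IsDefined :=
  (P.sesProd Q).isDefined_mid hP hQ

theorem q_prod (hP : P.IsDefined) (hQ : Q.IsDefined) : (P.prod Q).q = P.q * Q.q :=
  (P.sesProd Q).q_mul hP hQ

end Prod

/-! ### Arbitrary products -/

section Pi

variable {ι : Type*} {X : ι → Type*} [∀ i, AddCommGroup (X i)] (P : ∀ i, Pair (X i))

/-- The product of a family of pairs. -/
def pi : Pair (∀ i, X i) where
  f := AddMonoidHom.mk' (fun x i => (P i).f (x i)) (fun _ _ => funext fun _ => map_add _ _ _)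
  g := AddMonoidHom.mk' (fun x i => (P i).g (x i)) (fun _ _ => funext fun _ => map_add _ _ _)
  fg := AddMonoidHom.ext fun x => funext fun i => (P i).f_g (x i)
  gf := AddMonoidHom.ext fun x => funext fun i => (P i).g_f (x i)

/-- The projection morphisms. -/
def piProj (i : ι) : Hom (pi P) (P i) :=
  ⟨Pi.evalAddMonoidHom X i, fun _ => rfl, fun _ => rfl⟩

/-- The comparison map `H0 (∏ P i) → ∏ H0 (P i)`. -/
def piH0Hom : (pi P).H0 →+ ∀ i, (P i).H0 :=
  AddMonoidHom.mk' (fun z i => (piProj P i).mapH0 z) (fun _ _ => funext fun _ => map_add _ _ _)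

theorem piH0Hom_apply (z : (pi P).H0) (i : ι) : piH0Hom P z i = (piProj P i).mapH0 z := rfl

theorem pi_f_apply (x : ∀ i, X i) (i : ι) : (pi P).f x i = (P i).f (x i) := rfl

theorem pi_g_apply (x : ∀ i, X i) (i : ι) : (pi P).g x i = (P i).g (x i) := rfl

theorem piH0Hom_cls (x : ∀ i, X i) (hx : (pi P).f x = 0) (i : ι) :
    piH0Hom P ((pi P).cls x hx) i =
      (P i).cls (x i) (show (P i).f (x i) = 0 from congrFun hx i) := rfl

/-- `H0` of a product is the product of the `H0`'s. -/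
noncomputable def piH0Equiv : (pi P).H0 ≃+ ∀ i, (P i).H0 :=
  AddEquiv.ofBijective (piH0Hom P) (by
    constructor
    · rw [injective_iff_map_eq_zero]
      intro z hz
      obtain ⟨x, hx, rfl⟩ := (pi P).cls_surj z
      have h : ∀ i, ∃ y, (P i).g y = x i := fun i => by
        have := congrFun hz i
        rw [piH0Hom_cls, Pi.zero_apply, cls_eq_zero_iff] at this
        exact this
      choose y hy using h
      rw [cls_eq_zero_iff]
      exact ⟨y, funext hy⟩
    · intro w
      have h : ∀ i, ∃ x hx, (P i).cls x hx = w i := fun i => (P i).cls_surj (w i)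
      choose x hx hw using h
      refine ⟨(pi P).cls x (funext hx), funext fun i => ?_⟩
      rw [piH0Hom_cls]
      exact hw i)

/-- `H1` of a product is the product of the `H1`'s. -/
noncomputable def piH1Equiv : (pi P).H1 ≃+ ∀ i, (P i).H1 :=
  piH0Equiv (fun i => (P i).swap)

theorem isDefined_pi [Finite ι] (h : ∀ i, (P i).IsDefined) : (pi P).IsDefined := by
  have h0 : ∀ i, Finite (P i).H0 := fun i => (h i).1
  have h1 : ∀ i, Finite (P i).H1 := fun i => (h i).2
  exact ⟨(piH0Equiv P).toEquiv.finite_iff.2 inferInstance,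
    (piH1Equiv P).toEquiv.finite_iff.2 inferInstance⟩

theorem q_pi [Fintype ι] : (pi P).q = ∏ i, (P i).q := by
  unfold q
  rw [Nat.card_congr (piH0Equiv P).toEquiv, Nat.card_congr (piH1Equiv P).toEquiv,
    Nat.card_pi, Nat.card_pi, Nat.cast_prod, Nat.cast_prod, ← Finset.prod_div_distrib]

end Pi

end Pair

end Fermat.Agent.S55.Herbrand54
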