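/-
S55 package [HERBRAND] (helper54), part B: the Herbrand pair of a finite cyclic group.

For a finite group `G`, an element `g₀ : G` and an additive action `ρ : G →* AddMonoid.End A`,
`cyclicPair ρ g₀` is the pair `f = ρ g₀ - 1`, `g = N = ∑ τ, ρ τ`.  If `g₀` generates `G` then
`H0 = A^G / N A` and `H1 = ker N / (g₀ - 1) A = ker N / I_G A`.
We prove: description of `ker f` and `im f` for a generator, vanishing of `H0`, `H1` for modules with
a norm homotopy (in particular induced modules), the value `q = |G|` for `ℤ` with trivial action,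
and the comparison with Mathlib's `groupCohomology` of a finite cyclic group.
Mathlib only.
-/
import Mathlib
import Fermat.Agent.S55.Herbrand54

set_option autoImplicit false

namespace Fermat.Agent.S55.HerbrandCyclic54

open Fermat.Agent.S55.Herbrand54

variable {G : Type*} [Group G] [Fintype G] {A : Type*} [AddCommGroup A]

/-- The norm endomorphism `N = ∑ τ, ρ τ`. -/
def normHom (ρ : G →* AddMonoid.End A) : A →+ A := ∑ τ : G, (show A →+ A from ρ τ)

theorem normHom_apply (ρ : G →* AddMonoid.End A) (x : A) : normHom ρ x = ∑ τ : G, ρ τ x := by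
  unfold normHom
  rw [AddMonoidHom.finsetSum_apply]
  rfl

omit [Fintype G] in
theorem rho_mul_apply (ρ : G →* AddMonoid.End A) (σ τ : G) (x : A) :
    ρ (σ * τ) x = ρ σ (ρ τ x) := by
  rw [map_mul]
  rfl

omit [Fintype G] in
theorem rho_one_apply (ρ : G →* AddMonoid.End A) (x : A) : ρ 1 x = x := by
  rw [map_one]
  rfl

theorem rho_normHom (ρ : G →* AddMonoid.End A) (σ : G) (x : A) :
    ρ σ (normHom ρ x) = normHom ρ x := by
  rw [normHom_apply, map_sum]
  simp_rw [← rho_mul_apply]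
  exact Fintype.sum_equiv (Equiv.mulLeft σ) _ _ (fun τ => rfl)

theorem normHom_rho (ρ : G →* AddMonoid.End A) (σ : G) (x : A) :
    normHom ρ (ρ σ x) = normHom ρ x := by
  rw [normHom_apply, normHom_apply]
  simp_rw [← rho_mul_apply]
  exact Fintype.sum_equiv (Equiv.mulRight σ) _ _ (fun τ => rfl)

/-- The Herbrand pair `(ρ g₀ - 1, N)`. -/
def cyclicPair (ρ : G →* AddMonoid.End A) (g₀ : G) : Pair A where
  f := (show A →+ A from ρ g₀) - AddMonoidHom.id A
  g := normHom ρ
  fg := by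
    ext x
    change ρ g₀ (normHom ρ x) - normHom ρ x = 0
    rw [rho_normHom, sub_self]
  gf := by
    ext x
    change normHom ρ (ρ g₀ x - x) = 0
    rw [map_sub, normHom_rho, sub_self]

theorem cyclicPair_f_apply (ρ : G →* AddMonoid.End A) (g₀ : G) (x : A) :
    (cyclicPair ρ g₀).f x = ρ g₀ x - x := rfl

theorem cyclicPair_g_apply (ρ : G →* AddMonoid.End A) (g₀ : G) (x : A) :
    (cyclicPair ρ g₀).g x = normHom ρ x := rfl

section Generator

variable (ρ : G →* AddMonoid.End A) {g₀ : G} (hg : ∀ τ : G, τ ∈ Subgroup.zpowers g₀)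

include hg

/-- For a generator `g₀`, `ker (ρ g₀ - 1)` is the group of invariants. -/
theorem cyclicPair_f_eq_zero_iff (x : A) :
    (cyclicPair ρ g₀).f x = 0 ↔ ∀ τ : G, ρ τ x = x := by
  rw [cyclicPair_f_apply, sub_eq_zero]
  constructor
  · intro h τ
    have hmem : τ ∈ (Subgroup.zpowers g₀) := hg τ
    -- stabiliser of `x` is a subgroup containing `g₀`
    let S : Subgroup G :=
      { carrier := {σ | ρ σ x = x}
        one_mem' := rho_one_apply ρ x
        mul_mem' := fun {a b} ha hb => by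
          change ρ (a * b) x = x
          rw [rho_mul_apply, hb, ha]
        inv_mem' := fun {a} ha => by
          change ρ a⁻¹ x = x
          have : ρ a⁻¹ (ρ a x) = x := by rw [← rho_mul_apply, inv_mul_cancel, rho_one_apply]
          rwa [ha] at this }
    have hle : Subgroup.zpowers g₀ ≤ S := (Subgroup.zpowers_le).2 h
    exact hle hmem
  · intro h
    exact h g₀

/-- For a generator `g₀`, every `ρ τ x - x` lies in the image of `ρ g₀ - 1`. -/
theorem rho_sub_mem_range (τ : G) (x : A) :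
    ρ τ x - x ∈ (cyclicPair ρ g₀).f.range := by
  -- the set of such `τ` is a subgroup containing `g₀`
  let S : Subgroup G :=
    { carrier := {σ | ∀ y : A, ρ σ y - y ∈ (cyclicPair ρ g₀).f.range}
      one_mem' := fun y => by
        rw [rho_one_apply, sub_self]
        exact zero_mem _
      mul_mem' := fun {a b} ha hb y => by
        have : ρ (a * b) y - y = (ρ a (ρ b y) - ρ b y) + (ρ b y - y) := by
          rw [rho_mul_apply]; abel
        rw [this]
        exact add_mem (ha _) (hb _)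
      inv_mem' := fun {a} ha y => by
        have : ρ a⁻¹ y - y = -(ρ a (ρ a⁻¹ y) - ρ a⁻¹ y) := by
          rw [← rho_mul_apply, mul_inv_cancel, rho_one_apply]; abel
        rw [this]
        exact neg_mem (ha _) }
  have hg₀ : g₀ ∈ S := fun y => ⟨y, rfl⟩
  have hle : Subgroup.zpowers g₀ ≤ S := (Subgroup.zpowers_le).2 hg₀
  exact hle (hg τ) x

end Generator

/-! ### Norm homotopies: cohomologically trivial modules -/

section Homotopy

variable (ρ : G →* AddMonoid.End A) {g₀ : G} (hg : ∀ τ : G, τ ∈ Subgroup.zpowers g₀)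
  (s : A →+ A) (hs : ∀ x : A, ∑ τ : G, ρ τ (s (ρ τ⁻¹ x)) = x)

include hg hs

/-- With a norm homotopy, `H0` of the cyclic pair vanishes. -/
theorem subsingleton_H0_of_homotopy : Subsingleton (cyclicPair ρ g₀).H0 := by
  refine subsingleton_of_forall_eq 0 fun z => ?_
  obtain ⟨x, hx, rfl⟩ := (cyclicPair ρ g₀).cls_surj z
  rw [Pair.cls_eq_zero_iff]
  have hinv := (cyclicPair_f_eq_zero_iff ρ hg x).1 hx
  refine ⟨s x, ?_⟩
  rw [cyclicPair_g_apply, normHom_apply]
  conv_rhs => rw [← hs x]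
  refine Finset.sum_congr rfl fun τ _ => ?_
  rw [hinv τ⁻¹]

/-- With a norm homotopy, `H1` of the cyclic pair vanishes. -/
theorem subsingleton_H1_of_homotopy : Subsingleton (cyclicPair ρ g₀).H1 := by
  refine subsingleton_of_forall_eq 0 fun z => ?_
  obtain ⟨x, hx, rfl⟩ := (cyclicPair ρ g₀).swap.cls_surj z
  rw [Pair.cls_eq_zero_iff]
  change normHom ρ x = 0 at hx
  change ∃ y, (cyclicPair ρ g₀).f y = x
  -- x = ∑ τ (y_τ) with ∑ y_τ = 0, y_τ = s (τ⁻¹ x)
  have h0 : ∑ τ : G, s (ρ τ⁻¹ x) = 0 := by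
    rw [← map_sum]
    have : ∑ τ : G, ρ τ⁻¹ x = normHom ρ x := by
      rw [normHom_apply]
      exact Fintype.sum_equiv (Equiv.inv G) _ _ (fun τ => rfl)
    rw [this, hx, map_zero]
  have hx' : x = ∑ τ : G, (ρ τ (s (ρ τ⁻¹ x)) - s (ρ τ⁻¹ x)) := by
    rw [Finset.sum_sub_distrib, h0, sub_zero, hs x]
  have hmem : x ∈ (cyclicPair ρ g₀).f.range := by
    rw [hx']
    exact sum_mem fun τ _ => rho_sub_mem_range ρ hg τ _
  exact hmem

theorem isDefined_of_homotopy : (cyclicPair ρ g₀).IsDefined := by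
  have h0 := subsingleton_H0_of_homotopy ρ hg s hs
  have h1 := subsingleton_H1_of_homotopy ρ hg s hs
  exact ⟨inferInstance, inferInstance⟩

theorem q_of_homotopy : (cyclicPair ρ g₀).q = 1 := by
  have h0 := subsingleton_H0_of_homotopy ρ hg s hs
  have h1 := subsingleton_H1_of_homotopy ρ hg s hs
  unfold Pair.q
  rw [Nat.card_unique, Nat.card_unique]
  norm_num

end Homotopy

/-! ### Pairs on the same group with the same kernels and ranges -/

section Congr

variable {A' : Type*} [AddCommGroup A']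

/-- The map on `H0` induced by inclusions `ker f ≤ ker f'`, `im g ≤ im g'`. -/
def H0map (P Q : Pair A') (hk : P.f.ker ≤ Q.f.ker) (hr : P.g.range ≤ Q.g.range) :
    P.H0 →+ Q.H0 :=
  QuotientAddGroup.map _ _ (AddSubgroup.inclusion hk) (by
    intro x hx
    rw [AddSubgroup.mem_comap, Pair.mem_B0]
    obtain ⟨y, hy⟩ := (Pair.mem_B0 P x).1 hx
    obtain ⟨z, hz⟩ := hr ⟨y, hy⟩
    exact ⟨z, hz⟩)

theorem H0map_cls (P Q : Pair A') (hk : P.f.ker ≤ Q.f.ker) (hr : P.g.range ≤ Q.g.range)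
    (x : A') (hx : P.f x = 0) :
    H0map P Q hk hr (P.cls x hx) = Q.cls x (hk hx) := rfl

/-- Pairs with the same `ker f` and the same `im g` have the same `H0`. -/
def H0congr (P Q : Pair A') (hk : P.f.ker = Q.f.ker) (hr : P.g.range = Q.g.range) :
    P.H0 ≃+ Q.H0 :=
  { H0map P Q hk.le hr.le with
    invFun := H0map Q P hk.ge hr.ge
    left_inv := by
      intro z
      obtain ⟨x, hx, rfl⟩ := P.cls_surj z
      rfl
    right_inv := by
      intro z
      obtain ⟨x, hx, rfl⟩ := Q.cls_surj z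
      rfl }

theorem H0congr_cls (P Q : Pair A') (hk : P.f.ker = Q.f.ker) (hr : P.g.range = Q.g.range)
    (x : A') (hx : P.f x = 0) :
    H0congr P Q hk hr (P.cls x hx) = Q.cls x (hk.le hx) := rfl

/-- Pairs with the same `ker g` and the same `im f` have the same `H1`. -/
def H1congr (P Q : Pair A') (hk : P.g.ker = Q.g.ker) (hr : P.f.range = Q.f.range) :
    P.H1 ≃+ Q.H1 :=
  H0congr P.swap Q.swap hk hr

theorem isDefined_congr (P Q : Pair A') (hkf : P.f.ker = Q.f.ker) (hrg : P.g.range = Q.g.range)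
    (hkg : P.g.ker = Q.g.ker) (hrf : P.f.range = Q.f.range) : P.IsDefined ↔ Q.IsDefined := by
  unfold Pair.IsDefined
  rw [(H0congr P Q hkf hrg).toEquiv.finite_iff, (H1congr P Q hkg hrf).toEquiv.finite_iff]

theorem q_congr (P Q : Pair A') (hkf : P.f.ker = Q.f.ker) (hrg : P.g.range = Q.g.range)
    (hkg : P.g.ker = Q.g.ker) (hrf : P.f.range = Q.f.range) : P.q = Q.q := by
  unfold Pair.q
  rw [Nat.card_congr (H0congr P Q hkf hrg).toEquiv, Nat.card_congr (H1congr P Q hkg hrf).toEquiv]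

end Congr

/-! ### Generator-free description -/

/-- The subgroup of invariants `A^G`. -/
def invariants (ρ : G →* AddMonoid.End A) : AddSubgroup A where
  carrier := {x | ∀ τ : G, ρ τ x = x}
  zero_mem' := fun τ => map_zero _
  add_mem' := fun {a b} ha hb τ => by rw [map_add, ha τ, hb τ]
  neg_mem' := fun {a} ha τ => by rw [map_neg, ha τ]

omit [Fintype G] in
theorem mem_invariants (ρ : G →* AddMonoid.End A) (x : A) :
    x ∈ invariants ρ ↔ ∀ τ : G, ρ τ x = x := Iff.rfl

/-- The augmentation subgroup `I_G A`, generated by all `τ x - x`. -/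
def augmentation (ρ : G →* AddMonoid.End A) : AddSubgroup A :=
  AddSubgroup.closure {y | ∃ (τ : G) (x : A), y = ρ τ x - x}

omit [Fintype G] in
theorem sub_mem_augmentation (ρ : G →* AddMonoid.End A) (τ : G) (x : A) :
    ρ τ x - x ∈ augmentation ρ :=
  AddSubgroup.subset_closure ⟨τ, x, rfl⟩

theorem cyclicPair_ker_f (ρ : G →* AddMonoid.End A) {g₀ : G}
    (hg : ∀ τ : G, τ ∈ Subgroup.zpowers g₀) : (cyclicPair ρ g₀).f.ker = invariants ρ := by
  ext x
  rw [AddMonoidHom.mem_ker, cyclicPair_f_eq_zero_iff ρ hg, mem_invariants]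

theorem cyclicPair_range_f (ρ : G →* AddMonoid.End A) {g₀ : G}
    (hg : ∀ τ : G, τ ∈ Subgroup.zpowers g₀) : (cyclicPair ρ g₀).f.range = augmentation ρ := by
  apply le_antisymm
  · rintro _ ⟨x, rfl⟩
    rw [cyclicPair_f_apply]
    exact sub_mem_augmentation ρ g₀ x
  · unfold augmentation
    rw [AddSubgroup.closure_le]
    rintro _ ⟨τ, x, rfl⟩
    exact rho_sub_mem_range ρ hg τ x

/-- Independence of the generator: `H0`. -/
def H0congrGen (ρ : G →* AddMonoid.End A) {g₀ g₁ : G}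
    (hg₀ : ∀ τ : G, τ ∈ Subgroup.zpowers g₀) (hg₁ : ∀ τ : G, τ ∈ Subgroup.zpowers g₁) :
    (cyclicPair ρ g₀).H0 ≃+ (cyclicPair ρ g₁).H0 :=
  H0congr _ _ ((cyclicPair_ker_f ρ hg₀).trans (cyclicPair_ker_f ρ hg₁).symm) rfl

/-- Independence of the generator: `H1`. -/
def H1congrGen (ρ : G →* AddMonoid.End A) {g₀ g₁ : G}
    (hg₀ : ∀ τ : G, τ ∈ Subgroup.zpowers g₀) (hg₁ : ∀ τ : G, τ ∈ Subgroup.zpowers g₁) :
    (cyclicPair ρ g₀).H1 ≃+ (cyclicPair ρ g₁).H1 :=
  H1congr _ _ rfl ((cyclicPair_range_f ρ hg₀).trans (cyclicPair_range_f ρ hg₁).symm)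

theorem isDefined_gen_iff (ρ : G →* AddMonoid.End A) {g₀ g₁ : G}
    (hg₀ : ∀ τ : G, τ ∈ Subgroup.zpowers g₀) (hg₁ : ∀ τ : G, τ ∈ Subgroup.zpowers g₁) :
    (cyclicPair ρ g₀).IsDefined ↔ (cyclicPair ρ g₁).IsDefined := by
  unfold Pair.IsDefined
  rw [(H0congrGen ρ hg₀ hg₁).toEquiv.finite_iff, (H1congrGen ρ hg₀ hg₁).toEquiv.finite_iff]

theorem q_gen_eq (ρ : G →* AddMonoid.End A) {g₀ g₁ : G}
    (hg₀ : ∀ τ : G, τ ∈ Subgroup.zpowers g₀) (hg₁ : ∀ τ : G, τ ∈ Subgroup.zpowers g₁) :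
    (cyclicPair ρ g₀).q = (cyclicPair ρ g₁).q := by
  unfold Pair.q
  rw [Nat.card_congr (H0congrGen ρ hg₀ hg₁).toEquiv,
    Nat.card_congr (H1congrGen ρ hg₀ hg₁).toEquiv]

/-- `H0` of the cyclic pair, generator-free: `x ∈ A^G` is zero in `H0` iff it is a norm. -/
theorem cls_H0_eq_zero_iff (ρ : G →* AddMonoid.End A) (g₀ : G) (x : A)
    (hx : (cyclicPair ρ g₀).f x = 0) :
    (cyclicPair ρ g₀).cls x hx = 0 ↔ ∃ y, normHom ρ y = x :=
  (cyclicPair ρ g₀).cls_eq_zero_iff x hx

/-- `H1` of the cyclic pair, generator-free: `x ∈ ker N` is zero in `H1` iff `x ∈ I_G A`. -/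
theorem cls_H1_eq_zero_iff (ρ : G →* AddMonoid.End A) {g₀ : G}
    (hg : ∀ τ : G, τ ∈ Subgroup.zpowers g₀) (x : A) (hx : (cyclicPair ρ g₀).swap.f x = 0) :
    (cyclicPair ρ g₀).swap.cls x hx = 0 ↔ x ∈ augmentation ρ := by
  rw [Pair.cls_eq_zero_iff, ← cyclicPair_range_f ρ hg]
  rfl

/-! ### Computing `|H0|` through a map to `ℤ` -/

section IntCount

variable {A' : Type*} [AddCommGroup A']

/-- If `ε : A' →+ ℤ` takes the value `1` on `ker f` and an element `x ∈ ker f` lies in `im g`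
exactly when `d ∣ ε x`, then `H0 ≃ ℤ/d`. -/
noncomputable def H0equivZMod (P : Pair A') (ε : A' →+ ℤ) (d : ℕ)
    (hsurj : ∃ x, P.f x = 0 ∧ ε x = 1)
    (hrange : ∀ x, P.f x = 0 → ((∃ y, P.g y = x) ↔ (d : ℤ) ∣ ε x)) : P.H0 ≃+ ZMod d := by
  let ψ : P.f.ker →+ ZMod d := (Int.castAddHom (ZMod d)).comp (ε.comp P.f.ker.subtype)
  have hψ : P.B0 ≤ ψ.ker := by
    intro x hx
    obtain ⟨y, hy⟩ := (Pair.mem_B0 P x).1 hx
    rw [AddMonoidHom.mem_ker]
    change ((ε (x : A') : ℤ) : ZMod d) = 0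
    rw [ZMod.intCast_zmod_eq_zero_iff_dvd]
    exact (hrange x x.2).1 ⟨y, hy⟩
  let φ : P.H0 →+ ZMod d := QuotientAddGroup.lift P.B0 ψ hψ
  have hφ : ∀ (x : A') (hx : P.f x = 0), φ (P.cls x hx) = ((ε x : ℤ) : ZMod d) := fun x hx => rfl
  refine AddEquiv.ofBijective φ ⟨?_, ?_⟩
  · rw [injective_iff_map_eq_zero]
    intro z hz
    obtain ⟨x, hx, rfl⟩ := P.cls_surj z
    rw [hφ, ZMod.intCast_zmod_eq_zero_iff_dvd] at hz
    rw [Pair.cls_eq_zero_iff]
    exact (hrange x hx).2 hz
  · intro k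
    obtain ⟨n, rfl⟩ := ZMod.intCast_surjective k
    obtain ⟨x₁, hx₁, h1⟩ := hsurj
    refine ⟨P.cls (n • x₁) (by rw [map_zsmul, hx₁, smul_zero]), ?_⟩
    rw [hφ, map_zsmul, h1, smul_eq_mul, mul_one]

theorem card_H0_of_int (P : Pair A') (ε : A' →+ ℤ) (d : ℕ)
    (hsurj : ∃ x, P.f x = 0 ∧ ε x = 1)
    (hrange : ∀ x, P.f x = 0 → ((∃ y, P.g y = x) ↔ (d : ℤ) ∣ ε x)) : Nat.card P.H0 = d := by
  rw [Nat.card_congr (H0equivZMod P ε d hsurj hrange).toEquiv, Nat.card_zmod]

theorem finite_H0_of_int (P : Pair A') (ε : A' →+ ℤ) (d : ℕ) (hd : d ≠ 0)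
    (hsurj : ∃ x, P.f x = 0 ∧ ε x = 1)
    (hrange : ∀ x, P.f x = 0 → ((∃ y, P.g y = x) ↔ (d : ℤ) ∣ ε x)) : Finite P.H0 := by
  have : NeZero d := ⟨hd⟩
  exact Finite.of_equiv _ (H0equivZMod P ε d hsurj hrange).symm.toEquiv

end IntCount

/-! ### Trivial action -/

section Trivial

variable (ρ : G →* AddMonoid.End A) (g₀ : G) (htriv : ∀ (τ : G) (x : A), ρ τ x = x)

include htriv

theorem cyclicPair_f_of_trivial (x : A) : (cyclicPair ρ g₀).f x = 0 := by
  rw [cyclicPair_f_apply, htriv, sub_self]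

theorem cyclicPair_g_of_trivial (x : A) : (cyclicPair ρ g₀).g x = Fintype.card G • x := by
  rw [cyclicPair_g_apply, normHom_apply]
  simp_rw [htriv]
  rw [Finset.sum_const, Finset.card_univ]

/-- `H0(G, ℤ) = ℤ/|G|` for the trivial action. -/
theorem card_H0_of_trivial_int (e : A ≃+ ℤ) :
    Nat.card (cyclicPair ρ g₀).H0 = Fintype.card G := by
  refine card_H0_of_int _ e.toAddMonoidHom _ ⟨e.symm 1, cyclicPair_f_of_trivial ρ g₀ htriv _, ?_⟩ ?_
  · exact e.apply_symm_apply 1
  · intro x _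
    constructor
    · rintro ⟨y, rfl⟩
      rw [cyclicPair_g_of_trivial ρ g₀ htriv]
      refine ⟨e y, ?_⟩
      change e (Fintype.card G • y) = _
      rw [map_nsmul, nsmul_eq_mul]
    · rintro ⟨k, hk⟩
      refine ⟨e.symm k, ?_⟩
      rw [cyclicPair_g_of_trivial ρ g₀ htriv]
      apply e.injective
      rw [map_nsmul, e.apply_symm_apply, nsmul_eq_mul]
      exact hk.symm

/-- `H1(G, ℤ) = 0` for the trivial action. -/
theorem subsingleton_H1_of_trivial_int (e : A ≃+ ℤ) :
    Subsingleton (cyclicPair ρ g₀).H1 := by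
  refine subsingleton_of_forall_eq 0 fun z => ?_
  obtain ⟨x, hx, rfl⟩ := (cyclicPair ρ g₀).swap.cls_surj z
  have hx' : (cyclicPair ρ g₀).g x = 0 := hx
  rw [cyclicPair_g_of_trivial ρ g₀ htriv] at hx'
  have h0 : x = 0 := by
    apply e.injective
    have h1 : (Fintype.card G : ℤ) * e x = 0 := by
      rw [← nsmul_eq_mul, ← map_nsmul, hx', map_zero]
    rcases mul_eq_zero.1 h1 with h | h
    · exact absurd h (by exact_mod_cast Fintype.card_ne_zero)
    · rw [h, map_zero]
  rw [Pair.cls_eq_zero_iff]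
  exact ⟨0, by rw [map_zero, h0]⟩

theorem isDefined_of_trivial_int (e : A ≃+ ℤ) : (cyclicPair ρ g₀).IsDefined := by
  have h1 := subsingleton_H1_of_trivial_int ρ g₀ htriv e
  refine ⟨?_, inferInstance⟩
  apply Nat.finite_of_card_ne_zero
  rw [card_H0_of_trivial_int ρ g₀ htriv e]
  exact Fintype.card_ne_zero

/-- The Herbrand quotient of `ℤ` with trivial action is `|G|`. -/
theorem q_of_trivial_int (e : A ≃+ ℤ) : (cyclicPair ρ g₀).q = Nat.card G := by
  have h1 := subsingleton_H1_of_trivial_int ρ g₀ htriv e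
  unfold Pair.q
  rw [card_H0_of_trivial_int ρ g₀ htriv e, Nat.card_unique, Nat.card_eq_fintype_card]
  norm_num

end Trivial

/-! ### Permutation modules -/

section Perm

variable (G) (X : Type*) [MulAction G X] (M : Type*) [AddCommGroup M]

/-- The permutation representation on `X → M`: `(τ φ)(x) = φ(τ⁻¹ x)`. -/
def permRho : G →* AddMonoid.End (X → M) where
  toFun τ :=
    { toFun := fun φ x => φ (τ⁻¹ • x)
      map_zero' := rfl
      map_add' := fun _ _ => rfl }
  map_one' := by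
    apply AddMonoidHom.ext
    intro φ
    funext x
    change φ ((1 : G)⁻¹ • x) = φ x
    rw [inv_one, one_smul]
  map_mul' σ τ := by
    apply AddMonoidHom.ext
    intro φ
    funext x
    change φ ((σ * τ)⁻¹ • x) = φ (τ⁻¹ • σ⁻¹ • x)
    rw [mul_inv_rev, mul_smul]

variable {G X M}

omit [Fintype G] in
theorem permRho_apply (τ : G) (φ : X → M) (x : X) : permRho G X M τ φ x = φ (τ⁻¹ • x) := rfl

omit [Fintype G] in
theorem permRho_single [DecidableEq X] (τ : G) (y : X) (m : M) :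
    permRho G X M τ (Pi.single y m) = Pi.single (τ • y) m := by
  funext x
  rw [permRho_apply]
  by_cases h : x = τ • y
  · subst h
    rw [inv_smul_smul, Pi.single_eq_same, Pi.single_eq_same]
  · rw [Pi.single_eq_of_ne h, Pi.single_eq_of_ne]
    intro h'
    exact h (by rw [← h', smul_inv_smul])

theorem normHom_permRho_apply (φ : X → M) (x : X) :
    normHom (permRho G X M) φ x = ∑ τ : G, φ (τ⁻¹ • x) := by
  rw [normHom_apply, Finset.sum_apply]
  rfl

end Perm

/-! ### Transitive permutation modules -/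

section Transitive

variable {X : Type*} [MulAction G X] [Fintype X] [DecidableEq X] [MulAction.IsPretransitive G X]
  {M : Type*} [AddCommGroup M]

omit [Fintype X] [DecidableEq X] in
/-- Norms are constant functions. -/
theorem normHom_perm_const (φ : X → M) (x x₀ : X) :
    normHom (permRho G X M) φ x = normHom (permRho G X M) φ x₀ := by
  obtain ⟨τ, rfl⟩ := MulAction.exists_smul_eq G x₀ x
  have h := rho_normHom (permRho G X M) τ⁻¹ φ
  have h2 := congrFun h x₀
  rw [permRho_apply, inv_inv] at h2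
  exact h2

omit [Fintype X] [MulAction.IsPretransitive G X] in
theorem normHom_perm_single_self (x₀ : X) (m : M) :
    normHom (permRho G X M) (Pi.single x₀ m) x₀ = Nat.card (MulAction.stabilizer G x₀) • m := by
  classical
  rw [normHom_permRho_apply]
  simp_rw [Pi.single_apply]
  rw [Finset.sum_ite, Finset.sum_const_zero, add_zero, Finset.sum_const]
  congr 1
  rw [Nat.card_eq_fintype_card, Fintype.card_subtype]
  congr 1
  ext τ
  simp only [Finset.mem_filter, Finset.mem_univ, true_and, MulAction.mem_stabilizer_iff]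
  rw [inv_smul_eq_iff, eq_comm]

omit [Fintype X] in
theorem normHom_perm_single (x₀ y : X) (m : M) :
    normHom (permRho G X M) (Pi.single y m) x₀ = Nat.card (MulAction.stabilizer G x₀) • m := by
  obtain ⟨τ, rfl⟩ := MulAction.exists_smul_eq G x₀ y
  rw [← permRho_single, normHom_rho, normHom_perm_single_self]

/-- `N φ = |Stab| • ∑ φ`. -/
theorem normHom_perm_eq (φ : X → M) (x₀ : X) :
    normHom (permRho G X M) φ x₀ = Nat.card (MulAction.stabilizer G x₀) • ∑ y, φ y := by
  conv_lhs => rw [← Finset.univ_sum_single φ]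
  rw [map_sum, Finset.sum_apply]
  simp_rw [normHom_perm_single]
  rw [Finset.smul_sum]

omit [Fintype X] [DecidableEq X] [MulAction.IsPretransitive G X] in
theorem card_stabilizer_ne_zero (x₀ : X) : Nat.card (MulAction.stabilizer G x₀) ≠ 0 :=
  Nat.card_pos.ne'

variable {g₀ : G} (hg : ∀ τ : G, τ ∈ Subgroup.zpowers g₀)

include hg

omit [Fintype X] [DecidableEq X] in
/-- Invariant functions on a transitive `G`-set are constant. -/
theorem perm_const_of_f_eq_zero (φ : X → M) (hφ : (cyclicPair (permRho G X M) g₀).f φ = 0)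
    (x x₀ : X) : φ x = φ x₀ := by
  obtain ⟨τ, rfl⟩ := MulAction.exists_smul_eq G x₀ x
  have h := (cyclicPair_f_eq_zero_iff (permRho G X M) hg φ).1 hφ τ⁻¹
  have h2 := congrFun h x₀
  rw [permRho_apply, inv_inv] at h2
  exact h2

/-- `H0(G, ℤ[X]) = ℤ/|Stab|` for a transitive `G`-set `X`. -/
theorem card_H0_perm_transitive (x₀ : X) :
    Nat.card (cyclicPair (permRho G X ℤ) g₀).H0 = Nat.card (MulAction.stabilizer G x₀) := by
  refine card_H0_of_int _ (Pi.evalAddMonoidHom (fun _ : X => ℤ) x₀) _ ⟨fun _ => 1, ?_, rfl⟩ ?_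
  · rw [cyclicPair_f_apply]
    funext x
    change (1 : ℤ) - 1 = 0
    rw [sub_self]
  · intro φ hφ
    have hc := perm_const_of_f_eq_zero hg φ hφ
    change (∃ ψ, normHom (permRho G X ℤ) ψ = φ) ↔ _ ∣ φ x₀
    constructor
    · rintro ⟨ψ, rfl⟩
      rw [normHom_perm_eq ψ x₀, nsmul_eq_mul]
      exact dvd_mul_right _ _
    · rintro ⟨k, hk⟩
      refine ⟨Pi.single x₀ k, ?_⟩
      funext x
      rw [normHom_perm_const _ x x₀, normHom_perm_single_self, hc x x₀, hk, nsmul_eq_mul]

/-- `H1(G, ℤ[X]) = 0` for a transitive `G`-set `X`. -/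
theorem subsingleton_H1_perm_transitive (x₀ : X) :
    Subsingleton (cyclicPair (permRho G X ℤ) g₀).H1 := by
  refine subsingleton_of_forall_eq 0 fun z => ?_
  obtain ⟨φ, hφ, rfl⟩ := (cyclicPair (permRho G X ℤ) g₀).swap.cls_surj z
  rw [Pair.cls_eq_zero_iff]
  have hφ' : normHom (permRho G X ℤ) φ = 0 := hφ
  have hsum : ∑ y, φ y = 0 := by
    have h := congrFun hφ' x₀
    rw [normHom_perm_eq φ x₀, nsmul_eq_mul] at h
    rcases mul_eq_zero.1 h with h | h
    · exact absurd h (by exact_mod_cast card_stabilizer_ne_zero x₀)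
    · exact h
  have hdecomp : φ = ∑ y, (Pi.single y (φ y) - Pi.single x₀ (φ y)) := by
    rw [Finset.sum_sub_distrib, Finset.univ_sum_single φ]
    have : ∑ y, (Pi.single x₀ (φ y) : X → ℤ) = Pi.single x₀ (∑ y, φ y) :=
      (map_sum (AddMonoidHom.single (fun _ : X => ℤ) x₀) φ Finset.univ).symm
    rw [this, hsum, Pi.single_zero, sub_zero]
  change φ ∈ (cyclicPair (permRho G X ℤ) g₀).f.range
  rw [hdecomp]
  refine sum_mem fun y _ => ?_
  obtain ⟨τ, rfl⟩ := MulAction.exists_smul_eq G x₀ y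
  rw [← permRho_single]
  exact rho_sub_mem_range (permRho G X ℤ) hg τ _

theorem isDefined_perm_transitive (x₀ : X) : (cyclicPair (permRho G X ℤ) g₀).IsDefined := by
  have h1 := subsingleton_H1_perm_transitive hg x₀
  refine ⟨?_, inferInstance⟩
  apply Nat.finite_of_card_ne_zero
  rw [card_H0_perm_transitive hg x₀]
  exact card_stabilizer_ne_zero x₀

/-- `q(ℤ[X]) = |Stab(x₀)|` for a transitive `G`-set `X`. -/
theorem q_perm_transitive (x₀ : X) :
    (cyclicPair (permRho G X ℤ) g₀).q = Nat.card (MulAction.stabilizer G x₀) := by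
  have h1 := subsingleton_H1_perm_transitive hg x₀
  have h1' : Nat.card (cyclicPair (permRho G X ℤ) g₀).H1 = 1 := Nat.card_unique
  unfold Pair.q
  rw [card_H0_perm_transitive hg x₀, h1']
  norm_num

end Transitive

end Fermat.Agent.S55.HerbrandCyclic54
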