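/-
S55 / [UNR-KUMMER] (helper72): unramifiedness of cyclotomic and Kummer steps in the vocabulary of
the Prelude (`ValuationSubring.inertiaSubgroupIn`, `IntermediateField.IsUnramifiedOutside`).

* `mem_of_mem_inertia`, `sub_mem_nonunits` : inertia stabilises `A` and acts trivially modulo the
  maximal ideal;
* `rootOfUnity_eq_one` : a `p`-th root of unity congruent to `1` modulo the maximal ideal of a
  valuation ring over `q ≠ p` is `1`;
* `inertia_fixes_rootOfUnity` (U1), `inertia_fixes_root` (U2);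
* `isUnramifiedOutside_adjoin_root` (U3) : `F` unramified outside `S ∋ p`, `β ^ p = α ∈ F`, `α` a
  local unit up to `p`-th powers of `F` at every place outside `S`  ⟹  `F(β)` unramified outside `S`;
* corollaries: `isUnramifiedOutside_adjoin_rootOfUnity`, `isUnramifiedOutside_adjoin_root_of_unit`.
Mathlib + Prelude only.  Complete proofs.
-/
import Mathlib
import Fermat.Prelude.Def_GroupCohomology_ContinuousUnramified

set_option autoImplicit false
set_option linter.style.haveILetI false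

open IntermediateField
open scoped Pointwise

noncomputable section

namespace Fermat.Agent.S55.UnrKummer72

/-- `ℚ̄` -/
abbrev Qb : Type := AlgebraicClosure ℚ

/-- `G_ℚ` -/
abbrev GQ : Type := Qb ≃ₐ[ℚ] Qb

section Inertia

variable {A : ValuationSubring Qb} {σ : GQ}

/-- an element of the inertia group lies in the decomposition group -/
theorem mem_decomposition (hσ : σ ∈ A.inertiaSubgroupIn ℚ) : σ ∈ A.decompositionSubgroup ℚ := by
  obtain ⟨τ, _, rfl⟩ := hσ
  exact τ.2

/-- inertia stabilises `A` -/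
theorem mem_of_mem_inertia (hσ : σ ∈ A.inertiaSubgroupIn ℚ) {x : Qb} (hx : x ∈ A) : σ x ∈ A := by
  have h := mem_decomposition hσ
  have h2 : σ • A = A := h
  have h3 : σ • x ∈ σ • A := ValuationSubring.smul_mem_pointwise_smul _ _ _ hx
  rw [h2] at h3
  exact h3

/-- inertia acts trivially modulo the maximal ideal -/
theorem sub_mem_nonunits (hσ : σ ∈ A.inertiaSubgroupIn ℚ) {x : Qb} (hx : x ∈ A) :
    σ x - x ∈ A.nonunits := by
  obtain ⟨τ, hτ, rfl⟩ := hσ
  have hker : MulSemiringAction.toRingAut (A.decompositionSubgroup ℚ)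
      (IsLocalRing.ResidueField A) τ = 1 := hτ
  have h1 : τ • (IsLocalRing.residue A ⟨x, hx⟩) = IsLocalRing.residue A ⟨x, hx⟩ := by
    have := congrArg (fun f => f (IsLocalRing.residue A ⟨x, hx⟩)) hker
    simpa using this
  have h2 : IsLocalRing.residue A (τ • (⟨x, hx⟩ : A)) = IsLocalRing.residue A ⟨x, hx⟩ := by
    rw [← h1]; rfl
  have h3 : (τ • (⟨x, hx⟩ : A)) - ⟨x, hx⟩ ∈ IsLocalRing.maximalIdeal A := by
    rw [← Ideal.Quotient.eq]; exact h2
  rw [IsLocalRing.mem_maximalIdeal] at h3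
  have h4 : (((τ • (⟨x, hx⟩ : A)) - ⟨x, hx⟩ : A) : Qb) ∈ A.nonunits :=
    (ValuationSubring.coe_mem_nonunits_iff).2 h3
  exact h4

end Inertia

section Roots

variable {A : ValuationSubring Qb} {p q : ℕ}

/-- `η ^ k - 1` lies in the maximal ideal as soon as `η - 1` does (`η ∈ A`). -/
theorem pow_sub_one_lt {η : Qb} (hη : A.valuation η ≤ 1) (h1 : A.valuation (η - 1) < 1) (k : ℕ) :
    A.valuation (η ^ k - 1) < 1 := by
  induction k with
  | zero => simp
  | succ k ih =>
    have h : η ^ (k + 1) - 1 = η * (η ^ k - 1) + (η - 1) := by ring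
    rw [h]
    refine Valuation.map_add_lt _ ?_ h1
    rw [map_mul]
    calc A.valuation η * A.valuation (η ^ k - 1) ≤ 1 * A.valuation (η ^ k - 1) :=
          mul_le_mul_left hη _
      _ = A.valuation (η ^ k - 1) := one_mul _
      _ < 1 := ih

/-- A `p`-th root of unity which is congruent to `1` modulo the maximal ideal of a valuation ring
lying over a prime `q ≠ p` is equal to `1`. -/
theorem rootOfUnity_eq_one (hp : p.Prime) (hq : A.LiesOverPrime q) (hpq : Nat.Coprime p q)
    {η : Qb} (hη : η ^ p = 1) (h1 : η - 1 ∈ A.nonunits) : η = 1 := by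
  by_contra hne
  rw [ValuationSubring.mem_nonunits_iff] at h1
  have hq' : A.valuation (q : Qb) < 1 := (ValuationSubring.mem_nonunits_iff A).1 hq
  have hηA : A.valuation η ≤ 1 := by
    have h : A.valuation η ^ p = 1 := by rw [← map_pow, hη, map_one]
    rcases pow_eq_one_iff.1 h with h | h
    · exact le_of_eq h
    · exact absurd h hp.ne_zero
  -- the geometric sum vanishes
  have hsum : ∑ k ∈ Finset.range p, η ^ k = 0 := by
    have h := mul_neg_geom_sum η p
    rw [hη, sub_self] at h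
    rcases mul_eq_zero.1 h with h | h
    · exact absurd (sub_eq_zero.1 h).symm hne
    · exact h
  -- hence `p` lies in the maximal ideal
  have hpm : A.valuation (p : Qb) < 1 := by
    have h : (p : Qb) = ∑ k ∈ Finset.range p, (1 - η ^ k) := by
      rw [Finset.sum_sub_distrib, hsum, sub_zero]; simp
    rw [h]
    refine Valuation.map_sum_lt _ one_ne_zero (fun k _ => ?_)
    rw [← neg_sub, Valuation.map_neg]
    exact pow_sub_one_lt hηA h1 k
  -- but `p` and `q` are coprime
  obtain ⟨a, b, hab⟩ : ∃ a b : ℤ, a * p + b * q = 1 := by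
    have := Nat.Coprime.isCoprime hpq
    obtain ⟨a, b, h⟩ := this
    exact ⟨a, b, by exact_mod_cast h⟩
  have hint : ∀ n : ℤ, A.valuation (n : Qb) ≤ 1 := fun n =>
    (ValuationSubring.valuation_le_one_iff A _).2 (intCast_mem A n)
  have h1' : A.valuation (1 : Qb) < 1 := by
    have h : (1 : Qb) = (a : Qb) * p + (b : Qb) * q := by exact_mod_cast hab.symm
    rw [h]
    refine Valuation.map_add_lt _ ?_ ?_
    · rw [map_mul]
      calc A.valuation (a : Qb) * A.valuation (p : Qb) ≤ 1 * A.valuation (p : Qb) :=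
            mul_le_mul_left (hint a) _
        _ = A.valuation (p : Qb) := one_mul _
        _ < 1 := hpm
    · rw [map_mul]
      calc A.valuation (b : Qb) * A.valuation (q : Qb) ≤ 1 * A.valuation (q : Qb) :=
            mul_le_mul_left (hint b) _
        _ = A.valuation (q : Qb) := one_mul _
        _ < 1 := hq'
  rw [map_one] at h1'
  exact lt_irrefl _ h1'

end Roots

section Kummer

variable {A : ValuationSubring Qb} {σ : GQ} {p q : ℕ}

/-- **(U2)** If `β ^ p` is fixed by the inertia element `σ` and is, up to the `p`-th power of a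
`σ`-fixed element `γ`, a unit of `A` (`A` over `q ≠ p`), then `σ` fixes `β`. -/
theorem inertia_fixes_root (hp : p.Prime) (hq : A.LiesOverPrime q) (hpq : Nat.Coprime p q)
    (hσ : σ ∈ A.inertiaSubgroupIn ℚ) {β γ : Qb} (hγ : γ ≠ 0) (hσγ : σ γ = γ)
    (hu : A.valuation (β ^ p / γ ^ p) = 1) (hσα : σ (β ^ p) = β ^ p) : σ β = β := by
  have hβ'v : A.valuation (β / γ) = 1 := by
    have h : A.valuation (β / γ) ^ p = 1 := by rw [← map_pow, div_pow, hu]
    rcases pow_eq_one_iff.1 h with h | h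
    · exact h
    · exact absurd h hp.ne_zero
  have hβ'A : β / γ ∈ A := (ValuationSubring.valuation_le_one_iff A _).1 (le_of_eq hβ'v)
  have hβ'ne : β / γ ≠ 0 := by
    intro h
    rw [h, map_zero] at hβ'v
    exact zero_ne_one hβ'v
  have hηp : (σ (β / γ) / (β / γ)) ^ p = 1 := by
    rw [div_pow, ← map_pow, div_pow, map_div₀, hσα, map_pow, hσγ]
    exact div_self (by rw [← div_pow]; exact pow_ne_zero _ hβ'ne)
  have hη1 : σ (β / γ) / (β / γ) - 1 ∈ A.nonunits := by
    rw [ValuationSubring.mem_nonunits_iff]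
    have h : σ (β / γ) / (β / γ) - 1 = (σ (β / γ) - β / γ) / (β / γ) := by
      rw [sub_div, div_self hβ'ne]
    rw [h, map_div₀, hβ'v, div_one]
    exact (ValuationSubring.mem_nonunits_iff A).1 (sub_mem_nonunits hσ hβ'A)
  have h1 := rootOfUnity_eq_one hp hq hpq hηp hη1
  have h2 : σ (β / γ) = β / γ := by
    have := (div_eq_one_iff_eq hβ'ne).1 h1
    exact this
  rw [map_div₀, hσγ] at h2
  have h3 := congrArg (fun x => x * γ) h2
  simpa [div_mul_cancel₀ _ hγ] using h3

/-- **(U1)** inertia at `q ≠ p` fixes the `p`-th roots of unity. -/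
theorem inertia_fixes_rootOfUnity (hp : p.Prime) (hq : A.LiesOverPrime q) (hpq : Nat.Coprime p q)
    (hσ : σ ∈ A.inertiaSubgroupIn ℚ) {ζ : Qb} (hζ : ζ ^ p = 1) : σ ζ = ζ := by
  refine inertia_fixes_root hp hq hpq hσ (γ := 1) one_ne_zero (map_one σ) ?_ ?_
  · rw [hζ, one_pow, div_one, map_one]
  · rw [hζ, map_one]

end Kummer

section Fields

variable {S : Finset Nat.Primes} {p : ℕ} [Fact p.Prime]

/-- primes outside `S ∋ p` are prime to `p` -/
theorem coprime_of_not_mem (hpS : ExtCitation.pPrime p ∈ S) {q : Nat.Primes} (hq : q ∉ S) :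
    Nat.Coprime p (q : ℕ) := by
  have hp : p.Prime := Fact.out
  rw [Nat.coprime_primes hp q.2]
  intro h
  apply hq
  have : q = ExtCitation.pPrime p := Subtype.ext h.symm
  rw [this]; exact hpS

/-- `σ β = β` implies `σ ∈ ℚ⟮β⟯.fixingSubgroup` -/
theorem mem_fixingSubgroup_adjoin_simple {σ : GQ} {β : Qb} (h : σ β = β) :
    σ ∈ (ℚ⟮β⟯ : IntermediateField ℚ Qb).fixingSubgroup := by
  rw [IntermediateField.mem_fixingSubgroup_iff]
  have hle : (ℚ⟮β⟯ : IntermediateField ℚ Qb) ≤ IntermediateField.fixedField (Subgroup.zpowers σ) := by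
    rw [IntermediateField.adjoin_simple_le_iff, IntermediateField.mem_fixedField_iff]
    rintro τ hτ
    obtain ⟨n, rfl⟩ := Subgroup.mem_zpowers_iff.1 hτ
    have hfix : σ ∈ MulAction.stabilizer GQ β := h
    have : σ ^ n ∈ MulAction.stabilizer GQ β := Subgroup.zpow_mem _ hfix n
    exact this
  intro x hx
  have := (IntermediateField.mem_fixedField_iff _ x).1 (hle hx) σ (Subgroup.mem_zpowers σ)
  exact this

/-- **(U3)** `F` unramified outside `S ∋ p`; `β ^ p ∈ F` is, at every place outside `S`, a unit up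
to the `p`-th power of an element of `F`.  Then `F(β)` is unramified outside `S`. -/
theorem isUnramifiedOutside_adjoin_root (hpS : ExtCitation.pPrime p ∈ S)
    {F : IntermediateField ℚ Qb} (hF : F.IsUnramifiedOutside S) {β : Qb} (hβF : β ^ p ∈ F)
    (hloc : ∀ q : Nat.Primes, q ∉ S → ∀ A : ValuationSubring Qb, A.LiesOverPrime (q : ℕ) →
      ∃ γ : Qb, γ ∈ F ∧ γ ≠ 0 ∧ A.valuation (β ^ p / γ ^ p) = 1) :
    (F ⊔ ℚ⟮β⟯).IsUnramifiedOutside S := by
  have hp : p.Prime := Fact.out
  haveI := hF.1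
  haveI : FiniteDimensional ℚ (ℚ⟮β⟯ : IntermediateField ℚ Qb) :=
    IntermediateField.adjoin.finiteDimensional
      ((AlgebraicClosure.isAlgebraic ℚ).isIntegral.isIntegral β)
  refine ⟨IntermediateField.finiteDimensional_sup F ℚ⟮β⟯, fun q hq A hA σ hσ => ?_⟩
  rw [IntermediateField.fixingSubgroup_sup]
  have hσF : σ ∈ F.fixingSubgroup := hF.2 q hq A hA hσ
  refine ⟨hσF, mem_fixingSubgroup_adjoin_simple ?_⟩
  obtain ⟨γ, hγF, hγ0, hu⟩ := hloc q hq A hA
  rw [IntermediateField.mem_fixingSubgroup_iff] at hσF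
  exact inertia_fixes_root hp hA (coprime_of_not_mem hpS hq) hσ hγ0 (hσF γ hγF) hu
    (hσF _ hβF)

/-- adjoining a `p`-th root of unity keeps a field unramified outside `S ∋ p`. -/
theorem isUnramifiedOutside_adjoin_rootOfUnity (hpS : ExtCitation.pPrime p ∈ S)
    {F : IntermediateField ℚ Qb} (hF : F.IsUnramifiedOutside S) {ζ : Qb} (hζ : ζ ^ p = 1) :
    (F ⊔ ℚ⟮ζ⟯).IsUnramifiedOutside S := by
  refine isUnramifiedOutside_adjoin_root hpS hF (by rw [hζ]; exact F.one_mem) ?_
  intro q _ A _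
  exact ⟨1, F.one_mem, one_ne_zero, by rw [hζ, one_pow, div_one, map_one]⟩

/-- `ℚ(ζ_p)` is unramified outside `S ∋ p`. -/
theorem isUnramifiedOutside_rootOfUnity (hpS : ExtCitation.pPrime p ∈ S) {ζ : Qb}
    (hζ : ζ ^ p = 1) : (ℚ⟮ζ⟯ : IntermediateField ℚ Qb).IsUnramifiedOutside S := by
  have h := isUnramifiedOutside_adjoin_rootOfUnity hpS
    (IntermediateField.isUnramifiedOutside_bot S) hζ
  rwa [bot_sup_eq] at h

/-- adjoining a `p`-th root of an element of `F` which is a unit at all places outside `S`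
(an `S`-unit of `F`) keeps `F` unramified outside `S ∋ p`. -/
theorem isUnramifiedOutside_adjoin_root_of_unit (hpS : ExtCitation.pPrime p ∈ S)
    {F : IntermediateField ℚ Qb} (hF : F.IsUnramifiedOutside S) {β : Qb} (hβF : β ^ p ∈ F)
    (hunit : ∀ q : Nat.Primes, q ∉ S → ∀ A : ValuationSubring Qb, A.LiesOverPrime (q : ℕ) →
      A.valuation (β ^ p) = 1) :
    (F ⊔ ℚ⟮β⟯).IsUnramifiedOutside S := by
  refine isUnramifiedOutside_adjoin_root hpS hF hβF ?_
  intro q hq A hA
  exact ⟨1, F.one_mem, one_ne_zero, by rw [one_pow, div_one]; exact hunit q hq A hA⟩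

/-- **(U3) for `p ^ k`-th roots** (the capitulation step): `β ^ (p ^ k) ∈ F` is, at every place
outside `S`, a unit up to the `p ^ k`-th power of an element of `F`.  Then `F(β)` is unramified
outside `S`. -/
theorem isUnramifiedOutside_adjoin_root_pow (hpS : ExtCitation.pPrime p ∈ S) (k : ℕ) :
    ∀ {F : IntermediateField ℚ Qb}, F.IsUnramifiedOutside S → ∀ {β : Qb}, β ^ (p ^ k) ∈ F →
    (∀ q : Nat.Primes, q ∉ S → ∀ A : ValuationSubring Qb, A.LiesOverPrime (q : ℕ) →
      ∃ γ : Qb, γ ∈ F ∧ γ ≠ 0 ∧ A.valuation (β ^ (p ^ k) / γ ^ (p ^ k)) = 1) →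
    (F ⊔ ℚ⟮β⟯).IsUnramifiedOutside S := by
  have hp : p.Prime := Fact.out
  induction k with
  | zero =>
    intro F hF β hβF _
    rw [pow_zero, pow_one] at hβF
    have : F ⊔ ℚ⟮β⟯ = F := by
      rw [sup_eq_left, IntermediateField.adjoin_simple_le_iff]; exact hβF
    rw [this]; exact hF
  | succ k ih =>
    intro F hF β hβF hloc
    -- first adjoin `β₁ = β ^ p`
    have e : ∀ x : Qb, x ^ (p ^ (k + 1)) = (x ^ p) ^ (p ^ k) := fun x => by
      rw [← pow_mul, pow_succ, mul_comm]
    have h1 : (F ⊔ ℚ⟮β ^ p⟯).IsUnramifiedOutside S := by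
      refine ih hF (by rw [← e]; exact hβF) ?_
      intro q hq A hA
      obtain ⟨γ, hγF, hγ0, hu⟩ := hloc q hq A hA
      exact ⟨γ ^ p, pow_mem hγF p, pow_ne_zero _ hγ0, by rw [← e, ← e]; exact hu⟩
    -- then `β`
    have h2 : ((F ⊔ ℚ⟮β ^ p⟯) ⊔ ℚ⟮β⟯).IsUnramifiedOutside S := by
      refine isUnramifiedOutside_adjoin_root hpS h1 ?_ ?_
      · exact (le_sup_right : ℚ⟮β ^ p⟯ ≤ F ⊔ ℚ⟮β ^ p⟯) (IntermediateField.mem_adjoin_simple_self ℚ _)
      · intro q hq A hA
        obtain ⟨γ, hγF, hγ0, hu⟩ := hloc q hq A hA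
        refine ⟨γ, (le_sup_left : F ≤ F ⊔ ℚ⟮β ^ p⟯) hγF, hγ0, ?_⟩
        have h : A.valuation (β ^ p / γ ^ p) ^ (p ^ k) = 1 := by
          rw [← map_pow, div_pow, ← e, ← e]; exact hu
        rcases pow_eq_one_iff.1 h with h | h
        · exact h
        · exact absurd h (pow_ne_zero _ hp.ne_zero)
    exact h2.of_le (sup_le (le_sup_left.trans le_sup_left) le_sup_right)

end Fields

end Fermat.Agent.S55.UnrKummer72
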