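/-
S55 / 33c-SUBQUOT-CLASS (helper99).  Mathlib only.

The class of all subquotients `(H ⧸ N, A^N)` of one fixed pair `(G, A)` (`A : Rep k G`) is closed
under the two formation operations used by the abstract devissage (restriction to a subgroup,
passage to the invariants of a normal subgroup with the action of the quotient).  Hence the
devissage theorems of leaf 33 (cyclic layers of prime order ⇒ all `p`-group layers ⇒ `p`-parts)
can be applied with `P := IsSubQuot A`, and the consumer only has to treat the prime layers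
`(res H A)^N`, `|H ⧸ N| = p`.
-/
import Mathlib

set_option autoImplicit false

open CategoryTheory Rep groupCohomology

universe u

namespace Fermat.Agent.S55.SubQuot99

variable {k G : Type u} [CommRing k] [Group G]

/-- `(Q, B)` is the subquotient of `(G, A)` cut out by a subgroup `H ≤ G` and a surjection
`π : H →* Q`: `B` is (via `j`) the module of `ker π`-invariants of `A`, with `Q = H / ker π`
acting through `H`. -/
structure SubQuotData (A : Rep.{u, u, u} k G) (Q : Type u) [Group Q] (B : Rep.{u, u, u} k Q) where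
  /-- the subgroup -/
  H : Subgroup G
  /-- the quotient map -/
  π : H →* Q
  π_surj : Function.Surjective π
  /-- the inclusion of `B = A^{ker π}` into `A` -/
  j : B.V →ₗ[k] A.V
  j_inj : Function.Injective j
  j_range : ∀ a : A.V, a ∈ LinearMap.range j ↔ ∀ h : H, π h = 1 → A.ρ (h : G) a = a
  j_equiv : ∀ (h : H) (b : B.V), j (B.ρ (π h) b) = A.ρ (h : G) (j b)

/-- `(Q, B)` is a subquotient of `(G, A)`. -/
def IsSubQuot (A : Rep.{u, u, u} k G) (Q : Type u) [Group Q] (B : Rep.{u, u, u} k Q) : Prop :=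
  Nonempty (SubQuotData A Q B)

variable (A : Rep.{u, u, u} k G)

/-- the canonical subquotients -/
noncomputable def SubQuotData.canonical (H : Subgroup G) (N : Subgroup H) [N.Normal] :
    SubQuotData A (H ⧸ N) ((res H.subtype A).quotientToInvariants N) where
  H := H
  π := QuotientGroup.mk' N
  π_surj := QuotientGroup.mk'_surjective N
  j := Submodule.subtype _
  j_inj := Subtype.val_injective
  j_range a := by
    rw [Submodule.range_subtype]
    constructor
    · intro ha h hh
      have hN : h ∈ N := (QuotientGroup.eq_one_iff h).mp hh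
      exact ha ⟨h, hN⟩
    · intro ha n
      exact ha n.1 ((QuotientGroup.eq_one_iff _).mpr n.2)
  j_equiv h b := rfl

theorem isSubQuot_canonical (H : Subgroup G) (N : Subgroup H) [N.Normal] :
    IsSubQuot A (H ⧸ N) ((res H.subtype A).quotientToInvariants N) :=
  ⟨SubQuotData.canonical A H N⟩

/-- `(G, A)` itself -/
def SubQuotData.self : SubQuotData A G A where
  H := ⊤
  π := (Subgroup.topEquiv : (⊤ : Subgroup G) ≃* G).toMonoidHom
  π_surj := (Subgroup.topEquiv : (⊤ : Subgroup G) ≃* G).surjective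
  j := LinearMap.id
  j_inj := Function.injective_id
  j_range a := by
    constructor
    · intro _ h hh
      have : (h : G) = 1 := hh
      rw [this, map_one]
      rfl
    · intro _
      exact ⟨a, rfl⟩
  j_equiv h b := rfl

theorem isSubQuot_self : IsSubQuot A G A := ⟨SubQuotData.self A⟩

variable {A}
variable {Q : Type u} [Group Q] {B : Rep.{u, u, u} k Q}

/-- restriction to a subgroup of the quotient -/
def SubQuotData.res (D : SubQuotData A Q B) (Q' : Subgroup Q) :
    SubQuotData A Q' (Rep.res Q'.subtype B) where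
  H := (Q'.comap D.π).map D.H.subtype
  π := (D.π.comp (Subgroup.inclusion (Subgroup.map_subtype_le _))).codRestrict Q' (by
    rintro ⟨g, h, hh, rfl⟩
    exact hh)
  π_surj := by
    rintro ⟨q, hq⟩
    obtain ⟨h, rfl⟩ := D.π_surj q
    exact ⟨⟨(h : G), h, hq, rfl⟩, rfl⟩
  j := D.j
  j_inj := D.j_inj
  j_range a := by
    rw [D.j_range a]
    constructor
    · rintro ha ⟨g, h, hh, rfl⟩ h1
      exact ha h (congrArg Subtype.val h1)
    · intro ha h h1
      have hmem : D.π h ∈ Q' := by rw [h1]; exact Q'.one_mem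
      exact ha ⟨(h : G), h, hmem, rfl⟩ (Subtype.ext h1)
  j_equiv := by
    rintro ⟨g, h, hh, rfl⟩ b
    exact D.j_equiv h b

theorem IsSubQuot.res (h : IsSubQuot A Q B) (Q' : Subgroup Q) :
    IsSubQuot A Q' (Rep.res Q'.subtype B) :=
  h.elim fun D => ⟨D.res Q'⟩

/-- invariants of a normal subgroup of the quotient -/
noncomputable def SubQuotData.quot (D : SubQuotData A Q B) (Q' : Subgroup Q) [Q'.Normal] :
    SubQuotData A (Q ⧸ Q') (B.quotientToInvariants Q') where
  H := D.H
  π := (QuotientGroup.mk' Q').comp D.π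
  π_surj := (QuotientGroup.mk'_surjective Q').comp D.π_surj
  j := D.j ∘ₗ Submodule.subtype _
  j_inj := D.j_inj.comp Subtype.val_injective
  j_range a := by
    constructor
    · rintro ⟨b, rfl⟩ h hh
      have hmem : D.π h ∈ Q' := (QuotientGroup.eq_one_iff _).mp hh
      have hb : B.ρ (D.π h) (b : B.V) = (b : B.V) := b.2 ⟨D.π h, hmem⟩
      show A.ρ (h : G) (D.j (b : B.V)) = D.j (b : B.V)
      rw [← D.j_equiv h, hb]
    · intro ha
      have h1 : a ∈ LinearMap.range D.j := by
        rw [D.j_range a]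
        intro h hh
        exact ha h (by
          show (QuotientGroup.mk' Q') (D.π h) = 1
          rw [hh, map_one])
      obtain ⟨b, rfl⟩ := h1
      refine ⟨⟨b, ?_⟩, rfl⟩
      rintro ⟨q, hq⟩
      obtain ⟨h, rfl⟩ := D.π_surj q
      apply D.j_inj
      show D.j (B.ρ (D.π h) b) = D.j b
      rw [D.j_equiv h]
      exact ha h ((QuotientGroup.eq_one_iff _).mpr hq)
  j_equiv h b := by
    show D.j (B.ρ (D.π h) (b : B.V)) = A.ρ (h : G) (D.j (b : B.V))
    exact D.j_equiv h b

theorem IsSubQuot.quot (h : IsSubQuot A Q B) (Q' : Subgroup Q) [Q'.Normal] :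
    IsSubQuot A (Q ⧸ Q') (B.quotientToInvariants Q') :=
  h.elim fun D => ⟨D.quot Q'⟩

/-! ### canonical form and transport of cohomology -/

/-- the normal subgroup `ker π` of `H` -/
abbrev SubQuotData.N (D : SubQuotData A Q B) : Subgroup D.H := D.π.ker

/-- `Q ≃* H ⧸ ker π` -/
noncomputable def SubQuotData.e (D : SubQuotData A Q B) : Q ≃* D.H ⧸ D.N :=
  (QuotientGroup.quotientKerEquivOfSurjective D.π D.π_surj).symm

theorem SubQuotData.e_π (D : SubQuotData A Q B) (h : D.H) :
    D.e (D.π h) = (QuotientGroup.mk h : D.H ⧸ D.N) := by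
  rw [SubQuotData.e, MulEquiv.symm_apply_eq]
  rfl

theorem SubQuotData.j_mem (D : SubQuotData A Q B) (b : B.V) :
    D.j b ∈ Representation.invariants ((Rep.res D.H.subtype A).ρ.comp D.N.subtype) := by
  rintro ⟨h, hh⟩
  exact (D.j_range (D.j b)).mp ⟨b, rfl⟩ h hh

/-- `B ≃ (res H A)^{ker π}` as `k`-modules -/
noncomputable def SubQuotData.e' (D : SubQuotData A Q B) :
    B.V ≃ₗ[k] ((Rep.res D.H.subtype A).quotientToInvariants D.N).V :=
  LinearEquiv.ofBijective (D.j.codRestrict _ D.j_mem) (by
    constructor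
    · intro x y hxy
      exact D.j_inj (congrArg Subtype.val hxy)
    · rintro ⟨a, ha⟩
      have : a ∈ LinearMap.range D.j := by
        rw [D.j_range a]
        intro h hh
        exact ha ⟨h, hh⟩
      obtain ⟨b, rfl⟩ := this
      exact ⟨b, rfl⟩)

theorem SubQuotData.e'_apply (D : SubQuotData A Q B) (b : B.V) :
    ((D.e' b : ((Rep.res D.H.subtype A).quotientToInvariants D.N).V) : A.V) = D.j b := rfl

theorem SubQuotData.e'_comp (D : SubQuotData A Q B) (g : Q) :
    D.e'.toLinearMap ∘ₗ B.ρ g =
      ((Rep.res D.H.subtype A).quotientToInvariants D.N).ρ (D.e g) ∘ₗ D.e'.toLinearMap := by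
  obtain ⟨h, rfl⟩ := D.π_surj g
  rw [D.e_π]
  ext b
  show D.j (B.ρ (D.π h) b) = A.ρ (h : G) (D.j b)
  exact D.j_equiv h b

/-- every subquotient is isomorphic (as a pair) to a canonical one, in the form consumed by
Mathlib's `groupCohomology.mapIso`. -/
theorem IsSubQuot.exists_canonical (h : IsSubQuot A Q B) :
    ∃ (H : Subgroup G) (N : Subgroup H) (_ : N.Normal) (e : Q ≃* H ⧸ N)
      (e' : B.V ≃ₗ[k] ((Rep.res H.subtype A).quotientToInvariants N).V),
      ∀ g, e'.toLinearMap ∘ₗ B.ρ g =
        ((Rep.res H.subtype A).quotientToInvariants N).ρ (e g) ∘ₗ e'.toLinearMap :=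
  h.elim fun D => ⟨D.H, D.N, inferInstance, D.e, D.e', D.e'_comp⟩

/-- the cohomology of a subquotient is that of a canonical one. -/
theorem IsSubQuot.exists_cohomology_iso (h : IsSubQuot A Q B) :
    ∃ (H : Subgroup G) (N : Subgroup H) (_ : N.Normal),
      Nat.card Q = Nat.card (H ⧸ N) ∧
      ∀ n : ℕ, Nonempty (groupCohomology B n ≅
        groupCohomology ((Rep.res H.subtype A).quotientToInvariants N) n) := by
  obtain ⟨H, N, hN, e, e', he⟩ := h.exists_canonical
  exact ⟨H, N, hN, Nat.card_congr e.toEquiv, fun n => ⟨mapIso e e' he n⟩⟩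

/-! ### the prime layer: it suffices to treat the canonical subquotients -/

/-- the conclusion of the devissage for one pair (shape of `InfRes9.devissage_pGroup`) -/
def Good (n : ℕ) (Q : Type u) [Group Q] (B : Rep.{u, u, u} k Q) : Prop :=
  Limits.IsZero (groupCohomology B 1) ∧ Nat.card (groupCohomology B 2) ∣ n

theorem Good.finite {n : ℕ} (hn : n ≠ 0) {Q : Type u} [Group Q] {B : Rep.{u, u, u} k Q}
    (h : Good n Q B) : Finite (groupCohomology B 2) :=
  Nat.finite_of_card_ne_zero fun h0 => hn (Nat.eq_zero_of_zero_dvd (h0 ▸ h.2))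

theorem good_of_iso {n : ℕ} {Q₁ Q₂ : Type u} [Group Q₁] [Group Q₂] {B₁ : Rep.{u, u, u} k Q₁}
    {B₂ : Rep.{u, u, u} k Q₂} (i : ∀ m : ℕ, Nonempty (groupCohomology B₁ m ≅ groupCohomology B₂ m))
    (h : Good n Q₂ B₂) : Good n Q₁ B₁ := by
  obtain ⟨i1⟩ := i 1
  obtain ⟨i2⟩ := i 2
  obtain ⟨h1, h3⟩ := h
  have e2 : groupCohomology B₁ 2 ≃ₗ[k] groupCohomology B₂ 2 := i2.toLinearEquiv
  refine ⟨h1.of_iso i1, ?_⟩
  rw [Nat.card_congr e2.toEquiv]
  exact h3

/-- If the prime layers `(res H A)^N`, `|H ⧸ N| = p`, of `(G, A)` are good, then so is every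
subquotient `(Q, B)` of `(G, A)` with `|Q| = p`: this is the hypothesis `hcyc` of the abstract
devissage for the class `P := IsSubQuot A`. -/
theorem IsSubQuot.good_of_card_eq {p : ℕ}
    (hcyc : ∀ (H : Subgroup G) (N : Subgroup H) [N.Normal], Nat.card (H ⧸ N) = p →
      Good p (H ⧸ N) ((Rep.res H.subtype A).quotientToInvariants N))
    (h : IsSubQuot A Q B) (hQ : Nat.card Q = p) : Good p Q B := by
  obtain ⟨H, N, hN, hcard, hi⟩ := h.exists_cohomology_iso
  exact good_of_iso hi (hcyc H N (hcard ▸ hQ))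

end Fermat.Agent.S55.SubQuot99
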