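/-
S55 / 42-FIN item (D) (helper5): finiteness of Selmer groups `K⟮T, n⟯` of number fields
(closing the Mathlib TODO in `RingTheory/DedekindDomain/SelmerGroup.lean`).
Mathlib only.
-/
import Mathlib

set_option autoImplicit false

open IsDedekindDomain IsDedekindDomain.HeightOneSpectrum FractionalIdeal
open scoped nonZeroDivisors

namespace Fermat.Agent.S55.Selmer5

noncomputable section

/-! ### A general finiteness lemma -/

/-- A group `E` is finite as soon as some function `f : E → X` into a finite type has all its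
fibres contained in cosets of a finite subgroup `N`. -/
theorem finite_of_fibres {E X : Type*} [Group E] [Finite X] (N : Subgroup E) [Finite N]
    (f : E → X) (h : ∀ x y, f x = f y → x⁻¹ * y ∈ N) : Finite E := by
  classical
  let rep : X → E := fun c => if hc : ∃ x, f x = c then hc.choose else 1
  have hrep : ∀ x, f (rep (f x)) = f x := by
    intro x
    have hc : ∃ y, f y = f x := ⟨x, rfl⟩
    simp only [rep, dif_pos hc]
    exact hc.choose_spec
  let g : E → X × N := fun x => (f x, ⟨(rep (f x))⁻¹ * x, h _ _ (hrep x)⟩)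
  refine Finite.of_injective g ?_
  intro x y hxy
  simp only [g, Prod.mk.injEq, Subtype.mk.injEq] at hxy
  obtain ⟨h1, h2⟩ := hxy
  rw [h1] at h2
  exact mul_left_cancel h2

variable {R : Type*} [CommRing R] [IsDedekindDomain R] {K : Type*} [Field K]
  [Algebra R K] [IsFractionRing R K]

/-! ### Valuations versus `FractionalIdeal.count` -/

theorem valuationOfNeZero_eq_count (v : HeightOneSpectrum R) (x : Kˣ) :
    Multiplicative.toAdd (v.valuationOfNeZero x) =
      - count K v (spanSingleton R⁰ (x : K)) := by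
  classical
  have hx0 : spanSingleton R⁰ (x : K) ≠ 0 := by
    rw [Ne, spanSingleton_eq_zero_iff]; exact x.ne_zero
  set hx := IsLocalization.sec R⁰ (x : K) with hxdef
  have hspec : (x : K) * algebraMap R K (hx.2 : R) = algebraMap R K hx.1 :=
    IsLocalization.sec_spec R⁰ (x : K)
  have hs0 : algebraMap R K (hx.2 : R) ≠ 0 :=
    IsFractionRing.to_map_ne_zero_of_mem_nonZeroDivisors hx.2.2
  have hI : spanSingleton R⁰ (x : K) =
      spanSingleton R⁰ ((algebraMap R K) (hx.2 : R))⁻¹ * ↑(Ideal.span {hx.1}) := by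
    rw [coeIdeal_span_singleton, spanSingleton_mul_spanSingleton]
    congr 1
    rw [← hspec]; field_simp
  rw [count_well_defined K v hx0 hI]
  change Multiplicative.toAdd (v.valuationOfNeZeroToFun x) = _
  simp only [valuationOfNeZeroToFun, toAdd_ofAdd, ← hxdef]
  ring

theorem valuationOfNeZeroMod_mk_eq_one_iff (v : HeightOneSpectrum R) (n : ℕ) (x : Kˣ) :
    v.valuationOfNeZeroMod n
        (QuotientGroup.mk x : Kˣ ⧸ (powMonoidHom n : Kˣ →* Kˣ).range) = 1 ↔
      (n : ℤ) ∣ Multiplicative.toAdd (v.valuationOfNeZero x) := by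
  erw [valuationOfNeZeroMod, MonoidHom.comp_apply, ← QuotientGroup.coe_mk',
    QuotientGroup.map_mk' (G := Kˣ) (N := MonoidHom.range (powMonoidHom n))]
  erw [MulEquiv.map_eq_one_iff]
  erw [QuotientGroup.eq_one_iff]
  rw [Multiplicative.mem_toSubgroup, AddSubgroup.mem_zmultiples_iff]
  constructor
  · rintro ⟨k, hk⟩
    exact ⟨k, by rw [← hk]; simp [mul_comm]⟩
  · rintro ⟨k, hk⟩
    exact ⟨k, by rw [hk]; simp [mul_comm]⟩

/-! ### `n`-th roots of fractional ideals -/

/-- A nonzero fractional ideal all of whose prime exponents are divisible by `n` is an `n`-th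
power. -/
theorem exists_pow_eq_of_dvd_count {n : ℕ} (I : FractionalIdeal R⁰ K) (hI : I ≠ 0)
    (h : ∀ v : HeightOneSpectrum R, (n : ℤ) ∣ count K v I) :
    ∃ J : FractionalIdeal R⁰ K, J ≠ 0 ∧ J ^ n = I := by
  classical
  have hfin : ∀ᶠ v : HeightOneSpectrum R in Filter.cofinite, count K v I = 0 := finite_factors I
  have hsupp : (Function.mulSupport fun v : HeightOneSpectrum R =>
      (v.asIdeal : FractionalIdeal R⁰ K) ^ (count K v I / (n : ℤ))).Finite := by
    refine Set.Finite.subset hfin ?_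
    intro v hv
    simp only [Function.mem_mulSupport] at hv
    change ¬ (count K v I = 0)
    intro h0
    apply hv
    rw [h0, Int.zero_ediv, zpow_zero]
  refine ⟨∏ᶠ v : HeightOneSpectrum R,
      (v.asIdeal : FractionalIdeal R⁰ K) ^ (count K v I / (n : ℤ)), ?_, ?_⟩
  · rw [finprod_eq_prod _ hsupp]
    refine Finset.prod_ne_zero_iff.2 fun v _ => ?_
    exact zpow_ne_zero _ (coeIdeal_ne_zero.mpr v.ne_bot)
  · rw [finprod_pow hsupp]
    conv_rhs => rw [← finprod_heightOneSpectrum_factorization' K hI]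
    refine finprod_congr fun v => ?_
    rw [← zpow_natCast, ← zpow_mul, Int.ediv_mul_cancel (h v)]

/-! ### The Selmer group `K⟮∅, n⟯` -/

local notation K "⟮" S "," n "⟯" => @selmerGroup _ _ _ K _ _ _ S n

theorem dvd_of_mem_selmerGroup {S : Set (HeightOneSpectrum R)} {n : ℕ} (x : Kˣ)
    (hx : (QuotientGroup.mk x : Kˣ ⧸ (powMonoidHom n : Kˣ →* Kˣ).range) ∈ K⟮S,n⟯)
    (v : HeightOneSpectrum R) (hv : v ∉ S) :
    (n : ℤ) ∣ count K v (spanSingleton R⁰ (x : K)) := by
  have := (valuationOfNeZeroMod_mk_eq_one_iff v n x).1 (hx v hv)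
  rw [valuationOfNeZero_eq_count] at this
  exact (dvd_neg.1 this)

variable (R K) in
/-- The image of the units of `R` in `K⟮∅, n⟯` is finite when `Rˣ` is finitely generated. -/
theorem finite_range_fromUnit [Group.FG Rˣ] (n : ℕ) [Fact (0 < n)] :
    Finite (selmerGroup.fromUnit (R := R) (K := K) (n := n)).range := by
  have : Group.FG (selmerGroup.fromUnit (R := R) (K := K) (n := n)).range :=
    Group.fg_range _
  refine CommGroup.finite_of_fg_isMulTorsion (G := (selmerGroup.fromUnit (R := R) (K := K) (n := n)).range) ?_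
  intro y
  rw [isOfFinOrder_iff_pow_eq_one]
  refine ⟨n, Fact.out, ?_⟩
  obtain ⟨⟨y, hy⟩, hyr⟩ := y
  ext
  simp only [SubgroupClass.coe_pow, OneMemClass.coe_one]
  induction y using QuotientGroup.induction_on with
  | H z =>
    rw [← QuotientGroup.mk_pow, QuotientGroup.eq_one_iff]
    exact ⟨z, rfl⟩

variable (R K) in
/-- `K⟮∅, n⟯` is finite when the class group is finite and the units are finitely generated. -/
theorem finite_selmerGroup_empty [Finite (ClassGroup R)] [Group.FG Rˣ] (n : ℕ) [Fact (0 < n)] :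
    Finite (K⟮(∅ : Set (HeightOneSpectrum R)),n⟯) := by
  classical
  have := finite_range_fromUnit R K n
  have hn : 0 < n := Fact.out
  -- choose an `n`-th root ideal of a representative
  have key : ∀ x : K⟮(∅ : Set (HeightOneSpectrum R)),n⟯, ∃ (z : Kˣ) (J : (FractionalIdeal R⁰ K)ˣ),
      (QuotientGroup.mk z : Kˣ ⧸ (powMonoidHom n : Kˣ →* Kˣ).range) = x.1 ∧
        J ^ n = toPrincipalIdeal R K z := by
    rintro ⟨x, hx⟩
    induction x using QuotientGroup.induction_on with
    | H z =>
      have hz0 : spanSingleton R⁰ (z : K) ≠ 0 := by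
        rw [Ne, spanSingleton_eq_zero_iff]; exact z.ne_zero
      obtain ⟨J, hJ0, hJ⟩ := exists_pow_eq_of_dvd_count (spanSingleton R⁰ (z : K)) hz0
        (fun v => dvd_of_mem_selmerGroup z hx v (Set.notMem_empty v))
      refine ⟨z, Units.mk0 J hJ0, rfl, ?_⟩
      ext
      simp [hJ]
  choose z J hz hJ using key
  refine finite_of_fibres (selmerGroup.fromUnit (R := R) (K := K) (n := n)).range
    (fun x => ClassGroup.mk K (J x)) ?_
  intro x y hxy
  -- `(J x)⁻¹ * J y` is principal, generated by some `w : Kˣ`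
  have hpr : ClassGroup.mk K ((J x)⁻¹ * J y) = 1 := by
    rw [map_mul, map_inv, hxy, inv_mul_cancel]
  rw [ClassGroup.mk_eq_one_iff] at hpr
  obtain ⟨w0, hw0⟩ := hpr.principal
  have hw0' : spanSingleton R⁰ w0 = (((J x)⁻¹ * J y : (FractionalIdeal R⁰ K)ˣ) :
      FractionalIdeal R⁰ K) := by
    apply coeToSubmodule_injective
    change ((spanSingleton R⁰ w0 : FractionalIdeal R⁰ K) : Submodule R K) = _
    rw [coe_spanSingleton]; exact hw0.symm
  have hw00 : w0 ≠ 0 := by
    rintro rfl
    rw [spanSingleton_zero] at hw0'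
    exact (Units.ne_zero _) hw0'.symm
  have hw : toPrincipalIdeal R K (Units.mk0 w0 hw00) = (J x)⁻¹ * J y := by
    rw [toPrincipalIdeal_eq_iff]; exact hw0'
  set w : Kˣ := Units.mk0 w0 hw00
  -- hence `(z x) * (w)^n = (z y)` as principal ideals
  have h1 : toPrincipalIdeal R K (z x * w ^ n) = toPrincipalIdeal R K (z y) := by
    rw [map_mul, map_pow, ← hJ x, ← hJ y, hw, mul_pow, inv_pow, mul_inv_cancel_left]
  -- so `(z x * w^n)⁻¹ * z y` is a unit of `R`
  have h2 : toPrincipalIdeal R K ((z x * w ^ n)⁻¹ * z y) = 1 := by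
    rw [map_mul, map_inv, h1, inv_mul_cancel]
  rw [toPrincipalIdeal_eq_iff, Units.val_one] at h2
  obtain ⟨u, hu⟩ : ∃ u : Rˣ, (algebraMap R K u : K) = (((z x * w ^ n)⁻¹ * z y : Kˣ) : K) := by
    have hmem : (((z x * w ^ n)⁻¹ * z y : Kˣ) : K) ∈ (1 : FractionalIdeal R⁰ K) := by
      rw [← h2]; exact mem_spanSingleton_self _ _
    have hmem' : ((((z x * w ^ n)⁻¹ * z y : Kˣ)⁻¹ : Kˣ) : K) ∈ (1 : FractionalIdeal R⁰ K) := by
      have : spanSingleton R⁰ ((((z x * w ^ n)⁻¹ * z y : Kˣ)⁻¹ : Kˣ) : K) = 1 := by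
        have h3 := congrArg (fun I => I⁻¹) h2
        simp only [inv_one, spanSingleton_inv] at h3
        rw [← h3, Units.val_inv_eq_inv_val]
      rw [← this]; exact mem_spanSingleton_self _ _
    rw [mem_one_iff] at hmem hmem'
    obtain ⟨a, ha⟩ := hmem
    obtain ⟨b, hb⟩ := hmem'
    have hab : a * b = 1 := by
      apply FaithfulSMul.algebraMap_injective R K
      rw [map_mul, ha, hb, map_one, ← Units.val_mul, mul_inv_cancel, Units.val_one]
    exact ⟨⟨a, b, hab, by rw [mul_comm]; exact hab⟩, ha⟩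
  -- conclusion: `x⁻¹ * y` is the class of `u`
  refine ⟨u, ?_⟩
  ext
  simp only [selmerGroup.fromUnit, MonoidHom.coe_mk, OneHom.coe_mk, Subgroup.coe_mul,
    Subgroup.coe_inv]
  rw [← hz x, ← hz y, ← QuotientGroup.mk_inv, ← QuotientGroup.mk_mul, QuotientGroup.eq]
  refine ⟨w, ?_⟩
  ext
  simp only [powMonoidHom_apply, Units.val_mul, Units.val_pow_eq_pow_val, Units.val_inv_eq_inv_val,
    Units.coe_map, MonoidHom.coe_coe, RingHom.toMonoidHom_eq_coe]
  have hu' : (algebraMap R K u : K) = ((z x : K) * (w : K) ^ n)⁻¹ * (z y : K) := by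
    rw [hu]; simp
  rw [hu']
  have hzx : (z x : K) ≠ 0 := (z x).ne_zero
  have hzy : (z y : K) ≠ 0 := (z y).ne_zero
  have hwk : (w : K) ≠ 0 := w.ne_zero
  field_simp

/-! ### The Selmer group `K⟮T, n⟯` for finite `T` -/

variable (R K) in
/-- `K⟮T, n⟯` is finite for finite `T`, when the class group is finite and the units are finitely
generated. -/
theorem finite_selmerGroup_of [Finite (ClassGroup R)] [Group.FG Rˣ]
    (T : Set (HeightOneSpectrum R)) (hT : T.Finite) (n : ℕ) [Fact (0 < n)] :
    Finite (K⟮T,n⟯) := by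
  classical
  have : NeZero n := ⟨(Fact.out : 0 < n).ne'⟩
  have : Finite T := hT
  have := finite_selmerGroup_empty R K n
  have : Finite ((K⟮(∅ : Set (HeightOneSpectrum R)),n⟯).subgroupOf (K⟮T,n⟯)) :=
    Finite.of_injective
      (fun x => (⟨x.1.1, x.2⟩ : K⟮(∅ : Set (HeightOneSpectrum R)),n⟯))
      (fun x y hxy => by
        have h1 : x.1.1 = y.1.1 := congrArg (fun t => t.1) hxy
        exact Subtype.ext (Subtype.ext h1))
  have : Finite (selmerGroup.valuation (R := R) (K := K) (S := T) (n := n)).ker := by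
    rw [selmerGroup.valuation_ker_eq]; infer_instance
  refine finite_of_fibres (selmerGroup.valuation (R := R) (K := K) (S := T) (n := n)).ker
    (fun x => selmerGroup.valuation x) ?_
  intro x y hxy
  rw [MonoidHom.mem_ker, map_mul, map_inv, hxy, inv_mul_cancel]

/-- **Finiteness of Selmer groups of number fields** (item (D) of 42-FIN). -/
theorem finite_selmerGroup (K : Type*) [Field K] [NumberField K]
    (T : Set (HeightOneSpectrum (NumberField.RingOfIntegers K))) (hT : T.Finite) (n : ℕ)
    [Fact (0 < n)] :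
    Finite ↥(selmerGroup (R := NumberField.RingOfIntegers K) (K := K) (S := T) (n := n)) := by
  have : Group.FG (NumberField.RingOfIntegers K)ˣ := Group.fg_iff_monoid_fg.2 inferInstance
  exact finite_selmerGroup_of (NumberField.RingOfIntegers K) K T hT n

/-! ### Quotient-free form -/

variable (R K) in
/-- The subgroup of `Kˣ` of elements whose valuations outside `T` are all divisible by `n`. -/
def selmerSubgroup (T : Set (HeightOneSpectrum R)) (n : ℕ) : Subgroup Kˣ :=
  (K⟮T,n⟯).comap (QuotientGroup.mk' (powMonoidHom n : Kˣ →* Kˣ).range)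

theorem mem_selmerSubgroup_iff {T : Set (HeightOneSpectrum R)} {n : ℕ} {a : Kˣ} :
    a ∈ selmerSubgroup R K T n ↔
      ∀ v : HeightOneSpectrum R, v ∉ T →
        (n : ℤ) ∣ Multiplicative.toAdd (v.valuationOfNeZero a) := by
  constructor
  · intro h v hv
    exact (valuationOfNeZeroMod_mk_eq_one_iff v n a).1 (h v hv)
  · intro h v hv
    exact (valuationOfNeZeroMod_mk_eq_one_iff v n a).2 (h v hv)

theorem range_pow_le_selmerSubgroup (T : Set (HeightOneSpectrum R)) (n : ℕ) :
    (powMonoidHom n : Kˣ →* Kˣ).range ≤ selmerSubgroup R K T n := by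
  rintro _ ⟨b, rfl⟩
  rw [mem_selmerSubgroup_iff]
  intro v _
  simp only [powMonoidHom_apply, map_pow, toAdd_pow, nsmul_eq_mul]
  exact Dvd.intro _ rfl

variable (R K) in
theorem relIndex_selmerSubgroup (T : Set (HeightOneSpectrum R)) (n : ℕ) :
    (powMonoidHom n : Kˣ →* Kˣ).range.relIndex (selmerSubgroup R K T n) = Nat.card (K⟮T,n⟯) := by
  have h := Subgroup.relIndex_ker (K := selmerSubgroup R K T n)
    (QuotientGroup.mk' (powMonoidHom n : Kˣ →* Kˣ).range)
  rw [QuotientGroup.ker_mk'] at h
  rw [h, selmerSubgroup,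
    Subgroup.map_comap_eq_self_of_surjective (QuotientGroup.mk'_surjective _)]

/-- Quotient-free finiteness: over a number field, the group of `a ∈ Kˣ` with all valuations
outside the finite set `T` divisible by `n` contains the `n`-th powers with finite index. -/
theorem relIndex_selmerSubgroup_ne_zero (K : Type*) [Field K] [NumberField K]
    (T : Set (HeightOneSpectrum (NumberField.RingOfIntegers K))) (hT : T.Finite) (n : ℕ)
    [Fact (0 < n)] :
    (powMonoidHom n : Kˣ →* Kˣ).range.relIndex
      (selmerSubgroup (NumberField.RingOfIntegers K) K T n) ≠ 0 := by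
  have := finite_selmerGroup K T hT n
  rw [relIndex_selmerSubgroup]
  exact Nat.card_pos.ne'

end

end Fermat.Agent.S55.Selmer5
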