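/-
S55 / iface adapter (helper19, named by helper77): the `μ_p`-dictionary for the subgroup
`H₀ := (cycloChar p).ker.map (resL L)` of `Gal(L/ℚ)`, `L` a normal level.

* `apply_eq_of_cycloChar_eq_one` : `cycloChar p σ = 1` ⟹ `σ` fixes every `p`-th root of unity;
* `fixes_of_mem_map_ker` : elements of `H₀` fix the `p`-th roots of unity lying in `L`;
* `mem_map_ker_of_fixes`, `mem_map_ker_iff` : conversely, for a primitive `p`-th root of unity
  `ζ ∈ L`, `g ∈ H₀ ↔ g ζ = ζ`;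
* `mem_fixedField_of_le_map_ker` : for `H ≤ H₀`, `ζ` lies in the fixed field `L^H`.
-/
import Mathlib
import Fermat.Agent.S55.Idele73.Basic
import Fermat.Agent.S55.Fin62.Main

set_option autoImplicit false

namespace Fermat.Agent.S55.MuLevel19

open ExtCitation
open Fermat.Agent.S55.Idele73.Basic

variable (p : ℕ) [Fact p.Prime]

/-- An automorphism killed by the mod `p` cyclotomic character fixes every `p`-th root of unity. -/
theorem apply_eq_of_cycloChar_eq_one {σ : GQ} (hσ : cycloChar p σ = 1) {ζ : Qbar}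
    (hζ : ζ ^ p = 1) : σ ζ = ζ := by
  have hp : p.Prime := Fact.out
  have : NeZero p := ⟨hp.ne_zero⟩
  have hu : IsUnit ζ := IsUnit.of_pow_eq_one hζ hp.ne_zero
  obtain ⟨u, rfl⟩ := hu
  have hmem : u ∈ rootsOfUnity p Qbar := by
    rw [mem_rootsOfUnity]; ext; simpa using hζ
  have h1 : σ (u : Qbar) = (u : Qbar) ^ ((cycloChar p σ : (ZMod p)ˣ) : ZMod p).val :=
    modularCyclotomicCharacter.spec Qbar (card_rootsOfUnity_eq_self p) (σ : Qbar ≃+* Qbar) hmem
  rw [hσ] at h1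
  have : Fact (1 < p) := ⟨hp.one_lt⟩
  rw [Units.val_one, ZMod.val_one, pow_one] at h1
  exact h1

variable (L : IntermediateField ℚ Qbar) [Normal ℚ L]

/-- Elements of `H₀ = π_L(ker cycloChar)` fix the `p`-th roots of unity of `L`. -/
theorem fixes_of_mem_map_ker {ζ : Qbar} (hζ : ζ ^ p = 1) (hζL : ζ ∈ L) {g : GalL L}
    (hg : g ∈ (cycloChar p).ker.map (resL L)) : g ⟨ζ, hζL⟩ = ⟨ζ, hζL⟩ := by
  obtain ⟨σ, hσ, rfl⟩ := hg
  apply Subtype.ext
  rw [resL_apply]
  exact apply_eq_of_cycloChar_eq_one p (MonoidHom.mem_ker.mp hσ) hζ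

/-- Conversely, an element of `Gal(L/ℚ)` fixing a primitive `p`-th root of unity lies in `H₀`. -/
theorem mem_map_ker_of_fixes {ζ : Qbar} (hζ : IsPrimitiveRoot ζ p) (hζL : ζ ∈ L) {g : GalL L}
    (hg : g ⟨ζ, hζL⟩ = ⟨ζ, hζL⟩) : g ∈ (cycloChar p).ker.map (resL L) := by
  obtain ⟨σ, rfl⟩ := resL_surjective L g
  refine ⟨σ, MonoidHom.mem_ker.mpr ?_, rfl⟩
  apply Fin62.Main.cycloChar_eq_one_of_fix hζ σ
  have := congrArg (fun x : L => (x : Qbar)) hg
  simpa [resL_apply] using this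

theorem mem_map_ker_iff {ζ : Qbar} (hζ : IsPrimitiveRoot ζ p) (hζL : ζ ∈ L) (g : GalL L) :
    g ∈ (cycloChar p).ker.map (resL L) ↔ g ⟨ζ, hζL⟩ = ⟨ζ, hζL⟩ :=
  ⟨fixes_of_mem_map_ker p L hζ.pow_eq_one hζL, mem_map_ker_of_fixes p L hζ hζL⟩

/-- For `H ≤ H₀`, every `p`-th root of unity of `L` lies in the fixed field `L^H`. -/
theorem mem_fixedField_of_le_map_ker {H : Subgroup (GalL L)}
    (hH : H ≤ (cycloChar p).ker.map (resL L)) {ζ : Qbar} (hζ : ζ ^ p = 1) (hζL : ζ ∈ L) :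
    (⟨ζ, hζL⟩ : L) ∈ IntermediateField.fixedField H := by
  intro g
  exact fixes_of_mem_map_ker p L hζ hζL (hH g.2)

/-- The same for Mathlib's `FixedPoints.intermediateField`. -/
theorem mem_fixedPoints_of_le_map_ker {H : Subgroup (GalL L)}
    (hH : H ≤ (cycloChar p).ker.map (resL L)) {ζ : Qbar} (hζ : ζ ^ p = 1) (hζL : ζ ∈ L) :
    (⟨ζ, hζL⟩ : L) ∈ FixedPoints.intermediateField (M := H) (F := ℚ) (E := L) := by
  intro g
  exact fixes_of_mem_map_ker p L hζ hζL (hH g.2)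

end Fermat.Agent.S55.MuLevel19
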