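/-
S55 / leaf 14b-LOC-POW (helper39): the index of `p`-th powers in a local field.

Model-independent, Mathlib only.  `O` is a complete discrete valuation ring of characteristic `0`
with finite residue field (ANY residue characteristic), `E` its fraction field, `p` a prime:

* `hensel_of_adicComplete`   : Hensel's lemma for an `I`-adically complete ring WITHOUT the
                               monic hypothesis of `IsAdicComplete.henselianRing`;
* `exists_pow_eq`            : `(1 + p z)^p = 1 + p² y` is solvable with `z ∈ J` for `y ∈ J ≤ 𝔪`;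
* `card_units_quot_pow`      : `#(Oˣ / Oˣᵖ) = #μ_p(O) · #(O/pO)`;
* `card_fieldUnits_quot_pow` : `#(Eˣ / Eˣᵖ) = p · #μ_p(E) · #(O/pO)`.
-/
import Mathlib

set_option autoImplicit false
set_option linter.unusedSectionVars false
set_option linter.style.haveILetI false

open Polynomial IsLocalRing

noncomputable section

namespace Fermat.Agent.S55.LocPow39

/-! ### (P0) Hensel's lemma without `Monic` -/

/-- Newton's method in an `I`-adically complete ring; Mathlib's
`IsAdicComplete.henselianRing` with the (unused) monic hypothesis removed. -/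
theorem hensel_of_adicComplete {R : Type*} [CommRing R] (I : Ideal R) [IsAdicComplete I R]
    (f : R[X]) (a₀ : R) (h₁ : f.eval a₀ ∈ I)
    (h₂ : IsUnit (Ideal.Quotient.mk I (f.derivative.eval a₀))) :
    ∃ a : R, f.IsRoot a ∧ a - a₀ ∈ I := by
  classical
  let f' := derivative f
  let c : ℕ → R := fun n => Nat.recOn n a₀ fun _ b => b - f.eval b * Ring.inverse (f'.eval b)
  have hc : ∀ n, c (n + 1) = c n - f.eval (c n) * Ring.inverse (f'.eval (c n)) := by
    intro n
    simp only [c]
  have hc_mod : ∀ n, c n ≡ a₀ [SMOD I] := by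
    intro n
    induction n with
    | zero => rfl
    | succ n ih =>
      rw [hc, sub_eq_add_neg, ← add_zero a₀]
      refine ih.add ?_
      rw [SModEq.zero, Ideal.neg_mem_iff]
      refine I.mul_mem_right _ ?_
      rw [← SModEq.zero] at h₁ ⊢
      exact (ih.eval f).trans h₁
  have hf'c : ∀ n, IsUnit (f'.eval (c n)) := by
    intro n
    have := isLocalHom_of_le_jacobson_bot I (IsAdicComplete.le_jacobson_bot I)
    apply IsUnit.of_map (Ideal.Quotient.mk I)
    convert h₂ using 1
    exact SModEq.def.mp ((hc_mod n).eval _)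
  have hfcI : ∀ n, f.eval (c n) ∈ I ^ (n + 1) := by
    intro n
    induction n with
    | zero =>
      have h0 : c 0 = a₀ := rfl
      rw [h0, zero_add, pow_one]
      exact h₁
    | succ n ih =>
      rw [← taylor_eval_sub (c n), hc, sub_eq_add_neg, sub_eq_add_neg,
        add_neg_cancel_comm]
      rw [eval_eq_sum, sum_over_range' _ _ _ (lt_add_of_pos_right _ zero_lt_two), ←
        Finset.sum_range_add_sum_Ico _ (Nat.le_add_left _ _)]
      swap
      · intro i
        rw [zero_mul]
      refine Ideal.add_mem _ ?_ ?_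
      · rw [← one_add_one_eq_two, Finset.sum_range_succ, Finset.range_one, Finset.sum_singleton,
          taylor_coeff_zero, taylor_coeff_one, pow_zero, pow_one, mul_one, mul_neg,
          mul_left_comm, Ring.mul_inverse_cancel _ (hf'c n), mul_one, add_neg_cancel]
        exact Ideal.zero_mem _
      · refine Submodule.sum_mem _ ?_
        simp only [Finset.mem_Ico]
        rintro i ⟨h2i, _⟩
        have aux : n + 2 ≤ i * (n + 1) := by trans 2 * (n + 1) <;> nlinarith only [h2i]
        refine Ideal.mul_mem_left _ _ (Ideal.pow_le_pow_right aux ?_)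
        rw [pow_mul']
        exact Ideal.pow_mem_pow ((Ideal.neg_mem_iff _).2 <| Ideal.mul_mem_right _ _ ih) _
  have aux : ∀ m n, m ≤ n → c m ≡ c n [SMOD (I ^ m • ⊤ : Ideal R)] := by
    intro m n hmn
    rw [← Ideal.one_eq_top, Ideal.smul_eq_mul, mul_one]
    obtain ⟨k, rfl⟩ := Nat.exists_eq_add_of_le hmn
    clear hmn
    induction k with
    | zero => rw [add_zero]
    | succ k ih =>
      rw [← add_assoc, hc, ← add_zero (c m), sub_eq_add_neg]
      refine ih.add ?_
      symm
      rw [SModEq.zero, Ideal.neg_mem_iff]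
      refine Ideal.mul_mem_right _ _ (Ideal.pow_le_pow_right ?_ (hfcI _))
      rw [add_assoc]
      exact le_self_add
  obtain ⟨a, ha⟩ := IsPrecomplete.prec' c (aux _ _)
  refine ⟨a, ?_, ?_⟩
  · show f.IsRoot a
    suffices ∀ n, f.eval a ≡ 0 [SMOD (I ^ n • ⊤ : Ideal R)] by exact IsHausdorff.haus' _ this
    intro n
    specialize ha n
    rw [← Ideal.one_eq_top, Ideal.smul_eq_mul, mul_one] at ha ⊢
    refine (ha.symm.eval f).trans ?_
    rw [SModEq.zero]
    exact Ideal.pow_le_pow_right le_self_add (hfcI _)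
  · show a - a₀ ∈ I
    specialize ha (0 + 1)
    rw [hc, pow_one, ← Ideal.one_eq_top, Ideal.smul_eq_mul, mul_one, sub_eq_add_neg] at ha
    rw [← SModEq.sub_mem, ← add_zero a₀]
    refine ha.symm.trans (SModEq.rfl.add ?_)
    rw [SModEq.zero, Ideal.neg_mem_iff]
    exact Ideal.mul_mem_right _ _ h₁

/-! ### (P1) the binomial identity and the `p`-power map on principal units -/

section Binomial

variable {R : Type*} [CommRing R]

/-- `(1 + X)^p = 1 + p X + X² h`. -/
theorem exists_poly (p : ℕ) :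
    ∃ h : R[X], (1 + X : R[X]) ^ p = 1 + C (p : R) * X + X ^ 2 * h := by
  have hdvd : X ^ 2 ∣ ((1 + X : R[X]) ^ p - 1 - C (p : R) * X) := by
    rw [Polynomial.X_pow_dvd_iff]
    intro d hd
    interval_cases d
    · simp [Polynomial.coeff_one_add_X_pow]
    · simp [Polynomial.coeff_one_add_X_pow, Polynomial.coeff_one]
  obtain ⟨h, hh⟩ := hdvd
  exact ⟨h, by rw [← hh]; ring⟩

/-- `(1 + p z)^p = 1 + p² (z + z² h(p z))`. -/
theorem one_add_mul_pow (p : ℕ) {h : R[X]}
    (hh : (1 + X : R[X]) ^ p = 1 + C (p : R) * X + X ^ 2 * h) (z : R) :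
    (1 + (p : R) * z) ^ p = 1 + (p : R) ^ 2 * (z * (1 + z * h.eval ((p : R) * z))) := by
  have := congrArg (eval ((p : R) * z)) hh
  simp only [eval_pow, eval_add, eval_one, eval_X, eval_mul, eval_C] at this
  rw [this]
  ring

end Binomial

section Local

variable {O : Type*} [CommRing O] [IsLocalRing O]

theorem isUnit_one_add_of_mem {x : O} (hx : x ∈ maximalIdeal O) : IsUnit (1 + x) := by
  have := IsLocalRing.isUnit_one_sub_self_of_mem_nonunits _
    ((IsLocalRing.mem_maximalIdeal _).mp (neg_mem hx))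
  simpa using this

variable [IsAdicComplete (maximalIdeal O) O]

/-- **Solvability**: for `y ∈ 𝔪` there is `z ∈ 𝔪`, an associate of `y`, with
`(1 + p z)^p = 1 + p² y`. -/
theorem exists_pow_eq (p : ℕ) (y : O) (hy : y ∈ maximalIdeal O) :
    ∃ z : O, z ∈ maximalIdeal O ∧ (1 + (p : O) * z) ^ p = 1 + (p : O) ^ 2 * y ∧
      ∃ u : Oˣ, z * u = y := by
  obtain ⟨h, hh⟩ := exists_poly (R := O) p
  set H : O[X] := h.comp (C (p : O) * X) with hH
  set G : O[X] := X + X ^ 2 * H - C y with hG
  have h1 : G.eval 0 ∈ maximalIdeal O := by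
    simp only [hG, eval_sub, eval_add, eval_X, eval_mul, eval_pow, eval_C]
    simpa using hy
  have h2 : IsUnit (Ideal.Quotient.mk (maximalIdeal O) (G.derivative.eval 0)) := by
    have : G.derivative.eval 0 = 1 := by
      simp [hG, derivative_mul]
    rw [this, map_one]
    exact isUnit_one
  obtain ⟨z, hz, hz0⟩ := hensel_of_adicComplete (maximalIdeal O) G 0 h1 h2
  rw [sub_zero] at hz0
  have hroot : z + z ^ 2 * h.eval ((p : O) * z) = y := by
    have := hz
    rw [IsRoot.def, hG, eval_sub, eval_add, eval_X, eval_mul, eval_pow, eval_X, eval_C, hH,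
      eval_comp, eval_mul, eval_C, eval_X, sub_eq_zero] at this
    exact this
  have hu : IsUnit (1 + z * h.eval ((p : O) * z)) :=
    isUnit_one_add_of_mem (Ideal.mul_mem_right _ _ hz0)
  refine ⟨z, hz0, ?_, hu.unit, ?_⟩
  · rw [one_add_mul_pow p hh, ← hroot]
    ring
  · rw [IsUnit.unit_spec, ← hroot]
    ring

end Local

/-! ### (P2) the index of `p`-th powers in `Oˣ` -/

section Units

variable {O : Type*} [CommRing O]

/-- units congruent to `1` modulo `I` -/
def U (I : Ideal O) : Subgroup Oˣ := (Units.map (Ideal.Quotient.mk I : O →* O ⧸ I)).ker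

theorem mem_U {I : Ideal O} {u : Oˣ} : u ∈ U I ↔ (u : O) - 1 ∈ I := by
  rw [U, MonoidHom.mem_ker, Units.ext_iff, Units.coe_map, Units.val_one]
  show Ideal.Quotient.mk I (u : O) = 1 ↔ _
  rw [← map_one (Ideal.Quotient.mk I), Ideal.Quotient.eq]

theorem mem_U_span {a : O} {u : Oˣ} : u ∈ U (Ideal.span {a}) ↔ ∃ t : O, (u : O) = 1 + a * t := by
  rw [mem_U, Ideal.mem_span_singleton']
  constructor
  · rintro ⟨t, ht⟩
    exact ⟨t, by rw [mul_comm a t, ht]; ring⟩
  · rintro ⟨t, ht⟩
    exact ⟨t, by rw [ht]; ring⟩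

theorem U_index_ne_zero (I : Ideal O) [Finite (O ⧸ I)] : (U I).index ≠ 0 := by
  rw [U, Subgroup.index_ker]
  exact Nat.card_pos.ne'

end Units

section DVR

variable {O : Type*} [CommRing O] [IsDomain O] [IsDiscreteValuationRing O]
  [IsAdicComplete (maximalIdeal O) O]
variable (p : ℕ)

/-- the `p`-power endomorphism of `Oˣ` -/
abbrev φ : Oˣ →* Oˣ := powMonoidHom p

variable {p}

/-- (C1) `V^p = V'` for `V = U (p ϖ)`, `V' = U (p² ϖ)`. -/
theorem map_pow_U {ϖ : O} (hϖ : maximalIdeal O = Ideal.span {ϖ}) :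
    (U (Ideal.span {(p : O) * ϖ})).map (φ (O := O) p) =
      U (Ideal.span {(p : O) * ((p : O) * ϖ)}) := by
  obtain ⟨h, hh⟩ := exists_poly (R := O) p
  ext u'
  constructor
  · rintro ⟨u, hu, rfl⟩
    obtain ⟨t, ht⟩ := mem_U_span.mp hu
    refine mem_U_span.mpr ⟨t * (1 + ϖ * t * h.eval ((p : O) * (ϖ * t))), ?_⟩
    show ((u ^ p : Oˣ) : O) = _
    rw [Units.val_pow_eq_pow_val, ht, show (p : O) * ϖ * t = (p : O) * (ϖ * t) by ring,
      one_add_mul_pow p hh]
    ring
  · intro hu'
    obtain ⟨t, ht⟩ := mem_U_span.mp hu'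
    have hy : ϖ * t ∈ maximalIdeal O := by
      rw [hϖ]; exact Ideal.mul_mem_right _ _ (Ideal.mem_span_singleton_self ϖ)
    obtain ⟨z, hz, hpow, -⟩ := exists_pow_eq p (ϖ * t) hy
    obtain ⟨s, rfl⟩ : ∃ s, z = ϖ * s := by
      rw [hϖ, Ideal.mem_span_singleton'] at hz
      obtain ⟨s, hs⟩ := hz
      exact ⟨s, by rw [← hs]; ring⟩
    have hw : IsUnit (1 + (p : O) * (ϖ * s)) :=
      isUnit_one_add_of_mem (Ideal.mul_mem_left _ _ hz)
    refine ⟨hw.unit, mem_U_span.mpr ⟨s, ?_⟩, ?_⟩
    · rw [IsUnit.unit_spec]; ring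
    · apply Units.ext
      show ((hw.unit ^ p : Oˣ) : O) = _
      rw [Units.val_pow_eq_pow_val, IsUnit.unit_spec, hpow, ht]
      ring

/-- (C2) the `p`-power map is injective on `V = U (p ϖ)`. -/
theorem U_inf_ker (hp0 : (p : O) ≠ 0) {ϖ : O} (hϖ : maximalIdeal O = Ideal.span {ϖ}) :
    U (Ideal.span {(p : O) * ϖ}) ⊓ (φ (O := O) p).ker = ⊥ := by
  obtain ⟨h, hh⟩ := exists_poly (R := O) p
  rw [eq_bot_iff]
  rintro u ⟨hu, hker⟩
  obtain ⟨t, ht⟩ := mem_U_span.mp hu
  rw [Subgroup.mem_bot]
  have h1 : ((u ^ p : Oˣ) : O) = 1 := by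
    have : u ^ p = 1 := hker
    rw [this]; rfl
  rw [Units.val_pow_eq_pow_val, ht, show (p : O) * ϖ * t = (p : O) * (ϖ * t) by ring,
    one_add_mul_pow p hh] at h1
  have hz : ϖ * t ∈ maximalIdeal O := by
    rw [hϖ]; exact Ideal.mul_mem_right _ _ (Ideal.mem_span_singleton_self ϖ)
  have hunit : IsUnit (1 + ϖ * t * h.eval ((p : O) * (ϖ * t))) :=
    isUnit_one_add_of_mem (Ideal.mul_mem_right _ _ hz)
  have h2 : (p : O) ^ 2 * (ϖ * t * (1 + ϖ * t * h.eval ((p : O) * (ϖ * t)))) = 0 := by
    have := h1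
    rwa [add_eq_left] at this
  have h3 : ϖ * t = 0 := by
    rcases mul_eq_zero.mp h2 with h | h
    · exact absurd (pow_eq_zero_iff two_ne_zero |>.mp h) hp0
    · rcases mul_eq_zero.mp h with h | h
      · exact h
      · exact absurd h hunit.ne_zero
  apply Units.ext
  rw [ht, show (p : O) * ϖ * t = (p : O) * (ϖ * t) by ring, h3]
  simp

omit [IsDiscreteValuationRing O] [IsAdicComplete (maximalIdeal O) O] in
/-- (C3) `[V : V'] = #(O/pO)`. -/
theorem relIndex_U [IsLocalRing O] (hp0 : (p : O) ≠ 0) {ϖ : O} (hϖ0 : ϖ ≠ 0)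
    (hϖm : ϖ ∈ maximalIdeal O) :
    (U (Ideal.span {(p : O) * ((p : O) * ϖ)})).relIndex (U (Ideal.span {(p : O) * ϖ})) =
      Nat.card (O ⧸ Ideal.span {(p : O)}) := by
  set a : O := (p : O) * ϖ with ha
  have ha0 : a ≠ 0 := mul_ne_zero hp0 hϖ0
  have hex : ∀ u : U (Ideal.span {a}), ∃ t : O, ((u : Oˣ) : O) = 1 + a * t :=
    fun u => mem_U_span.mp u.2
  choose τ hτ using hex
  have hτmul : ∀ u v : U (Ideal.span {a}), τ (u * v) = τ u + τ v + a * τ u * τ v := by
    intro u v
    have h1 := hτ (u * v)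
    rw [Subgroup.coe_mul, Units.val_mul, hτ u, hτ v] at h1
    apply mul_left_cancel₀ ha0
    linear_combination -h1
  have hamem : ∀ x : O, a * x ∈ Ideal.span {(p : O)} := fun x => by
    rw [ha, mul_assoc]
    exact Ideal.mul_mem_right _ _ (Ideal.mem_span_singleton_self _)
  let ψ : U (Ideal.span {a}) →* Multiplicative (O ⧸ Ideal.span {(p : O)}) :=
    MonoidHom.mk' (fun u => Multiplicative.ofAdd (Ideal.Quotient.mk _ (τ u))) (by
      intro u v
      rw [hτmul, ← ofAdd_add, ← map_add]
      congr 1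
      rw [Ideal.Quotient.eq]
      have : τ u + τ v + a * τ u * τ v - (τ u + τ v) = a * (τ u * τ v) := by ring
      rw [this]
      exact hamem _)
  have hψ : ∀ u, ψ u = Multiplicative.ofAdd (Ideal.Quotient.mk _ (τ u)) := fun _ => rfl
  have hker : ψ.ker = (U (Ideal.span {(p : O) * a})).subgroupOf (U (Ideal.span {a})) := by
    ext u
    rw [MonoidHom.mem_ker, Subgroup.mem_subgroupOf, hψ, ← ofAdd_zero, Multiplicative.ofAdd.injective.eq_iff,
      Ideal.Quotient.eq_zero_iff_mem, Ideal.mem_span_singleton', mem_U_span]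
    constructor
    · rintro ⟨s, hs⟩
      exact ⟨s, by rw [hτ u, ← hs]; ring⟩
    · rintro ⟨s, hs⟩
      refine ⟨s, ?_⟩
      apply mul_left_cancel₀ ha0
      have := hτ u
      rw [hs] at this
      linear_combination this
  have hsurj : Function.Surjective ψ := by
    intro x
    obtain ⟨t, ht⟩ := Ideal.Quotient.mk_surjective (Multiplicative.toAdd x)
    have hw : IsUnit (1 + a * t) :=
      isUnit_one_add_of_mem (by
        rw [ha, mul_comm (p : O) ϖ, mul_assoc]
        exact Ideal.mul_mem_right _ _ hϖm)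
    let u : U (Ideal.span {a}) := ⟨hw.unit, mem_U_span.mpr ⟨t, hw.unit_spec⟩⟩
    refine ⟨u, ?_⟩
    have h1 := hτ u
    have h2 : ((u : Oˣ) : O) = 1 + a * t := hw.unit_spec
    have h3 : τ u = t := by
      apply mul_left_cancel₀ ha0
      linear_combination h2 - h1
    rw [hψ, h3, ht]
    rfl
  rw [Subgroup.relIndex, ← hker, Subgroup.index_ker, MonoidHom.range_eq_top.mpr hsurj]
  rw [Nat.card_congr (Subgroup.topEquiv (G := Multiplicative (O ⧸ Ideal.span {(p : O)}))).toEquiv]
  exact Nat.card_congr Multiplicative.toAdd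

omit [IsAdicComplete (maximalIdeal O) O] in
theorem finite_quotient_span [Finite (ResidueField O)] {a : O} (ha : a ≠ 0) :
    Finite (O ⧸ Ideal.span {a}) := by
  obtain ⟨ϖ, hϖ⟩ := IsDiscreteValuationRing.exists_irreducible O
  obtain ⟨n, hn⟩ := IsDiscreteValuationRing.ideal_eq_span_pow_irreducible
    (s := Ideal.span {a}) (by simpa using ha) hϖ
  rw [hn, ← Ideal.span_singleton_pow, ← hϖ.maximalIdeal_eq]
  haveI : Finite (O ⧸ maximalIdeal O) := ‹Finite (ResidueField O)›
  exact Ideal.finite_quotient_pow (IsNoetherian.noetherian _) n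

theorem ker_φ : (φ (O := O) p).ker = rootsOfUnity p O := by
  ext u
  rw [MonoidHom.mem_ker, mem_rootsOfUnity]
  rfl

variable [Finite (ResidueField O)] [CharZero O] [hp : Fact p.Prime]

/-- **(P2), index form**: `[Oˣ : Oˣᵖ] = #μ_p(O) · #(O/pO)`. -/
theorem index_range_pow :
    (φ (O := O) p).range.index =
      Nat.card (rootsOfUnity p O) * Nat.card (O ⧸ Ideal.span {(p : O)}) := by
  obtain ⟨ϖ, hirr⟩ := IsDiscreteValuationRing.exists_irreducible O
  have hϖ := hirr.maximalIdeal_eq
  have hϖm : ϖ ∈ maximalIdeal O := by rw [hϖ]; exact Ideal.mem_span_singleton_self ϖ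
  have hp0 : (p : O) ≠ 0 := Nat.cast_ne_zero.mpr hp.out.ne_zero
  have h1 : (U (Ideal.span {(p : O) * ((p : O) * ϖ)})).index =
      (U (Ideal.span {(p : O) * ϖ}) ⊔ (φ (O := O) p).ker).index * (φ (O := O) p).range.index := by
    rw [← map_pow_U hϖ, Subgroup.index_map]
  have hle : U (Ideal.span {(p : O) * ((p : O) * ϖ)}) ≤ U (Ideal.span {(p : O) * ϖ}) := by
    intro u hu
    obtain ⟨t, ht⟩ := mem_U_span.mp hu
    exact mem_U_span.mpr ⟨(p : O) * t, by rw [ht]; ring⟩
  have h2 := Subgroup.relIndex_mul_index hle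
  have h3 := Subgroup.relIndex_mul_index
    (le_sup_left : U (Ideal.span {(p : O) * ϖ}) ≤ U (Ideal.span {(p : O) * ϖ}) ⊔ (φ (O := O) p).ker)
  have h4 : (U (Ideal.span {(p : O) * ϖ})).relIndex
      (U (Ideal.span {(p : O) * ϖ}) ⊔ (φ (O := O) p).ker) = Nat.card (φ (O := O) p).ker := by
    rw [Subgroup.relIndex_sup_left, ← Subgroup.inf_relIndex_right, U_inf_ker hp0 hϖ,
      Subgroup.relIndex_bot_left]
  have h5 : (U (Ideal.span {(p : O) * ϖ})).index ≠ 0 := by
    haveI := finite_quotient_span (mul_ne_zero hp0 hirr.ne_zero)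
    exact U_index_ne_zero _
  have h6 : (U (Ideal.span {(p : O) * ϖ}) ⊔ (φ (O := O) p).ker).index ≠ 0 := fun h =>
    h5 (by rw [← h3, h, mul_zero])
  have h7 := relIndex_U (p := p) hp0 hirr.ne_zero hϖm
  have key : (U (Ideal.span {(p : O) * ϖ}) ⊔ (φ (O := O) p).ker).index *
      (φ (O := O) p).range.index =
      (U (Ideal.span {(p : O) * ϖ}) ⊔ (φ (O := O) p).ker).index *
        (Nat.card (φ (O := O) p).ker * Nat.card (O ⧸ Ideal.span {(p : O)})) := by
    rw [← h1, ← h2, h7, ← h3, h4]; ring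
  rw [Nat.eq_of_mul_eq_mul_left (Nat.pos_of_ne_zero h6) key, ker_φ]

/-- **(P2)**: `#(Oˣ / Oˣᵖ) = #μ_p(O) · #(O/pO)`. -/
theorem card_units_quot_pow :
    Nat.card (Oˣ ⧸ (powMonoidHom p : Oˣ →* Oˣ).range) =
      Nat.card (rootsOfUnity p O) * Nat.card (O ⧸ Ideal.span {(p : O)}) := by
  rw [← Subgroup.index_eq_card]
  exact index_range_pow

end DVR

/-! ### (P3) the index of `p`-th powers in `Eˣ` -/

section Group

theorem index_range_pow_int (p : ℕ) [NeZero p] :
    (powMonoidHom p : Multiplicative ℤ →* Multiplicative ℤ).range.index = p := by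
  let f : Multiplicative ℤ →* Multiplicative (ZMod p) :=
    AddMonoidHom.toMultiplicative (Int.castAddHom (ZMod p))
  have hf : Function.Surjective f := by
    intro x
    obtain ⟨n, hn⟩ := ZMod.intCast_surjective (Multiplicative.toAdd x)
    exact ⟨Multiplicative.ofAdd n, by simp [f, hn]⟩
  have hker : f.ker = (powMonoidHom p : Multiplicative ℤ →* Multiplicative ℤ).range := by
    ext x
    rw [MonoidHom.mem_ker, MonoidHom.mem_range]
    constructor
    · intro h
      have h' : ((Multiplicative.toAdd x : ℤ) : ZMod p) = 0 := by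
        simpa [f] using h
      rw [ZMod.intCast_zmod_eq_zero_iff_dvd] at h'
      obtain ⟨m, hm⟩ := h'
      refine ⟨Multiplicative.ofAdd m, ?_⟩
      rw [powMonoidHom_apply, ← ofAdd_nsmul, nsmul_eq_mul, ← hm]
      rfl
    · rintro ⟨y, rfl⟩
      rw [powMonoidHom_apply, map_pow]
      have : (f y) ^ p = 1 := by
        have := ZMod.natCast_self p
        show Multiplicative.ofAdd (p • Multiplicative.toAdd (f y)) = 1
        rw [nsmul_eq_mul, ZMod.natCast_self, zero_mul]
        rfl
      exact this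
  rw [← hker, Subgroup.index_ker, MonoidHom.range_eq_top.mpr hf,
    Nat.card_congr (Subgroup.topEquiv (G := Multiplicative (ZMod p))).toEquiv,
    Nat.card_congr Multiplicative.toAdd, Nat.card_zmod]

variable {A : Type*} [CommGroup A]

theorem index_range_pow_of_decomp (K : Subgroup A) (t : A) (p : ℕ) [NeZero p]
    (h1 : ∀ a : A, ∃ n : ℤ, ∃ k ∈ K, a = t ^ n * k) (h2 : ∀ n : ℤ, t ^ n ∈ K → n = 0) :
    (powMonoidHom p : A →* A).range.index = p * (powMonoidHom p : K →* K).range.index := by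
  let f : Multiplicative ℤ × K →* A := (zpowersHom A t).coprod K.subtype
  have hf : ∀ x : Multiplicative ℤ × K, f x = t ^ (Multiplicative.toAdd x.1) * (x.2 : A) := by
    intro x
    simp [f, MonoidHom.coprod_apply, zpowersHom_apply]
  have hinj : Function.Injective f := by
    rw [injective_iff_map_eq_one]
    intro x hx
    rw [hf] at hx
    have hmem : t ^ (Multiplicative.toAdd x.1) ∈ K := by
      rw [mul_eq_one_iff_eq_inv] at hx
      rw [hx]
      exact K.inv_mem x.2.2
    have h0 := h2 _ hmem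
    rw [h0, zpow_zero, one_mul] at hx
    ext
    · exact h0
    · exact hx
  have hsurj : Function.Surjective f := by
    intro a
    obtain ⟨n, k, hk, rfl⟩ := h1 a
    exact ⟨(Multiplicative.ofAdd n, ⟨k, hk⟩), by rw [hf]; rfl⟩
  let e : Multiplicative ℤ × K ≃* A := MulEquiv.ofBijective f ⟨hinj, hsurj⟩
  have hmap : (powMonoidHom p : A →* A).range =
      ((powMonoidHom p : Multiplicative ℤ × K →* Multiplicative ℤ × K).range).map
        (e : Multiplicative ℤ × K →* A) := by
    ext a
    constructor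
    · rintro ⟨b, rfl⟩
      obtain ⟨x, rfl⟩ := e.surjective b
      exact ⟨x ^ p, ⟨x, rfl⟩, by simp⟩
    · rintro ⟨_, ⟨x, rfl⟩, rfl⟩
      exact ⟨e x, by simp⟩
  have hprod : (powMonoidHom p : Multiplicative ℤ × K →* Multiplicative ℤ × K).range =
      ((powMonoidHom p : Multiplicative ℤ →* Multiplicative ℤ).range).prod
        ((powMonoidHom p : K →* K).range) := by
    ext x
    rw [Subgroup.mem_prod]
    constructor
    · rintro ⟨y, rfl⟩
      exact ⟨⟨y.1, rfl⟩, ⟨y.2, rfl⟩⟩
    · rintro ⟨⟨a, ha⟩, ⟨b, hb⟩⟩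
      exact ⟨(a, b), Prod.ext ha hb⟩
  rw [hmap, Subgroup.index_map_equiv, hprod, Subgroup.index_prod, index_range_pow_int]

end Group

section Field

variable {O : Type*} [CommRing O] [IsDomain O] [IsDiscreteValuationRing O]
variable (E : Type*) [Field E] [Algebra O E] [IsFractionRing O E]

/-- the image of `Oˣ` in `Eˣ` -/
def unitsO : Subgroup Eˣ := (Units.map (algebraMap O E : O →* E)).range

variable {E}

theorem exists_zpow_mul {ϖ : O} (hirr : Irreducible ϖ) (a : Eˣ) :
    ∃ n : ℤ, ∃ k ∈ unitsO (O := O) E,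
      a = (Units.mk0 (algebraMap O E ϖ)
        ((map_ne_zero_iff _ (IsFractionRing.injective O E)).mpr hirr.ne_zero)) ^ n * k := by
  obtain ⟨x, y, hy, hxy⟩ := IsFractionRing.div_surjective (A := O) (a : E)
  have hy0 : y ≠ 0 := nonZeroDivisors.ne_zero hy
  have hx0 : x ≠ 0 := by
    rintro rfl
    rw [map_zero, zero_div] at hxy
    exact a.ne_zero hxy.symm
  obtain ⟨i, u, hu⟩ := IsDiscreteValuationRing.eq_unit_mul_pow_irreducible hx0 hirr
  obtain ⟨j, w, hw⟩ := IsDiscreteValuationRing.eq_unit_mul_pow_irreducible hy0 hirr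
  refine ⟨(i : ℤ) - j, Units.map (algebraMap O E : O →* E) (u * w⁻¹), ⟨_, rfl⟩, ?_⟩
  apply Units.ext
  have hϖ0 : algebraMap O E ϖ ≠ 0 :=
    (map_ne_zero_iff _ (IsFractionRing.injective O E)).mpr hirr.ne_zero
  have hw0 : algebraMap O E (w : O) ≠ 0 :=
    (map_ne_zero_iff _ (IsFractionRing.injective O E)).mpr w.ne_zero
  rw [Units.val_mul, Units.val_zpow_eq_zpow_val, Units.val_mk0, Units.coe_map, ← hxy, hu, hw,
    zpow_sub₀ hϖ0, zpow_natCast, zpow_natCast, map_mul, map_mul, map_pow, map_pow, Units.val_mul,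
    MonoidHom.coe_coe, map_mul]
  have hinv : algebraMap O E ((w⁻¹ : Oˣ) : O) = (algebraMap O E (w : O))⁻¹ := by
    rw [eq_comm, inv_eq_iff_eq_inv, ← one_div, eq_div_iff (by rw [← map_ne_zero_iff _ (IsFractionRing.injective O E)] at *; exact (map_ne_zero_iff _ (IsFractionRing.injective O E)).mpr (w⁻¹).ne_zero), ← map_mul, Units.mul_inv, map_one]
  rw [hinv]
  field_simp

theorem zpow_mem_unitsO {ϖ : O} (hirr : Irreducible ϖ) (n : ℤ)
    (h : (Units.mk0 (algebraMap O E ϖ)
        ((map_ne_zero_iff _ (IsFractionRing.injective O E)).mpr hirr.ne_zero)) ^ n ∈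
      unitsO (O := O) E) : n = 0 := by
  -- reduce to a natural exponent
  have key : ∀ m : ℕ, (Units.mk0 (algebraMap O E ϖ)
        ((map_ne_zero_iff _ (IsFractionRing.injective O E)).mpr hirr.ne_zero)) ^ m ∈
      unitsO (O := O) E → m = 0 := by
    intro m hm
    obtain ⟨u, hu⟩ := hm
    have h1 : algebraMap O E (u : O) = algebraMap O E (ϖ ^ m) := by
      have := congrArg (fun v : Eˣ => (v : E)) hu
      simp only [Units.coe_map, MonoidHom.coe_coe, Units.val_pow_eq_pow_val, Units.val_mk0] at this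
      rw [this, map_pow]
    have h2 : (u : O) = ϖ ^ m := IsFractionRing.injective O E h1
    by_contra hm0
    have : IsUnit (ϖ ^ m) := h2 ▸ u.isUnit
    exact hirr.not_isUnit (isUnit_of_dvd_unit (dvd_pow_self ϖ hm0) this)
  rcases Int.natAbs_eq n with hn | hn
  · rw [hn, zpow_natCast] at h
    rw [hn, key _ h]; rfl
  · rw [hn, zpow_neg, zpow_natCast] at h
    have h' := (unitsO (O := O) E).inv_mem h
    rw [inv_inv] at h'
    rw [hn, key _ h']; rfl

end Field

section Final

variable {O : Type*} [CommRing O] [IsDomain O] [IsDiscreteValuationRing O]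
variable (E : Type*) [Field E] [Algebra O E] [IsFractionRing O E] (p : ℕ)

/-- `Oˣ ≃* unitsO E` -/
def unitsEquiv : Oˣ ≃* unitsO (O := O) E :=
  MonoidHom.ofInjective (f := Units.map (algebraMap O E : O →* E))
    (Units.map_injective (IsFractionRing.injective O E))

theorem index_range_pow_unitsO :
    (powMonoidHom p : unitsO (O := O) E →* unitsO (O := O) E).range.index =
      (powMonoidHom p : Oˣ →* Oˣ).range.index := by
  have hmap : (powMonoidHom p : unitsO (O := O) E →* unitsO (O := O) E).range =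
      ((powMonoidHom p : Oˣ →* Oˣ).range).map (unitsEquiv (O := O) E : Oˣ →* unitsO (O := O) E) := by
    ext a
    constructor
    · rintro ⟨b, rfl⟩
      obtain ⟨x, rfl⟩ := (unitsEquiv (O := O) E).surjective b
      exact ⟨x ^ p, ⟨x, rfl⟩, by simp⟩
    · rintro ⟨_, ⟨x, rfl⟩, rfl⟩
      exact ⟨unitsEquiv (O := O) E x, by simp⟩
  rw [hmap, Subgroup.index_map_equiv]

/-- roots of unity of `E` are integral, hence lie in `O`. -/
theorem card_rootsOfUnity_eq [NeZero p] :
    Nat.card (rootsOfUnity p E) = Nat.card (rootsOfUnity p O) := by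
  symm
  refine Nat.card_congr (Equiv.ofBijective (restrictRootsOfUnity (algebraMap O E) p) ⟨?_, ?_⟩)
  · intro a b hab
    have h1 : ((restrictRootsOfUnity (algebraMap O E) p a : Eˣ) : E) =
        ((restrictRootsOfUnity (algebraMap O E) p b : Eˣ) : E) := by rw [hab]
    rw [restrictRootsOfUnity_coe_apply, restrictRootsOfUnity_coe_apply] at h1
    exact Subtype.ext (Units.ext (IsFractionRing.injective O E h1))
  · intro ζ
    have hζ : ((ζ : Eˣ) : E) ^ p = 1 := by
      have := (mem_rootsOfUnity p (ζ : Eˣ)).mp ζ.2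
      rw [← Units.val_pow_eq_pow_val, this]; rfl
    have hint : IsIntegral O ((ζ : Eˣ) : E) :=
      IsIntegral.of_pow (NeZero.pos p) (by rw [hζ]; exact isIntegral_one)
    obtain ⟨x, hx⟩ := IsIntegrallyClosed.isIntegral_iff.mp hint
    have hxp : x ^ p = 1 := by
      apply IsFractionRing.injective O E
      rw [map_pow, hx, hζ, map_one]
    have hxu : IsUnit x := IsUnit.of_pow_eq_one hxp (NeZero.ne p)
    refine ⟨⟨hxu.unit, ?_⟩, ?_⟩
    · rw [mem_rootsOfUnity]
      apply Units.ext
      rw [Units.val_pow_eq_pow_val, IsUnit.unit_spec, hxp]; rfl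
    · apply Subtype.ext
      apply Units.ext
      rw [restrictRootsOfUnity_coe_apply]
      show algebraMap O E (hxu.unit : O) = _
      rw [IsUnit.unit_spec, hx]

variable [IsAdicComplete (maximalIdeal O) O] [Finite (ResidueField O)] [CharZero O]
  [hp : Fact p.Prime]

/-- **(P3), index form**: `[Eˣ : Eˣᵖ] = p · #μ_p(E) · #(O/pO)`. -/
theorem index_range_pow_field :
    (powMonoidHom p : Eˣ →* Eˣ).range.index =
      p * Nat.card (rootsOfUnity p E) * Nat.card (O ⧸ Ideal.span {(p : O)}) := by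
  haveI : NeZero p := ⟨hp.out.ne_zero⟩
  obtain ⟨ϖ, hirr⟩ := IsDiscreteValuationRing.exists_irreducible O
  rw [index_range_pow_of_decomp (unitsO (O := O) E) _ p (exists_zpow_mul (O := O) (E := E) hirr)
    (zpow_mem_unitsO (O := O) (E := E) hirr), index_range_pow_unitsO (O := O) E p,
    index_range_pow, card_rootsOfUnity_eq (O := O) E p, mul_assoc]

/-- **(P3)**: `#(Eˣ / Eˣᵖ) = p · #μ_p(E) · #(O/pO)`. -/
theorem card_fieldUnits_quot_pow :
    Nat.card (Eˣ ⧸ (powMonoidHom p : Eˣ →* Eˣ).range) =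
      p * Nat.card (rootsOfUnity p E) * Nat.card (O ⧸ Ideal.span {(p : O)}) := by
  rw [← Subgroup.index_eq_card]
  exact index_range_pow_field (O := O) E p

variable (O) in
/-- finiteness of `O/pO` -/
theorem finite_quotient_p : Finite (O ⧸ Ideal.span {(p : O)}) :=
  finite_quotient_span (Nat.cast_ne_zero.mpr hp.out.ne_zero)

end Final

section FinalFinite

/-- `[Eˣ : Eˣᵖ] ≠ 0` for the fraction field `E` of a complete DVR `O` of characteristic zero with
finite residue field. `O` is explicit since it does not occur in the conclusion. -/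
theorem index_range_pow_field_ne_zero (O : Type*) [CommRing O] [IsDomain O]
    [IsDiscreteValuationRing O] [IsAdicComplete (maximalIdeal O) O] [Finite (ResidueField O)]
    [CharZero O] (E : Type*) [Field E] [Algebra O E] [IsFractionRing O E] (p : ℕ)
    [hp : Fact p.Prime] : (powMonoidHom p : Eˣ →* Eˣ).range.index ≠ 0 := by
  haveI : NeZero p := ⟨hp.out.ne_zero⟩
  haveI := finite_quotient_p O p
  rw [index_range_pow_field (O := O) E p]
  have h1 : Nat.card (rootsOfUnity p E) ≠ 0 := Nat.card_pos.ne'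
  have h2 : Nat.card (O ⧸ Ideal.span {(p : O)}) ≠ 0 := Nat.card_pos.ne'
  exact mul_ne_zero (mul_ne_zero hp.out.ne_zero h1) h2

theorem finite_fieldUnits_quot_pow (O : Type*) [CommRing O] [IsDomain O]
    [IsDiscreteValuationRing O] [IsAdicComplete (maximalIdeal O) O] [Finite (ResidueField O)]
    [CharZero O] (E : Type*) [Field E] [Algebra O E] [IsFractionRing O E] (p : ℕ)
    [Fact p.Prime] : Finite (Eˣ ⧸ (powMonoidHom p : Eˣ →* Eˣ).range) := by
  haveI : (powMonoidHom p : Eˣ →* Eˣ).range.FiniteIndex :=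
    ⟨index_range_pow_field_ne_zero O E p⟩
  exact Subgroup.finite_quotient_of_finiteIndex

end FinalFinite

end Fermat.Agent.S55.LocPow39
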