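/-
S55 / leaf 14c-LOC-POW-LF (helper39): the index of `p`-th powers in a finite extension `L` of
`ℚ_[q]` inside `PadicAlgCl q` (the `LocField17` model).

* `isIntegralClosure`        : `intRing L` is the integral closure of `ℤ_[q]` in `L`;
* `finrank_intRing`          : it is a free `ℤ_[q]`-module of rank `[L : ℚ_q]`;
* `card_quot_self`           : `#(O_L / q) = q ^ [L : ℚ_q]`;
* `card_quot_of_ne`          : `#(O_L / p) = 1` for `p ≠ q`;
* `card_units_quot_pow_self` : `#(Lˣ / Lˣ^q) = q · #μ_q(L) · q ^ [L : ℚ_q]`;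
* `card_units_quot_pow_of_ne`: `#(Lˣ / Lˣ^p) = p · #μ_p(L)` for `p ≠ q`.
-/
import Mathlib
import Fermat.Agent.S55.LocField17.Int
import Fermat.Agent.S55.LocPow39

set_option autoImplicit false
set_option linter.unusedSectionVars false
set_option linter.style.haveILetI false

noncomputable section

namespace Fermat.Agent.S55.LocPowLF39

open Fermat.Agent.S55.LocField17 Module Polynomial

variable {q : ℕ} [Fact q.Prime] (L : LF q)

/-! ### (I1) `intRing L` is the integral closure of `ℤ_[q]` -/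

theorem algebraMap_field_apply (x : ℤ_[q]) :
    algebraMap ℤ_[q] L x = algebraMap ℚ_[q] L (x : ℚ_[q]) :=
  IsScalarTower.algebraMap_apply ℤ_[q] ℚ_[q] L x

theorem norm_algebraMap_le_one (x : ℤ_[q]) :
    ‖((algebraMap ℤ_[q] L x : L) : PadicAlgCl q)‖ ≤ 1 := by
  have h : ((algebraMap ℚ_[q] L (x : ℚ_[q]) : L) : PadicAlgCl q) =
      algebraMap ℚ_[q] (PadicAlgCl q) (x : ℚ_[q]) := rfl
  rw [algebraMap_field_apply, h, PadicAlgCl.norm_extends]
  exact x.norm_le_one

/-- the structure map `ℤ_[q] → O_L`. -/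
def intHom : ℤ_[q] →+* intRing L where
  toFun x := ⟨algebraMap ℤ_[q] L x, mem_intRing.mpr (norm_algebraMap_le_one L x)⟩
  map_one' := Subtype.ext (by simp)
  map_mul' x y := Subtype.ext (by simp)
  map_zero' := Subtype.ext (by simp)
  map_add' x y := Subtype.ext (by simp)

/-- `O_L` as a `ℤ_[q]`-algebra (a `def`; local instance in this file only). -/
@[reducible] def algInt : Algebra ℤ_[q] (intRing L) := (intHom L).toAlgebra

attribute [local instance] algInt

theorem tower_int : IsScalarTower ℤ_[q] (intRing L) L := IsScalarTower.of_algebraMap_eq' rfl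

attribute [local instance] tower_int

theorem algebraMap_int_apply (x : ℤ_[q]) :
    ((algebraMap ℤ_[q] (intRing L) x : intRing L) : L) = algebraMap ℤ_[q] L x := rfl

/-- the coefficients of the minimal polynomial of an integer have norm `≤ 1`. -/
theorem norm_coeff_minpoly_le_one {x : L} (hx : x ∈ intRing L) (n : ℕ) :
    ‖(minpoly ℚ_[q] x).coeff n‖ ≤ 1 := by
  set f := minpoly ℚ_[q] x with hf
  have hmin : minpoly ℚ_[q] ((x : L) : PadicAlgCl q) = f :=
    minpoly.algebraMap_eq (algebraMap L (PadicAlgCl q)).injective x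
  have hx1 : ‖((x : L) : PadicAlgCl q)‖ ≤ 1 := mem_intRing.mp hx
  have hsv : spectralValue f ≤ 1 := by
    rw [← hmin]
    exact (PadicAlgCl.spectralNorm_eq q ((x : L) : PadicAlgCl q)).le.trans hx1
  have hmonic : f.Monic := minpoly.monic (Algebra.IsIntegral.isIntegral x)
  rcases lt_trichotomy n f.natDegree with hn | hn | hn
  · have h1 : spectralValueTerms f n ≤ 1 :=
      (le_ciSup (spectralValueTerms_bddAbove f) n).trans hsv
    rw [spectralValueTerms, if_pos hn] at h1
    by_contra hc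
    rw [not_le] at hc
    have hpos : (0 : ℝ) < 1 / ((f.natDegree : ℝ) - n) := by
      apply one_div_pos.mpr
      rw [sub_pos]
      exact_mod_cast hn
    exact absurd h1 (not_le.mpr (Real.one_lt_rpow hc hpos))
  · rw [hn, hmonic.coeff_natDegree, norm_one]
  · rw [coeff_eq_zero_of_natDegree_lt hn, norm_zero]
    exact zero_le_one

theorem isIntegral_of_mem {x : L} (hx : x ∈ intRing L) : IsIntegral ℤ_[q] x := by
  set f := minpoly ℚ_[q] x with hf
  have hmonic : f.Monic := minpoly.monic (Algebra.IsIntegral.isIntegral x)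
  have hlift : f ∈ lifts (algebraMap ℤ_[q] ℚ_[q]) := by
    rw [lifts_iff_coeff_lifts]
    intro n
    exact ⟨⟨f.coeff n, norm_coeff_minpoly_le_one L hx n⟩, rfl⟩
  obtain ⟨g, hg, -, hgm⟩ := lifts_and_degree_eq_and_monic hlift hmonic
  refine ⟨g, hgm, ?_⟩
  have h1 : aeval x g = aeval x (g.map (algebraMap ℤ_[q] ℚ_[q])) :=
    (aeval_map_algebraMap ℚ_[q] x g).symm
  show aeval x g = 0
  rw [h1, hg, hf, minpoly.aeval]

/-- a root of a monic polynomial with coefficients of valuation `≤ 1` has valuation `≤ 1`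
(`Valuation.Integers.isIntegral_iff_v_le_one` without the surjectivity hypothesis). -/
theorem valuation_le_one_of_monic_root {O R Γ₀ : Type*} [CommRing O] [CommRing R]
    [LinearOrderedCommGroupWithZero Γ₀] (v : Valuation R Γ₀) (φ : O →+* R)
    (hφ : ∀ a, v (φ a) ≤ 1) {f : O[X]} (hm : f.Monic) {x : R} (hf : eval₂ φ x f = 0) :
    v x ≤ 1 := by
  nontriviality R
  by_cases hn : f.natDegree = 0
  · rw [Polynomial.natDegree_eq_zero] at hn
    obtain ⟨c, rfl⟩ := hn
    have hc : c = 1 := by simpa [Polynomial.Monic, Polynomial.leadingCoeff_C] using hm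
    subst hc
    simp at hf
  simp only [Polynomial.eval₂_eq_sum_range, Finset.sum_range_succ, hm.coeff_natDegree, map_one,
    one_mul, add_eq_zero_iff_eq_neg] at hf
  apply_fun v at hf
  simp only [Valuation.map_neg, map_pow] at hf
  contrapose! hf
  refine ne_of_lt (v.map_sum_lt ?_ ?_)
  · simp [hn, (hf.trans' (zero_lt_one)).ne']
  · simp only [Finset.mem_range, map_mul, map_pow]
    intro _ hi
    exact mul_lt_of_le_one_of_lt (hφ _) <| pow_lt_pow_right₀ hf hi

theorem mem_of_isIntegral {x : L} (hx : IsIntegral ℤ_[q] x) : x ∈ intRing L := by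
  obtain ⟨g, hgm, hgx⟩ := hx
  have h2 := congrArg (algebraMap L (PadicAlgCl q)) hgx
  rw [Polynomial.hom_eval₂, map_zero] at h2
  have := valuation_le_one_of_monic_root (Valued.v : Valuation (PadicAlgCl q) NNReal)
    ((algebraMap L (PadicAlgCl q)).comp (algebraMap ℤ_[q] L)) (fun a => ?_) hgm h2
  · exact this
  · exact (mem_intRing (L := L)).mpr (norm_algebraMap_le_one L a)

theorem mem_intRing_iff_isIntegral (x : L) : x ∈ intRing L ↔ IsIntegral ℤ_[q] x :=
  ⟨isIntegral_of_mem L, mem_of_isIntegral L⟩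

theorem isIntegralClosure : IsIntegralClosure (intRing L) ℤ_[q] L where
  algebraMap_injective := Subtype.val_injective
  isIntegral_iff {x} := by
    rw [← mem_intRing_iff_isIntegral]
    constructor
    · intro hx
      exact ⟨⟨x, hx⟩, rfl⟩
    · rintro ⟨y, rfl⟩
      exact y.2

theorem algebraMap_field_injective : Function.Injective (algebraMap ℤ_[q] L) := by
  intro a b hab
  rw [algebraMap_field_apply, algebraMap_field_apply] at hab
  exact Subtype.ext ((algebraMap ℚ_[q] L).injective hab)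

theorem torsionFree_field : Module.IsTorsionFree ℤ_[q] L :=
  Module.isTorsionFree_iff_algebraMap_injective.mpr (algebraMap_field_injective L)

variable [FiniteDimensional ℚ_[q] L]

theorem finite_intRing : Module.Finite ℤ_[q] (intRing L) :=
  haveI := isIntegralClosure L
  IsIntegralClosure.finite ℤ_[q] ℚ_[q] L (intRing L)

theorem free_intRing : Module.Free ℤ_[q] (intRing L) :=
  haveI := isIntegralClosure L
  haveI := torsionFree_field L
  IsIntegralClosure.module_free ℤ_[q] ℚ_[q] L (intRing L)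

theorem finrank_intRing : finrank ℤ_[q] (intRing L) = finrank ℚ_[q] L :=
  haveI := isIntegralClosure L
  haveI := torsionFree_field L
  IsIntegralClosure.rank ℤ_[q] ℚ_[q] L (intRing L)

/-! ### (I2) the order of `O_L / p` -/

theorem card_quotient_smul_top {R M : Type*} [CommRing R] [AddCommGroup M] [Module R M]
    [Module.Free R M] [Module.Finite R M] [Nontrivial R] (I : Ideal R) [I.IsMaximal] :
    Nat.card (M ⧸ (I • ⊤ : Submodule R M)) = Nat.card (R ⧸ I) ^ finrank R M := by
  letI : Field (R ⧸ I) := Ideal.Quotient.field I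
  rw [← Nat.card_congr (TensorProduct.quotTensorEquivQuotSMul M I).toEquiv,
    Module.natCard_eq_pow_finrank (K := R ⧸ I), Module.finrank_baseChange]

theorem card_quotient_span_algebraMap {R O : Type*} [CommRing R] [CommRing O] [Algebra R O]
    [Module.Free R O] [Module.Finite R O] [Nontrivial R] (a : R) [(Ideal.span {a}).IsMaximal] :
    Nat.card (O ⧸ Ideal.span {algebraMap R O a}) =
      Nat.card (R ⧸ Ideal.span {a}) ^ finrank R O := by
  rw [← card_quotient_smul_top (M := O) (Ideal.span {a})]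
  have h : (Ideal.span {algebraMap R O a}).restrictScalars R =
      (Ideal.span {a} • ⊤ : Submodule R O) := by
    ext x
    rw [Submodule.restrictScalars_mem, Ideal.mem_span_singleton',
      Submodule.ideal_span_singleton_smul, Submodule.mem_smul_pointwise_iff_exists]
    constructor
    · rintro ⟨y, rfl⟩
      exact ⟨y, Submodule.mem_top, by rw [Algebra.smul_def, mul_comm]⟩
    · rintro ⟨y, -, rfl⟩
      exact ⟨y, by rw [Algebra.smul_def, mul_comm]⟩
  refine Nat.card_congr ?_
  exact ((Submodule.Quotient.restrictScalarsEquiv R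
    (Ideal.span {algebraMap R O a})).symm.toEquiv).trans (Submodule.quotEquivOfEq _ _ h).toEquiv

theorem card_padicInt_quot : Nat.card (ℤ_[q] ⧸ Ideal.span {(q : ℤ_[q])}) = q := by
  rw [← PadicInt.maximalIdeal_eq_span_p]
  have e : (ℤ_[q] ⧸ IsLocalRing.maximalIdeal ℤ_[q]) ≃ ZMod q :=
    (PadicInt.residueField (p := q)).toEquiv
  rw [Nat.card_congr e, Nat.card_zmod]

/-- `#(O_L / q) = q ^ [L : ℚ_q]`. -/
theorem card_quot_self :
    Nat.card (intRing L ⧸ Ideal.span {(q : intRing L)}) = q ^ finrank ℚ_[q] L := by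
  haveI := finite_intRing L
  haveI := free_intRing L
  haveI : (Ideal.span {(q : ℤ_[q])}).IsMaximal := by
    rw [← PadicInt.maximalIdeal_eq_span_p]
    exact IsLocalRing.maximalIdeal.isMaximal _
  have h := card_quotient_span_algebraMap (R := ℤ_[q]) (O := intRing L) (q : ℤ_[q])
  rw [map_natCast, card_padicInt_quot, finrank_intRing] at h
  exact h

omit [FiniteDimensional ℚ_[q] L] in
/-- a natural number prime to `q` is a unit of `O_L`. -/
theorem isUnit_natCast_of_coprime {n : ℕ} (hn : q.Coprime n) : IsUnit (n : intRing L) := by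
  rw [LocField17.isUnit_iff]
  have h : (((n : intRing L) : L) : PadicAlgCl q) = algebraMap ℚ_[q] (PadicAlgCl q) (n : ℚ_[q]) := by
    simp
  rw [h, PadicAlgCl.norm_extends, Padic.norm_natCast_eq_one_iff]
  exact hn

omit [FiniteDimensional ℚ_[q] L] in
/-- `#(O_L / n) = 1` for `n` prime to `q`. -/
theorem card_quot_of_coprime {n : ℕ} (hn : q.Coprime n) :
    Nat.card (intRing L ⧸ Ideal.span {(n : intRing L)}) = 1 := by
  rw [Ideal.span_singleton_eq_top.mpr (isUnit_natCast_of_coprime L hn)]
  haveI : Subsingleton (intRing L ⧸ (⊤ : Ideal (intRing L))) :=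
    Ideal.Quotient.subsingleton_iff.mpr rfl
  exact Nat.card_unique

omit [FiniteDimensional ℚ_[q] L] in
/-- `#(O_L / p) = 1` for a prime `p ≠ q`. -/
theorem card_quot_of_ne (p : ℕ) [hp : Fact p.Prime] (h : p ≠ q) :
    Nat.card (intRing L ⧸ Ideal.span {(p : intRing L)}) = 1 :=
  card_quot_of_coprime L ((Nat.coprime_primes (Fact.out : q.Prime) hp.out).mpr h.symm)

/-! ### (I3) `p`-th powers in `Lˣ` -/

/-- `#(Lˣ / Lˣ^q) = q · #μ_q(L) · q ^ [L : ℚ_q]`. -/
theorem card_units_quot_pow_self :
    Nat.card (Lˣ ⧸ (powMonoidHom q : Lˣ →* Lˣ).range) =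
      q * Nat.card (rootsOfUnity q L) * q ^ finrank ℚ_[q] L := by
  rw [LocPow39.card_fieldUnits_quot_pow (O := intRing L) L q, card_quot_self]

/-- `#(Lˣ / Lˣ^p) = p · #μ_p(L)` for a prime `p ≠ q`. -/
theorem card_units_quot_pow_of_ne (p : ℕ) [Fact p.Prime] (h : p ≠ q) :
    Nat.card (Lˣ ⧸ (powMonoidHom p : Lˣ →* Lˣ).range) = p * Nat.card (rootsOfUnity p L) := by
  rw [LocPow39.card_fieldUnits_quot_pow (O := intRing L) L p, card_quot_of_ne L p h, mul_one]

theorem finite_units_quot_pow (p : ℕ) [Fact p.Prime] :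
    Finite (Lˣ ⧸ (powMonoidHom p : Lˣ →* Lˣ).range) :=
  LocPow39.finite_fieldUnits_quot_pow (intRing L) L p

/-- `#(Lˣ / Lˣ^q) = q ^ ([L : ℚ_q] + 2)` when `μ_q ⊆ L`. -/
theorem card_units_quot_pow_self_of_primitiveRoot {ζ : L} (hζ : IsPrimitiveRoot ζ q) :
    Nat.card (Lˣ ⧸ (powMonoidHom q : Lˣ →* Lˣ).range) = q ^ (finrank ℚ_[q] L + 2) := by
  haveI : NeZero q := ⟨(Fact.out : q.Prime).ne_zero⟩
  rw [card_units_quot_pow_self, hζ.card_rootsOfUnity]
  ring

/-- `#(Lˣ / Lˣ^p) = p ^ 2` when `p ≠ q` and `μ_p ⊆ L`. -/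
theorem card_units_quot_pow_of_ne_of_primitiveRoot (p : ℕ) [hp : Fact p.Prime] (h : p ≠ q) {ζ : L}
    (hζ : IsPrimitiveRoot ζ p) :
    Nat.card (Lˣ ⧸ (powMonoidHom p : Lˣ →* Lˣ).range) = p ^ 2 := by
  haveI : NeZero p := ⟨hp.out.ne_zero⟩
  rw [card_units_quot_pow_of_ne L p h, hζ.card_rootsOfUnity]
  ring

end Fermat.Agent.S55.LocPowLF39
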