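/-
S55 / leaf 14d-LOC-DEG-SUM (helper39): `Σ_{v | p} [K_v : ℚ_p] = [K : ℚ]` in orbit form.

`K` a number field, `X := K →+* PadicAlgCl p` its `p`-adic embeddings, on which
`G_p = Gal(PadicAlgCl p / ℚ_p)` acts by post-composition.  For `σ : X` the local field is
`locField p σ := ℚ_p(σ K) : LF p` (the `LocField17` model).

* `card_orbit`            : `#(G_p · σ) = [ℚ_p(σ K) : ℚ_p]`;
* `card_embeddings`       : `#X = [K : ℚ]`;
* `sum_finrank_locField`  : for representatives `rep : ι → X` of the orbits,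
                            `∑ i, [ℚ_p(rep i K) : ℚ_p] = [K : ℚ]`;
* `prod_card_units_quot_pow` : if `μ_p ⊆ K`,
                            `∏ i, #(K_iˣ / K_iˣᵖ) = p ^ (2 #ι + [K : ℚ])`.
-/
import Mathlib
import Fermat.Agent.S55.LocField17.Int
import Fermat.Agent.S55.LocPowLF39

set_option autoImplicit false
set_option linter.unusedSectionVars false
set_option linter.style.haveILetI false

noncomputable section

namespace Fermat.Agent.S55.LocDegSum39

open Fermat.Agent.S55.LocField17 Module

variable (p : ℕ) [Fact p.Prime] {K : Type*} [Field K] [NumberField K]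

/-! ### (D0) the local field of an embedding -/

/-- the local field `ℚ_p(σ K)` generated by the image of a `p`-adic embedding. -/
def locField (σ : K →+* PadicAlgCl p) : LF p := IntermediateField.adjoin ℚ_[p] (Set.range σ)

theorem mem_locField (σ : K →+* PadicAlgCl p) (x : K) : σ x ∈ locField p σ :=
  IntermediateField.subset_adjoin _ _ ⟨x, rfl⟩

/-- `σ` with codomain restricted to its local field. -/
def toLocField (σ : K →+* PadicAlgCl p) : K →+* locField p σ :=
  σ.codRestrict (locField p σ) (mem_locField p σ)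

@[simp] theorem coe_toLocField (σ : K →+* PadicAlgCl p) (x : K) :
    ((toLocField p σ x : locField p σ) : PadicAlgCl p) = σ x := rfl

theorem ratCast_mem (E : LF p) (c : ℚ) : ((c : PadicAlgCl p)) ∈ E := by
  rw [← map_ratCast (algebraMap ℚ_[p] (PadicAlgCl p)) c]
  exact E.algebraMap_mem _

theorem locField_eq_adjoin_basis {ι : Type*} [Fintype ι] (b : Basis ι ℚ K)
    (σ : K →+* PadicAlgCl p) :
    locField p σ = IntermediateField.adjoin ℚ_[p] (Set.range (σ ∘ b)) := by
  apply le_antisymm
  · rw [locField, IntermediateField.adjoin_le_iff]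
    rintro _ ⟨x, rfl⟩
    rw [← b.sum_repr x, map_sum]
    refine sum_mem (fun i _ => ?_)
    rw [Algebra.smul_def, map_mul]
    refine mul_mem ?_ (IntermediateField.subset_adjoin _ _ ⟨i, rfl⟩)
    rw [eq_ratCast (algebraMap ℚ K), map_ratCast]
    exact ratCast_mem p _ _
  · apply IntermediateField.adjoin.mono
    rintro _ ⟨i, rfl⟩
    exact ⟨b i, rfl⟩

instance finiteDimensional_locField (σ : K →+* PadicAlgCl p) :
    FiniteDimensional ℚ_[p] (locField p σ) := by
  rw [locField_eq_adjoin_basis p (Module.finBasis ℚ K) σ]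
  exact IntermediateField.finiteDimensional_adjoin
    (fun x _ => Algebra.IsIntegral.isIntegral x)

/-! ### (D1) the action of `G_p` on the embeddings -/

/-- `G_p` acts on the `p`-adic embeddings by post-composition (a `def`; local instance here). -/
@[reducible] def conjAct : MulAction (Gq p) (K →+* PadicAlgCl p) where
  smul τ σ := (τ.toAlgHom : PadicAlgCl p →+* PadicAlgCl p).comp σ
  one_smul _ := rfl
  mul_smul _ _ _ := rfl

attribute [local instance] conjAct

theorem smul_apply (τ : Gq p) (σ : K →+* PadicAlgCl p) (x : K) : (τ • σ) x = τ (σ x) := rfl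

/-- every `ℚ_p`-embedding of a subfield of `PadicAlgCl p` extends to an automorphism. -/
theorem exists_algEquiv_extending (E : LF p) (f : E →ₐ[ℚ_[p]] PadicAlgCl p) :
    ∃ τ : Gq p, ∀ x : E, τ x = f x := by
  let g : PadicAlgCl p →ₐ[ℚ_[p]] PadicAlgCl p := f.liftNormal (PadicAlgCl p)
  have hg : Function.Bijective g := Algebra.IsAlgebraic.algHom_bijective g
  refine ⟨AlgEquiv.ofBijective g hg, fun x => ?_⟩
  exact f.liftNormal_commutes (PadicAlgCl p) x

/-! ### (D2) orbits -/

/-- restriction of embeddings of the local field to `K`. -/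
def restrictEmb (σ : K →+* PadicAlgCl p) (f : locField p σ →ₐ[ℚ_[p]] PadicAlgCl p) :
    K →+* PadicAlgCl p :=
  (f : locField p σ →+* PadicAlgCl p).comp (toLocField p σ)

theorem restrictEmb_apply (σ : K →+* PadicAlgCl p) (f : locField p σ →ₐ[ℚ_[p]] PadicAlgCl p)
    (x : K) : restrictEmb p σ f x = f (toLocField p σ x) := rfl

theorem restrictEmb_injective (σ : K →+* PadicAlgCl p) :
    Function.Injective (restrictEmb p σ) := by
  intro f g hfg
  refine IntermediateField.adjoin_algHom_ext ℚ_[p] (s := Set.range σ) ?_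
  rintro _ ⟨k, rfl⟩
  exact congrArg (fun h : K →+* PadicAlgCl p => h k) hfg

theorem range_restrictEmb (σ : K →+* PadicAlgCl p) :
    Set.range (restrictEmb p σ) = MulAction.orbit (Gq p) σ := by
  ext ρ
  constructor
  · rintro ⟨f, rfl⟩
    obtain ⟨τ, hτ⟩ := exists_algEquiv_extending p (locField p σ) f
    refine ⟨τ, ?_⟩
    ext k
    exact hτ (toLocField p σ k)
  · rintro ⟨τ, rfl⟩
    refine ⟨τ.toAlgHom.comp (locField p σ).val, ?_⟩
    ext k
    rfl

/-- **orbit–degree formula**: `#(G_p · σ) = [ℚ_p(σ K) : ℚ_p]`. -/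
theorem card_orbit (σ : K →+* PadicAlgCl p) :
    Nat.card (MulAction.orbit (Gq p) σ) = finrank ℚ_[p] (locField p σ) := by
  rw [← range_restrictEmb, Nat.card_range_of_injective (restrictEmb_injective p σ),
    Nat.card_eq_fintype_card, AlgHom.card]

/-- `#Hom(K, PadicAlgCl p) = [K : ℚ]`. -/
theorem card_embeddings : Nat.card (K →+* PadicAlgCl p) = finrank ℚ K := by
  rw [Nat.card_congr (RingHom.equivRatAlgHom K (PadicAlgCl p)), Nat.card_eq_fintype_card,
    AlgHom.card]

instance finite_embeddings : Finite (K →+* PadicAlgCl p) :=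
  Finite.of_equiv _ (RingHom.equivRatAlgHom K (PadicAlgCl p)).symm

/-! ### (D3) the degree sum -/

section Sum

variable {ι : Type*} [Fintype ι] (rep : ι → (K →+* PadicAlgCl p))
  (hinj : ∀ i j, rep j ∈ MulAction.orbit (Gq p) (rep i) → i = j)
  (hsurj : ∀ σ : K →+* PadicAlgCl p, ∃ i, σ ∈ MulAction.orbit (Gq p) (rep i))

include hinj hsurj in
/-- the embeddings are the disjoint union of the orbits of the representatives. -/
theorem card_embeddings_eq_sum :
    Nat.card (K →+* PadicAlgCl p) = ∑ i, Nat.card (MulAction.orbit (Gq p) (rep i)) := by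
  rw [← Nat.card_sigma]
  symm
  refine Nat.card_congr (Equiv.ofBijective
    (fun x : (Σ i, MulAction.orbit (Gq p) (rep i)) => (x.2 : K →+* PadicAlgCl p)) ⟨?_, ?_⟩)
  · rintro ⟨i, x, hx⟩ ⟨j, y, hy⟩ hxy
    simp only at hxy
    subst hxy
    have hij : i = j := by
      apply hinj
      rw [← MulAction.orbit_eq_iff] at hx hy
      rw [← MulAction.orbit_eq_iff, ← hx, hy]
    subst hij
    rfl
  · intro σ
    obtain ⟨i, hi⟩ := hsurj σ
    exact ⟨⟨i, σ, hi⟩, rfl⟩

include hinj hsurj in
/-- **`Σ_{v | p} [K_v : ℚ_p] = [K : ℚ]`** for representatives `rep` of the `G_p`-orbits of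
embeddings `K → PadicAlgCl p` (= of the places of `K` over `p`). -/
theorem sum_finrank_locField :
    ∑ i, finrank ℚ_[p] (locField p (rep i)) = finrank ℚ K := by
  rw [← card_embeddings p, card_embeddings_eq_sum p rep hinj hsurj]
  exact Finset.sum_congr rfl (fun i _ => (card_orbit p (rep i)).symm)

/-- the image of a primitive root in the local field. -/
theorem isPrimitiveRoot_toLocField (σ : K →+* PadicAlgCl p) {ζ : K} {n : ℕ}
    (hζ : IsPrimitiveRoot ζ n) : IsPrimitiveRoot (toLocField p σ ζ) n :=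
  hζ.map_of_injective (toLocField p σ).injective

include hinj hsurj in
/-- **`hprod` at `p`**: `∏_{v | p} (K_vˣ : K_vˣᵖ) = p ^ (2 #{v | p} + [K : ℚ])` when `μ_p ⊆ K`. -/
theorem prod_card_units_quot_pow {ζ : K} (hζ : IsPrimitiveRoot ζ p) :
    ∏ i, Nat.card ((locField p (rep i))ˣ ⧸
        (powMonoidHom p : (locField p (rep i))ˣ →* (locField p (rep i))ˣ).range) =
      p ^ (2 * Fintype.card ι + finrank ℚ K) := by
  have h : ∀ i, Nat.card ((locField p (rep i))ˣ ⧸
      (powMonoidHom p : (locField p (rep i))ˣ →* (locField p (rep i))ˣ).range) =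
      p ^ (finrank ℚ_[p] (locField p (rep i)) + 2) := fun i =>
    LocPowLF39.card_units_quot_pow_self_of_primitiveRoot (locField p (rep i))
      (isPrimitiveRoot_toLocField p (rep i) hζ)
  simp_rw [h]
  rw [Finset.prod_pow_eq_pow_sum, Finset.sum_add_distrib,
    sum_finrank_locField p rep hinj hsurj, Finset.sum_const, Finset.card_univ, smul_eq_mul]
  ring_nf

end Sum

/-! ### the same over the orbit quotient -/

/-- `Σ_{orbits} [ℚ_p(σ K) : ℚ_p] = [K : ℚ]`, with `Quotient.out` representatives. -/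
theorem sum_finrank_locField_quotient
    [Fintype (MulAction.orbitRel.Quotient (Gq p) (K →+* PadicAlgCl p))] :
    ∑ ω : MulAction.orbitRel.Quotient (Gq p) (K →+* PadicAlgCl p),
      finrank ℚ_[p] (locField p (Quotient.out ω)) = finrank ℚ K := by
  refine sum_finrank_locField p (fun ω => Quotient.out ω) ?_ ?_
  · intro ω ω' h
    have h2 : (Quotient.mk'' (Quotient.out ω') :
        MulAction.orbitRel.Quotient (Gq p) (K →+* PadicAlgCl p)) = Quotient.mk'' (Quotient.out ω) :=
      Quotient.sound' ((MulAction.orbitRel_apply).mpr h)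
    rw [Quotient.out_eq', Quotient.out_eq'] at h2
    exact h2.symm
  · intro σ
    refine ⟨Quotient.mk'' σ, ?_⟩
    have : (Quotient.mk'' (Quotient.out (Quotient.mk'' σ :
        MulAction.orbitRel.Quotient (Gq p) (K →+* PadicAlgCl p))) :
        MulAction.orbitRel.Quotient (Gq p) (K →+* PadicAlgCl p)) = Quotient.mk'' σ :=
      Quotient.out_eq' _
    exact (MulAction.orbitRel_apply).mp (Quotient.exact' this.symm)

/-! ### instance-free forms (no `MulAction` in the hypotheses) -/

theorem mem_orbit_iff (σ ρ : K →+* PadicAlgCl p) :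
    ρ ∈ MulAction.orbit (Gq p) σ ↔ ∃ τ : Gq p, ∀ x, ρ x = τ (σ x) := by
  constructor
  · rintro ⟨τ, rfl⟩
    exact ⟨τ, fun _ => rfl⟩
  · rintro ⟨τ, hτ⟩
    exact ⟨τ, RingHom.ext fun x => (hτ x).symm⟩

section Sum'

variable {ι : Type*} [Fintype ι] (rep : ι → (K →+* PadicAlgCl p))
  (hinj : ∀ i j, (∃ τ : Gq p, ∀ x, rep j x = τ (rep i x)) → i = j)
  (hsurj : ∀ σ : K →+* PadicAlgCl p, ∃ i, ∃ τ : Gq p, ∀ x, σ x = τ (rep i x))

include hinj hsurj in
/-- `Σ_{v | p} [K_v : ℚ_p] = [K : ℚ]`, conjugacy hypotheses spelled out. -/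
theorem sum_finrank_locField' :
    ∑ i, finrank ℚ_[p] (locField p (rep i)) = finrank ℚ K :=
  sum_finrank_locField p rep (fun i j h => hinj i j ((mem_orbit_iff p _ _).mp h))
    (fun σ => (hsurj σ).imp fun _ h => (mem_orbit_iff p _ _).mpr h)

include hinj hsurj in
/-- `hprod` at `p`, conjugacy hypotheses spelled out. -/
theorem prod_card_units_quot_pow' {ζ : K} (hζ : IsPrimitiveRoot ζ p) :
    ∏ i, Nat.card ((locField p (rep i))ˣ ⧸
        (powMonoidHom p : (locField p (rep i))ˣ →* (locField p (rep i))ˣ).range) =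
      p ^ (2 * Fintype.card ι + finrank ℚ K) :=
  prod_card_units_quot_pow p rep (fun i j h => hinj i j ((mem_orbit_iff p _ _).mp h))
    (fun σ => (hsurj σ).imp fun _ h => (mem_orbit_iff p _ _).mpr h) hζ

end Sum'

end Fermat.Agent.S55.LocDegSum39
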