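/-
S55 / leaf 14e-EMB-CONJ (helper39): `p`-adic embeddings of a number field inducing the same prime
are conjugate under `G_p = Gal(PadicAlgCl p / ℚ_p)`.  Completion-free.

* `norm_eq_of_unitBall_eq`  : same unit ball ⟹ same norm;
* `exists_conj_of_norm_eq`  : same norm ⟹ `σ' = τ ∘ σ` for some `τ ∈ G_p`;
* `conj_iff_unitBall_eq`;
* `sum_finrank_locField_of_unitBall`, `prod_card_units_quot_pow_of_unitBall` :
  the degree sum and the `hprod` count of `LocDegSum39` with hypotheses on unit balls (= primes).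
-/
import Mathlib
import Fermat.Agent.S55.LocField17.Int
import Fermat.Agent.S55.LocDegSum39

set_option autoImplicit false
set_option linter.unusedSectionVars false
set_option linter.style.haveILetI false

noncomputable section

namespace Fermat.Agent.S55.EmbConj39

open Fermat.Agent.S55.LocField17 Fermat.Agent.S55.LocDegSum39 Module Polynomial

variable (p : ℕ) [Fact p.Prime] {K : Type*} [Field K] [NumberField K]

/-! ### (E1) same unit ball ⟹ same norm -/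

/-- the absolute value `x ↦ ‖σ x‖` on `K`. -/
def absOf (σ : K →+* PadicAlgCl p) : AbsoluteValue K ℝ where
  toFun x := ‖σ x‖
  map_mul' x y := by rw [map_mul, norm_mul]
  nonneg' x := norm_nonneg _
  eq_zero' x := by rw [norm_eq_zero, map_eq_zero]
  add_le' x y := by rw [map_add]; exact norm_add_le _ _

@[simp] theorem absOf_apply (σ : K →+* PadicAlgCl p) (x : K) : absOf p σ x = ‖σ x‖ := rfl

theorem norm_natCast_p (σ : K →+* PadicAlgCl p) : ‖σ (p : K)‖ = (p : ℝ)⁻¹ := by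
  rw [map_natCast, ← map_natCast (algebraMap ℚ_[p] (PadicAlgCl p)), PadicAlgCl.norm_extends]
  exact Padic.norm_p

variable (σ σ' : K →+* PadicAlgCl p)

theorem isEquiv_of_unitBall_eq (h : ∀ x : K, ‖σ x‖ ≤ 1 ↔ ‖σ' x‖ ≤ 1) :
    (absOf p σ).IsEquiv (absOf p σ') := by
  rw [AbsoluteValue.isEquiv_iff_lt_one_iff]
  intro x
  rw [absOf_apply, absOf_apply]
  by_cases hx : x = 0
  · simp [hx]
  · have hn : 0 < ‖σ x‖ := norm_pos_iff.mpr ((_root_.map_ne_zero _).mpr hx)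
    have hn' : 0 < ‖σ' x‖ := norm_pos_iff.mpr ((_root_.map_ne_zero _).mpr hx)
    have h1 := h x⁻¹
    rw [map_inv₀, map_inv₀, norm_inv, norm_inv, inv_le_one₀ hn, inv_le_one₀ hn'] at h1
    rw [← not_le, ← not_le, h1]

theorem norm_eq_of_unitBall_eq (h : ∀ x : K, ‖σ x‖ ≤ 1 ↔ ‖σ' x‖ ≤ 1) (x : K) :
    ‖σ x‖ = ‖σ' x‖ := by
  have he := isEquiv_of_unitBall_eq p σ σ' h
  by_cases hx : x = 0
  · simp [hx]
  by_cases hx1 : absOf p σ x = 1
  · have := he.eq_one_iff.mp hx1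
    rw [absOf_apply] at hx1 this
    rw [hx1, this]
  · have hp0 : (p : K) ≠ 0 := Nat.cast_ne_zero.mpr (Fact.out : p.Prime).ne_zero
    have hpp : (1 : ℝ) < p := by exact_mod_cast (Fact.out : p.Prime).one_lt
    have hp1 : absOf p σ (p : K) ≠ 1 := by
      rw [absOf_apply, norm_natCast_p]
      exact (inv_lt_one_of_one_lt₀ hpp).ne
    have key := he.log_div_log_eq_log_div_log hp0 hp1 hx hx1
    rw [absOf_apply, absOf_apply, absOf_apply, absOf_apply, norm_natCast_p, norm_natCast_p] at key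
    have hlogp : Real.log ((p : ℝ)⁻¹) ≠ 0 := by
      rw [Real.log_inv, neg_ne_zero]
      exact (Real.log_pos hpp).ne'
    rw [div_self hlogp] at key
    have hn : 0 < ‖σ x‖ := norm_pos_iff.mpr ((_root_.map_ne_zero _).mpr hx)
    have hn' : 0 < ‖σ' x‖ := norm_pos_iff.mpr ((_root_.map_ne_zero _).mpr hx)
    have hlog' : Real.log ‖σ' x‖ ≠ 0 := by
      intro h0
      rw [h0, div_zero] at key
      exact zero_ne_one key
    have : Real.log ‖σ x‖ = Real.log ‖σ' x‖ := by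
      rw [div_eq_one_iff_eq hlog'] at key
      exact key
    exact Real.log_injOn_pos hn hn' this

/-! ### (E2) same norm ⟹ conjugate -/

/-- `σ (g₀(α)) = (g₀ ⊗ ℚ_p)(σ α)` for `g₀ ∈ ℚ[X]`. -/
theorem map_aeval_rat (g₀ : ℚ[X]) (α : K) :
    σ (aeval α g₀) = aeval (σ α) (g₀.map (algebraMap ℚ ℚ_[p])) := by
  rw [aeval_def, aeval_def, hom_eval₂, eval₂_map]
  congr 1
  exact RingHom.ext_rat _ _

/-- crude evaluation bound. -/
theorem norm_aeval_le {h : ℚ_[p][X]} {d : ℕ} (hd : h.natDegree ≤ d) {ε : ℝ}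
    (hε : ∀ i, ‖h.coeff i‖ ≤ ε) (β : PadicAlgCl p) :
    ‖aeval β h‖ ≤ (d + 1 : ℕ) * (ε * (max 1 ‖β‖) ^ d) := by
  rw [aeval_eq_sum_range' (Nat.lt_succ_of_le hd)]
  have h1 : ∀ i ∈ Finset.range (d + 1), ‖h.coeff i • β ^ i‖ ≤ ε * (max 1 ‖β‖) ^ d := by
    intro i hi
    rw [Algebra.smul_def, norm_mul, PadicAlgCl.norm_extends, norm_pow]
    have hε0 : 0 ≤ ε := (norm_nonneg _).trans (hε 0)
    refine mul_le_mul (hε i) ?_ (pow_nonneg (norm_nonneg _) _) hε0
    calc ‖β‖ ^ i ≤ (max 1 ‖β‖) ^ i := pow_le_pow_left₀ (norm_nonneg _) (le_max_right _ _) _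
      _ ≤ (max 1 ‖β‖) ^ d :=
        pow_le_pow_right₀ (le_max_left _ _) (Nat.lt_succ_iff.mp (Finset.mem_range.mp hi))
  refine (norm_sum_le_of_le _ h1).trans ?_
  rw [Finset.sum_const, Finset.card_range, nsmul_eq_mul]

/-- rational approximation of a `p`-adic polynomial. -/
theorem exists_rat_approx (g : ℚ_[p][X]) {ε : ℝ} (hε : 0 < ε) :
    ∃ g₀ : ℚ[X], (g₀.map (algebraMap ℚ ℚ_[p]) - g).natDegree ≤ g.natDegree ∧
      ∀ i, ‖(g₀.map (algebraMap ℚ ℚ_[p]) - g).coeff i‖ ≤ ε := by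
  choose r hr using fun i : ℕ => Padic.rat_dense p (g.coeff i) hε
  let g₀ : ℚ[X] := ∑ i ∈ Finset.range (g.natDegree + 1), monomial i (r i)
  have hcoeff : ∀ i, (g₀.map (algebraMap ℚ ℚ_[p])).coeff i =
      if i ∈ Finset.range (g.natDegree + 1) then ((r i : ℚ) : ℚ_[p]) else 0 := by
    intro i
    rw [coeff_map]
    simp only [g₀, finsetSum_coeff, coeff_monomial]
    rw [Finset.sum_ite_eq' (Finset.range (g.natDegree + 1)) i (fun j => r j)]
    split_ifs <;> simp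
  refine ⟨g₀, ?_, fun i => ?_⟩
  · rw [natDegree_le_iff_coeff_eq_zero]
    intro i hi
    rw [coeff_sub, hcoeff, if_neg (by simpa using hi), coeff_eq_zero_of_natDegree_lt hi, sub_zero]
  · rw [coeff_sub, hcoeff]
    split_ifs with hi
    · rw [norm_sub_rev]
      exact (hr i).le
    · rw [Finset.mem_range, not_lt] at hi
      rw [coeff_eq_zero_of_natDegree_lt hi, sub_zero, norm_zero]
      exact hε.le

theorem aeval_minpoly_eq_zero (h : ∀ x : K, ‖σ x‖ = ‖σ' x‖) (α : K) :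
    aeval (σ' α) (minpoly ℚ_[p] (σ α)) = 0 := by
  set g := minpoly ℚ_[p] (σ α) with hg
  set d := g.natDegree with hd
  by_contra hne
  have hδ : 0 < ‖aeval (σ' α) g‖ := norm_pos_iff.mpr hne
  set δ := ‖aeval (σ' α) g‖ with hδdef
  set C := (max 1 ‖σ α‖) ^ d with hC
  have hC1 : 1 ≤ C := one_le_pow₀ (le_max_left _ _)
  have hC0 : 0 < C := lt_of_lt_of_le one_pos hC1
  have hd1 : (0 : ℝ) < ((d + 1 : ℕ) : ℝ) := by exact_mod_cast Nat.succ_pos d
  set ε := δ / (4 * ((d + 1 : ℕ) : ℝ) * C) with hεdef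
  have hε : 0 < ε := div_pos hδ (by positivity)
  obtain ⟨g₀, hdeg, hcoef⟩ := exists_rat_approx p g hε
  set hh := g₀.map (algebraMap ℚ ℚ_[p]) - g with hhh
  have hsum : g₀.map (algebraMap ℚ ℚ_[p]) = g + hh := by rw [hhh]; ring
  have hB : ∀ β : PadicAlgCl p, ‖β‖ = ‖σ α‖ → ‖aeval β hh‖ ≤ δ / 4 := by
    intro β hβ
    have h0 : ‖aeval β hh‖ ≤ ((d + 1 : ℕ) : ℝ) * (ε * C) := by
      have := norm_aeval_le p hdeg hcoef β
      rw [hβ] at this
      exact this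
    refine h0.trans (le_of_eq ?_)
    rw [hεdef]
    field_simp
  have h1 : σ (aeval α g₀) = aeval (σ α) hh := by
    rw [map_aeval_rat, hsum, map_add, hg, minpoly.aeval, zero_add]
  have h2 : σ' (aeval α g₀) = aeval (σ' α) g + aeval (σ' α) hh := by
    rw [map_aeval_rat, hsum, map_add]
  have h3 : ‖aeval (σ' α) g‖ ≤ ‖σ' (aeval α g₀)‖ + ‖aeval (σ' α) hh‖ := by
    have : aeval (σ' α) g = σ' (aeval α g₀) - aeval (σ' α) hh := by rw [h2]; ring
    rw [this]
    exact norm_sub_le _ _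
  rw [← h (aeval α g₀), h1] at h3
  have h4 := hB (σ α) rfl
  have h5 := hB (σ' α) (h α).symm
  linarith

/-- **embeddings with the same norm are `G_p`-conjugate.** -/
theorem exists_conj_of_norm_eq (h : ∀ x : K, ‖σ x‖ = ‖σ' x‖) :
    ∃ τ : Gq p, ∀ x, σ' x = τ (σ x) := by
  let pb := Field.powerBasisOfFiniteOfSeparable ℚ K
  have hint : IsIntegral ℚ_[p] (σ pb.gen) := Algebra.IsIntegral.isIntegral _
  have hconj : IsConjRoot ℚ_[p] (σ' pb.gen) (σ pb.gen) :=
    (minpoly.eq_of_irreducible_of_monic (minpoly.irreducible hint)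
      (aeval_minpoly_eq_zero p σ σ' h pb.gen) (minpoly.monic hint)).symm
  obtain ⟨τ, hτ⟩ := isConjRoot_iff_exists_algEquiv.mp hconj
  refine ⟨τ, fun x => ?_⟩
  have hext : σ'.toRatAlgHom = ((τ.toAlgHom : PadicAlgCl p →+* PadicAlgCl p).comp σ).toRatAlgHom :=
    pb.algHom_ext (by
      show σ' pb.gen = τ (σ pb.gen)
      exact hτ.symm)
  exact congrArg (fun f : K →ₐ[ℚ] PadicAlgCl p => f x) hext

/-- `G_p`-conjugate embeddings have the same norm. -/
theorem norm_eq_of_conj (h : ∃ τ : Gq p, ∀ x, σ' x = τ (σ x)) (x : K) : ‖σ x‖ = ‖σ' x‖ := by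
  obtain ⟨τ, hτ⟩ := h
  rw [hτ x, norm_algEquiv]

/-- **conjugate ⟺ same unit ball (⟺ same prime).** -/
theorem conj_iff_unitBall_eq :
    (∃ τ : Gq p, ∀ x, σ' x = τ (σ x)) ↔ ∀ x : K, ‖σ x‖ ≤ 1 ↔ ‖σ' x‖ ≤ 1 :=
  ⟨fun h x => by rw [norm_eq_of_conj p σ σ' h x],
    fun h => exists_conj_of_norm_eq p σ σ' (norm_eq_of_unitBall_eq p σ σ' h)⟩

/-! ### (E4), (E5) the counts with unit-ball hypotheses -/

section Sum

variable {ι : Type*} [Fintype ι] (rep : ι → (K →+* PadicAlgCl p))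
  (hinj : ∀ i j, (∀ x : K, ‖rep i x‖ ≤ 1 ↔ ‖rep j x‖ ≤ 1) → i = j)
  (hsurj : ∀ σ : K →+* PadicAlgCl p, ∃ i, ∀ x : K, ‖σ x‖ ≤ 1 ↔ ‖rep i x‖ ≤ 1)

include hinj hsurj in
/-- `Σ_{v | p} [K_v : ℚ_p] = [K : ℚ]`: `rep` chooses one embedding for each prime over `p`. -/
theorem sum_finrank_locField_of_unitBall :
    ∑ i, finrank ℚ_[p] (locField p (rep i)) = finrank ℚ K := by
  refine sum_finrank_locField' p rep (fun i j hij => hinj i j ?_) (fun σ => ?_)
  · exact (conj_iff_unitBall_eq p (rep i) (rep j)).mp hij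
  · obtain ⟨i, hi⟩ := hsurj σ
    exact ⟨i, (conj_iff_unitBall_eq p (rep i) σ).mpr (fun x => (hi x).symm)⟩

include hinj hsurj in
/-- `hprod` at `p`: `∏_{v | p} (K_vˣ : K_vˣᵖ) = p ^ (2 #{v | p} + [K : ℚ])` when `μ_p ⊆ K`. -/
theorem prod_card_units_quot_pow_of_unitBall {ζ : K} (hζ : IsPrimitiveRoot ζ p) :
    ∏ i, Nat.card ((locField p (rep i))ˣ ⧸
        (powMonoidHom p : (locField p (rep i))ˣ →* (locField p (rep i))ˣ).range) =
      p ^ (2 * Fintype.card ι + finrank ℚ K) := by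
  refine prod_card_units_quot_pow' p rep (fun i j hij => hinj i j ?_) (fun σ => ?_) hζ
  · exact (conj_iff_unitBall_eq p (rep i) (rep j)).mp hij
  · obtain ⟨i, hi⟩ := hsurj σ
    exact ⟨i, (conj_iff_unitBall_eq p (rep i) σ).mpr (fun x => (hi x).symm)⟩

end Sum

end Fermat.Agent.S55.EmbConj39
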