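/-
S55 / 35-LIM-ABS (helper99).  Mathlib only.

A directed-colimit *presentation* of an abelian group `Y` by groups `X i` (finite-level cohomology
groups), in exactly the data produced by the level-cohomology bridge 10h (inflations `infl`,
transitions `trans`, joint surjectivity, kernel criterion), and its formal consequences:

* `Pres.desc`       : compatible homs `f i : X i →+ T` descend uniquely to `Y →+ T`;
* `Pres.desc_injective_on` : injectivity criteria (e.g. on `p`-primary classes);
* `Pres.desc_map`   : functoriality (`invC (π ∘ c) = Σ_w invJ_w c` from the finite levels);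
* `Pres.exact_of_levels` : exactness of directed colimits.
-/
import Mathlib

set_option autoImplicit false

namespace Fermat.Agent.S55.LimDesc99

universe u v w t

/-- a presentation of `Y` as the directed colimit of the `X i`; a SMALLER index is a smaller
level (deeper in the tower): `trans : j ≤ i → X i →+ X j`. -/
structure Pres (ι : Type u) [Preorder ι] (X : ι → Type v) [∀ i, AddCommGroup (X i)]
    (Y : Type w) [AddCommGroup Y] where
  /-- inflation to the limit -/
  infl : ∀ i, X i →+ Y
  /-- transition (inflation between finite levels) -/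
  trans : ∀ {i j : ι}, j ≤ i → X i →+ X j
  infl_trans : ∀ {i j : ι} (h : j ≤ i) (x : X i), infl j (trans h x) = infl i x
  directed : ∀ i j : ι, ∃ k, k ≤ i ∧ k ≤ j
  surj : ∀ y : Y, ∃ i, ∃ x : X i, infl i x = y
  ker : ∀ (i : ι) (x : X i), infl i x = 0 → ∃ j, ∃ h : j ≤ i, trans h x = 0

namespace Pres

variable {ι : Type u} [Preorder ι] {X : ι → Type v} [∀ i, AddCommGroup (X i)]
  {Y : Type w} [AddCommGroup Y] (P : Pres ι X Y)
  {T : Type t} [AddCommGroup T]

/-- a compatible family of homomorphisms on the finite levels -/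
structure Compat (f : ∀ i, X i →+ T) : Prop where
  comp : ∀ {i j : ι} (h : j ≤ i) (x : X i), f j (P.trans h x) = f i x

variable {P}

/-- two representatives of the same class have the same value. -/
theorem Compat.eq_of_infl_eq {f : ∀ i, X i →+ T} (hf : P.Compat f) {i j : ι} {x : X i} {x' : X j}
    (h : P.infl i x = P.infl j x') : f i x = f j x' := by
  obtain ⟨k, hki, hkj⟩ := P.directed i j
  have hz : P.infl k (P.trans hki x - P.trans hkj x') = 0 := by
    rw [map_sub, P.infl_trans, P.infl_trans, h, sub_self]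
  obtain ⟨l, hlk, hl⟩ := P.ker k _ hz
  have h1 : f k (P.trans hki x - P.trans hkj x') = 0 := by
    rw [← hf.comp hlk, hl, map_zero]
  rw [map_sub, hf.comp, hf.comp, sub_eq_zero] at h1
  exact h1

variable (P)

/-- **descent**: a compatible family of homs on the finite levels defines a hom on the limit. -/
noncomputable def desc (f : ∀ i, X i →+ T) (hf : P.Compat f) : Y →+ T where
  toFun y := f (Classical.choose (P.surj y)) (Classical.choose (Classical.choose_spec (P.surj y)))
  map_zero' := by
    have h := Classical.choose_spec (Classical.choose_spec (P.surj (0 : Y)))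
    obtain ⟨i⟩ : Nonempty ι := ⟨Classical.choose (P.surj (0 : Y))⟩
    have := hf.eq_of_infl_eq (i := Classical.choose (P.surj (0 : Y))) (j := i)
      (x := Classical.choose (Classical.choose_spec (P.surj (0 : Y)))) (x' := 0)
      (by rw [h, map_zero])
    rw [this, map_zero]
  map_add' y y' := by
    have h := Classical.choose_spec (Classical.choose_spec (P.surj y))
    have h' := Classical.choose_spec (Classical.choose_spec (P.surj y'))
    have h'' := Classical.choose_spec (Classical.choose_spec (P.surj (y + y')))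
    set i := Classical.choose (P.surj y)
    set x := Classical.choose (Classical.choose_spec (P.surj y))
    set i' := Classical.choose (P.surj y')
    set x' := Classical.choose (Classical.choose_spec (P.surj y'))
    set i'' := Classical.choose (P.surj (y + y'))
    set x'' := Classical.choose (Classical.choose_spec (P.surj (y + y')))
    obtain ⟨k, hki, hki'⟩ := P.directed i i'
    have key : f i'' x'' = f k (P.trans hki x + P.trans hki' x') :=
      hf.eq_of_infl_eq (by rw [h'', map_add, P.infl_trans, P.infl_trans, h, h'])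
    rw [key, map_add, hf.comp, hf.comp]

theorem desc_infl (f : ∀ i, X i →+ T) (hf : P.Compat f) (i : ι) (x : X i) :
    P.desc f hf (P.infl i x) = f i x :=
  hf.eq_of_infl_eq (Classical.choose_spec (Classical.choose_spec (P.surj (P.infl i x))))

theorem desc_unique (f : ∀ i, X i →+ T) (hf : P.Compat f) (F : Y →+ T)
    (hF : ∀ i x, F (P.infl i x) = f i x) : F = P.desc f hf := by
  ext y
  obtain ⟨i, x, rfl⟩ := P.surj y
  rw [hF, desc_infl]

/-- two homs on the limit agreeing on all finite levels are equal. -/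
theorem hom_ext {F F' : Y →+ T} (h : ∀ i x, F (P.infl i x) = F' (P.infl i x)) : F = F' := by
  ext y
  obtain ⟨i, x, rfl⟩ := P.surj y
  exact h i x

/-- **injectivity on a class of elements** (e.g. the `p`-primary ones). -/
theorem desc_injective_on (f : ∀ i, X i →+ T) (hf : P.Compat f) (Q : Y → Prop)
    (h : ∀ i (x : X i), Q (P.infl i x) → f i x = 0 → P.infl i x = 0)
    (y : Y) (hy : Q y) (h0 : P.desc f hf y = 0) : y = 0 := by
  obtain ⟨i, x, rfl⟩ := P.surj y
  rw [desc_infl] at h0
  exact h i x hy h0

theorem desc_injective (f : ∀ i, X i →+ T) (hf : P.Compat f)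
    (h : ∀ i (x : X i), f i x = 0 → P.infl i x = 0) : Function.Injective (P.desc f hf) := by
  rw [injective_iff_map_eq_zero]
  intro y hy
  exact P.desc_injective_on f hf (fun _ => True) (fun i x _ => h i x) y trivial hy

/-- the kernel criterion in the form: a finite-level class dying in the limit is killed by the
compatible family. -/
theorem Compat.eq_zero_of_infl_eq_zero {f : ∀ i, X i →+ T} (hf : P.Compat f) {i : ι} {x : X i}
    (h : P.infl i x = 0) : f i x = 0 := by
  have := hf.eq_of_infl_eq (i := i) (j := i) (x := x) (x' := 0) (by rw [h, map_zero])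
  rw [this, map_zero]

theorem desc_surjective_of (f : ∀ i, X i →+ T) (hf : P.Compat f)
    (h : ∀ t : T, ∃ i, ∃ x : X i, f i x = t) : Function.Surjective (P.desc f hf) := by
  intro t
  obtain ⟨i, x, rfl⟩ := h t
  exact ⟨P.infl i x, P.desc_infl f hf i x⟩

include P in
/-- every element of the limit is torsion if every finite-level element is. -/
theorem exists_nsmul_eq_zero (h : ∀ i (x : X i), ∃ n : ℕ, 0 < n ∧ n • x = 0) (y : Y) :
    ∃ n : ℕ, 0 < n ∧ n • y = 0 := by
  obtain ⟨i, x, rfl⟩ := P.surj y
  obtain ⟨n, hn, hx⟩ := h i x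
  exact ⟨n, hn, by rw [← map_nsmul, hx, map_zero]⟩

end Pres

/-! ### functoriality and exactness -/

section Map

variable {ι : Type u} [Preorder ι] {X X' X'' : ι → Type v} [∀ i, AddCommGroup (X i)]
  [∀ i, AddCommGroup (X' i)] [∀ i, AddCommGroup (X'' i)]
  {Y Y' Y'' : Type w} [AddCommGroup Y] [AddCommGroup Y'] [AddCommGroup Y'']
  (P : Pres ι X Y) (P' : Pres ι X' Y') (P'' : Pres ι X'' Y'')
  {T : Type t} [AddCommGroup T]

/-- a morphism of presentations -/
structure PresHom (φ : ∀ i, X i →+ X' i) (Φ : Y →+ Y') : Prop where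
  trans : ∀ {i j : ι} (h : j ≤ i) (x : X i), φ j (P.trans h x) = P'.trans h (φ i x)
  infl : ∀ (i : ι) (x : X i), Φ (P.infl i x) = P'.infl i (φ i x)

variable {P P' P''}

theorem PresHom.compat {φ : ∀ i, X i →+ X' i} {Φ : Y →+ Y'} (hφ : PresHom P P' φ Φ)
    {f' : ∀ i, X' i →+ T} (hf' : P'.Compat f') : P.Compat fun i => (f' i).comp (φ i) :=
  ⟨fun h x => by
    show f' _ (φ _ (P.trans h x)) = f' _ (φ _ x)
    rw [hφ.trans, hf'.comp]⟩

/-- **functoriality of descent**: `desc f' ∘ Φ = desc (f' ∘ φ)`. -/
theorem PresHom.desc_map {φ : ∀ i, X i →+ X' i} {Φ : Y →+ Y'} (hφ : PresHom P P' φ Φ)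
    {f' : ∀ i, X' i →+ T} (hf' : P'.Compat f') (y : Y) :
    P'.desc f' hf' (Φ y) = P.desc (fun i => (f' i).comp (φ i)) (hφ.compat hf') y := by
  obtain ⟨i, x, rfl⟩ := P.surj y
  rw [hφ.infl, Pres.desc_infl, Pres.desc_infl]
  rfl

/-- a relation between descended maps can be checked on the finite levels. -/
theorem PresHom.desc_comp_eq {φ : ∀ i, X i →+ X' i} {Φ : Y →+ Y'} (hφ : PresHom P P' φ Φ)
    {f : ∀ i, X i →+ T} (hf : P.Compat f) {f' : ∀ i, X' i →+ T} (hf' : P'.Compat f')
    (h : ∀ i x, f' i (φ i x) = f i x) (y : Y) :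
    P'.desc f' hf' (Φ y) = P.desc f hf y := by
  obtain ⟨i, x, rfl⟩ := P.surj y
  rw [hφ.infl, Pres.desc_infl, Pres.desc_infl, h]

/-- **exactness of directed colimits**: level-wise exactness of `X i → X' i → X'' i` gives
exactness of `Y → Y' → Y''`. -/
theorem exact_of_levels {φ : ∀ i, X i →+ X' i} {Φ : Y →+ Y'} (hφ : PresHom P P' φ Φ)
    {ψ : ∀ i, X' i →+ X'' i} {Ψ : Y' →+ Y''} (hψ : PresHom P' P'' ψ Ψ)
    (hex : ∀ i (x' : X' i), ψ i x' = 0 → ∃ x : X i, φ i x = x')
    (y' : Y') (hy' : Ψ y' = 0) : ∃ y : Y, Φ y = y' := by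
  obtain ⟨i, x', rfl⟩ := P'.surj y'
  rw [hψ.infl] at hy'
  obtain ⟨j, hji, hj⟩ := P''.ker i _ hy'
  rw [← hψ.trans] at hj
  obtain ⟨x, hx⟩ := hex j _ hj
  exact ⟨P.infl j x, by rw [hφ.infl, hx, P'.infl_trans]⟩

/-- the composite is zero in the limit if it is zero on the finite levels. -/
theorem comp_eq_zero_of_levels {φ : ∀ i, X i →+ X' i} {Φ : Y →+ Y'} (hφ : PresHom P P' φ Φ)
    {ψ : ∀ i, X' i →+ X'' i} {Ψ : Y' →+ Y''} (hψ : PresHom P' P'' ψ Ψ)
    (h0 : ∀ i (x : X i), ψ i (φ i x) = 0) (y : Y) : Ψ (Φ y) = 0 := by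
  obtain ⟨i, x, rfl⟩ := P.surj y
  rw [hφ.infl, hψ.infl, h0, map_zero]

/-- surjectivity in the limit from surjectivity on the finite levels. -/
theorem surjective_of_levels {φ : ∀ i, X i →+ X' i} {Φ : Y →+ Y'} (hφ : PresHom P P' φ Φ)
    (hs : ∀ i, Function.Surjective (φ i)) : Function.Surjective Φ := by
  intro y'
  obtain ⟨i, x', rfl⟩ := P'.surj y'
  obtain ⟨x, rfl⟩ := hs i x'
  exact ⟨P.infl i x, hφ.infl i x⟩

/-- injectivity in the limit from injectivity on the finite levels. -/
theorem injective_of_levels {φ : ∀ i, X i →+ X' i} {Φ : Y →+ Y'} (hφ : PresHom P P' φ Φ)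
    (hi : ∀ i, Function.Injective (φ i)) : Function.Injective Φ := by
  rw [injective_iff_map_eq_zero]
  intro y hy
  obtain ⟨i, x, rfl⟩ := P.surj y
  rw [hφ.infl] at hy
  obtain ⟨j, hji, hj⟩ := P'.ker i _ hy
  rw [← hφ.trans] at hj
  have : P.trans hji x = 0 := hi j (by rw [hj, map_zero])
  rw [← P.infl_trans hji, this, map_zero]

end Map

end Fermat.Agent.S55.LimDesc99
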