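/-
S55 / 45b-PRIMARY-EXT (helper14): projection of a torsion abelian group onto its `p`-primary part,
and extension of homomorphisms that are only defined on `p`-primary parts.

The class-formation invariants produced by global class field theory in its "`p`-part only" form
(`invJ w`, `invC`) live on the `p`-primary parts of the level `H²` groups, whereas the abstract
cores (`CDArith63.h3Van_of_formation_p`, `formation_rep`, `S1_67`) take TOTAL additive maps on
level `H²` with `p`-primary injectivity/surjectivity and a compatibility for ALL classes.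
Level `H²` is torsion (`CDArith63.H2_torsion`), so every hom on the `p`-primary part extends
canonically through the projection `x ↦ x_p`.

* `primary p X` : the `p`-primary subgroup `{x | ∃ n, p ^ n • x = 0}`;
* `primaryProj p htors : X →+ primary p X` for a torsion group, `primaryProj_of_mem`,
  `primaryProj_of_coprime`, `primaryProj_map` (naturality);
* `extend p htors f : X →+ T` for `f : primary p X →+ T`;
* `exists_total_inv` : the transfer lemma in the binder shapes of `CDArith63.Formation`.

Mathlib only.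
-/
import Mathlib

set_option autoImplicit false
set_option linter.unusedSectionVars false

namespace Fermat.Agent.S55.PrimaryExt14

variable (p : ℕ)

/-! ### the `p`-primary subgroup -/

section Primary

variable (X : Type*) [AddCommGroup X]

/-- the `p`-primary subgroup `{x | ∃ n, p ^ n • x = 0}` -/
def primary : AddSubgroup X where
  carrier := {x | ∃ n : ℕ, (p ^ n) • x = 0}
  zero_mem' := ⟨0, smul_zero _⟩
  add_mem' := by
    rintro x y ⟨a, ha⟩ ⟨b, hb⟩
    refine ⟨a + b, ?_⟩
    have h1 : (p ^ (a + b)) • x = 0 := by rw [pow_add, mul_comm, mul_smul, ha, smul_zero]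
    have h2 : (p ^ (a + b)) • y = 0 := by rw [pow_add, mul_smul, hb, smul_zero]
    rw [smul_add, h1, h2, add_zero]
  neg_mem' := by
    rintro x ⟨a, ha⟩
    exact ⟨a, by rw [smul_neg, ha, neg_zero]⟩

variable {X}

theorem mem_primary_iff {x : X} : x ∈ primary p X ↔ ∃ n : ℕ, (p ^ n) • x = 0 := Iff.rfl

theorem mem_primary_of_pow {x : X} {n : ℕ} (h : (p ^ n) • x = 0) : x ∈ primary p X := ⟨n, h⟩

end Primary

/-! ### the `p`-part of a torsion element -/

section Part

variable {X : Type*} [AddCommGroup X]

/-- a `p`-power torsion element which is also killed by some `m` prime to `p` is zero -/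
theorem eq_zero_of_pow_of_coprime [hp : Fact p.Prime] {x : X} {a m : ℕ}
    (ha : (p ^ a) • x = 0) (hm : ¬ p ∣ m) (hmx : m • x = 0) : x = 0 := by
  have hcop : Nat.Coprime (p ^ a) m :=
    Nat.Coprime.pow_left a ((Nat.Prime.coprime_iff_not_dvd hp.out).2 hm)
  have h1 : addOrderOf x ∣ p ^ a := addOrderOf_dvd_of_nsmul_eq_zero ha
  have h2 : addOrderOf x ∣ m := addOrderOf_dvd_of_nsmul_eq_zero hmx
  have h3 : addOrderOf x = 1 :=
    Nat.Coprime.eq_one_of_dvd (Nat.Coprime.coprime_dvd_left h1 hcop) h2
  exact AddMonoid.addOrderOf_eq_one_iff.1 h3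

/-- `y` is the `p`-part of `x`: `y` is `p`-primary and `x - y` is killed by some `m` prime to
`p`. -/
def IsPart (x y : X) : Prop :=
  y ∈ primary p X ∧ ∃ m : ℕ, ¬ p ∣ m ∧ m • (x - y) = 0

variable {p}

theorem IsPart.unique [hp : Fact p.Prime] {x y y' : X} (h : IsPart p x y) (h' : IsPart p x y') :
    y = y' := by
  obtain ⟨⟨a, ha⟩, m, hm, hmx⟩ := h
  obtain ⟨⟨a', ha'⟩, m', hm', hmx'⟩ := h'
  have hpow : (p ^ (a + a')) • (y - y') = 0 := by
    have h1 : (p ^ (a + a')) • y = 0 := by rw [pow_add, mul_comm, mul_smul, ha, smul_zero]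
    have h2 : (p ^ (a + a')) • y' = 0 := by rw [pow_add, mul_smul, ha', smul_zero]
    rw [smul_sub, h1, h2, sub_zero]
  have hmm : ¬ p ∣ m * m' := by
    intro hdvd
    rcases (Nat.Prime.dvd_mul hp.out).1 hdvd with h | h
    · exact hm h
    · exact hm' h
  have hkill : (m * m') • (y - y') = 0 := by
    have e : y - y' = (x - y') - (x - y) := by abel
    have h1 : (m * m') • (x - y') = 0 := by rw [mul_smul, hmx', smul_zero]
    have h2 : (m * m') • (x - y) = 0 := by rw [mul_comm, mul_smul, hmx, smul_zero]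
    rw [e, smul_sub, h1, h2, sub_zero]
  exact sub_eq_zero.1 (eq_zero_of_pow_of_coprime p hpow hmm hkill)

theorem IsPart.add [hp : Fact p.Prime] {x y x' y' : X} (h : IsPart p x y) (h' : IsPart p x' y') :
    IsPart p (x + x') (y + y') := by
  obtain ⟨hy, m, hm, hmx⟩ := h
  obtain ⟨hy', m', hm', hmx'⟩ := h'
  refine ⟨(primary p X).add_mem hy hy', m * m', ?_, ?_⟩
  · intro hdvd
    rcases (Nat.Prime.dvd_mul hp.out).1 hdvd with h | h
    · exact hm h
    · exact hm' h
  · have e : x + x' - (y + y') = (x - y) + (x' - y') := by abel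
    have h1 : (m * m') • (x - y) = 0 := by rw [mul_comm, mul_smul, hmx, smul_zero]
    have h2 : (m * m') • (x' - y') = 0 := by rw [mul_smul, hmx', smul_zero]
    rw [e, smul_add, h1, h2, add_zero]

theorem isPart_of_mem [hp : Fact p.Prime] {x : X} (hx : x ∈ primary p X) : IsPart p x x :=
  ⟨hx, 1, (Nat.Prime.one_lt hp.out).ne' ∘ Nat.dvd_one.1, by rw [sub_self, smul_zero]⟩

theorem isPart_zero_of_coprime {x : X} {m : ℕ} (hm : ¬ p ∣ m) (hmx : m • x = 0) :
    IsPart p x 0 :=
  ⟨(primary p X).zero_mem, m, hm, by rw [sub_zero, hmx]⟩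

theorem IsPart.map {Y : Type*} [AddCommGroup Y] (φ : X →+ Y) {x y : X} (h : IsPart p x y) :
    IsPart p (φ x) (φ y) := by
  obtain ⟨⟨a, ha⟩, m, hm, hmx⟩ := h
  refine ⟨⟨a, by rw [← map_nsmul, ha, map_zero]⟩, m, hm, ?_⟩
  rw [← map_sub, ← map_nsmul, hmx, map_zero]

/-- every torsion element has a `p`-part -/
theorem exists_isPart [hp : Fact p.Prime] {x : X} (htors : ∃ n : ℕ, 0 < n ∧ n • x = 0) :
    ∃ y, IsPart p x y := by
  obtain ⟨n, hn0, hn⟩ := htors
  obtain ⟨a, m, hm, rfl⟩ := Nat.exists_eq_pow_mul_and_not_dvd hn0.ne' p hp.out.ne_one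
  have hcop : Nat.Coprime (p ^ a) m :=
    Nat.Coprime.pow_left a ((Nat.Prime.coprime_iff_not_dvd hp.out).2 hm)
  have hb : ((p ^ a : ℕ) : ℤ) * Int.gcdA (p ^ a : ℕ) m + (m : ℤ) * Int.gcdB (p ^ a : ℕ) m = 1 := by
    have := Int.gcd_eq_gcd_ab ((p ^ a : ℕ) : ℤ) (m : ℤ)
    rw [Int.gcd_natCast_natCast, hcop] at this
    exact_mod_cast this.symm
  set v := Int.gcdA (p ^ a : ℕ) m
  set u := Int.gcdB (p ^ a : ℕ) m
  have hnx : (((p ^ a : ℕ) : ℤ) * (m : ℤ)) • x = 0 := by
    have : (((p ^ a : ℕ) : ℤ) * (m : ℤ)) • x = ((p ^ a * m : ℕ) : ℤ) • x := by push_cast; rfl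
    rw [this, natCast_zsmul, hn]
  refine ⟨((m : ℤ) * u) • x, ⟨a, ?_⟩, m, hm, ?_⟩
  · rw [← natCast_zsmul, smul_smul]
    have : ((p ^ a : ℕ) : ℤ) * ((m : ℤ) * u) = u * (((p ^ a : ℕ) : ℤ) * (m : ℤ)) := by ring
    rw [this, mul_smul, hnx, smul_zero]
  · have e : x - ((m : ℤ) * u) • x = (((p ^ a : ℕ) : ℤ) * v) • x := by
      have h1 : x - ((m : ℤ) * u) • x = ((1 : ℤ) - (m : ℤ) * u) • x := by
        rw [sub_smul, one_smul]
      rw [h1]
      congr 1
      linarith
    rw [e, ← natCast_zsmul, smul_smul]
    have : (m : ℤ) * (((p ^ a : ℕ) : ℤ) * v) = v * (((p ^ a : ℕ) : ℤ) * (m : ℤ)) := by ring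
    rw [this, mul_smul, hnx, smul_zero]

end Part

/-! ### the projection onto the `p`-primary part -/

section Proj

variable [hp : Fact p.Prime] {X : Type*} [AddCommGroup X]
  (htors : ∀ x : X, ∃ n : ℕ, 0 < n ∧ n • x = 0)

/-- the `p`-part of an element of a torsion group -/
noncomputable def part (x : X) : X := (exists_isPart (p := p) (htors x)).choose

theorem isPart_part (x : X) : IsPart p x (part p htors x) :=
  (exists_isPart (p := p) (htors x)).choose_spec

theorem part_eq_of_isPart {x y : X} (h : IsPart p x y) : part p htors x = y :=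
  (isPart_part p htors x).unique h

/-- the projection of a torsion group onto its `p`-primary part -/
noncomputable def primaryProj : X →+ primary p X where
  toFun x := ⟨part p htors x, (isPart_part p htors x).1⟩
  map_zero' := by
    apply Subtype.ext
    exact part_eq_of_isPart p htors (isPart_of_mem (primary p X).zero_mem)
  map_add' x y := by
    apply Subtype.ext
    exact part_eq_of_isPart p htors ((isPart_part p htors x).add (isPart_part p htors y))

@[simp] theorem coe_primaryProj (x : X) : (primaryProj p htors x : X) = part p htors x := rfl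

/-- the projection is the identity on `p`-primary elements -/
theorem primaryProj_of_mem {x : X} (hx : x ∈ primary p X) : primaryProj p htors x = ⟨x, hx⟩ :=
  Subtype.ext (part_eq_of_isPart p htors (isPart_of_mem hx))

theorem primaryProj_coe (x : primary p X) : primaryProj p htors (x : X) = x :=
  primaryProj_of_mem p htors x.2

/-- the projection kills the prime-to-`p` torsion -/
theorem primaryProj_of_coprime {x : X} {m : ℕ} (hm : ¬ p ∣ m) (hmx : m • x = 0) :
    primaryProj p htors x = 0 :=
  Subtype.ext (part_eq_of_isPart p htors (isPart_zero_of_coprime hm hmx))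

theorem primaryProj_surjective : Function.Surjective (primaryProj p htors) :=
  fun x => ⟨x, primaryProj_coe p htors x⟩

/-- `x - x_p` is killed by some `m` prime to `p` -/
theorem exists_coprime_nsmul_sub (x : X) :
    ∃ m : ℕ, ¬ p ∣ m ∧ m • (x - (primaryProj p htors x : X)) = 0 :=
  (isPart_part p htors x).2

/-- restriction of a homomorphism to the `p`-primary parts -/
def mapPrimary {Y : Type*} [AddCommGroup Y] (φ : X →+ Y) : primary p X →+ primary p Y where
  toFun x := ⟨φ (x : X), by
    obtain ⟨a, ha⟩ := x.2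
    exact ⟨a, by rw [← map_nsmul, ha, map_zero]⟩⟩
  map_zero' := Subtype.ext (map_zero φ)
  map_add' x y := Subtype.ext (map_add φ (x : X) (y : X))

@[simp] theorem coe_mapPrimary {Y : Type*} [AddCommGroup Y] (φ : X →+ Y) (x : primary p X) :
    (mapPrimary p φ x : Y) = φ (x : X) := rfl

/-- naturality of the projection -/
theorem primaryProj_map {Y : Type*} [AddCommGroup Y]
    (htorsY : ∀ y : Y, ∃ n : ℕ, 0 < n ∧ n • y = 0) (φ : X →+ Y) (x : X) :
    primaryProj p htorsY (φ x) = mapPrimary p φ (primaryProj p htors x) :=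
  Subtype.ext (part_eq_of_isPart p htorsY ((isPart_part p htors x).map φ))

/-- extension of a homomorphism on the `p`-primary part to the whole torsion group -/
noncomputable def extend {T : Type*} [AddCommGroup T] (f : primary p X →+ T) : X →+ T :=
  f.comp (primaryProj p htors)

theorem extend_apply {T : Type*} [AddCommGroup T] (f : primary p X →+ T) (x : X) :
    extend p htors f x = f (primaryProj p htors x) := rfl

theorem extend_of_mem {T : Type*} [AddCommGroup T] (f : primary p X →+ T) {x : X}
    (hx : x ∈ primary p X) : extend p htors f x = f ⟨x, hx⟩ := by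
  rw [extend_apply, primaryProj_of_mem p htors hx]

theorem extend_coe {T : Type*} [AddCommGroup T] (f : primary p X →+ T) (x : primary p X) :
    extend p htors f (x : X) = f x := by
  rw [extend_apply, primaryProj_coe]

theorem extend_of_coprime {T : Type*} [AddCommGroup T] (f : primary p X →+ T) {x : X} {m : ℕ}
    (hm : ¬ p ∣ m) (hmx : m • x = 0) : extend p htors f x = 0 := by
  rw [extend_apply, primaryProj_of_coprime p htors hm hmx, map_zero]

end Proj

/-! ### the transfer lemma, in the binder shapes of `CDArith63.Formation` -/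

section Transfer

variable [hp : Fact p.Prime] {X Y T : Type*} [AddCommGroup X] [AddCommGroup Y] [AddCommGroup T]
  {W : Type*} [Fintype W]
  (htX : ∀ x : X, ∃ n : ℕ, 0 < n ∧ n • x = 0) (htY : ∀ y : Y, ∃ n : ℕ, 0 < n ∧ n • y = 0)
  (φ : X →+ Y) (invJp : W → (primary p X →+ T)) (invCp : primary p Y →+ T)

/-- `hinj` for the extended local invariants -/
theorem hinj_extend
    (hinjp : ∀ x : primary p X, (∀ w, invJp w x = 0) → x = 0) :
    ∀ (x : X) (n : ℕ), (p ^ n) • x = 0 → (∀ w, extend p htX (invJp w) x = 0) → x = 0 := by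
  intro x n hx h
  have hx' : x ∈ primary p X := ⟨n, hx⟩
  have := hinjp ⟨x, hx'⟩ (fun w => by rw [← extend_of_mem p htX (invJp w) hx']; exact h w)
  exact congrArg Subtype.val this

/-- `hsurj` for the extended local invariants -/
theorem hsurj_extend
    (hsurjp : ∀ (t : W → T) (n : ℕ), (∀ w, (p ^ n) • t w = 0) →
      ∃ x : primary p X, (p ^ n) • x = 0 ∧ ∀ w, invJp w x = t w) :
    ∀ (t : W → T) (n : ℕ), (∀ w, (p ^ n) • t w = 0) →
      ∃ x : X, (p ^ n) • x = 0 ∧ ∀ w, extend p htX (invJp w) x = t w := by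
  intro t n ht
  obtain ⟨x, hx, hxt⟩ := hsurjp t n ht
  refine ⟨(x : X), ?_, fun w => ?_⟩
  · have := congrArg Subtype.val hx
    simpa using this
  · rw [extend_coe, hxt]

/-- `hinjC` for the extended global invariant -/
theorem hinjC_extend
    (hinjCp : ∀ y : primary p Y, invCp y = 0 → y = 0) :
    ∀ (y : Y) (n : ℕ), (p ^ n) • y = 0 → extend p htY invCp y = 0 → y = 0 := by
  intro y n hy h
  have hy' : y ∈ primary p Y := ⟨n, hy⟩
  have := hinjCp ⟨y, hy'⟩ (by rw [← extend_of_mem p htY invCp hy']; exact h)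
  exact congrArg Subtype.val this

/-- `hcompat` for the extended invariants: reciprocity on `p`-primary classes gives reciprocity
for all classes -/
theorem hcompat_extend
    (hcompatp : ∀ x : primary p X, invCp (mapPrimary p φ x) = ∑ w, invJp w x) :
    ∀ x : X, extend p htY invCp (φ x) = ∑ w, extend p htX (invJp w) x := by
  intro x
  rw [extend_apply, primaryProj_map p htX htY φ x, hcompatp]
  rfl

include htX htY in
/-- **Transfer lemma.**  Invariants given only on the `p`-primary parts of two torsion groups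
(`X = ` level `H²(J)`, `Y = ` level `H²(C)`), with the `p`-primary forms of `hinj`, `hsurj`, `hinjC`
and `hcompat`, extend to TOTAL additive maps satisfying the four hypotheses of
`CDArith63.h3Van_of_formation'` / `h3Van_of_formation_p` verbatim. -/
theorem exists_total_inv
    (hinjp : ∀ x : primary p X, (∀ w, invJp w x = 0) → x = 0)
    (hsurjp : ∀ (t : W → T) (n : ℕ), (∀ w, (p ^ n) • t w = 0) →
      ∃ x : primary p X, (p ^ n) • x = 0 ∧ ∀ w, invJp w x = t w)
    (hinjCp : ∀ y : primary p Y, invCp y = 0 → y = 0)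
    (hcompatp : ∀ x : primary p X, invCp (mapPrimary p φ x) = ∑ w, invJp w x) :
    ∃ (invJ : W → (X →+ T)) (invC : Y →+ T),
      (∀ w (x : primary p X), invJ w (x : X) = invJp w x) ∧
      (∀ y : primary p Y, invC (y : Y) = invCp y) ∧
      (∀ (x : X) (n : ℕ), (p ^ n) • x = 0 → (∀ w, invJ w x = 0) → x = 0) ∧
      (∀ (t : W → T) (n : ℕ), (∀ w, (p ^ n) • t w = 0) →
        ∃ x : X, (p ^ n) • x = 0 ∧ ∀ w, invJ w x = t w) ∧
      (∀ (y : Y) (n : ℕ), (p ^ n) • y = 0 → invC y = 0 → y = 0) ∧
      (∀ x : X, invC (φ x) = ∑ w, invJ w x) :=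
  ⟨fun w => extend p htX (invJp w), extend p htY invCp,
    fun w x => extend_coe p htX (invJp w) x, fun y => extend_coe p htY invCp y,
    hinj_extend p htX invJp hinjp, hsurj_extend p htX invJp hsurjp,
    hinjC_extend p htY invCp hinjCp, hcompat_extend p htX htY φ invJp invCp hcompatp⟩

end Transfer

end Fermat.Agent.S55.PrimaryExt14
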