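/-
S55 / 35-LIM, limit algebra (helper14; design = helper91 #2188 (3), ruling helper33 #2203).

`Y_E --i--> Y_J --π--> Y_C` additive maps between (torsion) abelian groups — think of the level
`H²` groups of `E_S → J_S → C_S` — with `π ∘ i = 0` and exactness at `Y_J`, and an "idelic
invariant" `invJ` on the `p`-primary part of `Y_J`.  From

* (A)  every `p`-primary class of `Y_C` is `π` of a `p`-primary class of `Y_J`,
* (B→) reciprocity: `invJ ∘ i = 0` on `p`-primary classes of `Y_E`,
* (B←) Hasse: a `p`-primary `y` with `invJ y = 0` lies in the range of `i`,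

there is a unique `invCp : primary p Y_C →+ T` with `invCp ∘ π = invJ` on `p`-primary classes, and
it is injective.  Neither `H¹(C)(p) = 0` nor injectivity of `i` is needed.

`exists_formation_inv` composes this with `PrimaryExt14.exists_total_inv` and ends LITERALLY in the
binders `invJ invC hinj hsurj hinjC hcompat` of `CDArith63.h3Van_of_formation'` / `_p`.

Mathlib + `PrimaryExt14` only.
-/
import Fermat.Agent.S55.PrimaryExt14

set_option autoImplicit false
set_option linter.unusedSectionVars false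

namespace Fermat.Agent.S55.LimAlg14

open Fermat.Agent.S55.PrimaryExt14

variable (p : ℕ) [hp : Fact p.Prime]
  {YE YJ YC T : Type*} [AddCommGroup YE] [AddCommGroup YJ] [AddCommGroup YC] [AddCommGroup T]
  (i : YE →+ YJ) (π : YJ →+ YC)

section Core

variable (hπi : ∀ e, π (i e) = 0) (hex : ∀ y, π y = 0 → y ∈ Set.range i)
  (htE : ∀ e : YE, ∃ n : ℕ, 0 < n ∧ n • e = 0)
  (invJ : primary p YJ →+ T)
  (hA : ∀ c : primary p YC, ∃ y : primary p YJ, mapPrimary p π y = c)
  (hBto : ∀ e : primary p YE, invJ (mapPrimary p i e) = 0)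
  (hBfrom : ∀ y : primary p YJ, invJ y = 0 → (y : YJ) ∈ Set.range i)

include hex htE hBto in
/-- a `p`-primary class of `Y_J` killed by `π` is `i` of a `p`-primary class, hence has trivial
invariant -/
theorem invJ_eq_zero_of_π_eq_zero (y : primary p YJ) (hy : π (y : YJ) = 0) : invJ y = 0 := by
  obtain ⟨e, he⟩ := hex _ hy
  -- split `e = e_p + e'`
  set ep : primary p YE := primaryProj p htE e with hep
  obtain ⟨m, hm, hme⟩ := exists_coprime_nsmul_sub p htE e
  -- `i (e - e_p)` is `p`-primary and killed by `m`, hence zero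
  have h1 : i (e - (ep : YE)) = (y : YJ) - i (ep : YE) := by rw [map_sub, he]
  have h2 : i (e - (ep : YE)) ∈ primary p YJ := by
    rw [h1]
    exact (primary p YJ).sub_mem y.2 (mapPrimary p i ep).2
  obtain ⟨a, ha⟩ := h2
  have h3 : m • i (e - (ep : YE)) = 0 := by rw [← map_nsmul, hme, map_zero]
  have h4 : i (e - (ep : YE)) = 0 := eq_zero_of_pow_of_coprime p ha hm h3
  have h5 : y = mapPrimary p i ep := by
    apply Subtype.ext
    rw [coe_mapPrimary]
    rw [h1, sub_eq_zero] at h4
    exact h4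
  rw [h5]
  exact hBto ep

include hex htE hA hBto in
/-- the kernel condition for the descent -/
theorem ker_le : (mapPrimary p π).ker ≤ invJ.ker := by
  intro y hy
  rw [AddMonoidHom.mem_ker] at hy ⊢
  have h1 : π (y : YJ) = 0 := by
    have := congrArg Subtype.val hy
    simpa using this
  exact invJ_eq_zero_of_π_eq_zero p i π hex htE invJ hBto y h1

/-- the global invariant on the `p`-primary part of `Y_C` -/
noncomputable def invCp
    (hA : ∀ c : primary p YC, ∃ y : primary p YJ, mapPrimary p π y = c)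
    (hker : (mapPrimary p π).ker ≤ invJ.ker) : primary p YC →+ T :=
  (mapPrimary p π).liftOfRightInverse (Function.surjInv hA) (Function.rightInverse_surjInv hA)
    ⟨invJ, hker⟩

theorem invCp_map (hker : (mapPrimary p π).ker ≤ invJ.ker) (y : primary p YJ) :
    invCp p π invJ hA hker (mapPrimary p π y) = invJ y :=
  AddMonoidHom.liftOfRightInverse_comp_apply _ _ _ _ _

include hπi hex htE hA hBto hBfrom in
/-- **Limit algebra.**  Existence of the global invariant on `p`-primary classes, compatible with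
the idelic invariant and injective. -/
theorem exists_invCp :
    ∃ invC : primary p YC →+ T,
      (∀ y : primary p YJ, invC (mapPrimary p π y) = invJ y) ∧
      (∀ c : primary p YC, invC c = 0 → c = 0) := by
  have hker := ker_le p i π hex htE invJ hA hBto
  refine ⟨invCp p π invJ hA hker, invCp_map p π invJ hA hker, ?_⟩
  intro c hc
  obtain ⟨y, rfl⟩ := hA c
  rw [invCp_map] at hc
  obtain ⟨e, he⟩ := hBfrom y hc
  apply Subtype.ext
  rw [coe_mapPrimary, ← he, hπi]
  rfl

include hA in
/-- uniqueness of the descended invariant -/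
theorem invCp_unique (f g : primary p YC →+ T)
    (hf : ∀ y : primary p YJ, f (mapPrimary p π y) = invJ y)
    (hg : ∀ y : primary p YJ, g (mapPrimary p π y) = invJ y) : f = g := by
  ext c
  obtain ⟨y, rfl⟩ := hA c
  rw [hf, hg]

end Core

/-! ### total `invJ` -/

section Total

variable (hπi : ∀ e, π (i e) = 0) (hex : ∀ y, π y = 0 → y ∈ Set.range i)
  (htE : ∀ e : YE, ∃ n : ℕ, 0 < n ∧ n • e = 0)
  (invJ : YJ →+ T)
  (hA : ∀ c : YC, c ∈ primary p YC → ∃ y : YJ, y ∈ primary p YJ ∧ π y = c)
  (hBto : ∀ e : YE, (∃ n : ℕ, (p ^ n) • e = 0) → invJ (i e) = 0)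
  (hBfrom : ∀ y : YJ, y ∈ primary p YJ → invJ y = 0 → y ∈ Set.range i)

include hπi hex htE hA hBto hBfrom in
/-- the statement of helper33 #2203 (a), with a TOTAL idelic invariant `invJ : Y_J →+ T`. -/
theorem exists_invCp_of_total :
    ∃ invC : primary p YC →+ T,
      (∀ y : primary p YJ, invC (mapPrimary p π y) = invJ (y : YJ)) ∧
      (∀ c : primary p YC, invC c = 0 → c = 0) := by
  refine exists_invCp p i π hπi hex htE (invJ.comp (primary p YJ).subtype) ?_ ?_ ?_
  · intro c
    obtain ⟨y, hy, hyc⟩ := hA c c.2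
    exact ⟨⟨y, hy⟩, Subtype.ext hyc⟩
  · intro e
    exact hBto e e.2
  · intro y hy
    exact hBfrom y y.2 hy

end Total

/-! ### composition with `PrimaryExt14.exists_total_inv` -/

section Formation

variable {W : Type*} [Fintype W]
  (hπi : ∀ e, π (i e) = 0) (hex : ∀ y, π y = 0 → y ∈ Set.range i)
  (htE : ∀ e : YE, ∃ n : ℕ, 0 < n ∧ n • e = 0)
  (htJ : ∀ y : YJ, ∃ n : ℕ, 0 < n ∧ n • y = 0)
  (htC : ∀ c : YC, ∃ n : ℕ, 0 < n ∧ n • c = 0)
  (invJp : W → (primary p YJ →+ T))
  (hinjp : ∀ x : primary p YJ, (∀ w, invJp w x = 0) → x = 0)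
  (hsurjp : ∀ (t : W → T) (n : ℕ), (∀ w, (p ^ n) • t w = 0) →
    ∃ x : primary p YJ, (p ^ n) • x = 0 ∧ ∀ w, invJp w x = t w)
  (hA : ∀ c : primary p YC, ∃ y : primary p YJ, mapPrimary p π y = c)
  (hBto : ∀ e : primary p YE, ∑ w, invJp w (mapPrimary p i e) = 0)
  (hBfrom : ∀ y : primary p YJ, ∑ w, invJp w y = 0 → (y : YJ) ∈ Set.range i)

include hπi hex htE htJ htC hinjp hsurjp hA hBto hBfrom in
/-- **The formation invariants from the limit data.**  Local invariants `invJp w` on the
`p`-primary part of `Y_J` (jointly injective, jointly surjective onto `p`-primary families), with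
(A), reciprocity (B→) and Hasse (B←) for their SUM, give TOTAL additive maps `invJ w`, `invC`
satisfying `hinj`, `hsurj`, `hinjC`, `hcompat` of `CDArith63.h3Van_of_formation'` verbatim
(`X = Y_J`, `Y = Y_C`, `φ = π`). -/
theorem exists_formation_inv :
    ∃ (invJ : W → (YJ →+ T)) (invC : YC →+ T),
      (∀ w (x : primary p YJ), invJ w (x : YJ) = invJp w x) ∧
      (∀ (x : YJ) (n : ℕ), (p ^ n) • x = 0 → (∀ w, invJ w x = 0) → x = 0) ∧
      (∀ (t : W → T) (n : ℕ), (∀ w, (p ^ n) • t w = 0) →
        ∃ x : YJ, (p ^ n) • x = 0 ∧ ∀ w, invJ w x = t w) ∧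
      (∀ (y : YC) (n : ℕ), (p ^ n) • y = 0 → invC y = 0 → y = 0) ∧
      (∀ x : YJ, invC (π x) = ∑ w, invJ w x) := by
  have hsum : ∀ y : primary p YJ, (∑ w, invJp w) y = ∑ w, invJp w y := fun y => by
    simp only [AddMonoidHom.coe_finsetSum, Finset.sum_apply]
  obtain ⟨invCp, hcompatp, hinjCp⟩ := exists_invCp p i π hπi hex htE (∑ w, invJp w) hA
    (fun e => by rw [hsum]; exact hBto e) (fun y hy => hBfrom y (by rw [← hsum]; exact hy))
  obtain ⟨invJ, invC, h1, -, h3, h4, h5, h6⟩ := exists_total_inv p htJ htC π invJp invCp hinjp hsurjp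
    hinjCp (fun x => by rw [hcompatp, hsum])
  exact ⟨invJ, invC, h1, h3, h4, h5, h6⟩

end Formation

end Fermat.Agent.S55.LimAlg14
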