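/-
S55 package [HERBRAND] (helper54), part B3: the cyclic Herbrand pair computes Mathlib's
`groupCohomology` of a finite cyclic group.

For `A : Rep k G`, `G` finite cyclic generated by `g`:
`H0 (cyclicPair (repRho A) g) ≃+ groupCohomology A i` for `i` even, `i ≠ 0`, and
`H1 (cyclicPair (repRho A) g) ≃+ groupCohomology A i` for `i` odd.
Mathlib only (+ Herbrand54, HerbrandCyclic54).
-/
import Mathlib
import Fermat.Agent.S55.HerbrandCyclic54

set_option autoImplicit false

namespace Fermat.Agent.S55.HerbrandRep54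

open Fermat.Agent.S55.Herbrand54 Fermat.Agent.S55.HerbrandCyclic54 CategoryTheory

universe u

variable {k G : Type u} [CommRing k] [CommGroup G] [Fintype G] (A : Rep k G) (g : G)
  (hg : ∀ x, x ∈ Subgroup.zpowers g)

/-- The action of `G` on the underlying abelian group of `A : Rep k G`. -/
def repRho : G →* AddMonoid.End A.V where
  toFun τ := (A.ρ τ).toAddMonoidHom
  map_one' := by
    rw [map_one]
    rfl
  map_mul' σ τ := by
    rw [map_mul]
    rfl

omit [Fintype G] in
theorem repRho_apply (τ : G) (x : A.V) : repRho A τ x = A.ρ τ x := rfl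

theorem normHom_repRho (x : A.V) : HerbrandCyclic54.normHom (repRho A) x = A.ρ.norm x := by
  rw [HerbrandCyclic54.normHom_apply]
  simp [Representation.norm, repRho_apply]

theorem mem_ker_sub_iff (x : A.V) :
    x ∈ LinearMap.ker (Rep.applyAsHom A g - 𝟙 A).hom.toLinearMap ↔
      (cyclicPair (repRho A) g).f x = 0 := by
  rw [LinearMap.mem_ker, cyclicPair_f_apply, repRho_apply]
  simp [Rep.sub_hom]

theorem mem_ker_norm_iff (x : A.V) :
    x ∈ LinearMap.ker A.norm.hom.toLinearMap ↔ (cyclicPair (repRho A) g).g x = 0 := by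
  rw [LinearMap.mem_ker, cyclicPair_g_apply, normHom_repRho]
  rfl

theorem mem_range_sub_iff (x : A.V) :
    x ∈ LinearMap.range (Rep.applyAsHom A g - 𝟙 A).hom.toLinearMap ↔
      ∃ y, (cyclicPair (repRho A) g).f y = x := by
  rw [LinearMap.mem_range]
  refine exists_congr fun y => ?_
  rw [cyclicPair_f_apply, repRho_apply]
  simp [Rep.sub_hom]

theorem mem_range_norm_iff (x : A.V) :
    x ∈ LinearMap.range A.norm.hom.toLinearMap ↔ ∃ y, (cyclicPair (repRho A) g).g y = x := by
  rw [LinearMap.mem_range]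
  refine exists_congr fun y => ?_
  rw [cyclicPair_g_apply, normHom_repRho]
  rfl

/-! ### Even degrees -/

/-- `ker f` of the cyclic pair as Mathlib's `ker (ρ g - 1)`. -/
def kerSubHom : (cyclicPair (repRho A) g).f.ker →+
    LinearMap.ker (Rep.applyAsHom A g - 𝟙 A).hom.toLinearMap where
  toFun x := ⟨x.1, (mem_ker_sub_iff A g x.1).2 x.2⟩
  map_zero' := rfl
  map_add' _ _ := rfl

/-- The quotient map `ker f → H^i(G, A)`, `i` even and nonzero. -/
noncomputable def evenHom (i : ℕ) [NeZero i] (hi : Even i) :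
    (cyclicPair (repRho A) g).f.ker →+ groupCohomology A i :=
  ((Rep.FiniteCyclicGroup.groupCohomologyπEven A g hg i hi).hom.toAddMonoidHom).comp
    (kerSubHom A g)

theorem evenHom_eq_zero_iff (i : ℕ) [NeZero i] (hi : Even i)
    (x : (cyclicPair (repRho A) g).f.ker) :
    evenHom A g hg i hi x = 0 ↔ ∃ y, (cyclicPair (repRho A) g).g y = x := by
  rw [← mem_range_norm_iff]
  exact Rep.FiniteCyclicGroup.groupCohomologyπEven_eq_zero_iff A g hg i hi (kerSubHom A g x)

theorem evenHom_surjective (i : ℕ) [NeZero i] (hi : Even i) :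
    Function.Surjective (evenHom A g hg i hi) := by
  have h0 : Epi ((Rep.FiniteCyclicGroup.normHomCompSub A g).moduleCatCyclesIso.inv ≫
      (Rep.FiniteCyclicGroup.normHomCompSub A g).homologyπ ≫
        (Rep.FiniteCyclicGroup.groupCohomologyIsoEven A g hg i hi).inv) :=
    epi_comp' inferInstance (epi_comp' inferInstance inferInstance)
  have h1 : Function.Surjective (Rep.FiniteCyclicGroup.groupCohomologyπEven A g hg i hi) :=
    (ModuleCat.epi_iff_surjective _).1 h0
  intro z
  obtain ⟨x, rfl⟩ := h1 z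
  exact ⟨⟨x.1, (mem_ker_sub_iff A g x.1).1 x.2⟩, rfl⟩

/-- `H0` of the cyclic pair is `H^i(G, A)` for `i` even and nonzero. -/
noncomputable def H0equivEven (i : ℕ) [NeZero i] (hi : Even i) :
    (cyclicPair (repRho A) g).H0 ≃+ groupCohomology A i := by
  have hle : (cyclicPair (repRho A) g).B0 ≤ (evenHom A g hg i hi).ker := by
    intro x hx
    rw [AddMonoidHom.mem_ker, evenHom_eq_zero_iff]
    exact (Pair.mem_B0 _ x).1 hx
  refine AddEquiv.ofBijective (QuotientAddGroup.lift _ (evenHom A g hg i hi) hle) ⟨?_, ?_⟩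
  · rw [injective_iff_map_eq_zero]
    intro z hz
    obtain ⟨x, rfl⟩ := QuotientAddGroup.mk_surjective z
    rw [QuotientAddGroup.lift_mk, evenHom_eq_zero_iff] at hz
    rw [QuotientAddGroup.eq_zero_iff, Pair.mem_B0]
    exact hz
  · intro z
    obtain ⟨x, rfl⟩ := evenHom_surjective A g hg i hi z
    exact ⟨QuotientAddGroup.mk x, rfl⟩

/-! ### Odd degrees -/

/-- `ker g` of the cyclic pair as Mathlib's `ker N`. -/
def kerNormHom :
    (cyclicPair (repRho A) g).swap.f.ker →+ LinearMap.ker A.norm.hom.toLinearMap where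
  toFun x := ⟨x.1, (mem_ker_norm_iff A g x.1).2 x.2⟩
  map_zero' := rfl
  map_add' _ _ := rfl

/-- The quotient map `ker N → H^i(G, A)`, `i` odd. -/
noncomputable def oddHom (i : ℕ) (hi : Odd i) :
    (cyclicPair (repRho A) g).swap.f.ker →+ groupCohomology A i :=
  ((Rep.FiniteCyclicGroup.groupCohomologyπOdd A g hg i hi).hom.toAddMonoidHom).comp
    (kerNormHom A g)

theorem oddHom_eq_zero_iff (i : ℕ) (hi : Odd i) (x : (cyclicPair (repRho A) g).swap.f.ker) :
    oddHom A g hg i hi x = 0 ↔ ∃ y, (cyclicPair (repRho A) g).swap.g y = x := by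
  change _ ↔ ∃ y, (cyclicPair (repRho A) g).f y = x
  rw [← mem_range_sub_iff]
  exact Rep.FiniteCyclicGroup.groupCohomologyπOdd_eq_zero_iff A g hg i hi (kerNormHom A g x)

theorem oddHom_surjective (i : ℕ) (hi : Odd i) :
    Function.Surjective (oddHom A g hg i hi) := by
  have h0 : Epi ((Rep.FiniteCyclicGroup.subCompNormHom A g).moduleCatCyclesIso.inv ≫
      (Rep.FiniteCyclicGroup.subCompNormHom A g).homologyπ ≫
        (Rep.FiniteCyclicGroup.groupCohomologyIsoOdd A g hg i hi).inv) :=
    epi_comp' inferInstance (epi_comp' inferInstance inferInstance)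
  have h1 : Function.Surjective (Rep.FiniteCyclicGroup.groupCohomologyπOdd A g hg i hi) :=
    (ModuleCat.epi_iff_surjective _).1 h0
  intro z
  obtain ⟨x, rfl⟩ := h1 z
  exact ⟨⟨x.1, (mem_ker_norm_iff A g x.1).1 x.2⟩, rfl⟩

/-- `H1` of the cyclic pair is `H^i(G, A)` for `i` odd. -/
noncomputable def H1equivOdd (i : ℕ) (hi : Odd i) :
    (cyclicPair (repRho A) g).H1 ≃+ groupCohomology A i := by
  have hle : (cyclicPair (repRho A) g).swap.B0 ≤ (oddHom A g hg i hi).ker := by
    intro x hx
    rw [AddMonoidHom.mem_ker, oddHom_eq_zero_iff]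
    exact (Pair.mem_B0 _ x).1 hx
  refine AddEquiv.ofBijective (QuotientAddGroup.lift _ (oddHom A g hg i hi) hle) ⟨?_, ?_⟩
  · rw [injective_iff_map_eq_zero]
    intro z hz
    obtain ⟨x, rfl⟩ := QuotientAddGroup.mk_surjective z
    rw [QuotientAddGroup.lift_mk, oddHom_eq_zero_iff] at hz
    rw [QuotientAddGroup.eq_zero_iff, Pair.mem_B0]
    exact hz
  · intro z
    obtain ⟨x, rfl⟩ := oddHom_surjective A g hg i hi z
    exact ⟨QuotientAddGroup.mk x, rfl⟩

/-! ### Consequences -/

include hg

theorem card_H2 : Nat.card (groupCohomology A 2) = Nat.card (cyclicPair (repRho A) g).H0 :=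
  (Nat.card_congr (H0equivEven A g hg 2 (by decide)).toEquiv).symm

theorem card_H1 : Nat.card (groupCohomology A 1) = Nat.card (cyclicPair (repRho A) g).H1 :=
  (Nat.card_congr (H1equivOdd A g hg 1 (by decide)).toEquiv).symm

/-- The Herbrand quotient is `|H²(G, A)| / |H¹(G, A)|`. -/
theorem q_eq_card_H2_div_card_H1 :
    (cyclicPair (repRho A) g).q =
      (Nat.card (groupCohomology A 2) : ℚ) / (Nat.card (groupCohomology A 1) : ℚ) := by
  rw [card_H2 A g hg, card_H1 A g hg]
  rfl

theorem isDefined_iff_finite_H1_H2 :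
    (cyclicPair (repRho A) g).IsDefined ↔
      Finite (groupCohomology A 2) ∧ Finite (groupCohomology A 1) := by
  unfold Pair.IsDefined
  rw [(H0equivEven A g hg 2 (by decide)).toEquiv.finite_iff,
    (H1equivOdd A g hg 1 (by decide)).toEquiv.finite_iff]

/-- Periodicity: `H^i ≃ H^{i+2}` for `i > 0`. -/
noncomputable def periodEquiv (i : ℕ) [NeZero i] :
    groupCohomology A i ≃+ groupCohomology A (i + 2) :=
  if hi : Even i then
    (H0equivEven A g hg i hi).symm.trans (H0equivEven A g hg (i + 2) (hi.add (by decide)))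
  else
    (H1equivOdd A g hg i (Nat.not_even_iff_odd.1 hi)).symm.trans
      (H1equivOdd A g hg (i + 2) ((Nat.not_even_iff_odd.1 hi).add_even (by decide)))

/-- With Hilbert 90 (`H¹ = 0`) the Herbrand quotient is `|H²|`. -/
theorem q_eq_card_H2_of_subsingleton_H1 [Subsingleton (groupCohomology A 1)] :
    (cyclicPair (repRho A) g).q = Nat.card (groupCohomology A 2) := by
  rw [q_eq_card_H2_div_card_H1 A g hg, Nat.card_unique (α := groupCohomology A 1)]
  norm_num

/-- With Hilbert 90 (`H¹ = 0`) the Herbrand quotient is `|H0| = |A^G / N A|`. -/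
theorem q_eq_card_H0_of_subsingleton_H1 [Subsingleton (groupCohomology A 1)] :
    (cyclicPair (repRho A) g).q = Nat.card (cyclicPair (repRho A) g).H0 := by
  rw [q_eq_card_H2_of_subsingleton_H1 A g hg, card_H2 A g hg]

theorem subsingleton_H1_of_subsingleton [Subsingleton (groupCohomology A 1)] :
    Subsingleton (cyclicPair (repRho A) g).H1 :=
  (H1equivOdd A g hg 1 (by decide)).toEquiv.subsingleton

end Fermat.Agent.S55.HerbrandRep54
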