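/-
S55 / seam file (helper33, arithmetic integrator): THE model of `ℚ/ℤ` used as the target `T` of
all invariant maps (`inv q`, `invJ`, `invC`, `hcompat`, `hrec`):

    `QZ := AddCircle (1 : ℚ)`      (the target already used by the local invariant of 22b).

Everything the abstract cores ask of `T` is proved here once:
* `QZ.exists_nsmul_eq_zero`  : `T` is torsion;
* `QZ.exists_nsmul_eq`       : `T` is divisible;
* `QZ.frac a n = a/n mod ℤ`, `QZ.frac_eq_zero_iff`, `QZ.nsmul_eq_zero_iff` : `T[n] = (1/n)ℤ/ℤ`;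
* `QZ.jT n : ZMod n →+ QZ` (`a ↦ a/n`), `jT_injective`, `mem_range_jT`, `torsionEquiv`
  (`T[n] ≃ ℤ/n`; the binders `jT hjT hT` of `Recip70` and `θ` of the `P3P4` wire);
* `QZ.hTdiv`                 : the binder `hTdiv` of `CDArith63.h3Van_of_formation`.
Mathlib only.
-/
import Mathlib

set_option autoImplicit false

namespace Fermat.Agent.S55.QZ33

/-- **THE model of `ℚ/ℤ`**: the target of every invariant map. -/
abbrev QZ : Type := AddCircle (1 : ℚ)

namespace QZ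

theorem coe_eq_zero_iff (x : ℚ) : ((x : ℚ) : QZ) = 0 ↔ ∃ m : ℤ, (m : ℚ) = x := by
  rw [AddCircle.coe_eq_zero_iff]
  simp

theorem exists_coe (t : QZ) : ∃ x : ℚ, ((x : ℚ) : QZ) = t :=
  QuotientAddGroup.mk_surjective t

theorem coe_nsmul (n : ℕ) (x : ℚ) : n • ((x : ℚ) : QZ) = (((n : ℚ) * x : ℚ) : QZ) := by
  rw [← AddCircle.coe_nsmul, nsmul_eq_mul]

theorem coe_zsmul (n : ℤ) (x : ℚ) : n • ((x : ℚ) : QZ) = (((n : ℚ) * x : ℚ) : QZ) := by
  rw [← AddCircle.coe_zsmul, zsmul_eq_mul]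

/-- `ℚ/ℤ` is a torsion group. -/
theorem exists_nsmul_eq_zero (t : QZ) : ∃ n : ℕ, 0 < n ∧ n • t = 0 := by
  obtain ⟨x, rfl⟩ := exists_coe t
  refine ⟨x.den, x.den_pos, ?_⟩
  rw [coe_nsmul, coe_eq_zero_iff]
  exact ⟨x.num, by rw [mul_comm]; exact (Rat.mul_den_eq_num x).symm⟩

/-- `ℚ/ℤ` is divisible. -/
theorem exists_nsmul_eq (n : ℕ) (hn : n ≠ 0) (t : QZ) : ∃ s : QZ, n • s = t := by
  obtain ⟨x, rfl⟩ := exists_coe t
  refine ⟨((x / n : ℚ) : QZ), ?_⟩
  have hn' : (n : ℚ) ≠ 0 := by exact_mod_cast hn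
  rw [coe_nsmul, mul_div_cancel₀ _ hn']

/-- the class of `a / n`. -/
def frac (a : ℤ) (n : ℕ) : QZ := (((a : ℚ) / (n : ℚ) : ℚ) : QZ)

theorem frac_def (a : ℤ) (n : ℕ) : frac a n = (((a : ℚ) / (n : ℚ) : ℚ) : QZ) := rfl

@[simp] theorem frac_zero (n : ℕ) : frac 0 n = 0 := by
  simp [frac]

theorem frac_add (a b : ℤ) (n : ℕ) : frac (a + b) n = frac a n + frac b n := by
  simp only [frac]
  rw [← AddCircle.coe_add]
  congr 1
  push_cast
  ring

theorem frac_neg (a : ℤ) (n : ℕ) : frac (-a) n = - frac a n := by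
  simp only [frac]
  rw [← AddCircle.coe_neg]
  congr 1
  push_cast
  ring

theorem frac_sub (a b : ℤ) (n : ℕ) : frac (a - b) n = frac a n - frac b n := by
  rw [sub_eq_add_neg, frac_add, frac_neg, sub_eq_add_neg]

theorem nsmul_frac (m : ℕ) (a : ℤ) (n : ℕ) : m • frac a n = frac (m * a) n := by
  simp only [frac]
  rw [coe_nsmul]
  congr 1
  push_cast
  ring

theorem zsmul_frac (m : ℤ) (a : ℤ) (n : ℕ) : m • frac a n = frac (m * a) n := by
  simp only [frac]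
  rw [coe_zsmul]
  congr 1
  push_cast
  ring

theorem frac_eq_zsmul (a : ℤ) (n : ℕ) : frac a n = a • frac 1 n := by
  rw [zsmul_frac, mul_one]

theorem frac_eq_zero_iff (a : ℤ) {n : ℕ} (hn : n ≠ 0) : frac a n = 0 ↔ (n : ℤ) ∣ a := by
  have hn' : (n : ℚ) ≠ 0 := by exact_mod_cast hn
  rw [frac, coe_eq_zero_iff]
  constructor
  · rintro ⟨m, hm⟩
    refine ⟨m, ?_⟩
    have h : (a : ℚ) = (n : ℚ) * m := by
      rw [hm, mul_div_cancel₀ _ hn']
    exact_mod_cast h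
  · rintro ⟨m, rfl⟩
    refine ⟨m, ?_⟩
    push_cast
    rw [mul_div_cancel_left₀ _ hn']

theorem frac_self (n : ℕ) : frac n n = 0 := by
  rcases Nat.eq_zero_or_pos n with rfl | hn
  · simp
  · exact (frac_eq_zero_iff _ hn.ne').2 (dvd_refl _)

theorem nsmul_frac_self (a : ℤ) (n : ℕ) : n • frac a n = 0 := by
  rcases Nat.eq_zero_or_pos n with rfl | hn
  · simp
  · rw [nsmul_frac]
    exact (frac_eq_zero_iff _ hn.ne').2 (dvd_mul_right _ _)

theorem frac_eq_frac_iff (a b : ℤ) {n : ℕ} (hn : n ≠ 0) :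
    frac a n = frac b n ↔ (a : ZMod n) = (b : ZMod n) := by
  rw [← sub_eq_zero, ← frac_sub, frac_eq_zero_iff _ hn, eq_comm,
    ZMod.intCast_eq_intCast_iff_dvd_sub]

/-- cancelling a common factor: `(m a)/(m n) = a/n`. -/
theorem frac_mul_mul (a : ℤ) (n : ℕ) {m : ℕ} (hm : m ≠ 0) :
    frac ((m : ℤ) * a) (m * n) = frac a n := by
  have hm' : (m : ℚ) ≠ 0 := by exact_mod_cast hm
  simp only [frac]
  congr 1
  push_cast
  rw [mul_div_mul_left _ _ hm']

/-- **`T[n] = (1/n)ℤ/ℤ`**. -/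
theorem nsmul_eq_zero_iff {n : ℕ} (hn : n ≠ 0) (t : QZ) : n • t = 0 ↔ ∃ a : ℤ, t = frac a n := by
  have hn' : (n : ℚ) ≠ 0 := by exact_mod_cast hn
  constructor
  · intro h
    obtain ⟨x, rfl⟩ := exists_coe t
    rw [coe_nsmul, coe_eq_zero_iff] at h
    obtain ⟨m, hm⟩ := h
    refine ⟨m, ?_⟩
    rw [frac, hm, mul_div_cancel_left₀ _ hn']
  · rintro ⟨a, rfl⟩
    exact nsmul_frac_self a n

/-- every element is a fraction. -/
theorem exists_eq_frac (t : QZ) : ∃ (a : ℤ) (n : ℕ), 0 < n ∧ t = frac a n := by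
  obtain ⟨n, hn, h⟩ := exists_nsmul_eq_zero t
  obtain ⟨a, ha⟩ := (nsmul_eq_zero_iff hn.ne' t).1 h
  exact ⟨a, n, hn, ha⟩

/-! ### `ℤ/n = T[n]` -/

section jT

variable (n : ℕ)

/-- `ℤ →+ ℚ/ℤ`, `a ↦ a/n`. -/
def fracHom : ℤ →+ QZ where
  toFun a := frac a n
  map_zero' := frac_zero n
  map_add' a b := frac_add a b n

@[simp] theorem fracHom_apply (a : ℤ) : fracHom n a = frac a n := rfl

/-- **`jT n : ℤ/n →+ ℚ/ℤ`, `a ↦ a/n`** (the inclusion of the `n`-torsion). -/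
def jT : ZMod n →+ QZ :=
  ZMod.lift n ⟨fracHom n, frac_self n⟩

@[simp] theorem jT_intCast (a : ℤ) : jT n (a : ZMod n) = frac a n := by
  rw [jT, ZMod.lift_coe]
  rfl

@[simp] theorem jT_natCast (a : ℕ) : jT n (a : ZMod n) = frac a n := by
  have := jT_intCast n (a : ℤ)
  rwa [Int.cast_natCast] at this

theorem jT_one : jT n 1 = frac 1 n := by
  have := jT_intCast n 1
  rwa [Int.cast_one] at this

theorem nsmul_jT (x : ZMod n) : n • jT n x = 0 := by
  rw [← map_nsmul]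
  have : n • x = 0 := by
    rw [nsmul_eq_mul, ZMod.natCast_self, zero_mul]
  rw [this, map_zero]

variable {n}

theorem jT_injective (hn : n ≠ 0) : Function.Injective (jT n) := by
  rw [injective_iff_map_eq_zero]
  intro x hx
  obtain ⟨a, rfl⟩ := ZMod.intCast_surjective x
  rw [jT_intCast, frac_eq_zero_iff _ hn] at hx
  exact (ZMod.intCast_zmod_eq_zero_iff_dvd a n).2 hx

/-- **`T[n] ⊆ range (jT n)`**. -/
theorem mem_range_jT (hn : n ≠ 0) {t : QZ} (ht : n • t = 0) : t ∈ Set.range (jT n) := by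
  obtain ⟨a, rfl⟩ := (nsmul_eq_zero_iff hn t).1 ht
  exact ⟨(a : ZMod n), jT_intCast n a⟩

theorem mem_range_jT_iff (hn : n ≠ 0) {t : QZ} : t ∈ Set.range (jT n) ↔ n • t = 0 :=
  ⟨by rintro ⟨x, rfl⟩; exact nsmul_jT n x, mem_range_jT hn⟩

/-- `T[n]` as the kernel of multiplication by `n`. -/
abbrev tors (n : ℕ) : AddSubgroup QZ := AddMonoidHom.ker (nsmulAddMonoidHom n : QZ →+ QZ)

theorem mem_tors_iff {n : ℕ} {t : QZ} : t ∈ tors n ↔ n • t = 0 := Iff.rfl

/-- **`ℤ/n ≃+ T[n]`**. -/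
noncomputable def torsionEquiv (hn : n ≠ 0) : ZMod n ≃+ ↥(tors n) :=
  AddEquiv.ofBijective
    ((jT n).codRestrict (tors n) (fun x => nsmul_jT n x))
    ⟨fun x y h => jT_injective hn (congrArg Subtype.val h), fun t => by
      obtain ⟨x, hx⟩ := mem_range_jT hn (mem_tors_iff.1 t.2)
      exact ⟨x, Subtype.ext hx⟩⟩

@[simp] theorem coe_torsionEquiv (hn : n ≠ 0) (x : ZMod n) :
    ((torsionEquiv hn x : ↥(tors n)) : QZ) = jT n x := rfl

/-- **`θ : T[n] →+ ℤ/n`, injective** (the binder `θ` of the `P3P4` wire). -/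
noncomputable def theta (hn : n ≠ 0) : ↥(tors n) →+ ZMod n := (torsionEquiv hn).symm.toAddMonoidHom

theorem theta_injective (hn : n ≠ 0) : Function.Injective (theta hn) :=
  (torsionEquiv hn).symm.injective

theorem jT_theta (hn : n ≠ 0) (t : ↥(tors n)) : jT n (theta hn t) = t := by
  have := (torsionEquiv hn).apply_symm_apply t
  exact congrArg Subtype.val this

theorem theta_jT (hn : n ≠ 0) (x : ZMod n) :
    theta hn ⟨jT n x, nsmul_jT n x⟩ = x :=
  (torsionEquiv hn).symm_apply_apply x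

end jT

/-! ### the binder `hTdiv` of `CDArith63` -/

/-- **`hTdiv`**: a `p^n`-torsion element is `p` times a `p^(n+1)`-torsion element. -/
theorem hTdiv (p : ℕ) (hp : p ≠ 0) (t : QZ) (n : ℕ) (ht : (p ^ n) • t = 0) :
    ∃ t' : QZ, p • t' = t ∧ (p ^ (n + 1)) • t' = 0 := by
  obtain ⟨t', rfl⟩ := exists_nsmul_eq p hp t
  exact ⟨t', rfl, by rw [pow_succ, mul_smul]; exact ht⟩

/-- the general form: any torsion order. -/
theorem exists_nsmul_eq_of_nsmul_eq_zero (m : ℕ) (hm : m ≠ 0) (t : QZ) (n : ℕ) (ht : n • t = 0) :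
    ∃ t' : QZ, m • t' = t ∧ (n * m) • t' = 0 := by
  obtain ⟨t', rfl⟩ := exists_nsmul_eq m hm t
  exact ⟨t', rfl, by rw [mul_smul]; exact ht⟩

/-- a sum of `n`-torsion elements is zero iff the sum of the `ℤ/n`-coordinates is zero. -/
theorem sum_jT_eq_zero_iff {n : ℕ} (hn : n ≠ 0) {ι : Type*} (s : Finset ι) (f : ι → ZMod n) :
    ∑ i ∈ s, jT n (f i) = 0 ↔ ∑ i ∈ s, f i = 0 := by
  rw [← map_sum]
  exact ⟨fun h => jT_injective hn (by rw [h, map_zero]), fun h => by rw [h, map_zero]⟩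

end QZ

end Fermat.Agent.S55.QZ33
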