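/-
S55 spine (helper15): the frozen statement only asks for the EXISTENCE of a two-sided
nondegenerate bilinear form, so it follows from finiteness + equality of dimensions.
-/
import Fermat.Statements.S55

set_option autoImplicit false

open CategoryTheory Module groupCohomology ExtCitation

namespace Fermat.Agent.S55.Spine15

/-- Pure linear algebra: two finite-dimensional spaces of the same dimension carry a
two-sided nondegenerate bilinear form. -/
theorem exists_nondegenerate_of_finrank_eq {k : Type*} [Field k]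
    {V W : Type*} [AddCommGroup V] [Module k V] [AddCommGroup W] [Module k W]
    [FiniteDimensional k V] [FiniteDimensional k W]
    (h : finrank k V = finrank k W) :
    ∃ B : V →ₗ[k] W →ₗ[k] k,
      (∀ y, (∀ x, B y x = 0) → y = 0) ∧ (∀ x, (∀ y, B y x = 0) → x = 0) := by
  classical
  have h' : finrank k V = finrank k (Module.Dual k W) := by
    rw [h, Subspace.dual_finrank_eq]
  obtain ⟨e⟩ := FiniteDimensional.nonempty_linearEquiv_of_finrank_eq h'
  refine ⟨e.toLinearMap, ?_, ?_⟩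
  · intro y hy
    have : e y = 0 := LinearMap.ext hy
    exact e.map_eq_zero_iff.1 this
  · intro x hx
    by_contra hx0
    obtain ⟨f, hf⟩ : ∃ f : Module.Dual k W, f x ≠ 0 := by
      by_contra hcon
      simp only [not_exists, not_not] at hcon
      exact hx0 ((Module.forall_dual_apply_eq_zero_iff k x).1 hcon)
    apply hf
    have := hx (e.symm f)
    simpa using this

/-- **Spine of S55**: the frozen statement follows from finiteness of both Tate–Shafarevich
groups together with equality of their dimensions. -/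
theorem s55_of_finrank_eq
    {p : ℕ} [Fact p.Prime] (S : Finset Nat.Primes)
    (M : Rep (ZMod p) (AlgebraicClosure ℚ ≃ₐ[ℚ] AlgebraicClosure ℚ))
    (hfin₁ : FiniteDimensional (ZMod p) (sha₁ S (M.dualTwist (cycloChar p))))
    (hfin₂ : FiniteDimensional (ZMod p) (sha₂ S M))
    (hdim : finrank (ZMod p) (sha₁ S (M.dualTwist (cycloChar p))) =
      finrank (ZMod p) (sha₂ S M)) :
    ∃ B : sha₁ S (M.dualTwist (cycloChar p)) →ₗ[ZMod p] sha₂ S M →ₗ[ZMod p] ZMod p,
      (∀ y, (∀ x, B y x = 0) → y = 0) ∧ (∀ x, (∀ y, B y x = 0) → x = 0) :=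
  exists_nondegenerate_of_finrank_eq hdim

/-- The plug Prop of the spine: everything S55 needs. -/
def DimStatement : Prop :=
  ∀ {p : ℕ} [Fact p.Prime], p ≠ 2 → ∀ (S : Finset Nat.Primes), pPrime p ∈ S →
    ∀ (M : Rep (ZMod p) (AlgebraicClosure ℚ ≃ₐ[ℚ] AlgebraicClosure ℚ))
      [FiniteDimensional (ZMod p) M],
      (∀ m : M, ∃ F : IntermediateField ℚ (AlgebraicClosure ℚ), FiniteDimensional ℚ F ∧
        ∀ s ∈ F.fixingSubgroup, M.ρ s m = m) →
      (∀ q : Nat.Primes, q ∉ S → ∀ A : ValuationSubring (AlgebraicClosure ℚ),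
        A.LiesOverPrime (q : ℕ) → ∀ g ∈ A.inertiaSubgroupIn ℚ, M.ρ g = 1) →
      FiniteDimensional (ZMod p) (sha₁ S (M.dualTwist (cycloChar p))) ∧
      FiniteDimensional (ZMod p) (sha₂ S M) ∧
      finrank (ZMod p) (sha₁ S (M.dualTwist (cycloChar p))) = finrank (ZMod p) (sha₂ S M)

theorem s55_of_dimStatement (H : DimStatement)
    {p : ℕ} [Fact p.Prime] (hp2 : p ≠ 2) (S : Finset Nat.Primes) (hpS : pPrime p ∈ S)
    (M : Rep (ZMod p) (AlgebraicClosure ℚ ≃ₐ[ℚ] AlgebraicClosure ℚ))
    [FiniteDimensional (ZMod p) M]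
    (hsm : ∀ m : M, ∃ F : IntermediateField ℚ (AlgebraicClosure ℚ), FiniteDimensional ℚ F ∧
      ∀ s ∈ F.fixingSubgroup, M.ρ s m = m)
    (hMur : ∀ q : Nat.Primes, q ∉ S → ∀ A : ValuationSubring (AlgebraicClosure ℚ),
      A.LiesOverPrime (q : ℕ) → ∀ g ∈ A.inertiaSubgroupIn ℚ, M.ρ g = 1) :
    ∃ B : sha₁ S (M.dualTwist (cycloChar p)) →ₗ[ZMod p] sha₂ S M →ₗ[ZMod p] ZMod p,
      (∀ y, (∀ x, B y x = 0) → y = 0) ∧ (∀ x, (∀ y, B y x = 0) → x = 0) := by
  obtain ⟨h1, h2, h3⟩ := H hp2 S hpS M hsm hMur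
  exact s55_of_finrank_eq S M h1 h2 h3

end Fermat.Agent.S55.Spine15
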