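/-
S55 blueprint contract (helper34): the EXACT arithmetic plugs consumed by the top layer of
route R3 (dualizing module, finite level), stated in the Prelude vocabulary
(`continuousH2S`, `continuousH2`, `locRes₂S`, `sha₂`) plus `Profin15.globalLevels`.

No Galois-equivariance statement occurs: the identification of `ker (J → I)` with the diagonal
copy of `μ_p` follows from reciprocity over `ℚ` together with a dimension count.

This file contains only definitions (`Prop`s); producers prove them, the top layer consumes them.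
-/
import Fermat.Agent.S55.Spine15
import Fermat.Agent.S55.Profin15.Global

set_option autoImplicit false

open CategoryTheory Module groupCohomology ExtCitation
open Fermat.Agent.S55.Profin15
open Fermat.Agent.Lib.FrobeniusExists (Qb GQ)

namespace Fermat.Agent.S55.Contract34

variable (p : ℕ) [Fact p.Prime] (S : Finset Nat.Primes)

/-- `M` is trivialised by a Galois level unramified outside `S`. -/
def IsSRep (M : Rep.{0} (ZMod p) GQ) : Prop :=
  ∃ U ∈ (globalLevels S).levels, ∀ s ∈ U, M.ρ s = 1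

/-- a representation of the local Galois group at `q` trivialised by a finite level -/
def IsLocRep (q : Nat.Primes) (N : Rep.{0} (ZMod p) (primeLocalGaloisGroup q)) : Prop :=
  ∃ F : IntermediateField ℚ Qb, FiniteDimensional ℚ F ∧
    ∀ h : primeLocalGaloisGroup q, primeLocalToGlobal q h ∈ F.fixingSubgroup → N.ρ h = 1

/-- `μ_p = 𝔽_p(1)` as a representation of `G_ℚ` on `ZMod p`. -/
noncomputable abbrev mu : Rep.{0} (ZMod p) GQ :=
  (Rep.trivial (ZMod p) GQ (ZMod p)).twist (cycloChar p)

/-- the permutation module `𝔽_p[G_ℚ/U]` (= induced module from `U`). -/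
noncomputable abbrev perm (U : Subgroup GQ) : Rep.{0} (ZMod p) GQ :=
  Rep.ofMulAction (ZMod p) GQ (GQ ⧸ U)

/-- the projection `𝔽_p[G/V] → 𝔽_p[G/U]` for `V ≤ U` (it corresponds to corestriction). -/
noncomputable def permProj {U V : Subgroup GQ} (h : V ≤ U) :
    perm p V →ₗ[ZMod p] perm p U :=
  MonoidAlgebra.mapDomainLinearMap (R := ZMod p) (S := ZMod p) (Subgroup.quotientMapOfLE h)

/-- (P1) `H²(G_S, -)` is right exact on finite modules: global `cd_p ≤ 2`, cocycle form. -/
def GlobalRightExact : Prop :=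
  ∀ (M N : Rep.{0} (ZMod p) GQ) [FiniteDimensional (ZMod p) M] [FiniteDimensional (ZMod p) N],
    IsSRep p S M → IsSRep p S N → ∀ g : M ⟶ N, Function.Surjective g.hom →
    ∀ f : GQ × GQ → N, f ∈ levelCocyclesS₂ S N →
      ∃ f' : GQ × GQ → M, f' ∈ levelCocyclesS₂ S M ∧
        (fun x => g.hom (f' x) - f x) ∈ levelCoboundariesS₂ S N

/-- (P2) `H²(G_{ℚ_q}, -)` is right exact on finite modules: local `cd_p ≤ 2`, cocycle form. -/
def LocalRightExact (q : Nat.Primes) : Prop :=
  ∀ (M N : Rep.{0} (ZMod p) (primeLocalGaloisGroup q))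
    [FiniteDimensional (ZMod p) M] [FiniteDimensional (ZMod p) N],
    IsLocRep p q M → IsLocRep p q N → ∀ g : M ⟶ N, Function.Surjective g.hom →
    ∀ f : primeLocalGaloisGroup q × primeLocalGaloisGroup q → N,
      f ∈ levelCocycles₂ (primeLocalToGlobal q) N →
      ∃ f' : primeLocalGaloisGroup q × primeLocalGaloisGroup q → M,
        f' ∈ levelCocycles₂ (primeLocalToGlobal q) M ∧
        (fun x => g.hom (f' x) - f x) ∈ levelCoboundaries₂ (primeLocalToGlobal q) N

/-- (P3)+(P4) nonzero local functionals on `H²(G_{ℚ_q}, μ_p)` (`q ∈ S`) whose sum kills the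
global classes: the reciprocity law over `ℚ` for `H²(G_S, μ_p)`.  Any system of (possibly
renormalised) invariants works. -/
def Reciprocity : Prop :=
  ∃ lam : ∀ q : ↥S, continuousH2 (primeLocalToGlobal q.1)
      (Rep.res (primeLocalToGlobal q.1) (mu p)) →ₗ[ZMod p] ZMod p,
    (∀ q, lam q ≠ 0) ∧
    ∀ x : continuousH2S S (mu p),
      ∑ q : ↥S, lam q (locRes₂S S (mu p) (primeLocalToGlobal q.1) x) = 0

/-- (P5) for a level `U` (fixed field `L ∋ ζ_p`) and `q ∈ S`:
`dim H²(G_{ℚ_q}, 𝔽_p[G/U]) ≤ #{places of L above q}` (non-equivariant Shapiro/Mackey +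
`|Br(L_w)[p]| = p`). -/
def LocalDim : Prop :=
  ∀ q : ↥S, ∀ U ∈ (globalLevels S).levels, (∀ s ∈ U, (mu p).ρ s = 1) →
    Module.Finite (ZMod p)
      (continuousH2 (primeLocalToGlobal q.1) (Rep.res (primeLocalToGlobal q.1) (perm p U))) ∧
    finrank (ZMod p)
      (continuousH2 (primeLocalToGlobal q.1) (Rep.res (primeLocalToGlobal q.1) (perm p U))) ≤
      Nat.card (DoubleCoset.Quotient ((primeLocalToGlobal q.1).range : Set GQ) (U : Set GQ))

/-- (P6) for a level `U` (fixed field `L ∋ ζ_p`): `H²(G_S, 𝔽_p[G/U])` is finite and the cokernel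
of the total localisation map at the finite places of `S` has dimension `≤ 1`
(`H²(G_{L,S}, μ_p) → ⊕_{w ∣ S} Br(L_w)[p] → 𝔽_p → 0`, the half "`⊇ ker(sum)`"). -/
def GlobalCokerDim : Prop :=
  ∀ U ∈ (globalLevels S).levels, (∀ s ∈ U, (mu p).ρ s = 1) →
    Module.Finite (ZMod p) (continuousH2S S (perm p U)) ∧
    ∑ q : ↥S, finrank (ZMod p)
        (continuousH2 (primeLocalToGlobal q.1) (Rep.res (primeLocalToGlobal q.1) (perm p U))) ≤
      finrank (ZMod p) (LinearMap.range (LinearMap.pi fun q : ↥S =>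
        locRes₂S S (perm p U) (primeLocalToGlobal q.1))) + 1

/-- (P7) PLUG-HILBERT: every level `U` has a smaller level `V` such that the projection
`𝔽_p[G/V] → 𝔽_p[G/U]` kills `sha₂` (the norm `Cl_S(L_V)/p → Cl_S(L_U)/p` is zero). -/
def HilbertPlug : Prop :=
  ∀ U ∈ (globalLevels S).levels, ∃ V ∈ (globalLevels S).levels, ∃ h : V ≤ U,
    ∀ f : ↥(levelCocyclesS₂ S (perm p V)),
      continuousH2Sπ S (perm p V) f ∈ sha₂ S (perm p V) →
      (fun x => permProj p h (f.1 x)) ∈ levelCoboundariesS₂ S (perm p U)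

/-- all plugs for a fixed `(p, S)` -/
def Plugs : Prop :=
  GlobalRightExact p S ∧ (∀ q ∈ S, LocalRightExact p q) ∧ Reciprocity p S ∧
    LocalDim p S ∧ GlobalCokerDim p S ∧ HilbertPlug p S

/-- the conclusion of the top layer for a fixed `(p, S, M)` -/
def DimConclusion (M : Rep.{0} (ZMod p) GQ) : Prop :=
  FiniteDimensional (ZMod p) (sha₁ S (M.dualTwist (cycloChar p))) ∧
  FiniteDimensional (ZMod p) (sha₂ S M) ∧
  finrank (ZMod p) (sha₁ S (M.dualTwist (cycloChar p))) = finrank (ZMod p) (sha₂ S M)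

/-- THE TOP-LAYER STATEMENT (formal, no arithmetic): plugs ⇒ dimension statement. -/
def TopStatement : Prop :=
  ∀ (p : ℕ) [Fact p.Prime], p ≠ 2 → ∀ S : Finset Nat.Primes, pPrime p ∈ S → Plugs p S →
    ∀ (M : Rep.{0} (ZMod p) GQ) [FiniteDimensional (ZMod p) M], IsSRep p S M → DimConclusion p S M

/-- THE ARITHMETIC STATEMENT: all plugs hold. -/
def ArithStatement : Prop :=
  ∀ (p : ℕ) [Fact p.Prime], p ≠ 2 → ∀ S : Finset Nat.Primes, pPrime p ∈ S → Plugs p S

/-- the hypotheses of the frozen statement make `M` an `S`-representation -/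
def SRepStatement : Prop :=
  ∀ (p : ℕ) [Fact p.Prime] (S : Finset Nat.Primes) (M : Rep.{0} (ZMod p) GQ)
    [FiniteDimensional (ZMod p) M],
    (∀ m : M, ∃ F : IntermediateField ℚ (AlgebraicClosure ℚ), FiniteDimensional ℚ F ∧
      ∀ s ∈ F.fixingSubgroup, M.ρ s m = m) →
    (∀ q : Nat.Primes, q ∉ S → ∀ A : ValuationSubring (AlgebraicClosure ℚ),
      A.LiesOverPrime (q : ℕ) → ∀ g ∈ A.inertiaSubgroupIn ℚ, M.ρ g = 1) →
    IsSRep p S M

/-- wiring of the contract into the landed spine -/
theorem dimStatement_of_contract (hTop : TopStatement) (hArith : ArithStatement)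
    (hRep : SRepStatement) : Spine15.DimStatement := by
  intro p _ hp2 S hpS M _ hsm hMur
  exact hTop p hp2 S hpS (hArith p hp2 S hpS) M (hRep p S M hsm hMur)

end Fermat.Agent.S55.Contract34
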