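/-
S55 / 90-R3-WIRING, variant W59 (helper52, owner): instantiation of helper59's dualizing-module
theory (`Dualizing59`) at the Prelude objects and the final reduction to `Spine15.DimStatement`.

Fixed instance (universe `0`, `k := ZMod p`):
`G := GQ`, `𝒰 := Profin15.globalLevels S`, `ι := ↥S` (finite places only: for `p` odd the
archimedean index contributes nothing to `sha₁`, `sha₂`, and it must not enter `J`),
`Gv q := primeLocalGaloisGroup q.1`, `r q := primeLocalToGlobal q.1`,
`𝒰v q := Profin15.pullLevels (r q)`, `hr S q : IsCont (𝒰v q) 𝒰 (r q)`, `μ := mu p`.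

Part 1 (this file):
* `sha₁EquivSha1`, `sha₂EquivSha2` : the Prelude's `sha₁ S A`, `sha₂ S M` are helper59's abstract
  `Dualizing59.Sha1 (hr S) A`, `Dualizing59.Sha2 (hr S) M` (on top of helper41's `Wire41.ShaMap`);
* `dimConclusion_of_shaDuality` : a linear equivalence `Sha1 (hr S) M' ≃ Dual (Sha2 (hr S) M)`
  (= the output of `Dualizing59` Count `sha_duality`) gives the three conclusions of
  `Spine15.DimStatement`; finiteness is supplied by `Fin62` (NO finiteness plug is needed);
* `surjJY_of_h3Vanishes` : the plug (P1b) `H²(G_S, J) → H²(G_S, Y)` surjective follows from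
  vanishing of level `H³` on finite smooth modules (`CD3`), like (P1a);
* the plugs (P0)–(P4) of route R3 / W59 as exact `Prop`s and `dimStatement_of_duality`.
-/
import Fermat.Agent.S55.Spine15
import Fermat.Agent.S55.Dualizing59.Loc
import Fermat.Agent.S55.Wire41.ShaMap
import Fermat.Agent.S55.Wire41.SRep
import Fermat.Agent.S55.Fin62.Main
import Fermat.Agent.S55.CD3.RightExact

set_option autoImplicit false
set_option linter.style.haveILetI false

open CategoryTheory Module groupCohomology ExtCitation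

namespace Fermat.Agent.S55.R3Wire52

open Fermat.Agent.S55.Profin15 Fermat.Agent.S55.Dualizing59
open Fermat.Agent.Lib.FrobeniusExists (Qb GQ)

/-! ### The fixed instance -/

section Instance

variable (S : Finset Nat.Primes)

/-- the local group at the finite place `q ∈ S` -/
abbrev Gq (q : ↥S) : Type := primeLocalGaloisGroup q.1

/-- the localisation homomorphism at `q ∈ S` -/
noncomputable abbrev rq (q : ↥S) : Gq S q →* GQ := primeLocalToGlobal q.1

/-- the local level structure at `q ∈ S` -/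
noncomputable abbrev Uq (q : ↥S) : LevelStr (Gq S q) := pullLevels (rq S q)

/-- continuity of the localisation homomorphisms: the binder `hr` of `Dualizing59` -/
theorem hr (q : ↥S) : IsCont (Uq S q) (globalLevels S) (rq S q) :=
  Wire41.ShaMap.isCont_local S (rq S q)

variable {p : ℕ} [Fact p.Prime]

/-- helper59's abstract `Sha1` at the fixed instance is helper41's `Wire41.ShaMap.Sha1`. -/
theorem Sha1_eq (A : Rep.{0} (ZMod p) GQ) :
    Dualizing59.Sha1 (hr S) A = Wire41.ShaMap.Sha1 S A := rfl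

/-- helper59's abstract `Sha2` at the fixed instance is helper41's `Wire41.ShaMap.Sha2`. -/
theorem Sha2_eq (M : Rep.{0} (ZMod p) GQ) :
    Dualizing59.Sha2 (hr S) M = Wire41.ShaMap.Sha2 S M := rfl

/-- `Sha1 (hr S) A ≃ sha₁ S A` for `p` odd. -/
noncomputable def sha₁EquivSha1 (hp2 : p ≠ 2) (A : Rep.{0} (ZMod p) GQ) :
    ↥(Dualizing59.Sha1 (hr S) A) ≃ₗ[ZMod p] ↥(sha₁ S A) :=
  Wire41.ShaMap.Sha1EquivSha₁ S hp2 A

/-- `sha₂ S M ≃ Sha2 (hr S) M` for `p` odd. -/
noncomputable def sha₂EquivSha2 (hp2 : p ≠ 2) (M : Rep.{0} (ZMod p) GQ) :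
    ↥(sha₂ S M) ≃ₗ[ZMod p] ↥(Dualizing59.Sha2 (hr S) M) :=
  Wire41.ShaMap.sha₂EquivSha2 S hp2 M

end Instance

/-! ### From the duality `Sha1 M' ≃ (Sha2 M)^*` to the conclusions of the spine -/

section Reduction

variable {p : ℕ} [Fact p.Prime] (S : Finset Nat.Primes)

/-- The conclusion of `Spine15.DimStatement` for a fixed `(p, S, M)`. -/
def DimConclusion (p : ℕ) [Fact p.Prime] (S : Finset Nat.Primes) (M : Rep.{0} (ZMod p) GQ) :
    Prop :=
  FiniteDimensional (ZMod p) (sha₁ S (M.dualTwist (cycloChar p))) ∧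
  FiniteDimensional (ZMod p) (sha₂ S M) ∧
  finrank (ZMod p) (sha₁ S (M.dualTwist (cycloChar p))) = finrank (ZMod p) (sha₂ S M)

/-- **The output of `Dualizing59` Count gives the conclusions of the spine.** Finiteness of
`sha₁ S M'` is unconditional (`Fin62`), and finiteness of `sha₂ S M` follows from the duality. -/
theorem dimConclusion_of_shaDuality (hp2 : p ≠ 2) (M : Rep.{0} (ZMod p) GQ)
    [FiniteDimensional (ZMod p) M]
    (hsm : ∀ m : M, ∃ F : IntermediateField ℚ (AlgebraicClosure ℚ), FiniteDimensional ℚ F ∧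
      ∀ s ∈ F.fixingSubgroup, M.ρ s m = m)
    (hdual : Nonempty (↥(Dualizing59.Sha1 (hr S) (M.dualTwist (cycloChar p))) ≃ₗ[ZMod p]
      Module.Dual (ZMod p) ↥(Dualizing59.Sha2 (hr S) M))) :
    DimConclusion p S M := by
  obtain ⟨e⟩ := hdual
  have h1 : FiniteDimensional (ZMod p) (sha₁ S (M.dualTwist (cycloChar p))) :=
    Fin62.Main.finiteDimensional_sha₁_dualTwist S M hsm
  have h1' : FiniteDimensional (ZMod p) ↥(Dualizing59.Sha1 (hr S) (M.dualTwist (cycloChar p))) :=
    LinearEquiv.finiteDimensional (sha₁EquivSha1 S hp2 (M.dualTwist (cycloChar p))).symm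
  have hd : FiniteDimensional (ZMod p) (Module.Dual (ZMod p) ↥(Dualizing59.Sha2 (hr S) M)) :=
    LinearEquiv.finiteDimensional e
  have h2' : FiniteDimensional (ZMod p) ↥(Dualizing59.Sha2 (hr S) M) :=
    (Module.finite_dual_iff (ZMod p)).1 hd
  have h2 : FiniteDimensional (ZMod p) (sha₂ S M) :=
    LinearEquiv.finiteDimensional (sha₂EquivSha2 S hp2 M).symm
  refine ⟨h1, h2, ?_⟩
  rw [← LinearEquiv.finrank_eq (sha₁EquivSha1 S hp2 (M.dualTwist (cycloChar p))),
    LinearEquiv.finrank_eq e, Subspace.dual_finrank_eq,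
    ← LinearEquiv.finrank_eq (sha₂EquivSha2 S hp2 M)]

end Reduction

/-! ### (P1b) from vanishing of level `H³` -/

section CD

universe u

variable {k G : Type u} [Field k] [Group G]

/-- the `cd ≤ 2` plug in `CD3` form: level `H³` vanishes on finite smooth modules
(`CD3.h3Vanishes_of_trivial_cofinal` produces it from the trivial module over a cofinal family
of open subgroups). -/
def CDPlug (k : Type u) [Field k] {G : Type u} [Group G] (𝒰 : LevelStr G) : Prop :=
  ∀ (A : Type u) [AddCommGroup A] [Module k A] [Finite A] (ρ : Representation k G A),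
    CD3.IsSmoothRep 𝒰 ρ → CD3.H3Vanishes 𝒰 ρ

/-- (P1a) from the `CD3` plug (for a finite field `k`). -/
theorem rightExactH2_of_cdPlug [Finite k] {𝒰 : LevelStr G} (h : CDPlug k 𝒰) :
    RightExactH2 k 𝒰 := by
  intro P N hP _ hPs _ π hπ
  haveI := hP
  haveI : Finite P := Module.finite_of_finite k
  exact CD3.H2m_surjective_of_h3Vanishes 𝒰 π hπ hPs
    (h _ _ (CD3.kerRep_isSmoothRep π.1 π.2 hPs))

variable {𝒰 : LevelStr G} {ι : Type} [Finite ι] {Gv : ι → Type u} [∀ v, Group (Gv v)]
  {r : ∀ v, Gv v →* G} {μ : Rep.{u} k G}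
  (hμ : ∃ U ∈ 𝒰.levels, ∀ s ∈ U, ∀ m : μ, μ.ρ s m = m)

/-- (P1b) `H²(G, J) → H²(G, Y)` is surjective as soon as level `H³` vanishes on finite smooth
modules: the kernel of `J → Y` is the (finite) diagonal copy of `μ`. -/
theorem surjJY_of_cdPlug [Finite μ] (h : CDPlug k 𝒰) :
    Function.Surjective (H2m 𝒰 (qY (r := r) hμ)) := by
  haveI : Finite ↥(LinearMap.ker (qY (r := r) hμ).1) := by
    refine Finite.of_surjective
      (fun m : μ => (⟨(diag (r := r) hμ).1 m, LinearMap.mem_ker.2 (cokerProj_comp _ m)⟩ :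
        ↥(LinearMap.ker (qY (r := r) hμ).1))) ?_
    rintro ⟨x, hx⟩
    obtain ⟨m, rfl⟩ := (cokerProj_apply_eq_zero_iff (diag (r := r) hμ) x).1
      (LinearMap.mem_ker.1 hx)
    exact ⟨m, rfl⟩
  exact CD3.H2m_surjective_of_h3Vanishes 𝒰 (qY (r := r) hμ) (cokerProj_surjective _)
    JObj_isSmooth (h _ _ (CD3.kerRep_isSmoothRep _ _ JObj_isSmooth))

end CD

/-! ### The plugs of route R3 / W59 as exact `Prop`s -/

section Plugs

open Fermat.Agent.S55.Contract34 (mu)

variable (p : ℕ) [Fact p.Prime] (S : Finset Nat.Primes)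

/-- (P0) some `S`-level acts trivially on `μ_p`: the binder `hμ` of `Dualizing59`
(PROVED for `p ∈ S`: `Wire41.SRep.exists_level_fixing_mu`). -/
def MuTrivialised : Prop :=
  ∃ U ∈ (globalLevels S).levels, ∀ s ∈ U, ∀ m : mu p, (mu p).ρ s m = m

/-- the module `J = ∏_{q ∈ S} Ind_{G_q} μ_p` of `Dualizing59.Ind` -/
noncomputable abbrev J : Rep.{0} (ZMod p) GQ := JObj (globalLevels S) (rq S) (mu p)

variable {p S}

/-- the dualizing module `Y = J / μ_p` of `Dualizing59.Ind` -/
noncomputable abbrev Y (hμ : MuTrivialised p S) : Rep.{0} (ZMod p) GQ := YObj (r := rq S) hμ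

/-- a family of local functionals ("invariants") on `H²(G_q, μ_p)`, `q ∈ S` -/
abbrev InvFamily (p : ℕ) [Fact p.Prime] (S : Finset Nat.Primes) : Type :=
  ∀ q : ↥S, (Uq S q).H2 (Rep.res (rq S q) (mu p)) →ₗ[ZMod p] ZMod p

/-- `∑_q inv_q ∘ H²(ev_q)` on `H²(G_S, J)` (= `invJ` of helper59's `Lambda.lean`) -/
noncomputable def invJ (inv : InvFamily p S) :
    (globalLevels S).H2 (J p S) →ₗ[ZMod p] ZMod p :=
  ∑ q : ↥S, inv q ∘ₗ H2map (hr S q) (evLin_isEquivariant q)

/-- `Λ` on `H²(G_S, Y)` is induced by `invJ` (= `IsTrace` of helper59's `Lambda.lean`) -/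
def IsTrace (hμ : MuTrivialised p S) (inv : InvFamily p S)
    (Λ : (globalLevels S).H2 (Y hμ) →ₗ[ZMod p] ZMod p) : Prop :=
  ∀ z : (globalLevels S).H2 (J p S), Λ (H2m (globalLevels S) (qY (r := rq S) hμ) z) = invJ inv z

/-- (P1b) `H²(G_S, J) → H²(G_S, Y)` is surjective. -/
def SurjJY (hμ : MuTrivialised p S) : Prop :=
  Function.Surjective (H2m (globalLevels S) (qY (r := rq S) hμ))

/-- (P2) RECIPROCITY: the sum of the local invariants kills the global classes of `H²(G_S, μ_p)`. -/
def Reciprocity (inv : InvFamily p S) : Prop :=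
  ∀ x : (globalLevels S).H2 (mu p), ∑ q : ↥S, inv q (Dualizing59.loc₂ (hr S) q (mu p) x) = 0

/-- (P3) GLOBAL BASE CASE: `theta` for `(G_S, Y, Λ)` is bijective on the permutation modules
`𝔽_p^(G_S/V)` for a cofinal family of `S`-levels `V` (the `hbase` binder of
`Dualizing59.theta_bijective`; producer: `HBase48` from (S1') + COUNT). -/
def GlobalBase (hμ : MuTrivialised p S) (inv : InvFamily p S) : Prop :=
  ∀ Λ : (globalLevels S).H2 (Y hμ) →ₗ[ZMod p] ZMod p, IsTrace hμ inv Λ →
    ∀ U ∈ (globalLevels S).levels, ∃ V ∈ (globalLevels S).levels, V ≤ U ∧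
      Function.Bijective (theta (globalLevels S) (Y hμ) Λ (coind (k := ZMod p) V (ZMod p)))

/-- (P4b) LOCAL BASE CASE: `theta` for `(G_q, μ_p, inv_q)` is bijective on the permutation modules
`𝔽_p^(G_q/V)` for a cofinal family of local levels `V` (producer: `LocDual26`). -/
def LocalBase (inv : InvFamily p S) : Prop :=
  ∀ q : ↥S, ∀ U ∈ (Uq S q).levels, ∃ V ∈ (Uq S q).levels, V ≤ U ∧
    Function.Bijective
      (theta (Uq S q) (Rep.res (rq S q) (mu p)) (inv q) (coind (k := ZMod p) V (ZMod p)))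

variable (p S)

/-- ALL ARITHMETIC PLUGS of route R3 / W59 for a fixed `(p, S)`. -/
structure Plugs : Prop where
  /-- (P0) `μ_p` is trivialised by an `S`-level -/
  muTrivialised : MuTrivialised p S
  /-- (P1a) global `cd_p ≤ 2`: `H²(G_S, -)` is right exact on finite smooth modules -/
  rightExact : RightExactH2 (ZMod p) (globalLevels S)
  /-- (P1b) `H²(G_S, J) → H²(G_S, Y)` is surjective -/
  surjJY : SurjJY muTrivialised
  /-- (P4a) local `cd_p ≤ 2` -/
  rightExactLoc : ∀ q : ↥S, RightExactH2 (ZMod p) (Uq S q)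
  /-- (P2)+(P3)+(P4b): local invariants with reciprocity, global base case, local base case -/
  exists_inv : ∃ inv : InvFamily p S, Reciprocity inv ∧ GlobalBase muTrivialised inv ∧
    LocalBase inv

/-- (P1a)+(P1b) from the `CD3` plug for `globalLevels S`. -/
theorem plugs_of_cd (hpS : pPrime p ∈ S) (hcd : CDPlug (ZMod p) (globalLevels S))
    (hcdLoc : ∀ q : ↥S, RightExactH2 (ZMod p) (Uq S q))
    (hinv : ∀ hμ : MuTrivialised p S, ∃ inv : InvFamily p S,
      Reciprocity inv ∧ GlobalBase hμ inv ∧ LocalBase inv) : Plugs p S where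
  muTrivialised := Wire41.SRep.exists_level_fixing_mu hpS
  rightExact := rightExactH2_of_cdPlug hcd
  surjJY := by
    haveI : Finite (mu p) := inferInstanceAs (Finite (ZMod p))
    exact surjJY_of_cdPlug _ hcd
  rightExactLoc := hcdLoc
  exists_inv := hinv _

/-- helper59's `Lambda.lean` (`exists_isTrace`) at the fixed instance: (P1b) + (P2) ⇒ `Λ`. -/
def LambdaStatement : Prop :=
  ∀ (hμ : MuTrivialised p S) (inv : InvFamily p S), SurjJY hμ → Reciprocity inv →
    ∃ Λ : (globalLevels S).H2 (Y hμ) →ₗ[ZMod p] ZMod p, IsTrace hμ inv Λ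

/-- helper59's `Count.lean` (`sha_duality`, with helper11's `formulaA`) at the fixed instance. -/
def CountStatement : Prop :=
  ∀ (hμ : MuTrivialised p S) (inv : InvFamily p S)
    (Λ : (globalLevels S).H2 (Y hμ) →ₗ[ZMod p] ZMod p), IsTrace hμ inv Λ →
    ∀ (M : Rep.{0} (ZMod p) GQ) [Module.Finite (ZMod p) M], (globalLevels S).IsSmooth M →
      Function.Bijective (theta (globalLevels S) (Y hμ) Λ M) →
      (∀ q : ↥S, Function.Surjective
        (theta (Uq S q) (Rep.res (rq S q) (mu p)) (inv q) (Rep.res (rq S q) M))) →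
      Nonempty (↥(Dualizing59.Sha1 (hr S) (M.dualTwist (cycloChar p))) ≃ₗ[ZMod p]
        Module.Dual (ZMod p) ↥(Dualizing59.Sha2 (hr S) M))

variable {p S}

/-- **Plugs ⇒ duality** for one module, given the two formal statements of `Dualizing59`. -/
theorem shaDuality_of_plugs (hLam : LambdaStatement p S) (hCount : CountStatement p S)
    (hP : Plugs p S) (M : Rep.{0} (ZMod p) GQ) [Module.Finite (ZMod p) M]
    (hM : (globalLevels S).IsSmooth M) :
    Nonempty (↥(Dualizing59.Sha1 (hr S) (M.dualTwist (cycloChar p))) ≃ₗ[ZMod p]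
      Module.Dual (ZMod p) ↥(Dualizing59.Sha2 (hr S) M)) := by
  obtain ⟨inv, hrec, hglob, hloc⟩ := hP.exists_inv
  obtain ⟨Λ, hΛ⟩ := hLam hP.muTrivialised inv hP.surjJY hrec
  refine hCount hP.muTrivialised inv Λ hΛ M hM
    (theta_bijective _ _ _ hP.rightExact (hglob Λ hΛ) M hM) (fun q => ?_)
  haveI : Module.Finite (ZMod p) (Rep.res (rq S q) M) := inferInstanceAs (Module.Finite (ZMod p) M)
  exact (theta_bijective _ _ _ (hP.rightExactLoc q) (hloc q) (Rep.res (rq S q) M)
    ((isContinuous_pullLevels S (rq S q)).isSmooth M hM)).2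

/-- **Wiring of route R3 / W59 into the landed spine**: the two formal statements of `Dualizing59`
(Lambda, Count) and the arithmetic plugs give `Spine15.DimStatement`. -/
theorem dimStatement_of_plugs
    (hLam : ∀ (p : ℕ) [Fact p.Prime] (S : Finset Nat.Primes), LambdaStatement p S)
    (hCount : ∀ (p : ℕ) [Fact p.Prime] (S : Finset Nat.Primes), CountStatement p S)
    (hArith : ∀ (p : ℕ) [Fact p.Prime], p ≠ 2 → ∀ S : Finset Nat.Primes, pPrime p ∈ S →
      Plugs p S) : Spine15.DimStatement := by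
  intro p _ hp2 S hpS M _ hsm hMur
  have hrep : Contract34.IsSRep p S M := ProfinGlobal22.sRepStatement p S M hsm hMur
  exact dimConclusion_of_shaDuality S hp2 M hsm
    (shaDuality_of_plugs (hLam p S) (hCount p S) (hArith p hp2 S hpS) M
      (Wire41.SRep.isSmooth_of_isSRep hrep))

end Plugs

end Fermat.Agent.S55.R3Wire52
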