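/-
S55 / 90-R3-WIRING, variant W59 (helper52): the LOCAL BASE CASE (P4b) of route R3 without any
Galois-equivariance of the invariant map, without Shapiro and without corestriction
(blueprint v2 §2(i), in `Dualizing59` vocabulary).

Abstract part (any group `G` with a level structure `𝒰`, `μ` a ONE-dimensional smooth module,
`Λ : H²(μ) → k` a NONZERO functional, `H²` right exact):
* `theta_injective_of_ne_zero` : `theta 𝒰 μ Λ N` is injective for every finite smooth `N`
  [`φ ≠ 0 ⇒ φ onto μ ⇒ H²(φ) onto ⇒ Λ ∘ H²(φ) ≠ 0`];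
* `theta_bijective_coind_of_finrank_le_one` : if moreover the level `V` fixes `μ` and
  `dim H²(k^(G/V)) ≤ 1`, then `theta 𝒰 μ Λ (coind V k)` is bijective.

Instance: `localBase_of_dim` : (P4b) `R3Wire52.LocalBase inv` follows from `inv q ≠ 0`, local right
exactness (P4a) and the dimension bound `LocalDim` (= `|H²(G_{L_w}, 𝔽_p)| ≤ p` via level Shapiro).
-/
import Fermat.Agent.S55.R3Wire52

set_option autoImplicit false
set_option linter.style.haveILetI false

open CategoryTheory Module groupCohomology ExtCitation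

namespace Fermat.Agent.S55.R3Local52

open Fermat.Agent.S55.Profin15 Fermat.Agent.S55.Dualizing59

section Abstract

universe u

variable {k : Type u} [Field k] {G : Type u} [Group G] (𝒰 : LevelStr G)
  (μ : Rep.{u} k G) (Λ : 𝒰.H2 μ →ₗ[k] k)

/-- a nonzero linear map into a one-dimensional space is surjective -/
lemma surjective_of_ne_zero_of_finrank_eq_one {N : Type*} [AddCommGroup N] [Module k N]
    {W : Type*} [AddCommGroup W] [Module k W] [Module.Finite k W] (hW : finrank k W = 1)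
    (φ : N →ₗ[k] W) (hφ : φ ≠ 0) : Function.Surjective φ := by
  rw [← LinearMap.range_eq_top]
  apply Submodule.eq_top_of_finrank_eq
  rw [hW]
  have hle : finrank k (LinearMap.range φ) ≤ 1 := hW ▸ Submodule.finrank_le _
  have hpos : 0 < finrank k (LinearMap.range φ) := by
    rw [Module.finrank_pos_iff_exists_ne_zero]
    by_contra hcon
    apply hφ
    apply LinearMap.ext
    intro n
    by_contra hn
    exact hcon ⟨⟨φ n, LinearMap.mem_range_self φ n⟩, fun h => hn (congrArg Subtype.val h)⟩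
  omega

variable [Module.Finite k μ]

/-- **Injectivity of `theta`** for a one-dimensional `μ` and a nonzero `Λ`, given right
exactness of `H²`. -/
theorem theta_injective_of_ne_zero (hRS : RightExactH2 k 𝒰) (hμs : 𝒰.IsSmooth μ)
    (hμ1 : finrank k μ = 1) (hΛ : Λ ≠ 0) (N : Rep.{u} k G) [Module.Finite k N]
    (hN : 𝒰.IsSmooth N) : Function.Injective (theta 𝒰 μ Λ N) := by
  rw [injective_iff_map_eq_zero]
  intro φ hφ
  by_contra hne
  have hne' : φ.1 ≠ 0 := fun h => hne (Subtype.ext h)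
  have hsurj : Function.Surjective φ.1 :=
    surjective_of_ne_zero_of_finrank_eq_one hμ1 φ.1 hne'
  have hH : Function.Surjective (H2m 𝒰 φ) :=
    hRS N μ inferInstance inferInstance hN hμs φ hsurj
  apply hΛ
  apply LinearMap.ext
  intro y
  obtain ⟨x, rfl⟩ := hH y
  have := LinearMap.congr_fun hφ x
  simpa using this

variable {𝒰 μ Λ}

/-- a nonzero equivariant map `k^(G/V) → μ` when `V` fixes `μ ≠ 0` -/
lemma exists_eqHom_coind_ne_zero {V : Subgroup G} [Fintype (G ⧸ V)]
    (hVμ : ∀ s ∈ V, ∀ m : μ, μ.ρ s m = m) (hμ1 : finrank k μ = 1) :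
    ∃ φ : eqHom (coind (k := k) V k) μ, φ ≠ 0 := by
  obtain ⟨m₀, hm₀⟩ : ∃ m₀ : μ, m₀ ≠ 0 := by
    have : 0 < finrank k μ := by omega
    exact (Module.finrank_pos_iff_exists_ne_zero).1 this
  have hspan : Function.Surjective (LinearMap.toSpanSingleton k μ m₀) := by
    apply surjective_of_ne_zero_of_finrank_eq_one hμ1
    intro h
    apply hm₀
    have := LinearMap.congr_fun h (1 : k)
    simpa using this
  refine ⟨eqComp (cover hVμ) (coindMap (V := V) (LinearMap.toSpanSingleton k μ m₀)), ?_⟩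
  intro h
  obtain ⟨f, hf⟩ := cover_surjective hVμ m₀
  -- lift `f` through the surjection `k^(G/V) → μ^(G/V)`
  have hlift : ∃ f₀ : (G ⧸ V) → k, (fun x => LinearMap.toSpanSingleton k μ m₀ (f₀ x)) = f := by
    choose f₀ hf₀ using fun x : G ⧸ V => hspan (f x)
    exact ⟨f₀, funext hf₀⟩
  obtain ⟨f₀, hf₀⟩ := hlift
  apply hm₀
  have h1 := congrArg (fun ψ : eqHom (coind (k := k) V k) μ => ψ.1 f₀) h
  simp only [eqComp, ZeroMemClass.coe_zero] at h1
  rw [← hf, ← hf₀]
  exact h1

/-- **The base case without equivariance**: for a one-dimensional `μ`, a nonzero `Λ`, right exact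
`H²`, and a level `V` fixing `μ` with `dim H²(k^(G/V)) ≤ 1`, `theta` is bijective on `k^(G/V)`. -/
theorem theta_bijective_coind_of_finrank_le_one (hRS : RightExactH2 k 𝒰) (hμs : 𝒰.IsSmooth μ)
    (hμ1 : finrank k μ = 1) (hΛ : Λ ≠ 0) {V : Subgroup G} (hV : V ∈ 𝒰.levels)
    (hVμ : ∀ s ∈ V, ∀ m : μ, μ.ρ s m = m)
    [Module.Finite k (𝒰.H2 (coind (k := k) V k))]
    (hdim : finrank k (𝒰.H2 (coind (k := k) V k)) ≤ 1) :
    Function.Bijective (theta 𝒰 μ Λ (coind (k := k) V k)) := by
  haveI := 𝒰.finiteIndex V hV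
  haveI : Finite (G ⧸ V) := Subgroup.finite_quotient_of_finiteIndex
  letI := Fintype.ofFinite (G ⧸ V)
  have hinj : Function.Injective (theta 𝒰 μ Λ (coind (k := k) V k)) :=
    theta_injective_of_ne_zero 𝒰 μ Λ hRS hμs hμ1 hΛ _ (coind_isSmooth 𝒰 hV)
  refine ⟨hinj, ?_⟩
  obtain ⟨φ, hφ⟩ := exists_eqHom_coind_ne_zero (k := k) (V := V) hVμ hμ1
  have h1 : 0 < finrank k (eqHom (coind (k := k) V k) μ) :=
    Module.finrank_pos_iff_exists_ne_zero.2 ⟨φ, hφ⟩
  have h2 : finrank k (Module.Dual k (𝒰.H2 (coind (k := k) V k))) ≤ 1 := by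
    rw [Subspace.dual_finrank_eq]; exact hdim
  have h3 : finrank k (eqHom (coind (k := k) V k) μ) ≤
      finrank k (Module.Dual k (𝒰.H2 (coind (k := k) V k))) :=
    LinearMap.finrank_le_finrank_of_injective hinj
  exact (LinearMap.injective_iff_surjective_of_finrank_eq_finrank (by omega)).1 hinj

end Abstract

/-! ### The instance: (P4b) from `inv q ≠ 0`, (P4a) and the local dimension bound -/

section Instance

open Fermat.Agent.S55.R3Wire52
open Fermat.Agent.Lib.FrobeniusExists (Qb GQ)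
open Fermat.Agent.S55.Contract34 (mu)

variable {p : ℕ} [Fact p.Prime] {S : Finset Nat.Primes}

/-- LOCAL DIMENSION BOUND (`|H²(G_{L_w}, 𝔽_p)| ≤ p` via level Shapiro): cofinally many local levels
`V` at `q ∈ S` fix `μ_p` and have `dim H²(G_q, 𝔽_p^(G_q/V)) ≤ 1`. -/
def LocalDim (p : ℕ) [Fact p.Prime] (S : Finset Nat.Primes) : Prop :=
  ∀ q : ↥S, ∀ U ∈ (Uq S q).levels, ∃ V ∈ (Uq S q).levels, V ≤ U ∧
    (∀ s ∈ V, ∀ m : Rep.res (rq S q) (mu p), (Rep.res (rq S q) (mu p)).ρ s m = m) ∧
    Module.Finite (ZMod p) ((Uq S q).H2 (coind (k := ZMod p) V (ZMod p))) ∧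
    finrank (ZMod p) ((Uq S q).H2 (coind (k := ZMod p) V (ZMod p))) ≤ 1

/-- `μ_p` restricted to the local group is smooth for the local levels. -/
theorem isSmooth_res_mu (hpS : pPrime p ∈ S) (q : ↥S) :
    (Uq S q).IsSmooth (Rep.res (rq S q) (mu p)) :=
  (isContinuous_pullLevels S (rq S q)).isSmooth (mu p)
    (Wire41.SRep.isSmooth_of_isSRep (Wire41.SRep.isSRep_mu hpS))

/-- **(P4b) from nonvanishing of the local functionals, (P4a) and the local dimension bound.** -/
theorem localBase_of_dim (hpS : pPrime p ∈ S) (inv : InvFamily p S) (hinv : ∀ q, inv q ≠ 0)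
    (hRS : ∀ q : ↥S, RightExactH2 (ZMod p) (Uq S q)) (hdim : LocalDim p S) : LocalBase inv := by
  intro q U hU
  obtain ⟨V, hV, hVU, hVμ, hfin, hle⟩ := hdim q U hU
  haveI := hfin
  haveI : Module.Finite (ZMod p) (Rep.res (rq S q) (mu p)) :=
    inferInstanceAs (Module.Finite (ZMod p) (ZMod p))
  have hμ1 : finrank (ZMod p) (Rep.res (rq S q) (mu p)) = 1 :=
    Module.finrank_self (ZMod p)
  exact ⟨V, hV, hVU, theta_bijective_coind_of_finrank_le_one (hRS q) (isSmooth_res_mu hpS q)
    hμ1 (hinv q) hV hVμ hle⟩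

end Instance

end Fermat.Agent.S55.R3Local52
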