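/-
S55 / (A4) `LocalDimW59` (helper86): the local dimension bound of route W59,
`R3Local52.LocalDim p S`, from the producer-side statement

  "for every open subgroup `N` of the local Galois group at `q` on which `μ_p` is trivial,
   the level cohomology `H²(N, 𝔽_p)` (restricted local levels) is finite of dimension `≤ 1`"

(`LocalTrivDim p q`, literally the conclusion of `KummerBr95.localBaseDim_of_brTorsionBound`), by
level Shapiro (`ShapiroLevel32.shapiroH2`) for the permutation modules `Dualizing59.coind V 𝔽_p`.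
-/
import Fermat.Agent.S55.R3Local52
import Fermat.Agent.S55.ShapiroLevel32.Equiv

set_option autoImplicit false
set_option linter.style.haveILetI false

open CategoryTheory Module groupCohomology ExtCitation

namespace Fermat.Agent.S55.LocalDimW59_86

open Fermat.Agent.S55.Profin15 Fermat.Agent.S55.Dualizing59 Fermat.Agent.S55.ShapiroLevel32

/-! ### Coordinates of `Dualizing59.coind V k` -/

section Coord

universe u

variable {k : Type u} [Field k] {G : Type u} [Group G] (V : Subgroup G) [V.Normal]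

lemma smul_coset_eq_mk_mul (g : G) (δ : G ⧸ V) : g • δ = (g : G ⧸ V) * δ := by
  induction δ using QuotientGroup.induction_on with
  | H h => rfl

/-- `Dualizing59.coind V k` is coinduced from the trivial module of `V = ker (G → G ⧸ V)`:
coordinates `f ↦ (δ ↦ f δ⁻¹)`. -/
def coindCoord : CoindCoord (QuotientGroup.mk' V) (coind (k := k) V k) where
  c := LinearEquiv.funCongrLeft k k (Equiv.inv (G ⧸ V))
  c_ρ g f δ := by
    show (coind (k := k) V k).ρ g f δ⁻¹ = f (δ * QuotientGroup.mk' V g)⁻¹
    rw [coind_ρ_apply, smul_coset_eq_mk_mul, mul_inv_rev, QuotientGroup.mk'_apply,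
      QuotientGroup.mk_inv]

end Coord

/-! ### The producer-side statement and the adapter -/

open Fermat.Agent.S55.R3Wire52
open Fermat.Agent.Lib.FrobeniusExists (Qb GQ)
open Fermat.Agent.S55.Contract34 (mu)

/-- **Producer-side local input** (22b + 49): for every open subgroup `N` of the local Galois
group at `q` acting trivially on `μ_p`, `H²(N, 𝔽_p)` for the restricted local levels is finite of
dimension `≤ 1` (`= |Br(K)[p]| ≤ p` for the fixed field `K ∋ ζ_p` of `N`). -/
def LocalTrivDim (p : ℕ) [Fact p.Prime] (q : Nat.Primes) : Prop :=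
  ∀ (N : Subgroup (primeLocalGaloisGroup q))
    (h : ∃ W ∈ (pullLevels (primeLocalToGlobal q)).levels, W ≤ N),
    (∀ s ∈ N, (mu p).ρ (primeLocalToGlobal q s) = 1) →
    Module.Finite (ZMod p)
      ((restrictLevels (pullLevels (primeLocalToGlobal q)) N h).H2 (triv (ZMod p) ↥N)) ∧
    finrank (ZMod p)
      ((restrictLevels (pullLevels (primeLocalToGlobal q)) N h).H2 (triv (ZMod p) ↥N)) ≤ 1

variable {p : ℕ} [Fact p.Prime] {S : Finset Nat.Primes}

/-- cofinally many local levels fix `μ_p` -/
theorem exists_level_le_fixing_mu (hpS : pPrime p ∈ S) (q : ↥S) {U : Subgroup (Gq S q)}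
    (hU : U ∈ (Uq S q).levels) :
    ∃ V ∈ (Uq S q).levels, V ≤ U ∧
      ∀ s ∈ V, ∀ m : Rep.res (rq S q) (mu p), (Rep.res (rq S q) (mu p)).ρ s m = m := by
  obtain ⟨U₁, hU₁, hfix⟩ := R3Local52.isSmooth_res_mu hpS q (1 : ZMod p)
  obtain ⟨V, hV, hle⟩ := (Uq S q).directed U hU U₁ hU₁
  refine ⟨V, hV, hle.trans inf_le_left, fun s hs m => ?_⟩
  have h1 := hfix s (hle.trans inf_le_right hs)
  have hm : m = (m : ZMod p) • (1 : ZMod p) := by
    show (m : ZMod p) = (m : ZMod p) * 1
    rw [mul_one]
  calc (Rep.res (rq S q) (mu p)).ρ s m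
      = (Rep.res (rq S q) (mu p)).ρ s ((m : ZMod p) • (1 : ZMod p)) := by rw [← hm]
    _ = (m : ZMod p) • (Rep.res (rq S q) (mu p)).ρ s (1 : ZMod p) := map_smul _ _ _
    _ = (m : ZMod p) • (1 : ZMod p) := by rw [h1]
    _ = m := hm.symm

/-- **`LocalDimW59`**: the local dimension bound of route W59 from the producer-side statement. -/
theorem localDim_of_trivDim (hpS : pPrime p ∈ S) (h : ∀ q : ↥S, LocalTrivDim p q.1) :
    R3Local52.LocalDim p S := by
  intro q U hU
  obtain ⟨V, hV, hVU, hVμ⟩ := exists_level_le_fixing_mu hpS q hU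
  refine ⟨V, hV, hVU, hVμ, ?_⟩
  haveI hVn : V.Normal := (Uq S q).normal V hV
  let π : Gq S q →* Gq S q ⧸ V := QuotientGroup.mk' V
  have hkerV : π.ker = V := QuotientGroup.ker_mk' V
  have hker : ∃ W ∈ (Uq S q).levels, W ≤ π.ker := ⟨V, hV, hkerV.ge⟩
  obtain ⟨σ⟩ := exists_sect (π := π) (QuotientGroup.mk'_surjective V)
  let e : (Uq S q).H2 (coind (k := ZMod p) V (ZMod p)) ≃ₗ[ZMod p]
      (kerLevels (Uq S q) hker).H2 (triv (ZMod p) ↥π.ker) :=
    shapiroH2 (Uq S q) hker (coindCoord (k := ZMod p) V) σ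
  obtain ⟨hfin, hrank⟩ := h q π.ker hker (fun s hs => by
    have hsV : s ∈ V := hkerV ▸ hs
    apply LinearMap.ext
    intro m
    exact hVμ s hsV m)
  haveI := hfin
  exact ⟨Module.Finite.equiv e.symm, by rw [LinearEquiv.finrank_eq e]; exact hrank⟩

end Fermat.Agent.S55.LocalDimW59_86
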