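/-
[34 (R1), second seat] (helper71): the twist of `ℚ/ℤ` by a `p`-adic unit.
A compatible family `eps n ∈ (ℤ/pⁿ)ˣ` defines ONE additive endomorphism `epsHom : ℚ/ℤ →+ ℚ/ℤ`:
multiplication by `eps n` on the `pⁿ`-torsion, the identity on the prime-to-`p` part; it is
injective.  Construction: `t ↦ E (ord t) • t`, `E d` the CRT solution of
`E ≡ eps_k mod p^k`, `E ≡ 1 mod d / p^k` (`k = v_p d`).
-/
import Mathlib
import Fermat.Agent.S55.QZ33
import Fermat.Agent.S55.CycloRecip37.ThetaUnit

set_option autoImplicit false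
set_option linter.unusedSectionVars false

namespace Fermat.Agent.S55.EpsHom71

open Fermat.Agent.S55.QZ33 Fermat.Agent.S55.CycloRecip37

variable (p : ℕ) [hp : Fact p.Prime] (eps : ∀ n, (ZMod (p ^ n))ˣ)

/-- the natural-number lift of `eps n` -/
def lift (n : ℕ) : ℕ := ((eps n : (ZMod (p ^ n))ˣ) : ZMod (p ^ n)).val

lemma lift_def (n : ℕ) : lift p eps n = ((eps n : (ZMod (p ^ n))ˣ) : ZMod (p ^ n)).val := rfl

theorem neZero_pow (n : ℕ) : NeZero (p ^ n) := ⟨pow_ne_zero _ hp.out.ne_zero⟩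

attribute [local instance] neZero_pow

lemma natCast_lift (n : ℕ) :
    ((lift p eps n : ℕ) : ZMod (p ^ n)) = ((eps n : (ZMod (p ^ n))ˣ) : ZMod (p ^ n)) :=
  ZMod.natCast_zmod_val _

lemma lift_coprime (n : ℕ) : (lift p eps n).Coprime (p ^ n) := ZMod.val_coe_unit_coprime (eps n)

variable (heps : ∀ n, ThetaUnit.red p n ((eps (n + 1) : (ZMod (p ^ (n + 1)))ˣ) : ZMod (p ^ (n + 1))) =
  ((eps n : (ZMod (p ^ n))ˣ) : ZMod (p ^ n)))

include heps

/-- compatibility over several steps -/
lemma redLE_eps {k n : ℕ} (h : k ≤ n) :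
    ThetaUnit.redLE p h ((eps n : (ZMod (p ^ n))ˣ) : ZMod (p ^ n)) =
      ((eps k : (ZMod (p ^ k))ˣ) : ZMod (p ^ k)) := by
  induction n, h using Nat.le_induction with
  | base =>
    show ZMod.castHom (dvd_refl _) (ZMod (p ^ k)) _ = _
    simp
  | succ n hkn ih =>
    have h1 : ThetaUnit.redLE p (hkn.trans n.le_succ) =
        (ThetaUnit.redLE p hkn).comp (ThetaUnit.red p n) := Subsingleton.elim _ _
    rw [h1, RingHom.comp_apply, heps n, ih]

lemma lift_modEq {k n : ℕ} (h : k ≤ n) : lift p eps n ≡ lift p eps k [MOD p ^ k] := by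
  rw [← ZMod.natCast_eq_natCast_iff, natCast_lift, ← redLE_eps p eps heps h,
    ← natCast_lift p eps n, map_natCast]

omit heps

/-- the CRT multiplier for elements of order dividing `d` -/
noncomputable def mult (d : ℕ) : ℕ :=
  if hd : d = 0 then 1 else
    (Nat.chineseRemainder
      (Nat.Coprime.pow_left (d.factorization p) (Nat.coprime_ordCompl hp.out hd))
      (lift p eps (d.factorization p)) 1 : ℕ)

lemma mult_modEq_pow {d : ℕ} (hd : d ≠ 0) :
    mult p eps d ≡ lift p eps (d.factorization p) [MOD p ^ d.factorization p] := by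
  unfold mult
  rw [dif_neg hd]
  exact (Nat.chineseRemainder _ _ _).2.1

lemma mult_modEq_compl {d : ℕ} (hd : d ≠ 0) :
    mult p eps d ≡ 1 [MOD d / p ^ d.factorization p] := by
  unfold mult
  rw [dif_neg hd]
  exact (Nat.chineseRemainder _ _ _).2.2

include heps

/-- `mult d ≡ eps_n mod pⁿ` whenever `pⁿ ∣ d` -/
lemma mult_modEq_of_pow_dvd {d n : ℕ} (hd : d ≠ 0) (h : p ^ n ∣ d) :
    mult p eps d ≡ lift p eps n [MOD p ^ n] := by
  have hn : n ≤ d.factorization p := (hp.out.pow_dvd_iff_le_factorization hd).1 h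
  exact ((mult_modEq_pow p eps hd).of_dvd (pow_dvd_pow p hn)).trans (lift_modEq p eps heps hn)

omit heps

/-- `mult d ≡ 1 mod m` whenever `m ∣ d` is prime to `p` -/
lemma mult_modEq_of_coprime_dvd {d m : ℕ} (hd : d ≠ 0) (h : m ∣ d) (hm : m.Coprime p) :
    mult p eps d ≡ 1 [MOD m] := by
  have h1 : m ∣ p ^ d.factorization p * (d / p ^ d.factorization p) := by
    rw [Nat.ordProj_mul_ordCompl_eq_self]; exact h
  have h2 : m ∣ d / p ^ d.factorization p :=
    (Nat.Coprime.pow_right _ hm).dvd_of_dvd_mul_left h1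
  exact (mult_modEq_compl p eps hd).of_dvd h2

include heps

/-- the multipliers of two nonzero multiples agree modulo `d` -/
lemma mult_modEq_mult {d N : ℕ} (hd : d ≠ 0) (hN : N ≠ 0) (h : d ∣ N) :
    mult p eps N ≡ mult p eps d [MOD d] := by
  have hco : (p ^ d.factorization p).Coprime (d / p ^ d.factorization p) :=
    Nat.Coprime.pow_left _ (Nat.coprime_ordCompl hp.out hd)
  have key : mult p eps N ≡ mult p eps d
      [MOD p ^ d.factorization p * (d / p ^ d.factorization p)] := by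
    refine (Nat.modEq_and_modEq_iff_modEq_mul hco).1 ⟨?_, ?_⟩
    · exact (mult_modEq_of_pow_dvd p eps heps hN ((Nat.ordProj_dvd d p).trans h)).trans
        (mult_modEq_pow p eps hd).symm
    · have hcop : (d / p ^ d.factorization p).Coprime p :=
        (Nat.coprime_ordCompl hp.out hd).symm
      exact (mult_modEq_of_coprime_dvd p eps hN ((Nat.ordCompl_dvd d p).trans h) hcop).trans
        (mult_modEq_compl p eps hd).symm
  rwa [Nat.ordProj_mul_ordCompl_eq_self] at key

omit heps

lemma addOrderOf_ne_zero (t : QZ) : addOrderOf t ≠ 0 := by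
  obtain ⟨n, hn, hnt⟩ := QZ.exists_nsmul_eq_zero t
  exact (addOrderOf_pos_iff.2 (isOfFinAddOrder_iff_nsmul_eq_zero.2 ⟨n, hn, hnt⟩)).ne'

lemma nsmul_eq_of_modEq {a b N : ℕ} (h : a ≡ b [MOD N]) {t : QZ} (ht : N • t = 0) :
    a • t = b • t :=
  nsmul_eq_nsmul_iff_modEq.2 (h.of_dvd (addOrderOf_dvd_of_nsmul_eq_zero ht))

/-- the underlying function of `epsHom` -/
noncomputable def epsFun (t : QZ) : QZ := mult p eps (addOrderOf t) • t

include heps

lemma epsFun_eq (t : QZ) {N : ℕ} (hN : N ≠ 0) (ht : N • t = 0) :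
    epsFun p eps t = mult p eps N • t := by
  unfold epsFun
  exact (nsmul_eq_of_modEq
    (mult_modEq_mult p eps heps (addOrderOf_ne_zero t) hN (addOrderOf_dvd_of_nsmul_eq_zero ht))
    (addOrderOf_nsmul_eq_zero t)).symm

/-- **the twist of `ℚ/ℤ` by the `p`-adic unit `eps`**. -/
noncomputable def epsHom : QZ →+ QZ :=
  AddMonoidHom.mk' (epsFun p eps) fun t t' => by
    have hN : addOrderOf t * addOrderOf t' ≠ 0 :=
      mul_ne_zero (addOrderOf_ne_zero t) (addOrderOf_ne_zero t')
    have h1 : (addOrderOf t * addOrderOf t') • t = 0 := by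
      rw [mul_comm, mul_smul, addOrderOf_nsmul_eq_zero, smul_zero]
    have h2 : (addOrderOf t * addOrderOf t') • t' = 0 := by
      rw [mul_smul, addOrderOf_nsmul_eq_zero, smul_zero]
    have h3 : (addOrderOf t * addOrderOf t') • (t + t') = 0 := by rw [smul_add, h1, h2, add_zero]
    rw [epsFun_eq p eps heps _ hN h3, epsFun_eq p eps heps _ hN h1, epsFun_eq p eps heps _ hN h2,
      smul_add]

lemma epsHom_apply (t : QZ) : epsHom p eps heps t = mult p eps (addOrderOf t) • t := rfl

lemma epsHom_eq (t : QZ) {N : ℕ} (hN : N ≠ 0) (ht : N • t = 0) :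
    epsHom p eps heps t = mult p eps N • t := epsFun_eq p eps heps t hN ht

/-- on the `pⁿ`-torsion `epsHom` is multiplication by `eps n`. -/
theorem epsHom_apply_of_pow (t : QZ) (n : ℕ) (ht : p ^ n • t = 0) :
    epsHom p eps heps t = ((eps n : (ZMod (p ^ n))ˣ) : ZMod (p ^ n)).val • t := by
  have hN : p ^ n ≠ 0 := pow_ne_zero _ hp.out.ne_zero
  rw [epsHom_eq p eps heps t hN ht]
  exact nsmul_eq_of_modEq (mult_modEq_of_pow_dvd p eps heps hN (dvd_refl _)) ht

/-- the same at any higher level -/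
theorem epsHom_apply_of_pow_le (t : QZ) {n N : ℕ} (hnN : n ≤ N) (ht : p ^ n • t = 0) :
    epsHom p eps heps t = ((eps N : (ZMod (p ^ N))ˣ) : ZMod (p ^ N)).val • t := by
  rw [epsHom_apply_of_pow p eps heps t n ht]
  exact (nsmul_eq_of_modEq (lift_modEq p eps heps hnN) ht).symm

/-- `epsHom` is the identity on the prime-to-`p` part. -/
theorem epsHom_apply_of_coprime (t : QZ) (m : ℕ) (hm : Nat.Coprime m p) (ht : m • t = 0) :
    epsHom p eps heps t = t := by
  have hm0 : m ≠ 0 := by
    rintro rfl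
    rw [Nat.coprime_zero_left] at hm
    exact hp.out.one_lt.ne' hm
  rw [epsHom_eq p eps heps t hm0 ht,
    nsmul_eq_of_modEq (mult_modEq_of_coprime_dvd p eps hm0 (dvd_refl _) hm) ht, one_smul]

theorem epsHom_frac (a : ℤ) (n : ℕ) :
    epsHom p eps heps (QZ.frac a (p ^ n)) =
      QZ.frac ((((eps n : (ZMod (p ^ n))ˣ) : ZMod (p ^ n)).val : ℤ) * a) (p ^ n) := by
  rw [epsHom_apply_of_pow p eps heps _ n (QZ.nsmul_frac_self a (p ^ n)), QZ.nsmul_frac]

/-- **`epsHom` is injective.** -/
theorem epsHom_injective : Function.Injective (epsHom p eps heps) := by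
  rw [injective_iff_map_eq_zero]
  intro t h0
  have hd := addOrderOf_ne_zero t
  rw [epsHom_apply] at h0
  have hdvd : addOrderOf t ∣ mult p eps (addOrderOf t) := addOrderOf_dvd_of_nsmul_eq_zero h0
  -- the `p`-part of the order is trivial
  have hk : p ^ (addOrderOf t).factorization p = 1 := by
    have h1 : p ^ (addOrderOf t).factorization p ∣ lift p eps ((addOrderOf t).factorization p) :=
      (Nat.modEq_zero_iff_dvd.1 ((mult_modEq_pow p eps hd).symm.trans
        (Nat.modEq_zero_iff_dvd.2 ((Nat.ordProj_dvd _ p).trans hdvd))))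
    exact (lift_coprime p eps _).symm.eq_one_of_dvd h1
  -- the prime-to-`p` part of the order is trivial
  have hm : addOrderOf t / p ^ (addOrderOf t).factorization p = 1 := by
    have h1 : addOrderOf t / p ^ (addOrderOf t).factorization p ∣ 1 :=
      (Nat.modEq_zero_iff_dvd.1 ((mult_modEq_compl p eps hd).symm.trans
        (Nat.modEq_zero_iff_dvd.2 ((Nat.ordCompl_dvd _ p).trans hdvd))))
    exact Nat.dvd_one.1 h1
  have h1 : addOrderOf t = 1 := by
    have h2 := Nat.ordProj_mul_ordCompl_eq_self (addOrderOf t) p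
    rw [hm, hk] at h2
    exact h2.symm
  exact AddMonoid.addOrderOf_eq_one_iff.1 h1

end Fermat.Agent.S55.EpsHom71
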