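/-
S55 / 52e-EPS-TWIST (helper72): twisting the local invariants by the `p`-adic unit of 34.

helper37's total finite-level idelic invariant (`CycloRecip37` `totalSys h I (epsTwist p eps heps)`)
uses, at the places above `p`, the local invariant composed with `EpsHom71.epsHom` (the unknown
`p`-adic unit of the cyclotomic reciprocity law, StepIQZ).  Hence the family of local invariants
that satisfies the reciprocity law in the limit is `a w ∘ invJp w` with `a w = epsHom` for `w ∣ p`
and `a w = id` otherwise.  This file provides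

* (A) `exists_nsmul_epsHom_eq`, `epsHom_surj_primary`, `epsHom_surjective`, `epsEquiv`:
  `epsHom` is bijective and surjective on the `pⁿ`-torsion;
* (B) `twist_hinjp`, `twist_hsurjp` (the `p`-primary binder shapes of
  `ClassGlue14.hasFormationDatum_of_invCp`, `LimDesc99`, `ClassFormation72`, `S1Limit41`) and
  `twist_hinj`, `twist_hsurj` (the total-map shapes of `CDArith63.GlobalForm.formation_res`):
  joint injectivity and surjectivity of a family of invariants survive a twist by a family of
  injective, `p`-primary-surjective endomorphisms of the target;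
* (C) `epsAt q q₀ := if q = q₀ then epsHom else id` with the two properties, so that
  `a w := epsAt w.1 (pp p)` plugs into (B).

Pure algebra: imports `EpsHom71` and `PrimaryExt14` only.
-/
import Fermat.Agent.S55.EpsHom71
import Fermat.Agent.S55.PrimaryExt14

set_option autoImplicit false
set_option linter.unusedSectionVars false

namespace Fermat.Agent.S55.TwistFamily72

open Fermat.Agent.S55.QZ33 Fermat.Agent.S55.CycloRecip37 Fermat.Agent.S55.EpsHom71
open Fermat.Agent.S55.PrimaryExt14

/-! ### (A) `epsHom` is bijective -/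

section Eps

variable (p : ℕ) [hp : Fact p.Prime] (eps : ∀ n, (ZMod (p ^ n))ˣ)

/-- the CRT multiplier for elements of order `d` is prime to `d`. -/
lemma mult_coprime {d : ℕ} (hd : d ≠ 0) : (mult p eps d).Coprime d := by
  have hco : (p ^ d.factorization p).Coprime (d / p ^ d.factorization p) :=
    Nat.Coprime.pow_left _ (Nat.coprime_ordCompl hp.out hd)
  have h1 : (mult p eps d).Coprime (p ^ d.factorization p) := by
    have h := lift_coprime p eps (d.factorization p)
    have hm := mult_modEq_pow p eps hd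
    unfold Nat.Coprime at h ⊢
    rw [← h]
    exact hm.gcd_eq
  have h2 : (mult p eps d).Coprime (d / p ^ d.factorization p) := by
    have hm := mult_modEq_compl p eps hd
    unfold Nat.Coprime
    rw [hm.gcd_eq]
    exact Nat.gcd_one_left _
  have h3 := Nat.Coprime.mul_right h1 h2
  rwa [Nat.ordProj_mul_ordCompl_eq_self] at h3

variable (heps : ∀ n, ThetaUnit.red p n ((eps (n + 1) : (ZMod (p ^ (n + 1)))ˣ) :
  ZMod (p ^ (n + 1))) = ((eps n : (ZMod (p ^ n))ˣ) : ZMod (p ^ n)))

/-- every `t : ℚ/ℤ` is the image under `epsHom` of a multiple of itself. -/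
theorem exists_nsmul_epsHom_eq (t : QZ) : ∃ e : ℕ, epsHom p eps heps (e • t) = t := by
  obtain ⟨d, hd_def⟩ : ∃ d, d = addOrderOf t := ⟨_, rfl⟩
  have hd : d ≠ 0 := hd_def ▸ addOrderOf_ne_zero t
  have hdt0 : d • t = 0 := by rw [hd_def]; exact addOrderOf_nsmul_eq_zero t
  have : NeZero d := ⟨hd⟩
  obtain ⟨u, hu⟩ : ∃ u : (ZMod d)ˣ, (u : ZMod d) = ((mult p eps d : ℕ) : ZMod d) :=
    ⟨ZMod.unitOfCoprime (mult p eps d) (mult_coprime p eps hd), ZMod.coe_unitOfCoprime _ _⟩
  refine ⟨((u⁻¹ : (ZMod d)ˣ) : ZMod d).val, ?_⟩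
  have hdt : d • (((u⁻¹ : (ZMod d)ˣ) : ZMod d).val • t) = 0 := by
    rw [smul_comm, hdt0, smul_zero]
  rw [epsHom_eq p eps heps _ hd hdt, ← mul_smul]
  have hmod : mult p eps d * ((u⁻¹ : (ZMod d)ˣ) : ZMod d).val ≡ 1 [MOD d] := by
    rw [← ZMod.natCast_eq_natCast_iff]
    push_cast
    rw [ZMod.natCast_zmod_val, ← hu, ← Units.val_mul, mul_inv_cancel, Units.val_one]
  rw [nsmul_eq_of_modEq hmod hdt0, one_smul]

/-- **`epsHom` is surjective on the `pⁿ`-torsion.** -/
theorem epsHom_surj_primary (t : QZ) (n : ℕ) (ht : p ^ n • t = 0) :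
    ∃ s : QZ, p ^ n • s = 0 ∧ epsHom p eps heps s = t := by
  obtain ⟨e, he⟩ := exists_nsmul_epsHom_eq p eps heps t
  exact ⟨e • t, by rw [smul_comm, ht, smul_zero], he⟩

/-- the same for any torsion exponent. -/
theorem epsHom_surj_torsion (t : QZ) (N : ℕ) (ht : N • t = 0) :
    ∃ s : QZ, N • s = 0 ∧ epsHom p eps heps s = t := by
  obtain ⟨e, he⟩ := exists_nsmul_epsHom_eq p eps heps t
  exact ⟨e • t, by rw [smul_comm, ht, smul_zero], he⟩

/-- **`epsHom` is surjective.** -/
theorem epsHom_surjective : Function.Surjective (epsHom p eps heps) := fun t => by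
  obtain ⟨e, he⟩ := exists_nsmul_epsHom_eq p eps heps t
  exact ⟨e • t, he⟩

theorem epsHom_bijective : Function.Bijective (epsHom p eps heps) :=
  ⟨epsHom_injective p eps heps, epsHom_surjective p eps heps⟩

/-- the twist of `ℚ/ℤ` by the `p`-adic unit `eps` as an automorphism. -/
noncomputable def epsEquiv : QZ ≃+ QZ :=
  AddEquiv.ofBijective (epsHom p eps heps) (epsHom_bijective p eps heps)

@[simp] lemma epsEquiv_apply (t : QZ) : epsEquiv p eps heps t = epsHom p eps heps t := rfl

lemma epsEquiv_toAddMonoidHom : (epsEquiv p eps heps).toAddMonoidHom = epsHom p eps heps := rfl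

/-- `epsHom` preserves the exponent of torsion. -/
lemma nsmul_epsHom_eq_zero_iff (t : QZ) (N : ℕ) : N • epsHom p eps heps t = 0 ↔ N • t = 0 := by
  rw [← map_nsmul]
  exact ⟨fun h => epsHom_injective p eps heps (by rw [h, map_zero]), fun h => by rw [h, map_zero]⟩

/-- `epsHom` preserves additive orders. -/
lemma addOrderOf_epsHom (t : QZ) : addOrderOf (epsHom p eps heps t) = addOrderOf t :=
  addOrderOf_injective (epsHom p eps heps) (epsHom_injective p eps heps) t

/-! ### (C) the twist at one prime -/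

/-- the twist at the prime `q₀` only: `epsHom` at `q = q₀`, the identity elsewhere. -/
noncomputable def epsAt {Q : Type*} [DecidableEq Q] (q q₀ : Q) : QZ →+ QZ :=
  if q = q₀ then epsHom p eps heps else AddMonoidHom.id QZ

lemma epsAt_self {Q : Type*} [DecidableEq Q] (q₀ : Q) :
    epsAt p eps heps q₀ q₀ = epsHom p eps heps := if_pos rfl

lemma epsAt_of_ne {Q : Type*} [DecidableEq Q] {q q₀ : Q} (h : q ≠ q₀) :
    epsAt p eps heps q q₀ = AddMonoidHom.id QZ := if_neg h

theorem epsAt_injective {Q : Type*} [DecidableEq Q] (q q₀ : Q) :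
    Function.Injective (epsAt p eps heps q q₀) := by
  unfold epsAt
  split_ifs
  · exact epsHom_injective p eps heps
  · exact fun _ _ h => h

theorem epsAt_surj_torsion {Q : Type*} [DecidableEq Q] (q q₀ : Q) (t : QZ) (N : ℕ)
    (ht : N • t = 0) : ∃ s : QZ, N • s = 0 ∧ epsAt p eps heps q q₀ s = t := by
  unfold epsAt
  split_ifs
  · exact epsHom_surj_torsion p eps heps t N ht
  · exact ⟨t, ht, rfl⟩

theorem epsAt_surj_primary {Q : Type*} [DecidableEq Q] (q q₀ : Q) (t : QZ) (n : ℕ)
    (ht : p ^ n • t = 0) : ∃ s : QZ, p ^ n • s = 0 ∧ epsAt p eps heps q q₀ s = t :=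
  epsAt_surj_torsion p eps heps q q₀ t (p ^ n) ht

theorem epsAt_surjective {Q : Type*} [DecidableEq Q] (q q₀ : Q) :
    Function.Surjective (epsAt p eps heps q q₀) := fun t => by
  obtain ⟨N, -, hN⟩ := QZ.exists_nsmul_eq_zero t
  obtain ⟨s, -, hs⟩ := epsAt_surj_torsion p eps heps q q₀ t N hN
  exact ⟨s, hs⟩

end Eps

/-! ### (B) twisting a family of invariants -/

section Twist

variable {p : ℕ} {A T : Type*} [AddCommGroup A] [AddCommGroup T] {W : Type*}

/-- joint injectivity on the `p`-primary part survives an injective twist. -/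
theorem twist_hinjp (invJp : W → (primary p A →+ T)) (a : W → (T →+ T))
    (ha : ∀ w, Function.Injective (a w))
    (hinjp : ∀ x : primary p A, (∀ w, invJp w x = 0) → x = 0) :
    ∀ x : primary p A, (∀ w, (a w).comp (invJp w) x = 0) → x = 0 := fun x hx =>
  hinjp x fun w => ha w (by rw [map_zero]; exact hx w)

/-- joint `p`-primary surjectivity survives a twist that is surjective on `pⁿ`-torsion. -/
theorem twist_hsurjp (invJp : W → (primary p A →+ T)) (a : W → (T →+ T))
    (ha' : ∀ (w : W) (t : T) (n : ℕ), p ^ n • t = 0 → ∃ s : T, p ^ n • s = 0 ∧ a w s = t)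
    (hsurjp : ∀ (t : W → T) (n : ℕ), (∀ w, (p ^ n) • t w = 0) →
      ∃ x : primary p A, (p ^ n) • x = 0 ∧ ∀ w, invJp w x = t w) :
    ∀ (t : W → T) (n : ℕ), (∀ w, (p ^ n) • t w = 0) →
      ∃ x : primary p A, (p ^ n) • x = 0 ∧ ∀ w, (a w).comp (invJp w) x = t w := by
  intro t n ht
  choose s hs1 hs2 using fun w => ha' w (t w) n (ht w)
  obtain ⟨x, hx, hxw⟩ := hsurjp s n hs1
  exact ⟨x, hx, fun w => by rw [AddMonoidHom.comp_apply, hxw w, hs2 w]⟩

/-- total-map form of `twist_hinjp` (binder shape `hinj` of `CDArith63.GlobalForm.formation_res`). -/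
theorem twist_hinj (invJ : W → (A →+ T)) (a : W → (T →+ T))
    (ha : ∀ w, Function.Injective (a w))
    (hinj : ∀ (x : A) (n : ℕ), (p ^ n) • x = 0 → (∀ w, invJ w x = 0) → x = 0) :
    ∀ (x : A) (n : ℕ), (p ^ n) • x = 0 → (∀ w, (a w).comp (invJ w) x = 0) → x = 0 :=
  fun x n hn hx => hinj x n hn fun w => ha w (by rw [map_zero]; exact hx w)

/-- joint injectivity on all classes survives an injective twist. -/
theorem twist_hinj_all (invJ : W → (A →+ T)) (a : W → (T →+ T))
    (ha : ∀ w, Function.Injective (a w))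
    (hinj : ∀ x : A, (∀ w, invJ w x = 0) → x = 0) :
    ∀ x : A, (∀ w, (a w).comp (invJ w) x = 0) → x = 0 :=
  fun x hx => hinj x fun w => ha w (by rw [map_zero]; exact hx w)

/-- total-map form of `twist_hsurjp` (binder shape `hsurj` of `formation_res`). -/
theorem twist_hsurj (invJ : W → (A →+ T)) (a : W → (T →+ T))
    (ha' : ∀ (w : W) (t : T) (n : ℕ), p ^ n • t = 0 → ∃ s : T, p ^ n • s = 0 ∧ a w s = t)
    (hsurj : ∀ (t : W → T) (n : ℕ), (∀ w, (p ^ n) • t w = 0) →
      ∃ x : A, (p ^ n) • x = 0 ∧ ∀ w, invJ w x = t w) :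
    ∀ (t : W → T) (n : ℕ), (∀ w, (p ^ n) • t w = 0) →
      ∃ x : A, (p ^ n) • x = 0 ∧ ∀ w, (a w).comp (invJ w) x = t w := by
  intro t n ht
  choose s hs1 hs2 using fun w => ha' w (t w) n (ht w)
  obtain ⟨x, hx, hxw⟩ := hsurj s n hs1
  exact ⟨x, hx, fun w => by rw [AddMonoidHom.comp_apply, hxw w, hs2 w]⟩

/-- the twisted family restricted to the `p`-primary part is the twist of the restricted family. -/
theorem twist_restrict (invJ : W → (A →+ T)) (invJp : W → (primary p A →+ T))
    (a : W → (T →+ T)) (h : ∀ w (x : primary p A), invJ w (x : A) = invJp w x) :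
    ∀ w (x : primary p A), (a w).comp (invJ w) (x : A) = (a w).comp (invJp w) x :=
  fun w x => by rw [AddMonoidHom.comp_apply, AddMonoidHom.comp_apply, h w x]

/-- a sum formula for a family becomes the sum formula for the twisted family after twisting
every summand (trivial, but it is the shape in which `hInv`/`hrecC` are consumed). -/
theorem twist_sum [Fintype W] {B : Type*} (InvB : B → T) (f : A → B) (invJ : W → (A →+ T))
    (a : W → (T →+ T))
    (h : ∀ x : A, InvB (f x) = ∑ w, a w (invJ w x)) :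
    ∀ x : A, InvB (f x) = ∑ w, (a w).comp (invJ w) x := fun x => by
  rw [h x]; rfl

end Twist

/-! ### (B)+(C) the twisted triple in one statement -/

section Triple

variable (p : ℕ) [hp : Fact p.Prime] (eps : ∀ n, (ZMod (p ^ n))ˣ)
  (heps : ∀ n, ThetaUnit.red p n ((eps (n + 1) : (ZMod (p ^ (n + 1)))ˣ) :
    ZMod (p ^ (n + 1))) = ((eps n : (ZMod (p ^ n))ˣ) : ZMod (p ^ n)))
  {A : Type*} [AddCommGroup A] {W Q : Type*} [DecidableEq Q]

/-- **the twisted `J`-side triple**: from `(invJp, hinjp, hsurjp)` (e.g. helper94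
`GlobalMod94.JSideFinal.jside_JS_of_pres`) to the family twisted by `epsHom` at the places above
`q₀` (`pl w` the prime below `w`), in the same binder shapes. -/
theorem exists_twisted_triple (pl : W → Q) (q₀ : Q)
    (invJp : W → (primary p A →+ QZ))
    (hinjp : ∀ x : primary p A, (∀ w, invJp w x = 0) → x = 0)
    (hsurjp : ∀ (t : W → QZ) (n : ℕ), (∀ w, (p ^ n) • t w = 0) →
      ∃ x : primary p A, (p ^ n) • x = 0 ∧ ∀ w, invJp w x = t w) :
    ∃ invJp' : W → (primary p A →+ QZ),
      (∀ w x, invJp' w x = epsAt p eps heps (pl w) q₀ (invJp w x)) ∧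
      (∀ x : primary p A, (∀ w, invJp' w x = 0) → x = 0) ∧
      (∀ (t : W → QZ) (n : ℕ), (∀ w, (p ^ n) • t w = 0) →
        ∃ x : primary p A, (p ^ n) • x = 0 ∧ ∀ w, invJp' w x = t w) :=
  ⟨fun w => (epsAt p eps heps (pl w) q₀).comp (invJp w), fun _ _ => rfl,
    twist_hinjp invJp _ (fun w => epsAt_injective p eps heps (pl w) q₀) hinjp,
    twist_hsurjp invJp _ (fun w t n ht => epsAt_surj_primary p eps heps (pl w) q₀ t n ht) hsurjp⟩

end Triple

end Fermat.Agent.S55.TwistFamily72
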