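/-
S55 / 38b-ES-REP part 2 (helper20): the Kummer sequence of `ESRep20` in the landed
`Profin15.LevelStr.ShortExact` shape, and the twist bookkeeping `μ_p = 𝔽_p(1)`:
`a ↦ ζ^a : ZMod p →+ μ_p ⊆ E_S` is equivariant for `cycloChar p` (Prelude), injective, with
image `E_S[p]`; `E_S` is `p`-divisible.  These are exactly the hypotheses `j hj hjρ hpA hjp hdiv`
of `CDArith63.h3Van_of_kummer`.
-/
import Fermat.Agent.S55.ESRep20
import Fermat.Agent.S55.Profin15.Exact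
import Fermat.Prelude.Def_DualSelmer_ExtConditions

set_option autoImplicit false
set_option linter.style.haveILetI false

open CategoryTheory groupCohomology IntermediateField ExtCitation

namespace Fermat.Agent.S55.ESKummer20

open Fermat.Agent.S55.ESDiv20 Fermat.Agent.S55.Profin15 Fermat.Agent.S55.ESRep20

variable {S : Finset Nat.Primes} {p : ℕ} [Fact p.Prime]

/-- The Kummer sequence `0 → μ_{p^n} → E_S → E_S → 0` (`p ∈ S`) in the shape consumed by the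
long exact sequence of level cohomology (`Profin15.LevelStr.ShortExact`). -/
theorem kummer_shortExact (hpS : pPrime p ∈ S) (n : ℕ) :
    LevelStr.ShortExact (A := muRep (p ^ n)) (B := ESRep S) (C := ESRep S)
      (kummerι hpS n).hom.toLinearMap
      (powHom (hH := ES_galStable (S := S)) (p ^ n)).hom.toLinearMap where
  equivariant_left := LevelStr.isEquivariant_hom _
  equivariant_right := LevelStr.isEquivariant_hom _
  injective := kummerι_injective hpS n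
  surjective := kummer_pow_surjective hpS n
  exact := fun x => by
    rw [Set.mem_range]
    exact kummer_exact hpS n x

/-! ### `μ_p = 𝔽_p(1)` -/

/-- `a ↦ ζ^a`, `ZMod p →+ μ_p(ℚ̄)` -/
noncomputable def muHom (ζ : Qbˣ) (hζ : ζ ^ p = 1) : ZMod p →+ muRep p :=
  ZMod.lift p ⟨zmultiplesHom (muRep p)
    (Additive.ofMul (⟨ζ, (mem_rootsOfUnity _ _).2 hζ⟩ : ↥(rootsOfUnity p Qb))), by
      show (p : ℤ) • Additive.ofMul (⟨ζ, (mem_rootsOfUnity _ _).2 hζ⟩ : ↥(rootsOfUnity p Qb)) = 0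
      rw [natCast_zsmul]
      exact congrArg Additive.ofMul (Subtype.ext hζ)⟩

theorem muHom_natCast (ζ : Qbˣ) (hζ : ζ ^ p = 1) (n : ℕ) :
    muHom ζ hζ (n : ZMod p) =
      Additive.ofMul (⟨ζ, (mem_rootsOfUnity _ _).2 hζ⟩ ^ n : ↥(rootsOfUnity p Qb)) := by
  have h := ZMod.lift_coe p (⟨zmultiplesHom (muRep p)
    (Additive.ofMul (⟨ζ, (mem_rootsOfUnity _ _).2 hζ⟩ : ↥(rootsOfUnity p Qb))), by
      show (p : ℤ) • Additive.ofMul (⟨ζ, (mem_rootsOfUnity _ _).2 hζ⟩ : ↥(rootsOfUnity p Qb)) = 0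
      rw [natCast_zsmul]
      exact congrArg Additive.ofMul (Subtype.ext hζ)⟩ :
      {f : ℤ →+ (muRep p) // f p = 0}) (n : ℤ)
  rw [Int.cast_natCast] at h
  rw [muHom, h]
  show ((n : ℕ) : ℤ) • Additive.ofMul (⟨ζ, (mem_rootsOfUnity _ _).2 hζ⟩ : ↥(rootsOfUnity p Qb)) = _
  rw [natCast_zsmul]
  rfl

/-- **equivariance**: `σ (ζ^a) = ζ^(χ(σ) a)`, `χ = cycloChar p` (Prelude). -/
theorem muHom_equivariant (ζ : Qbˣ) (hζ : ζ ^ p = 1) (σ : GQ) (a : ZMod p) :
    muHom ζ hζ (((cycloChar p σ : (ZMod p)ˣ) : ZMod p) * a) = (muRep p).ρ σ (muHom ζ hζ a) := by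
  haveI : NeZero p := ⟨(Fact.out : p.Prime).ne_zero⟩
  obtain ⟨n, rfl⟩ : ∃ n : ℕ, (n : ZMod p) = a := ⟨a.val, ZMod.natCast_zmod_val a⟩
  have hspec : (σ : Qb ≃+* Qb) (ζ : Qb) =
      (ζ : Qb) ^ ((cycloChar p σ : (ZMod p)ˣ) : ZMod p).val :=
    modularCyclotomicCharacter.spec (L := Qb) (card_rootsOfUnity_eq_self p) (σ : Qb ≃+* Qb)
      ((mem_rootsOfUnity _ _).2 hζ)
  have h1 : (((cycloChar p σ : (ZMod p)ˣ) : ZMod p) * (n : ZMod p)) =
      ((((cycloChar p σ : (ZMod p)ˣ) : ZMod p).val * n : ℕ) : ZMod p) := by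
    rw [Nat.cast_mul, ZMod.natCast_zmod_val]
  rw [h1, muHom_natCast, muHom_natCast]
  refine congrArg Additive.ofMul (Subtype.ext (Units.ext ?_))
  show ((ζ : Qb)) ^ (((cycloChar p σ : (ZMod p)ˣ) : ZMod p).val * n) = σ ((ζ : Qb) ^ n)
  rw [map_pow, pow_mul]
  congr 1
  exact hspec.symm

theorem muHom_injective {ζ : Qbˣ} (hζ : IsPrimitiveRoot ζ p) :
    Function.Injective (muHom ζ hζ.pow_eq_one) := by
  haveI : NeZero p := ⟨(Fact.out : p.Prime).ne_zero⟩
  rw [injective_iff_map_eq_zero]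
  intro a ha
  obtain ⟨n, rfl⟩ : ∃ n : ℕ, (n : ZMod p) = a := ⟨a.val, ZMod.natCast_zmod_val a⟩
  rw [muHom_natCast] at ha
  have h1 : ζ ^ n = 1 := congrArg (fun x : ↥(rootsOfUnity p Qb) => (x : Qbˣ))
    (congrArg Additive.toMul ha)
  exact (ZMod.natCast_eq_zero_iff n p).2 ((hζ.pow_eq_one_iff_dvd n).1 h1)

theorem muHom_surjective {ζ : Qbˣ} (hζ : IsPrimitiveRoot ζ p) :
    Function.Surjective (muHom ζ hζ.pow_eq_one) := by
  haveI : NeZero p := ⟨(Fact.out : p.Prime).ne_zero⟩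
  intro x
  obtain ⟨n, -, hn⟩ := hζ.eq_pow_of_mem_rootsOfUnity
    (Additive.toMul (show Additive ↥(rootsOfUnity p Qb) from x) : ↥(rootsOfUnity p Qb)).2
  refine ⟨(n : ZMod p), ?_⟩
  rw [muHom_natCast]
  exact congrArg Additive.ofMul (Subtype.ext hn)

theorem exists_primitiveRoot (p : ℕ) [Fact p.Prime] : ∃ ζ : Qbˣ, IsPrimitiveRoot ζ p := by
  haveI : NeZero p := ⟨(Fact.out : p.Prime).ne_zero⟩
  obtain ⟨ζ, hζ⟩ := (card_rootsOfUnity_eq_iff_exists_isPrimitiveRoot (R := Qb) (n := p)).1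
    (card_rootsOfUnity_eq_self p)
  obtain ⟨u, rfl⟩ := hζ.isUnit (NeZero.ne p)
  exact ⟨u, IsPrimitiveRoot.coe_units_iff.1 hζ⟩

/-! ### the inputs of the Kummer step (`CDArith63.h3Van_of_kummer`) for `E_S` -/

theorem rootsOfUnity_le_ES' (hpS : pPrime p ∈ S) : rootsOfUnity p Qb ≤ ES S := by
  have h := rootsOfUnity_le_ES (S := S) hpS 1
  rwa [pow_one] at h

/-- `j : 𝔽_p(1) → E_S`, `a ↦ ζ^a` -/
noncomputable def jmu (hpS : pPrime p ∈ S) (ζ : Qbˣ) (hζ : ζ ^ p = 1) : ZMod p →+ ESRep S :=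
  ((incl (hH := rootsOfUnity_galStable p) (hH' := ES_galStable (S := S))
    (rootsOfUnity_le_ES' hpS)).hom.toLinearMap.toAddMonoidHom).comp (muHom ζ hζ)

theorem jmu_injective (hpS : pPrime p ∈ S) {ζ : Qbˣ} (hζ : IsPrimitiveRoot ζ p) :
    Function.Injective (jmu (S := S) hpS ζ hζ.pow_eq_one) :=
  (incl_injective (rootsOfUnity_le_ES' hpS)).comp (muHom_injective hζ)

/-- equivariance of `j` for the Prelude's `cycloChar p` -/
theorem jmu_equivariant (hpS : pPrime p ∈ S) (ζ : Qbˣ) (hζ : ζ ^ p = 1) (σ : GQ) (a : ZMod p) :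
    jmu (S := S) hpS ζ hζ (((cycloChar p σ : (ZMod p)ˣ) : ZMod p) * a) =
      (ESRep S).ρ σ (jmu (S := S) hpS ζ hζ a) := by
  show (incl (hH := rootsOfUnity_galStable p) (hH' := ES_galStable (S := S))
    (rootsOfUnity_le_ES' hpS)).hom (muHom ζ hζ (((cycloChar p σ : (ZMod p)ˣ) : ZMod p) * a)) = _
  rw [muHom_equivariant]
  exact Rep.hom_comm_apply _ σ _

/-- the same, with `μ_p` in the Prelude's vocabulary `ofChar (cycloChar p)` -/
theorem jmu_equivariant_ofChar (hpS : pPrime p ∈ S) (ζ : Qbˣ) (hζ : ζ ^ p = 1) (σ : GQ)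
    (a : ZMod p) :
    jmu (S := S) hpS ζ hζ ((ofChar (k := ZMod p) (cycloChar p)).ρ σ a) =
      (ESRep S).ρ σ (jmu (S := S) hpS ζ hζ a) :=
  jmu_equivariant hpS ζ hζ σ a

/-- `E_S[p] = j(𝔽_p(1))` -/
theorem mem_range_jmu (hpS : pPrime p ∈ S) {ζ : Qbˣ} (hζ : IsPrimitiveRoot ζ p)
    (e : ESRep S) (he : p • e = 0) : e ∈ Set.range (jmu (S := S) hpS ζ hζ.pow_eq_one) := by
  have h1 : (powHom (hH := ES_galStable (S := S)) (p ^ 1)).hom e = 0 := by
    rw [powHom_eq_nsmul, pow_one]; exact he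
  obtain ⟨a, ha⟩ := (kummer_exact hpS 1 e).1 h1
  -- `a : muRep (p ^ 1)`; move it to `muRep p`
  obtain ⟨x, hx⟩ : ∃ x : Qbˣ, x = ((Additive.toMul (show Additive ↥(rootsOfUnity (p ^ 1) Qb) from a) :
      ↥(rootsOfUnity (p ^ 1) Qb)) : Qbˣ) := ⟨_, rfl⟩
  have hx1 : x ^ (p ^ 1) = 1 := by
    rw [hx]
    exact (mem_rootsOfUnity _ _).1
      (Additive.toMul (show Additive ↥(rootsOfUnity (p ^ 1) Qb) from a) :
        ↥(rootsOfUnity (p ^ 1) Qb)).2
  have hx2 : x ^ p = 1 := by rwa [pow_one] at hx1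
  have hmem : x ∈ rootsOfUnity p Qb := (mem_rootsOfUnity _ _).2 hx2
  obtain ⟨b, hb⟩ := muHom_surjective hζ (Additive.ofMul (⟨x, hmem⟩ : ↥(rootsOfUnity p Qb)))
  refine ⟨b, ?_⟩
  show (incl (hH := rootsOfUnity_galStable p) (hH' := ES_galStable (S := S))
    (rootsOfUnity_le_ES' hpS)).hom (muHom ζ hζ.pow_eq_one b) = e
  rw [hb, ← ha]
  exact congrArg Additive.ofMul (Subtype.ext hx)

/-- `E_S` is `p`-divisible, additive form -/
theorem ESRep_divisible (hpS : pPrime p ∈ S) (e : ESRep S) : ∃ e' : ESRep S, p • e' = e := by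
  obtain ⟨e', he'⟩ := kummer_pow_surjective (S := S) hpS 1 e
  refine ⟨e', ?_⟩
  rw [powHom_eq_nsmul, pow_one] at he'
  exact he'

theorem nsmul_zmod_eq_zero (a : ZMod p) : p • a = 0 := by
  rw [nsmul_eq_mul, ZMod.natCast_self, zero_mul]

/-! ### the exponent-`p` form (no `p ^ 1`) -/

/-- `μ_p → E_S` -/
noncomputable def kummerι' (hpS : pPrime p ∈ S) : muRep p ⟶ ESRep S :=
  incl (hH := rootsOfUnity_galStable p) (hH' := ES_galStable (S := S)) (rootsOfUnity_le_ES' hpS)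

theorem jmu_eq (hpS : pPrime p ∈ S) (ζ : Qbˣ) (hζ : ζ ^ p = 1) (a : ZMod p) :
    jmu (S := S) hpS ζ hζ a = (kummerι' (S := S) hpS).hom (muHom ζ hζ a) := rfl

/-- `0 → μ_p → E_S -p→ E_S → 0` with the literal exponent `p`; the second map is `e ↦ p • e`
(`powHom_eq_nsmul`). -/
theorem kummer_shortExact' (hpS : pPrime p ∈ S) :
    LevelStr.ShortExact (A := muRep p) (B := ESRep S) (C := ESRep S)
      (kummerι' (S := S) hpS).hom.toLinearMap
      (powHom (hH := ES_galStable (S := S)) p).hom.toLinearMap where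
  equivariant_left := LevelStr.isEquivariant_hom _
  equivariant_right := LevelStr.isEquivariant_hom _
  injective := incl_injective _
  surjective := fun e => by
    obtain ⟨e', he'⟩ := ESRep_divisible hpS e
    exact ⟨e', he'⟩
  exact := fun e => by
    rw [Set.mem_range]
    constructor
    · intro he
      obtain ⟨ζ, hζ⟩ := exists_primitiveRoot p
      obtain ⟨a, ha⟩ := mem_range_jmu (S := S) hpS hζ e he
      exact ⟨muHom ζ hζ.pow_eq_one a, ha⟩
    · rintro ⟨a, rfl⟩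
      have ha : ((Additive.toMul (show Additive ↥(rootsOfUnity p Qb) from a) :
          ↥(rootsOfUnity p Qb)) : Qbˣ) ^ p = 1 :=
        (mem_rootsOfUnity _ _).1 (Additive.toMul (show Additive ↥(rootsOfUnity p Qb) from a) :
          ↥(rootsOfUnity p Qb)).2
      exact congrArg Additive.ofMul (Subtype.ext ha)

theorem powHom_p_apply (e : ESRep S) :
    (powHom (hH := ES_galStable (S := S)) p).hom.toLinearMap e = p • e := rfl

end Fermat.Agent.S55.ESKummer20
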