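/-
S55 / slot A3, seam 35-GEN → `CDArith63.P1Chain.HasFormationDatum` (helper14).

The finite-level class formation statements of 35-GEN (`GlobalInv91.exists_invCp_of_towerLayers`)
can only be instantiated at the TRUE idele class sequence
`Q_Sˣ → J_S × I^S → C_S` (Hilbert 90 for the first term, exact invariants), never at
`E_S → J_S → C'_S = J_S / E_S` (`H¹(G_{L,S}, E_S) = Cl_S(L) ≠ 0`).  Its conclusion is an invariant
`invCp` on the `p`-primary part of the level `H²` of the TRUE class module, compatible with ONE total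
invariant `InvP` on the level `H²` of `J_S × I^S` and injective.

This file is the adapter from that conclusion to helper63's single target `HasFormationDatum`
(which speaks about `C'_S`):

* `exists_true_class_inv` (generic): `invCp` + the `p`-primary local invariants `invJp w` on
  `H²(J)` (with `InvP ∘ H²(inl) = ∑_w invJp w` on `p`-primary classes) give TOTAL maps
  `invJ w`, `invC` on `H²(J)`, `H²(C)` with `hinj`, `hsurj`, `hinjC` and the reciprocity
  `invC (H²(π ∘ ι) x) = ∑_w invJ w x` — the inputs `invC hinj hrecC` of helper41's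
  `S1Limit41.Global.range_loc_iffV` literally;
* `exists_formation_of_class` (generic): the same transported to `C' ⊆ C` along
  `0 → C' → C → Cl → 0` with `Cl` prime-to-`p` torsion (helper41 `S1Limit41.Transfer`,
  helper72 `ClassLimit72`);
* `hasFormationDatum_of_class`, `hasFormationDatum_of_invCp` (concrete): `HasFormationDatum p S V hV`
  from the statements on the true class module `ClassData72.CSl S` restricted to `V`.
-/
import Fermat.Agent.S55.S1Limit41.Transfer
import Fermat.Agent.S55.ClassData72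
import Fermat.Agent.S55.CDArith63.P1Chain
import Fermat.Agent.S55.PrimaryExt14
import Fermat.Agent.S55.LimDesc99.TransferLevel
import Fermat.Agent.S55.CS79.Restrict

set_option autoImplicit false
set_option linter.unusedSectionVars false
set_option linter.unusedVariables false

open CategoryTheory groupCohomology ExtCitation

namespace Fermat.Agent.S55.ClassGlue14

open Fermat.Agent.S55.Profin15 Fermat.Agent.S55.Profin15.LevelStr
open Fermat.Agent.S55.ClassLimit72 Fermat.Agent.S55.PrimaryExt14
open Fermat.Agent.S55.S1Limit41.Transfer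

universe u

section Generic

variable {k G : Type u} [CommRing k] [Group G] (𝒰 : LevelStr G) {p : ℕ} [hp : Fact p.Prime]
variable {J P C' C Cl : Rep.{u, u, u} k G} {π' : J →ₗ[k] C'} {φ : C' →ₗ[k] C} {ψ : C →ₗ[k] Cl}
  {ι : J →ₗ[k] P} {π : P →ₗ[k] C}
variable {T : Type*} [AddCommGroup T] {W : Type*} [Fintype W]

/-- **From the conclusion of 35-GEN at the true sequence `K → P = J × I → C` to total
invariants**: `invJp w` are the `p`-primary local invariants on level `H²(J)`, `InvP` the total
idelic invariant on level `H²(P)` (restricting to `∑_w invJp w` along `ι = inl`), `invCp` the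
invariant of the class module on `p`-primary classes. -/
theorem exists_true_class_inv (hι : IsEquivariant ι) (hπ : IsEquivariant π)
    (invJp : W → (primary p (𝒰.H2 J) →+ T))
    (hinjp : ∀ x : primary p (𝒰.H2 J), (∀ w, invJp w x = 0) → x = 0)
    (hsurjp : ∀ (t : W → T) (n : ℕ), (∀ w, (p ^ n) • t w = 0) →
      ∃ x : primary p (𝒰.H2 J), (p ^ n) • x = 0 ∧ ∀ w, invJp w x = t w)
    (InvP : 𝒰.H2 P →+ T)
    (hInv : ∀ x : primary p (𝒰.H2 J), InvP (𝒰.H2map ι hι (x : 𝒰.H2 J)) = ∑ w, invJp w x)
    (invCp : primary p (𝒰.H2 C) →+ T)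
    (hcompat : ∀ y : primary p (𝒰.H2 P),
      invCp (mapPrimary p (𝒰.H2map π hπ).toAddMonoidHom y) = InvP (y : 𝒰.H2 P))
    (hinjCp : ∀ c : primary p (𝒰.H2 C), invCp c = 0 → c = 0) :
    ∃ (invJ : W → (𝒰.H2 J →+ T)) (invC : 𝒰.H2 C →+ T),
      (∀ w (x : primary p (𝒰.H2 J)), invJ w (x : 𝒰.H2 J) = invJp w x) ∧
      (∀ y : primary p (𝒰.H2 C), invC (y : 𝒰.H2 C) = invCp y) ∧
      (∀ (x : 𝒰.H2 J) (n : ℕ), (p ^ n) • x = 0 → (∀ w, invJ w x = 0) → x = 0) ∧
      (∀ (t : W → T) (n : ℕ), (∀ w, (p ^ n) • t w = 0) →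
        ∃ x : 𝒰.H2 J, (p ^ n) • x = 0 ∧ ∀ w, invJ w x = t w) ∧
      (∀ (y : 𝒰.H2 C) (n : ℕ), (p ^ n) • y = 0 → invC y = 0 → y = 0) ∧
      (∀ x : 𝒰.H2 J, invC (𝒰.H2map (π ∘ₗ ι) (hι.comp hπ) x) = ∑ w, invJ w x) := by
  refine exists_total_inv p (fun x => LimDesc99.H2_torsion15 J x)
    (fun y => LimDesc99.H2_torsion15 C y)
    (𝒰.H2map (π ∘ₗ ι) (hι.comp hπ)).toAddMonoidHom invJp invCp hinjp hsurjp hinjCp ?_
  intro x
  have h1 : mapPrimary p (𝒰.H2map (π ∘ₗ ι) (hι.comp hπ)).toAddMonoidHom x =
      mapPrimary p (𝒰.H2map π hπ).toAddMonoidHom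
        (mapPrimary p (𝒰.H2map ι hι).toAddMonoidHom x) :=
    Subtype.ext (H2map_comp 𝒰 hι hπ (x : 𝒰.H2 J))
  rw [h1, hcompat]
  exact hInv x

/-- **The formation data for `C' ⊆ C`** (`0 → C' → C → Cl → 0`, `Cl` prime-to-`p` torsion) from the
conclusion of 35-GEN at the true sequence `K → P → C`, with `π ∘ ι = φ ∘ π'`
(`J → P → C` is `J → C' → C`).  Output: `invJ invC hinj hsurj hinjC hcompat` in the binder shapes of
`CDArith63.GlobalForm.formation_res` / `P1Chain.HasFormationDatum`. -/
theorem exists_formation_of_class (h : ShortExact φ ψ) (hC : 𝒰.IsSmooth C)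
    (hCl : IsPrimeToP p Cl) (hπ' : IsEquivariant π') (hι : IsEquivariant ι) (hπ : IsEquivariant π)
    (hfac : π ∘ₗ ι = φ ∘ₗ π')
    (invJp : W → (primary p (𝒰.H2 J) →+ T))
    (hinjp : ∀ x : primary p (𝒰.H2 J), (∀ w, invJp w x = 0) → x = 0)
    (hsurjp : ∀ (t : W → T) (n : ℕ), (∀ w, (p ^ n) • t w = 0) →
      ∃ x : primary p (𝒰.H2 J), (p ^ n) • x = 0 ∧ ∀ w, invJp w x = t w)
    (InvP : 𝒰.H2 P →+ T)
    (hInv : ∀ x : primary p (𝒰.H2 J), InvP (𝒰.H2map ι hι (x : 𝒰.H2 J)) = ∑ w, invJp w x)
    (invCp : primary p (𝒰.H2 C) →+ T)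
    (hcompat : ∀ y : primary p (𝒰.H2 P),
      invCp (mapPrimary p (𝒰.H2map π hπ).toAddMonoidHom y) = InvP (y : 𝒰.H2 P))
    (hinjCp : ∀ c : primary p (𝒰.H2 C), invCp c = 0 → c = 0) :
    ∃ (invJ : W → (𝒰.H2 J →+ T)) (invC : 𝒰.H2 C' →+ T),
      (∀ w (x : primary p (𝒰.H2 J)), invJ w (x : 𝒰.H2 J) = invJp w x) ∧
      (∀ (x : 𝒰.H2 J) (n : ℕ), (p ^ n) • x = 0 → (∀ w, invJ w x = 0) → x = 0) ∧
      (∀ (t : W → T) (n : ℕ), (∀ w, (p ^ n) • t w = 0) →
        ∃ x : 𝒰.H2 J, (p ^ n) • x = 0 ∧ ∀ w, invJ w x = t w) ∧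
      (∀ (y : 𝒰.H2 C') (n : ℕ), (p ^ n) • y = 0 → invC y = 0 → y = 0) ∧
      (∀ x : 𝒰.H2 J, invC (𝒰.H2map π' hπ' x) = ∑ w, invJ w x) := by
  obtain ⟨invJ, invC, h1, -, h3, h4, h5, h6⟩ := exists_true_class_inv 𝒰 hι hπ invJp hinjp hsurjp
    InvP hInv invCp hcompat hinjCp
  refine ⟨invJ, invC' 𝒰 h invC, h1, h3, h4,
    fun y n hy h0 => hinvC_primary_of_class 𝒰 h hC hCl invC h5 y n hy h0, fun x => ?_⟩
  have key : ∀ (f g : J →ₗ[k] C) (hf : IsEquivariant f) (hg : IsEquivariant g), f = g →
      𝒰.H2map f hf x = 𝒰.H2map g hg x := by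
    intro f g hf hg hfg
    subst hfg
    rfl
  rw [invC'_apply, ← H2map_comp 𝒰 hπ' h.equivariant_left,
    key _ _ (hπ'.comp h.equivariant_left) (hι.comp hπ) hfac.symm]
  exact h6 x

end Generic

/-! ### the concrete limit objects over an open subgroup `V ≤ G_ℚ` -/

section Concrete

open Fermat.Agent.S55.CD3 Fermat.Agent.S55.CDArith63 Fermat.Agent.S55.CDArith63.P1Chain
open Fermat.Agent.S55.CDArith63.Adapter Fermat.Agent.S55.CDArith63.Global
open Fermat.Agent.S55.ESDiv20 Fermat.Agent.S55.ESRep20 Fermat.Agent.S55.GlobalMod94.JS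
open Fermat.Agent.S55.QZ33 Fermat.Agent.S55.CS79.Restrict
open Fermat.Agent.S55.CS79.ClassSeq Fermat.Agent.S55.CS79.DivLimit

variable {p : ℕ} [hp : Fact p.Prime] (S : Finset Nat.Primes) (V : Subgroup GQ)
  (hV : IsOpenSub (globalLevels S) V)

/-- the true class module `C_S = coker (Q_Sˣ → J_S × I^S)` (helper72's `ClassData72.CSl`,
helper79's `CofinalCS.CS`) restricted to `V` -/
noncomputable abbrev CtV : Rep.{0, 0, 0} ℤ ↥V := Rep.res V.subtype (ClassData72.CSl S)

/-- `J_S × I^S` restricted to `V` -/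
noncomputable abbrev PV : Rep.{0, 0, 0} ℤ ↥V :=
  Rep.res V.subtype (prodRep (JSp S) (ISlim S))

/-- `J_S` restricted to `V` -/
noncomputable abbrev JV : Rep.{0, 0, 0} ℤ ↥V := Rep.res V.subtype (JSp S)

/-- `j ↦ (j, 0)`, `J_S → J_S × I^S` -/
noncomputable def inlLin : JSp S →ₗ[ℤ] prodRep (JSp S) (ISlim S) :=
  LinearMap.inl ℤ (JSp S) (ISlim S)

theorem inlLin_apply (j : JSp S) : inlLin S j = (j, (0 : ISlim S)) := rfl

theorem inlLin_equivariant : IsEquivariant (A := JSp S) (B := prodRep (JSp S) (ISlim S))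
    (inlLin S) := fun g j => by
  show ((JSp S).ρ g j, (0 : ISlim S)) = ((JSp S).ρ g j, (ISlim S).ρ g 0)
  rw [map_zero]

/-- `J_S × I^S → C_S` -/
noncomputable abbrev projLin : prodRep (JSp S) (ISlim S) →ₗ[ℤ] ClassData72.CSl S :=
  (classProj (diagJ S) (divLim S)).hom.toLinearMap

theorem projLin_equivariant : IsEquivariant (A := prodRep (JSp S) (ISlim S))
    (B := ClassData72.CSl S) (projLin S) :=
  LevelStr.isEquivariant_hom (classProj (diagJ S) (divLim S))

/-- `J_S → J_S × I^S → C_S` is `J_S → C'_S → C_S` -/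
theorem projLin_comp_inlLin :
    projLin S ∘ₗ inlLin S = ClassData72.phi S ∘ₗ (πCS S).hom.toLinearMap :=
  LinearMap.ext fun j => (ClassData72.phi_πCS S j).symm

/-- **`0 → Q_Sˣ → J_S × I^S → C_S → 0`**, the sequence at which 35-GEN is instantiated, in the raw
`Profin15` form (binder `hses` of `GlobalInv91.exists_invCp_of_towerLayers` after `.res`). -/
theorem shortExact_true (hS : S.Nonempty) :
    LevelStr.ShortExact (A := QSxRep S) (B := prodRep (JSp S) (ISlim S))
      (C := ClassData72.CSl S) (diagHom (diagJ S) (divLim S)).hom.toLinearMap (projLin S) where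
  equivariant_left := LevelStr.isEquivariant_hom (diagHom (diagJ S) (divLim S))
  equivariant_right := projLin_equivariant S
  injective := (shortExact_class (diagJ S) (divLim S) (diagJ_injective S hS)).inj
  surjective := (shortExact_class (diagJ S) (divLim S) (diagJ_injective S hS)).surj
  exact := fun b =>
    (shortExact_class (diagJ S) (divLim S) (diagJ_injective S hS)).exact b

theorem PV_isSmooth : (restrictLevels (globalLevels S) V hV).IsSmooth (PV S V) :=
  isSmooth_res (isSmooth_prodRep (JSp_isSmooth S) (isSmooth_ISlim S)) hV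

theorem CtV_isSmooth : (restrictLevels (globalLevels S) V hV).IsSmooth (CtV S V) :=
  isSmooth_res (ClassData72.isSmooth_CSl S) hV

/-- `0 → C'_S → C_S → Cl_S → 0` over `V` -/
theorem shortExact_classV :
    LevelStr.ShortExact (A := Rep.res V.subtype (CSp S)) (B := CtV S V)
      (C := Rep.res V.subtype (ClassData72.ClS S))
      (resLin (A := CSp S) (B := ClassData72.CSl S) V.subtype (ClassData72.phi S))
      (resLin (A := ClassData72.CSl S) (B := ClassData72.ClS S) V.subtype (ClassData72.psi S)) :=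
  (ClassData72.shortExact S).res V.subtype

/-- **slot A3 from the class formation statements on the TRUE class module over `V`**:
`invCt`, `hinjCt`, `hrecC`, `hH1Ct` are the statements leaves 33/35 prove (for
`C_S = coker (Q_Sˣ → J_S × I^S)`); `invJ`, `hinj`, `hsurj`, `hH3J` are local (52 + 22). -/
theorem hasFormationDatum_of_class (hpS : pPrime p ∈ S) {W : Type} [Fintype W] [Nonempty W]
    (invJ : W → ((restrictLevels (globalLevels S) V hV).H2 (JV S V) →+ QZ))
    (hinj : ∀ (x : (restrictLevels (globalLevels S) V hV).H2 (JV S V)) (n : ℕ),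
      (p ^ n) • x = 0 → (∀ w, invJ w x = 0) → x = 0)
    (hsurj : ∀ (t : W → QZ) (n : ℕ), (∀ w, (p ^ n) • t w = 0) →
      ∃ x : (restrictLevels (globalLevels S) V hV).H2 (JV S V),
        (p ^ n) • x = 0 ∧ ∀ w, invJ w x = t w)
    (invCt : (restrictLevels (globalLevels S) V hV).H2 (CtV S V) →+ QZ)
    (hinjCt : ∀ (y : (restrictLevels (globalLevels S) V hV).H2 (CtV S V)) (n : ℕ),
      (p ^ n) • y = 0 → invCt y = 0 → y = 0)
    (hrecC : ∀ x : (restrictLevels (globalLevels S) V hV).H2 (JV S V),
      invCt ((restrictLevels (globalLevels S) V hV).H2map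
        (resLin (A := CSp S) (B := ClassData72.CSl S) V.subtype (ClassData72.phi S) ∘ₗ
          resLin (A := JSp S) (B := CSp S) V.subtype (πCS S).hom.toLinearMap)
        (((LevelStr.isEquivariant_hom (πCS S)).res V.subtype).comp
          (shortExact_classV S V).equivariant_left) x) = ∑ w, invJ w x)
    (hH1Ct : ∀ (c : (restrictLevels (globalLevels S) V hV).H1 (CtV S V)) (n : ℕ),
      (p ^ n) • c = 0 → c = 0)
    (hH3J : H3TorsVan (restrictLevels (globalLevels S) V hV) p (resSub (canρ (JSp S)) V)) :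
    HasFormationDatum p S V hV := by
  have hCl : IsPrimeToP p (Rep.res V.subtype (ClassData72.ClS S)) :=
    ClassData72.isPrimeToP_ClS S hpS
  refine ⟨W, inferInstance, inferInstance, invJ,
    invC' (restrictLevels (globalLevels S) V hV) (shortExact_classV S V) invCt, hinj, hsurj,
    ?_, ?_, ?_, hH3J⟩
  · intro y n hy h0
    exact hinvC_primary_of_class (restrictLevels (globalLevels S) V hV) (shortExact_classV S V)
      (CtV_isSmooth S V hV) hCl invCt hinjCt y n hy h0
  · intro x
    exact hrec_of_class (restrictLevels (globalLevels S) V hV) (shortExact_classV S V)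
      ((LevelStr.isEquivariant_hom (πCS S)).res V.subtype) invCt
      (fun _ : W => AddMonoidHom.id QZ) invJ hrecC x
  · intro y n hy
    exact hC1_primary_of_class (restrictLevels (globalLevels S) V hV) (shortExact_classV S V)
      (CtV_isSmooth S V hV) hCl hH1Ct y n hy

/-- **slot A3 from the CONCLUSION of 35-GEN at the true sequence over `V`**
(`GlobalInv91.exists_invCp_of_towerLayers` at `X = Res_V (Q_Sˣ → J_S × I^S → C_S)`, whose binder
`invJ` is `InvP` here): `p`-primary local invariants `invJp w` on `H²(V, J_S)` [52 + 22], ONE total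
idelic invariant `InvP` on `H²(V, J_S × I^S)` restricting to `∑_w invJp w` on the `J_S`-factor
(`p`-primary classes), and `invCp` on the `p`-primary part of `H²(V, C_S)` compatible with `InvP`
and injective. -/
theorem hasFormationDatum_of_invCp (hpS : pPrime p ∈ S) {W : Type} [Fintype W] [Nonempty W]
    (invJp : W → (primary p ((restrictLevels (globalLevels S) V hV).H2 (JV S V)) →+ QZ))
    (hinjp : ∀ x : primary p ((restrictLevels (globalLevels S) V hV).H2 (JV S V)),
      (∀ w, invJp w x = 0) → x = 0)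
    (hsurjp : ∀ (t : W → QZ) (n : ℕ), (∀ w, (p ^ n) • t w = 0) →
      ∃ x : primary p ((restrictLevels (globalLevels S) V hV).H2 (JV S V)),
        (p ^ n) • x = 0 ∧ ∀ w, invJp w x = t w)
    (InvP : (restrictLevels (globalLevels S) V hV).H2 (PV S V) →+ QZ)
    (hInv : ∀ x : primary p ((restrictLevels (globalLevels S) V hV).H2 (JV S V)),
      InvP ((restrictLevels (globalLevels S) V hV).H2map
        (resLin (A := JSp S) (B := prodRep (JSp S) (ISlim S)) V.subtype (inlLin S))
        ((inlLin_equivariant S).res V.subtype)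
        (x : (restrictLevels (globalLevels S) V hV).H2 (JV S V))) = ∑ w, invJp w x)
    (invCp : primary p ((restrictLevels (globalLevels S) V hV).H2 (CtV S V)) →+ QZ)
    (hcompat : ∀ y : primary p ((restrictLevels (globalLevels S) V hV).H2 (PV S V)),
      invCp (mapPrimary p ((restrictLevels (globalLevels S) V hV).H2map
        (resLin (A := prodRep (JSp S) (ISlim S)) (B := ClassData72.CSl S) V.subtype (projLin S))
        ((projLin_equivariant S).res V.subtype)).toAddMonoidHom y) =
        InvP (y : (restrictLevels (globalLevels S) V hV).H2 (PV S V)))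
    (hinjCp : ∀ c : primary p ((restrictLevels (globalLevels S) V hV).H2 (CtV S V)),
      invCp c = 0 → c = 0)
    (hH1Ct : ∀ (c : (restrictLevels (globalLevels S) V hV).H1 (CtV S V)) (n : ℕ),
      (p ^ n) • c = 0 → c = 0)
    (hH3J : H3TorsVan (restrictLevels (globalLevels S) V hV) p (resSub (canρ (JSp S)) V)) :
    HasFormationDatum p S V hV := by
  obtain ⟨invJ, invC, -, -, h3, h4, h5, h6⟩ :=
    exists_true_class_inv (restrictLevels (globalLevels S) V hV)
      ((inlLin_equivariant S).res V.subtype) ((projLin_equivariant S).res V.subtype)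
      invJp hinjp hsurjp InvP hInv invCp hcompat hinjCp
  refine hasFormationDatum_of_class S V hV hpS invJ h3 h4 invC h5 (fun x => ?_) hH1Ct hH3J
  have key : ∀ (f g : JV S V →ₗ[ℤ] CtV S V) (hf : IsEquivariant f) (hg : IsEquivariant g),
      f = g → (restrictLevels (globalLevels S) V hV).H2map f hf x =
        (restrictLevels (globalLevels S) V hV).H2map g hg x := by
    intro f g hf hg hfg
    subst hfg
    rfl
  rw [← h6 x]
  congr 1
  exact key _ _ _ _ (projLin_comp_inlLin S).symm

/-! ### the literal `ShortComplex` for `GlobalInv91.exists_invCp_of_towerLayers` -/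

/-- `Q_Sˣ → J_S × I^S → C_S` restricted to `V`, as Rep morphisms -/
noncomputable abbrev diagV : Rep.res V.subtype (QSxRep S) ⟶ PV S V :=
  (Rep.resFunctor V.subtype).map (diagHom (diagJ S) (divLim S))

/-- `J_S × I^S → C_S` restricted to `V` -/
noncomputable abbrev projV : PV S V ⟶ CtV S V :=
  (Rep.resFunctor V.subtype).map (classProj (diagJ S) (divLim S))

theorem diagHom_classProj :
    diagHom (diagJ S) (divLim S) ≫ classProj (diagJ S) (divLim S) = 0 := by
  apply Rep.hom_ext
  apply Representation.IntertwiningMap.ext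
  refine LinearMap.ext fun x => ?_
  exact (Submodule.Quotient.mk_eq_zero _).2 ⟨x, rfl⟩

/-- **the short complex `X` at which 35-GEN is to be instantiated over `V`**:
`X.X₁ = Res_V Q_Sˣ`, `X.X₂ = Res_V (J_S × I^S)`, `X.X₃ = Res_V C_S`. -/
noncomputable def trueSeqV : ShortComplex (Rep.{0, 0, 0} ℤ ↥V) :=
  ShortComplex.mk (diagV S V) (projV S V) (by
    rw [← Functor.map_comp, diagHom_classProj, Functor.map_zero])

/-- binder `hses` of `GlobalInv91.exists_invCp_of_towerLayers` at `trueSeqV` -/
theorem trueSeqV_shortExact (hS : S.Nonempty) :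
    LevelStr.ShortExact (A := (trueSeqV S V).X₁) (B := (trueSeqV S V).X₂)
      (C := (trueSeqV S V).X₃) (trueSeqV S V).f.hom.toLinearMap
      (trueSeqV S V).g.hom.toLinearMap :=
  (shortExact_true S hS).res V.subtype

/-- binder `hJ` of `GlobalInv91.exists_invCp_of_towerLayers` at `trueSeqV` -/
theorem trueSeqV_isSmooth : (restrictLevels (globalLevels S) V hV).IsSmooth (trueSeqV S V).X₂ :=
  PV_isSmooth S V hV

/-- **slot A3 from the LITERAL conclusion of `GlobalInv91.exists_invCp_of_towerLayers`** at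
`X := trueSeqV S V`, `invJ := InvP`. -/
theorem hasFormationDatum_of_towerLayers (hpS : pPrime p ∈ S) {W : Type} [Fintype W] [Nonempty W]
    (invJp : W → (primary p ((restrictLevels (globalLevels S) V hV).H2 (JV S V)) →+ QZ))
    (hinjp : ∀ x : primary p ((restrictLevels (globalLevels S) V hV).H2 (JV S V)),
      (∀ w, invJp w x = 0) → x = 0)
    (hsurjp : ∀ (t : W → QZ) (n : ℕ), (∀ w, (p ^ n) • t w = 0) →
      ∃ x : primary p ((restrictLevels (globalLevels S) V hV).H2 (JV S V)),
        (p ^ n) • x = 0 ∧ ∀ w, invJp w x = t w)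
    (InvP : (restrictLevels (globalLevels S) V hV).H2 (trueSeqV S V).X₂ →+ QZ)
    (hInv : ∀ x : primary p ((restrictLevels (globalLevels S) V hV).H2 (JV S V)),
      InvP ((restrictLevels (globalLevels S) V hV).H2map
        (resLin (A := JSp S) (B := prodRep (JSp S) (ISlim S)) V.subtype (inlLin S))
        ((inlLin_equivariant S).res V.subtype)
        (x : (restrictLevels (globalLevels S) V hV).H2 (JV S V))) = ∑ w, invJp w x)
    (hGEN : ∃ invC : primary p ((restrictLevels (globalLevels S) V hV).H2 (trueSeqV S V).X₃) →+ QZ,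
      (∀ y : primary p ((restrictLevels (globalLevels S) V hV).H2 (trueSeqV S V).X₂),
        invC (mapPrimary p
          (LimDesc99.pushH2 (𝒰 := restrictLevels (globalLevels S) V hV) (trueSeqV S V).g) y) =
          InvP (y : (restrictLevels (globalLevels S) V hV).H2 (trueSeqV S V).X₂)) ∧
      (∀ c : primary p ((restrictLevels (globalLevels S) V hV).H2 (trueSeqV S V).X₃),
        invC c = 0 → c = 0))
    (hH1Ct : ∀ (c : (restrictLevels (globalLevels S) V hV).H1 (CtV S V)) (n : ℕ),
      (p ^ n) • c = 0 → c = 0)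
    (hH3J : H3TorsVan (restrictLevels (globalLevels S) V hV) p (resSub (canρ (JSp S)) V)) :
    HasFormationDatum p S V hV := by
  obtain ⟨invCp, hcompat, hinjCp⟩ := hGEN
  exact hasFormationDatum_of_invCp S V hV hpS invJp hinjp hsurjp InvP hInv invCp hcompat hinjCp
    hH1Ct hH3J

end Concrete

end Fermat.Agent.S55.ClassGlue14
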