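/-
S55 / P3P4 reserve piece (helper18): the elementary Kummer step in degree 2, in the level-cochain
vocabulary of `CDArith63` (`Z2`, `B2`, `H2`, `mapH2`).

For a smooth, `p`-divisible `ℤ`-module `E` with an equivariant additive map `j : M →+ E` whose
range is the `p`-torsion of `E`: every class of level `H²(E)` killed by `p` comes from level
`H²(M)`.  No Hilbert 90 is needed (this is the surjectivity half of
`H²(μ_p) → H²(E)[p]`): if `p • c = d β` choose `p`-th roots of the finitely many values of `β`.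
-/
import Fermat.Agent.S55.CDArith63.Formation
import Fermat.Agent.S55.Profin15.Adapter63
import Fermat.Agent.S55.LevelScalars13.Basic

set_option autoImplicit false

universe u

namespace Fermat.Agent.S55.KummerTors18

open Fermat.Agent.S55.Profin15 Fermat.Agent.S55.CDArith63

variable {G : Type u} [Group G] {𝒰 : LevelStr G}
  {kE : Type*} [CommRing kE] {E : Type*} [AddCommGroup E] [instE : Module kE E]
  {ρ : Representation kE G E}

/-- cochain form: a level `2`-cocycle whose `p`-multiple is a level coboundary is cohomologous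
(by a level coboundary) to a level `2`-cocycle with values in the `p`-torsion. -/
theorem exists_torsion_cocycle (hsm : IsSmoothRep 𝒰 ρ) (p : ℕ)
    (hdiv : ∀ e : E, ∃ e' : E, p • e' = e)
    {c : G × G → E} (hc : 𝒰.IsConst₂ c) (hdc : d23 ρ c = 0)
    {β : G → E} (hβ : 𝒰.IsConst₁ β) (hpc : p • c = d12 ρ β) :
    ∃ c' : G × G → E, 𝒰.IsConst₂ c' ∧ d23 ρ c' = 0 ∧ (∀ x, p • c' x = 0) ∧
      ∃ ε : G → E, 𝒰.IsConst₁ ε ∧ c - c' = d12 ρ ε := by
  classical
  let root : E → E := fun e => (hdiv e).choose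
  have hroot : ∀ e, p • root e = e := fun e => (hdiv e).choose_spec
  let ε : G → E := root ∘ β
  have hε : 𝒰.IsConst₁ ε := hβ.comp root
  have hpε : p • ε = β := by
    funext g
    simp only [Pi.smul_apply, ε, Function.comp_apply, hroot]
  refine ⟨c - d12 ρ ε, isConst₂_sub hc (hsm.isConst₂_d12 hε), ?_, ?_, ε, hε, ?_⟩
  · rw [d23_sub, hdc, d23_d12, sub_zero]
  · intro x
    have h1 : p • (c - d12 ρ ε) = 0 := by
      rw [smul_sub, ← d12_nsmul, hpε, hpc, sub_self]
    have := congrFun h1 x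
    simpa using this
  · abel

variable {k : Type*} [CommRing k] {M : Type*} [AddCommGroup M] [Module k M]
  {ρM : Representation k G M} (j : M →+ E) (hj : ∀ g m, j (ρM g m) = ρ g (j m))

/-- class form: if `j : M →+ E` is injective with range the `p`-torsion of `E`, then every class
of level `H²(E)` killed by `p` is in the image of `mapH2 j`. -/
theorem exists_mapH2_eq_of_nsmul_eq_zero (hsm : IsSmoothRep 𝒰 ρ) (p : ℕ)
    (hdiv : ∀ e : E, ∃ e' : E, p • e' = e)
    (hjinj : Function.Injective j) (hjrange : ∀ e : E, p • e = 0 → e ∈ Set.range j)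
    (z : H2 𝒰 ρ) (hz : p • z = 0) :
    ∃ b : H2 𝒰 ρM, mapH2 𝒰 ρM ρ j hj b = z := by
  obtain ⟨c, rfl⟩ := H2mk_surjective z
  have hpc : (p • c : ↥(Z2 𝒰 ρ)) ∈ (B2 𝒰 ρ).addSubgroupOf (Z2 𝒰 ρ) := by
    have : H2mk 𝒰 ρ (p • c) = 0 := by rw [map_nsmul, hz]
    rw [H2mk, QuotientAddGroup.mk'_apply, QuotientAddGroup.eq_zero_iff] at this
    exact this
  rw [AddSubgroup.mem_addSubgroupOf] at hpc
  obtain ⟨β, hβ, hdβ⟩ := hpc
  have hpc' : p • (c : G × G → E) = d12 ρ β := by
    rw [hdβ]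
    rfl
  obtain ⟨c', hc', hdc', htors, ε, hε, hcc'⟩ :=
    exists_torsion_cocycle hsm p hdiv c.2.1 c.2.2 hβ hpc'
  -- pull `c'` back along `j`
  obtain ⟨b, hb, hjb⟩ := exists_pull₂ (i := (j : M → E)) hc' (fun x => hjrange _ (htors x))
  have hdb : d23 ρM b = 0 := by
    have h1 : (j : M → E) ∘ d23 ρM b = 0 := by
      rw [map_d23 ρM ρ j hj b, hjb, hdc']
    funext x
    have := congrFun h1 x
    simp only [Function.comp_apply, Pi.zero_apply] at this
    exact hjinj (by rw [this, Pi.zero_apply, map_zero])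
  refine ⟨H2mk 𝒰 ρM ⟨b, hb, hdb⟩, ?_⟩
  rw [mapH2_mk]
  -- the two classes differ by the level coboundary `d ε`
  have hsub : H2mk 𝒰 ρ (c - mapZ2 𝒰 ρM ρ j hj ⟨b, hb, hdb⟩) = 0 := by
    rw [H2mk_eq_zero_iff]
    refine ⟨ε, hε, ?_⟩
    rw [← hcc']
    funext x
    simp only [AddSubgroupClass.coe_sub, coe_mapZ2, Pi.sub_apply, Function.comp_apply]
    rw [← hjb]
    rfl
  rw [map_sub, sub_eq_zero] at hsub
  exact hsub.symm

/-! ### the same statement in `Profin15` vocabulary (`LevelStr.H2`, `LevelScalars13.addH2map`) -/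

section Profin

open Fermat.Agent.S55.LevelScalars13

variable {G : Type} [Group G] (𝒰 : LevelStr G) {k : Type} [CommRing k]
  {M : Rep.{0} k G} {E : Rep.{0} ℤ G}

/-- `Profin15` form: for `E` smooth and `p`-divisible and `j : M →+ E` an equivariant injection
onto the `p`-torsion of `E`, every class of `𝒰.H2 E` killed by `p` is in the image of
`addH2map j`. -/
theorem exists_addH2map_eq_of_nsmul_eq_zero (j : M →+ E) (hj : IsAddEquivariant j)
    (hsm : 𝒰.IsSmooth E) (p : ℕ) (hdiv : ∀ e : E, ∃ e' : E, p • e' = e)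
    (hjinj : Function.Injective j) (hjrange : ∀ e : E, p • e = 0 → e ∈ Set.range j)
    (z : 𝒰.H2 E) (hz : p • z = 0) :
    ∃ b : 𝒰.H2 M, addH2map 𝒰 j hj b = z := by
  have hz' : p • (Adapter63.equiv 𝒰 E).symm z = 0 := by
    rw [← map_nsmul, hz, map_zero]
  obtain ⟨b', hb'⟩ := exists_mapH2_eq_of_nsmul_eq_zero (𝒰 := 𝒰) (instE := E.hV2) (ρ := E.ρ)
    (ρM := M.ρ) j (fun g m => hj g m) hsm p hdiv hjinj hjrange _ hz'
  refine ⟨Adapter63.equiv 𝒰 M b', ?_⟩
  obtain ⟨c, rfl⟩ := H2mk_surjective b'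
  have h2 : z = Adapter63.equiv 𝒰 E ((Adapter63.equiv 𝒰 E).symm z) :=
    (AddEquiv.apply_symm_apply _ _).symm
  rw [h2, ← hb', mapH2_mk, Adapter63.equiv_mk, Adapter63.equiv_mk, addH2map_H2π]
  rfl

end Profin

end Fermat.Agent.S55.KummerTors18
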