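/-
S55 / P3P4 (Contract34.Reciprocity), GLOBAL half (helper20, second seat of helper15).

`reciprocityL_of_top` : the literal level-cohomology plug `Profin15.Plug.ReciprocityL p S`
follows from

* local data (model-free): for `q ∈ S` a `G_q`-module `Ω q` (think `(ℚ̄_q)ˣ`), an additive map
  `emb q : E_S → Ω q` equivariant along `r_q = primeLocalToGlobal q`, and an additive
  "invariant" `inv q : H²(𝒱_q; Ω q) → T` (`𝒱_q = pullLevels r_q`, the FULL local levels);
* `T[p] ≅ ℤ/p` (`jT`);
* `hloc` : at each `q ∈ S` some class of `H²(𝒱_q; μ_p)` has nonzero invariant;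
* `hrec` : **reciprocity on `H²(G_S, E_S)[p]`**: `∑_{q ∈ S} inv q (loc_q z) = 0`.

No idele class module, no limit invariant map, no capitulation enters.
-/
import Fermat.Agent.S55.Profin15.Contract
import Fermat.Agent.S55.LevelScalars13.Basic
import Fermat.Agent.S55.ESKummer20

set_option autoImplicit false
set_option linter.style.haveILetI false

open CategoryTheory groupCohomology ExtCitation
open Fermat.Agent.S55.Profin15 Fermat.Agent.S55.Profin15.LevelStr
open Fermat.Agent.S55.Contract34 Fermat.Agent.S55.Profin15.Plug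
open Fermat.Agent.S55.ESDiv20 Fermat.Agent.S55.ESRep20 Fermat.Agent.S55.ESKummer20
open Fermat.Agent.S55.LevelScalars13

namespace Fermat.Agent.S55.RecipGlobal20

variable {p : ℕ} [Fact p.Prime] {S : Finset Nat.Primes}

/-- `ZMod p`-modules are killed by `p`. -/
theorem nsmul_eq_zero_of_zmod {M : Type*} [AddCommGroup M] [Module (ZMod p) M] (x : M) :
    p • x = 0 := by
  rw [← Nat.cast_smul_eq_nsmul (ZMod p), ZMod.natCast_self, zero_smul]

section Formal

variable (hpS : pPrime p ∈ S) (ζ : Qbˣ) (hζ : ζ ^ p = 1)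

/-- `j : μ_p → E_S` is additive-equivariant (`μ_p = Contract34.mu p`). -/
theorem isAddEquivariant_jmu :
    IsAddEquivariant (A := mu p) (B := ESRep S) (jmu (S := S) hpS ζ hζ) :=
  fun σ a => jmu_equivariant hpS ζ hζ σ a

variable {T : Type} [AddCommGroup T]
variable (Ω : ∀ q : ↥S, Rep.{0} ℤ (primeLocalGaloisGroup q.1))
variable (emb : ∀ q : ↥S, ESRep S →+ Ω q)
variable (hemb : ∀ (q : ↥S) (τ : primeLocalGaloisGroup q.1) (e : ESRep S),
    emb q ((ESRep S).ρ (primeLocalToGlobal q.1 τ) e) = (Ω q).ρ τ (emb q e))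

/-- `emb q` seen on the restricted module -/
def embRes (q : ↥S) : Rep.res (primeLocalToGlobal q.1) (ESRep S) →+ Ω q := emb q

include hemb in
theorem isAddEquivariant_embRes (q : ↥S) :
    IsAddEquivariant (A := Rep.res (primeLocalToGlobal q.1) (ESRep S)) (B := Ω q)
      (embRes Ω emb q) :=
  fun τ e => hemb q τ e

/-- localisation at `q` on `H²(G_S, E_S)`: restrict to the full local group, embed the
coefficients. -/
noncomputable def locE (q : ↥S) :
    (globalLevels S).H2 (ESRep S) →+ (pullLevels (primeLocalToGlobal q.1)).H2 (Ω q) :=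
  (addH2map (pullLevels (primeLocalToGlobal q.1)) (embRes Ω emb q)
      (isAddEquivariant_embRes Ω emb hemb q)).comp
    ((isContinuous_pullLevels S (primeLocalToGlobal q.1)).res₂ (ESRep S)).toAddMonoidHom

/-- the local Kummer map `H²(𝒱_q; μ_p) → H²(𝒱_q; Ω q)`, `a ↦ emb q (ζ^a)`. -/
noncomputable def kum (q : ↥S) :
    (pullLevels (primeLocalToGlobal q.1)).H2 (Rep.res (primeLocalToGlobal q.1) (mu p)) →+
      (pullLevels (primeLocalToGlobal q.1)).H2 (Ω q) :=
  addH2map (pullLevels (primeLocalToGlobal q.1))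
    ((embRes Ω emb q).comp (resAdd (primeLocalToGlobal q.1) (jmu (S := S) hpS ζ hζ)))
    (((isAddEquivariant_jmu hpS ζ hζ).res (primeLocalToGlobal q.1)).comp
      (isAddEquivariant_embRes Ω emb hemb q))

/-- localise-then-Kummer = Kummer-then-localise -/
theorem kum_locq (q : ↥S) (x : (globalLevels S).H2 (mu p)) :
    kum hpS ζ hζ Ω emb hemb q (locq p S q.1 (mu p) x) =
      locE Ω emb hemb q (addH2map (globalLevels S) (jmu (S := S) hpS ζ hζ)
        (isAddEquivariant_jmu hpS ζ hζ) x) := by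
  obtain ⟨c, rfl⟩ := Submodule.Quotient.mk_surjective _ x
  rfl

variable (inv : ∀ q : ↥S, (pullLevels (primeLocalToGlobal q.1)).H2 (Ω q) →+ T)
variable (jT : ZMod p →+ T) (hjT : Function.Injective jT)
  (hT : ∀ t : T, p • t = 0 → t ∈ Set.range jT)

/-- the `T`-valued functional `inv q ∘ kum q` -/
noncomputable def lamT (q : ↥S) :
    (pullLevels (primeLocalToGlobal q.1)).H2 (Rep.res (primeLocalToGlobal q.1) (mu p)) →+ T :=
  (inv q).comp (kum hpS ζ hζ Ω emb hemb q)

include hT in
theorem lamT_mem_range (q : ↥S)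
    (y : (pullLevels (primeLocalToGlobal q.1)).H2 (Rep.res (primeLocalToGlobal q.1) (mu p))) :
    lamT hpS ζ hζ Ω emb hemb inv q y ∈ jT.range := by
  apply hT
  rw [← map_nsmul, nsmul_eq_zero_of_zmod, map_zero]

/-- the `ZMod p`-valued functional -/
noncomputable def lam (q : ↥S) :
    (pullLevels (primeLocalToGlobal q.1)).H2 (Rep.res (primeLocalToGlobal q.1) (mu p))
      →ₗ[ZMod p] ZMod p :=
  (((AddMonoidHom.ofInjective hjT).symm.toAddMonoidHom).comp
    ((lamT hpS ζ hζ Ω emb hemb inv q).codRestrict jT.range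
      (lamT_mem_range hpS ζ hζ Ω emb hemb inv jT hT q))).toZModLinearMap p

theorem jT_lam (q : ↥S)
    (y : (pullLevels (primeLocalToGlobal q.1)).H2 (Rep.res (primeLocalToGlobal q.1) (mu p))) :
    jT (lam hpS ζ hζ Ω emb hemb inv jT hjT hT q y) = lamT hpS ζ hζ Ω emb hemb inv q y := by
  have h := (AddMonoidHom.ofInjective hjT).apply_symm_apply
    ((lamT hpS ζ hζ Ω emb hemb inv q).codRestrict jT.range
      (lamT_mem_range hpS ζ hζ Ω emb hemb inv jT hT q) y)
  exact congrArg Subtype.val h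

include hjT hT in
/-- **P3P4 from reciprocity on `H²(G_S, E_S)[p]`.** -/
theorem reciprocityL_of_top
    (hloc : ∀ q : ↥S, ∃ y, inv q (kum hpS ζ hζ Ω emb hemb q y) ≠ 0)
    (hrec : ∀ z : (globalLevels S).H2 (ESRep S), p • z = 0 →
      ∑ q : ↥S, inv q (locE Ω emb hemb q z) = 0) :
    ReciprocityL p S := by
  refine ⟨lam hpS ζ hζ Ω emb hemb inv jT hjT hT, fun q h0 => ?_, fun x => ?_⟩
  · obtain ⟨y, hy⟩ := hloc q
    apply hy
    have h1 := jT_lam hpS ζ hζ Ω emb hemb inv jT hjT hT q y
    rw [h0, LinearMap.zero_apply, map_zero] at h1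
    exact h1.symm
  · apply hjT
    rw [map_sum, map_zero]
    have hz : p • addH2map (globalLevels S) (jmu (S := S) hpS ζ hζ)
        (isAddEquivariant_jmu hpS ζ hζ) x = 0 := by
      rw [← map_nsmul, nsmul_eq_zero_of_zmod, map_zero]
    rw [← hrec _ hz]
    refine Finset.sum_congr rfl fun q _ => ?_
    rw [jT_lam, ← kum_locq]
    rfl

end Formal

/-! ### `hrec` from formation data at the top level (route I)

If `E_S` sits in a module `J` (the `S`-ideles) with quotient map `π : J → C`, evaluation maps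
`ev q : J → Ω q` equivariant along `r_q` restricting to `emb q` on `E_S`, and an additive
`invC : H²(G_S, C) → T` with `invC ∘ π_* = ∑_q inv q ∘ EV_q`, then reciprocity holds on
`H²(G_S, E_S)`. -/

section Formation

variable {T : Type} [AddCommGroup T]
variable (Ω : ∀ q : ↥S, Rep.{0} ℤ (primeLocalGaloisGroup q.1))
variable (emb : ∀ q : ↥S, ESRep S →+ Ω q)
variable (hemb : ∀ (q : ↥S) (τ : primeLocalGaloisGroup q.1) (e : ESRep S),
    emb q ((ESRep S).ρ (primeLocalToGlobal q.1 τ) e) = (Ω q).ρ τ (emb q e))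
variable (inv : ∀ q : ↥S, (pullLevels (primeLocalToGlobal q.1)).H2 (Ω q) →+ T)
variable {J C : Rep.{0} ℤ GQ} (i : ESRep S →+ J) (π : J →+ C)
  (hi : IsAddEquivariant (A := ESRep S) (B := J) i) (hπ : IsAddEquivariant (A := J) (B := C) π)
  (hπi : ∀ e, π (i e) = 0)
variable (ev : ∀ q : ↥S, J →+ Ω q)
  (hev : ∀ (q : ↥S) (τ : primeLocalGaloisGroup q.1) (x : J),
    ev q (J.ρ (primeLocalToGlobal q.1 τ) x) = (Ω q).ρ τ (ev q x))
  (hevi : ∀ (q : ↥S) (e : ESRep S), ev q (i e) = emb q e)

/-- `ev q` seen on the restricted module -/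
def evRes (q : ↥S) : Rep.res (primeLocalToGlobal q.1) J →+ Ω q := ev q

include hev in
theorem isAddEquivariant_evRes (q : ↥S) :
    IsAddEquivariant (A := Rep.res (primeLocalToGlobal q.1) J) (B := Ω q) (evRes Ω ev q) :=
  fun τ x => hev q τ x

/-- localisation at `q` on `H²(G_S, J)` -/
noncomputable def EV (q : ↥S) :
    (globalLevels S).H2 J →+ (pullLevels (primeLocalToGlobal q.1)).H2 (Ω q) :=
  (addH2map (pullLevels (primeLocalToGlobal q.1)) (evRes Ω ev q)
      (isAddEquivariant_evRes Ω ev hev q)).comp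
    ((isContinuous_pullLevels S (primeLocalToGlobal q.1)).res₂ J).toAddMonoidHom

include hevi in
theorem EV_addH2map (q : ↥S) (z : (globalLevels S).H2 (ESRep S)) :
    EV Ω ev hev q (addH2map (globalLevels S) i hi z) = locE Ω emb hemb q z := by
  obtain ⟨c, rfl⟩ := Submodule.Quotient.mk_surjective _ z
  show (pullLevels (primeLocalToGlobal q.1)).H2π (Ω q) _ =
    (pullLevels (primeLocalToGlobal q.1)).H2π (Ω q) _
  congr 1
  apply Subtype.ext
  funext g
  exact hevi q _

include hi hπi hevi in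
/-- **`hrec` from `hcompat`.** -/
theorem hrec_of_formation (invC : (globalLevels S).H2 C →+ T)
    (hcompat : ∀ x : (globalLevels S).H2 J,
      invC (addH2map (globalLevels S) π hπ x) = ∑ q : ↥S, inv q (EV Ω ev hev q x))
    (z : (globalLevels S).H2 (ESRep S)) :
    ∑ q : ↥S, inv q (locE Ω emb hemb q z) = 0 := by
  have h1 : addH2map (globalLevels S) π hπ (addH2map (globalLevels S) i hi z) = 0 := by
    rw [← addH2map_comp]
    obtain ⟨c, rfl⟩ := Submodule.Quotient.mk_surjective _ z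
    have h0 : addZ₂map (globalLevels S) (π.comp i) (hi.comp hπ) c = 0 := by
      apply Subtype.ext
      funext g
      exact hπi _
    show (globalLevels S).H2π C (addZ₂map (globalLevels S) (π.comp i) (hi.comp hπ) c) = 0
    rw [h0, map_zero]
  have h2 := hcompat (addH2map (globalLevels S) i hi z)
  rw [h1, map_zero] at h2
  rw [h2]
  exact Finset.sum_congr rfl fun q _ => by rw [EV_addH2map Ω emb hemb i hi ev hev hevi q z]

end Formation

/-! ### the standard local data `Ω q = (ℚ̄_q)ˣ`, `emb q = padicEmbedding q` -/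

section Standard

/-- `(ℚ̄_q)ˣ` as a module over the Prelude's `primeLocalGaloisGroup q` -/
noncomputable def Om (q : Nat.Primes) : Rep.{0} ℤ (primeLocalGaloisGroup q) :=
  letI : Fact (q : ℕ).Prime := ⟨q.2⟩
  (Rep.ofAlgebraAutOnUnits ℚ_[(q : ℕ)] (PadicAlgCl (q : ℕ)) :
    Rep.{0} ℤ (PadicAlgCl (q : ℕ) ≃ₐ[ℚ_[(q : ℕ)]] PadicAlgCl (q : ℕ)))

/-- the embedding `ℚ̄ˣ → (ℚ̄_q)ˣ` on a Galois-stable subgroup, additive form -/
noncomputable def embUnits (q : Nat.Primes) (H : Subgroup Qbˣ) (hH : GalStable H) :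
    unitsRep H hH →+ Om q := by
  letI : Fact (q : ℕ).Prime := ⟨q.2⟩
  exact (MonoidHom.toAdditive
    ((Units.map ((padicEmbedding (q : ℕ) : Qb →ₐ[ℚ] PadicAlgCl (q : ℕ)) :
      Qb →* PadicAlgCl (q : ℕ))).comp H.subtype) :
    Additive ↥H →+ Additive (PadicAlgCl (q : ℕ))ˣ)

theorem embUnits_apply (q : Nat.Primes) (H : Subgroup Qbˣ) (hH : GalStable H) (u : ↥H) :
    embUnits q H hH (Additive.ofMul u) =
      letI : Fact (q : ℕ).Prime := ⟨q.2⟩
      (Additive.ofMul (Units.map ((padicEmbedding (q : ℕ) : Qb →ₐ[ℚ] PadicAlgCl (q : ℕ)) :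
        Qb →* PadicAlgCl (q : ℕ)) (u : Qbˣ)) : Additive (PadicAlgCl (q : ℕ))ˣ) := rfl

theorem embUnits_equivariant (q : Nat.Primes) (H : Subgroup Qbˣ) (hH : GalStable H)
    (τ : primeLocalGaloisGroup q) (e : unitsRep H hH) :
    embUnits q H hH ((unitsRep H hH).ρ (primeLocalToGlobal q τ) e) =
      (Om q).ρ τ (embUnits q H hH e) := by
  letI : Fact (q : ℕ).Prime := ⟨q.2⟩
  refine congrArg Additive.ofMul (Units.ext ?_)
  exact padicEmbedding_localGaloisToGlobal (q : ℕ) τ
    (((Additive.toMul (show Additive ↥H from e) : ↥H) : Qbˣ) : Qb)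

end Standard

end Fermat.Agent.S55.RecipGlobal20
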