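/-
S55 blueprint contract, amendment (helper34): plug (P7) `HilbertPlug` of `Contract34` is
replaced by the weaker COUNT (P7') `HilbertCount` (referee notes of helper23 and helper47):
for every level `U` trivialising `μ_p`,  `dim sha₂ S 𝔽_p[G/U] ≤ dim sha₁ S 𝔽_p[G/U]`
(Shapiro: `dim sha²(G_{L,S}, μ_p) ≤ dim sha¹(G_{L,S}, 𝔽_p)`, the isotropy count).
The top layer derives `I_{L₀} ≤ im (J_L → I_L)` for `L` large from it (same long exact sequence,
applied to the self-dual module `𝔽_p[G/U₀]`; note `𝔽_p[G/U] ⊗ μ_p ≅ 𝔽_p[G/U]` when `μ_p` is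
trivial on `U`).
-/
import Fermat.Agent.S55.Contract34

set_option autoImplicit false

open CategoryTheory Module groupCohomology ExtCitation
open Fermat.Agent.S55.Profin15
open Fermat.Agent.Lib.FrobeniusExists (Qb GQ)

namespace Fermat.Agent.S55.Contract34

variable (p : ℕ) [Fact p.Prime] (S : Finset Nat.Primes)

/-- (P7') the COUNT: for every level `U` on which `μ_p` is trivial, `sha₂` of the permutation
module is finite-dimensional of dimension at most that of `sha₁` of the permutation module. -/
def HilbertCount : Prop :=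
  ∀ U ∈ (globalLevels S).levels, (∀ s ∈ U, (mu p).ρ s = 1) →
    Module.Finite (ZMod p) (sha₂ S (perm p U)) ∧
    finrank (ZMod p) (sha₂ S (perm p U)) ≤ finrank (ZMod p) (sha₁ S (perm p U))

/-- all plugs for a fixed `(p, S)`, with the count instead of `HilbertPlug` -/
def PlugsCount : Prop :=
  GlobalRightExact p S ∧ (∀ q ∈ S, LocalRightExact p q) ∧ Reciprocity p S ∧
    LocalDim p S ∧ GlobalCokerDim p S ∧ HilbertCount p S

/-- THE TOP-LAYER STATEMENT, count form (formal, no arithmetic). -/
def TopStatementCount : Prop :=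
  ∀ (p : ℕ) [Fact p.Prime], p ≠ 2 → ∀ S : Finset Nat.Primes, pPrime p ∈ S → PlugsCount p S →
    ∀ (M : Rep.{0} (ZMod p) GQ) [FiniteDimensional (ZMod p) M], IsSRep p S M →
      DimConclusion p S M

/-- THE ARITHMETIC STATEMENT, count form. -/
def ArithStatementCount : Prop :=
  ∀ (p : ℕ) [Fact p.Prime], p ≠ 2 → ∀ S : Finset Nat.Primes, pPrime p ∈ S → PlugsCount p S

/-- wiring of the amended contract into the landed spine -/
theorem dimStatement_of_contractCount (hTop : TopStatementCount) (hArith : ArithStatementCount)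
    (hRep : SRepStatement) : Spine15.DimStatement := by
  intro p _ hp2 S hpS M _ hsm hMur
  exact hTop p hp2 S hpS (hArith p hp2 S hpS) M (hRep p S M hsm hMur)

end Fermat.Agent.S55.Contract34
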