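import Mathlib

/-!
# `|A / pA| ≤ |A[p]|` for torsion abelian groups with finite `p`-torsion

Elementary lemma used in the (S1)/(S2) count of the S55 route R3: for
`A = H¹(U, E_S)` one needs `dim A/p ≤ dim A[p]` without knowing that `A` is finite.
-/

namespace Fermat.Agent.S55.TorsionQuot48

open AddSubgroup

theorem mem_range_nsmul_iff {B : Type*} [AddCommGroup B] (n : ℕ) (x : B) :
    x ∈ (nsmulAddMonoidHom (α := B) n).range ↔ ∃ b : B, n • b = x := by
  rw [AddMonoidHom.mem_range]
  simp only [nsmulAddMonoidHom_apply]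

theorem mem_ker_nsmul_iff {B : Type*} [AddCommGroup B] (n : ℕ) (x : B) :
    x ∈ (nsmulAddMonoidHom (α := B) n).ker ↔ n • x = 0 := by
  rw [AddMonoidHom.mem_ker, nsmulAddMonoidHom_apply]

/-- For a finite abelian group `B`, `|B / nB| = |B[n]|`. -/
theorem index_range_nsmul_eq_card_ker (B : Type*) [AddCommGroup B] [Finite B] (n : ℕ) :
    (nsmulAddMonoidHom (α := B) n).range.index = Nat.card (nsmulAddMonoidHom (α := B) n).ker := by
  have h1 : Nat.card (nsmulAddMonoidHom (α := B) n).ker * (nsmulAddMonoidHom (α := B) n).ker.index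
      = Nat.card B := AddSubgroup.card_mul_index _
  have h2 : Nat.card (nsmulAddMonoidHom (α := B) n).range
      * (nsmulAddMonoidHom (α := B) n).range.index = Nat.card B := AddSubgroup.card_mul_index _
  have h3 : (nsmulAddMonoidHom (α := B) n).ker.index
      = Nat.card (nsmulAddMonoidHom (α := B) n).range := AddSubgroup.index_ker _
  have hpos : 0 < Nat.card (nsmulAddMonoidHom (α := B) n).range := Nat.card_pos
  rw [h3] at h1
  have : Nat.card (nsmulAddMonoidHom (α := B) n).range * (nsmulAddMonoidHom (α := B) n).range.index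
      = Nat.card (nsmulAddMonoidHom (α := B) n).range
        * Nat.card (nsmulAddMonoidHom (α := B) n).ker := by
    rw [h2, ← h1, mul_comm]
  exact Nat.eq_of_mul_eq_mul_left hpos this

variable {A : Type*} [AddCommGroup A]

/-- Key step: any finite family of classes of `A / pA` has at most `|A[p]|` elements. -/
theorem finset_card_le (p : ℕ) (htors : IsAddTorsion A)
    [Finite (nsmulAddMonoidHom (α := A) p).ker]
    (s : Finset (A ⧸ (nsmulAddMonoidHom (α := A) p).range)) :
    s.card ≤ Nat.card (nsmulAddMonoidHom (α := A) p).ker := by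
  classical
  -- lifts of the elements of `s`
  let T : Finset A := s.image Quotient.out
  let B : AddSubgroup A := AddSubgroup.closure (T : Set A)
  have hBfg : B.FG := ⟨T, rfl⟩
  have : AddGroup.FG B := (AddGroup.fg_iff_addSubgroup_fg B).2 hBfg
  have hBtors : IsAddTorsion B := htors.addSubgroup B
  have : Finite B := AddCommGroup.finite_of_fg_isAddTorsion B hBtors
  have hmem : ∀ q ∈ s, Quotient.out q ∈ B := fun q hq =>
    AddSubgroup.subset_closure (Finset.mem_coe.2 (Finset.mem_image_of_mem _ hq))
  let φ : s → B ⧸ (nsmulAddMonoidHom (α := B) p).range :=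
    fun q => QuotientAddGroup.mk ⟨Quotient.out q.1, hmem q.1 q.2⟩
  have hφ : Function.Injective φ := by
    intro q q' h
    have h' := (QuotientAddGroup.eq).1 h
    obtain ⟨b, hb⟩ := (mem_range_nsmul_iff p _).1 h'
    apply Subtype.ext
    have e1 : (QuotientAddGroup.mk (Quotient.out q.1) :
        A ⧸ (nsmulAddMonoidHom (α := A) p).range) = q.1 := Quotient.out_eq _
    have e2 : (QuotientAddGroup.mk (Quotient.out q'.1) :
        A ⧸ (nsmulAddMonoidHom (α := A) p).range) = q'.1 := Quotient.out_eq _
    rw [← e1, ← e2]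
    apply (QuotientAddGroup.eq).2
    refine (mem_range_nsmul_iff p _).2 ⟨(b : A), ?_⟩
    have h2 := congrArg (Subtype.val) hb
    rw [AddSubgroup.coe_nsmul] at h2
    rw [h2]
    simp [AddSubgroup.coe_add]
  have c1 : s.card ≤ Nat.card (B ⧸ (nsmulAddMonoidHom (α := B) p).range) := by
    have := Nat.card_le_card_of_injective φ hφ
    simpa using this
  have c2 : Nat.card (B ⧸ (nsmulAddMonoidHom (α := B) p).range)
      = Nat.card (nsmulAddMonoidHom (α := B) p).ker := by
    rw [← AddSubgroup.index_eq_card]
    exact index_range_nsmul_eq_card_ker B p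
  have c3 : Nat.card (nsmulAddMonoidHom (α := B) p).ker
      ≤ Nat.card (nsmulAddMonoidHom (α := A) p).ker := by
    let ψ : (nsmulAddMonoidHom (α := B) p).ker → (nsmulAddMonoidHom (α := A) p).ker :=
      fun b => ⟨((b.1 : B) : A), by
        rw [mem_ker_nsmul_iff]
        have hb : p • (b.1 : B) = 0 := (mem_ker_nsmul_iff p _).1 b.2
        have h2 : ((p • (b.1 : B) : B) : A) = 0 := by rw [hb]; rfl
        rw [AddSubgroup.coe_nsmul] at h2
        exact h2⟩
    have hψ : Function.Injective ψ := by
      intro b b' h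
      apply Subtype.ext
      apply Subtype.ext
      exact congrArg (fun x : (nsmulAddMonoidHom (α := A) p).ker => (x : A)) h
    exact Nat.card_le_card_of_injective ψ hψ
  omega

/-- Main lemma: `A` torsion abelian, `A[p]` finite. Then `A / pA` is finite and
`|A / pA| ≤ |A[p]|`. (No primality of `p` is needed.) -/
theorem finite_and_card_quotient_le (p : ℕ) (htors : IsAddTorsion A)
    [Finite (nsmulAddMonoidHom (α := A) p).ker] :
    Finite (A ⧸ (nsmulAddMonoidHom (α := A) p).range) ∧
      Nat.card (A ⧸ (nsmulAddMonoidHom (α := A) p).range)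
        ≤ Nat.card (nsmulAddMonoidHom (α := A) p).ker := by
  classical
  let _ : Fintype (A ⧸ (nsmulAddMonoidHom (α := A) p).range) :=
    fintypeOfFinsetCardLe _ (finset_card_le p htors)
  refine ⟨inferInstance, ?_⟩
  rw [Nat.card_eq_fintype_card]
  exact finset_card_le p htors Finset.univ

/-- Cardinality form. -/
theorem card_quotient_le (p : ℕ) (htors : IsAddTorsion A)
    [Finite (nsmulAddMonoidHom (α := A) p).ker] :
    Nat.card (A ⧸ (nsmulAddMonoidHom (α := A) p).range)
      ≤ Nat.card (nsmulAddMonoidHom (α := A) p).ker :=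
  (finite_and_card_quotient_le p htors).2

/-- Finiteness form. -/
theorem finite_quotient (p : ℕ) (htors : IsAddTorsion A)
    [Finite (nsmulAddMonoidHom (α := A) p).ker] :
    Finite (A ⧸ (nsmulAddMonoidHom (α := A) p).range) :=
  (finite_and_card_quotient_le p htors).1

end Fermat.Agent.S55.TorsionQuot48
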