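/-
S55 / 22b (helper28): abstract producer of `TateNak43.IsFundamentalCocycle`:
a class of exact order `|G|` in `H²(G, C)` together with the bounds `|H²(H, C)| ≤ |H|`
is a fundamental class (its restrictions generate every `H²(H, C)`, with order `|H|`).
Uses the `res`-kill lemma of InfRes9 instead of corestriction.  Mathlib + InfRes9 + TateNak43.
-/
import Fermat.Agent.S55.InfRes9.ResKill
import Fermat.Agent.S55.TateNak43.Low

namespace Fermat.Agent.S55.FundClass28

open CategoryTheory CategoryTheory.Limits groupCohomology Rep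
open Fermat.Agent.S55.TateNak43

variable {G : Type} [Group G] [Fintype G] (C : Rep ℤ G) (σ : cocycles₂ C)

/-- order of the restricted class: `a • res_H u = 0 ⇒ |H| ∣ a` if `|G|` divides the order
of `u`. -/
theorem card_dvd_of_zsmul_res_eq_zero
    (hord : Nat.card G ∣ addOrderOf (H2π C σ)) (H : Subgroup G) (a : ℤ)
    (ha : a • H2π (Rep.res H.subtype C) (resCocycle C σ H) = 0) : (Nat.card H : ℤ) ∣ a := by
  have h1 : (groupCohomology.map H.subtype (𝟙 (Rep.res H.subtype C)) 2).hom (a • H2π C σ) = 0 := by
    rw [map_zsmul, map_H2π_resCocycle, ha]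
  have h2 := InfRes9.index_smul_eq_zero_of_res_eq_zero_two C H (a • H2π C σ) h1
  have h3 : ((H.index : ℤ) * a) • H2π C σ = 0 := by
    rw [mul_smul, natCast_zsmul]; exact h2
  have h4 : (Nat.card G : ℤ) ∣ (H.index : ℤ) * a :=
    (Int.natCast_dvd_natCast.mpr hord).trans ((addOrderOf_dvd_iff_zsmul_eq_zero).mpr h3)
  have hidx : (H.index : ℤ) ≠ 0 := by
    exact_mod_cast (Subgroup.index_ne_zero_of_finite (H := H))
  have h5 : (Nat.card G : ℤ) = (H.index : ℤ) * (Nat.card H : ℤ) := by
    rw [← Subgroup.card_mul_index H]; push_cast; ring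
  rw [h5] at h4
  exact (mul_dvd_mul_iff_left hidx).mp h4

/-- **Producer of fundamental cocycles.** -/
theorem isFundamentalCocycle_of_card
    (h1 : ∀ H : Subgroup G, IsZero (groupCohomology (Rep.res H.subtype C) 1))
    (hfin : ∀ H : Subgroup G, Finite (groupCohomology (Rep.res H.subtype C) 2))
    (hcard : ∀ H : Subgroup G,
      Nat.card (groupCohomology (Rep.res H.subtype C) 2) ≤ Nat.card H)
    (hord : Nat.card G ∣ addOrderOf (H2π C σ)) :
    IsFundamentalCocycle C σ where
  h1 := h1
  hord H a ha := by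
    have ha' : a • H2π (Rep.res H.subtype C) (resCocycle C σ H) = 0 :=
      (int_smul_eq_zsmul _ a _).symm.trans ha
    obtain ⟨b, hb⟩ := card_dvd_of_zsmul_res_eq_zero C σ hord H a ha'
    exact ⟨b, hb⟩
  hgen H y := by
    have := hfin H
    set x := H2π (Rep.res H.subtype C) (resCocycle C σ H) with hx
    have hpos : 0 < addOrderOf x := addOrderOf_pos x
    have hdvd : (Nat.card H : ℤ) ∣ (addOrderOf x : ℤ) := by
      apply card_dvd_of_zsmul_res_eq_zero C σ hord H
      rw [natCast_zsmul]; exact addOrderOf_nsmul_eq_zero x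
    have hle : Nat.card H ≤ addOrderOf x :=
      Nat.le_of_dvd hpos (by exact_mod_cast hdvd)
    have hZ : Nat.card (AddSubgroup.zmultiples x) = addOrderOf x := Nat.card_zmultiples x
    have htop : AddSubgroup.zmultiples x = ⊤ := by
      apply AddSubgroup.eq_top_of_le_card
      rw [hZ]
      exact (hcard H).trans hle
    have hy : y ∈ AddSubgroup.zmultiples x := by rw [htop]; trivial
    obtain ⟨a, ha⟩ := AddSubgroup.mem_zmultiples_iff.mp hy
    refine ⟨a, ?_⟩
    rw [← ha]
    exact (int_smul_eq_zsmul _ a x).symm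

/-- variant with exact cardinalities. -/
theorem isFundamentalCocycle_of_card_eq
    (h1 : ∀ H : Subgroup G, IsZero (groupCohomology (Rep.res H.subtype C) 1))
    (hcard : ∀ H : Subgroup G,
      Nat.card (groupCohomology (Rep.res H.subtype C) 2) = Nat.card H)
    (hord : Nat.card G ∣ addOrderOf (H2π C σ)) :
    IsFundamentalCocycle C σ :=
  isFundamentalCocycle_of_card C σ h1
    (fun H => Nat.finite_of_card_ne_zero (by rw [hcard H]; exact Nat.card_pos.ne'))
    (fun H => (hcard H).le) hord

end Fermat.Agent.S55.FundClass28
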