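/-
S55 / 47b (helper48): the base case `hbase` of `Dualizing59.theta_bijective` from per-level plugs.

Setting of `Dualizing59`: `𝒰 : LevelStr G`, `q : J → Y` a surjective equivariant map with `J` smooth,
`Λ : H²(Y) → k`, `theta 𝒰 Y Λ N : Hom_G(N, Y) → H²(N)^*`.  For the permutation modules
`N_V = k^(G/V)` we prove

* Frobenius reciprocity for `N_V` (`frob`, `eqHom_coind_ext`, `proj`);
* `theta_injective_coind`: if, for a cofinal family of levels `V`, `theta` is injective on the
  image of `Hom_G(N_V, J)` in `Hom_G(N_V, Y)`, then `theta` is injective on `N_V` for EVERY level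
  `V` (a `V`-fixed vector of `Y` lifts to `J` over a smaller level);
* two linear-algebra cores (`inj_core`, `bij_core`);
* `hbase_of_plugs`: the binder `hbase` of `Dualizing59.theta_bijective` from the per-level plug
  `LevelPlug` (local duality + "coker of the localisation has dimension ≤ 1" + the bare count
  `dim Ш² ≤ dim Ш¹`).  No class field theory enters here.
-/
import Fermat.Agent.S55.Dualizing59.Ind

set_option autoImplicit false
set_option linter.style.haveILetI false
set_option maxHeartbeats 400000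

universe u

open CategoryTheory groupCohomology Module

namespace Fermat.Agent.S55.HBase48

open Fermat.Agent.S55.Profin15 Fermat.Agent.S55.Dualizing59

variable {k : Type u} [Field k] {G : Type u} [Group G]

/-! ### Frobenius reciprocity for the permutation modules `k^(G/V)` -/

section frobenius

variable (V : Subgroup G) [Fintype (G ⧸ V)] (N : Rep.{u} k G)

open Classical in
/-- the indicator function of the trivial coset -/
noncomputable def delta : (G ⧸ V) → k :=
  fun x => if x = ((1 : G) : G ⧸ V) then 1 else 0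

omit [Fintype (G ⧸ V)] in
lemma delta_apply (x : G ⧸ V) [Decidable (x = ((1 : G) : G ⧸ V))] :
    delta (k := k) V x = if x = ((1 : G) : G ⧸ V) then 1 else 0 := by
  unfold delta
  congr

/-- `f ↦ ∑ₓ f x • (x • n)` -/
noncomputable def frobLin (n : N) : ((G ⧸ V) → k) →ₗ[k] N :=
  ∑ x : G ⧸ V, (LinearMap.toSpanSingleton k N (N.ρ (Quotient.out x) n)) ∘ₗ LinearMap.proj x

lemma frobLin_apply (n : N) (f : (G ⧸ V) → k) :
    frobLin V N n f = ∑ x : G ⧸ V, f x • N.ρ (Quotient.out x) n := by
  simp [frobLin, LinearMap.sum_apply]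

variable {V N}

omit [Fintype (G ⧸ V)] in
lemma rho_eq_of_coset_eq {n : N} (hn : ∀ s ∈ V, N.ρ s n = n) {a b : G}
    (hab : (a : G ⧸ V) = b) : N.ρ a n = N.ρ b n := by
  have h1 : a⁻¹ * b ∈ V := QuotientGroup.eq.1 hab
  have h2 : b = a * (a⁻¹ * b) := by group
  rw [h2, map_mul, Module.End.mul_apply, hn _ h1]

lemma frobLin_comp_smul {n : N} (hn : ∀ s ∈ V, N.ρ s n = n) (g : G) (f : (G ⧸ V) → k) :
    frobLin V N n (fun x => f (g⁻¹ • x)) = N.ρ g (frobLin V N n f) := by
  rw [frobLin_apply, frobLin_apply, map_sum]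
  refine Fintype.sum_equiv (MulAction.toPerm g⁻¹) _ _ fun x => ?_
  simp only [MulAction.toPerm_apply]
  rw [map_smul, ← Module.End.mul_apply, ← map_mul]
  congr 1
  refine rho_eq_of_coset_eq hn ?_
  rw [QuotientGroup.out_eq']
  have : ((g * Quotient.out (g⁻¹ • x) : G) : G ⧸ V) =
      g • ((Quotient.out (g⁻¹ • x) : G) : G ⧸ V) := rfl
  rw [this, QuotientGroup.out_eq', smul_inv_smul]

/-- **Frobenius reciprocity**: a `V`-fixed vector `n` of `N` gives the equivariant map
`k^(G/V) → N`, `δ ↦ n`. -/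
noncomputable def frob (n : N) (hn : ∀ s ∈ V, N.ρ s n = n) : eqHom (coind (k := k) V k) N :=
  ⟨frobLin V N n, fun g f => frobLin_comp_smul hn g f⟩

lemma frob_apply (n : N) (hn : ∀ s ∈ V, N.ρ s n = n) (f : (G ⧸ V) → k) :
    (frob n hn).1 f = ∑ x : G ⧸ V, f x • N.ρ (Quotient.out x) n := frobLin_apply V N n f

lemma frob_delta (n : N) (hn : ∀ s ∈ V, N.ρ s n = n) :
    (frob n hn).1 (delta (k := k) V) = n := by
  classical
  rw [frob_apply, Finset.sum_eq_single ((1 : G) : G ⧸ V)]
  · rw [delta_apply, if_pos rfl, one_smul]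
    have h1 : ((Quotient.out ((1 : G) : G ⧸ V) : G) : G ⧸ V) = ((1 : G) : G ⧸ V) :=
      QuotientGroup.out_eq' _
    rw [rho_eq_of_coset_eq hn h1, map_one, Module.End.one_apply]
  · intro x _ hx
    rw [delta_apply, if_neg hx, zero_smul]
  · intro h
    exact (h (Finset.mem_univ _)).elim

omit [Fintype (G ⧸ V)] in
/-- translates of `δ` are the indicator functions -/
lemma rho_delta (g : G) [DecidableEq (G ⧸ V)] :
    (coind (k := k) V k).ρ g (delta (k := k) V) = Pi.single ((g : G) : G ⧸ V) (1 : k) := by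
  funext y
  rw [coind_ρ_apply, delta_apply, Pi.single_apply]
  have : g⁻¹ • y = ((1 : G) : G ⧸ V) ↔ y = ((g : G) : G ⧸ V) := by
    rw [inv_smul_eq_iff]
    have h1 : g • ((1 : G) : G ⧸ V) = ((g * 1 : G) : G ⧸ V) := rfl
    rw [h1, mul_one]
  simp only [this]

/-- an equivariant map out of `k^(G/V)` is determined by the image of `δ` -/
lemma eqHom_coind_ext {φ ψ : eqHom (coind (k := k) V k) N}
    (h : φ.1 (delta (k := k) V) = ψ.1 (delta (k := k) V)) : φ = ψ := by
  classical
  apply Subtype.ext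
  have key : ∀ (χ : eqHom (coind (k := k) V k) N) (x : G ⧸ V) (c : k),
      χ.1 (Pi.single x c : (G ⧸ V) → k) = c • N.ρ (Quotient.out x) (χ.1 (delta (k := k) V)) := by
    intro χ x c
    have h1 : (Pi.single x c : (G ⧸ V) → k) =
        c • (coind (k := k) V k).ρ (Quotient.out x) (delta (k := k) V) := by
      rw [rho_delta, QuotientGroup.out_eq']
      funext y
      show (Pi.single x c : (G ⧸ V) → k) y = c * (Pi.single x (1 : k) : (G ⧸ V) → k) y
      by_cases hy : y = x
      · subst hy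
        rw [Pi.single_eq_same, Pi.single_eq_same, mul_one]
      · rw [Pi.single_eq_of_ne hy, Pi.single_eq_of_ne hy, mul_zero]
    have h2 := χ.2 (Quotient.out x) (delta (k := k) V)
    simp only [MonoidHom.id_apply] at h2
    rw [h1, map_smul, h2]
  refine LinearMap.pi_ext fun x c => ?_
  exact (key φ x c).trans
    ((congrArg (fun n => c • N.ρ (Quotient.out x) n) h).trans (key ψ x c).symm)

end frobenius

section proj

variable {V V' : Subgroup G} [V.Normal] [Fintype (G ⧸ V')]

omit [Fintype (G ⧸ V')] in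
lemma rho_delta_of_mem (h : V' ≤ V) : ∀ s ∈ V',
    (coind (k := k) V k).ρ s (delta (k := k) V) = delta (k := k) V :=
  fun _ hs => coind_ρ_of_mem (h hs) _

/-- the projection `k^(G/V') → k^(G/V)` for `V' ≤ V` (it corresponds to corestriction) -/
noncomputable def proj (h : V' ≤ V) : eqHom (coind (k := k) V' k) (coind (k := k) V k) :=
  frob (N := coind (k := k) V k) (delta (k := k) V) (rho_delta_of_mem h)

lemma proj_delta (h : V' ≤ V) :
    (proj (k := k) h).1 (delta (k := k) V') = delta (k := k) V :=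
  frob_delta _ _

end proj

/-! ### injectivity of `theta` on all permutation modules -/

section injective

variable (𝒰 : LevelStr G) {J Y : Rep.{u} k G} (Λ : 𝒰.H2 Y →ₗ[k] k) (q : eqHom J Y)

/-- **Injectivity by descent.**  If, for a cofinal family of levels `V`, `theta` is injective on
the image of `Hom_G(k^(G/V), J)` in `Hom_G(k^(G/V), Y)`, then `theta` is injective on `k^(G/V)` for
every level `V`. -/
theorem theta_injective_coind (hq : Function.Surjective q.1) (hJ : 𝒰.IsSmooth J)
    (good : Subgroup G → Prop)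
    (hgood : ∀ U ∈ 𝒰.levels, ∃ V ∈ 𝒰.levels, V ≤ U ∧ good V)
    (hinj : ∀ V ∈ 𝒰.levels, good V → ∀ x : eqHom (coind (k := k) V k) J,
      theta 𝒰 Y Λ (coind (k := k) V k) (eqComp q x) = 0 → eqComp q x = 0)
    (V : Subgroup G) (hV : V ∈ 𝒰.levels) :
    Function.Injective (theta 𝒰 Y Λ (coind (k := k) V k)) := by
  haveI := 𝒰.normal V hV
  haveI := 𝒰.finiteIndex V hV
  haveI : Finite (G ⧸ V) := Subgroup.finite_quotient_of_finiteIndex
  letI := Fintype.ofFinite (G ⧸ V)
  rw [injective_iff_map_eq_zero]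
  intro φ hφ
  obtain ⟨y', hy'⟩ := hq (φ.1 (delta (k := k) V))
  obtain ⟨U₁, hU₁, hfix⟩ := hJ y'
  obtain ⟨W, hW, hWle⟩ := 𝒰.directed U₁ hU₁ V hV
  obtain ⟨V', hV', hV'W, hg⟩ := hgood W hW
  have hV'V : V' ≤ V := hV'W.trans (hWle.trans inf_le_right)
  have hfix' : ∀ s ∈ V', J.ρ s y' = y' := fun s hs =>
    hfix s ((hV'W.trans (hWle.trans inf_le_left)) hs)
  haveI := 𝒰.finiteIndex V' hV'
  haveI : Finite (G ⧸ V') := Subgroup.finite_quotient_of_finiteIndex
  letI := Fintype.ofFinite (G ⧸ V')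
  have hcomp : eqComp q (frob (k := k) y' hfix') = eqComp φ (proj (k := k) hV'V) := by
    apply eqHom_coind_ext
    show q.1 ((frob (k := k) y' hfix').1 (delta (k := k) V')) =
      φ.1 ((proj (k := k) hV'V).1 (delta (k := k) V'))
    rw [frob_delta, proj_delta, hy']
  have h1 : theta 𝒰 Y Λ (coind (k := k) V' k) (eqComp q (frob (k := k) y' hfix')) = 0 := by
    rw [hcomp, theta_comp, hφ, LinearMap.zero_comp]
  have h2 := hinj V' hV' hg _ h1
  have h3 : φ.1 (delta (k := k) V) = 0 := by
    have h4 := congrArg (fun χ : eqHom (coind (k := k) V' k) Y => χ.1 (delta (k := k) V')) h2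
    have h5 : q.1 ((frob (k := k) y' hfix').1 (delta (k := k) V')) = 0 := h4
    rw [frob_delta, hy'] at h5
    exact h5
  apply eqHom_coind_ext
  rw [h3]
  exact (map_zero (0 : eqHom (coind (k := k) V k) Y).1).symm

end injective

/-! ### the two linear-algebra cores -/

section cores

variable {A E H P : Type u} [AddCommGroup A] [Module k A] [AddCommGroup E] [Module k E]
  [AddCommGroup H] [Module k H] [AddCommGroup P] [Module k P]
  (qc : A →ₗ[k] E) (θ : E →ₗ[k] Module.Dual k H) (loc : H →ₗ[k] P)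
  (τ : A →ₗ[k] Module.Dual k P)

/-- **INJ core.**  `ker (θ ∘ qc) = τ⁻¹ (ann (range loc))` has dimension `≤ 1` and contains the
nonzero element `x₀` of `ker qc`; hence `ker (θ ∘ qc) = ker qc`. -/
lemma inj_core [Module.Finite k P] (hc1 : ∀ x, θ (qc x) = τ x ∘ₗ loc)
    (hτ : Function.Injective τ)
    (hc3 : finrank k P ≤ finrank k (LinearMap.range loc) + 1)
    (hc4 : ∃ x₀, x₀ ≠ 0 ∧ qc x₀ = 0) :
    ∀ x, θ (qc x) = 0 → qc x = 0 := by
  obtain ⟨x₀, hx₀, hqx₀⟩ := hc4
  set R : Submodule k P := LinearMap.range loc with hR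
  have hmem : ∀ x, θ (qc x) = 0 → τ x ∈ R.dualAnnihilator := by
    intro x hx
    rw [Submodule.mem_dualAnnihilator]
    rintro _ ⟨c, rfl⟩
    have := LinearMap.congr_fun ((hc1 x).symm.trans hx) c
    simpa using this
  have hsum := Subspace.finrank_add_finrank_dualAnnihilator_eq R
  have hle : finrank k R.dualAnnihilator ≤ 1 := by omega
  have h0 : τ x₀ ∈ R.dualAnnihilator := hmem x₀ (by rw [hqx₀, map_zero])
  have h0ne : (⟨τ x₀, h0⟩ : R.dualAnnihilator) ≠ 0 := by
    intro h
    apply hx₀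
    apply hτ
    rw [map_zero]
    exact congrArg Subtype.val h
  have hpos : 0 < finrank k R.dualAnnihilator :=
    (Module.finrank_pos_iff_exists_ne_zero (R := k) (M := ↥R.dualAnnihilator)).2 ⟨_, h0ne⟩
  have hone : finrank k R.dualAnnihilator = 1 := by omega
  intro x hx
  obtain ⟨c, hc⟩ := (finrank_eq_one_iff_of_nonzero' (K := k) (V := ↥R.dualAnnihilator)
    ⟨τ x₀, h0⟩ h0ne).1 hone ⟨τ x, hmem x hx⟩
  have hc' : c • τ x₀ = τ x := congrArg Subtype.val hc
  have hxx : x = c • x₀ := by
    apply hτ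
    rw [map_smul, hc']
  rw [hxx, map_smul, hqx₀, smul_zero]

/-- **BIJ core.**  `range (θ ∘ qc) = ann (ker loc)` has dimension `dim H - dim ker loc`; with the
count `dim ker loc ≤ dim (E / range qc)` an injective `θ` is bijective. -/
lemma bij_core [Module.Finite k H] (hc1 : ∀ x, θ (qc x) = τ x ∘ₗ loc)
    (hτ : Function.Surjective τ) (hθ : Function.Injective θ)
    (hc6 : finrank k (LinearMap.ker loc) ≤ finrank k (E ⧸ LinearMap.range qc)) :
    Function.Bijective θ := by
  haveI : Module.Finite k E := Module.Finite.of_injective θ hθ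
  refine ⟨hθ, ?_⟩
  have hrange : LinearMap.range (θ ∘ₗ qc) = (LinearMap.ker loc).dualAnnihilator := by
    rw [← LinearMap.range_dualMap_eq_dualAnnihilator_ker]
    ext t
    constructor
    · rintro ⟨x, rfl⟩
      exact ⟨τ x, (hc1 x).symm⟩
    · rintro ⟨s, rfl⟩
      obtain ⟨x, rfl⟩ := hτ s
      exact ⟨x, hc1 x⟩
  have h1 := Subspace.finrank_add_finrank_dualAnnihilator_eq (LinearMap.ker loc)
  have h2 : finrank k (LinearMap.range (θ ∘ₗ qc)) ≤ finrank k (LinearMap.range qc) := by
    rw [LinearMap.range_comp]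
    exact Submodule.finrank_map_le θ _
  have h3 := Submodule.finrank_quotient_add_finrank (LinearMap.range qc)
  have h4 : finrank k (Module.Dual k H) = finrank k H := Subspace.dual_finrank_eq
  have h5 : finrank k E ≤ finrank k (Module.Dual k H) :=
    LinearMap.finrank_le_finrank_of_injective hθ
  rw [hrange] at h2
  have heq : finrank k E = finrank k (Module.Dual k H) := by omega
  exact (LinearMap.injective_iff_surjective_of_finrank_eq_finrank heq).1 hθ

end cores

/-! ### the per-level plug and `hbase` -/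

section hbase

variable (𝒰 : LevelStr G) {J Y : Rep.{u} k G} (Λ : 𝒰.H2 Y →ₗ[k] k) (q : eqHom J Y)

/-- composition with `q : J → Y`, as a linear map `Hom_G(N, J) → Hom_G(N, Y)` -/
def qComp (N : Rep.{u} k G) : eqHom N J →ₗ[k] eqHom N Y where
  toFun x := eqComp q x
  map_add' x x' := by
    apply Subtype.ext
    apply LinearMap.ext
    intro n
    exact map_add q.1 (x.1 n) (x'.1 n)
  map_smul' c x := by
    apply Subtype.ext
    apply LinearMap.ext
    intro n
    exact map_smul q.1 c (x.1 n)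

@[simp] lemma qComp_apply (N : Rep.{u} k G) (x : eqHom N J) : qComp q N x = eqComp q x := rfl

/-- **The plug at the level `V`** (`N := k^(G/V)`): a finite-dimensional space `P`
(`= ∏_v H²(G_v, N)`), the total localisation `loc : H²(N) → P` and the local-duality map
`τ : Hom_G(N, J) → P^*` (`x ↦ ∑_v inv_v ∘ H²(ev_v ∘ x)`) such that
(c1) `theta (q ∘ x) = τ x ∘ loc` (the defining property of `Λ`);
(c2) `τ` is bijective (Frobenius reciprocity for `J` + local duality on `N`);
(c3) `dim P ≤ dim range loc + 1` (the end of the Poitou–Tate sequence for `N`);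
(c4) `q ∘ -` has a nonzero kernel element (the diagonal copy of `μ`);
(c5) `H²(N)` is finite-dimensional;
(c6) the COUNT `dim ker loc ≤ dim (Hom_G(N, Y) / q ∘ Hom_G(N, J))`, i.e. `dim Ш²(N) ≤ dim Ш¹(N')`. -/
def LevelPlug (V : Subgroup G) : Prop :=
  Module.Finite k (𝒰.H2 (coind (k := k) V k)) ∧
  ∃ (P : Type u) (_ : AddCommGroup P) (_ : Module k P) (_ : Module.Finite k P)
    (loc : 𝒰.H2 (coind (k := k) V k) →ₗ[k] P)
    (τ : eqHom (coind (k := k) V k) J →ₗ[k] Module.Dual k P),
    (∀ x, theta 𝒰 Y Λ (coind (k := k) V k) (eqComp q x) = τ x ∘ₗ loc) ∧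
    Function.Bijective τ ∧
    finrank k P ≤ finrank k (LinearMap.range loc) + 1 ∧
    (∃ x₀ : eqHom (coind (k := k) V k) J, x₀ ≠ 0 ∧ eqComp q x₀ = 0) ∧
    finrank k (LinearMap.ker loc) ≤
      finrank k (eqHom (coind (k := k) V k) Y ⧸ LinearMap.range (qComp q (coind (k := k) V k)))

variable {𝒰 Λ q}

/-- the plug gives injectivity of `theta` on the image of `Hom_G(k^(G/V), J)` -/
lemma LevelPlug.inj {V : Subgroup G} (h : LevelPlug 𝒰 Λ q V) :
    ∀ x : eqHom (coind (k := k) V k) J,
      theta 𝒰 Y Λ (coind (k := k) V k) (eqComp q x) = 0 → eqComp q x = 0 := by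
  obtain ⟨_, P, _, _, _, loc, τ, hc1, hτ, hc3, hc4, _⟩ := h
  exact inj_core (qComp q (coind (k := k) V k)) (theta 𝒰 Y Λ (coind (k := k) V k)) loc τ
    hc1 hτ.1 hc3 hc4

/-- the plug + injectivity give bijectivity -/
lemma LevelPlug.bijective {V : Subgroup G} (h : LevelPlug 𝒰 Λ q V)
    (hθ : Function.Injective (theta 𝒰 Y Λ (coind (k := k) V k))) :
    Function.Bijective (theta 𝒰 Y Λ (coind (k := k) V k)) := by
  obtain ⟨hfin, P, _, _, _, loc, τ, hc1, hτ, _, _, hc6⟩ := h
  haveI := hfin
  exact bij_core (qComp q (coind (k := k) V k)) (theta 𝒰 Y Λ (coind (k := k) V k)) loc τ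
    hc1 hτ.2 hθ hc6

variable (𝒰 Λ q)

/-- **`hbase` from the per-level plugs**: verbatim the hypothesis `hbase` of
`Dualizing59.theta_bijective` / `Dualizing59.theta_injective`. -/
theorem hbase_of_plugs (hq : Function.Surjective q.1) (hJ : 𝒰.IsSmooth J)
    (good : Subgroup G → Prop)
    (hgood : ∀ U ∈ 𝒰.levels, ∃ V ∈ 𝒰.levels, V ≤ U ∧ good V)
    (hplug : ∀ V ∈ 𝒰.levels, good V → LevelPlug 𝒰 Λ q V) :
    ∀ U ∈ 𝒰.levels, ∃ V ∈ 𝒰.levels, V ≤ U ∧
      Function.Bijective (theta 𝒰 Y Λ (coind (k := k) V k)) := by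
  intro U hU
  obtain ⟨V, hV, hVU, hg⟩ := hgood U hU
  refine ⟨V, hV, hVU, (hplug V hV hg).bijective ?_⟩
  exact theta_injective_coind 𝒰 Λ q hq hJ good hgood
    (fun V' hV' hg' => (hplug V' hV' hg').inj) V hV

/-- the representability theorem with the plugs in place of `hbase` -/
theorem theta_bijective_of_plugs (hRS : RightExactH2 k 𝒰)
    (hq : Function.Surjective q.1) (hJ : 𝒰.IsSmooth J)
    (good : Subgroup G → Prop)
    (hgood : ∀ U ∈ 𝒰.levels, ∃ V ∈ 𝒰.levels, V ≤ U ∧ good V)
    (hplug : ∀ V ∈ 𝒰.levels, good V → LevelPlug 𝒰 Λ q V)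
    (N : Rep.{u} k G) [Module.Finite k N] (hN : 𝒰.IsSmooth N) :
    Function.Bijective (theta 𝒰 Y Λ N) :=
  theta_bijective 𝒰 Y Λ hRS (hbase_of_plugs 𝒰 Λ q hq hJ good hgood hplug) N hN

end hbase

end Fermat.Agent.S55.HBase48
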