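/-
S55 / 90-R3-WIRING, variant W59 (helper52, owner), part 2: the two formal statements
`LambdaStatement`, `CountStatement` of `R3Wire52` are closed by helper59's `Dualizing59.Lambda`
(`exists_isTrace`) and helper11's `Dualizing11.Target59` (`sha_duality59`, formula (A) + count).

Result: `dimStatement_of_arith : (∀ p odd, S ∋ p, R3Wire52.Plugs p S) → Spine15.DimStatement`,
i.e. route R3 / W59 is reduced to its ARITHMETIC plugs only.
-/
import Fermat.Agent.S55.R3Wire52
import Fermat.Agent.S55.Dualizing59.Lambda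
import Fermat.Agent.S55.Dualizing11.Target59

set_option autoImplicit false
set_option linter.style.haveILetI false

open CategoryTheory Module groupCohomology ExtCitation

namespace Fermat.Agent.S55.R3Wire52b

open Fermat.Agent.S55.Profin15 Fermat.Agent.S55.Dualizing59 Fermat.Agent.S55.R3Wire52
open Fermat.Agent.Lib.FrobeniusExists (Qb GQ)
open Fermat.Agent.S55.Contract34 (mu)

variable {p : ℕ} [Fact p.Prime] {S : Finset Nat.Primes}

/-- the local `invJ` of `R3Wire52` is helper59's -/
theorem invJ_eq (inv : InvFamily p S) :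
    R3Wire52.invJ inv = Dualizing59.invJ (hr S) inv := rfl

/-- the local `IsTrace` of `R3Wire52` is helper59's -/
theorem isTrace_iff (hμ : MuTrivialised p S) (inv : InvFamily p S)
    (Λ : (globalLevels S).H2 (Y hμ) →ₗ[ZMod p] ZMod p) :
    R3Wire52.IsTrace hμ inv Λ ↔ Dualizing59.IsTrace (hr S) hμ inv Λ := Iff.rfl

/-- helper59's `exists_isTrace` at the fixed instance. -/
theorem lambdaStatement (hS : Nonempty ↥S) : LambdaStatement p S := by
  intro hμ inv hJY hrec
  obtain ⟨Λ, hΛ⟩ := Dualizing59.exists_isTrace (hr S) hμ inv hJY hrec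
  exact ⟨Λ, (isTrace_iff hμ inv Λ).2 hΛ⟩

/-- helper11's `sha_duality59` (formula (A) + helper59's count) at the fixed instance, with the
evaluation pairing `M.dualTwist (cycloChar p) × M → μ_p` of helper41. -/
theorem countStatement (hS : Nonempty ↥S) : CountStatement p S := by
  intro hμ inv Λ hΛ M _ hM hglob hloc
  exact Dualizing11.sha_duality59 (hr S) hμ inv ((isTrace_iff hμ inv Λ).1 hΛ) M
    (M.dualTwist (cycloChar p)) hM (Wire41.SRep.pairMu M) (Wire41.SRep.pairMu_equivariant M)
    (Wire41.SRep.pairMu_bijective M) hglob hloc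

/-- **Plugs ⇒ duality** `Sha¹(M') ≃ Sha²(M)^*` at the fixed instance (no formal hypothesis left). -/
theorem shaDuality (hS : Nonempty ↥S) (hP : Plugs p S) (M : Rep.{0} (ZMod p) GQ)
    [Module.Finite (ZMod p) M] (hM : (globalLevels S).IsSmooth M) :
    Nonempty (↥(Dualizing59.Sha1 (hr S) (M.dualTwist (cycloChar p))) ≃ₗ[ZMod p]
      Module.Dual (ZMod p) ↥(Dualizing59.Sha2 (hr S) M)) :=
  shaDuality_of_plugs (lambdaStatement hS) (countStatement hS) hP M hM

/-- **Route R3 / W59 reduced to its arithmetic plugs**: `Plugs p S` for all odd `p` and all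
`S ∋ p` give `Spine15.DimStatement` (hence the frozen S55 by `Spine15.s55_of_dimStatement`). -/
theorem dimStatement_of_arith
    (hArith : ∀ (p : ℕ) [Fact p.Prime], p ≠ 2 → ∀ S : Finset Nat.Primes, pPrime p ∈ S →
      Plugs p S) : Spine15.DimStatement := by
  intro p _ hp2 S hpS M _ hsm hMur
  have hrep : Contract34.IsSRep p S M := ProfinGlobal22.sRepStatement p S M hsm hMur
  have hS : Nonempty ↥S := ⟨⟨pPrime p, hpS⟩⟩
  exact dimConclusion_of_shaDuality S hp2 M hsm
    (shaDuality hS (hArith p hp2 S hpS) M (Wire41.SRep.isSmooth_of_isSRep hrep))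

/-- The frozen statement S55 from the arithmetic plugs of route R3 / W59. -/
theorem s55_of_arith
    (hArith : ∀ (p : ℕ) [Fact p.Prime], p ≠ 2 → ∀ S : Finset Nat.Primes, pPrime p ∈ S →
      Plugs p S)
    {p : ℕ} [Fact p.Prime] (hp2 : p ≠ 2) (S : Finset Nat.Primes) (hpS : pPrime p ∈ S)
    (M : Rep (ZMod p) (AlgebraicClosure ℚ ≃ₐ[ℚ] AlgebraicClosure ℚ))
    [FiniteDimensional (ZMod p) M]
    (hsm : ∀ m : M, ∃ F : IntermediateField ℚ (AlgebraicClosure ℚ), FiniteDimensional ℚ F ∧
      ∀ s ∈ F.fixingSubgroup, M.ρ s m = m)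
    (hMur : ∀ q : Nat.Primes, q ∉ S → ∀ A : ValuationSubring (AlgebraicClosure ℚ),
      A.LiesOverPrime (q : ℕ) → ∀ g ∈ A.inertiaSubgroupIn ℚ, M.ρ g = 1) :
    ∃ B : sha₁ S (M.dualTwist (cycloChar p)) →ₗ[ZMod p] sha₂ S M →ₗ[ZMod p] ZMod p,
      (∀ y, (∀ x, B y x = 0) → y = 0) ∧ (∀ x, (∀ y, B y x = 0) → x = 0) :=
  Spine15.s55_of_dimStatement (dimStatement_of_arith hArith) hp2 S hpS M hsm hMur

end Fermat.Agent.S55.R3Wire52b
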