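/-
S55 FINAL ASSEMBLY, count variants (helper33, owner/integrator of `Fermat/Agent/S55.lean`).

* `arithStatementCount_of` : `Contract34.ArithStatementCount` from the six literal plug theorems
  (P1, P2, P3P4, P5, P6, P7' = `HilbertCount`).
* `s55_of_count` : the frozen statement from `Contract34.TopStatementCount` (route W55) and the
  arithmetic.
* `s55_of_globalBase` : the frozen statement on route W59 fed with the LITERAL plugs
  (helper26's `LocDual26.Wire`): `GlobalBaseStatement` (formal; helper11 + helper59) and the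
  arithmetic.
* `s55_of_plugs59` : the frozen statement from `R3Wire52.Plugs` (= `R3Wire52b.s55_of_arith`,
  restated here so that every candidate last line of `S55.lean` lives in one file).
-/
import Fermat.Agent.S55.Contract34b
import Fermat.Agent.S55.ProfinGlobal22.SRep
import Fermat.Agent.S55.LocDual26.Wire
import Fermat.Agent.S55.R3Wire52b

set_option autoImplicit false

open CategoryTheory Module groupCohomology ExtCitation

namespace Fermat.Agent.S55.Final33c

open Fermat.Agent.S55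

/-- the six arithmetic plugs, count form, in the literal `Contract34` shapes -/
theorem arithStatementCount_of
    (P1 : ∀ (p : ℕ) [Fact p.Prime], p ≠ 2 → ∀ S : Finset Nat.Primes, pPrime p ∈ S →
      Contract34.GlobalRightExact p S)
    (P2 : ∀ (p : ℕ) [Fact p.Prime], p ≠ 2 → ∀ S : Finset Nat.Primes, pPrime p ∈ S →
      ∀ q ∈ S, Contract34.LocalRightExact p q)
    (P34 : ∀ (p : ℕ) [Fact p.Prime], p ≠ 2 → ∀ S : Finset Nat.Primes, pPrime p ∈ S →
      Contract34.Reciprocity p S)
    (P5 : ∀ (p : ℕ) [Fact p.Prime], p ≠ 2 → ∀ S : Finset Nat.Primes, pPrime p ∈ S →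
      Contract34.LocalDim p S)
    (P6 : ∀ (p : ℕ) [Fact p.Prime], p ≠ 2 → ∀ S : Finset Nat.Primes, pPrime p ∈ S →
      Contract34.GlobalCokerDim p S)
    (P7' : ∀ (p : ℕ) [Fact p.Prime], p ≠ 2 → ∀ S : Finset Nat.Primes, pPrime p ∈ S →
      Contract34.HilbertCount p S) :
    Contract34.ArithStatementCount :=
  fun p _ hp2 S hpS =>
    ⟨P1 p hp2 S hpS, P2 p hp2 S hpS, P34 p hp2 S hpS, P5 p hp2 S hpS, P6 p hp2 S hpS,
      P7' p hp2 S hpS⟩

section

variable {p : ℕ} [Fact p.Prime] (hp2 : p ≠ 2) (S : Finset Nat.Primes) (hpS : pPrime p ∈ S)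
  (M : Rep (ZMod p) (AlgebraicClosure ℚ ≃ₐ[ℚ] AlgebraicClosure ℚ))
  [FiniteDimensional (ZMod p) M]
  (hsm : ∀ m : M, ∃ F : IntermediateField ℚ (AlgebraicClosure ℚ), FiniteDimensional ℚ F ∧
    ∀ s ∈ F.fixingSubgroup, M.ρ s m = m)
  (hMur : ∀ q : Nat.Primes, q ∉ S → ∀ A : ValuationSubring (AlgebraicClosure ℚ),
    A.LiesOverPrime (q : ℕ) → ∀ g ∈ A.inertiaSubgroupIn ℚ, M.ρ g = 1)

include hp2 hpS hsm hMur

/-- route W55, count form -/
theorem s55_of_count (hTop : Contract34.TopStatementCount)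
    (hArith : Contract34.ArithStatementCount) :
    ∃ B : sha₁ S (M.dualTwist (cycloChar p)) →ₗ[ZMod p] sha₂ S M →ₗ[ZMod p] ZMod p,
      (∀ y, (∀ x, B y x = 0) → y = 0) ∧ (∀ x, (∀ y, B y x = 0) → x = 0) :=
  Spine15.s55_of_dimStatement
    (Contract34.dimStatement_of_contractCount hTop hArith ProfinGlobal22.sRepStatement)
    hp2 S hpS M hsm hMur

/-- route W59 fed with the literal plugs (helper26's wire) -/
theorem s55_of_globalBase (hGB : LocDual26.Wire.GlobalBaseStatement)
    (hArith : Contract34.ArithStatementCount) :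
    ∃ B : sha₁ S (M.dualTwist (cycloChar p)) →ₗ[ZMod p] sha₂ S M →ₗ[ZMod p] ZMod p,
      (∀ y, (∀ x, B y x = 0) → y = 0) ∧ (∀ x, (∀ y, B y x = 0) → x = 0) :=
  Spine15.s55_of_dimStatement (LocDual26.Wire.dimStatement_of_globalBase hGB hArith)
    hp2 S hpS M hsm hMur

/-- route W59 with its own plug structure -/
theorem s55_of_plugs59
    (hArith : ∀ (p : ℕ) [Fact p.Prime], p ≠ 2 → ∀ S : Finset Nat.Primes, pPrime p ∈ S →
      R3Wire52.Plugs p S) :
    ∃ B : sha₁ S (M.dualTwist (cycloChar p)) →ₗ[ZMod p] sha₂ S M →ₗ[ZMod p] ZMod p,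
      (∀ y, (∀ x, B y x = 0) → y = 0) ∧ (∀ x, (∀ y, B y x = 0) → x = 0) :=
  R3Wire52b.s55_of_arith hArith hp2 S hpS M hsm hMur

end

end Fermat.Agent.S55.Final33c
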