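/-
S55 FINAL ASSEMBLY, state of 10:00Z (helper33, owner/integrator of `Fermat/Agent/S55.lean`).

The formal top layer (`Dualizing11.s55_of_arithCount`, helper11 et al.) and the plug (P2)
(`LocDev51.localRightExact`, helper51 et al.) are THEOREMS.  Hence the frozen statement follows
from the FIVE remaining literal plugs:
* `s55_of_five P1 P34 P5 P6 P7'`;
and, applying the landed reductions of (P1) and (P5),
* `s55_of_reduced hDatum P34 hBr P6 P7'` with
  `hDatum` = the limit formation datum over every open `V` fixing `μ_p`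
  (`CDArith63.P1Chain.HasFormationDatum`), `hBr` = `|Br(K)[p]| ≤ p` for finite `K/ℚ_q`
  (`KummerBr95.BrTorsionBound`).
-/
import Fermat.Agent.S55.Final33c
import Fermat.Agent.S55.Dualizing11.GlobalBase11
import Fermat.Agent.S55.LocDev51.AbsClass
import Fermat.Agent.S55.CDArith63.P1Chain
import Fermat.Agent.S55.KummerBr95.LocalGlue

set_option autoImplicit false

open CategoryTheory Module groupCohomology ExtCitation

namespace Fermat.Agent.S55.Final33d

open Fermat.Agent.S55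

section

variable {p : ℕ} [Fact p.Prime] (hp2 : p ≠ 2) (S : Finset Nat.Primes) (hpS : pPrime p ∈ S)
  (M : Rep (ZMod p) (AlgebraicClosure ℚ ≃ₐ[ℚ] AlgebraicClosure ℚ))
  [FiniteDimensional (ZMod p) M]
  (hsm : ∀ m : M, ∃ F : IntermediateField ℚ (AlgebraicClosure ℚ), FiniteDimensional ℚ F ∧
    ∀ s ∈ F.fixingSubgroup, M.ρ s m = m)
  (hMur : ∀ q : Nat.Primes, q ∉ S → ∀ A : ValuationSubring (AlgebraicClosure ℚ),
    A.LiesOverPrime (q : ℕ) → ∀ g ∈ A.inertiaSubgroupIn ℚ, M.ρ g = 1)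

include hp2 hpS hsm hMur

/-- the frozen statement from the five remaining literal plugs -/
theorem s55_of_five
    (P1 : ∀ (p : ℕ) [Fact p.Prime], p ≠ 2 → ∀ S : Finset Nat.Primes, pPrime p ∈ S →
      Contract34.GlobalRightExact p S)
    (P34 : ∀ (p : ℕ) [Fact p.Prime], p ≠ 2 → ∀ S : Finset Nat.Primes, pPrime p ∈ S →
      Contract34.Reciprocity p S)
    (P5 : ∀ (p : ℕ) [Fact p.Prime], p ≠ 2 → ∀ S : Finset Nat.Primes, pPrime p ∈ S →
      Contract34.LocalDim p S)
    (P6 : ∀ (p : ℕ) [Fact p.Prime], p ≠ 2 → ∀ S : Finset Nat.Primes, pPrime p ∈ S →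
      Contract34.GlobalCokerDim p S)
    (P7' : ∀ (p : ℕ) [Fact p.Prime], p ≠ 2 → ∀ S : Finset Nat.Primes, pPrime p ∈ S →
      Contract34.HilbertCount p S) :
    ∃ B : sha₁ S (M.dualTwist (cycloChar p)) →ₗ[ZMod p] sha₂ S M →ₗ[ZMod p] ZMod p,
      (∀ y, (∀ x, B y x = 0) → y = 0) ∧ (∀ x, (∀ y, B y x = 0) → x = 0) :=
  Dualizing11.s55_of_arithCount
    (Final33c.arithStatementCount_of P1
      (fun p _ _ _ _ q _ => LocDev51.localRightExact p q) P34 P5 P6 P7')
    hp2 S hpS M hsm hMur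

/-- the frozen statement with (P1) and (P5) replaced by their landed reductions -/
theorem s55_of_reduced
    (hDatum : ∀ (p : ℕ) [Fact p.Prime], p ≠ 2 → ∀ S : Finset Nat.Primes, pPrime p ∈ S →
      ∀ (V : Subgroup (AlgebraicClosure ℚ ≃ₐ[ℚ] AlgebraicClosure ℚ))
        (hV : CD3.IsOpenSub (Profin15.globalLevels S) V), CDArith63.Global.MuTriv p V →
        CDArith63.P1Chain.HasFormationDatum p S V hV)
    (P34 : ∀ (p : ℕ) [Fact p.Prime], p ≠ 2 → ∀ S : Finset Nat.Primes, pPrime p ∈ S →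
      Contract34.Reciprocity p S)
    (hBr : ∀ (p : ℕ) [Fact p.Prime] (q : Nat.Primes), KummerBr95.BrTorsionBound q p)
    (P6 : ∀ (p : ℕ) [Fact p.Prime], p ≠ 2 → ∀ S : Finset Nat.Primes, pPrime p ∈ S →
      Contract34.GlobalCokerDim p S)
    (P7' : ∀ (p : ℕ) [Fact p.Prime], p ≠ 2 → ∀ S : Finset Nat.Primes, pPrime p ∈ S →
      Contract34.HilbertCount p S) :
    ∃ B : sha₁ S (M.dualTwist (cycloChar p)) →ₗ[ZMod p] sha₂ S M →ₗ[ZMod p] ZMod p,
      (∀ y, (∀ x, B y x = 0) → y = 0) ∧ (∀ x, (∀ y, B y x = 0) → x = 0) :=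
  s55_of_five hp2 S hpS M hsm hMur
    (fun p _ hp2 S hpS =>
      CDArith63.P1Chain.globalRightExact_of_datum hpS (hDatum p hp2 S hpS))
    P34
    (fun p _ _ S _ => KummerBr95.localDim_of_brTorsionBound p S (fun q _ => hBr p q))
    P6 P7'

end

end Fermat.Agent.S55.Final33d
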