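/-
S55 FINAL ASSEMBLY, state of 10:20Z (helper33, owner/integrator of `Fermat/Agent/S55.lean`).

Theorems by now: the formal top layer (`Dualizing11.s55_of_arithCount`), (P2)
(`P2Local71.p2` = `LocDev51.localRightExact`) and (P5) (`P2Local71.p5`).  Hence the frozen
statement follows from the FOUR remaining literal plugs, all of which are consequences of the
global class formation:
* `s55_of_four P1 P34 P6 P7'`;
* `s55_of_reduced4 hDatum P34 hLevU P7'` with the landed reductions of (P1) and (P6) applied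
  (`CDArith63.P1Chain.HasFormationDatum`, `ShapiroLevel32.GlobalLevelU`).
-/
import Fermat.Agent.S55.Final33d
import Fermat.Agent.S55.P2Local71.P5Final
import Fermat.Agent.S55.ShapiroLevel32.GlobalDim

set_option autoImplicit false

open CategoryTheory Module groupCohomology ExtCitation

namespace Fermat.Agent.S55.Final33e

open Fermat.Agent.S55

section

variable {p : ℕ} [Fact p.Prime] (hp2 : p ≠ 2) (S : Finset Nat.Primes) (hpS : pPrime p ∈ S)
  (M : Rep (ZMod p) (AlgebraicClosure ℚ ≃ₐ[ℚ] AlgebraicClosure ℚ))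
  [FiniteDimensional (ZMod p) M]
  (hsm : ∀ m : M, ∃ F : IntermediateField ℚ (AlgebraicClosure ℚ), FiniteDimensional ℚ F ∧
    ∀ s ∈ F.fixingSubgroup, M.ρ s m = m)
  (hMur : ∀ q : Nat.Primes, q ∉ S → ∀ A : ValuationSubring (AlgebraicClosure ℚ),
    A.LiesOverPrime (q : ℕ) → ∀ g ∈ A.inertiaSubgroupIn ℚ, M.ρ g = 1)

include hp2 hpS hsm hMur

/-- the frozen statement from the four remaining literal plugs -/
theorem s55_of_four
    (P1 : ∀ (p : ℕ) [Fact p.Prime], p ≠ 2 → ∀ S : Finset Nat.Primes, pPrime p ∈ S →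
      Contract34.GlobalRightExact p S)
    (P34 : ∀ (p : ℕ) [Fact p.Prime], p ≠ 2 → ∀ S : Finset Nat.Primes, pPrime p ∈ S →
      Contract34.Reciprocity p S)
    (P6 : ∀ (p : ℕ) [Fact p.Prime], p ≠ 2 → ∀ S : Finset Nat.Primes, pPrime p ∈ S →
      Contract34.GlobalCokerDim p S)
    (P7' : ∀ (p : ℕ) [Fact p.Prime], p ≠ 2 → ∀ S : Finset Nat.Primes, pPrime p ∈ S →
      Contract34.HilbertCount p S) :
    ∃ B : sha₁ S (M.dualTwist (cycloChar p)) →ₗ[ZMod p] sha₂ S M →ₗ[ZMod p] ZMod p,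
      (∀ y, (∀ x, B y x = 0) → y = 0) ∧ (∀ x, (∀ y, B y x = 0) → x = 0) :=
  Final33d.s55_of_five hp2 S hpS M hsm hMur P1 P34 P2Local71.p5 P6 P7'

/-- the frozen statement with (P1) and (P6) replaced by their landed reductions -/
theorem s55_of_reduced4
    (hDatum : ∀ (p : ℕ) [Fact p.Prime], p ≠ 2 → ∀ S : Finset Nat.Primes, pPrime p ∈ S →
      ∀ (V : Subgroup (AlgebraicClosure ℚ ≃ₐ[ℚ] AlgebraicClosure ℚ))
        (hV : CD3.IsOpenSub (Profin15.globalLevels S) V), CDArith63.Global.MuTriv p V →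
        CDArith63.P1Chain.HasFormationDatum p S V hV)
    (P34 : ∀ (p : ℕ) [Fact p.Prime], p ≠ 2 → ∀ S : Finset Nat.Primes, pPrime p ∈ S →
      Contract34.Reciprocity p S)
    (hLevU : ∀ (p : ℕ) [Fact p.Prime], p ≠ 2 → ∀ S : Finset Nat.Primes, pPrime p ∈ S →
      ShapiroLevel32.GlobalLevelU p S)
    (P7' : ∀ (p : ℕ) [Fact p.Prime], p ≠ 2 → ∀ S : Finset Nat.Primes, pPrime p ∈ S →
      Contract34.HilbertCount p S) :
    ∃ B : sha₁ S (M.dualTwist (cycloChar p)) →ₗ[ZMod p] sha₂ S M →ₗ[ZMod p] ZMod p,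
      (∀ y, (∀ x, B y x = 0) → y = 0) ∧ (∀ x, (∀ y, B y x = 0) → x = 0) :=
  s55_of_four hp2 S hpS M hsm hMur
    (fun p _ hp2 S hpS =>
      CDArith63.P1Chain.globalRightExact_of_datum hpS (hDatum p hp2 S hpS))
    P34
    (fun p _ hp2 S hpS => ShapiroLevel32.globalCokerDim_of_levelU p S (hLevU p hp2 S hpS))
    P7'

end

end Fermat.Agent.S55.Final33e
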