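/-
S55 / P5 (LocalDim), producer-side adapter (helper88, second seat of helper32).

`LocalBrDim p q`  : for every finite `K/ℚ_q` containing `μ_p`, `H²(Gal(Ω/K); 𝔽_p)` (intrinsic Krull
levels `KummerBr95.galLevels K Ω`, `Ω = PadicAlgCl q`) is finite of dimension `≤ 1`
[= `Br(K)[p]` has order `≤ p`; producers: 49-LOC-KUMMER-BR + 22-LOC-INV].

`localBase_of_localBrDim` : the body of helper32's named input `LocalBaseDim` (the same statement
for the open subgroup `rq⁻¹(U) ≤ G_{ℚ_q}`, `U` a global level on which `μ_p` is trivial, with the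
levels restricted from `Profin15.pullLevels rq`).
-/
import Fermat.Agent.S55.KummerBr95.Padic
import Fermat.Agent.S55.UnrBridge42.Norm
import Fermat.Agent.S55.ShapiroLevel32.LocalDim

set_option autoImplicit false
set_option linter.style.haveILetI false
set_option linter.unusedSectionVars false

open CategoryTheory groupCohomology ExtCitation IntermediateField Module
open Fermat.Agent.Lib.FrobeniusExists

namespace Fermat.Agent.S55.LocalBase88

open Fermat.Agent.S55.Profin15 Fermat.Agent.S55.ShapiroLevel32 Fermat.Agent.S55.KummerBr95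
open Fermat.Agent.S55.LocDual26.LocalLevels Fermat.Agent.S55.ProfinLoc80

attribute [local instance] isAlgebraic_Qb isAlgClosure_Qb isGalois_Qb
attribute [local instance] KummerBr95.fact_prime

/-- **The named local input of P5, intrinsic form**: for every finite extension `K/ℚ_q` containing
the `p`-th roots of unity, `H²(Gal(Ω/K); 𝔽_p)` is finite of dimension `≤ 1`. -/
def LocalBrDim (p : ℕ) [Fact p.Prime] (q : Nat.Primes) : Prop :=
  ∀ K : IntermediateField ℚ_[(q : ℕ)] (PadicAlgCl (q : ℕ)), FiniteDimensional ℚ_[(q : ℕ)] K →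
    (∀ ζ : PadicAlgCl (q : ℕ), ζ ^ p = 1 → ζ ∈ K) →
    Module.Finite (ZMod p) ((galLevels K (PadicAlgCl (q : ℕ))).H2
      (triv (ZMod p) (PadicAlgCl (q : ℕ) ≃ₐ[K] PadicAlgCl (q : ℕ)))) ∧
    finrank (ZMod p) ((galLevels K (PadicAlgCl (q : ℕ))).H2
      (triv (ZMod p) (PadicAlgCl (q : ℕ) ≃ₐ[K] PadicAlgCl (q : ℕ)))) ≤ 1

/-! ### level bookkeeping -/

section Levels

universe u

variable {G : Type u} [Group G]

/-- equivalent level structures restrict to equivalent level structures -/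
theorem restrictLevels_equiv {𝒰 𝒰' : LevelStr G} (h : LevelEquiv 𝒰 𝒰') (A : Subgroup G)
    (hA : ∃ V ∈ 𝒰.levels, V ≤ A) (hA' : ∃ V ∈ 𝒰'.levels, V ≤ A) :
    LevelEquiv (restrictLevels 𝒰 A hA) (restrictLevels 𝒰' A hA') :=
  ((comap_subtype_equiv_restrictLevels32 𝒰 A hA).symm.trans (h.comap A.subtype)).trans
    (comap_subtype_equiv_restrictLevels32 𝒰' A hA')

end Levels

/-! ### the open subgroup `G_K` with the levels restricted from `pullLevels` -/

section GK

variable (p : ℕ) [Fact p.Prime] (q : Nat.Primes)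
  (K : IntermediateField ℚ_[(q : ℕ)] (PadicAlgCl (q : ℕ))) [FiniteDimensional ℚ_[(q : ℕ)] K]

/-- `H²(Gal(Ω/K); 𝔽_p)` in the shape of `ShapiroLevel32.restrictLevels (pullLevels rq) G_K`. -/
noncomputable def h2Equiv
    (hker : ∃ V ∈ (pullLevels (primeLocalToGlobal q)).levels, V ≤ GK q K) :
    (galLevels K (PadicAlgCl (q : ℕ))).H2
        (triv (ZMod p) (PadicAlgCl (q : ℕ) ≃ₐ[K] PadicAlgCl (q : ℕ))) ≃ₗ[ZMod p]
      (restrictLevels (pullLevels (primeLocalToGlobal q)) (GK q K) hker).H2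
        (triv (ZMod p) ↥(GK q K)) :=
  (openSubH2 q K (triv (ZMod p) (PadicAlgCl (q : ℕ) ≃ₐ[K] PadicAlgCl (q : ℕ)))).trans
    (((comap_subtype_equiv_restrictLevels32 (localLevels q) (GK q K) (isOpenSub_GK q K)).trans
      (restrictLevels_equiv ((localLevels_equiv q).trans (pullLevels_equiv q).symm) (GK q K)
        (isOpenSub_GK q K) hker)).H2Equiv (triv (ZMod p) ↥(GK q K)))

variable {p q K} in
theorem base_GK (h : Module.Finite (ZMod p) ((galLevels K (PadicAlgCl (q : ℕ))).H2
      (triv (ZMod p) (PadicAlgCl (q : ℕ) ≃ₐ[K] PadicAlgCl (q : ℕ)))) ∧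
    finrank (ZMod p) ((galLevels K (PadicAlgCl (q : ℕ))).H2
      (triv (ZMod p) (PadicAlgCl (q : ℕ) ≃ₐ[K] PadicAlgCl (q : ℕ)))) ≤ 1)
    (A : Subgroup (primeLocalGaloisGroup q)) (hA : A = GK q K)
    (hker : ∃ V ∈ (pullLevels (primeLocalToGlobal q)).levels, V ≤ A) :
    Module.Finite (ZMod p) ((restrictLevels (pullLevels (primeLocalToGlobal q)) A hker).H2
      (triv (ZMod p) ↥A)) ∧
    finrank (ZMod p) ((restrictLevels (pullLevels (primeLocalToGlobal q)) A hker).H2
      (triv (ZMod p) ↥A)) ≤ 1 := by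
  subst hA
  obtain ⟨hfin, hrk⟩ := h
  haveI := hfin
  exact ⟨Module.Finite.equiv (h2Equiv p q K hker),
    (LinearEquiv.finrank_eq (h2Equiv p q K hker)).symm.trans_le hrk⟩

end GK

/-! ### `μ_p` and the local level of a global level -/

section Mu

variable (p : ℕ) [Fact p.Prime]

/-- if the cyclotomic character of `s` is trivial then `s` fixes every `p`-th root of unity -/
theorem fixes_of_cycloChar_eq_one {s : GQ} (hs : cycloChar p s = 1) {ζ : Qb} (hζ : ζ ^ p = 1) :
    s ζ = ζ := by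
  haveI : NeZero p := ⟨(Fact.out : p.Prime).ne_zero⟩
  have hmem : (Units.mkOfMulEqOne ζ (ζ ^ (p - 1)) (by
      rw [← pow_succ', Nat.sub_add_cancel (Fact.out : p.Prime).one_le, hζ])) ∈
      rootsOfUnity p Qb := by
    rw [mem_rootsOfUnity]
    ext
    simpa using hζ
  have h := modularCyclotomicCharacter.spec Qb (card_rootsOfUnity_eq_self p)
    (s : Qb ≃+* Qb) hmem
  have h1 : modularCyclotomicCharacter Qb (card_rootsOfUnity_eq_self p) (s : Qb ≃+* Qb) = 1 := hs
  haveI : Fact (1 < p) := ⟨(Fact.out : p.Prime).one_lt⟩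
  rw [h1] at h
  simpa [ZMod.val_one] using h

variable {p} in
theorem cycloChar_eq_one_of_mu {U : Subgroup GQ} (hmu : ∀ s ∈ U, (Contract34.mu p).ρ s = 1)
    {s : GQ} (hs : s ∈ U) : cycloChar p s = 1 := by
  have h := LinearMap.congr_fun (hmu s hs) (1 : ZMod p)
  have h2 : (Contract34.mu p).ρ s (1 : ZMod p) =
      ((cycloChar p s : (ZMod p)ˣ) : ZMod p) • (1 : ZMod p) := rfl
  rw [h2] at h
  ext
  simpa using h

variable {p} in
/-- `μ_p ⊂ ℚ_q(ι F)` when `μ_p` is trivial on `Gal(ℚ̄/F)` -/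
theorem roots_mem_localLevel (q : Nat.Primes) (F : IntermediateField ℚ Qb)
    (hmu : ∀ s ∈ F.fixingSubgroup, (Contract34.mu p).ρ s = 1)
    (ζ' : PadicAlgCl (q : ℕ)) (hζ' : ζ' ^ p = 1) : ζ' ∈ localLevel (q : ℕ) F := by
  haveI : NeZero p := ⟨(Fact.out : p.Prime).ne_zero⟩
  -- the `p`-th roots of unity of `ℚ̄` lie in `F`
  have hF : ∀ ζ : Qb, ζ ^ p = 1 → ζ ∈ F := by
    intro ζ hζ
    have : ζ ∈ IntermediateField.fixedField F.fixingSubgroup := by
      rw [IntermediateField.mem_fixedField_iff]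
      intro s hs
      exact fixes_of_cycloChar_eq_one p (cycloChar_eq_one_of_mu hmu hs) hζ
    rwa [InfiniteGalois.fixedField_fixingSubgroup] at this
  obtain ⟨ζ, hζ⟩ := HasEnoughRootsOfUnity.exists_primitiveRoot Qb p
  have hι : IsPrimitiveRoot (padicEmbedding (q : ℕ) ζ) p :=
    hζ.map_of_injective (padicEmbedding_injective (q : ℕ))
  obtain ⟨i, -, hi⟩ := hι.eq_pow_of_pow_eq_one hζ'
  rw [← hi, ← map_pow]
  exact padicEmbedding_mem_localLevel (q : ℕ) F ⟨ζ ^ i, hF _ (by
    rw [← pow_mul, mul_comm, pow_mul, hζ.pow_eq_one, one_pow])⟩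

end Mu

/-! ### the adapter -/

variable {p : ℕ} [Fact p.Prime] {S : Finset Nat.Primes} {q : Nat.Primes}

theorem ker_comp_eq_GK (F : IntermediateField ℚ Qb) [F.fixingSubgroup.Normal] :
    ((QuotientGroup.mk' F.fixingSubgroup).comp (primeLocalToGlobal q)).ker =
      GK q (localLevel (q : ℕ) F) := by
  ext τ
  rw [MonoidHom.mem_ker, MonoidHom.comp_apply, QuotientGroup.mk'_apply, QuotientGroup.eq_one_iff]
  exact (mem_fixingSubgroup_localLevel_iff (q : ℕ) F τ).symm

/-- **Adapter for P5**: the intrinsic local input gives the body of `LocalBaseDim` at `(q, U)`. -/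
theorem localBase_of_localBrDim (hBr : LocalBrDim p q) {U : Subgroup GQ}
    (hU : U ∈ (globalLevels S).levels) [U.Normal]
    (hμ : ∀ s ∈ U, (Contract34.mu p).ρ s = 1)
    (hker : ∃ V ∈ (pullLevels (primeLocalToGlobal q)).levels,
      V ≤ ((QuotientGroup.mk' U).comp (primeLocalToGlobal q)).ker) :
    Module.Finite (ZMod p) ((kerLevels (pullLevels (primeLocalToGlobal q)) hker).H2
      (triv (ZMod p) ↥((QuotientGroup.mk' U).comp (primeLocalToGlobal q)).ker)) ∧
    finrank (ZMod p) ((kerLevels (pullLevels (primeLocalToGlobal q)) hker).H2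
      (triv (ZMod p) ↥((QuotientGroup.mk' U).comp (primeLocalToGlobal q)).ker)) ≤ 1 := by
  obtain ⟨_, F, hF, rfl⟩ := hU
  haveI : FiniteDimensional ℚ F := hF.1
  haveI : FiniteDimensional ℚ_[(q : ℕ)] (localLevel (q : ℕ) F) :=
    UnrBridge42.finiteDimensional_localLevel (q : ℕ) F
  exact base_GK (hBr (localLevel (q : ℕ) F) inferInstance (roots_mem_localLevel q F hμ))
    _ (ker_comp_eq_GK F) hker

theorem comap_eq_GK (F : IntermediateField ℚ Qb) :
    F.fixingSubgroup.comap (primeLocalToGlobal q) = GK q (localLevel (q : ℕ) F) := by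
  ext τ
  rw [Subgroup.mem_comap]
  exact (mem_fixingSubgroup_localLevel_iff (q : ℕ) F τ).symm

variable (p S) in
/-- **helper32's named input `LocalBaseDim` from the intrinsic local input.** -/
theorem localBaseDim_of_localBrDim (h : ∀ q ∈ S, LocalBrDim p q) :
    ShapiroLevel32.LocalBaseDim p S := by
  intro q U hU hmu N hN hker
  obtain ⟨_, F, hF, rfl⟩ := hU
  haveI : FiniteDimensional ℚ F := hF.1
  haveI : FiniteDimensional ℚ_[((q : Nat.Primes) : ℕ)] (localLevel ((q : Nat.Primes) : ℕ) F) :=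
    UnrBridge42.finiteDimensional_localLevel ((q : Nat.Primes) : ℕ) F
  exact base_GK (h q.1 q.2 (localLevel ((q : Nat.Primes) : ℕ) F) inferInstance
    (roots_mem_localLevel q.1 F hmu)) N (hN.trans (comap_eq_GK F)) hker

variable (p S) in
/-- **(P5) `Contract34.LocalDim` from the intrinsic local input.** -/
theorem localDim_of_localBrDim (h : ∀ q ∈ S, LocalBrDim p q) : Contract34.LocalDim p S :=
  ShapiroLevel32.localDim_of_base p S (localBaseDim_of_localBrDim p S h)

end Fermat.Agent.S55.LocalBase88
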