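/-
S55 / (P7') seam test + assembly (helper84): the literal plug `Contract34.HilbertCount p S`
from the NAMED inputs

* (A34) `Contract34.Reciprocity p S`                      (P3P4, literal),
* (A4)  `ShapiroLevel32.LocalBaseDim p S`                 (local base case, `dim H²(G_{K_w}; 𝔽_p) ≤ 1`),
* `ShaKummer p S` : at every level `U` on which `μ_p` is trivial, `Ш²` at the level `U`
  (canonical conjugate family, trivial coefficients) lies in the range of the Kummer connecting map
  `δ₁ : H¹(U; E_S) → H²(U; 𝔽_p)`   (= kernel half of (S1) at the level `U`, 46-S1),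

and NOTHING else: (P2) `LocalRightExact` is unconditional (`LocDev51.localRightExact`, helper51),
`hrec` + `Λ_w ≠ 0` come from `HrecTrace84.exists_Lam_canon`, `hnd` from `LevelCup47.HndBase`
(helper47), `finLoc`/`hW` from `PlaceCount50.CanonFields` (helper50), (K) + (Q)-bookkeeping from
`S2Count92` (helper92), `finH1` + the wire from `CountWire23` (helper23), the transport from
`ShaTransport84`.
-/
import Fermat.Agent.S55.HrecTrace84.Global
import Fermat.Agent.S55.S2Count92.LevelInputs92
import Fermat.Agent.S55.PlaceCount50.CanonFields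
import Fermat.Agent.S55.LevelCup47.HndBase
import Fermat.Agent.S55.LocDev51.AbsClass

set_option autoImplicit false

open CategoryTheory Module groupCohomology ExtCitation NumberField IsDedekindDomain

namespace Fermat.Agent.S55.P7Named84

open Fermat.Agent.S55.Profin15 Fermat.Agent.S55.ShapiroLevel32
open Fermat.Agent.Lib.FrobeniusExists (Qb GQ)
open Fermat.Agent.S55.Contract34
open Fermat.Agent.S55.ShaTransport84 (rS hrS hker_mk' USha₂ covers_canonT)
open Fermat.Agent.S55.CountWire23

/-- **the one remaining arithmetic input of (P7')**: at every level `U` on which `μ_p` is trivial,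
the Tate–Shafarevich group `Ш²` of the level `U` (canonical conjugate family, trivial
coefficients) consists of Kummer classes `δ₁ a`, `a ∈ H¹(U; E_S)`. -/
def ShaKummer (p : ℕ) [Fact p.Prime] (S : Finset Nat.Primes) : Prop :=
  ∀ (hpS : pPrime p ∈ S) (U : Subgroup GQ) [U.Normal] (hU : U ∈ (globalLevels S).levels)
    (hmu : ∀ s ∈ U, (mu p).ρ s = 1) (ζ : Qbˣ) (hζ : IsPrimitiveRoot ζ p),
    ∀ x ∈ USha₂ (k := ZMod p) (hrS S) (hker_mk' hU) (canonT' S U),
      ∃ a, S2Count92.kummerδ₁U hU hpS ζ hζ hmu a = x

variable {p : ℕ} [Fact p.Prime] {S : Finset Nat.Primes}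

/-- a primitive `p`-th root of unity in `ℚ̄ˣ` -/
lemma exists_primitiveRoot_units : ∃ ζ : Qbˣ, IsPrimitiveRoot ζ p := by
  haveI : NeZero ((p : ℕ) : Qb) := ⟨by exact_mod_cast (Fact.out : p.Prime).ne_zero⟩
  obtain ⟨ζ, hζ⟩ := HasEnoughRootsOfUnity.exists_primitiveRoot Qb p
  have hp0 : p ≠ 0 := (Fact.out : p.Prime).ne_zero
  exact ⟨(hζ.isUnit hp0).unit, IsPrimitiveRoot.coe_units_iff.1 (by simpa using hζ)⟩

/-- **the inputs at the level `U`** (canonical family) from the named inputs. -/
theorem canonLevelInputs (hp2 : p ≠ 2) (hpS : pPrime p ∈ S)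
    (hrecip : Contract34.Reciprocity p S) (hbase : LocalBaseDim p S) (hsha : ShaKummer p S)
    (U : Subgroup GQ) [U.Normal] (hU : U ∈ (globalLevels S).levels)
    (hmu : ∀ s ∈ U, (mu p).ρ s = 1) [Fintype (Σ q : ↥S, canonJ S U q)] :
    LevelInputs p S U hU (canonT' S U) := by
  classical
  obtain ⟨ζ, hζ⟩ := exists_primitiveRoot_units (p := p)
  obtain ⟨L, hfin, hnorm, hunr, hUL⟩ := PlaceCount50.exists_field_of_mem_globalLevels hU
  haveI : NumberField L := { to_charZero := inferInstance, to_finiteDimensional := hfin }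
  -- reciprocity at the level `U` and the local functionals
  obtain ⟨Λ, hne, hrec⟩ := HrecTrace84.exists_Lam_canon hU hmu
    ((Plug.reciprocity_iff p S).1 hrecip)
    (fun q _ => (Plug.localRightExact_iff p q).1 (LocDev51.localRightExact p q))
  exact S2Count92.levelInputs_of_hsha hU hpS ζ hζ hmu (canonT' S U)
    (fun q => covers_canonT (QuotientGroup.mk'_surjective U) (rS S) q)
    (finH1_levU U hU)
    (fun w => PlaceCount50.finLoc_of_mu p S U hU hmu w)
    L hUL (ESDiv20.le_QS hunr) (PlaceCount50.primesAboveSet L S)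
    (PlaceCount50.mem_primesAboveSet_iff L S) hp2 Λ
    (LevelCup47.HndBase.hnd_of_base hbase U hU hmu Λ hne) hrec
    (PlaceCount50.hW_canon p S U hU hpS hp2 L hUL hmu)
    (hsha hpS U hU hmu ζ hζ)

/-- **(P7') `Contract34.HilbertCount p S` from (A34), (A4) and `ShaKummer`.** -/
theorem hilbertCount_of_named (hp2 : p ≠ 2) (hpS : pPrime p ∈ S)
    (hrecip : Contract34.Reciprocity p S) (hbase : LocalBaseDim p S) (hsha : ShaKummer p S) :
    HilbertCount p S :=
  hilbertCount_of_inputs hp2 fun U hU hmu => by
    haveI : U.Normal := (globalLevels S).normal U hU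
    haveI : U.FiniteIndex := (globalLevels S).finiteIndex U hU
    haveI : Finite (GQ ⧸ U) := Subgroup.finite_quotient_of_finiteIndex
    exact ⟨canonJ S U, canonFintype S U, canonT' S U,
      @canonLevelInputs p _ S hp2 hpS hrecip hbase hsha U _ hU hmu (canonFintype S U)⟩

end Fermat.Agent.S55.P7Named84
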