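/-
S55 FINAL ASSEMBLY, state of 10:55Z (helper33, owner/integrator of `Fermat/Agent/S55.lean`).

New since `Final33f`: (A6') `P7Named84.ShaKummer p S` is UNCONDITIONAL (helper84,
`TwConj84.shaKummer`), so (P7') `Contract34.HilbertCount p S` follows from (P3P4) alone
(`TwConj84.hilbertCount_of_reciprocity`).  Hence the frozen statement follows from the THREE
literal plugs (P1), (P3P4), (P6):

* `s55_of_three P1 P34 P6`.

(The variant with the named reductions `HasFormationDatum` / `GlobalLevelU` of (P1) / (P6) is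
helper84's `TwConj84.s55_of_named3`.)
-/
import Fermat.Agent.S55.Final33e
import Fermat.Agent.S55.TwConj84.ShaKummerFinal

set_option autoImplicit false

open CategoryTheory Module groupCohomology ExtCitation

namespace Fermat.Agent.S55.Final33g

open Fermat.Agent.S55

section

variable {p : ℕ} [Fact p.Prime] (hp2 : p ≠ 2) (S : Finset Nat.Primes) (hpS : pPrime p ∈ S)
  (M : Rep (ZMod p) (AlgebraicClosure ℚ ≃ₐ[ℚ] AlgebraicClosure ℚ))
  [FiniteDimensional (ZMod p) M]
  (hsm : ∀ m : M, ∃ F : IntermediateField ℚ (AlgebraicClosure ℚ), FiniteDimensional ℚ F ∧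
    ∀ s ∈ F.fixingSubgroup, M.ρ s m = m)
  (hMur : ∀ q : Nat.Primes, q ∉ S → ∀ A : ValuationSubring (AlgebraicClosure ℚ),
    A.LiesOverPrime (q : ℕ) → ∀ g ∈ A.inertiaSubgroupIn ℚ, M.ρ g = 1)

include hp2 hpS hsm hMur

/-- the frozen statement from the three literal plugs (P1), (P3P4), (P6) -/
theorem s55_of_three
    (P1 : ∀ (p : ℕ) [Fact p.Prime], p ≠ 2 → ∀ S : Finset Nat.Primes, pPrime p ∈ S →
      Contract34.GlobalRightExact p S)
    (P34 : ∀ (p : ℕ) [Fact p.Prime], p ≠ 2 → ∀ S : Finset Nat.Primes, pPrime p ∈ S →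
      Contract34.Reciprocity p S)
    (P6 : ∀ (p : ℕ) [Fact p.Prime], p ≠ 2 → ∀ S : Finset Nat.Primes, pPrime p ∈ S →
      Contract34.GlobalCokerDim p S) :
    ∃ B : sha₁ S (M.dualTwist (cycloChar p)) →ₗ[ZMod p] sha₂ S M →ₗ[ZMod p] ZMod p,
      (∀ y, (∀ x, B y x = 0) → y = 0) ∧ (∀ x, (∀ y, B y x = 0) → x = 0) :=
  Final33e.s55_of_four hp2 S hpS M hsm hMur P1 P34 P6
    (fun p _ hp2 S hpS => TwConj84.hilbertCount_of_reciprocity hp2 hpS (P34 p hp2 S hpS))

end

end Fermat.Agent.S55.Final33g
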