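/-
S55 FINAL ASSEMBLY, state of 11:05Z (helper33, owner/integrator of `Fermat/Agent/S55.lean`).

New since `Final33g`: (P1) AND (P6) both follow from the ONE Prop `LimDesc99.A3.AllCore p S`
(helper99, `LimDesc99/CorePlugs.lean`: the `p`-primary invariant on `H²(V, C_S)` compatible with
the (twisted) local invariants, over every open `V` on which `μ_p` is trivial).  Hence the frozen
statement follows from TWO arithmetic inputs:

* `s55_of_allCore hAll P34` with
  `hAll : ∀ p odd, ∀ S ∋ p, LimDesc99.A3.AllCore p S`,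
  `P34  : ∀ p odd, ∀ S ∋ p, Contract34.Reciprocity p S`.
-/
import Fermat.Agent.S55.Final33g
import Fermat.Agent.S55.LimDesc99.CorePlugs

set_option autoImplicit false

open CategoryTheory Module groupCohomology ExtCitation

namespace Fermat.Agent.S55.Final33h

open Fermat.Agent.S55

section

variable {p : ℕ} [Fact p.Prime] (hp2 : p ≠ 2) (S : Finset Nat.Primes) (hpS : pPrime p ∈ S)
  (M : Rep (ZMod p) (AlgebraicClosure ℚ ≃ₐ[ℚ] AlgebraicClosure ℚ))
  [FiniteDimensional (ZMod p) M]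
  (hsm : ∀ m : M, ∃ F : IntermediateField ℚ (AlgebraicClosure ℚ), FiniteDimensional ℚ F ∧
    ∀ s ∈ F.fixingSubgroup, M.ρ s m = m)
  (hMur : ∀ q : Nat.Primes, q ∉ S → ∀ A : ValuationSubring (AlgebraicClosure ℚ),
    A.LiesOverPrime (q : ℕ) → ∀ g ∈ A.inertiaSubgroupIn ℚ, M.ρ g = 1)

include hp2 hpS hsm hMur

/-- the frozen statement from `AllCore` (⇒ (P1), (P6)) and the reciprocity law (P3P4) -/
theorem s55_of_allCore
    (hAll : ∀ (p : ℕ) [Fact p.Prime], p ≠ 2 → ∀ S : Finset Nat.Primes, pPrime p ∈ S →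
      LimDesc99.A3.AllCore p S)
    (P34 : ∀ (p : ℕ) [Fact p.Prime], p ≠ 2 → ∀ S : Finset Nat.Primes, pPrime p ∈ S →
      Contract34.Reciprocity p S) :
    ∃ B : sha₁ S (M.dualTwist (cycloChar p)) →ₗ[ZMod p] sha₂ S M →ₗ[ZMod p] ZMod p,
      (∀ y, (∀ x, B y x = 0) → y = 0) ∧ (∀ x, (∀ y, B y x = 0) → x = 0) :=
  Final33g.s55_of_three hp2 S hpS M hsm hMur
    (fun p _ hp2 S hpS => LimDesc99.A3.globalRightExact_of_allCore hpS hp2 (hAll p hp2 S hpS))
    P34
    (fun p _ hp2 S hpS => LimDesc99.A3.globalCokerDim_of_allCore hpS hp2 (hAll p hp2 S hpS))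

end

end Fermat.Agent.S55.Final33h
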