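/-
S55 / 36e (helper72): the `S`-class group of a finite level is torsion, in helper44's place-free
model: every element of `I^S(L) = ⨁_{ℓ ∉ S} coind ℤ` has a nonzero multiple in the image of the
ideal map `Lˣ ⟶ I^S(L)` (the multiple is the class number of `L`).  This is the hypothesis
`htors` of `CS79.ClassSeq` at finite level.

* `exists_valuation_eq_classNumber_mul` (Mathlib only) : `𝔞 ^ h` is principal;
* `exists_finsupp_primeAt` : an invariant finitely supported exponent family is a function of the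
  prime (construction of helper16, `FirstIneq16.Bridge.exists_unit_norm_eq`);
* `exists_unit_norm_eq_classNumber` : the coind-model form;
* `exists_idealMap_eq_nsmul` : `∃ m > 0, ∃ α, idealMap α = m • a`.
-/
import Mathlib
import Fermat.Agent.S55.IdeleVal44.Ideal
import Fermat.Agent.S55.FirstIneq16.Bridge

set_option autoImplicit false
set_option linter.unusedSectionVars false

namespace Fermat.Agent.S55.ClassTors72

open IsDedekindDomain NumberField FractionalIdeal nonZeroDivisors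
open Fermat.Agent.S55.Idele73.Basic Fermat.Agent.S55.IdeleVal44 Fermat.Agent.S55.PlaceDict58
open Fermat.Agent.S55.FirstIneq16 Fermat.Agent.S55.FirstIneq16.Bridge

section NumberField

variable (F : Type*) [Field F] [NumberField F]

/-- **the class number kills the class group**, elementwise form: every finitely supported vector
of exponents, multiplied by the class number, is the valuation vector of an element of `Fˣ`. -/
theorem exists_valuation_eq_classNumber_mul (n : HeightOneSpectrum (𝓞 F) →₀ ℤ) :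
    ∃ x : Fˣ, ∀ P : HeightOneSpectrum (𝓞 F),
      P.valuation F (x : F) = WithZero.exp (-((classNumber F : ℤ) * n P)) := by
  classical
  set 𝔞 : FractionalIdeal (𝓞 F)⁰ F :=
    n.prod (fun v k => (v.asIdeal : FractionalIdeal (𝓞 F)⁰ F) ^ k) with h𝔞
  have h𝔞0 : 𝔞 ≠ 0 := by
    rw [h𝔞, Finsupp.prod, Finset.prod_ne_zero_iff]
    exact fun v _ => zpow_ne_zero _ (coeIdeal_ne_zero.mpr v.ne_bot)
  have hone : ClassGroup.mk F (Units.mk0 𝔞 h𝔞0 ^ classNumber F) = 1 := by
    rw [map_pow]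
    exact pow_card_eq_one
  rw [ClassGroup.mk_eq_one_iff, FractionalIdeal.isPrincipal_iff] at hone
  obtain ⟨x, hx⟩ := hone
  have hx' : 𝔞 ^ classNumber F = spanSingleton (𝓞 F)⁰ x := by
    simpa using hx
  have hx0 : x ≠ 0 := by
    rintro rfl
    rw [spanSingleton_zero] at hx'
    exact (pow_ne_zero _ h𝔞0) hx'
  refine ⟨Units.mk0 x hx0, fun P => ?_⟩
  have hcount : count F P (spanSingleton (𝓞 F)⁰ x) = (classNumber F : ℤ) * n P := by
    rw [← hx', count_pow, count_finsuppProd]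
  rw [Units.val_mk0, Class.valuation_eq_exp_neg_count P x hx0, hcount]

end NumberField

section Model

variable (L : IntermediateField ℚ Qbar) [FiniteDimensional ℚ L] [Normal ℚ L]

/-- an invariant, finitely supported family of exponents `n ℓ : Gal(L/ℚ) → ℤ` is a function of the
prime `primeAt ℓ L g` (construction from `FirstIneq16.Bridge.exists_unit_norm_eq`). -/
theorem exists_finsupp_primeAt (n : Nat.Primes → GalL L → ℤ) (hfin : {ℓ | n ℓ ≠ 0}.Finite)
    (hinv : ∀ (ℓ : Nat.Primes) (τ : Gq (ℓ : ℕ)) (g : GalL L),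
      n ℓ (locHom (ℓ : ℕ) L τ * g) = n ℓ g) :
    ∃ m : HeightOneSpectrum (𝓞 L) →₀ ℤ, ∀ (ℓ : Nat.Primes) (g : GalL L),
      m (primeAt (ℓ : ℕ) L g) = n ℓ g := by
  classical
  let _ : Fintype (GalL L) := AlgEquiv.fintype ℚ L
  let m : HeightOneSpectrum (𝓞 L) → ℤ := fun P =>
    if h : ∃ (ℓ : Nat.Primes) (g : GalL L), primeAt (ℓ : ℕ) L g = P then
      n h.choose h.choose_spec.choose else 0
  have hm_supp : (Function.support m).Finite := by
    have hsub : Function.support m ⊆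
        (fun p : Nat.Primes × GalL L => primeAt (p.1 : ℕ) L p.2) ''
          ((hfin.toFinset ×ˢ (Finset.univ : Finset (GalL L)) : Finset (Nat.Primes × GalL L)) :
            Set (Nat.Primes × GalL L)) := by
      intro P hP
      rw [Function.mem_support] at hP
      by_cases h : ∃ (ℓ : Nat.Primes) (g : GalL L), primeAt (ℓ : ℕ) L g = P
      · have hmP : m P = n h.choose h.choose_spec.choose := dif_pos h
        refine ⟨(h.choose, h.choose_spec.choose), ?_, h.choose_spec.choose_spec⟩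
        rw [Finset.coe_product, Set.mem_prod]
        refine ⟨?_, by simp⟩
        rw [Finset.mem_coe, Set.Finite.mem_toFinset]
        show n _ ≠ 0
        intro h0
        apply hP
        rw [hmP, h0]
        rfl
      · exact absurd (dif_neg h) hP
    exact (Set.Finite.image _ (Finset.finite_toSet _)).subset hsub
  refine ⟨Finsupp.ofSupportFinite m hm_supp, fun ℓ g => ?_⟩
  have hex : ∃ (ℓ' : Nat.Primes) (g' : GalL L), primeAt (ℓ' : ℕ) L g' = primeAt (ℓ : ℕ) L g :=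
    ⟨ℓ, g, rfl⟩
  obtain ⟨ℓ₁, g₁, hspec, hm1⟩ : ∃ (ℓ₁ : Nat.Primes) (g₁ : GalL L),
      primeAt (ℓ₁ : ℕ) L g₁ = primeAt (ℓ : ℕ) L g ∧ m (primeAt (ℓ : ℕ) L g) = n ℓ₁ g₁ :=
    ⟨hex.choose, hex.choose_spec.choose, hex.choose_spec.choose_spec, dif_pos hex⟩
  show m (primeAt (ℓ : ℕ) L g) = n ℓ g
  rw [hm1]
  have hℓ' : ℓ₁ = ℓ := by
    have hmem : (((ℓ₁ : ℕ) : 𝓞 L)) ∈ (primeAt (ℓ₁ : ℕ) L g₁).asIdeal :=
      (natCast_mem_primeAt_iff (ℓ₁ : ℕ) L _ ℓ₁.2).mpr rfl
    rw [hspec] at hmem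
    exact Subtype.ext ((natCast_mem_primeAt_iff (ℓ : ℕ) L g ℓ₁.2).mp hmem)
  subst hℓ'
  obtain ⟨τ, hτ⟩ := exists_locHom_of_primeAt_eq (ℓ₁ : ℕ) L hspec
  rw [hτ, hinv]

/-- **`Cl(L)` is killed by the class number, in the coind model.** -/
theorem exists_unit_norm_eq_classNumber (T : Finset Nat.Primes)
    (hunr : ∀ ℓ : Nat.Primes, ℓ ∉ T → IsUnrAt (ℓ : ℕ) (locHom (ℓ : ℕ) L))
    (n : Nat.Primes → GalL L → ℤ) (hfin : {ℓ | n ℓ ≠ 0}.Finite)
    (hinv : ∀ (ℓ : Nat.Primes) (τ : Gq (ℓ : ℕ)) (g : GalL L),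
      n ℓ (locHom (ℓ : ℕ) L τ * g) = n ℓ g) :
    ∃ x : Lˣ, ∀ ℓ : Nat.Primes, ℓ ∉ T → ∀ g : GalL L,
      ‖iotaL (ℓ : ℕ) L (g (x : L))‖ = ((ℓ : ℕ) : ℝ) ^ (-((classNumber L : ℤ) * n ℓ g)) := by
  obtain ⟨m, hm⟩ := exists_finsupp_primeAt L n hfin hinv
  obtain ⟨x, hx⟩ := exists_valuation_eq_classNumber_mul L m
  refine ⟨x, fun ℓ hℓT g => ?_⟩
  refine norm_eq_zpow_of_valuation (ℓ : ℕ) L (hunr ℓ hℓT) g (x : L) _ ?_
  rw [hx, hm]

end Model

section Ideal

open scoped DirectSum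

variable (L : IntermediateField ℚ Qbar) [FiniteDimensional ℚ L] [Normal ℚ L]
variable {S : Finset Nat.Primes}

/-- the exponent family of an element of `I^S(L)` -/
noncomputable def expFamily (a : IS L S) : Nat.Primes → GalL L → ℤ := fun ℓ g =>
  if hℓ : ℓ ∉ S then ((dsRep.toDS _ a (⟨ℓ, hℓ⟩ : OutS S)).1 g : ℤ) else 0

theorem expFamily_of_notMem (a : IS L S) (ℓ : OutS S) (g : GalL L) :
    expFamily L a ℓ.1 g = ((dsRep.toDS _ a ℓ).1 g : ℤ) := by
  rw [expFamily, dif_pos ℓ.2]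

theorem expFamily_finite (a : IS L S) : {ℓ | expFamily L a ℓ ≠ 0}.Finite := by
  classical
  refine ((DFinsupp.support (dsRep.toDS _ a)).finite_toSet.image
    (fun ℓ : OutS S => ℓ.1)).subset ?_
  intro ℓ hℓ
  have hℓ : expFamily L a ℓ ≠ 0 := hℓ
  by_cases hS : ℓ ∉ S
  · refine ⟨⟨ℓ, hS⟩, ?_, rfl⟩
    rw [Finset.mem_coe, DFinsupp.mem_support_toFun]
    intro h0
    apply hℓ
    funext g
    rw [expFamily, dif_pos hS, h0]
    rfl
  · exfalso
    apply hℓ
    funext g
    rw [expFamily, dif_neg hS]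
    rfl

theorem expFamily_invariant (a : IS L S) (ℓ : Nat.Primes) (τ : Gq (ℓ : ℕ)) (g : GalL L) :
    expFamily L a ℓ (locHom (ℓ : ℕ) L τ * g) = expFamily L a ℓ g := by
  by_cases hℓ : ℓ ∉ S
  · rw [expFamily, expFamily, dif_pos hℓ, dif_pos hℓ]
    exact (dsRep.toDS _ a (⟨ℓ, hℓ⟩ : OutS S)).2 τ g
  · rw [expFamily, expFamily, dif_neg hℓ, dif_neg hℓ]


theorem toDS_nsmul {G : Type} [Group G] {ι : Type} (A : ι → Rep ℤ G) (m : ℕ) (a : dsRep A) (i : ι) :
    dsRep.toDS A (m • a) i = m • dsRep.toDS A a i := by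
  induction m with
  | zero => rw [zero_nsmul, zero_nsmul]; rfl
  | succ m ih => rw [succ_nsmul, succ_nsmul, dsRep.toDS_add, ih]

theorem coind_nsmul_apply (q : ℕ) [Fact q.Prime] (m : ℕ) (f : Zq L q) (g : GalL L) :
    (((m • f : Zq L q).1 g : ℤ)) = (m : ℤ) * (f.1 g : ℤ) := by
  induction m with
  | zero => rw [zero_nsmul]; simp
  | succ m ih =>
    rw [succ_nsmul]
    have : ((m • f + f : Zq L q).1 g : ℤ) = ((m • f : Zq L q).1 g : ℤ) + (f.1 g : ℤ) := rfl
    rw [this, ih]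
    push_cast
    ring

/-- **`htors` at finite level**: every ideal prime to `S` has a nonzero multiple which is
principal (the multiple is the class number of `L`). -/
theorem exists_idealMap_eq_nsmul (h : UnrOutside L S) (a : IS L S) :
    ∃ m : ℕ, 0 < m ∧ ∃ α : Lx L, (idealMap h).hom α = m • a := by
  obtain ⟨x, hx⟩ := exists_unit_norm_eq_classNumber L S h (expFamily L a)
    (expFamily_finite L a) (expFamily_invariant L a)
  refine ⟨classNumber L, classNumber_pos L, Additive.ofMul x, ?_⟩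
  apply dsRep.ext
  intro ℓ
  apply Subtype.ext
  funext g
  have h1 := hx ℓ.1 ℓ.2 g
  have hne : iotaL (ℓ.1 : ℕ) L (g (x : L)) ≠ 0 := by
    rw [Ne, map_eq_zero, map_eq_zero]
    exact Units.ne_zero x
  have h3 := idealMap_coord h (Additive.ofMul x : Lx L) ℓ g
  have h5 : valAdd (ℓ.1 : ℕ) (Additive.ofMul (Units.mk0 _ hne)) = (((classNumber L : ℤ) * expFamily L a ℓ.1 g : ℤ) : ℝ) :=
    (valAdd_eq_intCast_iff (ℓ.1 : ℕ) _ _).mpr h1
  have h6 : valAdd ℓ.1.1 (Rep.toAdditive (((diag ℓ.1.1 L).hom (Additive.ofMul x : Lx L)).1 g)) = valAdd (ℓ.1 : ℕ) (Additive.ofMul (Units.mk0 _ hne)) := by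
    rw [valAdd_apply, valAdd_apply]
    have h7 := norm_diag_coord L ℓ.1.1 (Additive.ofMul x : Lx L) g
    have h8 : ‖(((Rep.toAdditive (((diag ℓ.1.1 L).hom (Additive.ofMul x : Lx L)).1 g)).toMul :
        (PadicAlgCl ℓ.1.1)ˣ) : PadicAlgCl ℓ.1.1)‖ = ‖iotaL ℓ.1.1 L (g (x : L))‖ := by
      exact congrArg NNReal.toReal h7
    rw [h8]
    rfl
  rw [h6, h5] at h3
  have h4 : ((dsRep.toDS _ ((idealMap h).hom (Additive.ofMul x : Lx L)) ℓ).1 g : ℤ) =
      (classNumber L : ℤ) * expFamily L a ℓ.1 g := Int.cast_injective (α := ℝ) h3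
  rw [h4, expFamily_of_notMem]
  rw [toDS_nsmul, coind_nsmul_apply]

end Ideal

end Fermat.Agent.S55.ClassTors72
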