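/-
S55 / 36-D3a (helper72): finiteness of the `S`-class groups in the limit.

`CS79.DivLimit.ClassTorsion S` (the named hypothesis of helper79's `h1PrimaryVanishes_CSunit`,
`H2map_CSunit_injective_on_primary`) holds unconditionally: every element `a` of the limit ideal
module `I^S = ⨁_{ℓ ∉ S} JS S ℓ ℤ` is fixed by a Galois `S`-level `L`; its exponent family descends
to `Gal(L/ℚ)`, and `ClassTors72.exists_unit_norm_eq_classNumber` produces `x ∈ Lˣ ⊆ Q_Sˣ` with
`div x = h_L • a`.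
-/
import Mathlib
import Fermat.Agent.S55.CS79.DivLimit
import Fermat.Agent.S55.ClassTors72
import Fermat.Agent.S55.ClassLimit72
import Fermat.Agent.S55.IdeleVal44.Inst
import Fermat.Agent.S55.CycloRecip78.NormProd

set_option autoImplicit false
set_option linter.style.haveILetI false
set_option linter.unusedSectionVars false

namespace Fermat.Agent.S55.ClassTorsLim72

open NumberField
open Fermat.Agent.S55.Profin15 Fermat.Agent.S55.Idele73.Basic Fermat.Agent.S55.IdeleVal44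
open Fermat.Agent.S55.ESDiv20 hiding GQ Qb
open Fermat.Agent.S55.ESRep20
open Fermat.Agent.S55.CS79.Smooth Fermat.Agent.S55.CS79.Limit Fermat.Agent.S55.CS79.DirectSumRep
open Fermat.Agent.S55.CS79.DivLimit

variable (S : Finset Nat.Primes)

/-- the coordinate function of an element of the limit ideal module -/
noncomputable def coord (a : ISlim S) (ℓ : PrimesOut S) (g : GQ) : ℤ := (a ℓ).1.1 g

theorem coord_nsmul (m : ℕ) (a : ISlim S) (ℓ : PrimesOut S) (g : GQ) :
    coord S (m • a) ℓ g = (m : ℤ) * coord S a ℓ g := by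
  induction m with
  | zero => rw [zero_nsmul]; simp [coord]
  | succ m ih =>
    rw [succ_nsmul]
    have : coord S (m • a + a) ℓ g = coord S (m • a) ℓ g + coord S a ℓ g := rfl
    rw [this, ih]
    push_cast
    ring

theorem coord_local (a : ISlim S) (ℓ : PrimesOut S) (τ : Gq (ℓ.1 : ℕ)) (g : GQ) :
    coord S a ℓ (localGaloisToGlobal (ℓ.1 : ℕ) τ * g) = coord S a ℓ g :=
  (a ℓ).1.2 τ g

theorem coord_ρ (a : ISlim S) (s : GQ) (ℓ : PrimesOut S) (g : GQ) :
    coord S ((ISlim S).ρ s a) ℓ g = coord S a ℓ (g * s) := by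
  rw [coord, dsRep_ρ_apply]
  rfl

theorem ext_coord {a b : ISlim S} (h : ∀ ℓ g, coord S a ℓ g = coord S b ℓ g) : a = b := by
  refine DFinsupp.ext fun ℓ => ?_
  apply Subtype.ext
  apply Subtype.ext
  funext g
  exact h ℓ g


section Level

variable (L : IntermediateField ℚ Qbar) [FiniteDimensional ℚ L] [Normal ℚ L]

/-- a lift of `γ ∈ Gal(L/ℚ)` to `G_ℚ` -/
noncomputable def lift (γ : GalL L) : GQ := (resL_surjective L γ).choose

theorem resL_lift (γ : GalL L) : resL L (lift L γ) = γ := (resL_surjective L γ).choose_spec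

/-- the exponent family on `Gal(L/ℚ)` of an element of the limit ideal module -/
noncomputable def expFam (a : ISlim S) : Nat.Primes → GalL L → ℤ := fun ℓ γ =>
  if hℓ : ℓ ∉ S then coord S a ⟨ℓ, hℓ⟩ (lift L γ) else 0

variable {S L}

theorem coord_eq_of_resL_eq {a : ISlim S}
    (hfix : ∀ s ∈ L.fixingSubgroup, (ISlim S).ρ s a = a) (ℓ : PrimesOut S) {g g' : GQ}
    (h : resL L g = resL L g') : coord S a ℓ g = coord S a ℓ g' := by
  have hs : g⁻¹ * g' ∈ L.fixingSubgroup := by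
    rw [← resL_ker, MonoidHom.mem_ker, map_mul, map_inv, h, inv_mul_cancel]
  have h1 : coord S ((ISlim S).ρ (g⁻¹ * g') a) ℓ g = coord S a ℓ g := by rw [hfix _ hs]
  rw [coord_ρ, mul_inv_cancel_left] at h1
  exact h1.symm

theorem expFam_resL {a : ISlim S}
    (hfix : ∀ s ∈ L.fixingSubgroup, (ISlim S).ρ s a = a) (ℓ : PrimesOut S) (g : GQ) :
    expFam S L a ℓ.1 (resL L g) = coord S a ℓ g := by
  rw [expFam, dif_pos ℓ.2]
  exact coord_eq_of_resL_eq hfix ℓ (resL_lift L _)

theorem expFam_finite (a : ISlim S) : {ℓ | expFam S L a ℓ ≠ 0}.Finite := by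
  classical
  refine ((DFinsupp.support a).finite_toSet.image (fun ℓ : PrimesOut S => ℓ.1)).subset ?_
  intro ℓ hℓ
  have hℓ : expFam S L a ℓ ≠ 0 := hℓ
  by_cases hS : ℓ ∉ S
  · refine ⟨⟨ℓ, hS⟩, ?_, rfl⟩
    rw [Finset.mem_coe, DFinsupp.mem_support_toFun]
    intro h0
    apply hℓ
    funext γ
    rw [expFam, dif_pos hS, coord, h0]
    rfl
  · exfalso
    apply hℓ
    funext γ
    rw [expFam, dif_neg hS]
    rfl

theorem expFam_invariant {a : ISlim S}
    (hfix : ∀ s ∈ L.fixingSubgroup, (ISlim S).ρ s a = a) (ℓ : Nat.Primes) (τ : Gq (ℓ : ℕ))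
    (γ : GalL L) : expFam S L a ℓ (locHom (ℓ : ℕ) L τ * γ) = expFam S L a ℓ γ := by
  by_cases hℓ : ℓ ∉ S
  · obtain ⟨g, rfl⟩ := resL_surjective L γ
    have h1 : locHom (ℓ : ℕ) L τ * resL L g = resL L (localGaloisToGlobal (ℓ : ℕ) τ * g) := by
      rw [map_mul]
      rfl
    rw [h1, expFam_resL hfix ⟨ℓ, hℓ⟩, expFam_resL hfix ⟨ℓ, hℓ⟩]
    exact coord_local S a ⟨ℓ, hℓ⟩ τ g
  · rw [expFam, expFam, dif_neg hℓ, dif_neg hℓ]

end Level


section Main

/-- a level of `globalLevels S` is the fixing subgroup of a finite Galois `S`-level -/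
theorem exists_galois_level {U : Subgroup GQ} (hU : U ∈ (globalLevels S).levels) :
    ∃ L : IntermediateField ℚ Qbar, L.IsUnramifiedOutside S ∧ FiniteDimensional ℚ L ∧
      Normal ℚ L ∧ U = L.fixingSubgroup := by
  obtain ⟨hn, L, hL, rfl⟩ := hU
  haveI : IsGalois ℚ Qbar := Fermat.Agent.Lib.FrobeniusExists.isGalois_Qb
  exact ⟨L, hL, hL.1, CycloRecip78.normal_of_fixingSubgroup_normal L hn, rfl⟩

/-- **finiteness of the `S`-class groups, limit form** (`CS79.DivLimit.ClassTorsion S`): every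
element of the limit ideal module `I^S` has a positive multiple which is the divisor of an element
of `Q_Sˣ`. -/
theorem classTorsion : ClassTorsion S := by
  intro a
  obtain ⟨U, hU, hfixU⟩ := isSmooth_ISlim S a
  obtain ⟨L, hL, hfd, hnorm, rfl⟩ := exists_galois_level S hU
  haveI := hfd
  haveI := hnorm
  obtain ⟨x, hx⟩ := ClassTors72.exists_unit_norm_eq_classNumber L S (unrOutside_of_level L hL)
    (expFam S L a) (expFam_finite a) (expFam_invariant hfixU)
  have hx0 : ((x : L) : Qbar) ≠ 0 := by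
    intro h
    exact Units.ne_zero x (Subtype.ext h)
  let u : Qbarˣ := Units.mk0 ((x : L) : Qbar) hx0
  have huQ : u ∈ QSx S := le_QS hL (x : L).2
  refine ⟨classNumber L, classNumber_pos L, Additive.ofMul (⟨u, huQ⟩ : ↥(QSx S)), ?_⟩
  apply ext_coord
  intro ℓ g
  rw [coord_nsmul]
  have h1 : coord S ((divLim S).hom (Additive.ofMul (⟨u, huQ⟩ : ↥(QSx S)))) ℓ g =
      CS79.DivLimit.divAt (ℓ.1 : ℕ) g u := divLim_apply S _ ℓ g
  rw [h1]
  have h2 := hx ℓ.1 ℓ.2 (resL L g)
  rw [expFam_resL hfixU ℓ g] at h2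
  have h3 : iotaL (ℓ.1 : ℕ) L ((resL L g) (x : L)) =
      ((locU (ℓ.1 : ℕ) g u : (PadicAlgCl (ℓ.1 : ℕ))ˣ) : PadicAlgCl (ℓ.1 : ℕ)) := by
    rw [iotaL_apply, resL_apply]
    rfl
  rw [h3] at h2
  have h4 : valAt (ℓ.1 : ℕ) g u = (((classNumber L : ℤ) * coord S a ℓ g : ℤ) : ℝ) :=
    (Capit72.norm_eq_zpow_iff_valAdd (ℓ.1 : ℕ) (locU (ℓ.1 : ℕ) g u) _).1 h2
  rw [CS79.DivLimit.divAt, h4, Int.floor_intCast]


variable {p : ℕ} [Fact p.Prime]

/-- the divisor map of the limit as an additive map -/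
noncomputable def divAdd : QSxRep S →+ ISlim S :=
  AddMonoidHom.mk' (fun x => (divLim S).hom x) (fun x y => map_add _ x y)

theorem divAdd_apply (x : QSxRep S) : divAdd S x = (divLim S).hom x := rfl

/-- **capitulation step in the limit**: `div x = p • i ⇒ i ∈ div (Q_Sˣ)` (for `p ∈ S`). -/
theorem capit_divLim (hpS : ExtCitation.pPrime p ∈ S) (i : ISlim S) (x : QSxRep S)
    (hx : (divLim S).hom x = p • i) : ∃ y : QSxRep S, (divLim S).hom y = i := by
  obtain ⟨β, hβ⟩ := exists_root_of_divLim S hpS x ⟨i, hx⟩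
  refine ⟨β, ?_⟩
  have h1 : p • ((divLim S).hom β - i) = 0 := by
    rw [smul_sub, ← hx, ← hβ, map_nsmul, sub_self]
  exact sub_eq_zero.1 (ISlim_torsion_free S (Fact.out : p.Prime).ne_zero _ h1)

/-- **(T4) input of L-a**: every element of the limit ideal module has a multiple PRIME TO `p`
which is the divisor of an element of `Q_Sˣ` (class-number finiteness + `p`-capitulation). -/
theorem exists_coprime_divLim (hpS : ExtCitation.pPrime p ∈ S) (i : ISlim S) :
    ∃ m : ℕ, m.Coprime p ∧ ∃ x : QSxRep S, (divLim S).hom x = m • i :=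
  ClassLimit72.exists_coprime_of_tors_capit (divAdd S) (Fact.out : p.Prime)
    (fun j => classTorsion S j) (fun j x hx => capit_divLim S hpS j x hx) i


section Consumers

open Fermat.Agent.S55.CS79.ClassSeq Fermat.Agent.S55.CS79.Primary Fermat.Agent.S55.LevelLES13

variable {J : Rep.{0} ℤ GQ} (dJ : QSxRep S ⟶ J)

/-- helper79's (36-C)(i) with `ClassTorsion S` discharged:
`H¹(C_S)(p) = 0 ⇒ H¹(J/E_S)(p) = 0` over any `Γ → G_ℚ`. -/
theorem h1PrimaryVanishes_CSunit {Γ : Type} [Group Γ] (r : Γ →* GQ) (𝒰 : LevelStr Γ)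
    (hJ : 𝒰.IsSmooth (Rep.res r J)) (hI : 𝒰.IsSmooth (Rep.res r (ISlim S)))
    (hpS : ExtCitation.pPrime p ∈ S)
    (hvan : H1PrimaryVanishes 𝒰 p (classMod (Rep.resMap r dJ) (Rep.resMap r (divLim S)))) :
    H1PrimaryVanishes 𝒰 p (unitQuot (Rep.resMap r dJ) (Rep.resMap r (divLim S))) :=
  CS79.DivLimit.h1PrimaryVanishes_CSunit S dJ r 𝒰 hJ hI hpS (classTorsion S) hvan

/-- helper79's (36-C)(ii) with `ClassTorsion S` discharged:
`H²(J/E_S) → H²(C_S)` is injective on `p`-primary classes. -/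
theorem H2map_CSunit_injective_on_primary {Γ : Type} [Group Γ] (r : Γ →* GQ) (𝒰 : LevelStr Γ)
    (hJ : 𝒰.IsSmooth (Rep.res r J)) (hI : 𝒰.IsSmooth (Rep.res r (ISlim S)))
    (hpS : ExtCitation.pPrime p ∈ S)
    (x : 𝒰.H2 (unitQuot (Rep.resMap r dJ) (Rep.resMap r (divLim S))))
    (hx : ∃ n : ℕ, p ^ n • x = 0)
    (hfx : H2map 𝒰 (inclHom (Rep.resMap r dJ) (Rep.resMap r (divLim S))) x = 0) : x = 0 :=
  CS79.DivLimit.H2map_CSunit_injective_on_primary S dJ r 𝒰 hJ hI hpS (classTorsion S) x hx hfx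

end Consumers

end Main

end Fermat.Agent.S55.ClassTorsLim72
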