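/-
S55 / 36e (helper72), (T4) of L-a: the kernel of the limit divisor map is the module of `S`-units,
`ker (divLim S) = E_S`, hence helper79's `J_S / dJ(ker div)` is helper94's `C'_S = J_S / E_S`, and
the comparison datum `ClassLimit72.ClassData` holds for the concrete limit objects
`(Q_Sˣ, J_S, I^S, C'_S, C_S, Cl_S)`.
-/
import Mathlib
import Fermat.Agent.S55.ClassTorsLim72
import Fermat.Agent.S55.GlobalMod94.JS
import Fermat.Agent.S55.UnrBridge42.NormModel

set_option autoImplicit false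
set_option linter.style.haveILetI false
set_option linter.unusedSectionVars false

namespace Fermat.Agent.S55.ClassData72

open Fermat.Agent.S55.Profin15 Fermat.Agent.S55.Idele73.Basic Fermat.Agent.S55.IdeleVal44
open Fermat.Agent.S55.ESDiv20 hiding GQ Qb
open Fermat.Agent.S55.ESRep20
open Fermat.Agent.S55.CS79.Smooth Fermat.Agent.S55.CS79.Limit Fermat.Agent.S55.CS79.DirectSumRep
open Fermat.Agent.S55.CS79.DivLimit Fermat.Agent.S55.ClassTorsLim72
open Fermat.Agent.S55.GlobalMod94.JS Fermat.Agent.S55.GlobalMod94.Generic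

variable (S : Finset Nat.Primes)

section SUnit

/-- **`S`-units in terms of `q`-adic norms**: `u` is a unit at every valuation subring of `ℚ̄` over
a prime `q ∉ S` iff all `‖ι_q (g u)‖ = 1`. -/
theorem isSUnitAt_iff_norm (u : Qbar) :
    IsSUnitAt S u ↔ u ≠ 0 ∧ ∀ q : Nat.Primes, q ∉ S → ∀ g : GQ,
      ‖padicEmbedding (q : ℕ) (g u)‖ = 1 := by
  constructor
  · rintro ⟨h0, h⟩
    refine ⟨h0, fun q hq g => ?_⟩
    have h1 := (UnrBridge42.forall_liesOverPrime_iff (q : ℕ)
      (fun A => u ∈ A ∧ u⁻¹ ∈ A)).1 (h q hq) g⁻¹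
    rw [UnrBridge42.mem_smul_padicPlace_iff, UnrBridge42.mem_smul_padicPlace_iff, inv_inv,
      map_inv₀, map_inv₀, norm_inv] at h1
    have hpos : 0 < ‖padicEmbedding (q : ℕ) (g u)‖ :=
      norm_pos_iff.2 ((map_ne_zero _).2 ((map_ne_zero _).2 h0))
    exact le_antisymm h1.1 ((inv_le_one₀ hpos).1 h1.2)
  · rintro ⟨h0, h⟩
    refine ⟨h0, fun q hq => (UnrBridge42.forall_liesOverPrime_iff (q : ℕ)
      (fun A => u ∈ A ∧ u⁻¹ ∈ A)).2 fun g => ?_⟩
    rw [UnrBridge42.mem_smul_padicPlace_iff, UnrBridge42.mem_smul_padicPlace_iff,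
      map_inv₀, map_inv₀, norm_inv, h q hq g⁻¹, inv_one]
    exact ⟨le_refl _, le_refl _⟩


/-- the divisor coordinate vanishes iff the norm is `1` -/
theorem divAt_eq_zero_iff (ℓ : PrimesOut S) (g : GQ) {u : Qbarˣ} (hu : (u : Qbar) ∈ QS S) :
    CS79.DivLimit.divAt (ℓ.1 : ℕ) g u = 0 ↔ ‖padicEmbedding (ℓ.1 : ℕ) (g (u : Qbar))‖ = 1 := by
  have hcast := divAt_cast S (ℓ.1 : ℕ) (primesOut_notMem S ℓ) g hu
  have hiff := Capit72.norm_eq_zpow_iff_valAdd (ℓ.1 : ℕ) (locU (ℓ.1 : ℕ) g u) 0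
  rw [neg_zero, zpow_zero, Int.cast_zero] at hiff
  constructor
  · intro h
    apply hiff.2
    show valAt (ℓ.1 : ℕ) g u = 0
    rw [← hcast, h, Int.cast_zero]
  · intro h
    have h1 : valAt (ℓ.1 : ℕ) g u = 0 := hiff.1 h
    rw [h1] at hcast
    exact_mod_cast hcast

/-- **the kernel of the limit divisor map is `E_S`** -/
theorem divLim_eq_zero_iff (x : QSxRep S) :
    (divLim S).hom x = 0 ↔ toUnit S x ∈ ES S := by
  have hxQ := toUnit_mem S x
  rw [mem_ES_iff, isSUnitAt_iff_norm]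
  constructor
  · intro h
    refine ⟨hxQ, Units.ne_zero _, fun q hq g => ?_⟩
    have h1 : coord S ((divLim S).hom x) ⟨q, hq⟩ g = 0 := by rw [h]; rfl
    have h2 : coord S ((divLim S).hom x) ⟨q, hq⟩ g =
        CS79.DivLimit.divAt (q : ℕ) g (toUnit S x) := divLim_apply S x ⟨q, hq⟩ g
    rw [h2] at h1
    exact (divAt_eq_zero_iff S ⟨q, hq⟩ g hxQ).1 h1
  · rintro ⟨-, -, h⟩
    apply ext_coord
    intro ℓ g
    have h2 : coord S ((divLim S).hom x) ℓ g =
        CS79.DivLimit.divAt (ℓ.1 : ℕ) g (toUnit S x) := divLim_apply S x ℓ g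
    rw [h2, (divAt_eq_zero_iff S ℓ g hxQ).2 (h ℓ.1 ℓ.2 g)]
    rfl

end SUnit


section Generic

universe u

open Fermat.Agent.S55.CS79.ClassSeq

variable {k Γ : Type u} [CommRing k] [Group Γ] {K J I E : Rep.{u} k Γ}
  (dJ : K ⟶ J) (dI : K ⟶ I) (ι : E ⟶ J)

/-- `j ↦ [(j, 0)]` -/
noncomputable def aLin : J →ₗ[k] classMod dJ dI :=
  (Submodule.mkQ (diagRange dJ dI)) ∘ₗ LinearMap.inl k J I

/-- `i ↦ [(0, i)]` -/
noncomputable def bLin : I →ₗ[k] classMod dJ dI :=
  (Submodule.mkQ (diagRange dJ dI)) ∘ₗ LinearMap.inr k J I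

/-- `i ↦ [i]` -/
noncomputable def kLin : I →ₗ[k] clMod dI := Submodule.mkQ (divRange dI)

theorem aLin_apply (j : J) : aLin dJ dI j = Submodule.Quotient.mk (j, (0 : I)) := rfl

theorem bLin_apply (i : I) : bLin dJ dI i = Submodule.Quotient.mk ((0 : J), i) := rfl

theorem kLin_apply (i : I) : kLin dI i = Submodule.Quotient.mk i := rfl

theorem aLin_add_bLin (j : J) (i : I) :
    aLin dJ dI j + bLin dJ dI i = Submodule.Quotient.mk (j, i) := by
  rw [aLin_apply, bLin_apply, ← Submodule.Quotient.mk_add, Prod.mk_add_mk, add_zero, zero_add]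

/-- **(T4), generic**: if the image of `ι : E ⟶ J` is `dJ (ker dI)`, the comparison datum of
`ClassLimit72` holds for `C' = coker ι`, `C = coker (K → J × I)`, `Cl = coker dI`. -/
theorem classData_of_units
    (hE : ∀ j : J, (∃ x : K, dI.hom x = 0 ∧ dJ.hom x = j) ↔ ∃ u : E, ι.hom u = j) :
    ClassLimit72.ClassData (C' := cokerObj ι) (C := classMod dJ dI) (Cl := clMod dI)
      dJ.hom.toLinearMap dI.hom.toLinearMap (cokerπ ι).hom.toLinearMap
      (aLin dJ dI) (bLin dJ dI) (kLin dI) where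
  equivariant_π' := LevelStr.isEquivariant_hom (cokerπ ι)
  equivariant_a := fun g j => by
    show (Submodule.Quotient.mk (J.ρ g j, (0 : I)) : (J × I) ⧸ diagRange dJ dI) =
      Submodule.Quotient.mk (J.ρ g j, I.ρ g 0)
    rw [map_zero]
  equivariant_b := fun g i => by
    show (Submodule.Quotient.mk ((0 : J), I.ρ g i) : (J × I) ⧸ diagRange dJ dI) =
      Submodule.Quotient.mk (J.ρ g 0, I.ρ g i)
    rw [map_zero]
  equivariant_κ := fun g i => rfl
  surjective_π' := Submodule.Quotient.mk_surjective _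
  ker_π' := fun j => by
    have h1 : (cokerπ ι).hom.toLinearMap j = 0 ↔ j ∈ LinearMap.range ι.hom.toLinearMap :=
      Submodule.Quotient.mk_eq_zero _
    rw [h1, LinearMap.mem_range]
    exact (hE j).symm
  surjective_ab := fun c => by
    obtain ⟨⟨j, i⟩, rfl⟩ := Submodule.Quotient.mk_surjective _ c
    exact ⟨j, i, aLin_add_bLin dJ dI j i⟩
  ker_ab := fun j i => by
    rw [aLin_add_bLin, Submodule.Quotient.mk_eq_zero]
    constructor
    · rintro ⟨x, hx⟩
      rw [diagLin_apply, Prod.mk.injEq] at hx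
      exact ⟨x, hx.1, hx.2⟩
    · rintro ⟨x, rfl, rfl⟩
      exact ⟨x, rfl⟩
  surjective_κ := Submodule.Quotient.mk_surjective _
  ker_κ := fun i => by
    have h1 : kLin dI i = 0 ↔ i ∈ divRange dI := Submodule.Quotient.mk_eq_zero _
    rw [h1]
    exact Iff.rfl

end Generic

section Data

open Fermat.Agent.S55.CS79.ClassSeq

/-- **`dJ (ker div) = E_S`** inside `J_S` (elementwise): helper79's
`unitQuot (diagJ S) (divLim S)` is helper94's `C'_S = J_S / E_S`. -/
theorem units_iff (j : JSp S) :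
    (∃ x : QSxRep S, (divLim S).hom x = 0 ∧ (diagJ S).hom x = j) ↔
      ∃ u : ESRep S, (ιES S).hom u = j := by
  constructor
  · rintro ⟨x, hx, rfl⟩
    have hE := (divLim_eq_zero_iff S x).1 hx
    exact ⟨Additive.ofMul (⟨toUnit S x, hE⟩ : ↥(ES S)), rfl⟩
  · rintro ⟨u, rfl⟩
    refine ⟨(ESRep20.incl (hH := ESRep20.ES_galStable) (hH' := ESRep20.QSx_galStable)
      ESRep20.ES_le_QSx).hom u, ?_, rfl⟩
    rw [divLim_eq_zero_iff]
    exact (Additive.toMul (show Additive ↥(ES S) from u) : ↥(ES S)).2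

/-- the class module of the limit, for helper94's idele module -/
noncomputable abbrev CSl : Rep.{0} ℤ GQ := CSlim S (diagJ S)

/-- the `S`-class group of the limit -/
noncomputable abbrev ClS : Rep.{0} ℤ GQ := clMod (divLim S)

/-- **(T4)**: the comparison datum of `ClassLimit72` at the concrete limit objects. -/
theorem classData : ClassLimit72.ClassData (K := QSxRep S) (J := JSp S) (I := ISlim S)
    (C' := CSp S) (C := CSl S) (Cl := ClS S)
    (diagJ S).hom.toLinearMap (divLim S).hom.toLinearMap (πCS S).hom.toLinearMap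
    (aLin (diagJ S) (divLim S)) (bLin (diagJ S) (divLim S)) (kLin (divLim S)) :=
  classData_of_units (diagJ S) (divLim S) (ιES S) (units_iff S)


/-- the inclusion `C'_S = J_S / E_S → C_S` (linear map) -/
noncomputable def phi : CSp S →ₗ[ℤ] CSl S := (classData S).phi

/-- the projection `C_S → Cl_S` (linear map) -/
noncomputable def psi : CSl S →ₗ[ℤ] ClS S := (classData S).psi

theorem phi_πCS (j : JSp S) :
    phi S ((πCS S).hom j) = Submodule.Quotient.mk (j, (0 : ISlim S)) :=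
  (classData S).phi_apply j

theorem psi_mk (j : JSp S) (i : ISlim S) :
    psi S (Submodule.Quotient.mk (j, i)) = Submodule.Quotient.mk i := by
  rw [← aLin_add_bLin]
  exact (classData S).psi_apply j i

/-- **`0 → C'_S → C_S → Cl_S → 0`** in helper15's raw `ShortExact` form (the binder `h` of
`S1Limit41.Transfer`). -/
theorem shortExact : LevelStr.ShortExact (A := CSp S) (B := CSl S) (C := ClS S) (phi S) (psi S) :=
  (classData S).shortExact

theorem isSmooth_CSl : (globalLevels S).IsSmooth (CSl S) :=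
  isSmooth_classMod (diagJ S) (divLim S) (JSp_isSmooth S) (isSmooth_ISlim S)

variable {p : ℕ} [Fact p.Prime]

/-- **the `S`-class group of the limit is prime-to-`p` torsion** (`p ∈ S`): class-number
finiteness + `p`-capitulation (the binder `hCl` of `S1Limit41.Transfer`). -/
theorem isPrimeToP_ClS (hpS : ExtCitation.pPrime p ∈ S) : ClassLimit72.IsPrimeToP p (ClS S) :=
  (classData S).isPrimeToP (fun i => exists_coprime_divLim S hpS i)

/-- **(T1) concrete**: no `p`-primary torsion in level `H¹(C_S)` ⟹ none in `H¹(C'_S)`, for any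
level structure on `G_ℚ` for which `C_S` is smooth. -/
theorem H1_primary_eq_zero (𝒰 : LevelStr GQ) (hC : 𝒰.IsSmooth (CSl S))
    (hpS : ExtCitation.pPrime p ∈ S)
    (hH1C : ∀ (c : 𝒰.H1 (CSl S)) (n : ℕ), p ^ n • c = 0 → c = 0)
    (c' : 𝒰.H1 (CSp S)) (n : ℕ) (hc : p ^ n • c' = 0) : c' = 0 :=
  ClassLimit72.H1_primary_eq_zero 𝒰 (shortExact S) hC (isPrimeToP_ClS S hpS) hH1C c' n hc

/-- **(T2) concrete**: `H²(C'_S) → H²(C_S)` is injective on `p`-primary classes. -/
theorem H2map_eq_zero_of_primary (𝒰 : LevelStr GQ) (hC : 𝒰.IsSmooth (CSl S))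
    (hpS : ExtCitation.pPrime p ∈ S) (x : 𝒰.H2 (CSp S)) (n : ℕ) (hx : p ^ n • x = 0)
    (h0 : 𝒰.H2map (phi S) (shortExact S).equivariant_left x = 0) : x = 0 :=
  ClassLimit72.H2map_eq_zero_of_primary 𝒰 (shortExact S) hC (isPrimeToP_ClS S hpS) x n hx h0

end Data

end Fermat.Agent.S55.ClassData72
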