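/-
S55 / P3P4 ROUTE F (helper20): **(β→) at the base field `ℚ` from the H-form of 35 at `H = ⊤`.**

helper91's `GlobalInv91.finLayerHyp_sesRes` / helper35's `CLDescent35.FinFields.finLayerHyp_of`
produce `FinLayerHyp (sesRes h H) p m χ invJ` for the group `↥H`, `H ≤ Gal(L/ℚ)`, and the restricted
sequence `Res_H (Lˣ → J_S × I^S → C_S)`.  helper15's P3P4 endpoint
`Recip15.Family.reciprocity_of_levels(_br)` consumes (β→) over `ℚ` for the group `Gal(L/ℚ)` itself
(binder `hβ`).  This file is the bridge `H = ⊤`: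

* `topMap A : H²(↥⊤, Res A) →+ H²(Γ, A)` with `topMap_H2π`, `res₂_topMap`, `topMap_push₂`,
  `topMap_map`, `isDesc_top`;
* `toH2_top : SysMore.toH2 I ⊤ = (SysH2.toH2top I).comp (topMap C)` (helper37's two invariant maps of
  a `GSys.Sys` agree at the top);
* `beta_to_top_class` = `FinLayerHyp.beta_to_desc` for `↥⊤` transported to `Γ`, the J-SPLIT being
  required only for THE class (its depth depends on the support of the ideal part of the class);
  `beta_to_top` = the uniform variant;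
* `hβ_of_top_class` = the binder `hβ` of `reciprocity_of_levels(_br)` LITERALLY, from `FinLayerHyp` +
  J-SPLIT of the class at `H = ⊤` at all deep enough Galois `S`-levels; `hβ_of_top` = uniform variant;
* `reciprocity_of_top_levels(_br)` : `Contract34.Reciprocity p S`.
-/
import Fermat.Agent.S55.GlobalInv91.InstFin
import Fermat.Agent.S55.GlobalInv91.DescDatum
import Fermat.Agent.S55.CycloRecip37.SysH2
import Fermat.Agent.S55.Recip15.Family2
import Fermat.Agent.S55.CLDescent35.Hilbert90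

set_option autoImplicit false
set_option linter.unusedSectionVars false

namespace Fermat.Agent.S55.RecipTop20

open groupCohomology CategoryTheory Rep
open Fermat.Agent.S55.GlobalInv91

universe u

open Fermat.Agent.S55.CS79.FamilyCS Fermat.Agent.S55.CS79.FamilyMaps
open Fermat.Agent.S55.CS79.LevelClass
open Fermat.Agent.S55.LimDesc99 Fermat.Agent.S55.Idele73.Basic
open Fermat.Agent.S55.CLDescent35.Hilbert90


section Generic

variable {k Γ : Type u} [CommRing k] [Group Γ]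

/-- `Γ → ↥⊤` -/
def topHom (Γ : Type u) [Group Γ] : Γ →* ↥(⊤ : Subgroup Γ) where
  toFun g := ⟨g, Subgroup.mem_top g⟩
  map_one' := rfl
  map_mul' _ _ := rfl

@[simp] lemma coe_topHom (g : Γ) : ((topHom Γ g : ↥(⊤ : Subgroup Γ)) : Γ) = g := rfl

lemma topHom_coe (g : ↥(⊤ : Subgroup Γ)) : topHom Γ (g : Γ) = g := rfl

/-- the identity `Res_{topHom} (Res_⊤ A) ⟶ A` -/
def topId (A : Rep.{u, u, u} k Γ) :
    res (topHom Γ) (res (⊤ : Subgroup Γ).subtype A) ⟶ A :=
  Rep.ofHom ⟨LinearMap.id, fun _ => rfl⟩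

@[simp] lemma topId_hom_apply (A : Rep.{u, u, u} k Γ) (a : A) : (topId A).hom a = a := rfl

/-- the canonical map `H²(↥⊤, Res A) → H²(Γ, A)` -/
noncomputable def topMap (A : Rep.{u, u, u} k Γ) :
    H2 (res (⊤ : Subgroup Γ).subtype A) →+ H2 A :=
  (groupCohomology.map (topHom Γ) (topId A) 2).hom.toAddMonoidHom

theorem topMap_H2π (A : Rep.{u, u, u} k Γ) (c : cocycles₂ (res (⊤ : Subgroup Γ).subtype A)) :
    topMap A ((H2π _).hom c) =
      (H2π A).hom ((mapCocycles₂ (topHom Γ) (topId A)).hom c) := by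
  show (groupCohomology.map (topHom Γ) (topId A) 2).hom _ = _
  rw [H2π_comp_map_apply]

/-- restriction to `⊤` is inverse to `topMap` -/
theorem res₂_topMap (A : Rep.{u, u, u} k Γ) (y : H2 (res (⊤ : Subgroup Γ).subtype A)) :
    (res₂ A (⊤ : Subgroup Γ)).hom (topMap A y) = y := by
  induction y using H2_induction_on with | @h c =>
  rw [topMap_H2π]
  erw [H2π_comp_map_apply]
  rfl

/-- `topMap` commutes with push-forward -/
theorem topMap_push₂ {A B : Rep.{u, u, u} k Γ} (f : A ⟶ B)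
    (y : H2 (res (⊤ : Subgroup Γ).subtype A)) :
    topMap B ((push₂ ((resFunctor (⊤ : Subgroup Γ).subtype).map f)).hom y) =
      (push₂ f).hom (topMap A y) := by
  induction y using H2_induction_on with | @h c =>
  rw [H2π_comp_map_apply, topMap_H2π, topMap_H2π, H2π_comp_map_apply]
  rfl

variable {Q : Type u} [Group Q]

/-- the restriction to `⊤` of a morphism along `q` -/
def resTop (q : Γ →* Q) {A : Rep.{u, u, u} k Γ} {B : Rep.{u, u, u} k Q} (φ : res q B ⟶ A) :
    res (q.comp (⊤ : Subgroup Γ).subtype) B ⟶ res (⊤ : Subgroup Γ).subtype A :=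
  Rep.ofHom ⟨φ.hom.toLinearMap, fun g => φ.hom.2 (g : Γ)⟩

@[simp] lemma resTop_hom_apply (q : Γ →* Q) {A : Rep.{u, u, u} k Γ} {B : Rep.{u, u, u} k Q}
    (φ : res q B ⟶ A) (b : B) : (resTop q φ).hom b = φ.hom b := rfl

/-- `topMap` of the map of the restricted pair is the map of the pair -/
theorem topMap_map (q : Γ →* Q) {A : Rep.{u, u, u} k Γ} {B : Rep.{u, u, u} k Q}
    (φ : res q B ⟶ A) (e : H2 B) :
    topMap A ((map (q.comp (⊤ : Subgroup Γ).subtype) (resTop q φ) 2).hom e) =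
      (map q φ 2).hom e := by
  induction e using H2_induction_on with | @h c =>
  rw [H2π_comp_map_apply, H2π_comp_map_apply, topMap_H2π]
  rfl

theorem isDesc_top {q : Γ →* Q} {A : Rep.{u, u, u} k Γ} {B : Rep.{u, u, u} k Q}
    {φ : res q B ⟶ A} (hd : IsDesc q φ) :
    IsDesc (q.comp (⊤ : Subgroup Γ).subtype) (resTop q φ) where
  surj x := by
    obtain ⟨g, rfl⟩ := hd.surj x
    exact ⟨topHom Γ g, rfl⟩
  inj := hd.inj
  range a ha := hd.range a (fun s hs => ha (topHom Γ s) hs)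

end Generic

section Sys

open Fermat.Agent.S55.CycloRecip37.GSys Fermat.Agent.S55.CycloRecip37.SysMore
  Fermat.Agent.S55.CycloRecip37.SysH2

variable {k G : Type u} [CommRing k] [Group G] {C : Rep.{u, u, u} k G} {T : Type*}
  [AddCommGroup T]

/-- the invariant map of a system on `H²(↥⊤, C)` is the top invariant map. -/
theorem toH2_top (I : Sys C T) :
    toH2 I (⊤ : Subgroup G) = (toH2top I).comp (topMap C) := by
  ext y
  have := toH2_res₂ I ⊤ (topMap C y)
  rw [res₂_topMap, Subgroup.index_top, one_smul] at this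
  exact this

end Sys

section Beta

variable {k Γ : Type u} [CommRing k] [Group Γ] {Y : ShortComplex (Rep.{u, u, u} k Γ)}
  {T : Type*} [AddCommGroup T] {p : ℕ} [Fact p.Prime]

/-- **(β→) at the top, class form**: `FinLayerHyp.beta_to_desc` for the group `↥⊤` and the
restricted sequence, transported to `Γ`; the J-SPLIT hypothesis is only required for THE class
`x = push₂ (map q φ e)` (read on `↥⊤` through the bijection `topMap`). -/
theorem beta_to_top_class {invJ : H2 Y.X₂ →+ T} {m : ℕ}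
    {χ : ↥(⊤ : Subgroup Γ) →* Multiplicative (ZMod (p ^ m))}
    (h : FinLayerHyp (Y.map (resFunctor (⊤ : Subgroup Γ).subtype)) p m χ
      (invJ.comp (topMap Y.X₂)))
    {Q : Type u} [Group Q] {q : Γ →* Q} {B : Rep.{u, u, u} k Q} {φ : res q B ⟶ Y.X₁}
    (hd : IsDesc q φ) (e : H2 B) {j : ℕ} (he : p ^ j • e = 0)
    (hsplit : ∀ y : H2 (res (⊤ : Subgroup Γ).subtype Y.X₂),
      topMap Y.X₂ y = (push₂ Y.f).hom ((map q φ 2).hom e) →
      (res₂ (res (⊤ : Subgroup Γ).subtype Y.X₂) χ.ker).hom y = 0) :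
    invJ ((push₂ Y.f).hom ((map q φ 2).hom e)) = 0 := by
  let φ' : res (q.comp (⊤ : Subgroup Γ).subtype) B ⟶
      (Y.map (resFunctor (⊤ : Subgroup Γ).subtype)).X₁ := resTop q φ
  have hd' : IsDesc (q.comp (⊤ : Subgroup Γ).subtype) φ' := isDesc_top hd
  have hy : topMap Y.X₂ ((push₂ (Y.map (resFunctor (⊤ : Subgroup Γ).subtype)).f).hom
      ((map (q.comp (⊤ : Subgroup Γ).subtype) φ' 2).hom e)) =
      (push₂ Y.f).hom ((map q φ 2).hom e) := by
    erw [topMap_push₂, topMap_map]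
  have h0 := h.beta_to_desc hd' e he (hsplit _ hy)
  rw [AddMonoidHom.comp_apply] at h0
  erw [hy] at h0
  exact h0

/-- **(β→) at the top**, with J-SPLIT for all classes killed by `p ^ j` (only usable when the
`I^S`-coordinates play no role; in general use `beta_to_top_class`). -/
theorem beta_to_top {invJ : H2 Y.X₂ →+ T} {m : ℕ}
    {χ : ↥(⊤ : Subgroup Γ) →* Multiplicative (ZMod (p ^ m))}
    (h : FinLayerHyp (Y.map (resFunctor (⊤ : Subgroup Γ).subtype)) p m χ
      (invJ.comp (topMap Y.X₂)))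
    {Q : Type u} [Group Q] {q : Γ →* Q} {B : Rep.{u, u, u} k Q} {φ : res q B ⟶ Y.X₁}
    (hd : IsDesc q φ) (e : H2 B) {j : ℕ} (he : p ^ j • e = 0)
    (hsplit : ∀ y : H2 (res (⊤ : Subgroup Γ).subtype Y.X₂), p ^ j • y = 0 →
      (res₂ (res (⊤ : Subgroup Γ).subtype Y.X₂) χ.ker).hom y = 0) :
    invJ ((push₂ Y.f).hom ((map q φ 2).hom e)) = 0 := by
  refine beta_to_top_class h hd e he (fun y hy => hsplit y ?_)
  have h1 : p ^ j • topMap Y.X₂ y = 0 := by
    rw [hy, ← map_nsmul, ← map_nsmul, he, map_zero, map_zero]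
  have h2 := res₂_topMap Y.X₂ y
  rw [← h2, ← map_nsmul, h1, map_zero]

end Beta

section P3P4

variable {p : ℕ} [Fact p.Prime] {S : Finset Nat.Primes} {T : Type} [AddCommGroup T]

/-- **the binder `hβ` of `Recip15.Family.reciprocity_of_levels(_br)`** from `FinLayerHyp` +
the J-SPLIT of THE class in the D2 model at `H = ⊤` (base field `ℚ`), at all deep enough levels
(the depth may depend on the class `e`: the support of its ideal part). -/
theorem hβ_of_top_class (invFam : ∀ i : GalLev S, H2 (IdeleVal44.JIS i.1 S) →+ T)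
    (hF : ∀ (i : GalLev S) (e : H2 (Lx i.1)) (n : ℕ), p ^ n • e = 0 →
      ∃ l : GalLev S, l ≤ i ∧ ∀ l' : GalLev S, l' ≤ l → ∀ h : l' ≤ i,
      ∃ (m : ℕ) (χ : ↥(⊤ : Subgroup (GalL l'.1)) →* Multiplicative (ZMod (p ^ m))),
        FinLayerHyp (sesRes (unrOutside S l'.1 l'.unr) ⊤) p m χ
          ((invFam l').comp (topMap (IdeleVal44.JIS l'.1 S))) ∧
        ∀ y : H2 (Rep.res (⊤ : Subgroup (GalL l'.1)).subtype (IdeleVal44.JIS l'.1 S)),
          topMap (IdeleVal44.JIS l'.1 S) y = aLev l' (Datum.trans₂ ((famK S).mono h) e) →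
            (res₂ (Rep.res (⊤ : Subgroup (GalL l'.1)).subtype (IdeleVal44.JIS l'.1 S))
              χ.ker).hom y = 0)
    (i : GalLev S) (e : H2 (Lx i.1)) (n : ℕ) (he : p ^ n • e = 0) :
    ∃ l : GalLev S, l ≤ i ∧ ∀ (l' : GalLev S), l' ≤ l → ∀ h : l' ≤ i,
      invFam l' (aLev l' (Datum.trans₂ ((famK S).mono h) e)) = 0 := by
  obtain ⟨l, hli, hl⟩ := hF i e n he
  refine ⟨l, hli, fun l' hl'l h => ?_⟩
  obtain ⟨m, χ, hfin, hsplit⟩ := hl l' hl'l h
  rw [trans₂_eq_map_desc] at hsplit ⊢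
  exact beta_to_top_class (Y := IdeleVal44.sesJIS (unrOutside S l'.1 l'.unr)) hfin
    (isDesc_datum ((famK S).mono h)) e he hsplit

/-- the same with a uniform J-SPLIT (all classes killed by `p ^ n`). -/
theorem hβ_of_top (invFam : ∀ i : GalLev S, H2 (IdeleVal44.JIS i.1 S) →+ T)
    (hF : ∀ (i : GalLev S) (n : ℕ), ∃ l : GalLev S, l ≤ i ∧ ∀ l' : GalLev S, l' ≤ l →
      ∃ (m : ℕ) (χ : ↥(⊤ : Subgroup (GalL l'.1)) →* Multiplicative (ZMod (p ^ m))),
        FinLayerHyp (sesRes (unrOutside S l'.1 l'.unr) ⊤) p m χ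
          ((invFam l').comp (topMap (IdeleVal44.JIS l'.1 S))) ∧
        ∀ y : H2 (Rep.res (⊤ : Subgroup (GalL l'.1)).subtype (IdeleVal44.JIS l'.1 S)),
          p ^ n • y = 0 →
            (res₂ (Rep.res (⊤ : Subgroup (GalL l'.1)).subtype (IdeleVal44.JIS l'.1 S))
              χ.ker).hom y = 0)
    (i : GalLev S) (e : H2 (Lx i.1)) (n : ℕ) (he : p ^ n • e = 0) :
    ∃ l : GalLev S, l ≤ i ∧ ∀ (l' : GalLev S), l' ≤ l → ∀ h : l' ≤ i,
      invFam l' (aLev l' (Datum.trans₂ ((famK S).mono h) e)) = 0 := by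
  obtain ⟨l, hli, hl⟩ := hF i n
  refine ⟨l, hli, fun l' hl'l h => ?_⟩
  obtain ⟨m, χ, hfin, hsplit⟩ := hl l' hl'l
  rw [trans₂_eq_map_desc]
  exact beta_to_top (Y := IdeleVal44.sesJIS (unrOutside S l'.1 l'.unr)) hfin
    (isDesc_datum ((famK S).mono h)) e he hsplit

/-- **P3P4 from the H-form of 35 at `H = ⊤`**, local inputs in the `Recip70.Br q` vocabulary
(helper85's `inv'`, `hne`). -/
theorem reciprocity_of_top_levels_br (hpS : ExtCitation.pPrime p ∈ S)
    {ζ : Fermat.Agent.S55.ESDiv20.Qbˣ} (hζ : IsPrimitiveRoot ζ p)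
    (inv' : ∀ q : ↥S, Fermat.Agent.S55.Recip70.Br q.1 →+ Fermat.Agent.S55.QZ33.QZ)
    (hne : ∀ q : ↥S, ∃ z : Fermat.Agent.S55.Recip70.Br q.1, p • z = 0 ∧ inv' q z ≠ 0)
    (invFam : ∀ i : GalLev S, H2 (IdeleVal44.JIS i.1 S) →+ Fermat.Agent.S55.QZ33.QZ)
    (hJ : ∀ (i : GalLev S) (x : H2 (IdeleVal44.JS i.1 S)),
      invFam i (Fermat.Agent.S55.Recip15.Family.inlLev S i x) =
        ∑ q : ↥S, inv' q ((Fermat.Agent.S55.Recip15.Local.brEquiv q.1).symm
          (Fermat.Agent.S55.Recip15.RouteI.EVq S q (((famJ S).d i).infl₂ x))))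
    (hF : ∀ (i : GalLev S) (e : H2 (Lx i.1)) (n : ℕ), p ^ n • e = 0 →
      ∃ l : GalLev S, l ≤ i ∧ ∀ l' : GalLev S, l' ≤ l → ∀ h : l' ≤ i,
      ∃ (m : ℕ) (χ : ↥(⊤ : Subgroup (GalL l'.1)) →* Multiplicative (ZMod (p ^ m))),
        FinLayerHyp (sesRes (unrOutside S l'.1 l'.unr) ⊤) p m χ
          ((invFam l').comp (topMap (IdeleVal44.JIS l'.1 S))) ∧
        ∀ y : H2 (Rep.res (⊤ : Subgroup (GalL l'.1)).subtype (IdeleVal44.JIS l'.1 S)),
          topMap (IdeleVal44.JIS l'.1 S) y = aLev l' (Datum.trans₂ ((famK S).mono h) e) →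
            (res₂ (Rep.res (⊤ : Subgroup (GalL l'.1)).subtype (IdeleVal44.JIS l'.1 S))
              χ.ker).hom y = 0) :
    Fermat.Agent.S55.Contract34.Reciprocity p S :=
  Fermat.Agent.S55.Recip15.Family.reciprocity_of_levels_br hpS hζ inv' hne invFam hJ
    (hβ_of_top_class invFam hF)

/-- **P3P4 from the H-form of 35 at `H = ⊤`**, local inputs in Profin15 form. -/
theorem reciprocity_of_top_levels (hpS : ExtCitation.pPrime p ∈ S)
    (ζ : Fermat.Agent.S55.ESDiv20.Qbˣ) (hζ : ζ ^ p = 1)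
    (inv : ∀ q : ↥S, (Fermat.Agent.S55.Profin15.pullLevels (ExtCitation.primeLocalToGlobal q.1)).H2
      (Fermat.Agent.S55.RecipGlobal20.Om q.1) →+ Fermat.Agent.S55.QZ33.QZ)
    (hloc : ∀ q : ↥S, ∃ y, inv q (Fermat.Agent.S55.Recip15.RouteI.kumq S hpS ζ hζ q y) ≠ 0)
    (invFam : ∀ i : GalLev S, H2 (IdeleVal44.JIS i.1 S) →+ Fermat.Agent.S55.QZ33.QZ)
    (hJ : ∀ (i : GalLev S) (x : H2 (IdeleVal44.JS i.1 S)),
      invFam i (Fermat.Agent.S55.Recip15.Family.inlLev S i x) =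
        ∑ q : ↥S, inv q (Fermat.Agent.S55.Recip15.RouteI.EVq S q (((famJ S).d i).infl₂ x)))
    (hF : ∀ (i : GalLev S) (e : H2 (Lx i.1)) (n : ℕ), p ^ n • e = 0 →
      ∃ l : GalLev S, l ≤ i ∧ ∀ l' : GalLev S, l' ≤ l → ∀ h : l' ≤ i,
      ∃ (m : ℕ) (χ : ↥(⊤ : Subgroup (GalL l'.1)) →* Multiplicative (ZMod (p ^ m))),
        FinLayerHyp (sesRes (unrOutside S l'.1 l'.unr) ⊤) p m χ
          ((invFam l').comp (topMap (IdeleVal44.JIS l'.1 S))) ∧
        ∀ y : H2 (Rep.res (⊤ : Subgroup (GalL l'.1)).subtype (IdeleVal44.JIS l'.1 S)),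
          topMap (IdeleVal44.JIS l'.1 S) y = aLev l' (Datum.trans₂ ((famK S).mono h) e) →
            (res₂ (Rep.res (⊤ : Subgroup (GalL l'.1)).subtype (IdeleVal44.JIS l'.1 S))
              χ.ker).hom y = 0) :
    Fermat.Agent.S55.Contract34.Reciprocity p S :=
  Fermat.Agent.S55.Recip15.Family.reciprocity_of_levels hpS ζ hζ inv hloc invFam hJ
    (hβ_of_top_class invFam hF)

end P3P4

end Fermat.Agent.S55.RecipTop20
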