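/-
S55 / P3P4 ROUTE F (helper20): **the divisor-free form of helper15's finite-level endpoint.**

`Recip15.Family.hrec_of_levels` / `reciprocity_of_levels(_br)` consume (β→) over `ℚ` for ALL
`p`-primary classes `e ∈ H²(Gal(L/ℚ), Lˣ)` at all deep enough levels.  Here the binder is weakened:
(β→) is only required for the classes whose DIVISOR class `dLev S i e ∈ H²(Gal(L/ℚ), I^S(L))`
already vanishes, and at ONE deeper level.  (Inside, the divisor of an `S`-unit class is killed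
first, by `dLev_trans₂`.)  For such classes `aLev l (trans₂ e) = inlLev (sLev …)` has no
`I^S`-coordinate, so the J-SPLIT needs no support bookkeeping.
-/
import Fermat.Agent.S55.RecipTop20

set_option autoImplicit false
set_option linter.unusedSectionVars false
set_option linter.style.haveILetI false

open CategoryTheory groupCohomology ExtCitation
open Fermat.Agent.S55.Profin15 Fermat.Agent.S55.Profin15.LevelStr
open Fermat.Agent.S55.Contract34
open Fermat.Agent.S55.GlobalMod94.JS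
open Fermat.Agent.S55.ESDiv20 Fermat.Agent.S55.ESRep20
open Fermat.Agent.S55.RecipGlobal20 Fermat.Agent.S55.LevelScalars13
open Fermat.Agent.S55.Recip15.Ev Fermat.Agent.S55.Recip15.RouteI
open Fermat.Agent.S55.CS79.ClassSeq Fermat.Agent.S55.CS79.DivLimit
open Fermat.Agent.S55.CS79.FamilyCS Fermat.Agent.S55.CS79.FamilyMaps
open Fermat.Agent.S55.CS79.LevelClass
open Fermat.Agent.S55.LimDesc99
open Fermat.Agent.S55.Recip15 Fermat.Agent.S55.Recip15.Family

namespace Fermat.Agent.S55.RecipBase20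

variable {p : ℕ} {S : Finset Nat.Primes} {T : Type} [AddCommGroup T]

/-- **`hrec` of ROUTE F from the finite levels of the D2 model, divisor-free form**: (β→) over `ℚ`
is only required for the `p`-primary classes `e` of `H²(Gal(L/ℚ), Lˣ)` whose divisor class
`dLev S i e ∈ H²(Gal(L/ℚ), I^S(L))` vanishes, and at ONE deeper level. -/
theorem hrec_of_levels_div0
    (inv : ∀ q : ↥S, (pullLevels (primeLocalToGlobal q.1)).H2 (Om q.1) →+ T)
    (invFam : ∀ i : GalLev S, H2 (IdeleVal44.JIS i.1 S) →+ T)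
    (hJ : ∀ (i : GalLev S) (x : H2 (IdeleVal44.JS i.1 S)),
      invFam i (inlLev S i x) = ∑ q : ↥S, inv q (EVq S q (((famJ S).d i).infl₂ x)))
    (hβ : ∀ (i : GalLev S) (e : H2 (Idele73.Basic.Lx i.1)) (n : ℕ), p ^ n • e = 0 →
      dLev S i e = 0 →
      ∃ (l : GalLev S) (h : l ≤ i),
        invFam l (aLev l (Datum.trans₂ ((famK S).mono h) e)) = 0)
    (z : (globalLevels S).H2 (ESRep S)) (hz : p • z = 0) :
    ∑ q : ↥S, inv q (locES S q z) = 0 := by
  set z' := pushH2 (𝒰 := globalLevels S) (D2.inclES S) z with hz'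
  have hpz' : p ^ 1 • z' = 0 := by rw [pow_one, hz', ← map_nsmul, hz, map_zero]
  obtain ⟨i, e, he, hez⟩ :=
    Family.exists_infl₂_eq_of_nsmul_eq_zero (famK S) (QSxRep_isSmooth S) z' (p ^ 1) hpz'
  -- the divisor of the representative dies at a deeper level `l₀`
  have hdiv0 : ((famI S).d i).infl₂ (dLev S i e) = 0 := by
    rw [← pushH2_divLim_infl₂, hez, hz']
    exact pushH2_divLim_inclES z
  obtain ⟨l₀, hl₀i, hl₀0⟩ := ((famI S).presH2 (isSmooth_ISlim S)).ker i _ hdiv0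
  have he₀ : p ^ 1 • Datum.trans₂ ((famK S).mono hl₀i) e = 0 := by
    rw [← map_nsmul, he, map_zero]
  have hd₀ : dLev S l₀ (Datum.trans₂ ((famK S).mono hl₀i) e) = 0 := by
    rw [dLev_trans₂ hl₀i]
    exact hl₀0
  have hez₀ : ((famK S).d l₀).infl₂ (Datum.trans₂ ((famK S).mono hl₀i) e) = z' := by
    rw [Datum.infl₂_trans₂, hez]
  obtain ⟨l, hll₀, h0⟩ := hβ l₀ _ 1 he₀ hd₀
  have hd : dLev S l (Datum.trans₂ ((famK S).mono hll₀)
      (Datum.trans₂ ((famK S).mono hl₀i) e)) = 0 := by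
    rw [dLev_trans₂ hll₀, hd₀]
    exact map_zero _
  rw [aLev_eq, hd, map_zero, add_zero, hJ, ← pushH2_diagJ_infl₂, Datum.infl₂_trans₂, hez₀] at h0
  rw [← h0]
  exact Finset.sum_congr rfl fun q _ => congrArg (inv q) (EVq_pushH2_diagJ_inclES q z).symm

/-- **ROUTE F from the finite levels, divisor-free form.** -/
theorem reciprocity_of_levels_div0 [Fact p.Prime] (hpS : pPrime p ∈ S) (ζ : Qbˣ) (hζ : ζ ^ p = 1)
    (inv : ∀ q : ↥S, (pullLevels (primeLocalToGlobal q.1)).H2 (Om q.1) →+ QZ33.QZ)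
    (hloc : ∀ q : ↥S, ∃ y, inv q (kumq S hpS ζ hζ q y) ≠ 0)
    (invFam : ∀ i : GalLev S, H2 (IdeleVal44.JIS i.1 S) →+ QZ33.QZ)
    (hJ : ∀ (i : GalLev S) (x : H2 (IdeleVal44.JS i.1 S)),
      invFam i (inlLev S i x) = ∑ q : ↥S, inv q (EVq S q (((famJ S).d i).infl₂ x)))
    (hβ : ∀ (i : GalLev S) (e : H2 (Idele73.Basic.Lx i.1)) (n : ℕ), p ^ n • e = 0 →
      dLev S i e = 0 →
      ∃ (l : GalLev S) (h : l ≤ i),
        invFam l (aLev l (Datum.trans₂ ((famK S).mono h) e)) = 0) :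
    Reciprocity p S :=
  reciprocity_of_top S hpS ζ hζ inv hloc (hrec_of_levels_div0 inv invFam hJ hβ)

/-- **ROUTE F from the finite levels, divisor-free form, local inputs in the `Recip70.Br q`
vocabulary** (helper85's `inv'`, `hne`). -/
theorem reciprocity_of_levels_div0_br [Fact p.Prime] (hpS : pPrime p ∈ S) {ζ : Qbˣ}
    (hζ : IsPrimitiveRoot ζ p)
    (inv' : ∀ q : ↥S, Recip70.Br q.1 →+ QZ33.QZ)
    (hne : ∀ q : ↥S, ∃ z : Recip70.Br q.1, p • z = 0 ∧ inv' q z ≠ 0)
    (invFam : ∀ i : GalLev S, H2 (IdeleVal44.JIS i.1 S) →+ QZ33.QZ)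
    (hJ : ∀ (i : GalLev S) (x : H2 (IdeleVal44.JS i.1 S)),
      invFam i (inlLev S i x) =
        ∑ q : ↥S, inv' q ((Local.brEquiv q.1).symm (EVq S q (((famJ S).d i).infl₂ x))))
    (hβ : ∀ (i : GalLev S) (e : H2 (Idele73.Basic.Lx i.1)) (n : ℕ), p ^ n • e = 0 →
      dLev S i e = 0 →
      ∃ (l : GalLev S) (h : l ≤ i),
        invFam l (aLev l (Datum.trans₂ ((famK S).mono h) e)) = 0) :
    Reciprocity p S :=
  Local.reciprocity_of_top_br S hpS hζ inv' hne
    (hrec_of_levels_div0 (fun q => Local.invOfBr q.1 (inv' q)) invFam hJ hβ)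

end Fermat.Agent.S55.RecipBase20
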