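/-
S55 / 22f-DOUBLE-QUOT (helper66): inflation from a double quotient is a transition map.

For a group `G`, normal subgroups `V ≤ U`, a representation `A : Rep k G` and a normal subgroup
`N` of `G ⧸ V` whose preimage in `G` is `U`:
* the transition maps `trans₁`, `trans₂` of `LevelColim49` are Mathlib's `groupCohomology.map`;
* `Hⁿ((G ⧸ V) ⧸ N, (A^V)^N) ≅ Hⁿ(G ⧸ U, A^U)` (`dqIso`);
* under this identification the inflation `H²((G ⧸ V) ⧸ N, (A^V)^N) ⟶ H²(G ⧸ V, A^V)`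
  (`LocInv80.Abs.infl`) is the transition map `trans₂` (`infl_eq_trans₂`);
* corollary in the shape needed to transport "every class of `H²(L/K)` is unramified" from a finite
  Galois group to the level cohomology of `LevelColim49` (`exists_trans₂_eq`).
Complete (no holes).
-/
import Mathlib
import Fermat.Agent.S55.LevelColim49.Colim
import Fermat.Agent.S55.LocInv80.Abs

set_option autoImplicit false

universe u

open CategoryTheory groupCohomology

noncomputable section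

namespace Fermat.Agent.S55.DoubleQuot66

open Fermat.Agent.S55.LevelColim49 Fermat.Agent.S55.LocInv80

variable {k G : Type u} [CommRing k] [Group G] (A : Rep.{u, u, u} k G)

section Trans

variable {U V : Subgroup G} [U.Normal] [V.Normal] (hVU : V ≤ U)

/-- the inclusion `A^U → A^V` as a morphism of `G ⧸ V`-representations. -/
def inclHom : Rep.res (proj hVU) (layer A U) ⟶ layer A V :=
  Rep.ofHom ⟨inclLayer A hVU, fun g => QuotientGroup.induction_on g fun g => by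
    ext x
    rfl⟩

@[simp] lemma inclHom_apply (x : layer A U) :
    (inclHom A hVU).hom x = inclLayer A hVU x := rfl

/-- **(DQ0)** the transition map `trans₂` is Mathlib's functoriality map. -/
theorem trans₂_apply (x : H2 (layer A U)) :
    trans₂ A hVU x = (groupCohomology.map (proj hVU) (inclHom A hVU) 2).hom x := by
  obtain ⟨c, rfl⟩ := ProfinGlobal22.H2π_surjective (layer A U) x
  rw [trans₂_H2π, H2π_comp_map_apply]
  congr 1

/-- **(DQ0)** the transition map `trans₁` is Mathlib's functoriality map. -/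
theorem trans₁_apply (x : H1 (layer A U)) :
    trans₁ A hVU x = (groupCohomology.map (proj hVU) (inclHom A hVU) 1).hom x := by
  obtain ⟨c, rfl⟩ := ProfinGlobal22.H1π_surjective (layer A U) x
  rw [trans₁_H1π, H1π_comp_map_apply]
  congr 1

end Trans

section Double

variable {U V : Subgroup G} [U.Normal] [V.Normal] {N : Subgroup (G ⧸ V)} [N.Normal]
  (hN : ∀ g : G, (g : G ⧸ V) ∈ N ↔ g ∈ U)

omit [U.Normal] [N.Normal] in
include hN in
/-- the preimage condition forces `V ≤ U`. -/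
theorem le_of_mem_iff : V ≤ U := fun g hg => (hN g).1 (by
  rw [(QuotientGroup.eq_one_iff g).2 hg]
  exact one_mem N)

/-- `(G ⧸ V) ⧸ N → G ⧸ U`. -/
def toQuot : (G ⧸ V) ⧸ N →* G ⧸ U :=
  QuotientGroup.lift N (proj (le_of_mem_iff hN)) (fun n hn => by
    obtain ⟨g, rfl⟩ := QuotientGroup.mk_surjective n
    rw [MonoidHom.mem_ker, proj_mk]
    exact (QuotientGroup.eq_one_iff g).2 ((hN g).1 hn))

/-- `G ⧸ U → (G ⧸ V) ⧸ N`. -/
def ofQuot : G ⧸ U →* (G ⧸ V) ⧸ N :=
  QuotientGroup.lift U ((QuotientGroup.mk' N).comp (QuotientGroup.mk' V)) (fun g hg => by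
    rw [MonoidHom.mem_ker]
    exact (QuotientGroup.eq_one_iff _).2 ((hN g).2 hg))

/-- **(DQ1)** `(G ⧸ V) ⧸ N ≃* G ⧸ U` when `U` is the preimage of `N`. -/
def quotEquiv : (G ⧸ V) ⧸ N ≃* G ⧸ U where
  toFun := toQuot hN
  invFun := ofQuot hN
  left_inv x := by
    obtain ⟨y, rfl⟩ := QuotientGroup.mk_surjective x
    obtain ⟨g, rfl⟩ := QuotientGroup.mk_surjective y
    rfl
  right_inv x := by
    obtain ⟨g, rfl⟩ := QuotientGroup.mk_surjective x
    rfl
  map_mul' := map_mul _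

@[simp] theorem quotEquiv_mk (g : G) :
    quotEquiv hN (((g : G ⧸ V) : (G ⧸ V) ⧸ N)) = (g : G ⧸ U) := rfl

@[simp] theorem quotEquiv_symm_mk (g : G) :
    (quotEquiv hN).symm (g : G ⧸ U) = (((g : G ⧸ V) : (G ⧸ V) ⧸ N)) := rfl

theorem quotEquiv_comp_mk :
    (quotEquiv hN : (G ⧸ V) ⧸ N →* G ⧸ U).comp (QuotientGroup.mk' N) =
      proj (le_of_mem_iff hN) := by
  ext x
  rfl

/-- **(DQ1)** `(A^V)^N ≃ A^U`. -/
def invEquiv : ((layer A V).quotientToInvariants N).V ≃ₗ[k] (layer A U).V where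
  toFun x := ⟨incl A V (x : layer A V), fun s => by
    have h := x.2 ⟨((s : G) : G ⧸ V), (hN s).2 s.2⟩
    exact congrArg (incl A V) h⟩
  invFun y := ⟨inclLayer A (le_of_mem_iff hN) y, fun n => by
    obtain ⟨n, hn⟩ := n
    obtain ⟨g, rfl⟩ := QuotientGroup.mk_surjective n
    apply Subtype.ext
    exact incl_fixed A U y g ((hN g).1 hn)⟩
  map_add' _ _ := rfl
  map_smul' _ _ := rfl
  left_inv _ := rfl
  right_inv _ := rfl

@[simp] theorem incl_invEquiv (x : ((layer A V).quotientToInvariants N).V) :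
    incl A U (invEquiv A hN x) = incl A V (x : layer A V) := rfl

theorem invEquiv_comm (g : (G ⧸ V) ⧸ N) :
    (invEquiv A hN).toLinearMap ∘ₗ ((layer A V).quotientToInvariants N).ρ g =
      (layer A U).ρ (quotEquiv hN g) ∘ₗ (invEquiv A hN).toLinearMap := by
  obtain ⟨y, rfl⟩ := QuotientGroup.mk_surjective g
  obtain ⟨g, rfl⟩ := QuotientGroup.mk_surjective y
  ext x
  rfl

/-- **(DQ2)** `Hⁿ((G ⧸ V) ⧸ N, (A^V)^N) ≅ Hⁿ(G ⧸ U, A^U)`. -/
def dqIso (n : ℕ) :
    groupCohomology ((layer A V).quotientToInvariants N) n ≅ groupCohomology (layer A U) n :=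
  groupCohomology.mapIso (quotEquiv hN) (invEquiv A hN) (invEquiv_comm A hN) n

/-- inflation from the double quotient, composed with the identification `dqIso`, is Mathlib's
functoriality map along `G ⧸ V → G ⧸ U`. -/
theorem dqIso_inv_comp_infl :
    (dqIso A hN 2).inv ≫ Abs.infl (layer A V) N =
      groupCohomology.map (proj (le_of_mem_iff hN)) (inclHom A (le_of_mem_iff hN)) 2 := by
  rw [dqIso, mapIso_inv, Abs.infl, ← map_comp]
  exact map_congr (quotEquiv_comp_mk hN) rfl 2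

/-- **(DQ3)** inflation from the double quotient is the transition map `trans₂`. -/
theorem infl_dqIso_inv (hVU : V ≤ U) (x : H2 (layer A U)) :
    (Abs.infl (layer A V) N).hom ((dqIso A hN 2).inv.hom x) = trans₂ A hVU x := by
  rw [trans₂_apply]
  have h := dqIso_inv_comp_infl A hN
  exact congrArg (fun f => f.hom x) h

/-- **(DQ3)** the same, starting from the double quotient. -/
theorem infl_eq_trans₂ (hVU : V ≤ U) (y : H2 ((layer A V).quotientToInvariants N)) :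
    (Abs.infl (layer A V) N).hom y = trans₂ A hVU ((dqIso A hN 2).hom.hom y) := by
  rw [← infl_dqIso_inv A hN hVU]
  congr 1
  exact (congrArg (fun f => f.hom y) (dqIso A hN 2).hom_inv_id).symm

end Double

section Corollary

variable {U₁ U₂ V : Subgroup G} [U₁.Normal] [U₂.Normal] [V.Normal]
  {N₁ N₂ : Subgroup (G ⧸ V)} [N₁.Normal] [N₂.Normal]
  (hN₁ : ∀ g : G, (g : G ⧸ V) ∈ N₁ ↔ g ∈ U₁) (hN₂ : ∀ g : G, (g : G ⧸ V) ∈ N₂ ↔ g ∈ U₂)

include hN₁ hN₂ in
/-- **(DQ4)** if inside `H²(G ⧸ V, A^V)` the inflations from `(G ⧸ V) ⧸ N₁` are inflations from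
`(G ⧸ V) ⧸ N₂`, then every class of `H²(G ⧸ U₁, A^U₁)` becomes, at the level `V`, the transition of a
class of `H²(G ⧸ U₂, A^U₂)`. -/
theorem exists_trans₂_eq (hV₁ : V ≤ U₁) (hV₂ : V ≤ U₂)
    (h : ∀ y₁ : H2 ((layer A V).quotientToInvariants N₁),
      ∃ y₂ : H2 ((layer A V).quotientToInvariants N₂),
        (Abs.infl (layer A V) N₂).hom y₂ = (Abs.infl (layer A V) N₁).hom y₁)
    (x : H2 (layer A U₁)) : ∃ y : H2 (layer A U₂), trans₂ A hV₁ x = trans₂ A hV₂ y := by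
  obtain ⟨y₂, hy₂⟩ := h ((dqIso A hN₁ 2).inv.hom x)
  refine ⟨(dqIso A hN₂ 2).hom.hom y₂, ?_⟩
  rw [← infl_dqIso_inv A hN₁ hV₁, ← hy₂, infl_eq_trans₂ A hN₂ hV₂]

include hN₁ hN₂ in
/-- **(DQ4)** the same from an equivalence `ψ` compatible with inflation (the output shape of
`LocInv80.Abs.exists_equiv`). -/
theorem exists_trans₂_eq_of_equiv (hV₁ : V ≤ U₁) (hV₂ : V ≤ U₂)
    (ψ : H2 ((layer A V).quotientToInvariants N₂) ≃ₗ[k] H2 ((layer A V).quotientToInvariants N₁))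
    (hψ : ∀ y, (Abs.infl (layer A V) N₁).hom (ψ y) = (Abs.infl (layer A V) N₂).hom y) :
    (∀ x : H2 (layer A U₁), ∃ y : H2 (layer A U₂), trans₂ A hV₁ x = trans₂ A hV₂ y) ∧
      (∀ y : H2 (layer A U₂), ∃ x : H2 (layer A U₁), trans₂ A hV₂ y = trans₂ A hV₁ x) := by
  constructor
  · refine exists_trans₂_eq A hN₁ hN₂ hV₁ hV₂ (fun y₁ => ⟨ψ.symm y₁, ?_⟩)
    rw [← hψ, LinearEquiv.apply_symm_apply]
  · refine exists_trans₂_eq A hN₂ hN₁ hV₂ hV₁ (fun y₂ => ⟨ψ y₂, hψ y₂⟩)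

end Corollary

section Transport

variable {Q : Type u} [Group Q] {B B' : Rep.{u, u, u} k Q}

/-- inflation is natural in the coefficient module (Mathlib's `infNatTrans`, elementwise). -/
theorem infl_naturality (φ : B ⟶ B') (N : Subgroup Q) [N.Normal]
    (y : H2 (B.quotientToInvariants N)) :
    (Abs.infl B' N).hom (((Rep.quotientToInvariantsFunctor k N ⋙
        groupCohomology.functor k (Q ⧸ N) 2).map φ).hom y) =
      ((groupCohomology.functor k Q 2).map φ).hom ((Abs.infl B N).hom y) :=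
  congrArg (fun g => g.hom y) ((groupCohomology.infNatTrans k N 2).naturality φ)

/-- **transport** of the statement "inflations from `Q ⧸ N₁` are inflations from `Q ⧸ N₂`" along an
isomorphism of coefficient modules (e.g. `unitsRep Q M ≅ layer A U_M`). -/
theorem exists_infl_eq_of_iso (f : B ≅ B') {N₁ N₂ : Subgroup Q} [N₁.Normal] [N₂.Normal]
    (h : ∀ y₁ : H2 (B.quotientToInvariants N₁), ∃ y₂ : H2 (B.quotientToInvariants N₂),
      (Abs.infl B N₂).hom y₂ = (Abs.infl B N₁).hom y₁)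
    (y₁ : H2 (B'.quotientToInvariants N₁)) : ∃ y₂ : H2 (B'.quotientToInvariants N₂),
      (Abs.infl B' N₂).hom y₂ = (Abs.infl B' N₁).hom y₁ := by
  set F₁ := Rep.quotientToInvariantsFunctor k N₁ ⋙ groupCohomology.functor k (Q ⧸ N₁) 2
  set F₂ := Rep.quotientToInvariantsFunctor k N₂ ⋙ groupCohomology.functor k (Q ⧸ N₂) 2
  obtain ⟨y₂, hy₂⟩ := h ((F₁.map f.inv).hom y₁)
  refine ⟨(F₂.map f.hom).hom y₂, ?_⟩
  rw [infl_naturality f.hom N₂ y₂, hy₂, ← infl_naturality f.hom N₁]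
  congr 1
  exact congrArg (fun g => g.hom y₁) (F₁.mapIso f).inv_hom_id

end Transport

section Level

open Fermat.Agent.S55.Profin15

variable (𝒰 : LevelStr G) {U₁ U₂ V : Subgroup G} [U₁.Normal] [U₂.Normal] [V.Normal]

/-- two layer classes with the same transition to a common smaller level have the same inflation to
level cohomology. -/
theorem infl₂_eq_of_trans₂_eq (hU₁ : U₁ ∈ 𝒰.levels) (hU₂ : U₂ ∈ 𝒰.levels) (hV : V ∈ 𝒰.levels)
    (hV₁ : V ≤ U₁) (hV₂ : V ≤ U₂) {x : H2 (layer A U₁)} {y : H2 (layer A U₂)}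
    (h : trans₂ A hV₁ x = trans₂ A hV₂ y) : infl₂ A 𝒰 hU₁ x = infl₂ A 𝒰 hU₂ y := by
  rw [← infl₂_trans₂ A 𝒰 hU₁ hV hV₁, ← infl₂_trans₂ A 𝒰 hU₂ hV hV₂, h]

/-- **(B2) in level form**: if inside `H²(G ⧸ V, A^V)` the inflations from `(G ⧸ V) ⧸ N₁` are
inflations from `(G ⧸ V) ⧸ N₂` (`Uᵢ` = preimage of `Nᵢ`), then every class of `H²(G ⧸ U₁, A^U₁)` has the
same image in the level cohomology `𝒰.H2 A` as some class of `H²(G ⧸ U₂, A^U₂)`. -/
theorem exists_infl₂_eq {N₁ N₂ : Subgroup (G ⧸ V)} [N₁.Normal] [N₂.Normal]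
    (hN₁ : ∀ g : G, (g : G ⧸ V) ∈ N₁ ↔ g ∈ U₁) (hN₂ : ∀ g : G, (g : G ⧸ V) ∈ N₂ ↔ g ∈ U₂)
    (hU₁ : U₁ ∈ 𝒰.levels) (hU₂ : U₂ ∈ 𝒰.levels) (hV : V ∈ 𝒰.levels)
    (h : ∀ y₁ : H2 ((layer A V).quotientToInvariants N₁),
      ∃ y₂ : H2 ((layer A V).quotientToInvariants N₂),
        (Abs.infl (layer A V) N₂).hom y₂ = (Abs.infl (layer A V) N₁).hom y₁)
    (x : H2 (layer A U₁)) : ∃ y : H2 (layer A U₂), infl₂ A 𝒰 hU₁ x = infl₂ A 𝒰 hU₂ y := by
  obtain ⟨y, hy⟩ := exists_trans₂_eq A hN₁ hN₂ (le_of_mem_iff hN₁) (le_of_mem_iff hN₂) h x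
  exact ⟨y, infl₂_eq_of_trans₂_eq A 𝒰 hU₁ hU₂ hV _ _ hy⟩

end Level

end Fermat.Agent.S55.DoubleQuot66
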