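/-
S55 / 51b-P3P4-LOCAL (helper85), file 2: THE LOCAL INVARIANT ON THE PRELUDE'S LOCAL GROUPS.

`q : Nat.Primes`.  helper28's model of `G_{ℚ_q}` is `GK ⊥ = ↥(⊥ : LF q).fixingSubgroup` with the
Krull levels `levelsK ⊥`; the consumers (helper70 `Recip70`, helper15/helper20 Route F,
helper99/helper33 35-LIM) work on `primeLocalGaloisGroup q` with the levels pulled back from `G_ℚ`
(`Recip70.locLevels q = Profin15.pullLevels (primeLocalToGlobal q)`).  Here:

* `botEquiv q : GK ⊥ ≃* primeLocalGaloisGroup q` (the subtype), `hlev q` (Krasner, via helper95's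
  `pullLevels_equiv`);
* **`localInv q hP : Recip70.Br q →+ QZ33.QZ`**, `localInv_injective`, **`local_hne`**
  (`∃ z : Br q, p • z = 0 ∧ localInv q hP z ≠ 0`), `localInv_carry` (the unramified formula for the
  carry cocycle of any multiple of a Frobenius character, on the Prelude's group);
* the same in Profin15 vocabulary: `localInv15 q hP : (locLevels q).H2 (Om q) →+ QZ33.QZ`, ….
The only hypothesis is helper28's `Main.PresCochain (⊥ : LF q)` (22a, in cochain form).
-/
import Fermat.Agent.S55.RecipLocal85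
import Fermat.Agent.S55.LocInv28.Main
import Fermat.Agent.S55.RecipGlobal20

set_option autoImplicit false
set_option linter.unusedSectionVars false
set_option linter.style.haveILetI false

open CategoryTheory groupCohomology ExtCitation
open Fermat.Agent.S55.Profin15 Fermat.Agent.S55.CDArith63
open Fermat.Agent.S55.LocInv28.Abstract Fermat.Agent.S55.LocInv28.Padic
open Fermat.Agent.S55.LocInv28.Main Fermat.Agent.S55.LocField17
open Fermat.Agent.S55.GlobalInv91 Fermat.Agent.S55.LocInv28.FrobChar

namespace Fermat.Agent.S55.RecipLocal85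

/-- local instance: the primes of `Nat.Primes` are prime (same term as in the Prelude) -/
local instance factPrimes85 (q : Nat.Primes) : Fact (q : ℕ).Prime := ⟨q.2⟩

section Local

variable (q : Nat.Primes)

/-- the base field `ℚ_q` as an element of `LF q`. -/
noncomputable abbrev K0 : LF (q : ℕ) := ⊥

/-- `Ωˣ` as a representation of the Prelude's local Galois group. -/
noncomputable abbrev Om : Rep.{0, 0, 0} ℤ (primeLocalGaloisGroup q) :=
  Rep.of (Recip70.omRep q)

theorem Om_eq : Om q = Rep.ofAlgebraAutOnUnits ℚ_[(q : ℕ)] (PadicAlgCl (q : ℕ)) := rfl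

/-- helper28's model of `G_{ℚ_q}` is the Prelude's local Galois group. -/
noncomputable def botEquiv : GK (K0 q) ≃* primeLocalGaloisGroup q :=
  MulEquiv.ofBijective (K0 q).fixingSubgroup.subtype
    ⟨Subtype.val_injective, fun σ => ⟨⟨σ, by
      rw [IntermediateField.fixingSubgroup_bot]; exact Subgroup.mem_top σ⟩, rfl⟩⟩

@[simp] theorem botEquiv_apply (g : GK (K0 q)) :
    botEquiv q g = (g : PadicAlgCl (q : ℕ) ≃ₐ[ℚ_[(q : ℕ)]] PadicAlgCl (q : ℕ)) := rfl

theorem coe_botEquiv :
    ((botEquiv q : GK (K0 q) ≃* primeLocalGaloisGroup q) : GK (K0 q) →* primeLocalGaloisGroup q) =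
      (K0 q).fixingSubgroup.subtype := rfl

/-- **Krasner** (helper95/helper81): the levels pulled back from `G_ℚ` are the Krull levels. -/
theorem hlev : KummerBr95.LevelEquiv
    ((Recip70.locLevels q).comap ((botEquiv q : GK (K0 q) ≃* primeLocalGaloisGroup q) :
      GK (K0 q) →* primeLocalGaloisGroup q)) (levelsK (K0 q)) :=
  (KummerBr95.pullLevels_equiv q).comap _

/-! ### helper70's vocabulary: `Recip70.Br q` -/

section Br

variable (hP : PresCochain (K0 q))

/-- helper28's local invariant datum at the base field `ℚ_q`. -/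
noncomputable abbrev datum0 : InvDatum (levelsK (K0 q)) (AK (K0 q)) :=
  padicDatum (K0 q) (levelsK (K0 q)) (goodLevels_levelsK (K0 q))

/-- **THE LOCAL INVARIANT** `inv_q : Br(ℚ_q) → ℚ/ℤ` on helper70's `Recip70.Br q`. -/
noncomputable def localInv : Recip70.Br q →+ QZ33.QZ :=
  inv63 (botEquiv q) (Recip70.locLevels q) (levelsK (K0 q)) (hlev q) (Recip70.omRep q)
    (D := datum0 q) (isLocalInv_of_presCochain (K0 q) hP)

theorem localInv_injective : Function.Injective (localInv q hP) :=
  inv63_injective (botEquiv q) (Recip70.locLevels q) (levelsK (K0 q)) (hlev q) (Recip70.omRep q)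
    (D := datum0 q) (isLocalInv_of_presCochain (K0 q) hP)

/-- **`hne`**: a `p`-torsion class of `Br q` with non-zero invariant (the unramified class of
degree `p` and valuation `1`; invariant `1/p`). -/
theorem local_hne (p : ℕ) (hp : 1 < p) :
    ∃ z : Recip70.Br q, p • z = 0 ∧ localInv q hP z ≠ 0 := by
  obtain ⟨a, ha⟩ := vK_surjective (K0 q) 1
  refine exists_ne63 (botEquiv q) (Recip70.locLevels q) (levelsK (K0 q)) (hlev q)
    (Recip70.omRep q) (D := datum0 q) (isLocalInv_of_presCochain (K0 q) hP) p (by omega) a ?_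
  show ¬ ((p : ℤ) ∣ vK (K0 q) a)
  rw [ha]
  intro h
  have := Int.le_of_dvd one_pos h
  omega

end Br

/-! ### helper15/helper20/helper69's vocabulary: `(pullLevels r_q).H2 (RecipGlobal20.Om q)` -/

section P15

variable (hP : PresCochain (K0 q))

/-- **THE LOCAL INVARIANT** on `(pullLevels (primeLocalToGlobal q)).H2 (RecipGlobal20.Om q)`. -/
noncomputable def localInv15 :
    (pullLevels (primeLocalToGlobal q)).H2 (RecipGlobal20.Om q) →+ QZ33.QZ :=
  inv15 (botEquiv q) (pullLevels (primeLocalToGlobal q)) (levelsK (K0 q)) (hlev q)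
    (RecipGlobal20.Om q) (D := datum0 q) (isLocalInv_of_presCochain (K0 q) hP)

theorem localInv15_injective : Function.Injective (localInv15 q hP) :=
  inv15_injective (botEquiv q) (pullLevels (primeLocalToGlobal q)) (levelsK (K0 q)) (hlev q)
    (RecipGlobal20.Om q) (D := datum0 q) (isLocalInv_of_presCochain (K0 q) hP)

/-- **`hne`**, Profin15 vocabulary (the literal binder of helper69's `RecipLoc69.Hloc.hloc_of_hne`
and of helper15's `Recip15.reciprocity_of_hβto_inv`). -/
theorem local_hne15 (p : ℕ) (hp : 1 < p) :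
    ∃ z : (pullLevels (primeLocalToGlobal q)).H2 (RecipGlobal20.Om q),
      p • z = 0 ∧ localInv15 q hP z ≠ 0 := by
  obtain ⟨a, ha⟩ := vK_surjective (K0 q) 1
  refine exists_ne15 (botEquiv q) (pullLevels (primeLocalToGlobal q)) (levelsK (K0 q)) (hlev q)
    (RecipGlobal20.Om q) (D := datum0 q) (isLocalInv_of_presCochain (K0 q) hP) p (by omega) a ?_
  show ¬ ((p : ℤ) ∣ vK (K0 q) a)
  rw [ha]
  intro h
  have := Int.le_of_dvd one_pos h
  omega

/-- the two vocabularies carry THE SAME invariant (`Adapter63.equiv` = helper15's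
`Recip15.Local.brEquiv q`, identity on cocycles). -/
theorem localInv_eq_localInv15 (z : Recip70.Br q) :
    localInv q hP z =
      localInv15 q hP (Adapter63.equiv (pullLevels (primeLocalToGlobal q)) (RecipGlobal20.Om q) z) :=
  rfl

end P15

/-! ### The unramified formula on the Prelude's group -/

section Carry

variable (hP : PresCochain (K0 q))

/-- the Frobenius character of degree `n` on the Prelude's local Galois group
(`g ↦ i` iff `g z = z ^ (q ^ i)` on the roots of unity of order `q ^ n - 1`). -/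
noncomputable def frobCharQ (n : ℕ+) : primeLocalGaloisGroup q →* Multiplicative (ZMod n) :=
  (chi (K0 q) n).comp (botEquiv q).symm.toMonoidHom

theorem frobCharQ_botEquiv (n : ℕ+) (g : GK (K0 q)) :
    frobCharQ q n (botEquiv q g) = chi (K0 q) n g := by
  show chi (K0 q) n ((botEquiv q).symm (botEquiv q g)) = _
  rw [MulEquiv.symm_apply_apply]

/-- the valuation `ord_q` on `((ℚ̄_q)ˣ)^{G_q} = ℚ_qˣ`. -/
noncomputable def vQ : invts (RecipGlobal20.Om q) →+ ℤ :=
  (vK (K0 q)).comp (resInvts ((botEquiv q : GK (K0 q) ≃* primeLocalGaloisGroup q) :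
    GK (K0 q) →* primeLocalGaloisGroup q))

/-- **the unramified formula**: for a character `ψ = c · Frob_n` of the Prelude's local group and
`a ∈ ℚ_qˣ`: `inv_q [δψ ∪ a] = c * ord_q a / n`. -/
theorem localInv15_carry (n : ℕ+) (ψ : primeLocalGaloisGroup q →* Multiplicative (ZMod n)) (c : ℕ)
    (hψ : ∀ g : primeLocalGaloisGroup q, chiVal ψ g = (c : ZMod n) * chiVal (frobCharQ q n) g)
    (a : invts (RecipGlobal20.Om q))
    (hmem : carry (RecipGlobal20.Om q) ψ (a : RecipGlobal20.Om q) ∈
      (pullLevels (primeLocalToGlobal q)).Z₂ (RecipGlobal20.Om q)) :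
    localInv15 q hP ((pullLevels (primeLocalToGlobal q)).H2π (RecipGlobal20.Om q)
        ⟨carry (RecipGlobal20.Om q) ψ (a : RecipGlobal20.Om q), hmem⟩) =
      frac ((c : ℤ) * vQ q a) n :=
  inv15_carry (botEquiv q) (pullLevels (primeLocalToGlobal q)) (levelsK (K0 q)) (hlev q)
    (RecipGlobal20.Om q) (D := datum0 q) (isLocalInv_of_presCochain (K0 q) hP) n ψ c
    (fun g => by
      rw [hψ (botEquiv q g)]
      exact congrArg (fun z : Multiplicative (ZMod n) => (c : ZMod n) * Multiplicative.toAdd z)
        (frobCharQ_botEquiv q n g)) a hmem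

include hP in
/-- the class `[δψ ∪ a]` vanishes iff `n ∣ c * ord_q a`. -/
theorem H2π_carry_eq_zero_iff_local (n : ℕ+)
    (ψ : primeLocalGaloisGroup q →* Multiplicative (ZMod n)) (c : ℕ)
    (hψ : ∀ g : primeLocalGaloisGroup q, chiVal ψ g = (c : ZMod n) * chiVal (frobCharQ q n) g)
    (a : invts (RecipGlobal20.Om q))
    (hmem : carry (RecipGlobal20.Om q) ψ (a : RecipGlobal20.Om q) ∈
      (pullLevels (primeLocalToGlobal q)).Z₂ (RecipGlobal20.Om q)) :
    (pullLevels (primeLocalToGlobal q)).H2π (RecipGlobal20.Om q)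
        ⟨carry (RecipGlobal20.Om q) ψ (a : RecipGlobal20.Om q), hmem⟩ = 0 ↔
      ((n : ℕ) : ℤ) ∣ (c : ℤ) * vQ q a := by
  rw [← frac_eq_zero_iff, ← localInv15_carry q hP n ψ c hψ a hmem]
  constructor
  · intro h; rw [h, map_zero]
  · intro h
    exact localInv15_injective q hP (by rw [h, map_zero])

end Carry

end Local

end Fermat.Agent.S55.RecipLocal85
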