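/-
S55 / 51b-P3P4-LOCAL (helper85), file 3: THE VALUATION OF THE BASE FIELD.

`LocField17.ord (⊥ : LF q)` is the `q`-adic valuation: `ord ⊥ (algebraMap x) = x.valuation`, hence
on rational numbers `= padicValRat q b`.  Consequently the valuation `vQ q` of `RecipLocal85b` (the
`v` of the local invariant datum at the base field, on the Prelude's group) is computed on `ℚ_qˣ`
and on `ℚˣ`: `vQ_ofQq`, `vQ_ofRat`.  This is the input `(H1)` of the tower sum formula
(`μT q n b = frac (c_q * padicValRat q b) (p^n)`).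
-/
import Fermat.Agent.S55.RecipLocal85b

set_option autoImplicit false
set_option linter.unusedSectionVars false
set_option linter.style.haveILetI false

open CategoryTheory groupCohomology ExtCitation
open Fermat.Agent.S55.Profin15
open Fermat.Agent.S55.LocInv28.Abstract Fermat.Agent.S55.LocInv28.Padic
open Fermat.Agent.S55.LocInv28.Main Fermat.Agent.S55.LocField17

namespace Fermat.Agent.S55.RecipLocal85

/-! ### `ord ⊥` is the `q`-adic valuation -/

section Val

variable {q : ℕ} [Fact q.Prime]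

/-- the norm of an element of the base field. -/
theorem norm_algebraMap_bot (x : ℚ_[q]) :
    ‖((algebraMap ℚ_[q] (⊥ : LF q) x : (⊥ : LF q)) : PadicAlgCl q)‖ = ‖x‖ :=
  PadicAlgCl.norm_extends q x

/-- `q` is a uniformizer of the base field. -/
theorem isUnif_bot : IsUnif (⊥ : LF q) (algebraMap ℚ_[q] (⊥ : LF q) (q : ℚ_[q])) := by
  have hq0 : (q : ℚ_[q]) ≠ 0 := by exact_mod_cast (Fact.out : q.Prime).ne_zero
  refine ⟨by rw [Ne, map_eq_zero]; exact hq0, ?_, ?_⟩
  · rw [norm_algebraMap_bot]; exact Padic.norm_p_lt_one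
  · intro x hx
    obtain ⟨y, hy⟩ := IntermediateField.mem_bot.1 x.2
    have hxy : ‖((x : (⊥ : LF q)) : PadicAlgCl q)‖ = ‖y‖ := by
      rw [← hy]; exact PadicAlgCl.norm_extends q y
    rw [hxy] at hx ⊢
    rw [norm_algebraMap_bot, Padic.norm_p]
    have h := (Padic.norm_le_pow_iff_norm_lt_pow_add_one y (-1)).2 (by simpa using hx)
    simpa [zpow_neg] using h

theorem unifNorm_bot : unifNorm (⊥ : LF q) = (q : ℝ)⁻¹ := by
  rw [← (isUnif_bot (q := q)).norm_eq, norm_algebraMap_bot, Padic.norm_p]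

/-- **`ord ⊥` is the `q`-adic valuation.** -/
theorem ord_bot_algebraMap (x : ℚ_[q]) (hx : x ≠ 0) :
    ord (⊥ : LF q) (algebraMap ℚ_[q] (⊥ : LF q) x) = x.valuation := by
  have hx' : algebraMap ℚ_[q] (⊥ : LF q) x ≠ 0 := by rw [Ne, map_eq_zero]; exact hx
  rw [ord_eq_iff hx', norm_algebraMap_bot, unifNorm_bot, Padic.norm_eq_zpow_neg_valuation hx,
    inv_zpow', ]

theorem ord_bot_ratCast (b : ℚ) (hb : b ≠ 0) :
    ord (⊥ : LF q) (algebraMap ℚ_[q] (⊥ : LF q) (b : ℚ_[q])) = padicValRat q b := by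
  rw [ord_bot_algebraMap _ (by exact_mod_cast hb), Padic.valuation_ratCast]

end Val

/-! ### `vQ` on `ℚ_qˣ` and on `ℚˣ` -/

section VQ

/-- local instance: the primes of `Nat.Primes` are prime (same term as in the Prelude) -/
local instance factPrimes85c (q : Nat.Primes) : Fact (q : ℕ).Prime := ⟨q.2⟩

variable (q : Nat.Primes)

/-- the `G_q`-invariant element of `(ℚ̄_q)ˣ` attached to a unit of `ℚ_q`, additive in `x`. -/
noncomputable def ofQq : Additive ℚ_[(q : ℕ)]ˣ →+ invts (RecipGlobal20.Om q) where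
  toFun x := ⟨(Additive.ofMul (Units.map
      (algebraMap ℚ_[(q : ℕ)] (PadicAlgCl (q : ℕ)) : ℚ_[(q : ℕ)] →* PadicAlgCl (q : ℕ))
      (Additive.toMul x)) : Additive (PadicAlgCl (q : ℕ))ˣ), fun g => by
    apply (Additive.toMul (α := (PadicAlgCl (q : ℕ))ˣ)).injective
    apply Units.ext
    exact (show PadicAlgCl (q : ℕ) ≃ₐ[ℚ_[(q : ℕ)]] PadicAlgCl (q : ℕ) from g).commutes _⟩
  map_zero' := by
    apply Subtype.ext
    show (Additive.ofMul (Units.map _ (1 : ℚ_[(q : ℕ)]ˣ)) : Additive (PadicAlgCl (q : ℕ))ˣ) = 0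
    rw [map_one]; rfl
  map_add' x y := by
    apply Subtype.ext
    show (Additive.ofMul (Units.map _ (Additive.toMul x * Additive.toMul y)) :
      Additive (PadicAlgCl (q : ℕ))ˣ) = _
    rw [map_mul]; rfl

/-- **`vQ` on `ℚ_qˣ` is the `q`-adic valuation.** -/
theorem vQ_ofQq (x : ℚ_[(q : ℕ)]ˣ) :
    vQ q (ofQq q (Additive.ofMul x)) = (x : ℚ_[(q : ℕ)]).valuation := by
  rw [← ord_bot_algebraMap (x : ℚ_[(q : ℕ)]) x.ne_zero]
  rfl

/-- **`vQ` on `ℚˣ` is `padicValRat q`.** -/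
theorem vQ_ofRat (b : ℚˣ) :
    vQ q (ofQq q (Additive.ofMul (Units.map (Rat.castHom ℚ_[(q : ℕ)]).toMonoidHom b))) =
      padicValRat q (b : ℚ) := by
  rw [vQ_ofQq]
  exact Padic.valuation_ratCast (b : ℚ)

end VQ

end Fermat.Agent.S55.RecipLocal85
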