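/-
S55 / 51b-P3P4-LOCAL (helper85), FINAL file: THE LOCAL INVARIANT, UNCONDITIONAL.

`pres` is a theorem (helper51 `LocDev51.Pres.presCochain`; spare: helper71
`P2Local71.presCochain`), so the hypothesis `hP : PresCochain ⊥` of `RecipLocal85b` is discharged:

* **`brInv q : Recip70.Br q →+ QZ33.QZ`**, `brInv_injective`,
  **`brInv_hne q p : ∃ z : Recip70.Br q, p • z = 0 ∧ brInv q z ≠ 0`**      (helper70's vocabulary);
* **`omInv q : (pullLevels (primeLocalToGlobal q)).H2 (RecipGlobal20.Om q) →+ QZ33.QZ`**,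
  `omInv_injective`, **`omInv_hne q p`**, `brInv_eq_omInv`                 (Profin15 vocabulary);
* `omInv_carry` (unramified formula), `omInv_carry_rat` (on rational numbers, with `padicValRat`),
  `H2π_carry_eq_zero_iff_om`.
-/
import Fermat.Agent.S55.RecipLocal85c
import Fermat.Agent.S55.LocDev51.Pres

set_option autoImplicit false
set_option linter.unusedSectionVars false
set_option linter.style.haveILetI false

open CategoryTheory groupCohomology ExtCitation
open Fermat.Agent.S55.Profin15 Fermat.Agent.S55.CDArith63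
open Fermat.Agent.S55.LocInv28.Abstract Fermat.Agent.S55.LocInv28.Padic
open Fermat.Agent.S55.LocInv28.Main Fermat.Agent.S55.LocField17
open Fermat.Agent.S55.GlobalInv91

namespace Fermat.Agent.S55.RecipLocal85

/-- local instance: the primes of `Nat.Primes` are prime (same term as in the Prelude) -/
local instance factPrimes85f (q : Nat.Primes) : Fact (q : ℕ).Prime := ⟨q.2⟩

variable (q : Nat.Primes)

/-- `pres` at the base field `ℚ_q` (helper51). -/
theorem presCochain0 : PresCochain (K0 q) := LocDev51.Pres.presCochain (K0 q)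

/-! ### helper70's vocabulary -/

/-- **THE LOCAL INVARIANT** `inv_q : Br(ℚ_q) → ℚ/ℤ` on `Recip70.Br q`, unconditional. -/
noncomputable def brInv : Recip70.Br q →+ QZ33.QZ := localInv q (presCochain0 q)

theorem brInv_injective : Function.Injective (brInv q) := localInv_injective q (presCochain0 q)

/-- **`hne`** (`hz` of `Recip70.Inst.reciprocity_of_JS_QZ`, `hne` of
`Recip15.Local.reciprocity_of_top_br` / `Recip15.reciprocity_of_hβto_br`). -/
theorem brInv_hne (p : ℕ) [Fact p.Prime] :
    ∃ z : Recip70.Br q, p • z = 0 ∧ brInv q z ≠ 0 :=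
  local_hne q (presCochain0 q) p (Fact.out : p.Prime).one_lt

/-! ### Profin15 vocabulary -/

/-- **THE LOCAL INVARIANT** on `(pullLevels (primeLocalToGlobal q)).H2 (RecipGlobal20.Om q)`,
unconditional. -/
noncomputable def omInv :
    (pullLevels (primeLocalToGlobal q)).H2 (RecipGlobal20.Om q) →+ QZ33.QZ :=
  localInv15 q (presCochain0 q)

theorem omInv_injective : Function.Injective (omInv q) :=
  localInv15_injective q (presCochain0 q)

/-- **`hne`** (the binder of `RecipLoc69.Hloc.hloc_of_hne`, `RecipLoc69.OmSmooth.hne_kumS`,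
`Recip15.reciprocity_of_hβto_inv`). -/
theorem omInv_hne (p : ℕ) [Fact p.Prime] :
    ∃ z : (pullLevels (primeLocalToGlobal q)).H2 (RecipGlobal20.Om q),
      p • z = 0 ∧ omInv q z ≠ 0 :=
  local_hne15 q (presCochain0 q) p (Fact.out : p.Prime).one_lt

/-- the two vocabularies carry THE SAME invariant. -/
theorem brInv_eq_omInv (z : Recip70.Br q) :
    brInv q z =
      omInv q (Adapter63.equiv (pullLevels (primeLocalToGlobal q)) (RecipGlobal20.Om q) z) := rfl

/-- **the unramified formula**: for `ψ = c · Frob_n` and `a ∈ ℚ_qˣ`: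
`inv_q [δψ ∪ a] = c * ord_q a / n`. -/
theorem omInv_carry (n : ℕ+) (ψ : primeLocalGaloisGroup q →* Multiplicative (ZMod n)) (c : ℕ)
    (hψ : ∀ g : primeLocalGaloisGroup q, chiVal ψ g = (c : ZMod n) * chiVal (frobCharQ q n) g)
    (a : invts (RecipGlobal20.Om q))
    (hmem : carry (RecipGlobal20.Om q) ψ (a : RecipGlobal20.Om q) ∈
      (pullLevels (primeLocalToGlobal q)).Z₂ (RecipGlobal20.Om q)) :
    omInv q ((pullLevels (primeLocalToGlobal q)).H2π (RecipGlobal20.Om q)
        ⟨carry (RecipGlobal20.Om q) ψ (a : RecipGlobal20.Om q), hmem⟩) =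
      frac ((c : ℤ) * vQ q a) n :=
  localInv15_carry q (presCochain0 q) n ψ c hψ a hmem

/-- the unramified formula on rational numbers: `inv_q [δψ ∪ b] = c * v_q(b) / n`. -/
theorem omInv_carry_rat (n : ℕ+) (ψ : primeLocalGaloisGroup q →* Multiplicative (ZMod n)) (c : ℕ)
    (hψ : ∀ g : primeLocalGaloisGroup q, chiVal ψ g = (c : ZMod n) * chiVal (frobCharQ q n) g)
    (b : ℚˣ)
    (hmem : carry (RecipGlobal20.Om q) ψ
        ((ofQq q (Additive.ofMul (Units.map (Rat.castHom ℚ_[(q : ℕ)]).toMonoidHom b)) :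
          invts (RecipGlobal20.Om q)) : RecipGlobal20.Om q) ∈
      (pullLevels (primeLocalToGlobal q)).Z₂ (RecipGlobal20.Om q)) :
    omInv q ((pullLevels (primeLocalToGlobal q)).H2π (RecipGlobal20.Om q) ⟨_, hmem⟩) =
      frac ((c : ℤ) * padicValRat q (b : ℚ)) n := by
  rw [omInv_carry q n ψ c hψ _ hmem, vQ_ofRat]

/-- the class `[δψ ∪ a]` vanishes iff `n ∣ c * ord_q a`. -/
theorem H2π_carry_eq_zero_iff_om (n : ℕ+)
    (ψ : primeLocalGaloisGroup q →* Multiplicative (ZMod n)) (c : ℕ)
    (hψ : ∀ g : primeLocalGaloisGroup q, chiVal ψ g = (c : ZMod n) * chiVal (frobCharQ q n) g)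
    (a : invts (RecipGlobal20.Om q))
    (hmem : carry (RecipGlobal20.Om q) ψ (a : RecipGlobal20.Om q) ∈
      (pullLevels (primeLocalToGlobal q)).Z₂ (RecipGlobal20.Om q)) :
    (pullLevels (primeLocalToGlobal q)).H2π (RecipGlobal20.Om q)
        ⟨carry (RecipGlobal20.Om q) ψ (a : RecipGlobal20.Om q), hmem⟩ = 0 ↔
      ((n : ℕ) : ℤ) ∣ (c : ℤ) * vQ q a :=
  H2π_carry_eq_zero_iff_local q (presCochain0 q) n ψ c hψ a hmem

end Fermat.Agent.S55.RecipLocal85
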