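/-
S55 / **P3P4 = `Contract34.Reciprocity p S`, UNCONDITIONAL** (`p` odd, `p ∈ S`) (helper20, final
assembly of ROUTE F on top of helper15's `Recip15` endpoint).

`reciprocity hp2 hpS : Contract34.Reciprocity p S` =
`RecipBase20.reciprocity_of_levels_div0_br` with
* `inv' q := (twistU hp2 q.1).comp (brInv q.1)` (helper85's local invariant, twisted by helper37's
  `p`-adic unit at `p`; `hne` from `brInv_hne` + `twistU_injective`),
* `invFam := Recip15.HJ.invFam S (fun i q => locSysU q i.1) (twistU hp2) qzProj qzProj_one`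
  (helper15; = `toH2top (totalSysU hp2 i.1 S)`),
* `hJ` := helper15 `HJ.invFam_inlLev` with `hB` := helper93 `UnrExt93.locSys_top_eq_omInv`,
* `hβ` := `RecipBase20.hβ_totalSysU`.
-/
import Fermat.Agent.S55.RecipBase20
import Fermat.Agent.S55.RecipBase20.Beta
import Fermat.Agent.S55.UnrExt93.LocSysTop
import Fermat.Agent.S55.RecipLocal85Final

set_option autoImplicit false
set_option linter.unusedSectionVars false
set_option linter.style.haveILetI false

open CategoryTheory groupCohomology ExtCitation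
open Fermat.Agent.S55.Profin15 Fermat.Agent.S55.Profin15.LevelStr
open Fermat.Agent.S55.Contract34
open Fermat.Agent.S55.CS79.FamilyCS Fermat.Agent.S55.CS79.FamilyMaps
open Fermat.Agent.S55.CS79.LevelClass
open Fermat.Agent.S55.LimDesc99 Fermat.Agent.S55.Idele73.Basic
open Fermat.Agent.S55.Recip15 Fermat.Agent.S55.Recip15.Family
open Fermat.Agent.S55.Recip15.Ev Fermat.Agent.S55.Recip15.RouteI
open Fermat.Agent.S55.GlobalMod94.JS
open Fermat.Agent.S55.CycloRecip37 Fermat.Agent.S55.CycloRecip37.RecT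
  Fermat.Agent.S55.CycloRecip37.Uncond Fermat.Agent.S55.CycloRecip37.SysH2
  Fermat.Agent.S55.CycloRecip37.TowerRecip
open Fermat.Agent.S55.FrobSys98.Tame
open Fermat.Agent.S55.RecipLocal85

namespace Fermat.Agent.S55.RecipFinal20

variable {p : ℕ} [hp : Fact p.Prime] {S : Finset Nat.Primes}

attribute [local instance] Fermat.Agent.S55.Recip15.SysJ.findim

/-- the renormalised local invariants: helper85's `brInv`, twisted by the `p`-adic unit at `p` -/
noncomputable def invTw (hp2 : p ≠ 2) (q : ↥S) : Recip70.Br q.1 →+ QZ33.QZ :=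
  (twistU hp2 q.1).comp (brInv q.1)

theorem invTw_hne (hp2 : p ≠ 2) (q : ↥S) :
    ∃ z : Recip70.Br q.1, p • z = 0 ∧ invTw (S := S) hp2 q z ≠ 0 := by
  obtain ⟨z, hz, hne⟩ := brInv_hne q.1 p
  refine ⟨z, hz, fun h0 => hne ?_⟩
  apply twistU_injective hp2 q.1
  rw [map_zero]
  exact h0

/-- **(P3)+(P4) = `Contract34.Reciprocity p S`, UNCONDITIONAL** (`p` odd, `p ∈ S`). -/
theorem reciprocity (hp2 : p ≠ 2) (hpS : pPrime p ∈ S) : Reciprocity p S := by
  obtain ⟨ζ₀, hζ₀⟩ := Fermat.Agent.S55.Adapt77.Leaf33Final.exists_primitiveRoot p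
  obtain ⟨ζ, rfl⟩ := hζ₀.isUnit hp.out.ne_zero
  have hζ : IsPrimitiveRoot ζ p := IsPrimitiveRoot.coe_units_iff.1 hζ₀
  refine RecipBase20.reciprocity_of_levels_div0_br hpS hζ (invTw hp2) (invTw_hne hp2)
    (HJ.invFam S (fun i q => locSysU q i.1) (twistU hp2) qzProj qzProj_one) ?_ ?_
  · intro i x
    rw [HJ.invFam_inlLev S (fun i q => locSysU q i.1) (twistU hp2) qzProj qzProj_one
      (fun q => omInv q.1)
      (fun i q g hg z hz => Fermat.Agent.S55.UnrExt93.locSys_top_eq_omInv q.1 i.1
        (KummerBr95.localPres q.1) g hg z hz) i x]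
    refine Finset.sum_congr rfl fun q _ => ?_
    show _ = twistU hp2 q.1 (brInv q.1 ((Local.brEquiv q.1).symm _))
    rw [brInv_eq_omInv]
    congr 2
    exact ((Local.brEquiv q.1).apply_symm_apply _).symm
  · intro i e n he hd
    exact RecipBase20.hβ_totalSysU hp2 hpS i e n he hd

end Fermat.Agent.S55.RecipFinal20
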