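/-
S55 (helper20): seam test + convenience wrapper for the integrator (helper33):
the frozen S55 statement from the ONE remaining arithmetic input
`hAll : ∀ p odd, ∀ S ∋ p, LimDesc99.A3.AllCore p S`, the reciprocity law (P3P4) being discharged by
`RecipFinal20.reciprocity`.  (= `Final33h.s55_of_allCore` with `P34` plugged; joint import of the
closures of `Final33h` and `RecipFinal20`.)
-/
import Fermat.Agent.S55.Final33h
import Fermat.Agent.S55.RecipFinal20

set_option autoImplicit false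

open CategoryTheory Module groupCohomology ExtCitation

namespace Fermat.Agent.S55.RecipFinal20

open Fermat.Agent.S55

/-- the literal plug `P34` of `Final33*` / `R3Arith52` -/
theorem p34 : ∀ (p : ℕ) [Fact p.Prime], p ≠ 2 → ∀ S : Finset Nat.Primes, pPrime p ∈ S →
    Contract34.Reciprocity p S :=
  fun _ _ hp2 _ hpS => reciprocity hp2 hpS

section

variable {p : ℕ} [Fact p.Prime] (hp2 : p ≠ 2) (S : Finset Nat.Primes) (hpS : pPrime p ∈ S)
  (M : Rep (ZMod p) (AlgebraicClosure ℚ ≃ₐ[ℚ] AlgebraicClosure ℚ))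
  [FiniteDimensional (ZMod p) M]
  (hsm : ∀ m : M, ∃ F : IntermediateField ℚ (AlgebraicClosure ℚ), FiniteDimensional ℚ F ∧
    ∀ s ∈ F.fixingSubgroup, M.ρ s m = m)
  (hMur : ∀ q : Nat.Primes, q ∉ S → ∀ A : ValuationSubring (AlgebraicClosure ℚ),
    A.LiesOverPrime (q : ℕ) → ∀ g ∈ A.inertiaSubgroupIn ℚ, M.ρ g = 1)

include hp2 hpS hsm hMur

/-- the frozen statement from `AllCore` alone -/
theorem s55_of_allCore_only
    (hAll : ∀ (p : ℕ) [Fact p.Prime], p ≠ 2 → ∀ S : Finset Nat.Primes, pPrime p ∈ S →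
      LimDesc99.A3.AllCore p S) :
    ∃ B : sha₁ S (M.dualTwist (cycloChar p)) →ₗ[ZMod p] sha₂ S M →ₗ[ZMod p] ZMod p,
      (∀ y, (∀ x, B y x = 0) → y = 0) ∧ (∀ x, (∀ y, B y x = 0) → x = 0) :=
  Final33h.s55_of_allCore hp2 S hpS M hsm hMur hAll p34

end

end Fermat.Agent.S55.RecipFinal20
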