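/-
S55 / 36e (helper72), (T5): transfer of the limit formation datum from the TRUE class module
`C_S = coker (Q_Sˣ → J_S × I^S)` (the module whose finite levels are the class modules `C_S(L)` of
the finite-level theory: 31/32/33/35 in the D2 model) to `C'_S = J_S / E_S`, the module of
helper63's `CDArith63.P1Chain.HasFormationDatum`.

`HasClassFormationDatum p S V hV` is `HasFormationDatum` with `C'_S`, `πCS` replaced by `C_S`,
`j ↦ [(j, 0)]`.  `hasFormationDatum_of_class` : for `p ∈ S` it implies `HasFormationDatum`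
(class-number finiteness + `p`-capitulation: `ClassData72`).
-/
import Mathlib
import Fermat.Agent.S55.ClassData72
import Fermat.Agent.S55.S1Limit41.Transfer
import Fermat.Agent.S55.CDArith63.P1Chain
import Fermat.Agent.S55.P1Lim62.Datum
import Fermat.Agent.S55.CS79.CofinalCS

set_option autoImplicit false
set_option linter.style.haveILetI false
set_option linter.unusedSectionVars false
set_option linter.unusedVariables false

open CategoryTheory groupCohomology ExtCitation

namespace Fermat.Agent.S55.ClassFormation72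

open Fermat.Agent.S55.Profin15 Fermat.Agent.S55.Profin15.LevelStr Fermat.Agent.S55.CD3
open Fermat.Agent.S55.CDArith63 Fermat.Agent.S55.CDArith63.Adapter
open Fermat.Agent.S55.CDArith63.P1Chain
open Fermat.Agent.S55.ESDiv20 Fermat.Agent.S55.ESRep20 Fermat.Agent.S55.GlobalMod94.JS
open Fermat.Agent.S55.CS79.DivLimit Fermat.Agent.S55.CS79.Restrict
open Fermat.Agent.S55.ClassData72 Fermat.Agent.S55.QZ33
open Fermat.Agent.S55.S1Limit41.Transfer

variable (p : ℕ) [hp : Fact p.Prime] (S : Finset Nat.Primes)
variable (V : Subgroup GQ) (hV : IsOpenSub (globalLevels S) V)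

/-- `j ↦ [(j, 0)] : J_S → C_S`, restricted to `V` -/
noncomputable abbrev aV :=
  resLin (A := JSp S) (B := CSl S) V.subtype (aLin (diagJ S) (divLim S))

theorem aV_equivariant : IsEquivariant (aV S V) :=
  ((classData S).equivariant_a).res V.subtype

/-- **THE LIMIT FORMATION DATUM FOR THE TRUE CLASS MODULE at an open subgroup `V`**:
`P1Chain.HasFormationDatum` with `C'_S = J_S/E_S`, `πCS` replaced by
`C_S = coker (Q_Sˣ → J_S × I^S)`, `j ↦ [(j, 0)]`. -/
def HasClassFormationDatum : Prop :=
  ∃ (W : Type) (_ : Fintype W) (_ : Nonempty W)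
    (invJ : W → ((restrictLevels (globalLevels S) V hV).H2 (Rep.res V.subtype (JSp S)) →+ QZ))
    (invC : (restrictLevels (globalLevels S) V hV).H2 (Rep.res V.subtype (CSl S)) →+ QZ),
    (∀ (x : (restrictLevels (globalLevels S) V hV).H2 (Rep.res V.subtype (JSp S))) (n : ℕ),
      (p ^ n) • x = 0 → (∀ w, invJ w x = 0) → x = 0) ∧
    (∀ (t : W → QZ) (n : ℕ), (∀ w, (p ^ n) • t w = 0) →
      ∃ x : (restrictLevels (globalLevels S) V hV).H2 (Rep.res V.subtype (JSp S)),
        (p ^ n) • x = 0 ∧ ∀ w, invJ w x = t w) ∧
    (∀ (y : (restrictLevels (globalLevels S) V hV).H2 (Rep.res V.subtype (CSl S))) (n : ℕ),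
      (p ^ n) • y = 0 → invC y = 0 → y = 0) ∧
    (∀ x : (restrictLevels (globalLevels S) V hV).H2 (Rep.res V.subtype (JSp S)),
      invC ((restrictLevels (globalLevels S) V hV).H2map (aV S V) (aV_equivariant S V) x) =
        ∑ w, invJ w x) ∧
    (∀ (y : (restrictLevels (globalLevels S) V hV).H1 (Rep.res V.subtype (CSl S))) (n : ℕ),
      (p ^ n) • y = 0 → y = 0) ∧
    H3TorsVan (restrictLevels (globalLevels S) V hV) p (resSub (canρ (JSp S)) V)


variable {p S}

/-- `0 → C'_S → C_S → Cl_S → 0` restricted to `V` -/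
theorem shortExactV :
    ShortExact (A := Rep.res V.subtype (CSp S)) (B := Rep.res V.subtype (CSl S))
      (C := Rep.res V.subtype (ClS S))
      (resLin (A := CSp S) (B := CSl S) V.subtype (phi S))
      (resLin (A := CSl S) (B := ClS S) V.subtype (psi S)) :=
  (shortExact S).res V.subtype

theorem isSmooth_CSlV :
    (restrictLevels (globalLevels S) V hV).IsSmooth (Rep.res V.subtype (CSl S)) :=
  isSmooth_res (isSmooth_CSl S) hV

theorem isPrimeToP_ClSV (hpS : pPrime p ∈ S) :
    ClassLimit72.IsPrimeToP p (Rep.res V.subtype (ClS S)) :=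
  isPrimeToP_ClS S hpS

/-- `π'` restricted to `V` -/
noncomputable abbrev πV :=
  resLin (A := JSp S) (B := CSp S) V.subtype (πCS S).hom.toLinearMap

theorem πV_equivariant : IsEquivariant (πV (S := S) V) :=
  (LevelStr.isEquivariant_hom (πCS S)).res V.subtype

theorem phi_comp_π :
    (resLin (A := CSp S) (B := CSl S) V.subtype (phi S)) ∘ₗ (πV (S := S) V) = aV S V :=
  LinearMap.ext fun j => phi_πCS S j

/-- `H²(φ) ∘ H²(π') = H²(a)` over `V` -/
theorem H2map_phi_H2map_π
    (x : (restrictLevels (globalLevels S) V hV).H2 (Rep.res V.subtype (JSp S))) :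
    (restrictLevels (globalLevels S) V hV).H2map
        (resLin (A := CSp S) (B := CSl S) V.subtype (phi S))
        (shortExactV (S := S) V).equivariant_left
        ((restrictLevels (globalLevels S) V hV).H2map (πV (S := S) V)
          (πV_equivariant (S := S) V) x) =
      (restrictLevels (globalLevels S) V hV).H2map (aV S V) (aV_equivariant S V) x := by
  rw [← H2map_comp]
  have key : ∀ (f g : Rep.res V.subtype (JSp S) →ₗ[ℤ] Rep.res V.subtype (CSl S))
      (hf : IsEquivariant f) (hg : IsEquivariant g), f = g →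
      (restrictLevels (globalLevels S) V hV).H2map f hf x =
        (restrictLevels (globalLevels S) V hV).H2map g hg x := by
    intro f g hf hg hfg
    subst hfg
    rfl
  exact key _ _ _ _ (phi_comp_π (S := S) V)

/-- **(T5) transfer of the limit formation datum from the true class module `C_S` to
`C'_S = J_S / E_S`** (`p ∈ S`): class-number finiteness and `p`-capitulation enter here. -/
theorem hasFormationDatum_of_class (hpS : pPrime p ∈ S)
    (h : HasClassFormationDatum p S V hV) : HasFormationDatum p S V hV := by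
  obtain ⟨W, hW, hne, invJ, invC, hinj, hsurj, hinjC, hcompat, hH1C, hH3J⟩ := h
  refine ⟨W, hW, hne, invJ,
    invC' (restrictLevels (globalLevels S) V hV) (shortExactV (S := S) V) invC,
    hinj, hsurj, ?_, ?_, ?_, hH3J⟩
  · intro y n hy h0
    exact hinvC_primary_of_class (restrictLevels (globalLevels S) V hV) (shortExactV (S := S) V)
      (isSmooth_CSlV (S := S) V hV) (isPrimeToP_ClSV (S := S) V hpS) invC hinjC y n hy h0
  · intro x
    rw [invC'_apply]
    rw [← hcompat x]
    exact congrArg invC (H2map_phi_H2map_π (S := S) V hV x)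
  · intro y n hy
    exact hC1_primary_of_class (restrictLevels (globalLevels S) V hV) (shortExactV (S := S) V)
      (isSmooth_CSlV (S := S) V hV) (isPrimeToP_ClSV (S := S) V hpS) hH1C y n hy


/-! ### the class-module form of helper62's component assembly -/

section Components

open Fermat.Agent.S55.P1Lim62.Datum

/-- **the limit formation datum for the true class module from component data** (same binders as
`P1Lim62.Datum.hasFormationDatum_of_components`, with `C'_S`, `πCS` replaced by `C_S`,
`j ↦ [(j, 0)]`). -/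
theorem hasClassFormationDatum_of_components
    (D : ∀ q : ↥S, CompDatum p S V hV q) (w₀ : Places D)
    (invC : (restrictLevels (globalLevels S) V hV).H2 (Rep.res V.subtype (CSl S)) →+ QZ)
    (hinjC : ∀ (y : (restrictLevels (globalLevels S) V hV).H2 (Rep.res V.subtype (CSl S)))
      (n : ℕ), (p ^ n) • y = 0 → invC y = 0 → y = 0)
    (hrecC : ∀ x : (restrictLevels (globalLevels S) V hV).H2 (Rep.res V.subtype (JSp S)),
      invC ((restrictLevels (globalLevels S) V hV).H2map (aV S V) (aV_equivariant S V) x) =
      ∑ q : ↥S, ∑ w : (D q).W, (D q).inv w ((D q).loc w (prH2 S V hV q x)))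
    (hH1C : ∀ (y : (restrictLevels (globalLevels S) V hV).H1 (Rep.res V.subtype (CSl S)))
      (n : ℕ), (p ^ n) • y = 0 → y = 0)
    (hH3J : ∀ q : ↥S, H3TorsVan (restrictLevels (globalLevels S) V hV) p
      (resSub (canρ (JSq S ((q : Nat.Primes) : ℕ))) V)) :
    HasClassFormationDatum p S V hV := by
  refine ⟨Places D, inferInstance, ⟨w₀⟩, invJ D, invC, invJ_inj D, invJ_surj D, hinjC, ?_, hH1C,
    ?_⟩
  · intro x
    rw [hrecC x, Fintype.sum_sigma]
    rfl
  · exact Pieces.h3TorsVan_piObj_resSub (globalLevels S) p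
      (fun q : ↥S => JSq S ((q : Nat.Primes) : ℕ)) V hV hH3J

/-- **`HasFormationDatum` from component data with the class-formation inputs on the true class
module `C_S`.** -/
theorem hasFormationDatum_of_class_components (hpS : pPrime p ∈ S)
    (D : ∀ q : ↥S, CompDatum p S V hV q) (w₀ : Places D)
    (invC : (restrictLevels (globalLevels S) V hV).H2 (Rep.res V.subtype (CSl S)) →+ QZ)
    (hinjC : ∀ (y : (restrictLevels (globalLevels S) V hV).H2 (Rep.res V.subtype (CSl S)))
      (n : ℕ), (p ^ n) • y = 0 → invC y = 0 → y = 0)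
    (hrecC : ∀ x : (restrictLevels (globalLevels S) V hV).H2 (Rep.res V.subtype (JSp S)),
      invC ((restrictLevels (globalLevels S) V hV).H2map (aV S V) (aV_equivariant S V) x) =
      ∑ q : ↥S, ∑ w : (D q).W, (D q).inv w ((D q).loc w (prH2 S V hV q x)))
    (hH1C : ∀ (y : (restrictLevels (globalLevels S) V hV).H1 (Rep.res V.subtype (CSl S)))
      (n : ℕ), (p ^ n) • y = 0 → y = 0)
    (hH3J : ∀ q : ↥S, H3TorsVan (restrictLevels (globalLevels S) V hV) p
      (resSub (canρ (JSq S ((q : Nat.Primes) : ℕ))) V)) :
    HasFormationDatum p S V hV :=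
  hasFormationDatum_of_class V hV hpS
    (hasClassFormationDatum_of_components V hV D w₀ invC hinjC hrecC hH1C hH3J)

end Components

/-! ### `hH1C` for the true class module from the two inequalities (helper79 `CofinalCS`) -/

section H1

open Fermat.Agent.S55.CS79.CofinalCS

/-- **`hH1C`**: the `p`-primary part of `H¹(V, C_S)` vanishes for every open `V ≤ V₀`, from the two
inequalities at the finite levels (`CofinalCS.IneqOut`, leaves 31 + 32c-B). -/
theorem hH1C_of_ineqOut (hS : S.Nonempty) {L₀ : IntermediateField ℚ (AlgebraicClosure ℚ)}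
    (hL₀ : L₀.IsUnramifiedOutside S) {V₀ : Subgroup GQ} (h : IneqOut S p L₀ V₀)
    (hVV₀ : V ≤ V₀)
    (y : (restrictLevels (globalLevels S) V hV).H1 (Rep.res V.subtype (CSl S)))
    (n : ℕ) (hy : (p ^ n) • y = 0) : y = 0 :=
  h1PrimaryVanishes_CS_res hS hL₀ h V hV hVV₀ y ⟨n, hy⟩

/-- the conjunct (5) of `HasFormationDatum` (for `C'_S = J_S/E_S`), from the two inequalities. -/
theorem hH1C'_of_ineqOut (hpS : pPrime p ∈ S) {L₀ : IntermediateField ℚ (AlgebraicClosure ℚ)}
    (hL₀ : L₀.IsUnramifiedOutside S) {V₀ : Subgroup GQ} (h : IneqOut S p L₀ V₀)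
    (hVV₀ : V ≤ V₀)
    (y : (restrictLevels (globalLevels S) V hV).H1 (Rep.res V.subtype (CSp S)))
    (n : ℕ) (hy : (p ^ n) • y = 0) : y = 0 :=
  hC1_primary_of_class (restrictLevels (globalLevels S) V hV) (shortExactV (S := S) V)
    (isSmooth_CSlV (S := S) V hV) (isPrimeToP_ClSV (S := S) V hpS)
    (hH1C_of_ineqOut V hV (⟨_, hpS⟩ : S.Nonempty) hL₀ h hVV₀) y n hy

end H1


/-! ### (P1) from the class-module datum -/

/-- **the arithmetic input of (P1)** from the limit formation datum of the true class module -/
theorem globalH3Base_of_class (hpS : pPrime p ∈ S)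
    (h : ∀ (V : Subgroup GQ) (hV : IsOpenSub (globalLevels S) V), Global.MuTriv p V →
      HasClassFormationDatum p S V hV) :
    CD3.GlobalH3Base p S :=
  globalH3Base_of_datum hpS fun V hV hmu => hasFormationDatum_of_class V hV hpS (h V hV hmu)

/-- **(P1) `Contract34.GlobalRightExact p S`, literally, from the limit formation datum of the true
class module.** -/
theorem globalRightExact_of_class (hpS : pPrime p ∈ S)
    (h : ∀ (V : Subgroup GQ) (hV : IsOpenSub (globalLevels S) V), Global.MuTriv p V →
      HasClassFormationDatum p S V hV) :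
    Contract34.GlobalRightExact p S :=
  globalRightExact_of_datum hpS fun V hV hmu => hasFormationDatum_of_class V hV hpS (h V hV hmu)

end Fermat.Agent.S55.ClassFormation72
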