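/-
S55 / leaf 34-CYCLO-RECIP, half (A) (helper78): EXISTENCE OF AUXILIARY PRIMES.

For an odd prime `p`, `k ≥ 1`, an integer `u₀` which is not a `p`-th power in `ℚ` (e.g. `u₀ = p`), and
any finite set `T` of natural numbers, there is a prime `ℓ ∉ T` with `ℓ ≡ 1 mod p^k` such that `u₀` is
NOT a `p`-th power modulo `ℓ`:

  `exists_aux_prime`, `exists_aux_prime_self` (`u₀ = p`).

Consequently the image of `u₀` in the cyclic group `(ℤ/ℓ)ˣ / (p^k-th powers)` (of order `p^k`) is a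
generator: this is the single Kummer/Chebotarev condition used in the reduction of the reciprocity
law `∑_v inv_v = 0` on `Br(ℚ)[p^∞]` to classes split by ONE tame cyclic cyclotomic field and by the
cyclotomic `ℤ_p`-tower (report of helper78 on leaf 34).

Proof: `K = ℚ(ζ_{p^k})` contains `ζ_p`; `u₀` is not a `p`-th power in `K` (an abelian extension of `ℚ`
cannot contain `ℚ(u₀^{1/p})`, `not_pow_of_isAbelianGalois`); by the density package of S14
(`Split27.nonRes_density`, `Euler23`, `Euler92`, `Split13`, exactly as wired in `S14/DensWire27`) the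
degree-one primes `Q ∤ p` of `K` modulo which `u₀` is a non-residue have positive lower Dirichlet
density, hence are infinite (`nonResSet_infinite`); for such a `Q`, `ℓ = N(Q)` is a prime
`≡ 1 mod p^k` (`absNorm_mod_eq_one`) and `u₀` is a non-residue mod `ℓ`.

Complete proofs; imports Mathlib + the landed S14 closure only.
-/
import Mathlib
import Fermat.Agent.S14.DensFinal27

set_option autoImplicit false

open NumberField IsDedekindDomain Ideal Polynomial IntermediateField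
open Fermat.Agent.S14 Fermat.Agent.S14.Split27

namespace Fermat.Agent.S55.AuxPrime78

/-! ### Part 1: `p`-th powers in abelian extensions -/

theorem isPrimitiveRoot_of_prime' {R : Type*} [CommRing R] [IsDomain R] {p : ℕ} (hp : p.Prime)
    {η : R} (h1 : η ^ p = 1) (hne : η ≠ 1) : IsPrimitiveRoot η p := by
  classical
  exact isPrimitiveRoot_of_mem_nthRootsFinset hp ((mem_nthRootsFinset hp.pos 1).2 h1) hne

/-- Core: an intermediate field `F` of `K/k`, Galois over `k` of odd prime degree `p`, cannot contain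
a `p`-th root of an element of `k` which is not a `p`-th power, when `Φ_p` is irreducible over `k`. -/
theorem false_of_galois_degree_p {p : ℕ} (hp : p.Prime) (hp2 : p ≠ 2)
    {k K : Type*} [Field k] [Field K] [Algebra k K] [NeZero (p : k)]
    (hcyc : Irreducible (cyclotomic p k))
    (F : IntermediateField k K) [FiniteDimensional k F] [IsGalois k F]
    (hrank : Module.finrank k F = p) (u₀ : k) (hnot : ¬ ∃ v : k, v ^ p = u₀)
    (v' : F) (hv' : v' ^ p = algebraMap k F u₀) : False := by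
  have hv0 : v' ≠ 0 := by
    intro h0
    rw [h0, zero_pow hp.ne_zero] at hv'
    apply hnot
    refine ⟨0, ?_⟩
    rw [zero_pow hp.ne_zero]
    apply (algebraMap k F).injective
    rw [map_zero]; exact hv'
  have hmove : ∃ σ : F ≃ₐ[k] F, σ v' ≠ v' := by
    by_contra hcon
    push Not at hcon
    have hmem : v' ∈ (⊥ : IntermediateField k F) := by
      rw [IsGalois.mem_bot_iff_fixed]
      exact hcon
    obtain ⟨r, hr⟩ := IntermediateField.mem_bot.1 hmem
    apply hnot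
    refine ⟨r, ?_⟩
    apply (algebraMap k F).injective
    rw [map_pow, hr, hv']
  obtain ⟨σ, hσ⟩ := hmove
  set ζ : F := σ v' / v' with hζdef
  have hζp : ζ ^ p = 1 := by
    rw [hζdef, div_pow, ← map_pow, hv', AlgEquiv.commutes, div_self]
    rw [← hv']; exact pow_ne_zero _ hv0
  have hζ1 : ζ ≠ 1 := by
    intro h
    apply hσ
    rw [hζdef, div_eq_one_iff_eq hv0] at h
    exact h
  have hprim : IsPrimitiveRoot ζ p := isPrimitiveRoot_of_prime' hp hζp hζ1
  have hint : IsIntegral k ζ := Algebra.IsIntegral.isIntegral ζ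
  have h1 : Module.finrank k k⟮ζ⟯ = p.totient := by
    rw [IntermediateField.adjoin.finrank hint, ← hprim.minpoly_eq_cyclotomic_of_irreducible hcyc,
      natDegree_cyclotomic]
  have h2 : Module.finrank k k⟮ζ⟯ ∣ Module.finrank k F :=
    ⟨_, (Module.finrank_mul_finrank k k⟮ζ⟯ F).symm⟩
  rw [h1, hrank, Nat.totient_prime hp] at h2
  have h3 := (Nat.dvd_prime hp).1 h2
  have := hp.two_le
  omega

/-- If `u₀ ∈ k` is not a `p`-th power in `k` (`p` an odd prime, `Φ_p` irreducible over `k`), then it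
is not a `p`-th power in any abelian extension `K` of `k`. -/
theorem not_pow_of_isAbelianGalois {p : ℕ} (hp : p.Prime) (hp2 : p ≠ 2)
    {k : Type*} [Field k] [NeZero (p : k)] (hcyc : Irreducible (cyclotomic p k))
    (K : Type*) [Field K] [Algebra k K] [IsAbelianGalois k K] (u₀ : k)
    (hnot : ¬ ∃ v : k, v ^ p = u₀) : ¬ ∃ v : K, v ^ p = algebraMap k K u₀ := by
  rintro ⟨v, hv⟩
  have hirr : Irreducible (X ^ p - C u₀ : k[X]) :=
    X_pow_sub_C_irreducible_of_prime hp (fun b hb => hnot ⟨b, hb⟩)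
  have hmonic : (X ^ p - C u₀ : k[X]).Monic := monic_X_pow_sub_C _ hp.ne_zero
  have hroot : aeval v (X ^ p - C u₀ : k[X]) = 0 := by simp [hv]
  have hmin : minpoly k v = X ^ p - C u₀ :=
    (minpoly.eq_of_irreducible_of_monic hirr hroot hmonic).symm
  have hint : IsIntegral k v := ⟨_, hmonic, by simpa [aeval_def] using hroot⟩
  have hFrank : Module.finrank k k⟮v⟯ = p := by
    rw [IntermediateField.adjoin.finrank hint, hmin, natDegree_X_pow_sub_C]
  have : FiniteDimensional k k⟮v⟯ := IntermediateField.adjoin.finiteDimensional hint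
  have : IsGalois k k⟮v⟯ := (inferInstance : IsAbelianGalois k k⟮v⟯).toIsGalois
  refine false_of_galois_degree_p hp hp2 hcyc k⟮v⟯ hFrank u₀ hnot
    ⟨v, IntermediateField.mem_adjoin_simple_self k v⟩ ?_
  apply Subtype.ext
  simpa using hv

/-! ### Part 2: the S14 density package gives infinitely many non-residue primes -/

/-- The lower density bound of S14 (`DensWire27`), extracted as a statement on its own. -/
theorem exists_nonRes_lower_bound (K : Type) [Field K] [NumberField K] (p : ℕ) [Fact p.Prime]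
    (ζ : K) (hζ : IsPrimitiveRoot ζ p) (u : 𝓞 K) (hu0 : u ≠ 0)
    (hnot : ¬ ∃ v : K, v ^ p = (u : K)) :
    ∃ C : ℝ, ∀ s : ℝ, 1 < s → s ≤ 2 →
      (1 - 1 / (p : ℝ)) * Real.log (1 / (s - 1)) - C ≤ ∑' Q : nonResSet K p u, nrmPow K s Q := by
  have hpp : p.Prime := Fact.out
  have : NeZero p := ⟨hpp.ne_zero⟩
  obtain ⟨L, _, _, _, _, hdeg, β, σ, hβ, hσ⟩ := DensWire27.extHyp K p ζ hζ u hu0 hnot
  obtain ⟨CK, hCK⟩ := Euler23.exists_bound_tsum_pN K
  obtain ⟨CL, hCL⟩ := Euler23.exists_bound_tsum_pN L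
  have hK : ∃ C : ℝ, ∀ s : ℝ, 1 < s → s ≤ 2 →
      Summable (nrmPow K s) ∧ Real.log (1 / (s - 1)) - C ≤ ∑' Q, nrmPow K s Q := by
    refine ⟨CK, fun s hs1 hs2 => ⟨Euler23.summable_pN hs1, ?_⟩⟩
    have := (abs_le.mp (hCK s hs1 hs2)).1
    have h2 : ∑' Q : HeightOneSpectrum (𝓞 K), Euler23.pN Q s = ∑' Q, nrmPow K s Q := rfl
    linarith
  have hL : ∃ C : ℝ, ∀ s : ℝ, 1 < s → s ≤ 2 →
      Summable (nrmPow L s) ∧ ∑' P, nrmPow L s P ≤ Real.log (1 / (s - 1)) + C := by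
    refine ⟨CL, fun s hs1 hs2 => ⟨Euler23.summable_pN hs1, ?_⟩⟩
    have := (abs_le.mp (hCL s hs1 hs2)).2
    have h2 : ∑' Q : HeightOneSpectrum (𝓞 L), Euler23.pN Q s = ∑' Q, nrmPow L s Q := rfl
    linarith
  have hζ' : IsPrimitiveRoot hζ.toInteger p := hζ.toInteger_isPrimitiveRoot
  exact nonRes_density hdeg hζ' hu0 hβ σ hσ hK hL (DensWire27.e2Hyp K)

/-- Hence the set of non-residue degree-one primes is infinite. -/
theorem nonResSet_infinite (K : Type) [Field K] [NumberField K] (p : ℕ) [Fact p.Prime]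
    (ζ : K) (hζ : IsPrimitiveRoot ζ p) (u : 𝓞 K) (hu0 : u ≠ 0)
    (hnot : ¬ ∃ v : K, v ^ p = (u : K)) : (nonResSet K p u).Infinite := by
  intro hfin
  have hpp : p.Prime := Fact.out
  obtain ⟨C, hC⟩ := exists_nonRes_lower_bound K p ζ hζ u hu0 hnot
  have hp1 : (0 : ℝ) < 1 - 1 / (p : ℝ) := by
    have h2 : (2 : ℝ) ≤ p := by exact_mod_cast hpp.two_le
    have : 1 / (p : ℝ) ≤ 1 / 2 := by
      apply one_div_le_one_div_of_le <;> linarith
    linarith
  have hub : ∀ s : ℝ, 0 ≤ s →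
      ∑' Q : nonResSet K p u, nrmPow K s Q ≤ ((nonResSet K p u).ncard : ℝ) := by
    intro s hs
    rw [tsum_subtype (nonResSet K p u) (nrmPow K s)]
    exact tsum_indicator_le_ncard K hs hfin
  set N : ℝ := ((nonResSet K p u).ncard : ℝ) with hN
  set t : ℝ := (N + C + 1) / (1 - 1 / (p : ℝ)) with ht
  have ht' : (1 - 1 / (p : ℝ)) * t = N + C + 1 := by
    rw [ht]; field_simp
  have hN0 : (0 : ℝ) ≤ N := by positivity
  by_cases hC0 : 0 ≤ N + C + 1
  · have ht0 : 0 ≤ t := div_nonneg hC0 hp1.le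
    set s : ℝ := 1 + Real.exp (-t) with hs
    have hs1 : 1 < s := by rw [hs]; linarith [Real.exp_pos (-t)]
    have hs2 : s ≤ 2 := by
      rw [hs]
      have : Real.exp (-t) ≤ 1 := Real.exp_le_one_iff.2 (by linarith)
      linarith
    have hlog : Real.log (1 / (s - 1)) = t := by
      rw [hs]; simp [Real.log_exp]
    have h1 := hC s hs1 hs2
    have h2 := hub s (by linarith)
    rw [hlog, ht'] at h1
    linarith
  · have h1 := hC 2 (by norm_num) le_rfl
    have h2 := hub 2 (by norm_num)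
    have hlog : Real.log (1 / ((2 : ℝ) - 1)) = 0 := by norm_num
    rw [hlog] at h1
    push Not at hC0
    linarith

/-! ### Part 3: norms of primes of `ℚ(ζ_{p^k})` -/

/-- A prime `Q` of a number field containing a primitive `p^k`-th root of unity, with `p ∉ Q`,
has `N(Q) ≡ 1 mod p^k`. -/
theorem absNorm_mod_eq_one {K : Type*} [Field K] [NumberField K] {p k : ℕ} (hp : p.Prime)
    (hk : 0 < k) {ζ : 𝓞 K} (hζ : IsPrimitiveRoot ζ (p ^ k)) (Q : Ideal (𝓞 K)) [Q.IsPrime]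
    (hQ0 : Q ≠ ⊥) (hpQ : (p : 𝓞 K) ∉ Q) : Ideal.absNorm Q % p ^ k = 1 := by
  have : Q.IsMaximal := Ring.DimensionLEOne.maximalOfPrime hQ0 inferInstance
  letI : Field (𝓞 K ⧸ Q) := Ideal.Quotient.field Q
  have : Finite (𝓞 K ⧸ Q) := Ideal.finiteQuotientOfFreeOfNeBot Q hQ0
  letI : Fintype (𝓞 K ⧸ Q) := Fintype.ofFinite _
  set ζb : 𝓞 K ⧸ Q := Ideal.Quotient.mk Q ζ with hζb
  have hpow : ζb ^ (p ^ k) = 1 := by rw [hζb, ← map_pow, hζ.pow_eq_one, map_one]
  have hne : ζb ^ (p ^ (k - 1)) ≠ 1 := by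
    intro h
    apply hpQ
    have hζp : IsPrimitiveRoot (ζ ^ (p ^ (k - 1))) p := by
      apply hζ.pow (pow_pos hp.pos k)
      rw [← pow_succ]; congr 1; omega
    have hmem : ζ ^ (p ^ (k - 1)) - 1 ∈ Q := by
      rw [← Ideal.Quotient.eq_zero_iff_mem, map_sub, map_pow, map_one, ← hζb, h, sub_self]
    obtain ⟨m, hm⟩ : ∃ m, p = m + 1 := ⟨p - 1, by have := hp.two_le; omega⟩
    have hprod := IsPrimitiveRoot.prod_one_sub_pow_eq_order (R := 𝓞 K) (n := m)
      (μ := ζ ^ (p ^ (k - 1))) (by rw [← hm]; exact hζp)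
    have hm1 : 1 ≤ m := by have := hp.two_le; omega
    have hdvd : (1 - (ζ ^ (p ^ (k - 1))) ^ (0 + 1)) ∣
        ∏ j ∈ Finset.range m, (1 - (ζ ^ (p ^ (k - 1))) ^ (j + 1)) :=
      Finset.dvd_prod_of_mem _ (Finset.mem_range.2 (by omega))
    rw [hprod] at hdvd
    have hcast : ((m : 𝓞 K) + 1) = (p : 𝓞 K) := by rw [hm]; push_cast; ring
    rw [hcast, zero_add, pow_one] at hdvd
    have : (1 - ζ ^ (p ^ (k - 1))) ∈ Q := by
      have := Q.neg_mem hmem
      rwa [neg_sub] at this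
    exact Ideal.mem_of_dvd Q hdvd this
  have hζb0 : ζb ≠ 0 := by
    intro h0
    rw [h0, zero_pow (pow_pos hp.pos k).ne'] at hpow
    exact zero_ne_one hpow
  have hord : orderOf ζb = p ^ k := by
    have hk' : k = (k - 1) + 1 := by omega
    rw [hk']
    apply orderOf_eq_prime_pow (hp := ⟨hp⟩)
    · simpa using hne
    · rw [← hk']; exact hpow
  have hcard : Fintype.card (𝓞 K ⧸ Q) = Ideal.absNorm Q := by
    rw [Ideal.absNorm_apply, Submodule.cardQuot_apply, Nat.card_eq_fintype_card]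
  have hdvd : p ^ k ∣ Fintype.card (𝓞 K ⧸ Q) - 1 := by
    rw [← hord]
    have h1 : ζb ^ (Fintype.card (𝓞 K ⧸ Q) - 1) = 1 := FiniteField.pow_card_sub_one_eq_one ζb hζb0
    exact orderOf_dvd_of_pow_eq_one h1
  rw [hcard] at hdvd
  have hpos : 1 ≤ Ideal.absNorm Q := by
    rw [← hcard]; exact Fintype.card_pos
  have h2 : 2 ≤ p ^ k := by
    calc 2 ≤ p := hp.two_le
      _ = p ^ 1 := (pow_one p).symm
      _ ≤ p ^ k := Nat.pow_le_pow_right hp.pos hk
  obtain ⟨c, hc⟩ := hdvd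
  have : Ideal.absNorm Q = p ^ k * c + 1 := by omega
  rw [this, Nat.mul_add_mod, Nat.mod_eq_of_lt (by omega)]

/-! ### Part 4: assembly -/

/-- The auxiliary prime, for a cyclotomic field `K = ℚ(ζ_{p^k})` given as a parameter. -/
theorem exists_aux_prime_of_cyclotomic (p : ℕ) [Fact p.Prime] (hp2 : p ≠ 2) (k : ℕ) (hk : 0 < k)
    (K : Type) [Field K] [NumberField K] [IsCyclotomicExtension {p ^ k} ℚ K]
    (u₀ : ℤ) (hu : ¬ ∃ v : ℚ, v ^ p = (u₀ : ℚ)) (T : Finset ℕ) :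
    ∃ ℓ : ℕ, ℓ.Prime ∧ ℓ ∉ T ∧ ℓ % p ^ k = 1 ∧ ¬ ∃ x : ZMod ℓ, x ^ p = (u₀ : ZMod ℓ) := by
  have hp : p.Prime := Fact.out
  have hpk : NeZero (p ^ k) := ⟨(pow_pos hp.pos k).ne'⟩
  have hab : IsAbelianGalois ℚ K := IsCyclotomicExtension.isAbelianGalois {p ^ k} ℚ K
  -- primitive roots
  have hζk : IsPrimitiveRoot (IsCyclotomicExtension.zeta (p ^ k) ℚ K) (p ^ k) :=
    IsCyclotomicExtension.zeta_spec (p ^ k) ℚ K
  have hζkint : IsPrimitiveRoot hζk.toInteger (p ^ k) := hζk.toInteger_isPrimitiveRoot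
  have hζp : IsPrimitiveRoot ((IsCyclotomicExtension.zeta (p ^ k) ℚ K) ^ (p ^ (k - 1))) p := by
    apply hζk.pow (pow_pos hp.pos k)
    rw [← pow_succ]; congr 1; omega
  -- the element u
  set u : 𝓞 K := (u₀ : 𝓞 K) with hudef
  have hu0 : u₀ ≠ 0 := by
    rintro rfl
    exact hu ⟨0, by simp [hp.ne_zero]⟩
  have hu0' : u ≠ 0 := by
    rw [hudef]; exact_mod_cast hu0
  have hucoe : ((u : 𝓞 K) : K) = algebraMap ℚ K (u₀ : ℚ) := by
    rw [hudef]; simp
  have hnot : ¬ ∃ v : K, v ^ p = (u : K) := by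
    rw [hucoe]
    have : NeZero ((p : ℕ) : ℚ) := ⟨by exact_mod_cast hp.ne_zero⟩
    exact not_pow_of_isAbelianGalois hp hp2 (cyclotomic.irreducible_rat hp.pos) K (u₀ : ℚ) hu
  have hinf := nonResSet_infinite K p _ hζp u hu0' hnot
  -- primes of bounded norm are finitely many
  set B : ℕ := T.sup id with hB
  have hfin : {Q : HeightOneSpectrum (𝓞 K) | Ideal.absNorm Q.asIdeal ≤ B}.Finite := by
    have h1 : {I : Ideal (𝓞 K) | Ideal.absNorm I ≤ B}.Finite := Ideal.finite_setOfPred_absNorm_le B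
    refine Set.Finite.of_finite_image (f := fun Q : HeightOneSpectrum (𝓞 K) => Q.asIdeal)
      (h1.subset ?_) (fun a _ b _ h => HeightOneSpectrum.ext h)
    rintro _ ⟨Q, hQ, rfl⟩
    exact hQ
  obtain ⟨Q, hQmem, hQB⟩ := (hinf.sdiff hfin).nonempty
  obtain ⟨hprime, hpQ, hres⟩ := hQmem
  have hQB' : B < Ideal.absNorm Q.asIdeal := by
    by_contra h
    exact hQB (not_lt.1 h)
  refine ⟨Ideal.absNorm Q.asIdeal, hprime, ?_, ?_, ?_⟩
  · intro hT
    have : Ideal.absNorm Q.asIdeal ≤ B := Finset.le_sup (f := id) hT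
    omega
  · have := Q.isPrime
    exact absNorm_mod_eq_one hp hk hζkint Q.asIdeal Q.ne_bot hpQ
  · rintro ⟨x, hx⟩
    apply hres
    -- lift `x` to an integer
    obtain ⟨y, rfl⟩ := ZMod.intCast_surjective x
    refine ⟨(y : 𝓞 K), ?_⟩
    have h1 : ((y ^ p - u₀ : ℤ) : ZMod (Ideal.absNorm Q.asIdeal)) = 0 := by
      push_cast; rw [hx, sub_self]
    rw [ZMod.intCast_zmod_eq_zero_iff_dvd] at h1
    obtain ⟨c, hc⟩ := h1
    have h2 : ((y : 𝓞 K)) ^ p - u = ((Ideal.absNorm Q.asIdeal : ℕ) : 𝓞 K) * (c : 𝓞 K) := by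
      rw [hudef]
      have := congrArg (fun z : ℤ => (z : 𝓞 K)) hc
      simpa using this
    rw [h2]
    exact Ideal.mul_mem_right _ _ (Ideal.absNorm_mem Q.asIdeal)

/-- **Auxiliary primes.** `p` odd prime, `k ≥ 1`, `u₀ ∈ ℤ` not a `p`-th power in `ℚ`, `T` finite:
there is a prime `ℓ ∉ T`, `ℓ ≡ 1 mod p^k`, with `u₀` not a `p`-th power modulo `ℓ`. -/
theorem exists_aux_prime (p : ℕ) [Fact p.Prime] (hp2 : p ≠ 2) (k : ℕ) (hk : 0 < k)
    (u₀ : ℤ) (hu : ¬ ∃ v : ℚ, v ^ p = (u₀ : ℚ)) (T : Finset ℕ) :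
    ∃ ℓ : ℕ, ℓ.Prime ∧ ℓ ∉ T ∧ ℓ % p ^ k = 1 ∧ ¬ ∃ x : ZMod ℓ, x ^ p = (u₀ : ZMod ℓ) := by
  have hp : p.Prime := Fact.out
  have : NeZero (p ^ k) := ⟨(pow_pos hp.pos k).ne'⟩
  have : NeZero (((p ^ k : ℕ)) : ℚ) := ⟨by exact_mod_cast (pow_pos hp.pos k).ne'⟩
  have hcyc : @IsCyclotomicExtension {p ^ k} ℚ (CyclotomicField (p ^ k) ℚ) _ _
      DivisionRing.toRatAlgebra := by
    have h := CyclotomicField.isCyclotomicExtension (p ^ k) ℚ
    have e : (DivisionRing.toRatAlgebra : Algebra ℚ (CyclotomicField (p ^ k) ℚ)) =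
        CyclotomicField.algebra (p ^ k) ℚ := Subsingleton.elim _ _
    rw [e]; exact h
  have : NumberField (CyclotomicField (p ^ k) ℚ) := IsCyclotomicExtension.numberField {p ^ k} ℚ _
  exact exists_aux_prime_of_cyclotomic p hp2 k hk (CyclotomicField (p ^ k) ℚ) u₀ hu T

/-! ### Part 5: corollaries in the form used by the reciprocity reduction -/

/-- In a cyclic group, an element `u` which is not a `p`-th power generates the group modulo
`p^k`-th powers. -/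
theorem exists_zpow_mul_pow {G : Type*} [CommGroup G] [IsCyclic G] {p : ℕ} (hp : p.Prime) (k : ℕ)
    (u : G) (hu : ¬ ∃ x : G, x ^ p = u) (c : G) : ∃ (m : ℤ) (y : G), c = u ^ m * y ^ (p ^ k) := by
  obtain ⟨g, hg⟩ := IsCyclic.exists_generator (α := G)
  obtain ⟨a, rfl⟩ : ∃ a : ℤ, g ^ a = u := by
    have := hg u
    rwa [Subgroup.mem_zpowers_iff] at this
  obtain ⟨b, rfl⟩ : ∃ b : ℤ, g ^ b = c := by
    have := hg c
    rwa [Subgroup.mem_zpowers_iff] at this
  have hpa : ¬ (p : ℤ) ∣ a := by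
    rintro ⟨a', rfl⟩
    apply hu
    refine ⟨g ^ a', ?_⟩
    rw [← zpow_natCast, ← zpow_mul, mul_comm]
  have hcop : IsCoprime a ((p : ℤ) ^ k) := by
    apply IsCoprime.pow_right
    rw [isCoprime_comm]
    exact (Nat.prime_iff_prime_int.1 hp).coprime_iff_not_dvd.2 hpa
  obtain ⟨r, s, hrs⟩ := hcop
  refine ⟨b * r, g ^ (b * s), ?_⟩
  rw [← zpow_mul, ← zpow_natCast (g ^ (b * s)), ← zpow_mul, ← zpow_add]
  congr 1
  push_cast
  linear_combination (-b) * hrs

/-- A prime `p` is not a `p`-th power in `ℚ`. -/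
theorem not_exists_rat_pow_eq_prime {p : ℕ} (hp : p.Prime) :
    ¬ ∃ v : ℚ, v ^ p = ((p : ℤ) : ℚ) := by
  rintro ⟨v, hv⟩
  have : Fact p.Prime := ⟨hp⟩
  have h1 : padicValRat p (v ^ p) = p * padicValRat p v := padicValRat.pow v
  have h2 : padicValRat p (((p : ℤ) : ℚ)) = 1 := by
    have : (((p : ℤ) : ℚ)) = (p : ℚ) := by push_cast; rfl
    rw [this]; exact padicValRat.self hp.one_lt
  rw [hv, h2] at h1
  have hdvd : (p : ℤ) ∣ 1 := ⟨_, h1⟩
  have := Int.le_of_dvd one_pos hdvd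
  have := hp.two_le
  omega

/-- **Auxiliary primes for `u₀ = p`.** -/
theorem exists_aux_prime_self (p : ℕ) [Fact p.Prime] (hp2 : p ≠ 2) (k : ℕ) (hk : 0 < k)
    (T : Finset ℕ) :
    ∃ ℓ : ℕ, ℓ.Prime ∧ ℓ ∉ T ∧ ℓ ≠ p ∧ ℓ % p ^ k = 1 ∧ ¬ ∃ x : ZMod ℓ, x ^ p = (p : ZMod ℓ) := by
  obtain ⟨ℓ, h1, h2, h3, h4⟩ := exists_aux_prime p hp2 k hk (p : ℤ)
    (not_exists_rat_pow_eq_prime Fact.out) (insert p T)
  refine ⟨ℓ, h1, fun h => h2 (Finset.mem_insert_of_mem h), fun h => h2 (h ▸ Finset.mem_insert_self _ _),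
    h3, ?_⟩
  simpa using h4

/-- **Generator form.** For the auxiliary prime `ℓ` of `exists_aux_prime`, every unit `c` of `ℤ/ℓ`
is of the form `u₀^m · y^(p^k)`: the class of `u₀` generates the cyclic group
`(ℤ/ℓ)ˣ / (p^k-th powers)` (of order `p^k`, as `ℓ ≡ 1 mod p^k`). -/
theorem exists_aux_prime_generator (p : ℕ) [Fact p.Prime] (hp2 : p ≠ 2) (k : ℕ) (hk : 0 < k)
    (u₀ : ℤ) (hu : ¬ ∃ v : ℚ, v ^ p = (u₀ : ℚ)) (T : Finset ℕ) :
    ∃ ℓ : ℕ, ℓ.Prime ∧ ℓ ∉ T ∧ ℓ % p ^ k = 1 ∧ ∃ u : (ZMod ℓ)ˣ, (u : ZMod ℓ) = (u₀ : ZMod ℓ) ∧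
      ∀ c : (ZMod ℓ)ˣ, ∃ (m : ℤ) (y : (ZMod ℓ)ˣ), c = u ^ m * y ^ (p ^ k) := by
  obtain ⟨ℓ, h1, h2, h3, h4⟩ := exists_aux_prime p hp2 k hk u₀ hu T
  have : Fact ℓ.Prime := ⟨h1⟩
  have hu0 : (u₀ : ZMod ℓ) ≠ 0 := by
    intro h0
    apply h4
    exact ⟨0, by rw [h0, zero_pow (Fact.out : p.Prime).ne_zero]⟩
  refine ⟨ℓ, h1, h2, h3, Units.mk0 _ hu0, rfl, ?_⟩
  apply exists_zpow_mul_pow (Fact.out : p.Prime) k
  rintro ⟨x, hx⟩
  apply h4
  refine ⟨(x : ZMod ℓ), ?_⟩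
  have := congrArg (fun z : (ZMod ℓ)ˣ => (z : ZMod ℓ)) hx
  simpa using this

end Fermat.Agent.S55.AuxPrime78
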