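/-
S55 / leaf 32b-AUX-PRIMES (helper6): WEAK CHEBOTAREV FOR KUMMER CHARACTERS, unconditional, from the landed
S14 density package (Euler product / prime-sum asymptotics of Dedekind zeta functions + density of inert
primes in Galois extensions of prime degree).

Exports (namespace `Fermat.Agent.S55.AuxPrimes6`; `IsPowMod p Q u := ∃ x, x ^ p - u ∈ Q` is `S14.IsPowMod`):

* `exists_notMem_of_density`   : a set of primes with prime sum `≥ c log(1/(s-1)) - C` meets the complement
                                 of every finite set.
* `exists_inert_degOne` (A1)   : `L/K` Galois of prime degree `p`: inert primes of absolute degree one avoid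
                                 every finite set;  `infinite_inert_degOne`.
* `exists_eq_pow_mul_pow`      : Kummer step `K^× ∩ K(u^{1/p})^{×p} = ⟨u⟩ K^{×p}`.
* `exists_prime_nonRes` (A2)   : `w` not a `p`-th power in `K ∋ ζ_p` ⇒ degree-one primes modulo which `w` is
                                 not a `p`-th power avoid every finite set.
* `exists_under_degOne`        : descent of a degree-one prime along `K ⊆ L`.
* `exists_prime_split_nonRes` (A3) : `w ∉ ⟨us⟩ K^{×p}` ⇒ degree-one primes `Q` with all `u ∈ us` `p`-th powers
                                 mod `Q` and `w` not, avoiding every finite set.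
* `exists_dual_basis_primes` (A4)  : the auxiliary primes of the second inequality: for `x_0..x_{s-1}`
                                 independent mod `p`-th powers, primes `Q_i` with
                                 `IsPowMod p Q_i x_j ↔ i ≠ j`.
-/
import Fermat.Agent.S55.AuxPrimes6.Inert
import Fermat.Agent.S55.AuxPrimes6.KummerStep
import Fermat.Agent.S55.AuxPrimes6.Kummer
import Fermat.Agent.S55.AuxPrimes6.Split
import Fermat.Agent.S55.AuxPrimes6.Basis
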