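/-
S55 / 43b-CAPIT (helper72): `p`-capitulation inside `ℚ_S`.

If `α ∈ F` (`F` unramified outside `S ∋ p`) is, at every place outside `S`, a unit up to a
`p ^ k`-th power of an element of `F` (i.e. the ideal `(α)` is a `p ^ k`-th power `𝔞 ^ (p ^ k)` away
from `S`), then there is a finite Galois extension `F' ⊇ F`, unramified outside `S`, containing a
`p ^ k`-th root `β` of `α`; the ideal `𝔞` becomes principal (`= (β)`) in `F'`.

* `exists_galois_norm`, `valuation_eq_one_iff_norm` : every valuation subring of `ℚ̄` over `q` is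
  `{x | ‖ι_q (σ x)‖ ≤ 1}` for some `σ ∈ G_ℚ`;
* `exists_level_root_pow` (A) : valuation-subring form;
* `exists_level_root_pow_of_norm` (B) : norm form (the vocabulary of the coinduced idele model);
* `norm_root` (C) : the valuation of the root.
Complete proofs.
-/
import Mathlib
import Fermat.Prelude.Def_GroupCohomology_ContinuousUnramified
import Fermat.Agent.S55.UnrKummer72
import Fermat.Agent.S55.UnrBridge42.Global
import Fermat.Agent.S55.Profin15.Global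

set_option autoImplicit false
set_option linter.style.haveILetI false

open IntermediateField
open scoped Pointwise

noncomputable section

namespace Fermat.Agent.S55.Capit72

/-- `ℚ̄` -/
abbrev Qb : Type := AlgebraicClosure ℚ

/-- `G_ℚ` -/
abbrev GQ : Type := Qb ≃ₐ[ℚ] Qb

section Places

variable (q : ℕ) [Fact q.Prime]

/-- Every valuation subring of `ℚ̄` lying over `q` is the unit ball of `‖ι_q (σ ·)‖` for some
`σ ∈ G_ℚ`. -/
theorem exists_galois_norm (A : ValuationSubring Qb) (hA : A.LiesOverPrime q) :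
    ∃ σ : GQ, ∀ x : Qb, x ∈ A ↔ ‖padicEmbedding q (σ x)‖ ≤ 1 := by
  obtain ⟨σ, hσ⟩ := Fermat.Agent.S55.UnrBridge42.exists_smul_eq_of_liesOverPrime
    (Fact.out : q.Prime) A (padicPlace q) hA (Fermat.Agent.S55.UnrBridge42.liesOverPrime_padicPlace q)
  refine ⟨σ, fun x => ?_⟩
  rw [← Fermat.Agent.S55.UnrBridge42.mem_padicPlace_iff_norm, ← hσ]
  exact (ValuationSubring.smul_mem_pointwise_smul_iff (g := σ) (S := A) (x := x)).symm

/-- `A.valuation x = 1` iff `x` and `x⁻¹` lie in `A`. -/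
theorem valuation_eq_one_iff_mem (A : ValuationSubring Qb) {x : Qb} (hx : x ≠ 0) :
    A.valuation x = 1 ↔ x ∈ A ∧ x⁻¹ ∈ A := by
  rw [← A.valuation_le_one_iff, ← A.valuation_le_one_iff, map_inv₀]
  have h0 : A.valuation x ≠ 0 := (map_ne_zero _).mpr hx
  constructor
  · intro h
    rw [h]
    simp
  · rintro ⟨h1, h2⟩
    refine le_antisymm h1 ?_
    rwa [inv_le_one₀ (zero_lt_iff.mpr h0)] at h2

/-- norm version: `‖y‖ = 1` iff `‖y‖ ≤ 1` and `‖y⁻¹‖ ≤ 1`. -/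
theorem norm_eq_one_iff_le {y : PadicAlgCl q} (hy : y ≠ 0) :
    ‖y‖ = 1 ↔ ‖y‖ ≤ 1 ∧ ‖y⁻¹‖ ≤ 1 := by
  have hpos : 0 < ‖y‖ := norm_pos_iff.mpr hy
  rw [norm_inv]
  constructor
  · intro h
    rw [h]
    simp
  · rintro ⟨h1, h2⟩
    refine le_antisymm h1 ?_
    rwa [inv_le_one₀ hpos] at h2

/-- If `A` is the unit ball of `‖ι_q (σ ·)‖`, then `A.valuation x = 1 ↔ ‖ι_q (σ x)‖ = 1`. -/
theorem valuation_eq_one_iff_norm {A : ValuationSubring Qb} {σ : GQ}
    (h : ∀ x : Qb, x ∈ A ↔ ‖padicEmbedding q (σ x)‖ ≤ 1) {x : Qb} (hx : x ≠ 0) :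
    A.valuation x = 1 ↔ ‖padicEmbedding q (σ x)‖ = 1 := by
  have hy : padicEmbedding q (σ x) ≠ 0 := (map_ne_zero _).mpr ((map_ne_zero _).mpr hx)
  rw [valuation_eq_one_iff_mem A hx, norm_eq_one_iff_le q hy, h x, h x⁻¹, map_inv₀, map_inv₀]

end Places

variable {S : Finset Nat.Primes} {p : ℕ} [Fact p.Prime]

/-- **(A) `p`-capitulation, valuation-subring form.**  `F` unramified outside `S ∋ p`, `α ∈ F` a
local unit up to `p ^ k`-th powers of `F` at every place outside `S`.  Then some finite Galois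
`F' ⊇ F`, unramified outside `S`, contains a `p ^ k`-th root of `α`. -/
theorem exists_level_root_pow (hpS : ExtCitation.pPrime p ∈ S)
    {F : IntermediateField ℚ Qb} (hF : F.IsUnramifiedOutside S) (k : ℕ) {α : Qb} (hαF : α ∈ F)
    (hval : ∀ q : Nat.Primes, q ∉ S → ∀ A : ValuationSubring Qb, A.LiesOverPrime (q : ℕ) →
      ∃ γ : Qb, γ ∈ F ∧ γ ≠ 0 ∧ A.valuation (α / γ ^ (p ^ k)) = 1) :
    ∃ F' : IntermediateField ℚ Qb, F ≤ F' ∧ F'.IsUnramifiedOutside S ∧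
      F'.fixingSubgroup.Normal ∧ ∃ β : Qb, β ∈ F' ∧ β ^ (p ^ k) = α := by
  have hp : p.Prime := Fact.out
  obtain ⟨β, hβ⟩ := IsAlgClosed.exists_pow_nat_eq α (pow_pos hp.pos k)
  have h1 : (F ⊔ ℚ⟮β⟯).IsUnramifiedOutside S := by
    refine Fermat.Agent.S55.UnrKummer72.isUnramifiedOutside_adjoin_root_pow hpS k hF
      (by rw [hβ]; exact hαF) ?_
    intro q hq A hA
    obtain ⟨γ, hγF, hγ0, hu⟩ := hval q hq A hA
    exact ⟨γ, hγF, hγ0, by rw [hβ]; exact hu⟩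
  obtain ⟨F', hle, hF', hn⟩ := Fermat.Agent.S55.Profin15.exists_normal_unramified_ge h1
  refine ⟨F', le_trans le_sup_left hle, hF', hn, β, hle ?_, hβ⟩
  exact (le_sup_right : ℚ⟮β⟯ ≤ F ⊔ ℚ⟮β⟯) (IntermediateField.mem_adjoin_simple_self ℚ β)

/-- **(C)** the norm of a `p ^ k`-th root. -/
theorem norm_root (q : ℕ) [Fact q.Prime] (k : ℕ) {α β : Qb} (hβ : β ^ (p ^ k) = α) (σ : GQ)
    (n : ℤ) (h : ‖padicEmbedding q (σ α)‖ = (q : ℝ) ^ (-((p ^ k : ℕ) : ℤ) * n)) :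
    ‖padicEmbedding q (σ β)‖ = (q : ℝ) ^ (-n) := by
  have hp : p.Prime := Fact.out
  have hq0 : (0 : ℝ) < q := by exact_mod_cast (Fact.out : q.Prime).pos
  have hk : p ^ k ≠ 0 := pow_ne_zero _ hp.ne_zero
  have h1 : ‖padicEmbedding q (σ β)‖ ^ (p ^ k) = ((q : ℝ) ^ (-n)) ^ (p ^ k) := by
    rw [← norm_pow, ← map_pow, ← map_pow, hβ, h, ← zpow_natCast ((q : ℝ) ^ (-n)), ← zpow_mul]
    congr 1
    ring
  exact (pow_left_inj₀ (norm_nonneg _) (zpow_nonneg hq0.le _) hk).mp h1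

/-- the norm of `ι_q (σ (q ^ n))`. -/
theorem norm_padicEmbedding_natCast_zpow (q : ℕ) [Fact q.Prime] (σ : GQ) (n : ℤ) :
    ‖padicEmbedding q (σ ((q : Qb) ^ n))‖ = (q : ℝ) ^ (-n) := by
  rw [map_zpow₀, map_zpow₀, map_natCast, map_natCast, norm_zpow,
    Fermat.Agent.S55.ProfinLoc80.norm_natCast_q, inv_zpow, zpow_neg]

/-- **(B) `p`-capitulation, norm form** (the vocabulary of the coinduced idele model): if for every
prime `q ∉ S` and every `σ ∈ G_ℚ` the `q`-adic valuation of `ι_q (σ α)` is an integer multiple of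
`p ^ k`, then some finite Galois `F' ⊇ F`, unramified outside `S`, contains a `p ^ k`-th root of
`α`.  (The valuations of the root are given by `norm_root`.) -/
theorem exists_level_root_pow_of_norm (hpS : ExtCitation.pPrime p ∈ S)
    {F : IntermediateField ℚ Qb} (hF : F.IsUnramifiedOutside S) (k : ℕ) {α : Qb} (hαF : α ∈ F)
    (hα0 : α ≠ 0)
    (hval : ∀ (q : ℕ) [Fact q.Prime], (⟨q, Fact.out⟩ : Nat.Primes) ∉ S → ∀ σ : GQ,
      ∃ n : ℤ, ‖padicEmbedding q (σ α)‖ = (q : ℝ) ^ (-((p ^ k : ℕ) : ℤ) * n)) :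
    ∃ F' : IntermediateField ℚ Qb, F ≤ F' ∧ F'.IsUnramifiedOutside S ∧
      F'.fixingSubgroup.Normal ∧ ∃ β : Qb, β ∈ F' ∧ β ^ (p ^ k) = α := by
  refine exists_level_root_pow hpS hF k hαF ?_
  intro q hq A hA
  haveI : Fact (q : ℕ).Prime := ⟨q.2⟩
  obtain ⟨σ, hσ⟩ := exists_galois_norm (q : ℕ) A hA
  obtain ⟨n, hn⟩ := hval (q : ℕ) (by cases q; exact hq) σ
  have hq0 : ((q : ℕ) : Qb) ≠ 0 := by
    exact_mod_cast (Fact.out : (q : ℕ).Prime).ne_zero
  have hqR : (0 : ℝ) < (q : ℕ) := by exact_mod_cast (Fact.out : (q : ℕ).Prime).pos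
  have hγ0 : ((q : ℕ) : Qb) ^ n ≠ 0 := zpow_ne_zero _ hq0
  refine ⟨((q : ℕ) : Qb) ^ n, zpow_mem (_root_.natCast_mem F (q : ℕ)) n, hγ0, ?_⟩
  have hx : α / (((q : ℕ) : Qb) ^ n) ^ (p ^ k) ≠ 0 := div_ne_zero hα0 (pow_ne_zero _ hγ0)
  rw [valuation_eq_one_iff_norm (q : ℕ) hσ hx, map_div₀, map_div₀, norm_div, hn, map_pow,
    map_pow, norm_pow, norm_padicEmbedding_natCast_zpow, ← zpow_natCast, ← zpow_mul]
  have : -n * ((p ^ k : ℕ) : ℤ) = -((p ^ k : ℕ) : ℤ) * n := by ring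
  rw [this]
  exact div_self (zpow_ne_zero _ hqR.ne')

end Fermat.Agent.S55.Capit72
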