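import Mathlib

/-!
# Chevalley's formula for a cyclic group of prime order (S55, leaf 12b-HERBRAND-CHEVALLEY)

Let `p` be a prime, `A` a finitely generated abelian group and `σ : A → A` an endomorphism with
`σ ^ p = 1`.  Put `D = σ - 1`, `N = 1 + σ + ... + σ^(p-1)`, `h0 = [ker D : N A]`,
`h1 = [ker N : D A]`.  Then `h0`, `h1` are finite and

  `h0 ^ (p - 1) * p ^ rank A = h1 ^ (p - 1) * p ^ (p * rank (ker D))`

(`chevalley`).  So the Herbrand quotient of a finitely generated module over a cyclic group of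
prime order only depends on the ranks of the module and of its invariants; this replaces the
"real lattice lemma" in the computation of the Herbrand quotient of `S`-units.

The proof is pure index calculus (`AddSubgroup.relIndex`), the multiplicativity of
`q(φ) = [A : φ A] / |ker φ|` in `φ`, and the fact that `(ζ - 1)^(p-1)` is `p` times a unit of
`ℤ[ζ_p]`, made explicit by polynomials.
-/

namespace Fermat.Agent.S55.Chevalley75

open AddSubgroup

section QComp

variable {A : Type*} [AddCommGroup A]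

theorem card_ker_comp (φ ψ : A →+ A) :
    Nat.card (φ.comp ψ).ker = Nat.card ψ.ker * Nat.card ↥(ψ.range ⊓ φ.ker) := by
  have hle : ψ.ker ≤ (φ.comp ψ).ker := by
    intro x hx
    rw [AddMonoidHom.mem_ker] at hx ⊢
    simp [hx]
  have h1 := AddSubgroup.relIndex_mul_relIndex ⊥ ψ.ker (φ.comp ψ).ker bot_le hle
  rw [AddSubgroup.relIndex_bot_left, AddSubgroup.relIndex_bot_left] at h1
  rw [← h1, AddSubgroup.relIndex_ker, ← AddMonoidHom.comap_ker, AddSubgroup.map_comap_eq]

theorem index_range_comp (φ ψ : A →+ A) :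
    (φ.comp ψ).range.index * (Nat.card φ.ker * Nat.card ψ.ker) =
      φ.range.index * ψ.range.index * Nat.card (φ.comp ψ).ker := by
  set x := (ψ.range ⊔ φ.ker).index with hx
  set y := ψ.range.relIndex φ.ker with hy
  set c := Nat.card ↥(ψ.range ⊓ φ.ker) with hc
  have h1 : (φ.comp ψ).range.index = φ.range.index * x := by
    have hle : (φ.comp ψ).range ≤ φ.range := by
      rintro _ ⟨a, rfl⟩
      exact ⟨ψ a, rfl⟩
    rw [← AddSubgroup.relIndex_mul_index hle, mul_comm]
    congr 1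
    rw [← AddMonoidHom.map_range, AddMonoidHom.range_eq_map φ, AddSubgroup.relIndex_map_map]
    simp [hx]
  have h2 : ψ.range.index = y * x := by
    rw [← AddSubgroup.relIndex_mul_index (le_sup_left : ψ.range ≤ ψ.range ⊔ φ.ker), hy, hx,
      sup_comm, AddSubgroup.relIndex_sup_right]
  have h3 : Nat.card φ.ker = c * y := by
    have := AddSubgroup.relIndex_mul_relIndex ⊥ (ψ.range ⊓ φ.ker) φ.ker bot_le inf_le_right
    rw [AddSubgroup.relIndex_bot_left, AddSubgroup.relIndex_bot_left,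
      AddSubgroup.inf_relIndex_right] at this
    exact this.symm
  rw [h1, h2, h3, card_ker_comp]
  ring

/-- index of the range of an endomorphism -/
noncomputable def ind (f : Module.End ℤ A) : ℕ := f.toAddMonoidHom.range.index

/-- cardinality of the kernel of an endomorphism -/
noncomputable def kr (f : Module.End ℤ A) : ℕ := Nat.card f.toAddMonoidHom.ker

theorem ind_mul (f g : Module.End ℤ A) :
    ind (f * g) * (kr f * kr g) = ind f * ind g * kr (f * g) :=
  index_range_comp f.toAddMonoidHom g.toAddMonoidHom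

theorem kr_mul_ne_zero {f g : Module.End ℤ A} (hf : kr f ≠ 0) (hg : kr g ≠ 0) :
    kr (f * g) ≠ 0 := by
  have h := card_ker_comp f.toAddMonoidHom g.toAddMonoidHom
  have hfin : Finite f.toAddMonoidHom.ker := Nat.finite_of_card_ne_zero hf
  have : Finite ↥(g.toAddMonoidHom.range ⊓ f.toAddMonoidHom.ker) :=
    Finite.of_injective (AddSubgroup.inclusion (inf_le_right :
      g.toAddMonoidHom.range ⊓ f.toAddMonoidHom.ker ≤ f.toAddMonoidHom.ker))
      (AddSubgroup.inclusion_injective _)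
  have h2 : Nat.card ↥(g.toAddMonoidHom.range ⊓ f.toAddMonoidHom.ker) ≠ 0 :=
    Nat.card_pos.ne'
  show Nat.card (f.toAddMonoidHom.comp g.toAddMonoidHom).ker ≠ 0
  rw [h]
  exact mul_ne_zero hg h2

theorem kr_one : kr (1 : Module.End ℤ A) = 1 := by
  unfold kr
  have : (1 : Module.End ℤ A).toAddMonoidHom.ker = ⊥ := by
    ext x
    simp [AddMonoidHom.mem_ker]
  rw [this]
  simp

theorem ind_one : ind (1 : Module.End ℤ A) = 1 := by
  unfold ind
  have : (1 : Module.End ℤ A).toAddMonoidHom.range = ⊤ := by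
    ext x
    simp only [AddMonoidHom.mem_range, AddSubgroup.mem_top, iff_true]
    exact ⟨x, rfl⟩
  rw [this]
  simp

theorem kr_pow_ne_zero {f : Module.End ℤ A} (hf : kr f ≠ 0) (n : ℕ) : kr (f ^ n) ≠ 0 := by
  induction n with
  | zero => rw [pow_zero, kr_one]; exact one_ne_zero
  | succ n ih => rw [pow_succ]; exact kr_mul_ne_zero ih hf

theorem ind_pow {f : Module.End ℤ A} (hf : kr f ≠ 0) (n : ℕ) :
    ind (f ^ n) * kr f ^ n = ind f ^ n * kr (f ^ n) := by
  induction n with
  | zero => simp [ind_one, kr_one]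
  | succ n ih =>
    have h := ind_mul (f ^ n) f
    rw [← pow_succ] at h
    have hk := kr_pow_ne_zero hf n
    apply Nat.eq_of_mul_eq_mul_right (Nat.pos_of_ne_zero hk)
    calc ind (f ^ (n + 1)) * kr f ^ (n + 1) * kr (f ^ n)
        = (ind (f ^ (n + 1)) * (kr (f ^ n) * kr f)) * kr f ^ n := by ring
      _ = ind (f ^ n) * ind f * kr (f ^ (n + 1)) * kr f ^ n := by rw [h]
      _ = (ind (f ^ n) * kr f ^ n) * ind f * kr (f ^ (n + 1)) := by ring
      _ = ind f ^ n * kr (f ^ n) * ind f * kr (f ^ (n + 1)) := by rw [ih]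
      _ = ind f ^ (n + 1) * kr (f ^ (n + 1)) * kr (f ^ n) := by ring

/-- a unit has trivial `ind` and `kr` -/
theorem kr_of_mul_eq_one {u v : Module.End ℤ A} (h : v * u = 1) : kr u = 1 := by
  unfold kr
  have : u.toAddMonoidHom.ker = ⊥ := by
    ext x
    simp only [AddMonoidHom.mem_ker, AddSubgroup.mem_bot]
    constructor
    · intro hx
      have : (v * u) x = 0 := by
        show v (u x) = 0
        have : u x = 0 := hx
        rw [this, map_zero]
      rwa [h] at this
    · rintro rfl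
      exact map_zero _
  rw [this]
  simp

theorem ind_of_mul_eq_one {u v : Module.End ℤ A} (h : u * v = 1) : ind u = 1 := by
  unfold ind
  have : u.toAddMonoidHom.range = ⊤ := by
    ext x
    simp only [AddMonoidHom.mem_range, AddSubgroup.mem_top, iff_true]
    refine ⟨v x, ?_⟩
    show (u * v) x = x
    rw [h]; rfl
  rw [this]
  simp

end QComp

section Restrict

variable {A : Type*} [AddCommGroup A]

theorem ind_restrict (f : Module.End ℤ A) (F : Submodule ℤ A) (hf : ∀ x ∈ F, f x ∈ F) :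
    ind (f.restrict hf) =
      (F.toAddSubgroup.map f.toAddMonoidHom).relIndex F.toAddSubgroup := by
  unfold ind AddSubgroup.relIndex
  refine congrArg AddSubgroup.index ?_
  ext ⟨x, hx⟩
  simp only [AddMonoidHom.mem_range]
  show (∃ y : ↥F, (f.restrict hf) y = ⟨x, hx⟩) ↔ ∃ y ∈ F.toAddSubgroup, f y = x
  constructor
  · rintro ⟨⟨y, hy⟩, h⟩
    refine ⟨y, hy, ?_⟩
    exact congrArg Subtype.val h
  · rintro ⟨y, hy, h⟩
    exact ⟨⟨y, hy⟩, Subtype.ext h⟩

theorem kr_restrict (f : Module.End ℤ A) (F : Submodule ℤ A) (hf : ∀ x ∈ F, f x ∈ F) :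
    kr (f.restrict hf) = Nat.card ↥(f.toAddMonoidHom.ker ⊓ F.toAddSubgroup) := by
  unfold kr
  refine Nat.card_congr ⟨fun x => ⟨x.1.1, AddSubgroup.mem_inf.mpr ⟨?_, x.1.2⟩⟩,
    fun x => ⟨⟨x.1, (AddSubgroup.mem_inf.mp x.2).2⟩, ?_⟩, ?_, ?_⟩
  · have h := x.2
    rw [AddMonoidHom.mem_ker] at h
    exact (AddMonoidHom.mem_ker (f := f.toAddMonoidHom)).mpr (congrArg Subtype.val h)
  · rw [AddMonoidHom.mem_ker]
    apply Subtype.ext
    exact (AddMonoidHom.mem_ker (f := f.toAddMonoidHom)).mp (AddSubgroup.mem_inf.mp x.2).1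
  · intro x; rfl
  · intro x; rfl

end Restrict

section NEnd

variable {A : Type*} [AddCommGroup A]

/-- multiplication by `n` as an endomorphism -/
noncomputable def nEnd (A : Type*) [AddCommGroup A] (n : ℕ) : Module.End ℤ A :=
  (n : ℤ) • (LinearMap.id : A →ₗ[ℤ] A)

@[simp] theorem nEnd_apply (n : ℕ) (x : A) : nEnd A n x = n • x := by
  simp [nEnd]

theorem kr_ne_zero_of_torsion [Module.Finite ℤ A] (f : Module.End ℤ A) {n : ℕ} (hn : n ≠ 0)
    (h : ∀ x, f x = 0 → n • x = 0) : kr f ≠ 0 := by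
  have htors : Module.IsTorsion ℤ ↥(LinearMap.ker f) := by
    intro x
    refine ⟨⟨(n : ℤ), ?_⟩, ?_⟩
    · rw [mem_nonZeroDivisors_iff_ne_zero]; exact_mod_cast hn
    · apply Subtype.ext
      have := h x.1 x.2
      simpa using this
  have hfin : Finite ↥(LinearMap.ker f) := Module.finite_of_fg_torsion _ htors
  have : Finite ↥f.toAddMonoidHom.ker :=
    Finite.of_injective (fun x => (⟨x.1, x.2⟩ : ↥(LinearMap.ker f)))
      (fun x y hxy => Subtype.ext (congrArg Subtype.val hxy))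
  exact Nat.card_pos.ne'

theorem ind_ne_zero_of_torsion [Module.Finite ℤ A] (f : Module.End ℤ A) {n : ℕ} (hn : n ≠ 0)
    (h : ∀ x, ∃ y, f y = n • x) : ind f ≠ 0 := by
  have htors : Module.IsTorsion ℤ (A ⧸ LinearMap.range f) := by
    intro x
    induction x using Submodule.Quotient.induction_on with
    | _ x =>
    refine ⟨⟨(n : ℤ), ?_⟩, ?_⟩
    · rw [mem_nonZeroDivisors_iff_ne_zero]; exact_mod_cast hn
    · show (n : ℤ) • (Submodule.Quotient.mk x : A ⧸ LinearMap.range f) = 0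
      rw [← Submodule.Quotient.mk_smul, Submodule.Quotient.mk_eq_zero]
      obtain ⟨y, hy⟩ := h x
      exact ⟨y, by simpa using hy⟩
  have hfin : Finite (A ⧸ LinearMap.range f) := Module.finite_of_fg_torsion _ htors
  have hfin' : Finite (A ⧸ f.toAddMonoidHom.range) := by
    rw [← LinearMap.range_toAddSubgroup]
    exact hfin
  exact AddSubgroup.index_ne_zero_of_finite

theorem ind_nEnd_free {F : Type*} [AddCommGroup F] [Module.Free ℤ F] [Module.Finite ℤ F]
    {n : ℕ} (hn : n ≠ 0) : ind (nEnd F n) = n ^ Module.finrank ℤ F := by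
  have hinj : Function.Injective (nEnd F n) := by
    intro x y hxy
    simp only [nEnd_apply] at hxy
    have h0 : (n : ℤ) • (x - y) = 0 := by
      rw [smul_sub, sub_eq_zero]
      simpa using hxy
    have := (smul_eq_zero.mp h0).resolve_left (by exact_mod_cast hn)
    exact sub_eq_zero.mp this
  let e : F ≃ₗ[ℤ] ↥(LinearMap.range (nEnd F n)) := LinearEquiv.ofInjective (nEnd F n) hinj
  have h1 := Submodule.natAbs_det_equiv (LinearMap.range (nEnd F n)) e
  have h2 : (LinearMap.range (nEnd F n)).subtype ∘ₗ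
      AddMonoidHom.toIntLinearMap ((e : F →+ ↥(LinearMap.range (nEnd F n)))) = nEnd F n := by
    ext x
    rfl
  rw [h2] at h1
  have h3 : LinearMap.det (nEnd F n) = (n : ℤ) ^ Module.finrank ℤ F := by
    unfold nEnd
    rw [LinearMap.det_smul, LinearMap.det_id, mul_one]
  rw [h3] at h1
  unfold ind
  rw [← LinearMap.range_toAddSubgroup]
  show Nat.card (F ⧸ LinearMap.range (nEnd F n)) = _
  rw [← h1, Int.natAbs_pow, Int.natAbs_natCast]

theorem exists_torsion_bound (X : Type*) [AddCommGroup X] [Module.Finite ℤ X] :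
    ∃ m : ℕ, m ≠ 0 ∧ ∀ x : X, ∀ k : ℕ, k ≠ 0 → k • x = 0 → m • x = 0 := by
  have hfin : Finite ↥(Submodule.torsion ℤ X) :=
    Module.finite_of_fg_torsion _ (Submodule.torsion_isTorsion (R := ℤ) (M := X))
  refine ⟨Nat.card ↥(Submodule.torsion ℤ X), Nat.card_pos.ne', ?_⟩
  intro x k hk hx
  have hmem : x ∈ Submodule.torsion ℤ X := by
    rw [Submodule.mem_torsion_iff]
    refine ⟨⟨(k : ℤ), ?_⟩, ?_⟩
    · rw [mem_nonZeroDivisors_iff_ne_zero]; exact_mod_cast hk
    · show (k : ℤ) • x = 0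
      simpa using hx
  have := card_nsmul_eq_zero' (G := ↥(Submodule.torsion ℤ X)) (x := ⟨x, hmem⟩)
  exact congrArg Subtype.val this


theorem ind_nEnd (X : Type*) [AddCommGroup X] [Module.Finite ℤ X] {n : ℕ} (hn : n ≠ 0) :
    kr (nEnd X n) ≠ 0 ∧ ind (nEnd X n) = n ^ Module.finrank ℤ X * kr (nEnd X n) := by
  have hk : kr (nEnd X n) ≠ 0 := kr_ne_zero_of_torsion _ hn (fun x hx => by simpa using hx)
  refine ⟨hk, ?_⟩
  obtain ⟨m, hm0, hm⟩ := exists_torsion_bound X
  set M := nEnd X m with hM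
  set F : Submodule ℤ X := LinearMap.range M with hF
  have hFtf : Module.IsTorsionFree ℤ ↥F := by
    apply Module.IsTorsionFree.of_smul_eq_zero
    rintro r ⟨x, y, rfl⟩ hr
    by_cases hr0 : r = 0
    · exact Or.inl hr0
    right
    apply Subtype.ext
    have h1 : r • (M y) = 0 := congrArg Subtype.val hr
    have h2 : (r.natAbs * m) • y = 0 := by
      rw [mul_smul]
      have h3 : (r.natAbs : ℤ) • (M y) = 0 := by
        rcases Int.natAbs_eq r with h | h
        · rw [← h]; exact h1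
        · have : (-(r.natAbs : ℤ)) • (M y) = 0 := by rw [← h]; exact h1
          rwa [neg_smul, neg_eq_zero] at this
      simpa [hM] using h3
    have h4 := hm y (r.natAbs * m) (Nat.mul_ne_zero (Int.natAbs_ne_zero.mpr hr0) hm0) h2
    simpa [hM] using h4
  have hfree : Module.Free ℤ ↥F := inferInstance
  have hrank : Module.finrank ℤ ↥F = Module.finrank ℤ X := by
    rw [← M.quotKerEquivRange.finrank_eq]
    have h1 := (LinearMap.ker M).finrank_quotient_add_finrank
    have h2 : Module.finrank ℤ ↥(LinearMap.ker M) = 0 := by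
      apply Module.IsTorsion.finrank_eq_zero
      intro x
      refine ⟨⟨(m : ℤ), ?_⟩, ?_⟩
      · rw [mem_nonZeroDivisors_iff_ne_zero]; exact_mod_cast hm0
      · apply Subtype.ext
        have h : nEnd X m (x : X) = 0 := x.2
        rw [nEnd_apply] at h
        show ((m : ℤ) • (x : X)) = 0
        rw [natCast_zsmul]
        exact h
    omega
  have hstab : ∀ x ∈ F, nEnd X n x ∈ F := fun x hx => by
    rw [nEnd_apply]
    exact F.smul_of_tower_mem n hx
  have hres : (nEnd X n).restrict hstab = nEnd ↥F n := by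
    ext x
    rw [LinearMap.coe_restrict_apply, nEnd_apply, nEnd_apply]
    rfl
  have hindM : ind M ≠ 0 := ind_ne_zero_of_torsion M hm0 (fun x => ⟨x, by simp [hM]⟩)
  have hkrM : kr M ≠ 0 := kr_ne_zero_of_torsion M hm0 (fun x hx => by simpa [hM] using hx)
  have h1 : ind (nEnd X n * M) = ind M * n ^ Module.finrank ℤ X := by
    have hle : (nEnd X n * M).toAddMonoidHom.range ≤ M.toAddMonoidHom.range := by
      rintro _ ⟨y, rfl⟩
      refine ⟨n • y, ?_⟩
      show M (n • y) = nEnd X n (M y)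
      simp only [hM, nEnd_apply]
      exact smul_comm m n y
    have h5 := ind_restrict (nEnd X n) F hstab
    rw [hres, ind_nEnd_free hn, hrank] at h5
    have h6 : (F.toAddSubgroup.map (nEnd X n).toAddMonoidHom) =
        (nEnd X n * M).toAddMonoidHom.range := by
      rw [hF, LinearMap.range_toAddSubgroup, AddMonoidHom.map_range]
      rfl
    rw [h6, hF, LinearMap.range_toAddSubgroup] at h5
    unfold ind
    rw [← AddSubgroup.relIndex_mul_index hle, ← h5, mul_comm]
  have h2 : kr (nEnd X n * M) = kr M := by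
    unfold kr
    have : (nEnd X n * M).toAddMonoidHom.ker = M.toAddMonoidHom.ker := by
      ext x
      simp only [AddMonoidHom.mem_ker]
      show nEnd X n (M x) = 0 ↔ M x = 0
      constructor
      · intro h
        have h7 : (n * m) • x = 0 := by
          rw [mul_comm, mul_smul]; simpa [hM] using h
        have := hm x (n * m) (Nat.mul_ne_zero hn hm0) h7
        simpa [hM] using this
      · intro h
        rw [h, map_zero]
    rw [this]
  have h3 := ind_mul (nEnd X n) M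
  rw [h1, h2] at h3
  have hpos : 0 < ind M * kr M := Nat.pos_of_ne_zero (Nat.mul_ne_zero hindM hkrM)
  apply Nat.eq_of_mul_eq_mul_right hpos
  calc ind (nEnd X n) * (ind M * kr M) = ind (nEnd X n) * ind M * kr M := by ring
    _ = ind M * n ^ Module.finrank ℤ X * (kr (nEnd X n) * kr M) := h3.symm
    _ = n ^ Module.finrank ℤ X * kr (nEnd X n) * (ind M * kr M) := by ring

end NEnd
open Polynomial

section Cyclo

theorem prod_one_sub_pow_eq {K : Type*} [Field K] {ζ : K} {p : ℕ} [hp : Fact p.Prime]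
    (hζ : IsPrimitiveRoot ζ p) : ∏ i ∈ Finset.Ico 1 p, (1 - ζ ^ i) = (p : K) := by
  classical
  have hp0 : 0 < p := hp.out.pos
  have himg : primitiveRoots p K = (Finset.Ico 1 p).image (fun i => ζ ^ i) := by
    ext μ
    rw [mem_primitiveRoots hp0, Finset.mem_image]
    have : NeZero p := ⟨hp.out.ne_zero⟩
    rw [hζ.isPrimitiveRoot_iff]
    constructor
    · rintro ⟨i, hi, hcop, rfl⟩
      refine ⟨i, ?_, rfl⟩
      rw [Finset.mem_Ico]
      refine ⟨?_, hi⟩
      rcases Nat.eq_zero_or_pos i with h0 | h0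
      · subst h0
        rw [Nat.coprime_zero_left] at hcop
        exact absurd hcop hp.out.one_lt.ne'
      · exact h0
    · rintro ⟨i, hi, rfl⟩
      rw [Finset.mem_Ico] at hi
      refine ⟨i, hi.2, ?_, rfl⟩
      exact (Nat.coprime_of_lt_prime (by omega) hi.2 hp.out).symm
  have hinj : Set.InjOn (fun i => ζ ^ i) (Finset.Ico 1 p : Set ℕ) := by
    intro i hi j hj hij
    rw [Finset.coe_Ico, Set.mem_Ico] at hi hj
    exact hζ.pow_inj hi.2 hj.2 hij
  have h1 := Polynomial.eval_one_cyclotomic_prime (R := K) (p := p)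
  rw [cyclotomic_eq_prod_X_sub_primitiveRoots hζ, himg, Finset.prod_image hinj, eval_prod] at h1
  simpa using h1

/-- the geometric sum polynomial `1 + X + ... + X^(p-1)` -/
noncomputable def Phi (p : ℕ) : ℤ[X] := ∑ i ∈ Finset.range p, X ^ i

theorem Phi_dvd_of_aeval_eq_zero (p : ℕ) [hp : Fact p.Prime] {ζ : ℂ} (hζ : IsPrimitiveRoot ζ p)
    (g : ℤ[X]) (h : aeval ζ g = 0) : Phi p ∣ g := by
  have h1 : Phi p = cyclotomic p ℤ := (cyclotomic_prime ℤ p).symm
  rw [h1, cyclotomic_eq_minpoly hζ hp.out.pos]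
  exact minpoly.isIntegrallyClosed_dvd (hζ.isIntegral hp.out.pos) h

/-- `e i = 1 + X + ... + X^(i-1)` -/
noncomputable def ePoly (i : ℕ) : ℤ[X] := ∑ t ∈ Finset.range i, X ^ t

/-- the inverse of `e i` modulo `Phi p` -/
noncomputable def fPoly (p i : ℕ) : ℤ[X] :=
  ∑ t ∈ Finset.range ((i : ZMod p)⁻¹).val, (X ^ i) ^ t

theorem aeval_ePoly_mul {ζ : ℂ} (i : ℕ) : (ζ - 1) * aeval ζ (ePoly i) = ζ ^ i - 1 := by
  unfold ePoly
  simp only [map_sum, map_pow, aeval_X]
  exact mul_geom_sum ζ i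

theorem aeval_fPoly_mul {p : ℕ} [hp : Fact p.Prime] {ζ : ℂ} (hζ : IsPrimitiveRoot ζ p) {i : ℕ}
    (hi : i ∈ Finset.Ico 1 p) : (ζ ^ i - 1) * aeval ζ (fPoly p i) = ζ - 1 := by
  unfold fPoly
  simp only [map_sum, map_pow, aeval_X]
  rw [mul_geom_sum, ← pow_mul]
  rw [Finset.mem_Ico] at hi
  have hne : (i : ZMod p) ≠ 0 := by
    rw [Ne, ZMod.natCast_eq_zero_iff]
    exact Nat.not_dvd_of_pos_of_lt hi.1 hi.2
  have h1 : ((i * ((i : ZMod p)⁻¹).val : ℕ) : ZMod p) = ((1 : ℕ) : ZMod p) := by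
    rw [Nat.cast_mul, ZMod.natCast_val, ZMod.cast_id', id, mul_inv_cancel₀ hne, Nat.cast_one]
  have h2 : i * ((i : ZMod p)⁻¹).val ≡ 1 [MOD p] := (ZMod.natCast_eq_natCast_iff _ _ _).mp h1
  have h3 : ζ ^ (i * ((i : ZMod p)⁻¹).val) = ζ ^ 1 := by
    have h4 : (i * ((i : ZMod p)⁻¹).val) % p = 1 := by
      rw [h2, Nat.mod_eq_of_lt hp.out.one_lt]
    rw [← Nat.div_add_mod (i * ((i : ZMod p)⁻¹).val) p, h4, pow_add, pow_mul, hζ.pow_eq_one,
      one_pow, one_mul]
  rw [h3, pow_one]

theorem aeval_e_mul_f {p : ℕ} [hp : Fact p.Prime] {ζ : ℂ} (hζ : IsPrimitiveRoot ζ p) {i : ℕ}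
    (hi : i ∈ Finset.Ico 1 p) : aeval ζ (ePoly i) * aeval ζ (fPoly p i) = 1 := by
  have hne : ζ - 1 ≠ 0 := sub_ne_zero.mpr (hζ.ne_one hp.out.one_lt)
  apply mul_left_cancel₀ hne
  rw [← mul_assoc, aeval_ePoly_mul, aeval_fPoly_mul hζ hi, mul_one]

/-- the unit `u` with `(X - 1)^(p-1) * u ≡ p` modulo `Phi p` -/
noncomputable def uPoly (p : ℕ) : ℤ[X] := C ((-1) ^ (p - 1)) * ∏ i ∈ Finset.Ico 1 p, ePoly i

/-- the inverse of `uPoly p` modulo `Phi p` -/
noncomputable def vPoly (p : ℕ) : ℤ[X] := C ((-1) ^ (p - 1)) * ∏ i ∈ Finset.Ico 1 p, fPoly p i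

theorem Phi_dvd_u_mul_v (p : ℕ) [hp : Fact p.Prime] : Phi p ∣ uPoly p * vPoly p - 1 := by
  have hζ : IsPrimitiveRoot (Complex.exp (2 * Real.pi * Complex.I / p)) p :=
    Complex.isPrimitiveRoot_exp p hp.out.ne_zero
  apply Phi_dvd_of_aeval_eq_zero p hζ
  unfold uPoly vPoly
  rw [map_sub, map_mul, map_mul, map_mul, map_prod, map_prod, map_one, aeval_C, sub_eq_zero]
  have : ∏ i ∈ Finset.Ico 1 p, (aeval (Complex.exp (2 * Real.pi * Complex.I / p)) (ePoly i) *
      aeval (Complex.exp (2 * Real.pi * Complex.I / p)) (fPoly p i)) = 1 :=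
    Finset.prod_eq_one fun i hi => aeval_e_mul_f hζ hi
  rw [Finset.prod_mul_distrib] at this
  calc _ = ((algebraMap ℤ ℂ) ((-1) ^ (p - 1)) * (algebraMap ℤ ℂ) ((-1) ^ (p - 1))) *
      ((∏ i ∈ Finset.Ico 1 p, aeval (Complex.exp (2 * Real.pi * Complex.I / p)) (ePoly i)) *
       (∏ i ∈ Finset.Ico 1 p, aeval (Complex.exp (2 * Real.pi * Complex.I / p)) (fPoly p i))) := by
        ring
    _ = 1 := by
        rw [this, mul_one, ← map_mul, ← mul_pow]
        simp

theorem Phi_dvd_pow_mul_u (p : ℕ) [hp : Fact p.Prime] :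
    Phi p ∣ (X - 1) ^ (p - 1) * uPoly p - C (p : ℤ) := by
  have hζ : IsPrimitiveRoot (Complex.exp (2 * Real.pi * Complex.I / p)) p :=
    Complex.isPrimitiveRoot_exp p hp.out.ne_zero
  apply Phi_dvd_of_aeval_eq_zero p hζ
  set ζ := Complex.exp (2 * Real.pi * Complex.I / p) with hζdef
  unfold uPoly
  rw [map_sub, map_mul, map_mul, map_prod, map_pow, map_sub, aeval_X, map_one, aeval_C, aeval_C,
    sub_eq_zero]
  have hcard : (Finset.Ico 1 p).card = p - 1 := by simp
  have h1 : (ζ - 1) ^ (p - 1) * ∏ i ∈ Finset.Ico 1 p, aeval ζ (ePoly i) =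
      ∏ i ∈ Finset.Ico 1 p, (ζ ^ i - 1) := by
    rw [← hcard, ← Finset.prod_const, ← Finset.prod_mul_distrib]
    exact Finset.prod_congr rfl fun i _ => aeval_ePoly_mul i
  have h2 : ∏ i ∈ Finset.Ico 1 p, (1 - ζ ^ i) = (-1) ^ (p - 1) * ∏ i ∈ Finset.Ico 1 p, (ζ ^ i - 1) := by
    rw [← hcard, ← Finset.prod_const, ← Finset.prod_mul_distrib]
    exact Finset.prod_congr rfl fun i _ => by ring
  calc _ = (algebraMap ℤ ℂ) ((-1) ^ (p - 1)) *
        ((ζ - 1) ^ (p - 1) * ∏ i ∈ Finset.Ico 1 p, aeval ζ (ePoly i)) := by ring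
    _ = (-1) ^ (p - 1) * ∏ i ∈ Finset.Ico 1 p, (ζ ^ i - 1) := by
        rw [h1]; simp
    _ = (p : ℂ) := by rw [← h2, prod_one_sub_pow_eq hζ]
    _ = _ := by simp

end Cyclo

section UnitEnd

variable {B : Type*} [AddCommGroup B]

theorem exists_unit_End (p : ℕ) [hp : Fact p.Prime] (τ : Module.End ℤ B)
    (hτ : ∑ i ∈ Finset.range p, τ ^ i = 0) :
    ∃ U V : Module.End ℤ B, U * V = 1 ∧ V * U = 1 ∧ (τ - 1) ^ (p - 1) * U = nEnd B p := by
  have hΦ : aeval τ (Phi p) = 0 := by
    unfold Phi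
    simpa [map_sum] using hτ
  obtain ⟨g, hg⟩ := Phi_dvd_pow_mul_u p
  obtain ⟨h, hh⟩ := Phi_dvd_u_mul_v p
  have huv : aeval τ (uPoly p) * aeval τ (vPoly p) = 1 := by
    have := congrArg (aeval τ) hh
    rw [map_sub, map_mul, map_mul, hΦ, zero_mul, map_one, sub_eq_zero] at this
    exact this
  refine ⟨aeval τ (uPoly p), aeval τ (vPoly p), huv, ?_, ?_⟩
  · rw [← map_mul, mul_comm, map_mul]
    exact huv
  · have := congrArg (aeval τ) hg
    rw [map_sub, map_mul, map_pow, map_sub, aeval_X, map_one, map_mul, hΦ, zero_mul,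
      sub_eq_zero, aeval_C] at this
    rw [this]
    ext x
    simp [nEnd]

end UnitEnd

section Main

theorem sum_pow_apply_of_fixed {B : Type*} [AddCommGroup B] (τ : Module.End ℤ B) (p : ℕ) {x : B}
    (hx : τ x = x) : (∑ i ∈ Finset.range p, τ ^ i) x = p • x := by
  have hfix : ∀ i : ℕ, (τ ^ i) x = x := fun i => by
    rw [Module.End.pow_apply]
    exact Function.iterate_fixed hx i
  rw [LinearMap.sum_apply, Finset.sum_congr rfl (fun i _ => hfix i), Finset.sum_const,
    Finset.card_range]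

theorem ind_sub_one_pow (p : ℕ) [hp : Fact p.Prime] {B : Type*} [AddCommGroup B]
    [Module.Finite ℤ B] (τ : Module.End ℤ B) (hτ : ∑ i ∈ Finset.range p, τ ^ i = 0) :
    kr (τ - 1) ≠ 0 ∧
      ind (τ - 1) ^ (p - 1) = p ^ Module.finrank ℤ B * kr (τ - 1) ^ (p - 1) := by
  set D := τ - 1 with hD
  have hkD : kr D ≠ 0 := by
    apply kr_ne_zero_of_torsion D hp.out.ne_zero
    intro x hx
    have hx' : τ x = x := by
      rw [hD, LinearMap.sub_apply, Module.End.one_apply, sub_eq_zero] at hx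
      exact hx
    rw [← sum_pow_apply_of_fixed τ p hx', hτ, LinearMap.zero_apply]
  refine ⟨hkD, ?_⟩
  obtain ⟨U, V, hUV, hVU, hDU⟩ := exists_unit_End p τ hτ
  obtain ⟨hkp, hip⟩ := ind_nEnd B hp.out.ne_zero
  have h1 := ind_mul (D ^ (p - 1)) U
  rw [hDU, kr_of_mul_eq_one hVU, ind_of_mul_eq_one hUV, mul_one, mul_one] at h1
  have h2 := ind_pow hkD (p - 1)
  have hkDp := kr_pow_ne_zero hkD (p - 1)
  have hpos : 0 < kr (D ^ (p - 1)) * kr (nEnd B p) :=
    Nat.pos_of_ne_zero (Nat.mul_ne_zero hkDp hkp)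
  apply Nat.eq_of_mul_eq_mul_right hpos
  calc ind D ^ (p - 1) * (kr (D ^ (p - 1)) * kr (nEnd B p))
      = (ind D ^ (p - 1) * kr (D ^ (p - 1))) * kr (nEnd B p) := by ring
    _ = (ind (D ^ (p - 1)) * kr D ^ (p - 1)) * kr (nEnd B p) := by rw [h2]
    _ = (ind (D ^ (p - 1)) * kr (nEnd B p)) * kr D ^ (p - 1) := by ring
    _ = (ind (nEnd B p) * kr (D ^ (p - 1))) * kr D ^ (p - 1) := by rw [h1]
    _ = p ^ Module.finrank ℤ B * kr D ^ (p - 1) * (kr (D ^ (p - 1)) * kr (nEnd B p)) := by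
        rw [hip]; ring

end Main

section Final

variable {A : Type*} [AddCommGroup A]

theorem nEnd_restrict (n : ℕ) (F : Submodule ℤ A) (hstab : ∀ x ∈ F, nEnd A n x ∈ F) :
    (nEnd A n).restrict hstab = nEnd ↥F n := by
  ext x
  rw [LinearMap.coe_restrict_apply, nEnd_apply, nEnd_apply]
  rfl

theorem finrank_eq_of_le_of_torsion [Module.Finite ℤ A] {N₁ N₂ : Submodule ℤ A} (hle : N₁ ≤ N₂)
    {n : ℕ} (hn : n ≠ 0) (h : ∀ x ∈ N₂, n • x ∈ N₁) :
    Module.finrank ℤ ↥N₁ = Module.finrank ℤ ↥N₂ := by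
  rw [← (Submodule.submoduleOfEquivOfLe hle).finrank_eq]
  have h1 := (N₁.submoduleOf N₂).finrank_quotient_add_finrank
  have h2 : Module.finrank ℤ (↥N₂ ⧸ N₁.submoduleOf N₂) = 0 := by
    apply Module.IsTorsion.finrank_eq_zero
    intro x
    induction x using Submodule.Quotient.induction_on with
    | _ x =>
    refine ⟨⟨(n : ℤ), ?_⟩, ?_⟩
    · rw [mem_nonZeroDivisors_iff_ne_zero]; exact_mod_cast hn
    · show (n : ℤ) • (Submodule.Quotient.mk x : ↥N₂ ⧸ N₁.submoduleOf N₂) = 0
      rw [← Submodule.Quotient.mk_smul, Submodule.Quotient.mk_eq_zero]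
      show ((n : ℤ) • x : ↥N₂).1 ∈ N₁
      have := h x.1 x.2
      simpa using this
  omega

variable (p : ℕ) (σ : Module.End ℤ A)

/-- the operator `D = σ - 1` -/
noncomputable def opD : Module.End ℤ A := σ - 1

/-- the norm operator `N = 1 + σ + ... + σ^(p-1)` -/
noncomputable def opN : Module.End ℤ A := ∑ i ∈ Finset.range p, σ ^ i

variable {p σ}

theorem opD_mul_opN (hσ : σ ^ p = 1) : opD σ * opN p σ = 0 := by
  unfold opD opN
  rw [mul_geom_sum, hσ, sub_self]

theorem opN_mul_opD (hσ : σ ^ p = 1) : opN p σ * opD σ = 0 := by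
  unfold opD opN
  rw [geom_sum_mul, hσ, sub_self]

theorem opN_apply_of_mem_ker {x : A} (hx : opD σ x = 0) : opN p σ x = p • x := by
  have hx' : σ x = x := by
    unfold opD at hx
    rw [LinearMap.sub_apply, Module.End.one_apply, sub_eq_zero] at hx
    exact hx
  exact sum_pow_apply_of_fixed σ p hx'

theorem range_opN_le (hσ : σ ^ p = 1) :
    (opN p σ).toAddMonoidHom.range ≤ (opD σ).toAddMonoidHom.ker := by
  rintro _ ⟨y, rfl⟩
  rw [AddMonoidHom.mem_ker]
  show (opD σ * opN p σ) y = 0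
  rw [opD_mul_opN hσ, LinearMap.zero_apply]

theorem range_opD_le (hσ : σ ^ p = 1) :
    (opD σ).toAddMonoidHom.range ≤ (opN p σ).toAddMonoidHom.ker := by
  rintro _ ⟨y, rfl⟩
  rw [AddMonoidHom.mem_ker]
  show (opN p σ * opD σ) y = 0
  rw [opN_mul_opD hσ, LinearMap.zero_apply]

/-- `D * W = N - p` where `W = ∑_{i<p} ∑_{t<i} σ^t`. -/
theorem opD_mul_W : opD σ * (∑ i ∈ Finset.range p, ∑ t ∈ Finset.range i, σ ^ t) =
    opN p σ - nEnd A p := by
  unfold opD opN
  rw [Finset.mul_sum]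
  have : ∀ i ∈ Finset.range p, (σ - 1) * ∑ t ∈ Finset.range i, σ ^ t = σ ^ i - 1 :=
    fun i _ => mul_geom_sum σ i
  rw [Finset.sum_congr rfl this, Finset.sum_sub_distrib, Finset.sum_const, Finset.card_range]
  congr 1
  ext x
  simp [nEnd]

theorem nsmul_mem_range_opD {x : A} (hx : opN p σ x = 0) :
    ∃ y, opD σ y = p • x := by
  refine ⟨-((∑ i ∈ Finset.range p, ∑ t ∈ Finset.range i, σ ^ t) x), ?_⟩
  rw [map_neg]
  have := congrArg (fun f : Module.End ℤ A => f x) (opD_mul_W (p := p) (σ := σ))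
  simp only [Module.End.mul_apply, LinearMap.sub_apply, nEnd_apply, hx, zero_sub] at this
  rw [this, neg_neg]

theorem finrank_ker_add_finrank_ker [Module.Finite ℤ A] (hp : p ≠ 0) (hσ : σ ^ p = 1) :
    Module.finrank ℤ ↥(LinearMap.ker (opN p σ)) + Module.finrank ℤ ↥(LinearMap.ker (opD σ)) =
      Module.finrank ℤ A := by
  have h1 := (LinearMap.ker (opD σ)).finrank_quotient_add_finrank
  rw [(opD σ).quotKerEquivRange.finrank_eq] at h1
  have hle : LinearMap.range (opD σ) ≤ LinearMap.ker (opN p σ) := by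
    rintro _ ⟨y, rfl⟩
    rw [LinearMap.mem_ker]
    show (opN p σ * opD σ) y = 0
    rw [opN_mul_opD hσ, LinearMap.zero_apply]
  have h2 := finrank_eq_of_le_of_torsion hle hp (fun x hx => by
    obtain ⟨y, hy⟩ := nsmul_mem_range_opD (p := p) (σ := σ) (x := x) hx
    exact ⟨y, hy⟩)
  omega

/-- The index identity behind Chevalley's formula: with `X = [A : ker D + ker N]`,
`X * [ker D : N A] = [ker D : N (ker D)]` and `X * [ker N : D A] = [ker N : D (ker N)]`. -/
theorem index_identities (hσ : σ ^ p = 1) :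
    (((opD σ).toAddMonoidHom.ker ⊔ (opN p σ).toAddMonoidHom.ker).index *
        (opN p σ).toAddMonoidHom.range.relIndex (opD σ).toAddMonoidHom.ker =
      ((opD σ).toAddMonoidHom.ker.map (opN p σ).toAddMonoidHom).relIndex
        (opD σ).toAddMonoidHom.ker) ∧
    (((opD σ).toAddMonoidHom.ker ⊔ (opN p σ).toAddMonoidHom.ker).index *
        (opD σ).toAddMonoidHom.range.relIndex (opN p σ).toAddMonoidHom.ker =
      ((opN p σ).toAddMonoidHom.ker.map (opD σ).toAddMonoidHom).relIndex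
        (opN p σ).toAddMonoidHom.ker) := by
  set D' := (opD σ).toAddMonoidHom with hD'
  set N' := (opN p σ).toAddMonoidHom with hN'
  constructor
  · have h1 : D'.ker.map N' ≤ N'.range := by
      rintro _ ⟨y, _, rfl⟩
      exact ⟨y, rfl⟩
    rw [← AddSubgroup.relIndex_mul_relIndex (D'.ker.map N') N'.range D'.ker h1 (range_opN_le hσ)]
    congr 1
    rw [AddMonoidHom.range_eq_map N', AddSubgroup.relIndex_map_map]
    simp
  · have h1 : N'.ker.map D' ≤ D'.range := by
      rintro _ ⟨y, _, rfl⟩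
      exact ⟨y, rfl⟩
    rw [← AddSubgroup.relIndex_mul_relIndex (N'.ker.map D') D'.range N'.ker h1 (range_opD_le hσ)]
    congr 1
    rw [AddMonoidHom.range_eq_map D', AddSubgroup.relIndex_map_map, sup_comm]
    simp

/-- **Chevalley's formula** for a cyclic group of prime order `p` acting on a finitely generated
abelian group `A` (through `σ` with `σ ^ p = 1`): with `D = σ - 1`, `N = 1 + σ + ... + σ^(p-1)`,
`h0 = [ker D : N A]`, `h1 = [ker N : D A]`, both are finite and
`h0 ^ (p-1) * p ^ rank A = h1 ^ (p-1) * p ^ (p * rank (ker D))`. -/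
theorem chevalley [hp : Fact p.Prime] [Module.Finite ℤ A] (hσ : σ ^ p = 1) :
    (opN p σ).toAddMonoidHom.range.relIndex (opD σ).toAddMonoidHom.ker ≠ 0 ∧
    (opD σ).toAddMonoidHom.range.relIndex (opN p σ).toAddMonoidHom.ker ≠ 0 ∧
    ((opN p σ).toAddMonoidHom.range.relIndex (opD σ).toAddMonoidHom.ker) ^ (p - 1) *
        p ^ Module.finrank ℤ A =
      ((opD σ).toAddMonoidHom.range.relIndex (opN p σ).toAddMonoidHom.ker) ^ (p - 1) *
        p ^ (p * Module.finrank ℤ ↥(LinearMap.ker (opD σ))) := by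
  have hp0 : p ≠ 0 := hp.out.ne_zero
  set KD := LinearMap.ker (opD σ) with hKD
  set KN := LinearMap.ker (opN p σ) with hKN
  set D' := (opD σ).toAddMonoidHom with hD'
  set N' := (opN p σ).toAddMonoidHom with hN'
  have hKD' : KD.toAddSubgroup = D'.ker := LinearMap.ker_toAddSubgroup _
  have hKN' : KN.toAddSubgroup = N'.ker := LinearMap.ker_toAddSubgroup _
  -- the restriction of `N` to `ker D` is multiplication by `p`
  have hstabN : ∀ x ∈ KD, opN p σ x ∈ KD := fun x hx => by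
    rw [opN_apply_of_mem_ker (LinearMap.mem_ker.mp hx)]
    exact KD.smul_of_tower_mem p hx
  have hNres : (opN p σ).restrict hstabN = nEnd ↥KD p := by
    ext x
    rw [LinearMap.coe_restrict_apply, nEnd_apply, opN_apply_of_mem_ker (LinearMap.mem_ker.mp x.2)]
    rfl
  -- the restriction of `D` to `ker N`
  have hstabD : ∀ x ∈ KN, opD σ x ∈ KN := fun x _ => by
    rw [LinearMap.mem_ker]
    show (opN p σ * opD σ) x = 0
    rw [opN_mul_opD hσ, LinearMap.zero_apply]
  have hstabσ : ∀ x ∈ KN, σ x ∈ KN := fun x hx => by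
    have : σ x = opD σ x + x := by
      unfold opD
      rw [LinearMap.sub_apply, Module.End.one_apply, sub_add_cancel]
    rw [this]
    exact KN.add_mem (hstabD x hx) hx
  set τ := σ.restrict hstabσ with hτdef
  have hDres : (opD σ).restrict hstabD = τ - 1 := by
    ext x
    rw [LinearMap.coe_restrict_apply, LinearMap.sub_apply, Module.End.one_apply]
    unfold opD
    rw [LinearMap.sub_apply, Module.End.one_apply]
    rfl
  have hτ : ∑ i ∈ Finset.range p, τ ^ i = 0 := by
    ext x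
    rw [LinearMap.sum_apply, LinearMap.zero_apply]
    have h1 : ∀ i ∈ Finset.range p, (τ ^ i) x = ((σ ^ i).restrict
        (Module.End.pow_apply_mem_of_forall_mem i hstabσ)) x := fun i _ => by
      rw [hτdef, Module.End.pow_restrict]
    rw [Finset.sum_congr rfl h1]
    rw [AddSubmonoidClass.coe_finsetSum]
    simp only [LinearMap.coe_restrict_apply]
    have h2 : opN p σ (x : A) = 0 := x.2
    unfold opN at h2
    rw [LinearMap.sum_apply] at h2
    rw [h2]
    rfl
  -- indices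
  obtain ⟨hid1, hid2⟩ := index_identities (p := p) (σ := σ) hσ
  rw [← hD', ← hN'] at hid1 hid2
  have hi1 := ind_restrict (opN p σ) KD hstabN
  rw [hNres, hKD', ← hN'] at hi1
  have hi2 := ind_restrict (opD σ) KN hstabD
  rw [hDres, hKN', ← hD'] at hi2
  obtain ⟨hk, hindp⟩ := ind_nEnd ↥KD hp0
  obtain ⟨hkτ, hindτ⟩ := ind_sub_one_pow p τ hτ
  -- the two kernels have the same cardinality
  have hstabp : ∀ x ∈ KD, nEnd A p x ∈ KD := fun x hx => by
    rw [nEnd_apply]
    exact KD.smul_of_tower_mem p hx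
  have hkk : kr (τ - 1) = kr (nEnd ↥KD p) := by
    rw [← hDres, kr_restrict, ← nEnd_restrict p KD hstabp, kr_restrict, hKD', hKN', ← hD']
    have : D'.ker ⊓ N'.ker = (nEnd A p).toAddMonoidHom.ker ⊓ D'.ker := by
      ext x
      simp only [AddSubgroup.mem_inf, AddMonoidHom.mem_ker]
      constructor
      · rintro ⟨h1, h2⟩
        refine ⟨?_, h1⟩
        show nEnd A p x = 0
        rw [nEnd_apply, ← opN_apply_of_mem_ker (p := p) (σ := σ) h1]
        exact h2
      · rintro ⟨h1, h2⟩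
        refine ⟨h2, ?_⟩
        show opN p σ x = 0
        rw [opN_apply_of_mem_ker h2, ← nEnd_apply]
        exact h1
    rw [this]
  rw [hkk] at hindτ
  set X := (D'.ker ⊔ N'.ker).index with hX
  set h0 := N'.range.relIndex D'.ker with hh0
  set h1 := D'.range.relIndex N'.ker with hh1
  set k := kr (nEnd ↥KD p) with hkdef
  set a := Module.finrank ℤ ↥KD with ha
  set ρ := Module.finrank ℤ ↥KN with hρ
  have hr : ρ + a = Module.finrank ℤ A := finrank_ker_add_finrank_ker hp0 hσ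
  -- `X * h0 = p ^ a * k` and `(X * h1) ^ (p - 1) = p ^ ρ * k ^ (p - 1)`
  have e1 : X * h0 = p ^ a * k := by rw [hid1, ← hi1, hindp]
  have e2 : (X * h1) ^ (p - 1) = p ^ ρ * k ^ (p - 1) := by rw [hid2, ← hi2, hindτ]
  have hpa : p ^ a * k ≠ 0 := Nat.mul_ne_zero (pow_ne_zero _ hp0) hk
  have hX0 : X ≠ 0 := fun h => hpa (by rw [← e1, h, zero_mul])
  have hh00 : h0 ≠ 0 := fun h => hpa (by rw [← e1, h, mul_zero])
  have hh10 : h1 ≠ 0 := by
    intro h
    have h3 : p ^ ρ * k ^ (p - 1) ≠ 0 :=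
      Nat.mul_ne_zero (pow_ne_zero _ hp0) (pow_ne_zero _ hk)
    apply h3
    rw [← e2, h, mul_zero, zero_pow]
    have := hp.out.two_le
    omega
  refine ⟨hh00, hh10, ?_⟩
  have hpos : 0 < X ^ (p - 1) * k ^ (p - 1) :=
    Nat.pos_of_ne_zero (Nat.mul_ne_zero (pow_ne_zero _ hX0) (pow_ne_zero _ hk))
  have hpp : p * a = a * (p - 1) + a := by
    have := hp.out.two_le
    obtain ⟨q, rfl⟩ : ∃ q, p = q + 1 := ⟨p - 1, by omega⟩
    rw [Nat.add_sub_cancel]; ring
  apply Nat.eq_of_mul_eq_mul_right hpos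
  calc h0 ^ (p - 1) * p ^ Module.finrank ℤ A * (X ^ (p - 1) * k ^ (p - 1))
      = (X * h0) ^ (p - 1) * (p ^ ρ * k ^ (p - 1)) * p ^ a := by
        rw [← hr, pow_add, mul_pow]; ring
    _ = (p ^ a * k) ^ (p - 1) * (X * h1) ^ (p - 1) * p ^ a := by rw [e1, e2]
    _ = h1 ^ (p - 1) * p ^ (p * a) * (X ^ (p - 1) * k ^ (p - 1)) := by
        rw [hpp, pow_add, pow_mul, mul_pow, mul_pow]; ring

end Final

end Fermat.Agent.S55.Chevalley75
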