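import Mathlib
import Fermat.Agent.S55.HerbrandCyclic54
import Fermat.Agent.S55.Chevalley75

/-!
# Chevalley's formula for the Herbrand pair of a group of prime order (S55, leaf 12b)

Bridge between `Chevalley75.chevalley` and helper54's `HerbrandCyclic54.cyclicPair`:
for a group `G` of prime order `p`, `g₀ ≠ 1`, acting on a finitely generated abelian group `A`,
the Herbrand quotient of `cyclicPair ρ g₀` is defined and
`|H0| ^ (p-1) * p ^ rk A = |H1| ^ (p-1) * p ^ (p * rk A^G)`.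
-/

set_option autoImplicit false

namespace Fermat.Agent.S55.ChevalleyHerbrand75

open Fermat.Agent.S55.Herbrand54 Fermat.Agent.S55.HerbrandCyclic54 Fermat.Agent.S55.Chevalley75

variable {G : Type*} [Group G] [Fintype G] {A : Type*} [AddCommGroup A]

/-- `ρ g` as a `ℤ`-linear endomorphism. -/
def sigmaEnd (ρ : G →* AddMonoid.End A) (g : G) : Module.End ℤ A :=
  (show A →+ A from ρ g).toIntLinearMap

omit [Fintype G] in
@[simp] theorem sigmaEnd_apply (ρ : G →* AddMonoid.End A) (g : G) (x : A) :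
    sigmaEnd ρ g x = ρ g x := rfl

omit [Fintype G] in
theorem sigmaEnd_pow (ρ : G →* AddMonoid.End A) (g : G) (n : ℕ) :
    sigmaEnd ρ g ^ n = sigmaEnd ρ (g ^ n) := by
  induction n with
  | zero =>
    ext x
    simp only [pow_zero, Module.End.one_apply, sigmaEnd_apply]
    rw [rho_one_apply]
  | succ n ih =>
    ext x
    rw [pow_succ, Module.End.mul_apply, ih, sigmaEnd_apply, sigmaEnd_apply, sigmaEnd_apply,
      pow_succ, rho_mul_apply]

theorem sigmaEnd_pow_card (ρ : G →* AddMonoid.End A) (g : G) :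
    sigmaEnd ρ g ^ Fintype.card G = 1 := by
  rw [sigmaEnd_pow, pow_card_eq_one]
  ext x
  simp only [sigmaEnd_apply, Module.End.one_apply]
  rw [rho_one_apply]

omit [Fintype G] in
theorem opD_toAddMonoidHom (ρ : G →* AddMonoid.End A) [Fintype G] (g₀ : G) :
    (opD (sigmaEnd ρ g₀)).toAddMonoidHom = (cyclicPair ρ g₀).f := by
  ext x
  rfl

theorem univ_eq_image_pow {p : ℕ} [hp : Fact p.Prime] (hG : Fintype.card G = p) {g₀ : G}
    (hg₀ : g₀ ≠ 1) [DecidableEq G] :
    (Finset.univ : Finset G) = (Finset.range p).image (fun i => g₀ ^ i) := by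
  have hord : orderOf g₀ = p := by
    have h1 : orderOf g₀ ∣ p := hG ▸ orderOf_dvd_card
    rcases (Nat.dvd_prime hp.out).mp h1 with h | h
    · exact absurd (orderOf_eq_one_iff.mp h) hg₀
    · exact h
  symm
  apply Finset.eq_univ_of_card
  rw [Finset.card_image_of_injOn, Finset.card_range, hG]
  intro i hi j hj hij
  rw [Finset.coe_range, Set.mem_Iio, ← hord] at hi hj
  exact pow_injOn_Iio_orderOf hi hj hij

theorem opN_toAddMonoidHom (ρ : G →* AddMonoid.End A) {p : ℕ} [hp : Fact p.Prime]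
    (hG : Fintype.card G = p) {g₀ : G} (hg₀ : g₀ ≠ 1) :
    (opN p (sigmaEnd ρ g₀)).toAddMonoidHom = (cyclicPair ρ g₀).g := by
  classical
  ext x
  rw [cyclicPair_g_apply, HerbrandCyclic54.normHom_apply, univ_eq_image_pow hG hg₀, Finset.sum_image]
  · show opN p (sigmaEnd ρ g₀) x = _
    unfold opN
    rw [LinearMap.sum_apply]
    refine Finset.sum_congr rfl fun i _ => ?_
    rw [sigmaEnd_pow, sigmaEnd_apply]
  · have hord : orderOf g₀ = p := by
      have h1 : orderOf g₀ ∣ p := hG ▸ orderOf_dvd_card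
      rcases (Nat.dvd_prime hp.out).mp h1 with h | h
      · exact absurd (orderOf_eq_one_iff.mp h) hg₀
      · exact h
    intro i hi j hj hij
    rw [Finset.coe_range, Set.mem_Iio, ← hord] at hi hj
    exact pow_injOn_Iio_orderOf hi hj hij

theorem card_H0_eq (P : Pair A) : Nat.card P.H0 = P.g.range.relIndex P.f.ker := rfl

theorem card_H1_eq (P : Pair A) : Nat.card P.H1 = P.f.range.relIndex P.g.ker := rfl

/-- **Chevalley's formula** for helper54's Herbrand pair of a group of prime order `p` acting on a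
finitely generated abelian group `A`.  The invariants are presented through any injective
homomorphism `ι : I →+ A` whose image is the set of fixed points of `g₀`. -/
theorem cyclicPair_chevalley [Module.Finite ℤ A] (ρ : G →* AddMonoid.End A) {p : ℕ}
    [hp : Fact p.Prime] (hG : Fintype.card G = p) {g₀ : G} (hg₀ : g₀ ≠ 1)
    {I : Type*} [AddCommGroup I] (ι : I →+ A) (hι : Function.Injective ι)
    (hrange : ∀ x : A, x ∈ ι.range ↔ ρ g₀ x = x) :
    (cyclicPair ρ g₀).IsDefined ∧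
      Nat.card (cyclicPair ρ g₀).H0 ^ (p - 1) * p ^ Module.finrank ℤ A =
        Nat.card (cyclicPair ρ g₀).H1 ^ (p - 1) * p ^ (p * Module.finrank ℤ I) := by
  have hσ : sigmaEnd ρ g₀ ^ p = 1 := hG ▸ sigmaEnd_pow_card ρ g₀
  obtain ⟨h0, h1, h2⟩ := chevalley (p := p) (σ := sigmaEnd ρ g₀) hσ
  rw [opD_toAddMonoidHom, opN_toAddMonoidHom ρ hG hg₀] at h0 h1 h2
  have hrank : Module.finrank ℤ ↥(LinearMap.ker (opD (sigmaEnd ρ g₀))) = Module.finrank ℤ I := by
    have hr : LinearMap.range ι.toIntLinearMap = LinearMap.ker (opD (sigmaEnd ρ g₀)) := by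
      ext x
      rw [LinearMap.mem_ker]
      have : x ∈ LinearMap.range ι.toIntLinearMap ↔ x ∈ ι.range := Iff.rfl
      rw [this, hrange]
      unfold opD
      rw [LinearMap.sub_apply, Module.End.one_apply, sub_eq_zero, sigmaEnd_apply]
    rw [← hr]
    exact (LinearEquiv.ofInjective ι.toIntLinearMap hι).finrank_eq.symm
  rw [hrank] at h2
  refine ⟨⟨?_, ?_⟩, ?_⟩
  · exact AddSubgroup.index_ne_zero_iff_finite.mp h0
  · exact AddSubgroup.index_ne_zero_iff_finite.mp h1
  · rw [card_H0_eq, card_H1_eq]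
    exact h2

/-- Numerical corollary: if `p * rk A^G + (p - 1) = rk A + (p - 1) * t`, then
`|H0| * p = |H1| * p ^ t`, i.e. `h(A) = p ^ (t - 1)`. -/
theorem cyclicPair_card_mul [Module.Finite ℤ A] (ρ : G →* AddMonoid.End A) {p : ℕ}
    [hp : Fact p.Prime] (hG : Fintype.card G = p) {g₀ : G} (hg₀ : g₀ ≠ 1)
    {I : Type*} [AddCommGroup I] (ι : I →+ A) (hι : Function.Injective ι)
    (hrange : ∀ x : A, x ∈ ι.range ↔ ρ g₀ x = x) (t : ℕ)
    (ht : p * Module.finrank ℤ I + (p - 1) = Module.finrank ℤ A + (p - 1) * t) :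
    (cyclicPair ρ g₀).IsDefined ∧
      Nat.card (cyclicPair ρ g₀).H0 * p = Nat.card (cyclicPair ρ g₀).H1 * p ^ t := by
  obtain ⟨hdef, h⟩ := cyclicPair_chevalley ρ hG hg₀ ι hι hrange
  refine ⟨hdef, ?_⟩
  have hp0 : 0 < p := hp.out.pos
  have hp1 : p - 1 ≠ 0 := by have := hp.out.two_le; omega
  set a := Module.finrank ℤ I
  set r := Module.finrank ℤ A
  set x := Nat.card (cyclicPair ρ g₀).H0
  set y := Nat.card (cyclicPair ρ g₀).H1
  have key : (x * p) ^ (p - 1) * p ^ r = (y * p ^ t) ^ (p - 1) * p ^ r := by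
    calc (x * p) ^ (p - 1) * p ^ r = (x ^ (p - 1) * p ^ r) * p ^ (p - 1) := by
          rw [mul_pow]; ring
      _ = (y ^ (p - 1) * p ^ (p * a)) * p ^ (p - 1) := by rw [h]
      _ = y ^ (p - 1) * p ^ (p * a + (p - 1)) := by rw [pow_add]; ring
      _ = y ^ (p - 1) * p ^ (r + (p - 1) * t) := by rw [ht]
      _ = (y * p ^ t) ^ (p - 1) * p ^ r := by
          rw [mul_pow, pow_add, ← pow_mul, mul_comm t (p - 1)]; ring
  have key2 := Nat.eq_of_mul_eq_mul_right (pow_pos hp0 r) key
  exact Nat.pow_left_injective hp1 key2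

/-- The same in terms of the rational Herbrand quotient. -/
theorem cyclicPair_q [Module.Finite ℤ A] (ρ : G →* AddMonoid.End A) {p : ℕ}
    [hp : Fact p.Prime] (hG : Fintype.card G = p) {g₀ : G} (hg₀ : g₀ ≠ 1)
    {I : Type*} [AddCommGroup I] (ι : I →+ A) (hι : Function.Injective ι)
    (hrange : ∀ x : A, x ∈ ι.range ↔ ρ g₀ x = x) (t : ℕ)
    (ht : p * Module.finrank ℤ I + (p - 1) = Module.finrank ℤ A + (p - 1) * t) :
    (cyclicPair ρ g₀).q * p = (p : ℚ) ^ t := by
  obtain ⟨hdef, h⟩ := cyclicPair_card_mul ρ hG hg₀ ι hι hrange t ht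
  have : Finite (cyclicPair ρ g₀).H1 := hdef.2
  have hy : (Nat.card (cyclicPair ρ g₀).H1 : ℚ) ≠ 0 := by
    exact_mod_cast (Nat.card_pos (α := (cyclicPair ρ g₀).H1)).ne'
  unfold Pair.q
  rw [div_mul_eq_mul_div, div_eq_iff hy]
  have h' : ((Nat.card (cyclicPair ρ g₀).H0 * p : ℕ) : ℚ) =
      ((Nat.card (cyclicPair ρ g₀).H1 * p ^ t : ℕ) : ℚ) := by rw [h]
  push_cast at h'
  rw [h']; ring

end Fermat.Agent.S55.ChevalleyHerbrand75
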