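/-
S55 (helper5): the class-group step of both inequalities, Mathlib only.
For a number field `F` there is a finite set `T` of rational primes (containing any given `S`)
such that every finitely supported divisor is, away from the primes above `T`, the divisor of an
element of `Fˣ`  (`Cl(𝓞_{F,T}) = 1`, i.e. `J_F = Fˣ · J_{F,T}`).
-/
import Mathlib
import Fermat.Agent.S55.Selmer5

set_option autoImplicit false

open IsDedekindDomain IsDedekindDomain.HeightOneSpectrum FractionalIdeal NumberField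
open scoped nonZeroDivisors

namespace Fermat.Agent.S55.ClassGen5

noncomputable section

/-- A natural number `n ≥ 2` lying in a prime ideal has a prime factor lying in it. -/
theorem exists_prime_natCast_mem {R : Type*} [CommRing R] (P : Ideal R) [P.IsPrime] :
    ∀ n : ℕ, n ≠ 0 → ((n : ℕ) : R) ∈ P → ∃ ℓ : ℕ, ℓ.Prime ∧ ℓ ∣ n ∧ ((ℓ : ℕ) : R) ∈ P := by
  intro n
  induction n using Nat.strong_induction_on with
  | _ n ih =>
    intro hn0 hn
    have hn1 : n ≠ 1 := by
      rintro rfl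
      exact (Ideal.IsPrime.ne_top ‹_›) ((Ideal.eq_top_iff_one P).2 (by simpa using hn))
    obtain ⟨m, hm⟩ := Nat.minFac_dvd n
    have hℓ : (Nat.minFac n).Prime := Nat.minFac_prime hn1
    have hmem : ((Nat.minFac n : ℕ) : R) * ((m : ℕ) : R) ∈ P := by
      rw [← Nat.cast_mul, ← hm]; exact hn
    rcases (Ideal.IsPrime.mem_or_mem ‹_› hmem) with h | h
    · exact ⟨Nat.minFac n, hℓ, Nat.minFac_dvd n, h⟩
    · have hm0 : m ≠ 0 := by
        rintro rfl
        exact hn0 (by rw [hm, mul_zero])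
      have hmn : m < n := by
        have h2 : 2 ≤ Nat.minFac n := hℓ.two_le
        have hmpos : 0 < m := Nat.pos_of_ne_zero hm0
        nlinarith
      obtain ⟨ℓ, hℓp, hℓm, hℓP⟩ := ih m hmn hm0 h
      exact ⟨ℓ, hℓp, hℓm.trans (Dvd.intro_left (Nat.minFac n) hm.symm), hℓP⟩

variable (F : Type*) [Field F] [NumberField F]

/-- Every height one prime of `𝓞 F` lies above a rational prime. -/
theorem exists_prime_below (P : HeightOneSpectrum (𝓞 F)) :
    ∃ ℓ : Nat.Primes, (((ℓ : ℕ) : ℕ) : 𝓞 F) ∈ P.asIdeal := by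
  have h1 : ((Ideal.absNorm P.asIdeal : ℕ) : 𝓞 F) ∈ P.asIdeal := Ideal.absNorm_mem _
  have h0 : Ideal.absNorm P.asIdeal ≠ 0 := by
    rw [Ne, Ideal.absNorm_eq_zero_iff]
    exact P.ne_bot
  obtain ⟨ℓ, hℓ, -, hmem⟩ := exists_prime_natCast_mem P.asIdeal _ h0 h1
  exact ⟨⟨ℓ, hℓ⟩, hmem⟩

/-- **`Cl(𝓞_{F,T}) = 1` for a suitable finite `T ⊇ S`**, in fractional-ideal form: every
invertible fractional ideal is `(x) * J` with `J` supported at the primes above `T`. -/
theorem exists_finset_principal_mul (S : Finset Nat.Primes) :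
    ∃ T : Finset Nat.Primes, S ⊆ T ∧ ∀ I : (FractionalIdeal (𝓞 F)⁰ F)ˣ, ∃ x : Fˣ,
      ∀ P : HeightOneSpectrum (𝓞 F), (∀ ℓ ∈ T, (((ℓ : ℕ) : ℕ) : 𝓞 F) ∉ P.asIdeal) →
        count F P (spanSingleton (𝓞 F)⁰ (x : F)) = count F P (I : FractionalIdeal (𝓞 F)⁰ F) := by
  classical
  have : Finite (ClassGroup (𝓞 F)) := inferInstance
  let _ := Fintype.ofFinite (ClassGroup (𝓞 F))
  -- representatives of the ideal classes
  have hsurj : Function.Surjective (ClassGroup.mk F : (FractionalIdeal (𝓞 F)⁰ F)ˣ → _) :=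
    fun c => ClassGroup.induction (K := F) (P := fun c => ∃ I, ClassGroup.mk F I = c)
      (fun I => ⟨I, rfl⟩) c
  choose rep hrep using hsurj
  -- the finite supports of the representatives
  have hfin : ∀ c : ClassGroup (𝓞 F),
      {P : HeightOneSpectrum (𝓞 F) | count F P (rep c : FractionalIdeal (𝓞 F)⁰ F) ≠ 0}.Finite :=
    fun c => by
      have := finite_factors (rep c : FractionalIdeal (𝓞 F)⁰ F)
      rw [Filter.eventually_cofinite] at this
      exact this
  choose below hbelow using exists_prime_below F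
  let T : Finset Nat.Primes :=
    S ∪ Finset.univ.biUnion (fun c => (hfin c).toFinset.image below)
  refine ⟨T, Finset.subset_union_left, fun I => ?_⟩
  -- `I = (x) * rep [I]`
  have hcl : ClassGroup.mk F (I * (rep (ClassGroup.mk F I))⁻¹) = 1 := by
    rw [map_mul, map_inv, hrep, mul_inv_cancel]
  rw [ClassGroup.mk_eq_one_iff] at hcl
  obtain ⟨x0, hx0⟩ := hcl.principal
  have hx0' : spanSingleton (𝓞 F)⁰ x0 =
      ((I * (rep (ClassGroup.mk F I))⁻¹ : (FractionalIdeal (𝓞 F)⁰ F)ˣ) :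
        FractionalIdeal (𝓞 F)⁰ F) := by
    apply coeToSubmodule_injective
    change ((spanSingleton (𝓞 F)⁰ x0 : FractionalIdeal (𝓞 F)⁰ F) : Submodule (𝓞 F) F) = _
    rw [coe_spanSingleton]; exact hx0.symm
  have hx00 : x0 ≠ 0 := by
    rintro rfl
    rw [spanSingleton_zero] at hx0'
    exact (Units.ne_zero _) hx0'.symm
  refine ⟨Units.mk0 x0 hx00, fun P hP => ?_⟩
  rw [Units.val_mk0, hx0']
  have hrep0 : (rep (ClassGroup.mk F I) : FractionalIdeal (𝓞 F)⁰ F) ≠ 0 := Units.ne_zero _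
  have hI0 : (I : FractionalIdeal (𝓞 F)⁰ F) ≠ 0 := Units.ne_zero _
  rw [Units.val_mul, Units.val_inv_eq_inv_val, count_mul F P hI0 (inv_ne_zero hrep0), count_inv]
  -- `P` is outside the support of the representative
  have hzero : count F P (rep (ClassGroup.mk F I) : FractionalIdeal (𝓞 F)⁰ F) = 0 := by
    by_contra hne
    apply hP (below P)
    · apply Finset.mem_union_right
      rw [Finset.mem_biUnion]
      exact ⟨ClassGroup.mk F I, Finset.mem_univ _, Finset.mem_image.2
        ⟨P, (Set.Finite.mem_toFinset _).2 hne, rfl⟩⟩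
    · exact hbelow P
  rw [hzero, neg_zero, add_zero]

/-- **The class-group step** (statement of `FirstIneq27/Class.lean`): for a suitable finite
`T ⊇ S`, every finitely supported divisor `n` is, at all primes not above `T`, the divisor of an
element `x ∈ Fˣ`. -/
theorem exists_finset_trivial_class (S : Finset Nat.Primes) :
    ∃ T : Finset Nat.Primes, S ⊆ T ∧ ∀ n : HeightOneSpectrum (𝓞 F) →₀ ℤ, ∃ x : Fˣ,
      ∀ P : HeightOneSpectrum (𝓞 F), (∀ ℓ ∈ T, (((ℓ : ℕ) : ℕ) : 𝓞 F) ∉ P.asIdeal) →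
        P.valuation F (x : F) = WithZero.exp (-(n P)) := by
  classical
  obtain ⟨T, hST, hT⟩ := exists_finset_principal_mul F S
  refine ⟨T, hST, fun n => ?_⟩
  -- the ideal `∏ P ^ n P`
  have hprod0 : n.prod (fun P e => (P.asIdeal : FractionalIdeal (𝓞 F)⁰ F) ^ e) ≠ 0 := by
    rw [Finsupp.prod]
    exact Finset.prod_ne_zero_iff.2 fun P _ =>
      zpow_ne_zero _ (coeIdeal_ne_zero.mpr P.ne_bot)
  obtain ⟨x, hx⟩ := hT (Units.mk0 _ hprod0)
  refine ⟨x, fun P hP => ?_⟩
  have h1 := hx P hP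
  rw [Units.val_mk0, count_finsuppProd] at h1
  rw [← valuationOfNeZero_eq, ← h1]
  have h2 := Selmer5.valuationOfNeZero_eq_count (R := 𝓞 F) (K := F) P x
  have h3 : P.valuationOfNeZero x =
      Multiplicative.ofAdd (-count F P (spanSingleton (𝓞 F)⁰ (x : F))) := by
    rw [← h2]; rfl
  rw [h3]
  rfl

end

end Fermat.Agent.S55.ClassGen5
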