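/-
S55 project, leaf 37a-S2-COUNT (helper96), part (A): the isotropic subspace bound.

A totally isotropic subspace of a finite-dimensional space with a (left) non-degenerate bilinear
form (NO symmetry assumed) has dimension at most half of the dimension of the space; consequently
a linear map `loc : B → P` with isotropic image has a kernel of dimension at least
`dim B - dim P / 2`.  This is the linear algebra behind `dim Cl_S(L)/p ≤ dim V_S(L)`
(existence of the `S`-split Hilbert `p`-class field by counting; route R3, plug (S2)).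
-/
import Mathlib

set_option autoImplicit false

open Module

namespace Fermat.Agent.S55.Isotropy96

variable {k P : Type*} [Field k] [AddCommGroup P] [Module k P] [FiniteDimensional k P]

/-- A totally isotropic subspace for a left non-degenerate bilinear form has at most half the
dimension. -/
theorem two_mul_finrank_le_of_isotropic (β : P →ₗ[k] P →ₗ[k] k)
    (hβ : ∀ x, (∀ y, β x y = 0) → x = 0) (W : Submodule k P)
    (hW : ∀ x ∈ W, ∀ y ∈ W, β x y = 0) : 2 * finrank k W ≤ finrank k P := by
  have hinj : Function.Injective β := by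
    rw [← LinearMap.ker_eq_bot, LinearMap.ker_eq_bot']
    intro x hx
    exact hβ x (fun y => by rw [hx]; rfl)
  set Φ : Submodule k (Module.Dual k P) := W.map β with hΦ
  have h1 : finrank k Φ = finrank k W :=
    (Submodule.equivMapOfInjective β hinj W).finrank_eq.symm
  have h2 : W ≤ Φ.dualCoannihilator := by
    intro y hy
    rw [Submodule.mem_dualCoannihilator]
    rintro φ ⟨x, hx, rfl⟩
    exact hW x hx y hy
  have h3 := Subspace.finrank_add_finrank_dualCoannihilator_eq Φ
  have h4 : finrank k W ≤ finrank k Φ.dualCoannihilator := Submodule.finrank_mono h2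
  omega

/-- A linear map with isotropic image has a big kernel. -/
theorem two_mul_finrank_le_ker_add {B : Type*} [AddCommGroup B] [Module k B]
    [FiniteDimensional k B] (β : P →ₗ[k] P →ₗ[k] k)
    (hβ : ∀ x, (∀ y, β x y = 0) → x = 0) (loc : B →ₗ[k] P)
    (hiso : ∀ a b, β (loc a) (loc b) = 0) :
    2 * finrank k B ≤ 2 * finrank k (LinearMap.ker loc) + finrank k P := by
  have h1 : 2 * finrank k (LinearMap.range loc) ≤ finrank k P := by
    apply two_mul_finrank_le_of_isotropic β hβ
    rintro _ ⟨a, rfl⟩ _ ⟨b, rfl⟩
    exact hiso a b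
  have h2 := LinearMap.finrank_range_add_finrank_ker loc
  omega

/-- The counting step in the shape of plug (S2): if `dim B = s + c`, `dim P = 2 s` and the image of
`loc : B → P` is isotropic, then `c ≤ dim ker loc`. -/
theorem le_finrank_ker_of_isotropic {B : Type*} [AddCommGroup B] [Module k B]
    [FiniteDimensional k B] (β : P →ₗ[k] P →ₗ[k] k)
    (hβ : ∀ x, (∀ y, β x y = 0) → x = 0) (loc : B →ₗ[k] P)
    (hiso : ∀ a b, β (loc a) (loc b) = 0) (s c : ℕ) (hB : finrank k B = s + c)
    (hP : finrank k P = 2 * s) : c ≤ finrank k (LinearMap.ker loc) := by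
  have := two_mul_finrank_le_ker_add β hβ loc hiso
  omega

/-- Variant with a bound `dim P ≤ 2 s` and `s + c ≤ dim B`. -/
theorem le_finrank_ker_of_isotropic' {B : Type*} [AddCommGroup B] [Module k B]
    [FiniteDimensional k B] (β : P →ₗ[k] P →ₗ[k] k)
    (hβ : ∀ x, (∀ y, β x y = 0) → x = 0) (loc : B →ₗ[k] P)
    (hiso : ∀ a b, β (loc a) (loc b) = 0) (s c : ℕ) (hB : s + c ≤ finrank k B)
    (hP : finrank k P ≤ 2 * s) : c ≤ finrank k (LinearMap.ker loc) := by
  have := two_mul_finrank_le_ker_add β hβ loc hiso
  omega

end Fermat.Agent.S55.Isotropy96
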