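/-
S55 project, leaf 47a (helper96), part (c): the COUNT of report #1761 (c) / #1777 (S2-COUNT).

Abstract shape.  `k` a field (`k = ZMod p`), all spaces `k`-vector spaces:

* `E`  = `E_{L,S}/p`            (S-units mod `p`-th powers),
* `H`  = `H^1(U, μ_p)`          (`U = G_{L,S}`, `μ_p ⊂ L`),
* `T`  = `A_U[p]`, `A_U = H^1(U, E_S)`,
* `Q`  = `A_U/p = sha2(U, μ_p)` (46-S1),
* `P`  = `⊕_{w | S} H^1(G_{L_w}, μ_p)` with the local Hilbert pairing `β`,
* `κ : E → H` injective, `π : H → T` surjective, `π ∘ κ = 0`  (Kummer sequence),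
* `dim Q ≤ dim T`  (TorsionQuot: `|A/pA| ≤ |A[p]|` for a torsion group),
* `dim P ≤ 2 dim E`  (local index `p²/|p|_w`, S-unit theorem),
* `β` left non-degenerate, `loc : H → P` with isotropic image (reciprocity).

Then `dim sha2 = dim Q ≤ dim ker loc = dim sha1(U, μ_p)`.
-/
import Fermat.Agent.S55.Isotropy96

set_option autoImplicit false

open Module

namespace Fermat.Agent.S55.Count96

open Fermat.Agent.S55.Isotropy96

section Field

variable {k : Type*} [Field k]
variable {E H T : Type*} [AddCommGroup E] [Module k E] [AddCommGroup H] [Module k H]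
  [AddCommGroup T] [Module k T]

/-- For a complex `E → H → T` with `κ` injective and `π` surjective:
`dim E + dim T ≤ dim H`. -/
theorem finrank_add_finrank_le_of_complex [FiniteDimensional k H]
    (κ : E →ₗ[k] H) (hκ : Function.Injective κ) (π : H →ₗ[k] T) (hπ : Function.Surjective π)
    (hπκ : ∀ e, π (κ e) = 0) : finrank k E + finrank k T ≤ finrank k H := by
  have h1 : finrank k E = finrank k (LinearMap.range κ) :=
    (LinearEquiv.ofInjective κ hκ).finrank_eq
  have h2 : LinearMap.range κ ≤ LinearMap.ker π := by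
    rintro _ ⟨e, rfl⟩
    exact hπκ e
  have h3 := Submodule.finrank_mono h2
  have h4 := LinearMap.finrank_range_add_finrank_ker π
  rw [LinearMap.range_eq_top.mpr hπ, finrank_top] at h4
  omega

/-- If moreover the sequence is exact at `H`: `dim E + dim T = dim H`. -/
theorem finrank_add_finrank_eq_of_exact [FiniteDimensional k H]
    (κ : E →ₗ[k] H) (hκ : Function.Injective κ) (π : H →ₗ[k] T) (hπ : Function.Surjective π)
    (hex : LinearMap.range κ = LinearMap.ker π) : finrank k E + finrank k T = finrank k H := by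
  have h1 : finrank k E = finrank k (LinearMap.range κ) :=
    (LinearEquiv.ofInjective κ hκ).finrank_eq
  have h4 := LinearMap.finrank_range_add_finrank_ker π
  rw [LinearMap.range_eq_top.mpr hπ, finrank_top, ← hex] at h4
  omega

variable {P : Type*} [AddCommGroup P] [Module k P] [FiniteDimensional k P]

/-- **The count (c)**, single pairing form:  `dim Q ≤ dim ker loc`. -/
theorem finrank_le_finrank_ker_loc [FiniteDimensional k H]
    (κ : E →ₗ[k] H) (hκ : Function.Injective κ) (π : H →ₗ[k] T) (hπ : Function.Surjective π)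
    (hπκ : ∀ e, π (κ e) = 0)
    (β : P →ₗ[k] P →ₗ[k] k) (hβ : ∀ x, (∀ y, β x y = 0) → x = 0)
    (loc : H →ₗ[k] P) (hiso : ∀ a b, β (loc a) (loc b) = 0)
    (hP : finrank k P ≤ 2 * finrank k E) (c : ℕ) (hc : c ≤ finrank k T) :
    c ≤ finrank k (LinearMap.ker loc) := by
  have h1 := finrank_add_finrank_le_of_complex κ hκ π hπ hπκ
  exact le_finrank_ker_of_isotropic' β hβ loc hiso (finrank k E) c (by omega) hP

/-- The same with an explicit number `s ≤ dim E` (only a lower bound for the unit rank is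
needed) and `dim P ≤ 2 s`. -/
theorem finrank_le_finrank_ker_loc' [FiniteDimensional k H]
    (κ : E →ₗ[k] H) (hκ : Function.Injective κ) (π : H →ₗ[k] T) (hπ : Function.Surjective π)
    (hπκ : ∀ e, π (κ e) = 0)
    (β : P →ₗ[k] P →ₗ[k] k) (hβ : ∀ x, (∀ y, β x y = 0) → x = 0)
    (loc : H →ₗ[k] P) (hiso : ∀ a b, β (loc a) (loc b) = 0)
    (s : ℕ) (hs : s ≤ finrank k E) (hP : finrank k P ≤ 2 * s) (c : ℕ) (hc : c ≤ finrank k T) :
    c ≤ finrank k (LinearMap.ker loc) := by
  have h1 := finrank_add_finrank_le_of_complex κ hκ π hπ hπκ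
  exact le_finrank_ker_of_isotropic' β hβ loc hiso s c (by omega) hP

end Field

section Pi

variable {k : Type*} [Field k]
variable {E H T : Type*} [AddCommGroup E] [Module k E] [AddCommGroup H] [Module k H]
  [AddCommGroup T] [Module k T]
variable {ι : Type*} [Fintype ι] {W : ι → Type*} [∀ w, AddCommGroup (W w)]
  [∀ w, Module k (W w)] [∀ w, FiniteDimensional k (W w)]

omit [∀ w, FiniteDimensional k (W w)] in
/-- the orthogonal sum of local pairings is left non-degenerate -/
theorem sum_pairing_nondegenerate (β : ∀ w, W w →ₗ[k] W w →ₗ[k] k)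
    (hβ : ∀ w, ∀ x, (∀ y, β w x y = 0) → x = 0) (x : ∀ w, W w)
    (hx : ∀ y : ∀ w, W w, ∑ w, β w (x w) (y w) = 0) : x = 0 := by
  classical
  funext w
  apply hβ w
  intro y
  have := hx (Pi.single w y)
  rw [Finset.sum_eq_single w] at this
  · simpa using this
  · intro v _ hv
    rw [Pi.single_eq_of_ne hv, map_zero]
  · intro h
    exact absurd (Finset.mem_univ w) h

/-- **The count (c)**, semi-local form: local pairings `β w` on `W w`, localisation maps
`loc w : H → W w`, product formula `∑ w, β w (loc w a) (loc w b) = 0`,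
`∑ w, dim W w ≤ 2 s`, `s ≤ dim E`, `c ≤ dim T`  ⟹  `c ≤ dim ⋂ ker (loc w)`. -/
theorem finrank_le_finrank_iInf_ker_loc [FiniteDimensional k H]
    (κ : E →ₗ[k] H) (hκ : Function.Injective κ) (π : H →ₗ[k] T) (hπ : Function.Surjective π)
    (hπκ : ∀ e, π (κ e) = 0)
    (β : ∀ w, W w →ₗ[k] W w →ₗ[k] k) (hβ : ∀ w, ∀ x, (∀ y, β w x y = 0) → x = 0)
    (loc : ∀ w, H →ₗ[k] W w) (hiso : ∀ a b, ∑ w, β w (loc w a) (loc w b) = 0)
    (s : ℕ) (hs : s ≤ finrank k E) (hP : ∑ w, finrank k (W w) ≤ 2 * s)
    (c : ℕ) (hc : c ≤ finrank k T) :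
    c ≤ finrank k (⨅ w, LinearMap.ker (loc w) : Submodule k H) := by
  classical
  have hker : LinearMap.ker (LinearMap.pi loc) = ⨅ w, LinearMap.ker (loc w) :=
    LinearMap.ker_pi loc
  rw [← hker]
  let B : (∀ w, W w) →ₗ[k] (∀ w, W w) →ₗ[k] k :=
    ∑ w, ((β w).compl₁₂ (LinearMap.proj w) (LinearMap.proj w))
  have hB : ∀ x y, B x y = ∑ w, β w (x w) (y w) := by
    intro x y
    simp [B, LinearMap.sum_apply]
  refine finrank_le_finrank_ker_loc' κ hκ π hπ hπκ B ?_ (LinearMap.pi loc) ?_ s hs ?_ c hc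
  · intro x hx
    exact sum_pairing_nondegenerate β hβ x (fun y => by rw [← hB]; exact hx y)
  · intro a b
    rw [hB]
    exact hiso a b
  · rwa [Module.finrank_pi_fintype]

end Pi

section Card

variable {p : ℕ} [Fact p.Prime]

/-- for finite `ZMod p`-spaces, comparing cardinalities is comparing dimensions -/
theorem finrank_le_of_card_le {Q T : Type*} [AddCommGroup Q] [Module (ZMod p) Q] [Finite Q]
    [AddCommGroup T] [Module (ZMod p) T] [Finite T] (h : Nat.card Q ≤ Nat.card T) :
    finrank (ZMod p) Q ≤ finrank (ZMod p) T := by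
  have hp : 1 < p := (Fact.out : p.Prime).one_lt
  have h1 : Nat.card Q = p ^ finrank (ZMod p) Q := by
    rw [Module.natCard_eq_pow_finrank (K := ZMod p) (V := Q), Nat.card_zmod]
  have h2 : Nat.card T = p ^ finrank (ZMod p) T := by
    rw [Module.natCard_eq_pow_finrank (K := ZMod p) (V := T), Nat.card_zmod]
  rw [h1, h2] at h
  exact (Nat.pow_le_pow_iff_right hp).mp h

theorem card_le_of_finrank_le {Q T : Type*} [AddCommGroup Q] [Module (ZMod p) Q] [Finite Q]
    [AddCommGroup T] [Module (ZMod p) T] [Finite T]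
    (h : finrank (ZMod p) Q ≤ finrank (ZMod p) T) : Nat.card Q ≤ Nat.card T := by
  have hp : 0 < p := (Fact.out : p.Prime).pos
  rw [Module.natCard_eq_pow_finrank (K := ZMod p) (V := Q),
    Module.natCard_eq_pow_finrank (K := ZMod p) (V := T), Nat.card_zmod]
  exact Nat.pow_le_pow_right hp h

end Card

end Fermat.Agent.S55.Count96
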