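/-
S55 / P5 (LocalDim), bookkeeping seam (helper88, second seat of helper32):
double cosets `K \ G / U` for a normal subgroup `U` are the left cosets of the image of `K`
in `G ⧸ U`.  Mathlib only.
-/
import Mathlib

set_option autoImplicit false

namespace Fermat.Agent.S55.PlaceCount88

open DoubleCoset

variable {G : Type*} [Group G]

/-- the map `K g U ↦ π(g)⁻¹ π(K)` on representatives -/
def toQuotFun (K U : Subgroup G) [U.Normal] (g : G) :
    (G ⧸ U) ⧸ (K.map (QuotientGroup.mk' U)) :=
  QuotientGroup.mk ((QuotientGroup.mk g : G ⧸ U)⁻¹)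

lemma toQuotFun_eq_iff (K U : Subgroup G) [U.Normal] (g g' : G) :
    toQuotFun K U g = toQuotFun K U g' ↔ ∃ a ∈ K, ∃ b ∈ U, g' = a * g * b := by
  unfold toQuotFun
  rw [QuotientGroup.eq, inv_inv, Subgroup.mem_map]
  constructor
  · rintro ⟨a, ha, hag⟩
    -- `π a = π g * (π g')⁻¹`
    have h1 : (QuotientGroup.mk (a⁻¹ * g * g'⁻¹) : G ⧸ U) = 1 := by
      have : (QuotientGroup.mk' U) a = (QuotientGroup.mk g : G ⧸ U) * (QuotientGroup.mk g')⁻¹ :=
        hag
      simp only [QuotientGroup.mk'_apply] at this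
      simp only [QuotientGroup.mk_mul, QuotientGroup.mk_inv, this]
      group
    rw [QuotientGroup.eq_one_iff] at h1
    -- `g' = a⁻¹ * g * (g'⁻¹ * (a⁻¹ * g * g'⁻¹)⁻¹ * g')`
    refine ⟨a⁻¹, K.inv_mem ha, g'⁻¹ * (a⁻¹ * g * g'⁻¹)⁻¹ * g', ?_, by group⟩
    have := Subgroup.Normal.conj_mem (inferInstance : U.Normal) _ (U.inv_mem h1) g'⁻¹
    simpa using this
  · rintro ⟨a, ha, b, hb, rfl⟩
    refine ⟨a⁻¹, K.inv_mem ha, ?_⟩
    have hb1 : (QuotientGroup.mk b : G ⧸ U) = 1 := (QuotientGroup.eq_one_iff b).2 hb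
    simp only [QuotientGroup.mk'_apply, QuotientGroup.mk_mul, QuotientGroup.mk_inv, hb1, mul_one,
      mul_inv_rev]
    group

/-- `K \ G / U ≃ (G ⧸ U) ⧸ π(K)` for `U` normal, `K g U ↦ π(g)⁻¹ π(K)`. -/
noncomputable def doubleCosetEquiv (K U : Subgroup G) [U.Normal] :
    DoubleCoset.Quotient (K : Set G) (U : Set G) ≃ (G ⧸ U) ⧸ (K.map (QuotientGroup.mk' U)) :=
  Equiv.ofBijective
    (Quotient.lift (toQuotFun K U) (fun g g' h =>
      (toQuotFun_eq_iff K U g g').2 (DoubleCoset.rel_iff.1 h)))
    (by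
      constructor
      · intro x y
        induction x using Quotient.inductionOn with
        | h g =>
          induction y using Quotient.inductionOn with
          | h g' =>
            intro h
            exact Quotient.sound (DoubleCoset.rel_iff.2 ((toQuotFun_eq_iff K U g g').1 h))
      · intro y
        induction y using QuotientGroup.induction_on with
        | H z =>
          induction z using QuotientGroup.induction_on with
          | H g =>
            refine ⟨Quotient.mk'' g⁻¹, ?_⟩
            show toQuotFun K U g⁻¹ = _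
            simp [toQuotFun])

@[simp] lemma doubleCosetEquiv_mk (K U : Subgroup G) [U.Normal] (g : G) :
    doubleCosetEquiv K U (DoubleCoset.mk K U g) =
      QuotientGroup.mk ((QuotientGroup.mk g : G ⧸ U)⁻¹) := rfl

/-- the count used by `Contract34.LocalDim`:
`#(K \ G / U) = #((G ⧸ U) ⧸ π(K))` for `U` normal. -/
theorem card_doubleCoset_eq (K U : Subgroup G) [U.Normal] :
    Nat.card (DoubleCoset.Quotient (K : Set G) (U : Set G)) =
      Nat.card ((G ⧸ U) ⧸ (K.map (QuotientGroup.mk' U))) :=
  Nat.card_congr (doubleCosetEquiv K U)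

/-- variant with the image written as a range: for `r : H →* G`,
`#(r(H) \ G / U) = #((G ⧸ U) ⧸ range (π ∘ r))`. -/
theorem card_doubleCoset_range_eq {H : Type*} [Group H] (r : H →* G) (U : Subgroup G)
    [U.Normal] :
    Nat.card (DoubleCoset.Quotient (r.range : Set G) (U : Set G)) =
      Nat.card ((G ⧸ U) ⧸ ((QuotientGroup.mk' U).comp r).range) := by
  rw [card_doubleCoset_eq, MonoidHom.range_eq_map, MonoidHom.range_eq_map, ← Subgroup.map_map]

end Fermat.Agent.S55.PlaceCount88
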