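/-
S55 project, leaf 37a-S2-COUNT (helper96), part (B2): the group of invertible fractional ideals of
a Dedekind domain is the free abelian group on the height one primes (via `FractionalIdeal.count`).
-/
import Mathlib

set_option autoImplicit false

open IsDedekindDomain FractionalIdeal
open scoped nonZeroDivisors

namespace Fermat.Agent.S55.DivisorEquiv96

variable (R : Type*) [CommRing R] [IsDedekindDomain R]
variable (K : Type*) [Field K] [Algebra R K] [IsFractionRing R K]

/-- the group of divisors, multiplicatively -/
abbrev DivGrp : Type _ := Multiplicative (HeightOneSpectrum R →₀ ℤ)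

/-- the divisor of a fractional ideal as a finitely supported function -/
noncomputable def idealDivFun (I : FractionalIdeal R⁰ K) : HeightOneSpectrum R →₀ ℤ :=
  Finsupp.ofSupportFinite (fun v => count K v I) (by
    have := finite_factors (K := K) I
    rw [Filter.eventually_cofinite] at this
    exact this)

@[simp]
theorem idealDivFun_apply (I : FractionalIdeal R⁰ K) (v : HeightOneSpectrum R) :
    idealDivFun R K I v = count K v I := rfl

/-- the divisor map on invertible fractional ideals -/
noncomputable def idealDiv : (FractionalIdeal R⁰ K)ˣ →* DivGrp R where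
  toFun I := Multiplicative.ofAdd (idealDivFun R K (I : FractionalIdeal R⁰ K))
  map_one' := by
    rw [← ofAdd_zero]
    congr 1
    ext v
    simp [count_one]
  map_mul' I J := by
    rw [← ofAdd_add]
    congr 1
    ext v
    simp only [Units.val_mul, idealDivFun_apply, Finsupp.add_apply]
    exact count_mul K v I.ne_zero J.ne_zero

theorem toAdd_idealDiv_apply (I : (FractionalIdeal R⁰ K)ˣ) (v : HeightOneSpectrum R) :
    Multiplicative.toAdd (idealDiv R K I) v = count K v (I : FractionalIdeal R⁰ K) := rfl

theorem idealDiv_injective : Function.Injective (idealDiv R K) := by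
  rw [injective_iff_map_eq_one]
  intro I hI
  have h0 : ∀ v, count K v (I : FractionalIdeal R⁰ K) = 0 := by
    intro v
    rw [← toAdd_idealDiv_apply, hI]
    rfl
  have h1 := finprod_heightOneSpectrum_factorization' K (I := (I : FractionalIdeal R⁰ K)) I.ne_zero
  simp only [h0, zpow_zero, finprod_one] at h1
  exact Units.ext h1.symm

theorem idealDiv_surjective : Function.Surjective (idealDiv R K) := by
  intro a
  set J : FractionalIdeal R⁰ K :=
    (Multiplicative.toAdd a).prod (fun v n => (v.asIdeal : FractionalIdeal R⁰ K) ^ n) with hJ
  have hJ0 : J ≠ 0 := by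
    rw [hJ, Finsupp.prod]
    exact Finset.prod_ne_zero_iff.mpr
      (fun v _ => zpow_ne_zero _ (coeIdeal_ne_zero.mpr v.ne_bot))
  refine ⟨Units.mk0 J hJ0, ?_⟩
  apply Multiplicative.toAdd.injective
  ext v
  rw [toAdd_idealDiv_apply, Units.val_mk0, hJ]
  exact count_finsuppProd K v _

/-- **Invertible fractional ideals = free abelian group on the primes.** -/
noncomputable def idealDivEquiv : (FractionalIdeal R⁰ K)ˣ ≃* DivGrp R :=
  MulEquiv.ofBijective (idealDiv R K) ⟨idealDiv_injective R K, idealDiv_surjective R K⟩

/-- the divisor of a nonzero element of `K` -/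
noncomputable def divK : Kˣ →* DivGrp R := (idealDiv R K).comp (toPrincipalIdeal R K)

theorem toAdd_divK_apply (x : Kˣ) (v : HeightOneSpectrum R) :
    Multiplicative.toAdd (divK R K x) v = count K v (spanSingleton R⁰ (x : K)) := by
  rw [divK, MonoidHom.comp_apply, toAdd_idealDiv_apply, coe_toPrincipalIdeal]

theorem divK_ker : (divK R K).ker = (toPrincipalIdeal R K).ker := by
  ext x
  rw [MonoidHom.mem_ker, MonoidHom.mem_ker, divK, MonoidHom.comp_apply]
  constructor
  · intro h
    exact idealDiv_injective R K (by rw [h, map_one])
  · intro h
    rw [h, map_one]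

theorem divK_range : (divK R K).range = (toPrincipalIdeal R K).range.map (idealDiv R K) := by
  rw [divK, MonoidHom.range_comp]

/-- the index of the principal divisors is the class number -/
theorem index_divK_range : (divK R K).range.index = Nat.card (ClassGroup R) := by
  rw [divK_range]
  have h1 : ((toPrincipalIdeal R K).range.map (idealDiv R K)).index =
      (toPrincipalIdeal R K).range.index := by
    have := Subgroup.index_map_equiv (toPrincipalIdeal R K).range (idealDivEquiv R K)
    exact this
  rw [h1, Subgroup.index]
  exact Nat.card_congr (ClassGroup.equiv K).symm.toEquiv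

end Fermat.Agent.S55.DivisorEquiv96
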