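/-
[34 (R1), complement] (helper71): `epsHom` is bijective: it preserves every torsion subgroup
`QZ[N]`, which is finite, and is injective.  Hence `epsHom_surj_tors`, `epsHom_surj_primary`,
`epsHom_surjective`, `epsEquiv`.
-/
import Fermat.Agent.S55.EpsHom71

set_option autoImplicit false

namespace Fermat.Agent.S55.EpsHom71

open Fermat.Agent.S55.QZ33 Fermat.Agent.S55.CycloRecip37

variable (p : ℕ) [hp : Fact p.Prime] (eps : ∀ n, (ZMod (p ^ n))ˣ)
  (heps : ∀ n, ThetaUnit.red p n ((eps (n + 1) : (ZMod (p ^ (n + 1)))ˣ) : ZMod (p ^ (n + 1))) =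
    ((eps n : (ZMod (p ^ n))ˣ) : ZMod (p ^ n)))

/-- the `N`-torsion of `ℚ/ℤ` is finite -/
lemma finite_tors {N : ℕ} (hN : N ≠ 0) : Finite ↥(QZ.tors N) :=
  have : NeZero N := ⟨hN⟩
  Finite.of_equiv (ZMod N) (QZ.torsionEquiv hN).toEquiv

/-- `epsHom` is onto each torsion subgroup `QZ[N]`. -/
theorem epsHom_surj_tors (t : QZ) {N : ℕ} (hN : N ≠ 0) (ht : N • t = 0) :
    ∃ s : QZ, N • s = 0 ∧ epsHom p eps heps s = t := by
  have hfin := finite_tors hN
  let f : ↥(QZ.tors N) → ↥(QZ.tors N) := fun s =>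
    ⟨epsHom p eps heps s.1, by
      rw [QZ.mem_tors_iff, ← map_nsmul, QZ.mem_tors_iff.1 s.2, map_zero]⟩
  have hf : Function.Injective f := fun a b hab =>
    Subtype.ext (epsHom_injective p eps heps (congrArg Subtype.val hab))
  obtain ⟨s, hs⟩ := (Finite.injective_iff_surjective.1 hf) ⟨t, QZ.mem_tors_iff.2 ht⟩
  exact ⟨s.1, QZ.mem_tors_iff.1 s.2, congrArg Subtype.val hs⟩

/-- `p`-primary surjectivity of `epsHom` (the `hsurjp` shape). -/
theorem epsHom_surj_primary (t : QZ) (n : ℕ) (ht : p ^ n • t = 0) :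
    ∃ s : QZ, p ^ n • s = 0 ∧ epsHom p eps heps s = t :=
  epsHom_surj_tors p eps heps t (pow_ne_zero _ hp.out.ne_zero) ht

theorem epsHom_surjective : Function.Surjective (epsHom p eps heps) := by
  intro t
  obtain ⟨N, hN, hNt⟩ := QZ.exists_nsmul_eq_zero t
  obtain ⟨s, -, hs⟩ := epsHom_surj_tors p eps heps t hN.ne' hNt
  exact ⟨s, hs⟩

/-- **the twist by a `p`-adic unit as an automorphism of `ℚ/ℤ`**. -/
noncomputable def epsEquiv : QZ ≃+ QZ :=
  AddEquiv.ofBijective (epsHom p eps heps)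
    ⟨epsHom_injective p eps heps, epsHom_surjective p eps heps⟩

@[simp] lemma epsEquiv_apply (t : QZ) : epsEquiv p eps heps t = epsHom p eps heps t := rfl

/-- `epsHom` preserves the order of every element -/
theorem nsmul_epsHom_eq_zero_iff (t : QZ) (N : ℕ) :
    N • epsHom p eps heps t = 0 ↔ N • t = 0 := by
  rw [← map_nsmul]
  exact ⟨fun h => epsHom_injective p eps heps (h.trans (map_zero _).symm),
    fun h => by rw [h, map_zero]⟩

end Fermat.Agent.S55.EpsHom71
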