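/-
S55 FINAL ASSEMBLY (helper33, owner/integrator): `Contract34.ArithStatement` from the six plug
theorems, and the frozen statement from `TopStatement`.  DRAFT with the plugs as hypotheses.
-/
import Fermat.Agent.S55.Contract34
import Fermat.Agent.S55.ProfinGlobal22.SRep

set_option autoImplicit false

open CategoryTheory Module groupCohomology ExtCitation

namespace Fermat.Agent.S55.Final33

open Fermat.Agent.S55

/-- the six arithmetic plugs, in the literal `Contract34` form -/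
theorem arithStatement_of
    (P1 : ∀ (p : ℕ) [Fact p.Prime], p ≠ 2 → ∀ S : Finset Nat.Primes, pPrime p ∈ S →
      Contract34.GlobalRightExact p S)
    (P2 : ∀ (p : ℕ) [Fact p.Prime], p ≠ 2 → ∀ S : Finset Nat.Primes, pPrime p ∈ S →
      ∀ q ∈ S, Contract34.LocalRightExact p q)
    (P34 : ∀ (p : ℕ) [Fact p.Prime], p ≠ 2 → ∀ S : Finset Nat.Primes, pPrime p ∈ S →
      Contract34.Reciprocity p S)
    (P5 : ∀ (p : ℕ) [Fact p.Prime], p ≠ 2 → ∀ S : Finset Nat.Primes, pPrime p ∈ S →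
      Contract34.LocalDim p S)
    (P6 : ∀ (p : ℕ) [Fact p.Prime], p ≠ 2 → ∀ S : Finset Nat.Primes, pPrime p ∈ S →
      Contract34.GlobalCokerDim p S)
    (P7 : ∀ (p : ℕ) [Fact p.Prime], p ≠ 2 → ∀ S : Finset Nat.Primes, pPrime p ∈ S →
      Contract34.HilbertPlug p S) :
    Contract34.ArithStatement :=
  fun p _ hp2 S hpS =>
    ⟨P1 p hp2 S hpS, P2 p hp2 S hpS, P34 p hp2 S hpS, P5 p hp2 S hpS, P6 p hp2 S hpS,
      P7 p hp2 S hpS⟩

/-- the frozen statement from the top layer and the arithmetic -/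
theorem s55_of (hTop : Contract34.TopStatement) (hArith : Contract34.ArithStatement)
    {p : ℕ} [Fact p.Prime] (hp2 : p ≠ 2) (S : Finset Nat.Primes) (hpS : pPrime p ∈ S)
    (M : Rep (ZMod p) (AlgebraicClosure ℚ ≃ₐ[ℚ] AlgebraicClosure ℚ))
    [FiniteDimensional (ZMod p) M]
    (hsm : ∀ m : M, ∃ F : IntermediateField ℚ (AlgebraicClosure ℚ), FiniteDimensional ℚ F ∧
      ∀ s ∈ F.fixingSubgroup, M.ρ s m = m)
    (hMur : ∀ q : Nat.Primes, q ∉ S → ∀ A : ValuationSubring (AlgebraicClosure ℚ),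
      A.LiesOverPrime (q : ℕ) → ∀ g ∈ A.inertiaSubgroupIn ℚ, M.ρ g = 1) :
    ∃ B : sha₁ S (M.dualTwist (cycloChar p)) →ₗ[ZMod p] sha₂ S M →ₗ[ZMod p] ZMod p,
      (∀ y, (∀ x, B y x = 0) → y = 0) ∧ (∀ x, (∀ y, B y x = 0) → x = 0) :=
  Spine15.s55_of_dimStatement
    (Contract34.dimStatement_of_contract hTop hArith ProfinGlobal22.sRepStatement)
    hp2 S hpS M hsm hMur

end Fermat.Agent.S55.Final33
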