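/-
S55 FINAL ASSEMBLY, state of 10:30Z (helper33, owner/integrator of `Fermat/Agent/S55.lean`).

New since `Final33e`: (P7') `Contract34.HilbertCount p S` is reduced (helper84,
`P7Named84.hilbertCount_of_named`) to (P3P4) `Contract34.Reciprocity p S`, the unconditional local
base case `KummerBr95.localBaseDim32` and the ONE Prop `P7Named84.ShaKummer p S` (kernel half of
(S1) at the level `U`).  Hence:

* `s55_of_named4 hDatum P34 hLevU hShaK` : the frozen statement from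
  (A3)  `CDArith63.P1Chain.HasFormationDatum p S V hV` for every open `V` on which `μ_p` is trivial,
  (P34) `Contract34.Reciprocity p S`,
  (A5)  `ShapiroLevel32.GlobalLevelU p S`,
  (A6') `P7Named84.ShaKummer p S`.
* `s55_of_plugs3 P1 P34 P6 hShaK` : the same with the literal plugs (P1), (P6).
-/
import Fermat.Agent.S55.Final33e
import Fermat.Agent.S55.P7Named84
import Fermat.Agent.S55.KummerBr95.P5Final

set_option autoImplicit false

open CategoryTheory Module groupCohomology ExtCitation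

namespace Fermat.Agent.S55.Final33f

open Fermat.Agent.S55

section

variable {p : ℕ} [Fact p.Prime] (hp2 : p ≠ 2) (S : Finset Nat.Primes) (hpS : pPrime p ∈ S)
  (M : Rep (ZMod p) (AlgebraicClosure ℚ ≃ₐ[ℚ] AlgebraicClosure ℚ))
  [FiniteDimensional (ZMod p) M]
  (hsm : ∀ m : M, ∃ F : IntermediateField ℚ (AlgebraicClosure ℚ), FiniteDimensional ℚ F ∧
    ∀ s ∈ F.fixingSubgroup, M.ρ s m = m)
  (hMur : ∀ q : Nat.Primes, q ∉ S → ∀ A : ValuationSubring (AlgebraicClosure ℚ),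
    A.LiesOverPrime (q : ℕ) → ∀ g ∈ A.inertiaSubgroupIn ℚ, M.ρ g = 1)

include hp2 hpS hsm hMur

/-- the frozen statement from the literal plugs (P1), (P3P4), (P6) and `ShaKummer` -/
theorem s55_of_plugs3
    (P1 : ∀ (p : ℕ) [Fact p.Prime], p ≠ 2 → ∀ S : Finset Nat.Primes, pPrime p ∈ S →
      Contract34.GlobalRightExact p S)
    (P34 : ∀ (p : ℕ) [Fact p.Prime], p ≠ 2 → ∀ S : Finset Nat.Primes, pPrime p ∈ S →
      Contract34.Reciprocity p S)
    (P6 : ∀ (p : ℕ) [Fact p.Prime], p ≠ 2 → ∀ S : Finset Nat.Primes, pPrime p ∈ S →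
      Contract34.GlobalCokerDim p S)
    (hShaK : ∀ (p : ℕ) [Fact p.Prime], p ≠ 2 → ∀ S : Finset Nat.Primes, pPrime p ∈ S →
      P7Named84.ShaKummer p S) :
    ∃ B : sha₁ S (M.dualTwist (cycloChar p)) →ₗ[ZMod p] sha₂ S M →ₗ[ZMod p] ZMod p,
      (∀ y, (∀ x, B y x = 0) → y = 0) ∧ (∀ x, (∀ y, B y x = 0) → x = 0) :=
  Final33e.s55_of_four hp2 S hpS M hsm hMur P1 P34 P6
    (fun p _ hp2 S hpS =>
      P7Named84.hilbertCount_of_named hp2 hpS (P34 p hp2 S hpS)
        (KummerBr95.localBaseDim32 p S) (hShaK p hp2 S hpS))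

/-- the frozen statement from the four NAMED arithmetic inputs (A3), (P34), (A5), (A6') -/
theorem s55_of_named4
    (hDatum : ∀ (p : ℕ) [Fact p.Prime], p ≠ 2 → ∀ S : Finset Nat.Primes, pPrime p ∈ S →
      ∀ (V : Subgroup (AlgebraicClosure ℚ ≃ₐ[ℚ] AlgebraicClosure ℚ))
        (hV : CD3.IsOpenSub (Profin15.globalLevels S) V), CDArith63.Global.MuTriv p V →
        CDArith63.P1Chain.HasFormationDatum p S V hV)
    (P34 : ∀ (p : ℕ) [Fact p.Prime], p ≠ 2 → ∀ S : Finset Nat.Primes, pPrime p ∈ S →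
      Contract34.Reciprocity p S)
    (hLevU : ∀ (p : ℕ) [Fact p.Prime], p ≠ 2 → ∀ S : Finset Nat.Primes, pPrime p ∈ S →
      ShapiroLevel32.GlobalLevelU p S)
    (hShaK : ∀ (p : ℕ) [Fact p.Prime], p ≠ 2 → ∀ S : Finset Nat.Primes, pPrime p ∈ S →
      P7Named84.ShaKummer p S) :
    ∃ B : sha₁ S (M.dualTwist (cycloChar p)) →ₗ[ZMod p] sha₂ S M →ₗ[ZMod p] ZMod p,
      (∀ y, (∀ x, B y x = 0) → y = 0) ∧ (∀ x, (∀ y, B y x = 0) → x = 0) :=
  s55_of_plugs3 hp2 S hpS M hsm hMur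
    (fun p _ hp2 S hpS =>
      CDArith63.P1Chain.globalRightExact_of_datum hpS (hDatum p hp2 S hpS))
    P34
    (fun p _ hp2 S hpS => ShapiroLevel32.globalCokerDim_of_levelU p S (hLevU p hp2 S hpS))
    hShaK

end

end Fermat.Agent.S55.Final33f
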