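/-
S55 / 45b-FORMATION-P (helper14): the `p`-PRIMARY variant of helper63's abstract core
`CDArith63.Formation` ("a `p`-class formation in the limit `0 → E → J → C → 0` gives
`H³(E)[p] = 0` and `H²(E)/p = 0`").

In `CDArith63.h2DivBy_of_formation` the hypothesis `hH1C` asks that EVERY level `1`-cocycle of `C`
be a coboundary.  For `C = J_S / E_S` only the `p`-primary part of level `H¹(C)` is known to vanish
(the second inequality is available for degree-`p` layers only, and only the `p`-part of the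
`S`-class group capitulates inside `ℚ_S` without the principal ideal theorem).  Here `hH1C` is
replaced by

  `hH1Cp : ∀ a, 𝒰.IsConst₁ a → d12 ρC a = 0 → ∀ n, (∃ γ, d01 ρC γ = (p ^ n) • a) → ∃ γ, d01 ρC γ = a`

("a level `1`-cocycle `z` of `C` with `p ^ n • z ∈ B¹` is in `B¹`"), and `hH3J : H3Van 𝒰 ρJ` is
weakened to `H3TorsVan 𝒰 p ρJ` (only `p`-torsion-valued level `3`-cocycles of `J` need to bound).
The conclusions are literally those of `CDArith63` (`H2DivBy`, `H3TorsVan`, `H3Van`).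

* `exists_nsmul_d01` : level `H¹` of any representation is torsion (no smoothness needed);
* `hH1Cp_of_step`, `hH1Cp_of_full` : the `n = 1` form, resp. the full vanishing, imply `hH1Cp`;
* `h2DivBy_of_formation_p`, `h3TorsVan_of_formation_p`, `h3Van_of_formation_p`.
-/
import Fermat.Agent.S55.CDArith63.Torsion

set_option autoImplicit false
set_option linter.unusedSectionVars false
set_option linter.unusedVariables false
set_option linter.style.haveILetI false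

universe u

namespace Fermat.Agent.S55.FormationP14

open Fermat.Agent.S55.Profin15 Fermat.Agent.S55.CDArith63

variable {G : Type u} [Group G] {𝒰 : LevelStr G}

/-! ### level `H¹` is torsion -/

section Tors

variable {k : Type*} [CommRing k] {A : Type*} [AddCommGroup A] [Module k A]
  {ρ : Representation k G A}

/-- a level `1`-cocycle is killed in level `H¹` by the index of any level modulo which it is
constant: `[G:U] • a = d⁰ (- ∑_{x ∈ G/U} a x)`.  No smoothness and no normality is needed. -/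
theorem exists_nsmul_d01 {a : G → A} (ha : 𝒰.IsConst₁ a) (hd : d12 ρ a = 0) :
    ∃ n : ℕ, 0 < n ∧ ∃ γ : A, d01 ρ γ = n • a := by
  classical
  obtain ⟨U, hU, hconst⟩ := ha
  haveI := 𝒰.finiteIndex U hU
  haveI : Finite (G ⧸ U) := Subgroup.finite_quotient_of_finiteIndex
  haveI : Fintype (G ⧸ U) := Fintype.ofFinite _
  have hwd : ∀ h h' : G, (QuotientGroup.mk h : G ⧸ U) = QuotientGroup.mk h' → a h = a h' := by
    intro h h' hh
    have hs : h⁻¹ * h' ∈ U := QuotientGroup.eq.1 hh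
    have := hconst h (h⁻¹ * h') hs
    rw [mul_inv_cancel_left] at this
    exact this.symm
  let abar : G ⧸ U → A := fun x => a (Quotient.out x)
  have habar : ∀ h, abar (QuotientGroup.mk h) = a h := by
    intro h
    exact hwd _ _ (QuotientGroup.out_eq' _)
  refine ⟨Fintype.card (G ⧸ U), Fintype.card_pos, - ∑ x : G ⧸ U, abar x, ?_⟩
  funext g
  -- sum the cocycle identity over the second variable
  have hsum : ∑ x : G ⧸ U, (ρ g (abar x) - abar (g • x) + a g) = 0 := by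
    refine Finset.sum_eq_zero fun x _ => ?_
    induction x using QuotientGroup.induction_on with
    | H j =>
      rw [MulAction.Quotient.smul_mk, habar, habar, smul_eq_mul]
      have := congrFun hd (g, j)
      simpa using this
  have htrans : ∑ x : G ⧸ U, abar (g • x) = ∑ x : G ⧸ U, abar x :=
    Fintype.sum_equiv (MulAction.toPerm g) _ _ (fun x => rfl)
  simp only [Finset.sum_sub_distrib, Finset.sum_add_distrib, Finset.sum_const, Finset.card_univ,
    htrans, ← map_sum] at hsum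
  simp only [d01_apply, Pi.smul_apply, map_neg]
  rw [eq_neg_of_add_eq_zero_right hsum]
  abel

end Tors

/-! ### forms of the `p`-primary vanishing of level `H¹` -/

section Forms

variable {C : Type*} [AddCommGroup C] (ρC : Representation ℤ G C) (p : ℕ)

/-- the `n = 1` form (`p • z ∈ B¹ → z ∈ B¹`) implies the general form -/
theorem hH1Cp_of_step
    (hstep : ∀ a : G → C, 𝒰.IsConst₁ a → d12 ρC a = 0 →
      (∃ γ : C, d01 ρC γ = p • a) → ∃ γ : C, d01 ρC γ = a) :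
    ∀ a : G → C, 𝒰.IsConst₁ a → d12 ρC a = 0 →
      ∀ n : ℕ, (∃ γ : C, d01 ρC γ = (p ^ n) • a) → ∃ γ : C, d01 ρC γ = a := by
  intro a ha hda n
  induction n with
  | zero =>
    rintro ⟨γ, hγ⟩
    exact ⟨γ, by rw [hγ, pow_zero, one_smul]⟩
  | succ n ih =>
    rintro ⟨γ, hγ⟩
    refine ih ?_
    refine hstep ((p ^ n) • a) (isConst₁_nsmul _ ha) (by rw [d12_nsmul, hda, smul_zero]) ⟨γ, ?_⟩
    rw [hγ, pow_succ, mul_comm, mul_smul]

/-- the full vanishing of level `H¹` implies the `p`-primary form -/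
theorem hH1Cp_of_full
    (hfull : ∀ a : G → C, 𝒰.IsConst₁ a → d12 ρC a = 0 → ∃ γ : C, d01 ρC γ = a) :
    ∀ a : G → C, 𝒰.IsConst₁ a → d12 ρC a = 0 →
      ∀ n : ℕ, (∃ γ : C, d01 ρC γ = (p ^ n) • a) → ∃ γ : C, d01 ρC γ = a :=
  fun a ha hda _ _ => hfull a ha hda

end Forms

/-- full vanishing of level `H³` implies the `p`-torsion form -/
theorem h3TorsVan_of_h3Van {p : ℕ} {E : Type*} [AddCommGroup E] (ρE : Representation ℤ G E)
    (h : H3Van 𝒰 ρE) : H3TorsVan 𝒰 p ρE :=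
  fun f hf hdf _ => h f hf hdf

/-! ### the formation, `p`-primary hypotheses -/

section Formation

variable {p : ℕ} [hp : Fact p.Prime]
  {E J C : Type*} [AddCommGroup E] [AddCommGroup J] [AddCommGroup C]
  (ρE : Representation ℤ G E) (ρJ : Representation ℤ G J) (ρC : Representation ℤ G C)
  (i : E →+ J) (π : J →+ C)
  (hiρ : ∀ g e, i (ρE g e) = ρJ g (i e)) (hπρ : ∀ g x, π (ρJ g x) = ρC g (π x))
  (hi : Function.Injective i) (hπ : Function.Surjective π) (hπi : ∀ e, π (i e) = 0)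
  (hex : ∀ x, π x = 0 → x ∈ Set.range i)
  (hsmJ : IsSmoothRep 𝒰 ρJ)
  {W : Type*} [Fintype W] (w₀ : W) {T : Type*} [AddCommGroup T]
  (invJ : W → (H2 𝒰 ρJ →+ T)) (invC : H2 𝒰 ρC →+ T)
  (hinj : ∀ (x : H2 𝒰 ρJ) (n : ℕ), (p ^ n) • x = 0 → (∀ w, invJ w x = 0) → x = 0)
  (hsurj : ∀ (t : W → T) (n : ℕ), (∀ w, (p ^ n) • t w = 0) →
    ∃ x : H2 𝒰 ρJ, (p ^ n) • x = 0 ∧ ∀ w, invJ w x = t w)
  (hTdiv : ∀ (t : T) (n : ℕ), (p ^ n) • t = 0 → ∃ t', p • t' = t ∧ (p ^ (n + 1)) • t' = 0)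
  (hinjC : ∀ (y : H2 𝒰 ρC) (n : ℕ), (p ^ n) • y = 0 → invC y = 0 → y = 0)
  (hcompat : ∀ x : H2 𝒰 ρJ, invC (mapH2 𝒰 ρJ ρC π hπρ x) = ∑ w, invJ w x)
  (hH1Cp : ∀ a : G → C, 𝒰.IsConst₁ a → d12 ρC a = 0 →
    ∀ n : ℕ, (∃ γ : C, d01 ρC γ = (p ^ n) • a) → ∃ γ : C, d01 ρC γ = a)
  (hH3Jp : H3TorsVan 𝒰 p ρJ)

include hi hπ hπi hex hsmJ w₀ hsurj hinjC hcompat hH3Jp hiρ in
/-- `H³(E)[p] = 0`, from the `p`-torsion form of `H³(J) = 0` -/
theorem h3TorsVan_of_formation_p : H3TorsVan 𝒰 p ρE := by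
  intro f hf hdf hpf
  obtain ⟨bJ, hbJ, hdbJ⟩ := hH3Jp (i ∘ f) (isConst₃_comp hf i) (by
    rw [← map_d34 ρE ρJ i hiρ f, hdf]
    funext x
    simp) (by
    intro x
    simp only [Function.comp_apply, ← map_nsmul, hpf x, map_zero])
  have hcC0 : π ∘ bJ ∈ Z2 𝒰 ρC := by
    refine ⟨hbJ.comp π, ?_⟩
    rw [← map_d23 ρJ ρC π hπρ bJ, hdbJ]
    funext x
    simp [hπi]
  obtain ⟨k, a, hk, hka⟩ :=
    exists_one_mod_primary (p := p) (H2mk 𝒰 ρC ⟨π ∘ bJ, hcC0⟩) (H2_torsion _)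
  obtain ⟨x, -, hφx⟩ := mem_range_of_primary (mapH2 𝒰 ρJ ρC π hπρ) invJ invC w₀ hsurj hinjC
    hcompat (k • H2mk 𝒰 ρC ⟨π ∘ bJ, hcC0⟩) a hka
  obtain ⟨cJ, rfl⟩ := H2mk_surjective x
  -- `k • (π ∘ bJ) - π ∘ cJ` is a coboundary
  have hB : k • (π ∘ bJ) - π ∘ (cJ : G × G → J) ∈ B2 𝒰 ρC := by
    have h0 : H2mk 𝒰 ρC (k • ⟨π ∘ bJ, hcC0⟩ - mapZ2 𝒰 ρJ ρC π hπρ cJ) = 0 := by
      rw [map_sub, map_nsmul, ← mapH2_mk, hφx, sub_self]
    have := (H2mk_eq_zero_iff _).1 h0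
    simpa using this
  obtain ⟨aC, haC, hdaC⟩ := hB
  obtain ⟨aJ, haJ, hπaJ⟩ := exists_lift₁ hπ haC
  set bJ'' : G × G → J := k • bJ - (cJ : G × G → J) - d12 ρJ aJ with hbJ''
  have hbJ''c : 𝒰.IsConst₂ bJ'' :=
    isConst₂_sub (isConst₂_sub (isConst₂_nsmul k hbJ) cJ.2.1) (hsmJ.isConst₂_d12 haJ)
  have hπb : ∀ x, π (bJ'' x) = 0 := by
    intro x
    have h1 : π ∘ bJ'' = k • (π ∘ bJ) - π ∘ (cJ : G × G → J) - d12 ρC (π ∘ aJ) := by
      rw [← map_d12 ρJ ρC π hπρ aJ]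
      funext y
      simp [hbJ'']
    have h2 : π ∘ bJ'' = 0 := by
      rw [h1, hπaJ, hdaC, sub_self]
    exact congrFun h2 x
  obtain ⟨bE, hbE, hibE⟩ := exists_pull₂ (i := (i : E → J)) hbJ''c (fun x => hex _ (hπb x))
  refine ⟨bE, hbE, ?_⟩
  have hkf : k • (i ∘ f) = i ∘ f := by
    funext x
    simp only [Pi.smul_apply, Function.comp_apply, ← map_nsmul,
      nsmul_eq_self_of_mod hk (hpf x)]
  have hkey : i ∘ d23 ρE bE = i ∘ f := by
    rw [map_d23 ρE ρJ i hiρ bE, hibE, hbJ'', d23_sub, d23_sub, d23_d12, cJ.2.2, d23_nsmul, hdbJ,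
      hkf]
    simp
  funext x
  exact hi (congrFun hkey x)

include hi hπ hπi hex hsmJ w₀ hinj hsurj hTdiv hinjC hcompat hH1Cp hiρ in
/-- `H²(E)/p = 0`, from the `p`-primary vanishing of level `H¹(C)` -/
theorem h2DivBy_of_formation_p : H2DivBy 𝒰 p ρE := by
  intro c hc hdc
  have hcJ : i ∘ c ∈ Z2 𝒰 ρJ := comp_mem_Z2 ρE ρJ i hiρ ⟨hc, hdc⟩
  have hφ0 : mapH2 𝒰 ρJ ρC π hπρ (H2mk 𝒰 ρJ ⟨i ∘ c, hcJ⟩) = 0 := by
    rw [mapH2_mk]
    have : mapZ2 𝒰 ρJ ρC π hπρ ⟨i ∘ c, hcJ⟩ = 0 := by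
      apply Subtype.ext
      funext x
      simp [hπi]
    rw [this, map_zero]
  obtain ⟨z, hz0, hpz⟩ := exists_div_of_mem_ker (mapH2 𝒰 ρJ ρC π hπρ) invJ invC w₀ H2_torsion
    hinj hsurj hTdiv hinjC hcompat _ hφ0
  obtain ⟨zJ, rfl⟩ := H2mk_surjective z
  have hB1 : π ∘ (zJ : G × G → J) ∈ B2 𝒰 ρC := by
    rw [mapH2_mk] at hz0
    have := (H2mk_eq_zero_iff _).1 hz0
    simpa using this
  have hB2 : p • (zJ : G × G → J) - i ∘ c ∈ B2 𝒰 ρJ := by
    have h0 : H2mk 𝒰 ρJ (p • zJ - ⟨i ∘ c, hcJ⟩) = 0 := by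
      rw [map_sub, map_nsmul, hpz, sub_self]
    have := (H2mk_eq_zero_iff _).1 h0
    simpa using this
  obtain ⟨aC, haC, hdaC⟩ := hB1
  obtain ⟨aJ, haJ, hπaJ⟩ := exists_lift₁ hπ haC
  -- correct `zJ` so that it comes from `E`
  set zJ' : G × G → J := (zJ : G × G → J) - d12 ρJ aJ with hzJ'
  have hzJ'c : 𝒰.IsConst₂ zJ' := isConst₂_sub zJ.2.1 (hsmJ.isConst₂_d12 haJ)
  have hπz : ∀ x, π (zJ' x) = 0 := by
    intro x
    have h1 : π ∘ zJ' = π ∘ (zJ : G × G → J) - d12 ρC (π ∘ aJ) := by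
      rw [← map_d12 ρJ ρC π hπρ aJ]
      funext y
      simp [hzJ']
    have h2 : π ∘ zJ' = 0 := by rw [h1, hπaJ, hdaC, sub_self]
    exact congrFun h2 x
  obtain ⟨c', hc', hic'⟩ := exists_pull₂ (i := (i : E → J)) hzJ'c (fun x => hex _ (hπz x))
  have hdc' : d23 ρE c' = 0 := by
    have hkey : i ∘ d23 ρE c' = 0 := by
      rw [map_d23 ρE ρJ i hiρ c', hic', hzJ', d23_sub, d23_d12, zJ.2.2, sub_zero]
    funext x
    have := congrFun hkey x
    simp only [Function.comp_apply, Pi.zero_apply] at this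
    exact hi (by rw [this]; simp)
  -- the difference `p • c' - c` is a coboundary in `J`
  obtain ⟨αJ0, hαJ0, hdαJ0⟩ := hB2
  set αJ : G → J := αJ0 - p • aJ with hαJ
  have hαJc : 𝒰.IsConst₁ αJ := isConst₁_sub hαJ0 (isConst₁_nsmul p haJ)
  have hdαJ : d12 ρJ αJ = i ∘ (p • c' - c) := by
    rw [hαJ, d12_sub, d12_nsmul, hdαJ0]
    have : i ∘ (p • c' - c) = p • (i ∘ c') - i ∘ c := by
      funext x
      simp
    rw [this, hic', hzJ', smul_sub]
    abel
  have hπα : d12 ρC (π ∘ αJ) = 0 := by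
    rw [← map_d12 ρJ ρC π hπρ αJ, hdαJ]
    funext x
    simp [hπi]
  -- `π ∘ αJ` is torsion in level `H¹(C)`; its `p`-primary part vanishes
  obtain ⟨n, hn0, γ0, hγ0⟩ := exists_nsmul_d01 (hαJc.comp π) hπα
  obtain ⟨e, m, hm, rfl⟩ := Nat.exists_eq_pow_mul_and_not_dvd hn0.ne' p hp.out.ne_one
  obtain ⟨γ, hγ⟩ := hH1Cp (m • (π ∘ αJ)) (isConst₁_nsmul m (hαJc.comp π))
    (by rw [d12_nsmul, hπα, smul_zero]) e ⟨γ0, by rw [hγ0, mul_smul]⟩
  obtain ⟨γJ, hγJ⟩ := hπ γ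
  set αJ' : G → J := m • αJ - d01 ρJ γJ with hαJ'
  have hαJ'c : 𝒰.IsConst₁ αJ' := isConst₁_sub (isConst₁_nsmul m hαJc) (hsmJ.isConst₁_d01 γJ)
  have hπα' : ∀ g, π (αJ' g) = 0 := by
    intro g
    have h1 : π ∘ αJ' = m • (π ∘ αJ) - d01 ρC (π γJ) := by
      rw [← map_d01 ρJ ρC π hπρ γJ]
      funext y
      simp [hαJ']
    have h2 : π ∘ αJ' = 0 := by rw [h1, hγJ, hγ, sub_self]
    exact congrFun h2 g
  obtain ⟨αE, hαE, hiαE⟩ := exists_pull₁ (i := (i : E → J)) hαJ'c (fun g => hex _ (hπα' g))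
  have hdαE : d12 ρE αE = m • (p • c' - c) := by
    have hkey : i ∘ d12 ρE αE = i ∘ (m • (p • c' - c)) := by
      rw [map_d12 ρE ρJ i hiρ αE, hiαE, hαJ', d12_sub, d12_d01, sub_zero, d12_nsmul, hdαJ]
      funext x
      simp
    funext x
    exact hi (congrFun hkey x)
  -- `k * m = p * t + 1`
  have hcop : Nat.Coprime m p := ((Nat.Prime.coprime_iff_not_dvd hp.out).2 hm).symm
  obtain ⟨k, -, hk⟩ := Nat.exists_mul_mod_eq_one_of_coprime hcop hp.out.one_lt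
  have hmk : m * k = p * (m * k / p) + 1 := by
    have := Nat.div_add_mod (m * k) p
    omega
  set t : ℕ := m * k / p with ht
  refine ⟨(m * k) • c' - t • c, -(k • αE),
    isConst₂_sub (isConst₂_nsmul _ hc') (isConst₂_nsmul _ hc), ?_,
    (isConst₁_nsmul k hαE).comp (fun x => -x), ?_⟩
  · rw [d23_sub, d23_nsmul, d23_nsmul, hdc', hdc, smul_zero, smul_zero, sub_zero]
  · rw [d12_neg, d12_nsmul, hdαE]
    have h1 : (m * k) • c = (p * t) • c + c := by
      conv_lhs => rw [hmk]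
      rw [add_smul, one_smul]
    have h2 : k • m • (p • c' - c) = p • ((m * k) • c') - (m * k) • c := by
      rw [smul_sub, smul_sub, smul_smul, smul_smul, smul_smul, smul_smul]
      congr 1
      · congr 1
        ring
      · congr 1
        ring
    rw [h2, h1, smul_sub, mul_smul p t c]
    abel

include hi hπ hπi hex hsmJ w₀ hinj hsurj hTdiv hinjC hcompat hH1Cp hH3Jp hiρ in
/-- **45b, abstract core, `p`-primary form.**  A `p`-class formation in the limit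
`0 → E → J → C → 0` with `E` smooth and `p`-divisible, `E[p] = j(A)`: level `H³` of `A` vanishes.
Same conclusion as `CDArith63.h3Van_of_formation'`, with `hH1C` and `hH3J` in `p`-primary form. -/
theorem h3Van_of_formation_p (hsmE : IsSmoothRep 𝒰 ρE)
    {k : Type*} [CommRing k] {A : Type*} [AddCommGroup A] [Module k A]
    (ρA : Representation k G A) (j : A →+ E) (hj : Function.Injective j)
    (hjρ : ∀ g a, j (ρA g a) = ρE g (j a)) (hpA : ∀ a : A, p • a = 0)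
    (hjp : ∀ e : E, p • e = 0 → e ∈ Set.range j) (hdiv : ∀ e : E, ∃ e', p • e' = e) :
    H3Van 𝒰 ρA :=
  h3Van_of_kummer p ρE hsmE ρA j hj hjρ hpA hjp hdiv
    (h3TorsVan_of_formation_p ρE ρJ ρC i π hiρ hπρ hi hπ hπi hex hsmJ w₀ invJ invC hsurj
      hinjC hcompat hH3Jp)
    (h2DivBy_of_formation_p ρE ρJ ρC i π hiρ hπρ hi hπ hπi hex hsmJ w₀ invJ invC hinj
      hsurj hTdiv hinjC hcompat hH1Cp)

end Formation

end Fermat.Agent.S55.FormationP14
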