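/-
S55 / 47b (helper48), part 2: the base case (P3) of route R3 / W59 in `Dualizing59`'s vocabulary
(`JObj`, `YObj`, `qY`, `IsTrace`, `loc₂`, `Sha1`, `Sha2`, `thetaLoc`) from the NATURAL per-level
plugs, for the permutation modules `N_V = k^(G/V)`:

* local duality on `res_v N_V` (bijective `thetaLoc`);
* `∑_v dim H²(G_v, N_V) ≤ dim range (total localisation) + 1` (the end of the Poitou–Tate
  sequence for `N_V`, i.e. (S1) at the level `V`);
* a nonzero `V`-fixed vector of `μ`;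
* finiteness of `H²(N_V)` and of the local `H²`;
* the COUNT `dim Sha²(N_V) ≤ dim Sha¹(N_V')` for some `N_V'` in perfect equivariant duality
  with `N_V`.

Output: `hbase_of_natural`, literally the hypothesis `hbase` of
`Dualizing11.sha_duality_of_plugs` / `Dualizing11.finrank_Sha1_eq_finrank_Sha2_of_plugs`.
-/
import Fermat.Agent.S55.HBase48
import Fermat.Agent.S55.Dualizing11.Top

set_option autoImplicit false
set_option linter.style.haveILetI false
set_option linter.unusedSectionVars false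
set_option maxHeartbeats 400000

universe u

open CategoryTheory groupCohomology Module

namespace Fermat.Agent.S55.HBasePlug48

open Fermat.Agent.S55.Profin15 Fermat.Agent.S55.Dualizing59

variable {k : Type u} [Field k] {G : Type u} [Group G]
  {𝒰 : LevelStr G} {ι : Type} [Fintype ι] {Gv : ι → Type u} [∀ v, Group (Gv v)]
  {r : ∀ v, Gv v →* G} {𝒰v : ∀ v, LevelStr (Gv v)} (hr : ∀ v, IsCont (𝒰v v) 𝒰 (r v))
  {μ : Rep.{u} k G} (hμ : ∃ U ∈ 𝒰.levels, ∀ s ∈ U, ∀ m : μ, μ.ρ s m = m)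
  (inv : ∀ v, (𝒰v v).H2 (Rep.res (r v) μ) →ₗ[k] k)

/-! ### components of an equivariant map to `J` -/

section comp

variable {N : Rep.{u} k G}

/-- the `v`-th component `ev_v ∘ x` of an equivariant map `x : N → J`, as a linear map in `x` -/
def compL (v : ι) : eqHom N (JObj 𝒰 r μ) →ₗ[k] eqHom (Rep.res (r v) N) (Rep.res (r v) μ) where
  toFun x := ⟨(evLin (𝒰 := 𝒰) (r := r) (μ := μ) v ∘ₗ x.1 : N →ₗ[k] μ), fun d n => by
    have h := x.2 (r v d) n
    simp only [MonoidHom.id_apply] at h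
    show evLin v (x.1 (N.ρ (r v d) n)) = μ.ρ (r v d) (evLin v (x.1 n))
    rw [h]
    exact evLin_isEquivariant v d (x.1 n)⟩
  map_add' x x' := by
    apply Subtype.ext
    exact LinearMap.comp_add _ _ _
  map_smul' c x := by
    apply Subtype.ext
    exact LinearMap.comp_smul _ _ _

lemma compL_apply (v : ι) (x : eqHom N (JObj 𝒰 r μ)) (n : N) :
    (compL (𝒰 := 𝒰) (r := r) (μ := μ) v x).1 n = evLin v (x.1 n) := rfl

lemma compL_frob (hN : 𝒰.IsSmooth N) (ψ : LocHom r N μ) (v : ι) :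
    compL v (frob (𝒰 := 𝒰) hN ψ) = ψ v := by
  apply Subtype.ext
  apply LinearMap.ext
  intro n
  exact evLin_frob hN ψ v n

lemma frob_compL (hN : 𝒰.IsSmooth N) (x : eqHom N (JObj 𝒰 r μ)) :
    frob hN (fun v => compL v x) = x := by
  obtain ⟨ψ, hψ, hx⟩ := eq_frob hN x
  have : ψ = fun v => compL v x := by
    funext v
    apply Subtype.ext
    apply LinearMap.ext
    intro n
    exact hψ v n
  rw [← this, hx]

lemma frob_surjective (hN : 𝒰.IsSmooth N) :
    Function.Surjective (frob (𝒰 := 𝒰) (r := r) (μ := μ) hN) :=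
  fun x => ⟨_, frob_compL hN x⟩

end comp

/-! ### the local-duality map `τ` -/

section tau

/-- the product of the local `H²` (a `def` with its own instances, to keep unification cheap) -/
def PLoc (𝒰v : ∀ v, LevelStr (Gv v)) (r : ∀ v, Gv v →* G) (N : Rep.{u} k G) : Type u :=
  ∀ v, (𝒰v v).H2 (Rep.res (r v) N)

instance (N : Rep.{u} k G) : AddCommGroup (PLoc 𝒰v r N) :=
  inferInstanceAs (AddCommGroup (∀ v, (𝒰v v).H2 (Rep.res (r v) N)))

instance (N : Rep.{u} k G) : Module k (PLoc 𝒰v r N) :=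
  inferInstanceAs (Module k (∀ v, (𝒰v v).H2 (Rep.res (r v) N)))

instance (N : Rep.{u} k G) [∀ v, Module.Finite k ((𝒰v v).H2 (Rep.res (r v) N))] :
    Module.Finite k (PLoc 𝒰v r N) :=
  inferInstanceAs (Module.Finite k (∀ v, (𝒰v v).H2 (Rep.res (r v) N)))

/-- `PLoc` is the product (identity map, as a linear equivalence) -/
def toPi (N : Rep.{u} k G) : PLoc 𝒰v r N ≃ₗ[k] (∀ v, (𝒰v v).H2 (Rep.res (r v) N)) where
  toFun c := c
  invFun c := c
  map_add' _ _ := rfl
  map_smul' _ _ := rfl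
  left_inv _ := rfl
  right_inv _ := rfl

lemma finrank_PLoc (N : Rep.{u} k G) [∀ v, Module.Finite k ((𝒰v v).H2 (Rep.res (r v) N))] :
    finrank k (PLoc 𝒰v r N) = ∑ v, finrank k ((𝒰v v).H2 (Rep.res (r v) N)) := by
  have : ∀ v, Module.Free k ((𝒰v v).H2 (Rep.res (r v) N)) :=
    fun v => Module.Free.of_divisionRing k _
  rw [(toPi (𝒰v := 𝒰v) (r := r) N).finrank_eq]
  exact Module.finrank_pi_fintype k (M := fun v => (𝒰v v).H2 (Rep.res (r v) N))

/-- the `v`-th projection -/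
def prL (N : Rep.{u} k G) (v : ι) : PLoc 𝒰v r N →ₗ[k] (𝒰v v).H2 (Rep.res (r v) N) :=
  LinearMap.proj (R := k) (φ := fun v => (𝒰v v).H2 (Rep.res (r v) N)) v ∘ₗ
    (toPi (𝒰v := 𝒰v) (r := r) N).toLinearMap

/-- the `v`-th inclusion -/
def inL (N : Rep.{u} k G) (v : ι) [DecidableEq ι] :
    (𝒰v v).H2 (Rep.res (r v) N) →ₗ[k] PLoc 𝒰v r N :=
  (toPi (𝒰v := 𝒰v) (r := r) N).symm.toLinearMap ∘ₗ
    LinearMap.single k (fun v => (𝒰v v).H2 (Rep.res (r v) N)) v

lemma prL_inL_same (N : Rep.{u} k G) [DecidableEq ι] (v : ι)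
    (c : (𝒰v v).H2 (Rep.res (r v) N)) : prL N v (inL (𝒰v := 𝒰v) (r := r) N v c) = c := by
  show (Pi.single v c : ∀ v, (𝒰v v).H2 (Rep.res (r v) N)) v = c
  rw [Pi.single_eq_same]

lemma prL_inL_of_ne (N : Rep.{u} k G) [DecidableEq ι] {v w : ι} (h : w ≠ v)
    (c : (𝒰v v).H2 (Rep.res (r v) N)) : prL N w (inL (𝒰v := 𝒰v) (r := r) N v c) = 0 := by
  show (Pi.single v c : ∀ v, (𝒰v v).H2 (Rep.res (r v) N)) w = 0
  rw [Pi.single_eq_of_ne h]

lemma sum_inL_prL (N : Rep.{u} k G) [DecidableEq ι] (c : PLoc 𝒰v r N) :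
    ∑ v, inL (𝒰v := 𝒰v) (r := r) N v (prL N v c) = c := by
  apply (toPi (𝒰v := 𝒰v) (r := r) N).injective
  rw [map_sum]
  exact Finset.univ_sum_single (toPi (𝒰v := 𝒰v) (r := r) N c)

variable (N : Rep.{u} k G)

/-- the total localisation map -/
def locTot : 𝒰.H2 N →ₗ[k] PLoc 𝒰v r N :=
  (toPi (𝒰v := 𝒰v) (r := r) N).symm.toLinearMap ∘ₗ LinearMap.pi fun v => loc₂ hr v N

lemma prL_locTot (z : 𝒰.H2 N) (v : ι) : prL N v (locTot hr N z) = loc₂ hr v N z := rfl

lemma ker_locTot : LinearMap.ker (locTot hr N) = Sha2 hr N := by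
  unfold locTot
  rw [LinearMap.ker_comp, LinearEquiv.ker, Submodule.comap_bot]
  exact LinearMap.ker_pi _

/-- `τ : Hom_G(N, J) → (∏_v H²(G_v, N))^*`, `x ↦ ∑_v θ_v (ev_v ∘ x) ∘ pr_v` -/
def tau : eqHom N (JObj 𝒰 r μ) →ₗ[k] Module.Dual k (PLoc 𝒰v r N) :=
  ∑ v, (prL (𝒰v := 𝒰v) (r := r) N v).dualMap ∘ₗ thetaLoc (𝒰v := 𝒰v) inv v N ∘ₗ compL v

lemma tau_apply (x : eqHom N (JObj 𝒰 r μ)) (c : PLoc 𝒰v r N) :
    tau (𝒰 := 𝒰) inv N x c = ∑ v, thetaLoc (𝒰v := 𝒰v) inv v N (compL v x) (prL N v c) := by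
  simp only [tau, LinearMap.sum_apply, LinearMap.comp_apply]
  rfl

variable {N}

/-- (c1): `θ (q ∘ x) = τ x ∘ loc` -/
lemma theta_eqComp_qY {Λ : 𝒰.H2 (YObj (r := r) hμ) →ₗ[k] k} (hΛ : IsTrace hr hμ inv Λ)
    (hN : 𝒰.IsSmooth N) (x : eqHom N (JObj 𝒰 r μ)) :
    theta 𝒰 (YObj (r := r) hμ) Λ N (eqComp (qY (r := r) hμ) x) =
      tau (𝒰 := 𝒰) inv N x ∘ₗ locTot hr N := by
  have h1 : eqComp (qY (r := r) hμ) x = alpha hμ hN (fun v => compL v x) := by
    rw [alpha_apply, frob_compL]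
  rw [h1, theta_alpha hr hμ inv hΛ hN]
  apply LinearMap.ext
  intro z
  rw [LinearMap.sum_apply, LinearMap.comp_apply, tau_apply]
  refine Finset.sum_congr rfl fun v _ => ?_
  rw [prL_locTot]
  rfl

/-- (c2), injectivity -/
lemma tau_injective (hN : 𝒰.IsSmooth N)
    (hloc : ∀ v, Function.Injective (thetaLoc (𝒰v := 𝒰v) inv v N)) :
    Function.Injective (tau (𝒰 := 𝒰) (𝒰v := 𝒰v) inv N) := by
  classical
  rw [injective_iff_map_eq_zero]
  intro x hx
  have hcomp : ∀ v, compL (𝒰 := 𝒰) (r := r) (μ := μ) v x = 0 := by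
    intro v
    apply hloc v
    rw [map_zero]
    apply LinearMap.ext
    intro c
    have h := LinearMap.congr_fun hx (inL N v c)
    rw [tau_apply, Finset.sum_eq_single v] at h
    · rw [prL_inL_same] at h
      exact h
    · intro w _ hw
      rw [prL_inL_of_ne N hw, map_zero]
    · intro h'
      exact (h' (Finset.mem_univ _)).elim
  rw [← frob_compL hN x]
  have : (fun v => compL (𝒰 := 𝒰) (r := r) (μ := μ) v x) = 0 := funext hcomp
  rw [this, map_zero]

/-- (c2), surjectivity -/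
lemma tau_surjective (hN : 𝒰.IsSmooth N)
    (hloc : ∀ v, Function.Surjective (thetaLoc (𝒰v := 𝒰v) inv v N)) :
    Function.Surjective (tau (𝒰 := 𝒰) (𝒰v := 𝒰v) inv N) := by
  classical
  intro t
  choose ψ hψ using fun v => hloc v (t ∘ₗ inL N v)
  refine ⟨frob hN ψ, ?_⟩
  apply LinearMap.ext
  intro c
  rw [tau_apply]
  have h1 : ∀ v, thetaLoc (𝒰v := 𝒰v) inv v N (compL v (frob (𝒰 := 𝒰) hN ψ)) (prL N v c) =
      t (inL N v (prL N v c)) := by
    intro v
    rw [compL_frob, hψ v]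
    rfl
  rw [Finset.sum_congr rfl fun v _ => h1 v, ← map_sum, sum_inL_prL]

end tau

/-! ### the natural plug -/

/-- **The natural plug at the level `V`**, `N := k^(G/V)`. -/
structure NaturalPlug (V : Subgroup G) : Prop where
  /-- `H²(N)` is finite-dimensional -/
  finH2 : Module.Finite k (𝒰.H2 (coind (k := k) V k))
  /-- the local `H²(G_v, N)` are finite-dimensional -/
  finLoc : ∀ v, Module.Finite k ((𝒰v v).H2 (Rep.res (r v) (coind (k := k) V k)))
  /-- local duality on `res_v N` -/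
  locDual : ∀ v, Function.Bijective (thetaLoc (𝒰v := 𝒰v) inv v (coind (k := k) V k))
  /-- the cokernel of the total localisation has dimension `≤ 1` -/
  cokerDim : ∑ v, finrank k ((𝒰v v).H2 (Rep.res (r v) (coind (k := k) V k))) ≤
    finrank k (LinearMap.range (locTot hr (coind (k := k) V k))) + 1
  /-- `μ` has a nonzero `V`-fixed vector -/
  muFixed : ∃ m : μ, m ≠ 0 ∧ ∀ s ∈ V, μ.ρ s m = m
  /-- the COUNT `dim Sha²(N) ≤ dim Sha¹(N')` for some `N'` whose `Sha¹` is computed by a map `β`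
  as in formula (A) -/
  count : ∀ hN : 𝒰.IsSmooth (coind (k := k) V k), ∃ (N' : Rep.{u} k G)
    (β : eqHom (coind (k := k) V k) (YObj (r := r) hμ) →ₗ[k] 𝒰.H1 N'),
    LinearMap.range β = Sha1 hr N' ∧ LinearMap.ker β = LinearMap.range (alpha hμ hN) ∧
    finrank k ↥(Sha2 hr (coind (k := k) V k)) ≤ finrank k ↥(Sha1 hr N')

/-- the COUNT clause of `NaturalPlug` from a perfect equivariant pairing `N' × N → μ`
(formula (A) of `Dualizing11`) -/
lemma count_of_pairing [Nonempty ι] {V : Subgroup G} (hV : V ∈ 𝒰.levels)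
    (N' : Rep.{u} k G) (B : N' →ₗ[k] coind (k := k) V k →ₗ[k] μ)
    (hBeq : ∀ (g : G) (m' : N') (m : coind (k := k) V k),
      B (N'.ρ g m') ((coind (k := k) V k).ρ g m) = μ.ρ g (B m' m))
    (hBbij : Function.Bijective B)
    (hcount : finrank k ↥(Sha2 hr (coind (k := k) V k)) ≤ finrank k ↥(Sha1 hr N')) :
    ∀ hN : 𝒰.IsSmooth (coind (k := k) V k), ∃ (N' : Rep.{u} k G)
      (β : eqHom (coind (k := k) V k) (YObj (r := r) hμ) →ₗ[k] 𝒰.H1 N'),
      LinearMap.range β = Sha1 hr N' ∧ LinearMap.ker β = LinearMap.range (alpha hμ hN) ∧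
      finrank k ↥(Sha2 hr (coind (k := k) V k)) ≤ finrank k ↥(Sha1 hr N') := by
  intro hN
  haveI := 𝒰.finiteIndex V hV
  haveI : Finite (G ⧸ V) := Subgroup.finite_quotient_of_finiteIndex
  obtain ⟨β, hβr, hβk⟩ := Dualizing11.formulaA59 hr hμ (coind (k := k) V k) N' hN B hBeq hBbij
  exact ⟨N', β, hβr, hβk, hcount⟩

variable {hr hμ inv}

section consequences

variable [Nonempty ι] {Λ : 𝒰.H2 (YObj (r := r) hμ) →ₗ[k] k} (hΛ : IsTrace hr hμ inv Λ)
  {V : Subgroup G} (hV : V ∈ 𝒰.levels) (h : NaturalPlug hr hμ inv V)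

include hV h in
/-- (c4): the diagonal copy of `μ` gives a nonzero element of `ker (q ∘ -)` -/
lemma NaturalPlug.exists_ker :
    ∃ x₀ : eqHom (coind (k := k) V k) (JObj 𝒰 r μ),
      x₀ ≠ 0 ∧ HBase48.qComp (qY (r := r) hμ) (coind (k := k) V k) x₀ = 0 := by
  classical
  haveI := 𝒰.normal V hV
  haveI := 𝒰.finiteIndex V hV
  haveI : Finite (G ⧸ V) := Subgroup.finite_quotient_of_finiteIndex
  letI := Fintype.ofFinite (G ⧸ V)
  obtain ⟨m, hm0, hmV⟩ := h.muFixed
  refine ⟨eqComp (diag (r := r) hμ) (HBase48.frob (k := k) m hmV), ?_, ?_⟩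
  · intro h0
    apply hm0
    have h1 := congrArg (fun χ : eqHom (coind (k := k) V k) (JObj 𝒰 r μ) =>
      χ.1 (HBase48.delta (k := k) V)) h0
    have h2 : (diag (r := r) hμ).1 ((HBase48.frob (k := k) m hmV).1 (HBase48.delta (k := k) V)) =
        0 := h1
    rw [HBase48.frob_delta] at h2
    apply diag_injective (r := r) hμ
    rw [h2, map_zero]
  · apply Subtype.ext
    apply LinearMap.ext
    intro n
    exact cokerProj_comp (diag (r := r) hμ) _

include hΛ hV h in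
/-- INJ at the level `V` -/
theorem NaturalPlug.inj :
    ∀ x : eqHom (coind (k := k) V k) (JObj 𝒰 r μ),
      theta 𝒰 (YObj (r := r) hμ) Λ (coind (k := k) V k) (eqComp (qY (r := r) hμ) x) = 0 →
        eqComp (qY (r := r) hμ) x = 0 := by
  have hN : 𝒰.IsSmooth (coind (k := k) V k) := coind_isSmooth 𝒰 hV
  haveI := h.finLoc
  have hc1 : ∀ x, theta 𝒰 (YObj (r := r) hμ) Λ (coind (k := k) V k)
      (HBase48.qComp (qY (r := r) hμ) (coind (k := k) V k) x) =
      tau (𝒰 := 𝒰) inv (coind (k := k) V k) x ∘ₗ locTot hr (coind (k := k) V k) :=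
    fun x => theta_eqComp_qY hr hμ inv hΛ hN x
  have hc3 : finrank k (PLoc 𝒰v r (coind (k := k) V k)) ≤
      finrank k (LinearMap.range (locTot hr (coind (k := k) V k))) + 1 := by
    rw [finrank_PLoc]
    exact h.cokerDim
  exact HBase48.inj_core _ _ _ _ hc1 (tau_injective inv hN fun v => (h.locDual v).1) hc3
    (h.exists_ker hV)

include hΛ hV h in
/-- injective ⇒ bijective at the level `V` -/
theorem NaturalPlug.bijective
    (hθ : Function.Injective (theta 𝒰 (YObj (r := r) hμ) Λ (coind (k := k) V k))) :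
    Function.Bijective (theta 𝒰 (YObj (r := r) hμ) Λ (coind (k := k) V k)) := by
  have hN : 𝒰.IsSmooth (coind (k := k) V k) := coind_isSmooth 𝒰 hV
  haveI := h.finH2
  have hc1 : ∀ x, theta 𝒰 (YObj (r := r) hμ) Λ (coind (k := k) V k)
      (HBase48.qComp (qY (r := r) hμ) (coind (k := k) V k) x) =
      tau (𝒰 := 𝒰) inv (coind (k := k) V k) x ∘ₗ locTot hr (coind (k := k) V k) :=
    fun x => theta_eqComp_qY hr hμ inv hΛ hN x
  refine HBase48.bij_core _ _ _ _ hc1 (tau_surjective inv hN fun v => (h.locDual v).2) hθ ?_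
  obtain ⟨N', β, hβr, hβk, hcount⟩ := h.count hN
  rw [ker_locTot]
  have hrange : LinearMap.range (HBase48.qComp (qY (r := r) hμ) (coind (k := k) V k)) =
      LinearMap.ker β := by
    rw [hβk]
    ext φ
    constructor
    · rintro ⟨x, rfl⟩
      exact ⟨fun v => compL v x, by rw [alpha_apply, frob_compL]; rfl⟩
    · rintro ⟨ψ, rfl⟩
      exact ⟨frob hN ψ, rfl⟩
  rw [hrange]
  have e : (eqHom (coind (k := k) V k) (YObj (r := r) hμ) ⧸ LinearMap.ker β) ≃ₗ[k]
      ↥(Sha1 hr N') := β.quotKerEquivRange ≪≫ₗ LinearEquiv.ofEq _ _ hβr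
  rw [e.finrank_eq]
  exact hcount

end consequences

variable (hr hμ inv)

/-- **(P3) of route R3 / W59**: the base case of the global duality from the natural plugs at a
cofinal family of levels; literally the hypothesis `hbase` of
`Dualizing11.sha_duality_of_plugs`. -/
theorem hbase_of_natural [Nonempty ι] (good : Subgroup G → Prop)
    (hgood : ∀ U ∈ 𝒰.levels, ∃ V ∈ 𝒰.levels, V ≤ U ∧ good V)
    (hplug : ∀ V ∈ 𝒰.levels, good V → NaturalPlug hr hμ inv V) :
    ∀ Λ, IsTrace hr hμ inv Λ → ∀ U ∈ 𝒰.levels, ∃ V ∈ 𝒰.levels, V ≤ U ∧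
      Function.Bijective (theta 𝒰 (YObj (r := r) hμ) Λ (coind (k := k) V k)) :=
  fun Λ hΛ U hU => by
    obtain ⟨V, hV, hVU, hg⟩ := hgood U hU
    refine ⟨V, hV, hVU, (hplug V hV hg).bijective hΛ hV ?_⟩
    exact HBase48.theta_injective_coind 𝒰 Λ (qY (r := r) hμ) (cokerProj_surjective _)
      JObj_isSmooth good hgood (fun V' hV' hg' => (hplug V' hV' hg').inj hΛ hV') V hV

/-- **Abstract Poitou–Tate (route R3 / W59) with (P3) replaced by the natural plugs.** -/
theorem finrank_Sha1_eq_finrank_Sha2_of_natural [Nonempty ι] (hRS : RightExactH2 k 𝒰)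
    (hrec : ∀ x : 𝒰.H2 μ, ∑ v, inv v (loc₂ hr v μ x) = 0)
    (good : Subgroup G → Prop)
    (hgood : ∀ U ∈ 𝒰.levels, ∃ V ∈ 𝒰.levels, V ≤ U ∧ good V)
    (hplug : ∀ V ∈ 𝒰.levels, good V → NaturalPlug hr hμ inv V)
    (M M' : Rep.{u} k G) [Module.Finite k M] (hM : 𝒰.IsSmooth M)
    (hloc : ∀ v, Function.Surjective (thetaLoc (𝒰v := 𝒰v) inv v M))
    (B : M' →ₗ[k] M →ₗ[k] μ)
    (hBeq : ∀ (g : G) (m' : M') (m : M), B (M'.ρ g m') (M.ρ g m) = μ.ρ g (B m' m))
    (hBbij : Function.Bijective B) [Module.Finite k ↥(Sha2 hr M)] :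
    Module.Finite k ↥(Sha1 hr M') ∧
      Module.finrank k ↥(Sha1 hr M') = Module.finrank k ↥(Sha2 hr M) :=
  Dualizing11.finrank_Sha1_eq_finrank_Sha2_of_plugs hr hμ inv hRS hrec
    (hbase_of_natural hr hμ inv good hgood hplug) M M' hM hloc B hBeq hBbij

end Fermat.Agent.S55.HBasePlug48
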