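/-
S55 package [HERBRAND] (helper54), part B2: Herbrand quotients of permutation and induced modules
of a finite cyclic group.

* `q_perm`: for a finite `G`-set `X` (`G` finite cyclic), `q(ℤ[X]) = ∏_ω |Stab(r ω)|`, the product
  over the orbits `ω`, `r` any section of `X → X/G`.
* `q_induced`: `q(Map(G, M)) = 1` for every abelian group `M`.
Mathlib only (+ Herbrand54, HerbrandCyclic54).
-/
import Mathlib
import Fermat.Agent.S55.HerbrandCyclic54

set_option autoImplicit false

namespace Fermat.Agent.S55.HerbrandPerm54

open Fermat.Agent.S55.Herbrand54 Fermat.Agent.S55.HerbrandCyclic54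

variable {G : Type*} [Group G] [Fintype G]

/-! ### Equivariant isomorphisms -/

section EquivIso

variable {A B : Type*} [AddCommGroup A] [AddCommGroup B]

/-- An equivariant isomorphism induces an isomorphism of cyclic pairs. -/
def cyclicIso (ρ : G →* AddMonoid.End A) (ρ' : G →* AddMonoid.End B) (g₀ : G) (e : A ≃+ B)
    (he : ∀ (τ : G) (x : A), e (ρ τ x) = ρ' τ (e x)) :
    Pair.Iso (cyclicPair ρ g₀) (cyclicPair ρ' g₀) where
  e := e
  comm_f x := by
    rw [cyclicPair_f_apply, cyclicPair_f_apply, map_sub, he]
  comm_g x := by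
    rw [cyclicPair_g_apply, cyclicPair_g_apply, HerbrandCyclic54.normHom_apply,
      HerbrandCyclic54.normHom_apply, map_sum]
    exact Finset.sum_congr rfl fun τ _ => he τ x

end EquivIso

/-! ### Decomposition of a permutation module along the orbits -/

section Orbits

variable (G) (X : Type*) [MulAction G X] (M : Type*) [AddCommGroup M]

/-- Restriction of functions to the orbits. -/
def resOrbits : (X → M) →+ ∀ ω : MulAction.orbitRel.Quotient G X, (ω.orbit → M) where
  toFun φ _ a := φ a
  map_zero' := rfl
  map_add' _ _ := rfl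

omit [Fintype G] in
theorem resOrbits_apply (φ : X → M) (ω : MulAction.orbitRel.Quotient G X) (a : ω.orbit) :
    resOrbits G X M φ ω a = φ a := rfl

omit [Fintype G] in
theorem resOrbits_bijective : Function.Bijective (resOrbits G X M) := by
  constructor
  · rw [injective_iff_map_eq_zero]
    intro φ hφ
    funext x
    have h := congrFun (congrFun hφ (Quotient.mk'' x))
      ⟨x, MulAction.orbitRel.Quotient.mem_orbit.2 rfl⟩
    exact h
  · intro ψ
    refine ⟨fun x => ψ (Quotient.mk'' x) ⟨x, MulAction.orbitRel.Quotient.mem_orbit.2 rfl⟩, ?_⟩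
    funext ω a
    obtain ⟨a, ha⟩ := a
    have hω : Quotient.mk'' a = ω := MulAction.orbitRel.Quotient.mem_orbit.1 ha
    subst hω
    rfl

/-- `Map(X, M) ≃ ∏_ω Map(ω, M)`. -/
noncomputable def orbitsEquiv : (X → M) ≃+ ∀ ω : MulAction.orbitRel.Quotient G X, (ω.orbit → M) :=
  AddEquiv.ofBijective (resOrbits G X M) (resOrbits_bijective G X M)

/-- The cyclic pair of a permutation module is the product of the cyclic pairs of its orbits. -/
noncomputable def permOrbitsIso (g₀ : G) :
    Pair.Iso (cyclicPair (permRho G X M) g₀)
      (Pair.pi fun ω : MulAction.orbitRel.Quotient G X =>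
        cyclicPair (permRho G ω.orbit M) g₀) where
  e := orbitsEquiv G X M
  comm_f φ := by
    funext ω a
    rfl
  comm_g φ := by
    funext ω a
    change HerbrandCyclic54.normHom (permRho G X M) φ a =
      HerbrandCyclic54.normHom (permRho G ω.orbit M) (fun b => φ b) a
    rw [normHom_permRho_apply, normHom_permRho_apply]
    rfl

end Orbits

section PermQ

variable {X : Type*} [MulAction G X] [Finite X] {g₀ : G} (hg : ∀ τ : G, τ ∈ Subgroup.zpowers g₀)

omit [Fintype G] [Finite X] in
theorem stabilizer_orbit_coe (ω : MulAction.orbitRel.Quotient G X) (a : ω.orbit) :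
    MulAction.stabilizer G a = MulAction.stabilizer G (a : X) := by
  ext τ
  rw [MulAction.mem_stabilizer_iff, MulAction.mem_stabilizer_iff, Subtype.ext_iff]
  rfl

include hg

/-- The Herbrand quotient of a permutation module `ℤ[X]` of a finite cyclic group is defined. -/
theorem isDefined_perm : (cyclicPair (permRho G X ℤ) g₀).IsDefined := by
  classical
  rw [(permOrbitsIso G X ℤ g₀).isDefined_iff]
  apply Pair.isDefined_pi
  intro ω
  have : Fintype ω.orbit := Fintype.ofFinite _
  obtain ⟨a⟩ : Nonempty ω.orbit := ω.nonempty_orbit.to_subtype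
  exact isDefined_perm_transitive hg a

/-- The Herbrand quotient of a permutation module `ℤ[X]` of a finite cyclic group is the product
over the orbits of the orders of the stabilisers. -/
theorem q_perm [Fintype (MulAction.orbitRel.Quotient G X)]
    (r : MulAction.orbitRel.Quotient G X → X) (hr : ∀ ω, Quotient.mk'' (r ω) = ω) :
    (cyclicPair (permRho G X ℤ) g₀).q =
      ∏ ω : MulAction.orbitRel.Quotient G X, (Nat.card (MulAction.stabilizer G (r ω)) : ℚ) := by
  classical
  rw [(permOrbitsIso G X ℤ g₀).q_eq, Pair.q_pi]
  refine Finset.prod_congr rfl fun ω _ => ?_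
  have : Fintype ω.orbit := Fintype.ofFinite _
  have hmem : r ω ∈ ω.orbit := MulAction.orbitRel.Quotient.mem_orbit.2 (hr ω)
  rw [q_perm_transitive hg (⟨r ω, hmem⟩ : ω.orbit), stabilizer_orbit_coe]

end PermQ

/-! ### Induced modules -/

section Induced

variable {M : Type*} [AddCommGroup M] {g₀ : G} (hg : ∀ τ : G, τ ∈ Subgroup.zpowers g₀)

/-- The norm homotopy of the induced module `Map(G, M)`: `φ ↦ δ_1 · φ(1)`. -/
def inducedHomotopy (G M : Type*) [Group G] [DecidableEq G] [AddCommGroup M] :
    (G → M) →+ (G → M) :=
  (AddMonoidHom.single (fun _ : G => M) 1).comp (Pi.evalAddMonoidHom (fun _ : G => M) 1)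

theorem inducedHomotopy_spec [DecidableEq G] (φ : G → M) :
    ∑ τ : G, permRho G G M τ (inducedHomotopy G M (permRho G G M τ⁻¹ φ)) = φ := by
  have h : ∀ τ : G, permRho G G M τ (inducedHomotopy G M (permRho G G M τ⁻¹ φ))
      = Pi.single τ (φ τ) := by
    intro τ
    change permRho G G M τ (Pi.single 1 (φ (τ⁻¹⁻¹ • (1 : G)))) = _
    rw [permRho_single, inv_inv, smul_eq_mul, mul_one]
  simp_rw [h]
  exact Finset.univ_sum_single φ

include hg

theorem isDefined_induced : (cyclicPair (permRho G G M) g₀).IsDefined := by
  classical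
  exact isDefined_of_homotopy _ hg (inducedHomotopy G M) inducedHomotopy_spec

/-- Induced modules have trivial Herbrand quotient. -/
theorem q_induced : (cyclicPair (permRho G G M) g₀).q = 1 := by
  classical
  exact q_of_homotopy _ hg (inducedHomotopy G M) inducedHomotopy_spec

theorem subsingleton_H0_induced : Subsingleton (cyclicPair (permRho G G M) g₀).H0 := by
  classical
  exact subsingleton_H0_of_homotopy _ hg (inducedHomotopy G M) inducedHomotopy_spec

theorem subsingleton_H1_induced : Subsingleton (cyclicPair (permRho G G M) g₀).H1 := by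
  classical
  exact subsingleton_H1_of_homotopy _ hg (inducedHomotopy G M) inducedHomotopy_spec

variable {A : Type*} [AddCommGroup A] (ρ : G →* AddMonoid.End A) (e : (G → M) ≃+ A)
  (he : ∀ (τ : G) (φ : G → M), e (permRho G G M τ φ) = ρ τ (e φ))

include he

/-- A module equivariantly isomorphic to an induced module has `q = 1`. -/
theorem q_of_induced : (cyclicPair ρ g₀).q = 1 := by
  rw [← (cyclicIso (permRho G G M) ρ g₀ e he).q_eq]
  exact q_induced hg

theorem isDefined_of_induced : (cyclicPair ρ g₀).IsDefined := by
  rw [← (cyclicIso (permRho G G M) ρ g₀ e he).isDefined_iff]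
  exact isDefined_induced hg

end Induced

end Fermat.Agent.S55.HerbrandPerm54
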