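/-
S55 project, leaf 47d support (helper96): the KUMMER–CARRY identity.

`C : Rep k Γ` (think `C = K̄ˣ` additively), `χ : Γ →* Multiplicative (ZMod n)` a character,
`α : C` with `a := n • α` (think: `αⁿ = a ∈ Kˣ`).  The Kummer cochain of `α` is
`kum g = g α - α` (values in `C[n] = μ_n` when `a` is invariant), and the cup product of the
Kummer class with `χ` is the 2-cochain `(g, h) ↦ (χ h).val • kum g`.  Then, pointwise,

  `d t (g, h) = cupKum (g, h) + carry χ a (g, h)`,   `t h = (χ h).val • α`,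

so `δ_a ∪ χ = - (δχ ∪ a)` in `H²(Γ, C)` (helper91's carry cocycle `GlobalInv91.carry`).
Consequently (with helper91's `exists_norm_of_carry_isCob₂`): if the symbol `δ_a ∪ χ` dies in
`H²(Γ, C)` and `H¹(ker χ, C) = 0`, then `a` is a norm from the layer cut out by `χ`; and
conversely.  This is the algebraic core of "the local Hilbert pairing is non-degenerate":
`(a, b) = 0 ⟺ a ∈ N(K(b^{1/p})ˣ)`.
-/
import Fermat.Agent.S55.GlobalInv91.Carry

set_option autoImplicit false
set_option linter.unusedSectionVars false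

namespace Fermat.Agent.S55.KummerCarry96

open Fermat.Agent.S55.GlobalInv91

universe u

variable {k Γ : Type u} [CommRing k] [Group Γ] (C : Rep k Γ) {n : ℕ} [NeZero n]

/-- the Kummer 1-cochain `g ↦ g α - α` -/
def kum (α : C) : Γ → C := fun g => C.ρ g α - α

/-- the cup product cochain `(g, h) ↦ (χ h).val • (g α - α)` of the Kummer cochain with `χ` -/
def cupKum (χ : Γ →* Multiplicative (ZMod n)) (α : C) : Γ × Γ → C :=
  fun p => (chiVal χ p.2).val • kum C α p.1

theorem cupKum_apply (χ : Γ →* Multiplicative (ZMod n)) (α : C) (g h : Γ) :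
    cupKum C χ α (g, h) = (chiVal χ h).val • (C.ρ g α - α) := rfl

/-- the transgression cochain `h ↦ (χ h).val • α` -/
def trans (χ : Γ →* Multiplicative (ZMod n)) (α : C) : Γ → C :=
  fun h => (chiVal χ h).val • α

/-- **The Kummer–carry identity** (pointwise). -/
theorem d_trans (χ : Γ →* Multiplicative (ZMod n)) (α : C) (g h : Γ) :
    C.ρ g (trans C χ α h) - trans C χ α (g * h) + trans C χ α g =
      cupKum C χ α (g, h) + carry C χ (n • α) (g, h) := by
  have h2 := val_add_val n (chiVal χ g) (chiVal χ h)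
  rw [cupKum_apply, carry_apply]
  simp only [trans]
  rw [map_nsmul, chiVal_mul]
  -- everything is a ℕ-combination of `g α` and `α`
  have e1 : (chiVal χ g).val • α + (chiVal χ h).val • α =
      (chiVal χ g + chiVal χ h).val • α + carryNat n (chiVal χ g) (chiVal χ h) • (n • α) := by
    rw [← add_nsmul, smul_smul, ← add_nsmul, h2, mul_comm]
  rw [nsmul_sub]
  have e2 : (chiVal χ g + chiVal χ h).val • α =
      (chiVal χ g).val • α + (chiVal χ h).val • α -
        carryNat n (chiVal χ g) (chiVal χ h) • (n • α) := by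
    rw [e1]; abel
  rw [e2]
  abel

/-- `cupKum + carry` is a coboundary. -/
theorem isCob₂_cupKum_add_carry (χ : Γ →* Multiplicative (ZMod n)) (α : C) :
    IsCob₂ C (cupKum C χ α + carry C χ (n • α)) :=
  ⟨trans C χ α, fun g h => by rw [d_trans]; rfl⟩

theorem isCob₂_add {f f' : Γ × Γ → C} (hf : IsCob₂ C f) (hf' : IsCob₂ C f') :
    IsCob₂ C (f + f') := by
  obtain ⟨x, hx⟩ := hf
  obtain ⟨x', hx'⟩ := hf'
  refine ⟨x + x', fun g h => ?_⟩
  simp only [Pi.add_apply, map_add]
  rw [← hx g h, ← hx' g h]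
  abel

theorem isCob₂_neg {f : Γ × Γ → C} (hf : IsCob₂ C f) : IsCob₂ C (-f) := by
  obtain ⟨x, hx⟩ := hf
  refine ⟨-x, fun g h => ?_⟩
  simp only [Pi.neg_apply, map_neg]
  rw [← hx g h]
  abel

/-- the symbol `δ_a ∪ χ` dies iff the carry cocycle `δχ ∪ a` dies -/
theorem isCob₂_cupKum_iff (χ : Γ →* Multiplicative (ZMod n)) (α : C) :
    IsCob₂ C (cupKum C χ α) ↔ IsCob₂ C (carry C χ (n • α)) := by
  have h := isCob₂_cupKum_add_carry C χ α
  constructor
  · intro h1
    have := isCob₂_add C h (isCob₂_neg C h1)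
    convert this using 1
    funext p
    simp
  · intro h1
    have := isCob₂_add C h (isCob₂_neg C h1)
    convert this using 1
    funext p
    simp

/-- **Symbol dies ⟹ norm.**  If the cup product of the Kummer cochain of `α` with `χ` is a
coboundary, `a = n • α` is invariant and `H¹(ker χ, C) = 0` (elementary form), then `a` is a norm
from the `ker χ`-invariants: `a = ∑_{i<n} sⁱ b`, `χ s = 1`. -/
theorem exists_norm_of_cupKum_isCob₂ {χ : Γ →* Multiplicative (ZMod n)} {s : Γ} {α : C}
    (hs : chiVal χ s = 1)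
    (hH1 : ∀ f : χ.ker → C, (∀ z w : χ.ker, f (z * w) = C.ρ (z : Γ) (f w) + f z) →
      ∃ y : C, ∀ z : χ.ker, f z = C.ρ (z : Γ) y - y)
    (ha : ∀ g : Γ, C.ρ g (n • α) = n • α)
    (h : IsCob₂ C (cupKum C χ α)) :
    ∃ b : C, (∀ z : Γ, χ z = 1 → C.ρ z b = b) ∧ n • α = partialNorm C s b n :=
  exists_norm_of_carry_isCob₂ hs hH1 ha ((isCob₂_cupKum_iff C χ α).mp h)

/-- **Norm ⟹ symbol dies.** -/
theorem cupKum_isCob₂_of_norm {χ : Γ →* Multiplicative (ZMod n)} {s : Γ} {α b : C}
    (hs : chiVal χ s = 1) (hb : ∀ z : Γ, χ z = 1 → C.ρ z b = b)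
    (hab : n • α = partialNorm C s b n) : IsCob₂ C (cupKum C χ α) := by
  rw [isCob₂_cupKum_iff, hab]
  exact carry_isCob₂_of_norm hs hb

end Fermat.Agent.S55.KummerCarry96
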