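/-
S55 / 32c-SECOND-INEQ-INST, bridge (helper57): KUMMER GENERATORS OF CYCLIC LAYERS in pure
group-action form (no intermediate fields, no Galois correspondence).  Mathlib only.

* `exists_resolvent` (Lagrange resolvent = Hilbert 90 for characters): a finite group `H` of
  automorphisms of a field `L` and a character `χ : H →* Lˣ` with `H`-fixed values:
  `∃ α ≠ 0, ∀ g ∈ H, g α = χ g * α`  (Dedekind independence of characters);
* `exists_kummer_generator` : `N ⊴ H` with `|H/N| = p` prime, `ζ_p ∈ L^H`: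
  `∃ α ≠ 0` with `a := α ^ p ∈ L^H`, `Stab_H(α) = N` (so `L^N = L^H(α)`), `h α ∈ μ_p · α`,
  and `a ∉ (L^H)ᵖ`.  This is the `a` of the second inequality for the layer `(H, N)`.
-/
import Mathlib

set_option autoImplicit false

namespace Fermat.Agent.S55.KummerGen57

variable {F L : Type*} [Field F] [Field L] [Algebra F L]

/-- **Lagrange resolvent / Hilbert 90 for characters.** -/
theorem exists_resolvent (H : Subgroup (L ≃ₐ[F] L)) [Finite H] (χ : H →* Lˣ)
    (hχ : ∀ g h : H, (g : L ≃ₐ[F] L) ((χ h : Lˣ) : L) = ((χ h : Lˣ) : L)) :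
    ∃ α : L, α ≠ 0 ∧ ∀ g : H, (g : L ≃ₐ[F] L) α = ((χ g : Lˣ) : L) * α := by
  classical
  haveI := Fintype.ofFinite H
  -- the family of characters `h : L →* L`
  let toHom : H → (L →* L) := fun h => ((h : L ≃ₐ[F] L) : L →* L)
  have htoHom : Function.Injective toHom := by
    intro h h' hh
    apply Subtype.ext
    ext x
    exact DFunLike.congr_fun hh x
  have hli : LinearIndependent L (fun h : H => (toHom h : L → L)) :=
    (linearIndependent_monoidHom L L).comp toHom htoHom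
  let c : H → L := fun h => (((χ h)⁻¹ : Lˣ) : L)
  have hy : ∃ y : L, ∑ h : H, c h * (h : L ≃ₐ[F] L) y ≠ 0 := by
    by_contra hcon
    push Not at hcon
    have hsum : ∑ h : H, c h • (toHom h : L → L) = 0 := by
      funext y
      rw [Finset.sum_apply]
      simpa [toHom, c] using hcon y
    have h1 := Fintype.linearIndependent_iff.mp hli c hsum 1
    exact Units.ne_zero _ h1
  obtain ⟨y, hy⟩ := hy
  refine ⟨∑ h : H, c h * (h : L ≃ₐ[F] L) y, hy, fun g => ?_⟩
  rw [map_sum, Finset.mul_sum]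
  -- reindex by `h ↦ g * h`
  rw [← Equiv.sum_comp (Equiv.mulLeft g)
    (fun h => ((χ g : Lˣ) : L) * (c h * (h : L ≃ₐ[F] L) y))]
  refine Finset.sum_congr rfl (fun h _ => ?_)
  rw [map_mul]
  have h1 : (g : L ≃ₐ[F] L) (c h) = c h := by
    have := hχ g h⁻¹
    rw [map_inv] at this
    exact this
  have h2 : c (g * h) = (((χ g)⁻¹ : Lˣ) : L) * c h := by
    show (((χ (g * h))⁻¹ : Lˣ) : L) = _
    rw [map_mul, mul_inv, Units.val_mul]
  rw [h1, Equiv.coe_mulLeft, h2]
  have h3 : ((g * h : H) : L ≃ₐ[F] L) y = (g : L ≃ₐ[F] L) ((h : L ≃ₐ[F] L) y) := rfl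
  rw [h3, ← mul_assoc, ← mul_assoc, ← Units.val_mul, mul_inv_cancel, Units.val_one, one_mul]

/-- **Kummer generator of a cyclic layer of prime degree** (`ζ_p` fixed by `H`). -/
theorem exists_kummer_generator (H : Subgroup (L ≃ₐ[F] L)) [Finite H] (N : Subgroup H)
    [N.Normal] {p : ℕ} [hp : Fact p.Prime] (hcard : Nat.card (H ⧸ N) = p) {ζ : L}
    (hζ : IsPrimitiveRoot ζ p) (hζH : ∀ h : H, (h : L ≃ₐ[F] L) ζ = ζ) :
    ∃ α : L, α ≠ 0 ∧ (∀ h : H, (h : L ≃ₐ[F] L) (α ^ p) = α ^ p) ∧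
      (∀ h : H, (h : L ≃ₐ[F] L) α = α ↔ h ∈ N) ∧
      (∀ h : H, ∃ i : ℤ, (h : L ≃ₐ[F] L) α = ζ ^ i * α) ∧
      (∀ β : L, (∀ h : H, (h : L ≃ₐ[F] L) β = β) → β ^ p ≠ α ^ p) := by
  classical
  have hp0 : p ≠ 0 := hp.out.ne_zero
  have : Fact (Nat.card (H ⧸ N)).Prime := ⟨by rw [hcard]; exact hp.out⟩
  have : IsCyclic (H ⧸ N) := isCyclic_of_prime_card hcard
  obtain ⟨c, hc⟩ := IsCyclic.exists_generator (α := H ⧸ N)
  have hordc : orderOf c = p := by
    rw [orderOf_eq_card_of_forall_mem_zpowers hc, hcard]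
  -- `ζ` as a unit
  let ζu : Lˣ := Units.mk0 ζ (hζ.ne_zero hp0)
  have hζu : IsPrimitiveRoot ζu p := by
    have : ((ζu : Lˣ) : L) = ζ := rfl
    exact IsPrimitiveRoot.coe_units_iff.mp (by rw [this]; exact hζ)
  have hordζ : orderOf ζu = p := hζu.eq_orderOf.symm
  let χbar : (H ⧸ N) →* Lˣ :=
    monoidHomOfForallMemZpowers hc (g' := ζu) (by rw [hordζ, hordc])
  have hχbarc : χbar c = ζu := monoidHomOfForallMemZpowers_apply_gen hc _
  have hχbar_zpow : ∀ x : H ⧸ N, ∃ k : ℤ, χbar x = ζu ^ k := by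
    intro x
    obtain ⟨k, rfl⟩ := Subgroup.mem_zpowers_iff.mp (hc x)
    exact ⟨k, by rw [map_zpow, hχbarc]⟩
  have hker : χbar.ker = ⊥ := by
    rcases χbar.ker.eq_bot_or_eq_top_of_prime_card with h | h
    · exact h
    · exfalso
      have h1 : c ∈ χbar.ker := by rw [h]; trivial
      rw [MonoidHom.mem_ker, hχbarc] at h1
      have h2 : orderOf ζu = 1 := by rw [h1, orderOf_one]
      rw [hordζ] at h2
      exact hp.out.one_lt.ne' h2
  let χ : H →* Lˣ := χbar.comp (QuotientGroup.mk' N)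
  have hχ_zpow : ∀ h : H, ∃ k : ℤ, ((χ h : Lˣ) : L) = ζ ^ k := by
    intro h
    obtain ⟨k, hk⟩ := hχbar_zpow (QuotientGroup.mk' N h)
    refine ⟨k, ?_⟩
    show ((χbar (QuotientGroup.mk' N h) : Lˣ) : L) = _
    rw [hk, Units.val_zpow_eq_zpow_val]
    rfl
  have hχ_one : ∀ h : H, χ h = 1 ↔ h ∈ N := by
    intro h
    show χbar (QuotientGroup.mk' N h) = 1 ↔ _
    rw [← MonoidHom.mem_ker, hker, Subgroup.mem_bot, QuotientGroup.mk'_apply,
      QuotientGroup.eq_one_iff]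
  have hχ_fixed : ∀ g h : H, (g : L ≃ₐ[F] L) ((χ h : Lˣ) : L) = ((χ h : Lˣ) : L) := by
    intro g h
    obtain ⟨k, hk⟩ := hχ_zpow h
    rw [hk, map_zpow₀, hζH g]
  obtain ⟨α, hα0, hα⟩ := exists_resolvent H χ hχ_fixed
  have hχ_pow : ∀ h : H, ((χ h : Lˣ) : L) ^ p = 1 := by
    intro h
    obtain ⟨k, hk⟩ := hχ_zpow h
    rw [hk, ← zpow_natCast, ← zpow_mul, mul_comm, zpow_mul, zpow_natCast, hζ.pow_eq_one,
      one_zpow]
  refine ⟨α, hα0, ?_, ?_, ?_, ?_⟩
  · intro h
    rw [map_pow, hα h, mul_pow, hχ_pow h, one_mul]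
  · intro h
    rw [hα h, ← hχ_one h]
    constructor
    · intro h1
      have h2 : ((χ h : Lˣ) : L) = 1 := by
        have h3 : ((χ h : Lˣ) : L) * α = 1 * α := by rw [h1, one_mul]
        exact mul_right_cancel₀ hα0 h3
      exact Units.ext h2
    · intro h1
      rw [h1, Units.val_one, one_mul]
  · intro h
    obtain ⟨k, hk⟩ := hχ_zpow h
    exact ⟨k, by rw [hα h, hk]⟩
  · intro β hβ hβα
    have hβ0 : β ≠ 0 := by
      rintro rfl
      rw [zero_pow hp0] at hβα
      exact hα0 (pow_eq_zero_iff hp0 |>.mp hβα.symm)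
    have h1 : (α / β) ^ p = 1 := by
      rw [div_pow, hβα, div_self (pow_ne_zero p hα0)]
    obtain ⟨i, -, hi⟩ := hζ.eq_pow_of_pow_eq_one h1
    have hαβ : α = ζ ^ i * β := by
      rw [hi]; field_simp
    -- then `α` is fixed by `H`, so `N = ⊤`
    have hall : ∀ h : H, h ∈ N := by
      intro h
      rw [← hχ_one h]
      have h2 : (h : L ≃ₐ[F] L) α = α := by
        rw [hαβ, map_mul, map_pow, hζH h, hβ h]
      rw [hα h] at h2
      have h3 : ((χ h : Lˣ) : L) * α = 1 * α := by rw [h2, one_mul]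
      exact Units.ext (mul_right_cancel₀ hα0 h3)
    have hN : N = ⊤ := by
      rw [eq_top_iff]
      intro h _
      exact hall h
    have h4 : Nat.card (H ⧸ N) = 1 := by
      rw [hN]
      exact Nat.card_eq_one_iff_unique.mpr ⟨QuotientGroup.subsingleton_quotient_top, ⟨1⟩⟩
    rw [hcard] at h4
    exact hp.out.one_lt.ne' h4

end Fermat.Agent.S55.KummerGen57
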