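/-
S55 / 10h-LEVEL-COLIM part (I5) (helper75): the GALOIS INSTANCE of the finite layers.

`Ω / K₀` a (possibly infinite) Galois extension, `G = Gal(Ω/K₀)`, `UΩ = Ωˣ` as a `ℤ`-linear
representation of `G` (Mathlib's `Rep.ofAlgebraAutOnUnits K₀ Ω`).  For an intermediate field `E`
with `E / K₀` Galois, the layer `UΩ^{G_E}` (helper49's `LevelColim49.layer`, i.e. Mathlib's
`Rep.quotientToInvariants`) with its action of `G ⧸ G_E` IS the unit module `Eˣ` with its action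
of `Gal(E/K₀)`:

* `quotEquiv E : G ⧸ E.fixingSubgroup ≃* (E ≃ₐ[K₀] E)`;
* `mem_layer_iff` : the `G_E`-invariants of `Ωˣ` are the units lying in `E`;
* `layerEquiv E : layer UΩ G_E ≃ₗ[ℤ] Additive Eˣ`, equivariant along `quotEquiv E`;
* `layerIso E` : the same as an isomorphism of representations of `G ⧸ G_E`;
* `cohIso E n : Hⁿ(G ⧸ G_E, UΩ^{G_E}) ≅ Hⁿ(Gal(E/K₀), Eˣ)` (Mathlib `groupCohomology`);
* `inflGal₁ / inflGal₂ : Hⁱ(Gal(E/K₀), Eˣ) → 𝒰.Hⁱ UΩ` for every level structure `𝒰` having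
  `G_E` as a level, with the cocycle formula, the same range as helper49's `infl₁ / infl₂`.
-/
import Mathlib
import Fermat.Agent.S55.LevelColim49.Colim

set_option autoImplicit false

open CategoryTheory groupCohomology IntermediateField

noncomputable section

namespace Fermat.Agent.S55.LevelColimGal75

open Fermat.Agent.S55.Profin15 Fermat.Agent.S55.LevelColim49 Fermat.Agent.S55.ProfinGlobal22

variable {K₀ Ω : Type} [Field K₀] [Field Ω] [Algebra K₀ Ω]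

/-- the unit module `Ωˣ` as a `ℤ`-linear representation of `Gal(Ω/K₀)`. -/
abbrev UΩ (K₀ Ω : Type) [Field K₀] [Field Ω] [Algebra K₀ Ω] : Rep ℤ (Ω ≃ₐ[K₀] Ω) :=
  Rep.ofAlgebraAutOnUnits K₀ Ω

lemma UΩ_ρ_apply (g : Ω ≃ₐ[K₀] Ω) (x : UΩ K₀ Ω) :
    ((Additive.toMul ((UΩ K₀ Ω).ρ g x) : Ωˣ) : Ω) = g ((Additive.toMul x : Ωˣ) : Ω) := rfl

variable [IsGalois K₀ Ω] (E : IntermediateField K₀ Ω)

/-- **the `G_E`-invariants of `Ωˣ` are the units lying in `E`** (infinite Galois correspondence). -/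
theorem mem_layer_iff (x : UΩ K₀ Ω) :
    (∀ s ∈ E.fixingSubgroup, (UΩ K₀ Ω).ρ s x = x) ↔ ((Additive.toMul x : Ωˣ) : Ω) ∈ E := by
  constructor
  · intro h
    rw [← InfiniteGalois.fixedField_fixingSubgroup E]
    rintro ⟨s, hs⟩
    exact congrArg (fun y : Additive Ωˣ => ((Additive.toMul y : Ωˣ) : Ω)) (h s hs)
  · intro hx s hs
    apply Additive.toMul.injective
    apply Units.ext
    exact hs ⟨_, hx⟩

/-- the inclusion of units `Eˣ → Ωˣ`, written additively. -/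
def unitIncl : Additive Eˣ →+ Additive Ωˣ :=
  MonoidHom.toAdditive (Units.map (algebraMap E Ω : E →* Ω))

omit [IsGalois K₀ Ω] in
lemma unitIncl_apply (y : Additive Eˣ) :
    ((Additive.toMul (unitIncl E y) : Ωˣ) : Ω) = (((Additive.toMul y : Eˣ) : E) : Ω) := rfl

omit [IsGalois K₀ Ω] in
lemma unitIncl_injective : Function.Injective (unitIncl E) := by
  intro y y' h
  apply Additive.toMul.injective
  apply Units.ext
  apply Subtype.ext
  have := congrArg (fun z : Additive Ωˣ => ((Additive.toMul z : Ωˣ) : Ω)) h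
  simpa only [unitIncl_apply] using this

omit [IsGalois K₀ Ω] in
lemma exists_unitIncl_eq (x : Additive Ωˣ) (hx : ((Additive.toMul x : Ωˣ) : Ω) ∈ E) :
    ∃ y : Additive Eˣ, unitIncl E y = x := by
  have hinv : (((Additive.toMul x : Ωˣ)⁻¹ : Ωˣ) : Ω) ∈ E := by
    rw [Units.val_inv_eq_inv_val]
    exact E.inv_mem hx
  refine ⟨Additive.ofMul ⟨⟨_, hx⟩, ⟨_, hinv⟩, ?_, ?_⟩, ?_⟩
  · apply Subtype.ext
    simp
  · apply Subtype.ext
    simp
  · apply Additive.toMul.injective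
    apply Units.ext
    rfl

/-- a normal intermediate field of a Galois extension is Galois over the base. -/
theorem isGalois_of_normal [Normal K₀ E] : IsGalois K₀ E := ⟨⟩

/-- if the fixing subgroup is normal, the intermediate field is Galois over the base
(Mathlib `InfiniteGalois.normal_iff_isGalois`). -/
theorem isGalois_of_fixingSubgroup_normal (h : E.fixingSubgroup.Normal) : IsGalois K₀ E :=
  (InfiniteGalois.normal_iff_isGalois E).1 h

variable [IsGalois K₀ E]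

/-- `Gal(Ω/K₀) ⧸ G_E ≃* Gal(E/K₀)`. -/
def quotEquiv : (Ω ≃ₐ[K₀] Ω) ⧸ E.fixingSubgroup ≃* (E ≃ₐ[K₀] E) :=
  QuotientGroup.liftEquiv _ (AlgEquiv.restrictNormalHom_surjective Ω) E.restrictNormalHom_ker.symm

lemma quotEquiv_mk (g : Ω ≃ₐ[K₀] Ω) :
    quotEquiv E (g : (Ω ≃ₐ[K₀] Ω) ⧸ E.fixingSubgroup) = AlgEquiv.restrictNormalHom E g := rfl

lemma quotEquiv_mk_apply (g : Ω ≃ₐ[K₀] Ω) (x : E) :
    ((quotEquiv E (g : (Ω ≃ₐ[K₀] Ω) ⧸ E.fixingSubgroup) x : E) : Ω) = g (x : Ω) := by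
  rw [quotEquiv_mk]
  exact AlgEquiv.restrictNormalHom_apply E g x

/-- the unit module `Eˣ` as a `ℤ`-linear representation of `Gal(E/K₀)`. -/
abbrev UE : Rep ℤ (E ≃ₐ[K₀] E) := Rep.ofAlgebraAutOnUnits K₀ E

/-- `Eˣ → (Ωˣ)^{G_E}`. -/
def toLayer : Additive Eˣ →ₗ[ℤ] layer (UΩ K₀ Ω) E.fixingSubgroup :=
  AddMonoidHom.toIntLinearMap
    { toFun := fun y => ⟨unitIncl E y, fun s =>
        (mem_layer_iff E (unitIncl E y)).2 (by rw [unitIncl_apply]; exact Subtype.mem _) s.1 s.2⟩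
      map_zero' := by
        apply Subtype.ext
        exact map_zero (unitIncl E)
      map_add' := fun y y' => by
        apply Subtype.ext
        exact map_add (unitIncl E) y y' }

lemma incl_toLayer (y : Additive Eˣ) :
    incl (UΩ K₀ Ω) E.fixingSubgroup (toLayer E y) = unitIncl E y := rfl

lemma toLayer_bijective : Function.Bijective (toLayer E) := by
  constructor
  · intro y y' h
    exact unitIncl_injective E (congrArg (incl (UΩ K₀ Ω) E.fixingSubgroup) h)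
  · intro x
    obtain ⟨y, hy⟩ := exists_unitIncl_eq E (incl (UΩ K₀ Ω) E.fixingSubgroup x)
      ((mem_layer_iff E _).1 (fun s hs => incl_fixed (UΩ K₀ Ω) E.fixingSubgroup x s hs))
    exact ⟨y, incl_injective (UΩ K₀ Ω) E.fixingSubgroup hy⟩

/-- **the layer of `Ωˣ` at `G_E` is `Eˣ`**, as `ℤ`-modules. -/
def layerEquiv : layer (UΩ K₀ Ω) E.fixingSubgroup ≃ₗ[ℤ] Additive Eˣ :=
  (LinearEquiv.ofBijective (toLayer E) (toLayer_bijective E)).symm

lemma layerEquiv_symm_apply (y : Additive Eˣ) : (layerEquiv E).symm y = toLayer E y := rfl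

lemma unitIncl_layerEquiv (x : layer (UΩ K₀ Ω) E.fixingSubgroup) :
    unitIncl E (layerEquiv E x) = incl (UΩ K₀ Ω) E.fixingSubgroup x := by
  rw [← incl_toLayer, ← layerEquiv_symm_apply, LinearEquiv.symm_apply_apply]

/-- the value in `Ω` of `layerEquiv E x : Eˣ` is the value of `x : (Ωˣ)^{G_E}`. -/
lemma layerEquiv_apply_val (x : layer (UΩ K₀ Ω) E.fixingSubgroup) :
    ((((Additive.toMul (layerEquiv E x) : Eˣ) : E)) : Ω) =
      ((Additive.toMul (incl (UΩ K₀ Ω) E.fixingSubgroup x) : Ωˣ) : Ω) := by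
  rw [← unitIncl_layerEquiv, unitIncl_apply]

/-- equivariance of `toLayer` along `quotEquiv`. -/
lemma toLayer_ρ (g : Ω ≃ₐ[K₀] Ω) (y : Additive Eˣ) :
    toLayer E ((UE E).ρ (quotEquiv E (g : (Ω ≃ₐ[K₀] Ω) ⧸ E.fixingSubgroup)) y) =
      (layer (UΩ K₀ Ω) E.fixingSubgroup).ρ (g : (Ω ≃ₐ[K₀] Ω) ⧸ E.fixingSubgroup) (toLayer E y) := by
  apply incl_injective (UΩ K₀ Ω) E.fixingSubgroup
  rw [incl_ρ, incl_toLayer, incl_toLayer]
  apply Additive.toMul.injective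
  apply Units.ext
  rw [UΩ_ρ_apply, unitIncl_apply, unitIncl_apply]
  exact quotEquiv_mk_apply E g _

/-- **equivariance of `layerEquiv` along `quotEquiv`.** -/
lemma layerEquiv_ρ (q : (Ω ≃ₐ[K₀] Ω) ⧸ E.fixingSubgroup)
    (x : layer (UΩ K₀ Ω) E.fixingSubgroup) :
    layerEquiv E ((layer (UΩ K₀ Ω) E.fixingSubgroup).ρ q x) =
      (UE E).ρ (quotEquiv E q) (layerEquiv E x) := by
  obtain ⟨g, rfl⟩ := QuotientGroup.mk_surjective q
  apply (layerEquiv E).symm.injective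
  rw [LinearEquiv.symm_apply_apply, layerEquiv_symm_apply, toLayer_ρ, ← layerEquiv_symm_apply,
    LinearEquiv.symm_apply_apply]

/-- **the layer of `Ωˣ` at `G_E` is `Eˣ`**, as representations of `G ⧸ G_E ≃ Gal(E/K₀)`. -/
def layerIso : layer (UΩ K₀ Ω) E.fixingSubgroup ≅
    Rep.res (quotEquiv E).toMonoidHom (UE E) :=
  Rep.mkIso
    { toLinearEquiv := layerEquiv E
      isIntertwining' := fun q => by
        ext x
        exact layerEquiv_ρ E q x }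

lemma layerIso_hom_apply (x : layer (UΩ K₀ Ω) E.fixingSubgroup) :
    (layerIso E).hom.hom x = layerEquiv E x := rfl

/-- **`Hⁿ(G ⧸ G_E, (Ωˣ)^{G_E}) ≅ Hⁿ(Gal(E/K₀), Eˣ)`** (Mathlib group cohomology). -/
def cohIso (n : ℕ) : groupCohomology (layer (UΩ K₀ Ω) E.fixingSubgroup) n ≅
    groupCohomology (UE E) n :=
  groupCohomology.mapIso (quotEquiv E) (layerEquiv E)
    (fun q => by
      ext x
      exact layerEquiv_ρ E q x) n

lemma cohIso_inv (n : ℕ) : (cohIso E n).inv =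
    groupCohomology.map (quotEquiv E).toMonoidHom (layerIso E).inv n := rfl

/-! ### inflation from the Galois cohomology of the finite layers -/

section Infl

variable (𝒰 : LevelStr (Ω ≃ₐ[K₀] Ω)) (hE : E.fixingSubgroup ∈ 𝒰.levels)

/-- **inflation** `H¹(Gal(E/K₀), Eˣ) → 𝒰.H1 Ωˣ` (a `ℤ`-linear map
`H1 (UE E) →ₗ[ℤ] 𝒰.H1 (UΩ K₀ Ω)`; the type is left to be inferred so that the module instances are
those of the `k`-generic library). -/
def inflGal₁ :=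
  (infl₁ (UΩ K₀ Ω) 𝒰 hE).comp (cohIso E 1).inv.hom

/-- **inflation** `H²(Gal(E/K₀), Eˣ) → 𝒰.H2 Ωˣ` (a `ℤ`-linear map
`H2 (UE E) →ₗ[ℤ] 𝒰.H2 (UΩ K₀ Ω)`). -/
def inflGal₂ :=
  (infl₂ (UΩ K₀ Ω) 𝒰 hE).comp (cohIso E 2).inv.hom

lemma inflGal₁_apply (z : H1 (UE E)) :
    inflGal₁ E 𝒰 hE z = infl₁ (UΩ K₀ Ω) 𝒰 hE ((cohIso E 1).inv.hom z) := rfl

lemma inflGal₂_apply (z : H2 (UE E)) :
    inflGal₂ E 𝒰 hE z = infl₂ (UΩ K₀ Ω) 𝒰 hE ((cohIso E 2).inv.hom z) := rfl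

lemma inflGal₁_cohIso_hom (y : H1 (layer (UΩ K₀ Ω) E.fixingSubgroup)) :
    inflGal₁ E 𝒰 hE ((cohIso E 1).hom.hom y) = infl₁ (UΩ K₀ Ω) 𝒰 hE y := by
  rw [inflGal₁_apply]
  congr 1
  exact Iso.hom_inv_id_apply (cohIso E 1) y

lemma inflGal₂_cohIso_hom (y : H2 (layer (UΩ K₀ Ω) E.fixingSubgroup)) :
    inflGal₂ E 𝒰 hE ((cohIso E 2).hom.hom y) = infl₂ (UΩ K₀ Ω) 𝒰 hE y := by
  rw [inflGal₂_apply]
  congr 1
  exact Iso.hom_inv_id_apply (cohIso E 2) y

/-- `inflGal₁` and helper49's `infl₁` have the same image. -/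
lemma exists_inflGal₁_eq_iff (x : 𝒰.H1 (UΩ K₀ Ω)) :
    (∃ z, inflGal₁ E 𝒰 hE z = x) ↔ ∃ y, infl₁ (UΩ K₀ Ω) 𝒰 hE y = x := by
  constructor
  · rintro ⟨z, rfl⟩
    exact ⟨_, (inflGal₁_apply E 𝒰 hE z).symm⟩
  · rintro ⟨y, rfl⟩
    exact ⟨_, inflGal₁_cohIso_hom E 𝒰 hE y⟩

/-- `inflGal₂` and helper49's `infl₂` have the same image. -/
lemma exists_inflGal₂_eq_iff (x : 𝒰.H2 (UΩ K₀ Ω)) :
    (∃ z, inflGal₂ E 𝒰 hE z = x) ↔ ∃ y, infl₂ (UΩ K₀ Ω) 𝒰 hE y = x := by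
  constructor
  · rintro ⟨z, rfl⟩
    exact ⟨_, (inflGal₂_apply E 𝒰 hE z).symm⟩
  · rintro ⟨y, rfl⟩
    exact ⟨_, inflGal₂_cohIso_hom E 𝒰 hE y⟩

/-- cocycle-level inflation `Z¹(Gal(E/K₀), Eˣ) → 𝒰.Z₁ Ωˣ`. -/
def galZ₁ :=
  (inflZ₁ (UΩ K₀ Ω) 𝒰 hE).comp (mapCocycles₁ (quotEquiv E).toMonoidHom (layerIso E).inv).hom

/-- cocycle-level inflation `Z²(Gal(E/K₀), Eˣ) → 𝒰.Z₂ Ωˣ`. -/
def galZ₂ :=
  (inflZ₂ (UΩ K₀ Ω) 𝒰 hE).comp (mapCocycles₂ (quotEquiv E).toMonoidHom (layerIso E).inv).hom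

/-- **cocycle formula**: the inflated `1`-cocycle is `g ↦ c (g|_E)`, read in `Ωˣ`. -/
lemma coe_galZ₁ (c : cocycles₁ (UE E)) (g : Ω ≃ₐ[K₀] Ω) :
    ((galZ₁ E 𝒰 hE c : ↥(𝒰.Z₁ (UΩ K₀ Ω))) : (Ω ≃ₐ[K₀] Ω) → UΩ K₀ Ω) g =
      unitIncl E ((c : (E ≃ₐ[K₀] E) → UE E) (AlgEquiv.restrictNormalHom E g)) := rfl

/-- **cocycle formula**: the inflated `2`-cocycle is `(g, h) ↦ c (g|_E, h|_E)`, read in `Ωˣ`. -/
lemma coe_galZ₂ (c : cocycles₂ (UE E)) (g h : Ω ≃ₐ[K₀] Ω) :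
    ((galZ₂ E 𝒰 hE c : ↥(𝒰.Z₂ (UΩ K₀ Ω))) : (Ω ≃ₐ[K₀] Ω) × (Ω ≃ₐ[K₀] Ω) → UΩ K₀ Ω) (g, h) =
      unitIncl E ((c : (E ≃ₐ[K₀] E) × (E ≃ₐ[K₀] E) → UE E)
        (AlgEquiv.restrictNormalHom E g, AlgEquiv.restrictNormalHom E h)) := rfl

lemma inflGal₁_H1π (c : cocycles₁ (UE E)) :
    inflGal₁ E 𝒰 hE ((H1π (UE E)).hom c) = 𝒰.H1π (UΩ K₀ Ω) (galZ₁ E 𝒰 hE c) := by
  rw [inflGal₁_apply, cohIso_inv, H1π_comp_map_apply, infl₁_H1π]
  rfl

lemma inflGal₂_H2π (c : cocycles₂ (UE E)) :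
    inflGal₂ E 𝒰 hE ((H2π (UE E)).hom c) = 𝒰.H2π (UΩ K₀ Ω) (galZ₂ E 𝒰 hE c) := by
  rw [inflGal₂_apply, cohIso_inv, H2π_comp_map_apply, infl₂_H2π]
  rfl

end Infl

/-! ### transition maps between the Galois layers -/

section Trans

variable {E} {E' : IntermediateField K₀ Ω} [IsGalois K₀ E'] (h : E ≤ E')

/-- the inclusion of units `Eˣ → E'ˣ` for `E ≤ E'`, written additively. -/
def unitInclLE : Additive Eˣ →+ Additive E'ˣ :=
  MonoidHom.toAdditive (Units.map (IntermediateField.inclusion h : E →* E'))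

omit [IsGalois K₀ Ω] [IsGalois K₀ E] [IsGalois K₀ E'] in
lemma unitInclLE_apply (y : Additive Eˣ) :
    ((((Additive.toMul (unitInclLE h y) : E'ˣ) : E')) : Ω) = (((Additive.toMul y : Eˣ) : E) : Ω) :=
  rfl

omit [IsGalois K₀ Ω] [IsGalois K₀ E] [IsGalois K₀ E'] in
lemma unitIncl_unitInclLE (y : Additive Eˣ) : unitIncl E' (unitInclLE h y) = unitIncl E y := rfl

/-- restriction `Gal(E'/K₀) → Gal(E/K₀)` for `E ≤ E'` (both Galois over `K₀`). -/
def resGal : (E' ≃ₐ[K₀] E') →* (E ≃ₐ[K₀] E) :=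
  ((quotEquiv E).toMonoidHom.comp (proj (IntermediateField.fixingSubgroup_le h))).comp
    (quotEquiv E').symm.toMonoidHom

lemma resGal_restrictNormalHom (g : Ω ≃ₐ[K₀] Ω) :
    resGal h (AlgEquiv.restrictNormalHom E' g) = AlgEquiv.restrictNormalHom E g := by
  rw [← quotEquiv_mk E' g, ← quotEquiv_mk E g]
  simp only [resGal, MonoidHom.comp_apply, MulEquiv.coe_toMonoidHom, MulEquiv.symm_apply_apply,
    proj_mk]

lemma quotEquiv_symm_resGal (σ : E' ≃ₐ[K₀] E') :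
    (quotEquiv E).symm (resGal h σ) =
      proj (IntermediateField.fixingSubgroup_le h) ((quotEquiv E').symm σ) := by
  simp only [resGal, MonoidHom.comp_apply, MulEquiv.coe_toMonoidHom, MulEquiv.symm_apply_apply]

lemma resGal_apply (σ : E' ≃ₐ[K₀] E') (x : E) :
    ((resGal h σ x : E) : Ω) = ((σ (IntermediateField.inclusion h x) : E') : Ω) := by
  obtain ⟨g, rfl⟩ := AlgEquiv.restrictNormalHom_surjective Ω σ
  rw [resGal_restrictNormalHom, AlgEquiv.restrictNormalHom_apply, AlgEquiv.restrictNormalHom_apply]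
  rfl

lemma unitInclLE_ρ (σ : E' ≃ₐ[K₀] E') (y : Additive Eˣ) :
    unitInclLE h ((UE E).ρ (resGal h σ) y) = (UE E').ρ σ (unitInclLE h y) := by
  apply Additive.toMul.injective
  apply Units.ext
  apply Subtype.ext
  exact resGal_apply h σ _

/-- `Eˣ → E'ˣ` as a morphism of representations of `Gal(E'/K₀)`. -/
def unitHom : Rep.res (resGal h) (UE E) ⟶ UE E' :=
  Rep.ofHom ⟨(unitInclLE h).toIntLinearMap, fun σ => LinearMap.ext fun y => unitInclLE_ρ h σ y⟩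

lemma unitHom_apply (y : Additive Eˣ) : (unitHom h).hom y = unitInclLE h y := rfl

/-- **inflation between Galois layers** `Hⁿ(Gal(E/K₀), Eˣ) → Hⁿ(Gal(E'/K₀), E'ˣ)`, in Mathlib's
group cohomology. -/
def transGal (n : ℕ) : groupCohomology (UE E) n ⟶ groupCohomology (UE E') n :=
  groupCohomology.map (resGal h) (unitHom h) n

lemma layerEquiv_inclLayer (x : layer (UΩ K₀ Ω) E.fixingSubgroup) :
    layerEquiv E' (inclLayer (UΩ K₀ Ω) (IntermediateField.fixingSubgroup_le h) x) =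
      unitInclLE h (layerEquiv E x) := by
  apply unitIncl_injective E'
  rw [unitIncl_layerEquiv, incl_inclLayer, unitIncl_unitInclLE, unitIncl_layerEquiv]

variable (E) in
/-- `layerEquiv` as a morphism `Res((quotEquiv E)⁻¹)((Ωˣ)^{G_E}) ⟶ Eˣ` of representations of
`Gal(E/K₀)`. -/
def layerHomSymm : Rep.res (quotEquiv E).symm.toMonoidHom (layer (UΩ K₀ Ω) E.fixingSubgroup) ⟶
    UE E :=
  Rep.ofHom ⟨(layerEquiv E).toLinearMap, fun σ => LinearMap.ext fun x => by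
    have := layerEquiv_ρ E ((quotEquiv E).symm σ) x
    rw [MulEquiv.apply_symm_apply] at this
    exact this⟩

variable (E) in
lemma cohIso_hom (n : ℕ) : (cohIso E n).hom =
    groupCohomology.map (quotEquiv E).symm.toMonoidHom (layerHomSymm E) n := rfl

/-- **naturality of `cohIso` in `E`, degree `2`**: helper49's transition map between the layers of
`Ωˣ` is the Galois inflation `H²(Gal(E/K₀), Eˣ) → H²(Gal(E'/K₀), E'ˣ)`. -/
theorem cohIso_trans₂ (y : H2 (layer (UΩ K₀ Ω) E.fixingSubgroup)) :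
    (cohIso E' 2).hom.hom (trans₂ (UΩ K₀ Ω) (IntermediateField.fixingSubgroup_le h) y) =
      (transGal h 2).hom ((cohIso E 2).hom.hom y) := by
  obtain ⟨c, rfl⟩ := H2π_surjective (layer (UΩ K₀ Ω) E.fixingSubgroup) y
  rw [trans₂_H2π, cohIso_hom, cohIso_hom, transGal, H2π_comp_map_apply, H2π_comp_map_apply,
    H2π_comp_map_apply]
  congr 1
  apply Subtype.ext
  funext ⟨σ, τ⟩
  show layerEquiv E' (inclLayer (UΩ K₀ Ω) (IntermediateField.fixingSubgroup_le h)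
      ((c : _ → _) (proj (IntermediateField.fixingSubgroup_le h) ((quotEquiv E').symm σ),
        proj (IntermediateField.fixingSubgroup_le h) ((quotEquiv E').symm τ)))) =
    unitInclLE h (layerEquiv E ((c : _ → _) ((quotEquiv E).symm (resGal h σ),
      (quotEquiv E).symm (resGal h τ))))
  rw [layerEquiv_inclLayer, quotEquiv_symm_resGal, quotEquiv_symm_resGal]

/-- **naturality of `cohIso` in `E`, degree `1`**. -/
theorem cohIso_trans₁ (y : H1 (layer (UΩ K₀ Ω) E.fixingSubgroup)) :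
    (cohIso E' 1).hom.hom (trans₁ (UΩ K₀ Ω) (IntermediateField.fixingSubgroup_le h) y) =
      (transGal h 1).hom ((cohIso E 1).hom.hom y) := by
  obtain ⟨c, rfl⟩ := H1π_surjective (layer (UΩ K₀ Ω) E.fixingSubgroup) y
  rw [trans₁_H1π, cohIso_hom, cohIso_hom, transGal, H1π_comp_map_apply, H1π_comp_map_apply,
    H1π_comp_map_apply]
  congr 1
  apply Subtype.ext
  funext σ
  show layerEquiv E' (inclLayer (UΩ K₀ Ω) (IntermediateField.fixingSubgroup_le h)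
      ((c : _ → _) (proj (IntermediateField.fixingSubgroup_le h) ((quotEquiv E').symm σ)))) =
    unitInclLE h (layerEquiv E ((c : _ → _) ((quotEquiv E).symm (resGal h σ))))
  rw [layerEquiv_inclLayer, quotEquiv_symm_resGal]

end Trans

/-! ### level cohomology of `Ωˣ` is the colimit of the Galois layers -/

section Colim

variable (𝒰 : LevelStr (Ω ≃ₐ[K₀] Ω))

omit [IsGalois K₀ Ω] in
/-- `Ωˣ` is smooth for every level structure whose levels fix every element of `Ω` eventually. -/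
theorem isSmooth_UΩ (h𝒰 : ∀ x : Ω, ∃ U ∈ 𝒰.levels, ∀ s ∈ U, s x = x) :
    𝒰.IsSmooth (UΩ K₀ Ω) := by
  intro m
  obtain ⟨U, hU, hfix⟩ := h𝒰 ((Additive.toMul m : Ωˣ) : Ω)
  refine ⟨U, hU, fun s hs => ?_⟩
  apply Additive.toMul.injective
  apply Units.ext
  exact hfix s hs

/-- order reflection of the (infinite) Galois correspondence. -/
theorem le_of_fixingSubgroup_le {E E' : IntermediateField K₀ Ω}
    (h : E'.fixingSubgroup ≤ E.fixingSubgroup) : E ≤ E' := by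
  rw [← InfiniteGalois.fixedField_fixingSubgroup E, ← InfiniteGalois.fixedField_fixingSubgroup E']
  exact IntermediateField.fixedField_le h

section

variable {E} {E' : IntermediateField K₀ Ω} [IsGalois K₀ E'] (h : E ≤ E')
  (hE : E.fixingSubgroup ∈ 𝒰.levels) (hE' : E'.fixingSubgroup ∈ 𝒰.levels)

/-- inflation to the level cohomology is compatible with the Galois transition maps, `H²`. -/
theorem inflGal₂_transGal (z : H2 (UE E)) :
    inflGal₂ E' 𝒰 hE' ((transGal h 2).hom z) = inflGal₂ E 𝒰 hE z := by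
  have hz : z = (cohIso E 2).hom.hom ((cohIso E 2).inv.hom z) :=
    (Iso.inv_hom_id_apply (cohIso E 2) z).symm
  rw [hz, ← cohIso_trans₂, inflGal₂_cohIso_hom, inflGal₂_cohIso_hom]
  exact infl₂_trans₂ (UΩ K₀ Ω) 𝒰 hE hE' (IntermediateField.fixingSubgroup_le h) _

/-- inflation to the level cohomology is compatible with the Galois transition maps, `H¹`. -/
theorem inflGal₁_transGal (z : H1 (UE E)) :
    inflGal₁ E' 𝒰 hE' ((transGal h 1).hom z) = inflGal₁ E 𝒰 hE z := by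
  have hz : z = (cohIso E 1).hom.hom ((cohIso E 1).inv.hom z) :=
    (Iso.inv_hom_id_apply (cohIso E 1) z).symm
  rw [hz, ← cohIso_trans₁, inflGal₁_cohIso_hom, inflGal₁_cohIso_hom]
  exact infl₁_trans₁ (UΩ K₀ Ω) 𝒰 hE hE' (IntermediateField.fixingSubgroup_le h) _

end

variable (hA : 𝒰.IsSmooth (UΩ K₀ Ω))
  (h𝒰 : ∀ U ∈ 𝒰.levels, ∃ E : IntermediateField K₀ Ω, U = E.fixingSubgroup)

include hA h𝒰

/-- **joint surjectivity, `H²`**: every level class of `Ωˣ` is inflated from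
`H²(Gal(E/K₀), Eˣ)` for some Galois layer `E` (below any given level). -/
theorem exists_inflGal₂_eq (x : 𝒰.H2 (UΩ K₀ Ω)) {U₀ : Subgroup (Ω ≃ₐ[K₀] Ω)}
    (hU₀ : U₀ ∈ 𝒰.levels) :
    ∃ (E : IntermediateField K₀ Ω) (_ : IsGalois K₀ E) (hE : E.fixingSubgroup ∈ 𝒰.levels)
      (_ : E.fixingSubgroup ≤ U₀) (z : H2 (UE E)), inflGal₂ E 𝒰 hE z = x := by
  obtain ⟨W, hWn, hW, hle, y, hy⟩ := exists_infl₂_eq 𝒰 hA x hU₀
  obtain ⟨E, rfl⟩ := h𝒰 W hW
  have hGal : IsGalois K₀ E := isGalois_of_fixingSubgroup_normal E hWn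
  exact ⟨E, hGal, hW, hle, (cohIso E 2).hom.hom y, (inflGal₂_cohIso_hom E 𝒰 hW y).trans hy⟩

/-- **joint surjectivity, `H¹`**. -/
theorem exists_inflGal₁_eq (x : 𝒰.H1 (UΩ K₀ Ω)) {U₀ : Subgroup (Ω ≃ₐ[K₀] Ω)}
    (hU₀ : U₀ ∈ 𝒰.levels) :
    ∃ (E : IntermediateField K₀ Ω) (_ : IsGalois K₀ E) (hE : E.fixingSubgroup ∈ 𝒰.levels)
      (_ : E.fixingSubgroup ≤ U₀) (z : H1 (UE E)), inflGal₁ E 𝒰 hE z = x := by
  obtain ⟨W, hWn, hW, hle, y, hy⟩ := exists_infl₁_eq 𝒰 hA x hU₀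
  obtain ⟨E, rfl⟩ := h𝒰 W hW
  have hGal : IsGalois K₀ E := isGalois_of_fixingSubgroup_normal E hWn
  exact ⟨E, hGal, hW, hle, (cohIso E 1).hom.hom y, (inflGal₁_cohIso_hom E 𝒰 hW y).trans hy⟩

/-- **kernel criterion, `H²`**: a class of `H²(Gal(E/K₀), Eˣ)` dies in the level cohomology of
`Ωˣ` iff it dies in `H²(Gal(E'/K₀), E'ˣ)` for some bigger Galois layer `E'`. -/
theorem inflGal₂_eq_zero_iff {E : IntermediateField K₀ Ω} [IsGalois K₀ E]
    (hE : E.fixingSubgroup ∈ 𝒰.levels) (z : H2 (UE E)) :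
    inflGal₂ E 𝒰 hE z = 0 ↔
      ∃ (E' : IntermediateField K₀ Ω) (_ : IsGalois K₀ E') (_ : E'.fixingSubgroup ∈ 𝒰.levels)
        (h : E ≤ E'), (transGal h 2).hom z = 0 := by
  constructor
  · intro hz
    rw [inflGal₂_apply, infl₂_eq_zero_iff 𝒰 hA hE] at hz
    obtain ⟨V, hVn, hV, hVU, hy⟩ := hz
    obtain ⟨E', rfl⟩ := h𝒰 V hV
    have hGal : IsGalois K₀ E' := isGalois_of_fixingSubgroup_normal E' hVn
    have hle : E ≤ E' := le_of_fixingSubgroup_le hVU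
    refine ⟨E', hGal, hV, hle, ?_⟩
    have hz' : z = (cohIso E 2).hom.hom ((cohIso E 2).inv.hom z) :=
      (Iso.inv_hom_id_apply (cohIso E 2) z).symm
    rw [hz', ← cohIso_trans₂ hle]
    have : trans₂ (UΩ K₀ Ω) (IntermediateField.fixingSubgroup_le hle) ((cohIso E 2).inv.hom z) = 0 :=
      hy
    rw [this, map_zero]
  · rintro ⟨E', hGal, hE', hle, hz⟩
    rw [← inflGal₂_transGal 𝒰 hle hE hE', hz, map_zero]

omit hA h𝒰 in
/-- inflation from a Galois layer is injective on `H¹`. -/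
theorem inflGal₁_injective {E : IntermediateField K₀ Ω} [IsGalois K₀ E]
    (hE : E.fixingSubgroup ∈ 𝒰.levels) : Function.Injective (inflGal₁ E 𝒰 hE) := by
  intro z z' hzz
  rw [inflGal₁_apply, inflGal₁_apply] at hzz
  have := infl₁_injective 𝒰 hE hzz
  exact (ConcreteCategory.bijective_of_isIso (cohIso E 1).inv).1 this

/-- **Hilbert 90 in the limit**: if every level is the fixing subgroup of a finite subextension,
the level `H¹` of `Ωˣ` vanishes. -/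
theorem subsingleton_H1_UΩ
    (hfin : ∀ U ∈ 𝒰.levels, ∀ E : IntermediateField K₀ Ω, U = E.fixingSubgroup →
      FiniteDimensional K₀ E) :
    Subsingleton (𝒰.H1 (UΩ K₀ Ω)) := by
  have key : ∀ x : 𝒰.H1 (UΩ K₀ Ω), x = 0 := by
    intro x
    obtain ⟨U₀, hU₀⟩ := 𝒰.nonempty
    obtain ⟨E, hGal, hE, -, z, rfl⟩ := exists_inflGal₁_eq 𝒰 hA h𝒰 x hU₀
    have : FiniteDimensional K₀ E := hfin _ hE E rfl
    rw [Subsingleton.elim z 0, map_zero]
  exact ⟨fun a b => by rw [key a, key b]⟩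

end Colim

end Fermat.Agent.S55.LevelColimGal75
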