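/-
S55 / 10h-LEVEL-COLIM (G3) (helper75): the Brauer-group colimit for the intrinsic Galois levels.

(A) bridge between the two landed copies of the Galois instance of the finite layers:
    `LevelColimGal75` (helper75) and `GalAdapt49.Inf` (helper49): `quotEquiv` and the layer
    equivalence are EQUAL (so the two `layerIso` / cohomology isomorphisms agree).
(B) instantiation of the colimit theorems of `LevelColimGal75` for helper95's intrinsic level
    structure `KummerBr95.galLevels K₀ Ω` (normal fixing subgroups of finite subextensions):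
    `(galLevels K₀ Ω).H2 Ωˣ = colim_E H²(Gal(E/K₀), Eˣ)` over the finite Galois `E / K₀`, with the
    classical inflation maps as transition maps.
-/
import Fermat.Agent.S55.LevelColimGal75
import Fermat.Agent.S55.GalAdapt49.Inf
import Fermat.Agent.S55.KummerBr95.GalLevels

set_option autoImplicit false

open CategoryTheory groupCohomology IntermediateField

noncomputable section

namespace Fermat.Agent.S55.LevelColimGalLevels75

open Fermat.Agent.S55.Profin15 Fermat.Agent.S55.LevelColim49 Fermat.Agent.S55.LevelColimGal75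
open Fermat.Agent.S55.KummerBr95

variable {K₀ Ω : Type} [Field K₀] [Field Ω] [Algebra K₀ Ω] [IsGalois K₀ Ω]

/-! ### (A) the two copies of the Galois instance agree -/

section Bridge

variable (E : IntermediateField K₀ Ω) [IsGalois K₀ E]

lemma quotEquiv_eq : LevelColimGal75.quotEquiv E = GalAdapt49.Inf.quotEquiv E := rfl

lemma layerEquiv_eq : LevelColimGal75.layerEquiv E = GalAdapt49.Inf.layerLinearEquiv E := by
  apply LinearEquiv.ext
  intro x
  apply Additive.toMul.injective
  apply Units.ext
  apply Subtype.ext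
  rw [layerEquiv_apply_val]
  exact (GalAdapt49.Inf.coe_layerLinearEquiv E x).symm

end Bridge

/-! ### (B) the intrinsic Galois levels -/

section GalLevels

/-- the fixing subgroup of a finite Galois subextension is a level of `galLevels`. -/
theorem fixingSubgroup_mem_galLevels (E : IntermediateField K₀ Ω) [FiniteDimensional K₀ E]
    [IsGalois K₀ E] : E.fixingSubgroup ∈ (galLevels K₀ Ω).levels :=
  ⟨inferInstance, E, inferInstance, rfl⟩

/-- every level of `galLevels` is a fixing subgroup. -/
theorem galLevels_isFix : ∀ U ∈ (galLevels K₀ Ω).levels,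
    ∃ E : IntermediateField K₀ Ω, U = E.fixingSubgroup := by
  rintro U ⟨-, E, -, rfl⟩
  exact ⟨E, rfl⟩

/-- if a level of `galLevels` is the fixing subgroup of `E`, then `E` is finite over `K₀`. -/
theorem galLevels_fin : ∀ U ∈ (galLevels K₀ Ω).levels, ∀ E : IntermediateField K₀ Ω,
    U = E.fixingSubgroup → FiniteDimensional K₀ E := by
  rintro U ⟨-, E', hE', rfl⟩ E hEE'
  have : E = E' := by
    rw [← InfiniteGalois.fixedField_fixingSubgroup E, ← InfiniteGalois.fixedField_fixingSubgroup E',
      hEE']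
  rw [this]
  exact hE'

/-- `Ωˣ` is smooth for the intrinsic Galois levels. -/
theorem isSmooth_UΩ_galLevels : (galLevels K₀ Ω).IsSmooth (UΩ K₀ Ω) := by
  apply isSmooth_UΩ
  intro x
  have : FiniteDimensional K₀ K₀⟮x⟯ :=
    IntermediateField.adjoin.finiteDimensional (Algebra.IsIntegral.isIntegral x)
  obtain ⟨U, hU, hle⟩ := exists_galLevel_le (K := K₀) (Ω := Ω) K₀⟮x⟯
  refine ⟨U, hU, fun s hs => ?_⟩
  exact hle hs ⟨x, IntermediateField.mem_adjoin_simple_self K₀ x⟩

/-- **Hilbert 90 for the intrinsic Galois levels** (see also helper86's model-free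
`KummerBr86.Hilbert90Lim`). -/
theorem subsingleton_H1_UΩ_galLevels : Subsingleton ((galLevels K₀ Ω).H1 (UΩ K₀ Ω)) :=
  subsingleton_H1_UΩ _ isSmooth_UΩ_galLevels galLevels_isFix galLevels_fin

/-- **the Brauer group is the union of the `H²(Gal(E/K₀), Eˣ)`**: every class of
`(galLevels K₀ Ω).H2 Ωˣ` is inflated from a finite Galois layer (below any given level). -/
theorem exists_inflGal₂_eq_galLevels (x : (galLevels K₀ Ω).H2 (UΩ K₀ Ω))
    {U₀ : Subgroup (Ω ≃ₐ[K₀] Ω)} (hU₀ : U₀ ∈ (galLevels K₀ Ω).levels) :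
    ∃ (E : IntermediateField K₀ Ω) (_ : FiniteDimensional K₀ E) (_ : IsGalois K₀ E)
      (hE : E.fixingSubgroup ∈ (galLevels K₀ Ω).levels) (_ : E.fixingSubgroup ≤ U₀)
      (z : H2 (UE E)), inflGal₂ E (galLevels K₀ Ω) hE z = x := by
  obtain ⟨E, hGal, hE, hle, z, hz⟩ :=
    exists_inflGal₂_eq _ isSmooth_UΩ_galLevels galLevels_isFix x hU₀
  exact ⟨E, galLevels_fin _ hE E rfl, hGal, hE, hle, z, hz⟩

/-- **kernel criterion for the intrinsic Galois levels**: a class of `H²(Gal(E/K₀), Eˣ)` dies in
the Brauer group iff it dies in `H²(Gal(E'/K₀), E'ˣ)` for some finite Galois `E' ⊇ E`. -/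
theorem inflGal₂_eq_zero_iff_galLevels {E : IntermediateField K₀ Ω} [IsGalois K₀ E]
    (hE : E.fixingSubgroup ∈ (galLevels K₀ Ω).levels) (z : H2 (UE E)) :
    inflGal₂ E (galLevels K₀ Ω) hE z = 0 ↔
      ∃ (E' : IntermediateField K₀ Ω) (_ : FiniteDimensional K₀ E') (_ : IsGalois K₀ E')
        (h : E ≤ E'), (transGal h 2).hom z = 0 := by
  rw [inflGal₂_eq_zero_iff _ isSmooth_UΩ_galLevels galLevels_isFix hE z]
  constructor
  · rintro ⟨E', hGal, hE', h, hz⟩
    exact ⟨E', galLevels_fin _ hE' E' rfl, hGal, h, hz⟩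
  · rintro ⟨E', hfin, hGal, h, hz⟩
    exact ⟨E', hGal, fixingSubgroup_mem_galLevels E', h, hz⟩

end GalLevels

end Fermat.Agent.S55.LevelColimGalLevels75
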