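/-
S55 / 35-LIM, limit algebra, part 2 (helper14): the invariant package in the shape of
`S1_67.Level.range_loc_iff` / `S1Limit41.Transfer` / `Recip70`:
local invariants `inv w : B w →+ T` on LOCAL groups `B w` (`= ` level `H²(G_w, Ω_wˣ)`), localisation
maps `locJ w : Y_J →+ B w`, and reciprocity in the form

  `hrec : ∀ y : Y_J, invC (π y) = ∑ w, inv w (locJ w y)`        (for ALL `y`).

Class field theory is only available on `p`-primary classes, so `hrec` for all `y` can only hold
for the `p`-PROJECTED invariants `inv w := (inv_w on the p-primary part) ∘ (x ↦ x_p)`.  This file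
produces them from `p`-primary data:

* `extend_comp_map` : `extend f (φ x) = extend (f ∘ mapPrimary φ) x` (naturality of `extend`);
* `exists_local_inv` : from `invp w : primary p (B w) →+ T`, (A), (B→), (B←) for
  `∑ w, invp w ∘ locJ w` get total `inv w`, `invC` with `hrec` (all `y`) and `hinvC`
  (`p`-primary injectivity), `inv w` extending `invp w` and killing prime-to-`p` torsion.

Mathlib + `PrimaryExt14` + `LimAlg14` only.
-/
import Fermat.Agent.S55.LimAlg14

set_option autoImplicit false
set_option linter.unusedSectionVars false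

namespace Fermat.Agent.S55.LimAlg14

open Fermat.Agent.S55.PrimaryExt14

variable (p : ℕ) [hp : Fact p.Prime]

/-- naturality of `extend`: extending after restricting along `φ` is composing the extension
with `φ`. -/
theorem extend_comp_map {X Y T : Type*} [AddCommGroup X] [AddCommGroup Y] [AddCommGroup T]
    (htX : ∀ x : X, ∃ n : ℕ, 0 < n ∧ n • x = 0) (htY : ∀ y : Y, ∃ n : ℕ, 0 < n ∧ n • y = 0)
    (φ : X →+ Y) (f : primary p Y →+ T) (x : X) :
    extend p htY f (φ x) = extend p htX (f.comp (mapPrimary p φ)) x := by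
  rw [extend_apply, extend_apply, primaryProj_map p htX htY φ x]
  rfl

section Local

variable {YE YJ YC T : Type*} [AddCommGroup YE] [AddCommGroup YJ] [AddCommGroup YC]
  [AddCommGroup T] (i : YE →+ YJ) (π : YJ →+ YC)
  {W : Type*} [Fintype W] {B : W → Type*} [∀ w, AddCommGroup (B w)]
  (hπi : ∀ e, π (i e) = 0) (hex : ∀ y, π y = 0 → y ∈ Set.range i)
  (htE : ∀ e : YE, ∃ n : ℕ, 0 < n ∧ n • e = 0)
  (htJ : ∀ y : YJ, ∃ n : ℕ, 0 < n ∧ n • y = 0)
  (htC : ∀ c : YC, ∃ n : ℕ, 0 < n ∧ n • c = 0)
  (htB : ∀ w, ∀ b : B w, ∃ n : ℕ, 0 < n ∧ n • b = 0)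
  (locJ : ∀ w, YJ →+ B w) (invp : ∀ w, primary p (B w) →+ T)
  (hA : ∀ c : primary p YC, ∃ y : primary p YJ, mapPrimary p π y = c)
  (hBto : ∀ e : primary p YE,
    ∑ w, invp w (mapPrimary p (locJ w) (mapPrimary p i e)) = 0)
  (hBfrom : ∀ y : primary p YJ,
    ∑ w, invp w (mapPrimary p (locJ w) y) = 0 → (y : YJ) ∈ Set.range i)

include hπi hex htE htJ htC htB hA hBto hBfrom in
/-- **The invariant package in the shape of `S1_67` / `Recip70`.**  `p`-primary local invariants
`invp w` on the local groups `B w`, with (A), reciprocity (B→) and Hasse (B←) for the sum of the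
localised invariants on `p`-primary classes, give TOTAL `inv w : B w →+ T` and `invC : Y_C →+ T`
with reciprocity `hrec` for ALL classes of `Y_J` and `p`-primary injectivity `hinvC`. -/
theorem exists_local_inv :
    ∃ (inv : ∀ w, B w →+ T) (invC : YC →+ T),
      (∀ w (b : primary p (B w)), inv w (b : B w) = invp w b) ∧
      (∀ w (b : B w) (m : ℕ), ¬ p ∣ m → m • b = 0 → inv w b = 0) ∧
      (∀ y : YJ, invC (π y) = ∑ w, inv w (locJ w y)) ∧
      (∀ (c : YC) (n : ℕ), (p ^ n) • c = 0 → invC c = 0 → c = 0) := by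
  -- the idelic invariant on `p`-primary classes
  set invJ : primary p YJ →+ T := ∑ w, (invp w).comp (mapPrimary p (locJ w)) with hinvJ
  have hsum : ∀ y : primary p YJ, invJ y = ∑ w, invp w (mapPrimary p (locJ w) y) := fun y => by
    simp only [hinvJ, AddMonoidHom.coe_finsetSum, Finset.sum_apply, AddMonoidHom.comp_apply]
  obtain ⟨invCp, hcompatp, hinjCp⟩ := exists_invCp p i π hπi hex htE invJ hA
    (fun e => by rw [hsum]; exact hBto e) (fun y hy => hBfrom y (by rw [← hsum]; exact hy))
  refine ⟨fun w => extend p (htB w) (invp w), extend p htC invCp,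
    fun w b => extend_coe p (htB w) (invp w) b,
    fun w b m hm hmb => extend_of_coprime p (htB w) (invp w) hm hmb, ?_,
    hinjC_extend p htC invCp hinjCp⟩
  intro y
  rw [extend_apply, primaryProj_map p htJ htC π y, hcompatp, hsum]
  refine Finset.sum_congr rfl fun w _ => ?_
  rw [extend_apply, primaryProj_map p htJ (htB w) (locJ w) y]

end Local

end Fermat.Agent.S55.LimAlg14
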