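import Mathlib
import Fermat.Agent.S55.LocField17.Tower

/-!
# `[22e-LF-DICT]` dictionary between the `LF q` model and relative field theory (helper81)

`K ≤ L ≤ M` intermediate fields of `PadicAlgCl q / ℚ_q`.  We view `↥M` as a `↥K`-algebra through
`LocField17.relAlgebra`, `L` as an intermediate field `relIF` of `↥M / ↥K`, and compare
`Gal(↥M / ↥K)` with the subgroup `K.fixingSubgroup` of `Gal(PadicAlgCl q / ℚ_q)`.
-/

set_option autoImplicit false
set_option linter.unusedSectionVars false
set_option linter.style.haveILetI false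
set_option synthInstance.maxHeartbeats 400000
set_option maxHeartbeats 1000000

noncomputable section

namespace Fermat.Agent.S55.LocDict81

open Fermat.Agent.S55.LocField17 Module

variable {q : ℕ} [Fact q.Prime]

/-- `M / K` is normal, in the language of the ambient Galois group. -/
def IsStable (K M : LF q) : Prop := ∀ σ ∈ K.fixingSubgroup, ∀ x ∈ M, σ x ∈ M

theorem isStable_self (K : LF q) : IsStable K K := fun σ hσ x hx => by
  rw [(IntermediateField.mem_fixingSubgroup_iff _ _).1 hσ x hx]; exact hx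

theorem IsStable.sup {K M M' : LF q} (h : IsStable K M) (h' : IsStable K M') :
    IsStable K (M ⊔ M') := by
  intro σ hσ x hx
  have hle : M ⊔ M' ≤ (M ⊔ M').comap (σ : PadicAlgCl q →ₐ[ℚ_[q]] PadicAlgCl q) := by
    refine sup_le (fun y hy => ?_) (fun y hy => ?_)
    · exact (le_sup_left : M ≤ M ⊔ M') (h σ hσ y hy)
    · exact (le_sup_right : M' ≤ M ⊔ M') (h' σ hσ y hy)
  exact hle hx

/-- stability under a bigger base group -/
theorem IsStable.mono {K K' M : LF q} (hKK' : K ≤ K') (h : IsStable K M) : IsStable K' M :=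
  fun σ hσ x hx => h σ (IntermediateField.fixingSubgroup_antitone hKK' hσ) x hx

section Rel

variable {K L M : LF q}

/-- `L` as an intermediate field of `↥M / ↥K`. -/
def relIF (hKL : K ≤ L) (hLM : L ≤ M) :
    @IntermediateField K M _ _ (relAlgebra (hKL.trans hLM)) :=
  letI := relAlgebra (hKL.trans hLM)
  { carrier := {x : M | (x : PadicAlgCl q) ∈ L}
    mul_mem' := fun ha hb => L.mul_mem ha hb
    one_mem' := L.one_mem
    add_mem' := fun ha hb => L.add_mem ha hb
    zero_mem' := L.zero_mem
    algebraMap_mem' := fun k => hKL k.2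
    inv_mem' := fun _ hx => L.inv_mem hx }

theorem mem_relIF (hKL : K ≤ L) (hLM : L ≤ M) (x : M) :
    x ∈ relIF hKL hLM ↔ (x : PadicAlgCl q) ∈ L := Iff.rfl

/-- `relIF hKL hLM` is `L`, as a `K`-algebra. -/
def relIFEquiv (hKL : K ≤ L) (hLM : L ≤ M) :
    letI := relAlgebra (hKL.trans hLM)
    letI := relAlgebra hKL
    ↥(relIF hKL hLM) ≃ₐ[K] L :=
  letI := relAlgebra (hKL.trans hLM)
  letI := relAlgebra hKL
  { toFun := fun x => ⟨((x : M) : PadicAlgCl q), x.2⟩
    invFun := fun y => ⟨⟨(y : PadicAlgCl q), hLM y.2⟩, y.2⟩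
    left_inv := fun _ => rfl
    right_inv := fun _ => rfl
    map_mul' := fun _ _ => rfl
    map_add' := fun _ _ => rfl
    commutes' := fun _ => rfl }

theorem relIFEquiv_apply (hKL : K ≤ L) (hLM : L ≤ M) (x : relIF hKL hLM) :
    ((relIFEquiv hKL hLM x : L) : PadicAlgCl q) = ((x : M) : PadicAlgCl q) := rfl

theorem relIF_mono {L' : LF q} (hKL : K ≤ L) (hLL' : L ≤ L') (hL'M : L' ≤ M) :
    relIF hKL (hLL'.trans hL'M) ≤ relIF (hKL.trans hLL') hL'M :=
  fun _ hx => hLL' hx

theorem relIF_self_eq_top (hKM : K ≤ M) : relIF hKM le_rfl = ⊤ := by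
  letI := relAlgebra hKM
  apply le_antisymm le_top
  intro x _
  exact x.2

theorem relIF_base_eq_bot (hKM : K ≤ M) : relIF (le_refl K) hKM = ⊥ := by
  letI := relAlgebra hKM
  apply le_antisymm _ bot_le
  intro x hx
  rw [IntermediateField.mem_bot]
  exact ⟨⟨(x : PadicAlgCl q), hx⟩, rfl⟩

/-! ### ranks -/

theorem isScalarTower_rel (hKM : K ≤ M) :
    letI := relAlgebra hKM
    IsScalarTower ℚ_[q] K M :=
  letI := relAlgebra hKM
  IsScalarTower.of_algebraMap_eq (fun _ => rfl)

theorem finiteDimensional_rel (hKM : K ≤ M) [FiniteDimensional ℚ_[q] M] :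
    letI := relAlgebra hKM
    FiniteDimensional K M := by
  letI := relAlgebra hKM
  haveI := isScalarTower_rel hKM
  exact FiniteDimensional.right ℚ_[q] K M

theorem finiteDimensional_of_le (hLM : L ≤ M) [FiniteDimensional ℚ_[q] M] :
    FiniteDimensional ℚ_[q] L :=
  FiniteDimensional.of_injective (IntermediateField.inclusion hLM).toLinearMap
    (IntermediateField.inclusion hLM).injective

theorem finrank_relIF_left (hKL : K ≤ L) (hLM : L ≤ M) :
    letI := relAlgebra (hKL.trans hLM)
    letI := relAlgebra hKL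
    finrank K (relIF hKL hLM) = finrank K L := by
  letI := relAlgebra (hKL.trans hLM)
  letI := relAlgebra hKL
  exact (relIFEquiv hKL hLM).toLinearEquiv.finrank_eq

/-- the three relative algebra structures form a tower -/
theorem isScalarTower_rel₃ (hKL : K ≤ L) (hLM : L ≤ M) :
    letI := relAlgebra (hKL.trans hLM)
    letI := relAlgebra hKL
    letI := relAlgebra hLM
    IsScalarTower K L M :=
  letI := relAlgebra (hKL.trans hLM)
  letI := relAlgebra hKL
  letI := relAlgebra hLM
  IsScalarTower.of_algebraMap_eq (fun _ => rfl)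

theorem finrank_relIF_right (hKL : K ≤ L) (hLM : L ≤ M) [FiniteDimensional ℚ_[q] M] :
    letI := relAlgebra (hKL.trans hLM)
    letI := relAlgebra hLM
    finrank (relIF hKL hLM) M = finrank L M := by
  letI a1 := relAlgebra (hKL.trans hLM)
  letI a2 := relAlgebra hKL
  letI a3 := relAlgebra hLM
  haveI := isScalarTower_rel₃ hKL hLM
  haveI : FiniteDimensional ℚ_[q] L := finiteDimensional_of_le hLM
  haveI : FiniteDimensional K L := finiteDimensional_rel hKL
  haveI : FiniteDimensional K M := finiteDimensional_rel (hKL.trans hLM)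
  have h1 : finrank K (relIF hKL hLM) * finrank (relIF hKL hLM) M = finrank K M :=
    Module.finrank_mul_finrank K (relIF hKL hLM) M
  have h2 : finrank K L * finrank L M = finrank K M := Module.finrank_mul_finrank K L M
  rw [finrank_relIF_left hKL hLM, ← h2] at h1
  exact Nat.eq_of_mul_eq_mul_left Module.finrank_pos h1

end Rel

/-! ### Galois groups -/

section Gal

variable {K L M : LF q}

/-- restriction `Gal(Ω/K) → Gal(M/K)` for `M/K` normal (`IsStable K M`). -/
def resGal (hKM : K ≤ M) (hst : IsStable K M) :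
    letI := relAlgebra hKM
    ↥K.fixingSubgroup →* (M ≃ₐ[K] M) :=
  letI := relAlgebra hKM
  { toFun := fun σ =>
      { toFun := fun x => ⟨(σ : Gq q) (x : PadicAlgCl q), hst σ σ.2 x x.2⟩
        invFun := fun x => ⟨((σ⁻¹ : ↥K.fixingSubgroup) : Gq q) (x : PadicAlgCl q),
          hst _ (σ⁻¹).2 x x.2⟩
        left_inv := fun x => by
          apply Subtype.ext
          change ((σ : Gq q)⁻¹) ((σ : Gq q) (x : PadicAlgCl q)) = x
          exact AlgEquiv.symm_apply_apply (σ : Gq q) _
        right_inv := fun x => by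
          apply Subtype.ext
          change (σ : Gq q) (((σ : Gq q)⁻¹) (x : PadicAlgCl q)) = x
          exact AlgEquiv.apply_symm_apply (σ : Gq q) _
        map_mul' := fun x y => Subtype.ext (map_mul (σ : Gq q) _ _)
        map_add' := fun x y => Subtype.ext (map_add (σ : Gq q) _ _)
        commutes' := fun k => Subtype.ext
          ((IntermediateField.mem_fixingSubgroup_iff _ _).1 σ.2 (k : PadicAlgCl q) k.2) }
    map_one' := by
      apply AlgEquiv.ext
      intro x
      rfl
    map_mul' := fun σ τ => by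
      apply AlgEquiv.ext
      intro x
      rfl }

theorem resGal_apply (hKM : K ≤ M) (hst : IsStable K M) (σ : ↥K.fixingSubgroup) (x : M) :
    ((resGal hKM hst σ x : M) : PadicAlgCl q) = (σ : Gq q) (x : PadicAlgCl q) := rfl

/-- every `K`-automorphism of `M` extends to an element of `Gal(Ω/K)`. -/
theorem exists_lift (hKM : K ≤ M)
    (τ : letI := relAlgebra hKM; M ≃ₐ[K] M) :
    ∃ σ : Gq q, σ ∈ K.fixingSubgroup ∧ ∀ x : M, σ (x : PadicAlgCl q) = ((τ x : M) : PadicAlgCl q) := by
  letI := relAlgebra hKM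
  haveI := isScalarTower_rel hKM
  let f : M →ₐ[ℚ_[q]] PadicAlgCl q :=
    { toFun := fun x => ((τ x : M) : PadicAlgCl q)
      map_one' := by rw [map_one]; rfl
      map_mul' := fun x y => by rw [map_mul]; rfl
      map_zero' := by rw [map_zero]; rfl
      map_add' := fun x y => by rw [map_add]; rfl
      commutes' := fun c => by
        have h1 : algebraMap ℚ_[q] M c = algebraMap K M (algebraMap ℚ_[q] K c) := rfl
        rw [h1, τ.commutes]
        rfl }
  obtain ⟨φ, hφ⟩ := IntermediateField.exists_algHom_of_splits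
    (fun s : PadicAlgCl q => ⟨Algebra.IsIntegral.isIntegral (R := ℚ_[q]) s,
      IsAlgClosed.splits _⟩) f
  have hbij : Function.Bijective φ := Algebra.IsAlgebraic.algHom_bijective φ
  have hφx : ∀ x : M, φ (x : PadicAlgCl q) = ((τ x : M) : PadicAlgCl q) := fun x =>
    congrArg (fun g : M →ₐ[ℚ_[q]] PadicAlgCl q => g x) hφ
  refine ⟨AlgEquiv.ofBijective φ hbij, ?_, hφx⟩
  rw [IntermediateField.mem_fixingSubgroup_iff]
  intro k hk
  have h2 := hφx ⟨k, hKM hk⟩
  have h3 : τ ⟨k, hKM hk⟩ = ⟨k, hKM hk⟩ := τ.commutes ⟨k, hk⟩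
  rw [h3] at h2
  exact h2

theorem resGal_surjective (hKM : K ≤ M) (hst : IsStable K M) :
    Function.Surjective (resGal hKM hst) := by
  letI := relAlgebra hKM
  intro τ
  obtain ⟨σ, hσ, hx⟩ := exists_lift hKM τ
  refine ⟨⟨σ, hσ⟩, ?_⟩
  apply AlgEquiv.ext
  intro x
  apply Subtype.ext
  rw [resGal_apply]
  exact hx x

theorem mem_ker_resGal (hKM : K ≤ M) (hst : IsStable K M) (σ : ↥K.fixingSubgroup) :
    σ ∈ (resGal hKM hst).ker ↔ (σ : Gq q) ∈ M.fixingSubgroup := by
  letI := relAlgebra hKM
  rw [MonoidHom.mem_ker, IntermediateField.mem_fixingSubgroup_iff]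
  constructor
  · intro h x hx
    have := congrArg (fun τ => ((τ ⟨x, hx⟩ : M) : PadicAlgCl q)) h
    exact this
  · intro h
    apply AlgEquiv.ext
    intro x
    apply Subtype.ext
    rw [resGal_apply]
    exact h x x.2

theorem ker_resGal (hKM : K ≤ M) (hst : IsStable K M) :
    (resGal hKM hst).ker = M.fixingSubgroup.subgroupOf K.fixingSubgroup := by
  letI := relAlgebra hKM
  ext σ
  rw [mem_ker_resGal, Subgroup.mem_subgroupOf]

/-- `M / K` is Galois when `M` is stable under `Gal(Ω/K)`. -/
theorem isGalois_rel (hKM : K ≤ M) [FiniteDimensional ℚ_[q] M] (hst : IsStable K M) :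
    letI := relAlgebra hKM
    IsGalois K M := by
  letI := relAlgebra hKM
  haveI : FiniteDimensional K M := finiteDimensional_rel hKM
  apply IsGalois.of_fixedField_eq_bot
  apply le_antisymm _ bot_le
  intro x hx
  rw [IntermediateField.mem_fixedField_iff] at hx
  rw [IntermediateField.mem_bot]
  have hxK : (x : PadicAlgCl q) ∈ K := by
    rw [← InfiniteGalois.fixedField_fixingSubgroup K, IntermediateField.mem_fixedField_iff]
    intro σ hσ
    have := hx (resGal hKM hst ⟨σ, hσ⟩) (Subgroup.mem_top _)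
    exact congrArg (fun y : M => (y : PadicAlgCl q)) this
  exact ⟨⟨(x : PadicAlgCl q), hxK⟩, rfl⟩

theorem card_gal_rel (hKM : K ≤ M) [FiniteDimensional ℚ_[q] M] (hst : IsStable K M) :
    letI := relAlgebra hKM
    Nat.card (M ≃ₐ[K] M) = finrank K M := by
  letI := relAlgebra hKM
  haveI : FiniteDimensional K M := finiteDimensional_rel hKM
  haveI : IsGalois K M := isGalois_rel hKM hst
  exact IsGalois.card_aut_eq_finrank K M

/-! ### the Galois correspondence for `relIF` -/

theorem resGal_mem_fixingSubgroup_iff (hKL : K ≤ L) (hLM : L ≤ M) (hst : IsStable K M)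
    (σ : ↥K.fixingSubgroup) :
    letI := relAlgebra (hKL.trans hLM)
    resGal (hKL.trans hLM) hst σ ∈ (relIF hKL hLM).fixingSubgroup ↔
      (σ : Gq q) ∈ L.fixingSubgroup := by
  letI := relAlgebra (hKL.trans hLM)
  rw [IntermediateField.mem_fixingSubgroup_iff, IntermediateField.mem_fixingSubgroup_iff]
  constructor
  · intro h x hx
    have := h ⟨x, hLM hx⟩ hx
    exact congrArg (fun y : M => (y : PadicAlgCl q)) this
  · intro h x hx
    apply Subtype.ext
    rw [resGal_apply]
    exact h x hx

theorem map_resGal_fixingSubgroup (hKL : K ≤ L) (hLM : L ≤ M) (hst : IsStable K M) :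
    letI := relAlgebra (hKL.trans hLM)
    (L.fixingSubgroup.subgroupOf K.fixingSubgroup).map (resGal (hKL.trans hLM) hst) =
      (relIF hKL hLM).fixingSubgroup := by
  letI := relAlgebra (hKL.trans hLM)
  ext τ
  constructor
  · rintro ⟨σ, hσ, rfl⟩
    exact (resGal_mem_fixingSubgroup_iff hKL hLM hst σ).2 (Subgroup.mem_subgroupOf.1 hσ)
  · intro hτ
    obtain ⟨σ, rfl⟩ := resGal_surjective (hKL.trans hLM) hst τ
    exact ⟨σ, Subgroup.mem_subgroupOf.2 ((resGal_mem_fixingSubgroup_iff hKL hLM hst σ).1 hτ), rfl⟩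

theorem normal_relIF_iff (hKL : K ≤ L) (hLM : L ≤ M) [FiniteDimensional ℚ_[q] M]
    (hst : IsStable K M) :
    letI := relAlgebra (hKL.trans hLM)
    Normal K (relIF hKL hLM) ↔ IsStable K L := by
  letI := relAlgebra (hKL.trans hLM)
  haveI : FiniteDimensional K M := finiteDimensional_rel (hKL.trans hLM)
  haveI : IsGalois K M := isGalois_rel (hKL.trans hLM) hst
  rw [IntermediateField.normal_iff_forall_map_le']
  constructor
  · intro h σ hσ x hx
    have hmem : (⟨x, hLM hx⟩ : M) ∈ relIF hKL hLM := hx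
    have := h (resGal (hKL.trans hLM) hst ⟨σ, hσ⟩)
      ((IntermediateField.mem_map (relIF hKL hLM)).2 ⟨⟨x, hLM hx⟩, hmem, rfl⟩)
    exact this
  · intro h τ y hy
    obtain ⟨σ, rfl⟩ := resGal_surjective (hKL.trans hLM) hst τ
    obtain ⟨x, hx, rfl⟩ := (IntermediateField.mem_map (relIF hKL hLM)).1 hy
    exact h σ σ.2 (x : PadicAlgCl q) hx

end Gal

end Fermat.Agent.S55.LocDict81
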