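import Mathlib
import Fermat.Prelude.Def_GaloisRep_CompletionBridge

/-!
# `[LOC-MODEL]` integer ring of a proper ultrametric normed field (helper81)

For a nontrivially normed ultrametric field `K` which is a proper metric space (e.g. any
intermediate field of `PadicAlgCl q / ℚ_q` of finite degree), the unit ball `𝒪[K]`
(`Valued.integer K` for the valued structure `NormedField.toValued`) is a complete discrete
valuation ring with finite residue field, adically complete and Henselian.  Everything is a thin
wrapper around `Mathlib/Topology/Algebra/Valued/LocallyCompact.lean`.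

The same statements are transported to any `Subring`/`ValuationSubring` of `K` whose elements are
characterised by `‖x‖ ≤ 1`.
-/

set_option autoImplicit false

namespace Fermat.Agent.S55.LocInt81

open scoped NormedField Valued NNReal
open IsLocalRing

section General

variable (K : Type*) [NontriviallyNormedField K] [IsUltrametricDist K]

/-- `RankOne` for the valuation `Valued.v` of a nontrivially normed ultrametric field
(`Valued K ℝ≥0` is `NormedField.toValued`). -/
@[reducible] noncomputable def valuedRankOne : (Valued.v : Valuation K ℝ≥0).RankOne :=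
  inferInstanceAs (NormedField.valuation (K := K)).RankOne

attribute [local instance] valuedRankOne

theorem mem_integer_iff {x : K} : x ∈ 𝒪[K] ↔ ‖x‖ ≤ 1 := Valued.integer.mem_iff

theorem coe_integer_eq_closedBall : ((𝒪[K] : Subring K) : Set K) = Metric.closedBall 0 1 := by
  ext x
  simp [Valued.integer.mem_iff]

variable [ProperSpace K]

theorem compactSpace_integer : CompactSpace 𝒪[K] := by
  have hc : IsCompact ((𝒪[K] : Subring K) : Set K) := by
    rw [coe_integer_eq_closedBall]; exact isCompact_closedBall 0 1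
  exact isCompact_iff_compactSpace.mp hc

theorem isDiscreteValuationRing_integer : IsDiscreteValuationRing 𝒪[K] :=
  have := compactSpace_integer K
  (Valued.integer.compactSpace_iff_completeSpace_and_isDiscreteValuationRing_and_finite_residueField.mp
    this).2.1

theorem finite_residueField_integer : Finite 𝓀[K] :=
  have := compactSpace_integer K
  (Valued.integer.compactSpace_iff_completeSpace_and_isDiscreteValuationRing_and_finite_residueField.mp
    this).2.2

theorem completeSpace_integer : CompleteSpace 𝒪[K] :=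
  have := compactSpace_integer K
  (Valued.integer.compactSpace_iff_completeSpace_and_isDiscreteValuationRing_and_finite_residueField.mp
    this).1

open scoped Pointwise in
theorem isAdicComplete_integer : IsAdicComplete 𝓂[K] 𝒪[K] :=
  have := compactSpace_integer K
  have := isDiscreteValuationRing_integer K
  { prec' := fun f hf => by
      let S n : Set 𝒪[K] := f n +ᵥ ((𝓂[K] ^ n : Ideal 𝒪[K]) : Set 𝒪[K])
      have hS n : S (n + 1) ⊆ S n := by
        apply (Set.vadd_set_subset_vadd_set_iff.mpr (Ideal.pow_le_pow_right n.le_succ)).trans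
        simpa [S] using (hf n.le_succ).symm
      have h n : IsClosed (S n) := (IsNoetherianRing.isClosed_ideal (𝓂[K] ^ n)).vadd (f n)
      obtain ⟨L, hL⟩ :=
        (h 0).isCompact.nonempty_iInter_of_sequence_nonempty_isCompact_isClosed S hS
          (by simp [S]) h
      refine ⟨L, fun n ↦ ?_⟩
      obtain ⟨y, hy, rfl⟩ := Set.mem_iInter.mp hL n
      simpa [SModEq.sub_mem] using hy }

theorem henselianLocalRing_integer : HenselianLocalRing 𝒪[K] :=
  have := isDiscreteValuationRing_integer K
  have := isAdicComplete_integer K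
  { is_henselian := fun f hf a₀ h₁ h₂ =>
      HenselianRing.is_henselian (I := maximalIdeal 𝒪[K]) f hf a₀ h₁ (h₂.map _) }

/-- Finiteness of all the quotients `𝒪/𝔪ⁿ`. -/
theorem finite_quotient_maximalIdeal_pow (n : ℕ) : Finite (𝒪[K] ⧸ 𝓂[K] ^ n) :=
  have := isDiscreteValuationRing_integer K
  have := finite_residueField_integer K
  Valued.integer.finite_quotient_maximalIdeal_pow_of_finite_residueField this n

/-! ### Uniformizers, in norm language -/

/-- There is a uniformizer: an element of largest norm `< 1`. -/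
theorem exists_uniformizer :
    ∃ π : K, π ≠ 0 ∧ ‖π‖ < 1 ∧ ∀ x : K, ‖x‖ < 1 → ‖x‖ ≤ ‖π‖ := by
  have := isDiscreteValuationRing_integer K
  obtain ⟨ϖ, hϖ⟩ := IsDiscreteValuationRing.exists_irreducible 𝒪[K]
  refine ⟨(ϖ : K), ?_, Valued.integer.norm_irreducible_lt_one hϖ, fun x hx => ?_⟩
  · have := Valued.integer.norm_irreducible_pos hϖ
    intro h0
    have h00 : ‖(ϖ : K)‖ = 0 := by rw [h0, norm_zero]
    exact absurd h00 (ne_of_gt this)
  · have hx1 : x ∈ 𝒪[K] := (mem_integer_iff K).2 hx.le
    have hmem : (⟨x, hx1⟩ : 𝒪[K]) ∈ (𝓂[K] : Set 𝒪[K]) := by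
      rw [SetLike.mem_coe, IsLocalRing.mem_maximalIdeal, mem_nonunits_iff,
        Valued.integer.isUnit_iff_norm_eq_one]
      exact ne_of_lt hx
    rw [hϖ.maximalIdeal_eq_closedBall, Metric.mem_closedBall, dist_zero_right] at hmem
    exact hmem

omit [IsUltrametricDist K] [ProperSpace K] in
/-- Every nonzero element has norm an integral power of the norm of a uniformizer. -/
theorem exists_zpow_of_uniformizer {π : K} (hπ0 : π ≠ 0) (hπ1 : ‖π‖ < 1)
    (hπ : ∀ x : K, ‖x‖ < 1 → ‖x‖ ≤ ‖π‖) {x : K} (hx : x ≠ 0) :
    ∃ m : ℤ, ‖x‖ = ‖π‖ ^ m := by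
  have hπpos : 0 < ‖π‖ := norm_pos_iff.mpr hπ0
  -- first for `‖x‖ ≤ 1`, by strong descent: `x / π ^ n` has norm `≤ 1` as long as possible.
  have key : ∀ y : K, y ≠ 0 → ‖y‖ ≤ 1 → ∃ n : ℕ, ‖y‖ = ‖π‖ ^ n := by
    intro y hy hy1
    -- choose n with ‖π‖^(n+1) < ‖y‖
    obtain ⟨N, hN⟩ := exists_pow_lt_of_lt_one (norm_pos_iff.mpr hy) hπ1
    -- find the least n with ‖π‖^n ≤ ‖y‖ ... use Nat.find
    classical
    have hex : ∃ n : ℕ, ‖π‖ ^ n ≤ ‖y‖ := ⟨N, hN.le⟩
    set n := Nat.find hex with hn
    have hn1 : ‖π‖ ^ n ≤ ‖y‖ := Nat.find_spec hex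
    refine ⟨n, le_antisymm ?_ hn1⟩
    by_contra hlt
    rw [not_le] at hlt
    -- then ‖y / π^n‖ > 1 impossible unless n = 0 ; treat n = 0 directly
    rcases Nat.eq_zero_or_pos n with h0 | hpos
    · rw [h0, pow_zero] at hlt
      exact absurd hy1 (not_le.mpr hlt)
    · have hmin : ¬ ‖π‖ ^ (n - 1) ≤ ‖y‖ := Nat.find_min hex (Nat.sub_lt hpos one_pos)
      rw [not_le] at hmin
      -- z := y / π^(n-1) has norm < 1, so ≤ ‖π‖, so ‖y‖ ≤ ‖π‖^n
      have hz : ‖y / π ^ (n - 1)‖ < 1 := by
        rw [norm_div, norm_pow, div_lt_one (pow_pos hπpos _)]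
        exact hmin
      have hz' := hπ _ hz
      rw [norm_div, norm_pow, div_le_iff₀ (pow_pos hπpos _), ← pow_succ',
        Nat.sub_add_cancel hpos] at hz'
      exact absurd hz' (not_le.mpr hlt)
  rcases le_total ‖x‖ 1 with h | h
  · obtain ⟨n, hn⟩ := key x hx h
    exact ⟨n, by rw [hn, zpow_natCast]⟩
  · have hx' : x⁻¹ ≠ 0 := inv_ne_zero hx
    have h' : ‖x⁻¹‖ ≤ 1 := by
      rw [norm_inv]; exact inv_le_one_of_one_le₀ h
    obtain ⟨n, hn⟩ := key x⁻¹ hx' h'
    refine ⟨-(n : ℤ), ?_⟩
    rw [zpow_neg, zpow_natCast, ← hn, norm_inv, inv_inv]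

/-! ### Transport to any subring with the same elements -/

omit [ProperSpace K] in
theorem subring_eq_integer (A : Subring K) (hA : ∀ x : K, x ∈ A ↔ ‖x‖ ≤ 1) : A = 𝒪[K] :=
  SetLike.ext fun x => (hA x).trans (mem_integer_iff K).symm

theorem isDiscreteValuationRing_subring (A : Subring K) (hA : ∀ x : K, x ∈ A ↔ ‖x‖ ≤ 1) :
    IsDiscreteValuationRing A := by
  rw [subring_eq_integer K A hA]; exact isDiscreteValuationRing_integer K

omit [ProperSpace K] in
theorem isLocalRing_subring (A : Subring K) (hA : ∀ x : K, x ∈ A ↔ ‖x‖ ≤ 1) :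
    IsLocalRing A := by
  rw [subring_eq_integer K A hA]; infer_instance

theorem finite_residueField_subring (A : Subring K) (hA : ∀ x : K, x ∈ A ↔ ‖x‖ ≤ 1)
    [IsLocalRing A] : Finite (ResidueField A) := by
  obtain rfl := subring_eq_integer K A hA
  exact finite_residueField_integer K

theorem isAdicComplete_subring (A : Subring K) (hA : ∀ x : K, x ∈ A ↔ ‖x‖ ≤ 1)
    [IsLocalRing A] : IsAdicComplete (maximalIdeal A) A := by
  obtain rfl := subring_eq_integer K A hA
  exact isAdicComplete_integer K

theorem henselianLocalRing_subring (A : Subring K) (hA : ∀ x : K, x ∈ A ↔ ‖x‖ ≤ 1) :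
    HenselianLocalRing A := by
  obtain rfl := subring_eq_integer K A hA
  exact henselianLocalRing_integer K

theorem compactSpace_subring (A : Subring K) (hA : ∀ x : K, x ∈ A ↔ ‖x‖ ≤ 1) :
    CompactSpace A := by
  obtain rfl := subring_eq_integer K A hA
  exact compactSpace_integer K

/-! ### Transport to valuation subrings -/

theorem isDiscreteValuationRing_valuationSubring (A : ValuationSubring K)
    (hA : ∀ x : K, x ∈ A ↔ ‖x‖ ≤ 1) : IsDiscreteValuationRing A :=
  isDiscreteValuationRing_subring K A.toSubring hA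

theorem finite_residueField_valuationSubring (A : ValuationSubring K)
    (hA : ∀ x : K, x ∈ A ↔ ‖x‖ ≤ 1) : Finite (ResidueField A) :=
  @finite_residueField_subring K _ _ _ A.toSubring hA (inferInstanceAs (IsLocalRing A))

theorem isAdicComplete_valuationSubring (A : ValuationSubring K)
    (hA : ∀ x : K, x ∈ A ↔ ‖x‖ ≤ 1) : IsAdicComplete (maximalIdeal A) A :=
  @isAdicComplete_subring K _ _ _ A.toSubring hA (inferInstanceAs (IsLocalRing A))

theorem henselianLocalRing_valuationSubring (A : ValuationSubring K)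
    (hA : ∀ x : K, x ∈ A ↔ ‖x‖ ≤ 1) : HenselianLocalRing A :=
  henselianLocalRing_subring K A.toSubring hA

theorem compactSpace_valuationSubring (A : ValuationSubring K)
    (hA : ∀ x : K, x ∈ A ↔ ‖x‖ ≤ 1) : CompactSpace A :=
  compactSpace_subring K A.toSubring hA

end General

section Padic

variable (q : ℕ) [Fact q.Prime] (L : IntermediateField ℚ_[q] (PadicAlgCl q))
  [FiniteDimensional ℚ_[q] L]

/-- A finite extension of `ℚ_q` inside `PadicAlgCl q` (with the restricted norm) is proper. -/
theorem properSpace_intermediateField : ProperSpace L := FiniteDimensional.proper ℚ_[q] L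

theorem completeSpace_intermediateField : CompleteSpace L := FiniteDimensional.complete ℚ_[q] L

/-- The unit ball of `L`, as the pull-back of the Prelude's `padicIntegers q`. -/
noncomputable abbrev intRing : ValuationSubring L :=
  (padicIntegers q).comap (L.val : L →+* PadicAlgCl q)

omit [FiniteDimensional ℚ_[q] L] in
theorem mem_intRing_iff (x : L) : x ∈ intRing q L ↔ ‖x‖ ≤ 1 := by
  change ‖(x : PadicAlgCl q)‖₊ ≤ 1 ↔ ‖x‖ ≤ 1
  rw [← NNReal.coe_le_coe]; rfl

omit [FiniteDimensional ℚ_[q] L] in
theorem mem_intRing_iff' (x : L) : x ∈ intRing q L ↔ ‖(x : PadicAlgCl q)‖ ≤ 1 :=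
  mem_intRing_iff q L x

theorem isDiscreteValuationRing_intRing : IsDiscreteValuationRing (intRing q L) :=
  have := properSpace_intermediateField q L
  isDiscreteValuationRing_valuationSubring L _ (mem_intRing_iff q L)

theorem finite_residueField_intRing : Finite (ResidueField (intRing q L)) :=
  have := properSpace_intermediateField q L
  finite_residueField_valuationSubring L _ (mem_intRing_iff q L)

theorem isAdicComplete_intRing :
    IsAdicComplete (maximalIdeal (intRing q L)) (intRing q L) :=
  have := properSpace_intermediateField q L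
  isAdicComplete_valuationSubring L _ (mem_intRing_iff q L)

theorem henselianLocalRing_intRing : HenselianLocalRing (intRing q L) :=
  have := properSpace_intermediateField q L
  henselianLocalRing_valuationSubring L _ (mem_intRing_iff q L)

theorem compactSpace_intRing : CompactSpace (intRing q L) :=
  have := properSpace_intermediateField q L
  compactSpace_valuationSubring L _ (mem_intRing_iff q L)

/-- Uniformizer of `L` in the ambient-norm language. -/
theorem exists_uniformizer_intermediateField :
    ∃ π : L, π ≠ 0 ∧ ‖(π : PadicAlgCl q)‖ < 1 ∧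
      (∀ x : L, ‖(x : PadicAlgCl q)‖ < 1 → ‖(x : PadicAlgCl q)‖ ≤ ‖(π : PadicAlgCl q)‖) ∧
      ∀ x : L, x ≠ 0 → ∃ m : ℤ, ‖(x : PadicAlgCl q)‖ = ‖(π : PadicAlgCl q)‖ ^ m := by
  have := properSpace_intermediateField q L
  obtain ⟨π, h0, h1, h2⟩ := exists_uniformizer L
  exact ⟨π, h0, h1, h2, fun x hx => exists_zpow_of_uniformizer L h0 h1 h2 hx⟩

end Padic

end Fermat.Agent.S55.LocInt81
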