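/-
S55 / P5 (LocalDim), helper88: `LocalBase88.LocalBrDim` from a CARDINALITY bound
(`|H²(G_K, 𝔽_p)| ≤ p`), and from an additive identification with a group of order `≤ p`
(e.g. `Br(K)[p]`).  Pure counting over `ZMod p`.
-/
import Fermat.Agent.S55.LocalBase88

set_option autoImplicit false

open Module

namespace Fermat.Agent.S55.LocalBrCard88

open Fermat.Agent.S55.Profin15 Fermat.Agent.S55.ShapiroLevel32 Fermat.Agent.S55.KummerBr95
open Fermat.Agent.S55.LocalBase88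

attribute [local instance] KummerBr95.fact_prime

/-- a `ZMod p`-module with at most `p` elements is finite of dimension `≤ 1` -/
theorem finite_and_finrank_le_one {p : ℕ} [Fact p.Prime] (M : Type*) [AddCommGroup M]
    [Module (ZMod p) M] [Finite M] (hM : Nat.card M ≤ p) :
    Module.Finite (ZMod p) M ∧ finrank (ZMod p) M ≤ 1 := by
  haveI : Module.Finite (ZMod p) M := Module.Finite.of_finite
  refine ⟨inferInstance, ?_⟩
  have hcard : Nat.card M = p ^ finrank (ZMod p) M := by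
    rw [Module.natCard_eq_pow_finrank (K := ZMod p) (V := M), Nat.card_zmod]
  rw [hcard] at hM
  by_contra hlt
  push_neg at hlt
  have hp : 1 < p := (Fact.out : p.Prime).one_lt
  have : p ^ 2 ≤ p ^ finrank (ZMod p) M := Nat.pow_le_pow_right hp.le hlt
  nlinarith

/-- **cardinality form**: `|H²(Gal(Ω/K); 𝔽_p)| ≤ p` for every finite `K/ℚ_q` containing `μ_p`
gives `LocalBrDim p q`. -/
theorem localBrDim_of_card (p : ℕ) [Fact p.Prime] (q : Nat.Primes)
    (h : ∀ K : IntermediateField ℚ_[(q : ℕ)] (PadicAlgCl (q : ℕ)),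
      FiniteDimensional ℚ_[(q : ℕ)] K → (∀ ζ : PadicAlgCl (q : ℕ), ζ ^ p = 1 → ζ ∈ K) →
      Finite ((galLevels K (PadicAlgCl (q : ℕ))).H2
        (triv (ZMod p) (PadicAlgCl (q : ℕ) ≃ₐ[K] PadicAlgCl (q : ℕ)))) ∧
      Nat.card ((galLevels K (PadicAlgCl (q : ℕ))).H2
        (triv (ZMod p) (PadicAlgCl (q : ℕ) ≃ₐ[K] PadicAlgCl (q : ℕ)))) ≤ p) :
    LocalBrDim p q := by
  intro K hK hζ
  obtain ⟨hfin, hcard⟩ := h K hK hζ
  haveI := hfin
  exact finite_and_finrank_le_one _ hcard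

/-- **transport form**: an additive bijection of `H²(Gal(Ω/K); 𝔽_p)` with a finite group `B K` of
order `≤ p` (think `B K = Br(K)[p]`) gives `LocalBrDim p q`. -/
theorem localBrDim_of_addEquiv (p : ℕ) [Fact p.Prime] (q : Nat.Primes)
    (B : IntermediateField ℚ_[(q : ℕ)] (PadicAlgCl (q : ℕ)) → Type) [∀ K, AddGroup (B K)]
    (e : ∀ K : IntermediateField ℚ_[(q : ℕ)] (PadicAlgCl (q : ℕ)),
      FiniteDimensional ℚ_[(q : ℕ)] K → (∀ ζ : PadicAlgCl (q : ℕ), ζ ^ p = 1 → ζ ∈ K) →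
      Nonempty ((galLevels K (PadicAlgCl (q : ℕ))).H2
        (triv (ZMod p) (PadicAlgCl (q : ℕ) ≃ₐ[K] PadicAlgCl (q : ℕ))) ≃+ B K))
    (hB : ∀ K : IntermediateField ℚ_[(q : ℕ)] (PadicAlgCl (q : ℕ)),
      FiniteDimensional ℚ_[(q : ℕ)] K → Finite (B K) ∧ Nat.card (B K) ≤ p) :
    LocalBrDim p q := by
  refine localBrDim_of_card p q fun K hK hζ => ?_
  obtain ⟨eK⟩ := e K hK hζ
  obtain ⟨hfin, hcard⟩ := hB K hK
  haveI := hfin
  exact ⟨Finite.of_equiv _ eK.symm.toEquiv, (Nat.card_congr eK.toEquiv).trans_le hcard⟩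

end Fermat.Agent.S55.LocalBrCard88
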