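/-
S55 / iface adapter (helper19, named by helper77): `MuLevel19` restated on the named subgroup
`Adapt77.MuSubgroup.muSub p L = (cycloChar p).ker.map (resL L)` of `Gal(L/ℚ)`.
-/
import Mathlib
import Fermat.Agent.S55.MuLevel19
import Fermat.Agent.S55.Adapt77.MuSubgroup

set_option autoImplicit false

namespace Fermat.Agent.S55.MuLevel19b

open ExtCitation
open Fermat.Agent.S55.Idele73.Basic Fermat.Agent.S55.Adapt77.MuSubgroup

variable (p : ℕ) [Fact p.Prime] (L : IntermediateField ℚ Qbar) [Normal ℚ L]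

/-- Elements of `muSub p L` fix the `p`-th roots of unity of `L`. -/
theorem fixes_of_mem_muSub {ζ : Qbar} (hζ : ζ ^ p = 1) (hζL : ζ ∈ L) {g : GalL L}
    (hg : g ∈ muSub p L) : g ⟨ζ, hζL⟩ = ⟨ζ, hζL⟩ :=
  MuLevel19.fixes_of_mem_map_ker p L hζ hζL hg

/-- The same for an element of the subtype `L`. -/
theorem fixes_of_mem_muSub' {ζ : L} (hζ : ζ ^ p = 1) {g : GalL L} (hg : g ∈ muSub p L) :
    g ζ = ζ := by
  have h : ((ζ : L) : Qbar) ^ p = 1 := by
    have := congrArg (fun x : L => (x : Qbar)) hζ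
    simpa using this
  exact fixes_of_mem_muSub p L h ζ.2 hg

/-- An element of `Gal(L/ℚ)` fixing a primitive `p`-th root of unity lies in `muSub p L`. -/
theorem mem_muSub_of_fixes {ζ : Qbar} (hζ : IsPrimitiveRoot ζ p) (hζL : ζ ∈ L) {g : GalL L}
    (hg : g ⟨ζ, hζL⟩ = ⟨ζ, hζL⟩) : g ∈ muSub p L :=
  MuLevel19.mem_map_ker_of_fixes p L hζ hζL hg

theorem mem_muSub_iff {ζ : Qbar} (hζ : IsPrimitiveRoot ζ p) (hζL : ζ ∈ L) (g : GalL L) :
    g ∈ muSub p L ↔ g ⟨ζ, hζL⟩ = ⟨ζ, hζL⟩ :=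
  MuLevel19.mem_map_ker_iff p L hζ hζL g

/-- The same for a primitive root given in the subtype `L`. -/
theorem mem_muSub_iff' {ζ : L} (hζ : IsPrimitiveRoot ζ p) (g : GalL L) :
    g ∈ muSub p L ↔ g ζ = ζ := by
  have h : IsPrimitiveRoot ((ζ : L) : Qbar) p :=
    hζ.map_of_injective (f := L.val) L.val.injective
  exact mem_muSub_iff p L h ζ.2 g

/-- For `H ≤ muSub p L`, every `p`-th root of unity of `L` lies in the fixed field `L^H`. -/
theorem mem_fixedField_of_le_muSub {H : Subgroup (GalL L)} (hH : H ≤ muSub p L) {ζ : L}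
    (hζ : ζ ^ p = 1) : ζ ∈ IntermediateField.fixedField H := by
  intro g
  exact fixes_of_mem_muSub' p L hζ (hH g.2)

/-- The same for Mathlib's `FixedPoints.intermediateField`. -/
theorem mem_fixedPoints_of_le_muSub {H : Subgroup (GalL L)} (hH : H ≤ muSub p L) {ζ : L}
    (hζ : ζ ^ p = 1) : ζ ∈ FixedPoints.intermediateField (M := H) (F := ℚ) (E := L) := by
  intro g
  exact fixes_of_mem_muSub' p L hζ (hH g.2)

/-- `∀ g ∈ H, g ζ = ζ` for `H ≤ muSub p L` (the binder `hH₀` of `SecondInst53` Output). -/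
theorem forall_fixes_of_le_muSub {H : Subgroup (GalL L)} (hH : H ≤ muSub p L) {ζ : L}
    (hζ : ζ ^ p = 1) : ∀ g ∈ H, g ζ = ζ :=
  fun _ hg => fixes_of_mem_muSub' p L hζ (hH hg)

end Fermat.Agent.S55.MuLevel19b
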