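import Mathlib

/-!
# Norm-index lemma (abstract core of "(S2) ⇒ PLUG-HILBERT", S55 route R3)

`C₀ = C_S^U`, `C₁ = C_S^V`, `N : C₁ → C₀` the norm, `N₀ = im(J_S^U) · C₀^p`.
If `N₀ ≤ N(C₁)` (exponent `p` + complete splitting at `S`) and
`[C₀ : N(C₁)] ≥ [C₀ : N₀]` (reciprocity `[C₀ : N C₁] = |U/V| = |Ш¹|` and the count `|Ш¹| ≥ |Ш²|`),
then `N(C₁) = N₀`, so the map induced by `N` on `C / (im J · C^p) = Ш²(·, μ_p)` is zero.
-/

namespace Fermat.Agent.S55.NormIndex48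

section Mul

variable {C₀ C₁ : Type*} [CommGroup C₀] [CommGroup C₁]

/-- If `N₀ ≤ R` have finite index in `C₀` and `[C₀ : N₀] ≤ [C₀ : R]` then `R = N₀`. -/
theorem eq_of_le_of_index_le {N₀ R : Subgroup C₀} (hle : N₀ ≤ R) (hfin : N₀.index ≠ 0)
    (hidx : N₀.index ≤ R.index) : R = N₀ := by
  have h1 : N₀.relIndex R * R.index = N₀.index := Subgroup.relIndex_mul_index hle
  have hR : R.index ≠ 0 := fun h => hfin (by rw [← h1, h, mul_zero])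
  have hrel : N₀.relIndex R = 1 := by
    have hpos : 0 < R.index := Nat.pos_of_ne_zero hR
    have : N₀.relIndex R * R.index ≤ 1 * R.index := by rw [h1, one_mul]; exact hidx
    have h2 : N₀.relIndex R ≤ 1 := Nat.le_of_mul_le_mul_right this hpos
    have h3 : N₀.relIndex R ≠ 0 := fun h => hfin (by rw [← h1, h, zero_mul])
    omega
  exact le_antisymm (Subgroup.relIndex_eq_one.1 hrel) hle

/-- The norm-index lemma: `J₀ ≤ N(C₁)`, `C₀^p ≤ N(C₁)`, and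
`[C₀ : J₀ · C₀^p] ≤ [C₀ : N(C₁)]` (finite) imply `N(C₁) = J₀ · C₀^p`. -/
theorem range_eq_sup_of_index_le (N : C₁ →* C₀) (J₀ : Subgroup C₀) (p : ℕ)
    (hJ : J₀ ≤ N.range) (hp : (powMonoidHom p : C₀ →* C₀).range ≤ N.range)
    (hfin : (J₀ ⊔ (powMonoidHom p : C₀ →* C₀).range).index ≠ 0)
    (hidx : (J₀ ⊔ (powMonoidHom p : C₀ →* C₀).range).index ≤ N.range.index) :
    N.range = J₀ ⊔ (powMonoidHom p : C₀ →* C₀).range :=
  eq_of_le_of_index_le (sup_le hJ hp) hfin hidx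

/-- Consequence: every norm lies in `J₀ · C₀^p`, i.e. the map induced by `N`
on `C₁ → C₀ ⧸ (J₀ ⊔ C₀^p)` is trivial. -/
theorem map_mem_sup_of_index_le (N : C₁ →* C₀) (J₀ : Subgroup C₀) (p : ℕ)
    (hJ : J₀ ≤ N.range) (hp : (powMonoidHom p : C₀ →* C₀).range ≤ N.range)
    (hfin : (J₀ ⊔ (powMonoidHom p : C₀ →* C₀).range).index ≠ 0)
    (hidx : (J₀ ⊔ (powMonoidHom p : C₀ →* C₀).range).index ≤ N.range.index) (x : C₁) :
    N x ∈ J₀ ⊔ (powMonoidHom p : C₀ →* C₀).range := by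
  rw [← range_eq_sup_of_index_le N J₀ p hJ hp hfin hidx]
  exact ⟨x, rfl⟩

theorem quotient_map_eq_one_of_index_le (N : C₁ →* C₀) (J₀ : Subgroup C₀) (p : ℕ)
    (hJ : J₀ ≤ N.range) (hp : (powMonoidHom p : C₀ →* C₀).range ≤ N.range)
    (hfin : (J₀ ⊔ (powMonoidHom p : C₀ →* C₀).range).index ≠ 0)
    (hidx : (J₀ ⊔ (powMonoidHom p : C₀ →* C₀).range).index ≤ N.range.index) (x : C₁) :
    (QuotientGroup.mk (N x) : C₀ ⧸ (J₀ ⊔ (powMonoidHom p : C₀ →* C₀).range)) = 1 :=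
  (QuotientGroup.eq_one_iff _).2 (map_mem_sup_of_index_le N J₀ p hJ hp hfin hidx x)

end Mul

section Add

variable {C₀ C₁ : Type*} [AddCommGroup C₀] [AddCommGroup C₁]

/-- Additive version of `eq_of_le_of_index_le`. -/
theorem add_eq_of_le_of_index_le {N₀ R : AddSubgroup C₀} (hle : N₀ ≤ R) (hfin : N₀.index ≠ 0)
    (hidx : N₀.index ≤ R.index) : R = N₀ := by
  have h1 : N₀.relIndex R * R.index = N₀.index := AddSubgroup.relIndex_mul_index hle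
  have hR : R.index ≠ 0 := fun h => hfin (by rw [← h1, h, mul_zero])
  have hrel : N₀.relIndex R = 1 := by
    have hpos : 0 < R.index := Nat.pos_of_ne_zero hR
    have : N₀.relIndex R * R.index ≤ 1 * R.index := by rw [h1, one_mul]; exact hidx
    have h2 : N₀.relIndex R ≤ 1 := Nat.le_of_mul_le_mul_right this hpos
    have h3 : N₀.relIndex R ≠ 0 := fun h => hfin (by rw [← h1, h, zero_mul])
    omega
  exact le_antisymm (AddSubgroup.relIndex_eq_one.1 hrel) hle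

/-- Additive norm-index lemma: `J₀ ≤ N(C₁)`, `p • C₀ ≤ N(C₁)`, and
`[C₀ : J₀ + p C₀] ≤ [C₀ : N(C₁)]` (finite) imply `N(C₁) = J₀ + p C₀`. -/
theorem add_range_eq_sup_of_index_le (N : C₁ →+ C₀) (J₀ : AddSubgroup C₀) (p : ℕ)
    (hJ : J₀ ≤ N.range) (hp : (nsmulAddMonoidHom p : C₀ →+ C₀).range ≤ N.range)
    (hfin : (J₀ ⊔ (nsmulAddMonoidHom p : C₀ →+ C₀).range).index ≠ 0)
    (hidx : (J₀ ⊔ (nsmulAddMonoidHom p : C₀ →+ C₀).range).index ≤ N.range.index) :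
    N.range = J₀ ⊔ (nsmulAddMonoidHom p : C₀ →+ C₀).range :=
  add_eq_of_le_of_index_le (sup_le hJ hp) hfin hidx

theorem add_map_mem_sup_of_index_le (N : C₁ →+ C₀) (J₀ : AddSubgroup C₀) (p : ℕ)
    (hJ : J₀ ≤ N.range) (hp : (nsmulAddMonoidHom p : C₀ →+ C₀).range ≤ N.range)
    (hfin : (J₀ ⊔ (nsmulAddMonoidHom p : C₀ →+ C₀).range).index ≠ 0)
    (hidx : (J₀ ⊔ (nsmulAddMonoidHom p : C₀ →+ C₀).range).index ≤ N.range.index) (x : C₁) :
    N x ∈ J₀ ⊔ (nsmulAddMonoidHom p : C₀ →+ C₀).range := by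
  rw [← add_range_eq_sup_of_index_le N J₀ p hJ hp hfin hidx]
  exact ⟨x, rfl⟩

theorem add_quotient_map_eq_zero_of_index_le (N : C₁ →+ C₀) (J₀ : AddSubgroup C₀) (p : ℕ)
    (hJ : J₀ ≤ N.range) (hp : (nsmulAddMonoidHom p : C₀ →+ C₀).range ≤ N.range)
    (hfin : (J₀ ⊔ (nsmulAddMonoidHom p : C₀ →+ C₀).range).index ≠ 0)
    (hidx : (J₀ ⊔ (nsmulAddMonoidHom p : C₀ →+ C₀).range).index ≤ N.range.index) (x : C₁) :
    (QuotientAddGroup.mk (N x) : C₀ ⧸ (J₀ ⊔ (nsmulAddMonoidHom p : C₀ →+ C₀).range)) = 0 :=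
  (QuotientAddGroup.eq_zero_iff _).2 (add_map_mem_sup_of_index_le N J₀ p hJ hp hfin hidx x)

end Add

end Fermat.Agent.S55.NormIndex48
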