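/-
S55 / leaf 14f-ORBIT-HYP (helper39): every prime of a number field `K` above `p` is induced by an
embedding `K → PadicAlgCl p`; the primes above `p` are the `G_p`-orbits of embeddings; the
unconditional degree sum `Σ_{v | p} [K_v : ℚ_p] = [K : ℚ]`.

No normal closure, no completion: if `v` is induced by no embedding, prime avoidance gives
`x ∈ v` with `‖σ x‖ = 1` for all `σ`, so `|N x|_p = 1`, but `p ∣ absNorm v ∣ N x`.
-/
import Mathlib
import Fermat.Agent.S55.LocField17.Int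
import Fermat.Agent.S55.LocDegSum39
import Fermat.Agent.S55.EmbConj39

set_option autoImplicit false
set_option linter.unusedSectionVars false
set_option linter.style.haveILetI false

noncomputable section

namespace Fermat.Agent.S55.OrbitHyp39

open Fermat.Agent.S55.LocField17 Fermat.Agent.S55.LocDegSum39 Fermat.Agent.S55.EmbConj39
open Module NumberField IsDedekindDomain

variable (p : ℕ) [Fact p.Prime] {K : Type*} [Field K] [NumberField K]

/-! ### (O1) the prime of an embedding -/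

/-- the ring hom `𝓞 K → PadicAlgCl p` induced by `σ`. -/
def intHom (σ : K →+* PadicAlgCl p) : 𝓞 K →+* PadicAlgCl p := σ.comp (algebraMap (𝓞 K) K)

theorem intHom_apply (σ : K →+* PadicAlgCl p) (x : 𝓞 K) : intHom p σ x = σ (x : K) := rfl

theorem norm_intCast_le_one (a : ℤ) : ‖(a : PadicAlgCl p)‖ ≤ 1 := by
  rw [← map_intCast (algebraMap ℚ_[p] (PadicAlgCl p)) a, PadicAlgCl.norm_extends]
  exact Padic.norm_int_le_one a

theorem norm_intHom_le_one (σ : K →+* PadicAlgCl p) (x : 𝓞 K) : ‖intHom p σ x‖ ≤ 1 := by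
  obtain ⟨f, hfm, hfx⟩ := RingOfIntegers.isIntegral x
  have h2 := congrArg (intHom p σ) hfx
  rw [Polynomial.hom_eval₂, map_zero] at h2
  have := LocPowLF39.valuation_le_one_of_monic_root
    (Valued.v : Valuation (PadicAlgCl p) NNReal) ((intHom p σ).comp (algebraMap ℤ (𝓞 K)))
    (fun a => ?_) hfm h2
  · exact this
  · rw [eq_intCast ((intHom p σ).comp (algebraMap ℤ (𝓞 K))) a]
    show ‖(a : PadicAlgCl p)‖₊ ≤ 1
    rw [← NNReal.coe_le_coe, coe_nnnorm]
    exact norm_intCast_le_one p a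

theorem norm_le_one_of_int (σ : K →+* PadicAlgCl p) (x : 𝓞 K) : ‖σ (x : K)‖ ≤ 1 :=
  norm_intHom_le_one p σ x

/-- the prime ideal `{x ∈ 𝓞 K | ‖σ x‖ < 1}`. -/
def idealOfEmb (σ : K →+* PadicAlgCl p) : Ideal (𝓞 K) where
  carrier := {x | ‖intHom p σ x‖ < 1}
  zero_mem' := by simp
  add_mem' := fun {a b} ha hb => by
    simp only [Set.mem_ofPred_eq] at ha hb ⊢
    rw [map_add]
    exact lt_of_le_of_lt (IsUltrametricDist.norm_add_le_max _ _) (max_lt ha hb)
  smul_mem' := fun c x hx => by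
    simp only [Set.mem_ofPred_eq, smul_eq_mul, map_mul, norm_mul] at hx ⊢
    calc ‖intHom p σ c‖ * ‖intHom p σ x‖ ≤ 1 * ‖intHom p σ x‖ :=
          mul_le_mul_of_nonneg_right (norm_intHom_le_one p σ c) (norm_nonneg _)
      _ < 1 := by rwa [one_mul]

theorem mem_idealOfEmb_iff (σ : K →+* PadicAlgCl p) (x : 𝓞 K) :
    x ∈ idealOfEmb p σ ↔ ‖σ (x : K)‖ < 1 := Iff.rfl

theorem mem_idealOfEmb_iff' (σ : K →+* PadicAlgCl p) (x : 𝓞 K) :
    x ∈ idealOfEmb p σ ↔ ‖intHom p σ x‖ < 1 := Iff.rfl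

theorem natCast_mem_idealOfEmb (σ : K →+* PadicAlgCl p) : (p : 𝓞 K) ∈ idealOfEmb p σ := by
  rw [mem_idealOfEmb_iff', map_natCast, ← map_natCast σ, norm_natCast_p]
  exact inv_lt_one_of_one_lt₀ (by exact_mod_cast (Fact.out : p.Prime).one_lt)

instance idealOfEmb_isPrime (σ : K →+* PadicAlgCl p) : (idealOfEmb p σ).IsPrime where
  ne_top' := by
    rw [Ne, Ideal.eq_top_iff_one, mem_idealOfEmb_iff', map_one, norm_one]
    exact lt_irrefl 1
  mem_or_mem' := fun {x y} h => by
    rw [mem_idealOfEmb_iff', map_mul, norm_mul] at h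
    by_contra hcon
    rw [not_or, mem_idealOfEmb_iff', mem_idealOfEmb_iff', not_lt, not_lt] at hcon
    exact absurd h (not_lt.mpr (one_le_mul_of_one_le_of_one_le hcon.1 hcon.2))

theorem idealOfEmb_ne_bot (σ : K →+* PadicAlgCl p) : idealOfEmb p σ ≠ ⊥ := by
  intro h
  have := natCast_mem_idealOfEmb p σ
  rw [h, Ideal.mem_bot] at this
  exact (Nat.cast_ne_zero.mpr (Fact.out : p.Prime).ne_zero) this

/-- the prime `{x | ‖σ x‖ < 1}` of `𝓞 K` attached to a `p`-adic embedding. -/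
def primeOfEmb (σ : K →+* PadicAlgCl p) : HeightOneSpectrum (𝓞 K) :=
  ⟨idealOfEmb p σ, inferInstance, idealOfEmb_ne_bot p σ⟩

theorem mem_primeOfEmb_iff (σ : K →+* PadicAlgCl p) (x : 𝓞 K) :
    x ∈ (primeOfEmb p σ).asIdeal ↔ ‖σ (x : K)‖ < 1 := Iff.rfl

theorem natCast_mem_primeOfEmb (σ : K →+* PadicAlgCl p) :
    (p : 𝓞 K) ∈ (primeOfEmb p σ).asIdeal := natCast_mem_idealOfEmb p σ

theorem norm_eq_one_of_notMem (σ : K →+* PadicAlgCl p) {x : 𝓞 K}
    (hx : x ∉ (primeOfEmb p σ).asIdeal) : ‖σ (x : K)‖ = 1 := by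
  rw [mem_primeOfEmb_iff, not_lt] at hx
  exact le_antisymm (norm_le_one_of_int p σ x) hx

/-! ### (O2) every prime above `p` comes from an embedding -/

theorem dvd_absNorm_of_natCast_mem (v : HeightOneSpectrum (𝓞 K))
    (hv : (p : 𝓞 K) ∈ v.asIdeal) : p ∣ Ideal.absNorm v.asIdeal := by
  have hp : p.Prime := Fact.out
  have h1 : Ideal.absNorm v.asIdeal ∣ Ideal.absNorm (Ideal.span {(p : 𝓞 K)}) :=
    Ideal.absNorm_dvd_absNorm_of_le ((Ideal.span_singleton_le_iff_mem _).mpr hv)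
  have h2 : Algebra.norm ℤ (p : 𝓞 K) = (p : ℤ) ^ finrank ℤ (𝓞 K) := by
    have := Algebra.norm_algebraMap (R := ℤ) (S := 𝓞 K) (p : ℤ)
    rwa [eq_intCast, Int.cast_natCast] at this
  rw [Ideal.absNorm_span_singleton, h2, Int.natAbs_pow, Int.natAbs_natCast] at h1
  obtain ⟨k, -, hk⟩ := (Nat.dvd_prime_pow hp).mp h1
  rcases Nat.eq_zero_or_pos k with h0 | hpos
  · rw [h0, pow_zero, Ideal.absNorm_eq_one_iff] at hk
    exact absurd hk v.isPrime.ne_top
  · rw [hk]
    exact dvd_pow_self p hpos.ne'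

theorem norm_intCast_lt_one_of_dvd {n : ℤ} (h : (p : ℤ) ∣ n) : ‖(n : PadicAlgCl p)‖ < 1 := by
  rw [← map_intCast (algebraMap ℚ_[p] (PadicAlgCl p)) n, PadicAlgCl.norm_extends]
  exact Padic.norm_intCast_lt_one_iff.mpr h

/-- **every prime of `𝓞 K` above `p` is induced by a `p`-adic embedding.** -/
theorem exists_emb_of_prime (v : HeightOneSpectrum (𝓞 K)) (hv : (p : 𝓞 K) ∈ v.asIdeal) :
    ∃ σ : K →+* PadicAlgCl p, primeOfEmb p σ = v := by
  classical
  by_contra hcon
  push Not at hcon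
  haveI : Fintype (K →+* PadicAlgCl p) := Fintype.ofFinite _
  have hne : Nonempty (K →+* PadicAlgCl p) := by
    rw [← Nat.card_pos_iff.trans ⟨fun h => h.1, fun h => ⟨h, inferInstance⟩⟩, card_embeddings]
    exact Module.finrank_pos
  obtain ⟨σ₀⟩ := hne
  have hnot : ¬ ∃ σ ∈ (Finset.univ : Finset (K →+* PadicAlgCl p)),
      v.asIdeal ≤ (primeOfEmb p σ).asIdeal := by
    rintro ⟨σ, -, hle⟩
    have hmax : v.asIdeal.IsMaximal := v.isMaximal
    have := hmax.eq_of_le (primeOfEmb p σ).isPrime.ne_top hle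
    exact hcon σ (HeightOneSpectrum.ext this.symm)
  rw [← Ideal.subset_union_prime (f := fun σ => (primeOfEmb p σ).asIdeal) σ₀ σ₀
    (fun σ _ _ _ => (primeOfEmb p σ).isPrime), Set.not_subset] at hnot
  obtain ⟨x, hxv, hx⟩ := hnot
  have hx' : ∀ σ : K →+* PadicAlgCl p, x ∉ (primeOfEmb p σ).asIdeal := by
    intro σ hσ
    exact hx (Set.mem_biUnion (Finset.mem_coe.mpr (Finset.mem_univ σ)) hσ)
  -- the norm of `x` is a `p`-adic unit
  have h1 := Algebra.norm_eq_prod_embeddings ℚ (PadicAlgCl p) (x : K)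
  have h2 : ‖algebraMap ℚ (PadicAlgCl p) (Algebra.norm ℚ (x : K))‖ = 1 := by
    rw [h1, norm_prod]
    exact Finset.prod_eq_one fun σ _ => norm_eq_one_of_notMem p (σ : K →+* PadicAlgCl p) (hx' _)
  -- but it is divisible by `p`
  have h3 : (p : ℤ) ∣ Algebra.norm ℤ x :=
    (Int.natCast_dvd_natCast.mpr (dvd_absNorm_of_natCast_mem p v hv)).trans
      (Ideal.absNorm_dvd_norm_of_mem hxv)
  rw [← Algebra.coe_norm_int, map_intCast] at h2
  exact absurd h2 (norm_intCast_lt_one_of_dvd p h3).ne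

/-! ### (O3) same prime ⟺ conjugate -/

/-- the valuation subring `{x ∈ K | ‖σ x‖ ≤ 1}`. -/
def valSubOfEmb (σ : K →+* PadicAlgCl p) : ValuationSubring K :=
  ((Valued.v : Valuation (PadicAlgCl p) NNReal).valuationSubring).comap σ

theorem mem_valSubOfEmb_iff (σ : K →+* PadicAlgCl p) (x : K) :
    x ∈ valSubOfEmb p σ ↔ ‖σ x‖ ≤ 1 := by
  rw [valSubOfEmb, ValuationSubring.mem_comap, Valuation.mem_valuationSubring_iff,
    ← NNReal.coe_le_coe]
  rfl

/-- the valuation ring of the adic valuation at `primeOfEmb p σ` is `{x | ‖σ x‖ ≤ 1}`. -/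
theorem valuationSubring_primeOfEmb (σ : K →+* PadicAlgCl p) :
    ((primeOfEmb p σ).valuation K).valuationSubring = valSubOfEmb p σ := by
  rw [← HeightOneSpectrum.valuationSubringAtPrime_eq_valuationSubring]
  apply ValuationSubring.eq_of_le_of_ne_top
  · intro x hx
    have hv : (primeOfEmb p σ).valuation K x ≤ 1 :=
      HeightOneSpectrum.valuationSubringAtPrime_le_valuation (primeOfEmb p σ) hx
    obtain ⟨n, d, hnd⟩ :=
      HeightOneSpectrum.exists_primeCompl_mul_eq_of_integer (primeOfEmb p σ) x hv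
    rw [mem_valSubOfEmb_iff]
    have h1 : ‖σ x‖ * ‖σ ((d : 𝓞 K) : K)‖ = ‖σ (n : K)‖ := by
      rw [← norm_mul, ← map_mul]
      exact congrArg (fun t => ‖σ t‖) hnd
    rw [norm_eq_one_of_notMem p σ d.2, mul_one] at h1
    rw [h1]
    exact norm_le_one_of_int p σ n
  · intro htop
    have : ((p : K))⁻¹ ∈ valSubOfEmb p σ := by rw [htop]; trivial
    rw [mem_valSubOfEmb_iff, map_inv₀, norm_inv, norm_natCast_p, inv_inv] at this
    exact absurd this (not_le.mpr (by exact_mod_cast (Fact.out : p.Prime).one_lt))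

theorem valuation_primeOfEmb_le_one_iff (σ : K →+* PadicAlgCl p) (x : K) :
    (primeOfEmb p σ).valuation K x ≤ 1 ↔ ‖σ x‖ ≤ 1 := by
  rw [← mem_valSubOfEmb_iff, ← valuationSubring_primeOfEmb, Valuation.mem_valuationSubring_iff]

/-- two embeddings define the same prime iff they have the same unit ball. -/
theorem primeOfEmb_eq_iff_unitBall (σ σ' : K →+* PadicAlgCl p) :
    primeOfEmb p σ = primeOfEmb p σ' ↔ ∀ x : K, ‖σ x‖ ≤ 1 ↔ ‖σ' x‖ ≤ 1 := by
  constructor
  · intro h x
    rw [← valuation_primeOfEmb_le_one_iff, ← valuation_primeOfEmb_le_one_iff, h]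
  · intro h
    apply HeightOneSpectrum.ext
    apply Ideal.ext
    intro x
    rw [mem_primeOfEmb_iff, mem_primeOfEmb_iff, norm_eq_of_unitBall_eq p σ σ' h]

/-- **two embeddings define the same prime iff they are `G_p`-conjugate.** -/
theorem primeOfEmb_eq_iff (σ σ' : K →+* PadicAlgCl p) :
    primeOfEmb p σ = primeOfEmb p σ' ↔ ∃ τ : Gq p, ∀ x, σ' x = τ (σ x) := by
  rw [primeOfEmb_eq_iff_unitBall, conj_iff_unitBall_eq]

/-! ### (O4) primes above `p` = orbits of embeddings -/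

attribute [local instance] conjAct

variable (K) in
/-- the primes of `𝓞 K` above `p`. -/
abbrev PrimesOver : Type _ := {v : HeightOneSpectrum (𝓞 K) // (p : 𝓞 K) ∈ v.asIdeal}

/-- the prime of an orbit of embeddings. -/
def orbitToPrime :
    MulAction.orbitRel.Quotient (Gq p) (K →+* PadicAlgCl p) → PrimesOver p K :=
  Quotient.lift (fun σ => (⟨primeOfEmb p σ, natCast_mem_primeOfEmb p σ⟩ : PrimesOver p K))
    (by
      intro σ σ' h
      have h' : σ ∈ MulAction.orbit (Gq p) σ' := MulAction.orbitRel_apply.mp h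
      apply Subtype.ext
      exact ((primeOfEmb_eq_iff p σ' σ).mpr ((mem_orbit_iff p σ' σ).mp h')).symm)

theorem orbitToPrime_mk (σ : K →+* PadicAlgCl p) :
    orbitToPrime p (Quotient.mk'' σ) = ⟨primeOfEmb p σ, natCast_mem_primeOfEmb p σ⟩ := rfl

theorem orbitToPrime_bijective : Function.Bijective (orbitToPrime p (K := K)) := by
  constructor
  · intro a b
    refine Quotient.inductionOn₂' a b (fun σ σ' h => ?_)
    rw [orbitToPrime_mk, orbitToPrime_mk] at h
    have h1 : primeOfEmb p σ = primeOfEmb p σ' := congrArg Subtype.val h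
    apply Quotient.sound'
    apply MulAction.orbitRel_apply.mpr
    exact (mem_orbit_iff p σ' σ).mpr ((primeOfEmb_eq_iff p σ' σ).mp h1.symm)
  · rintro ⟨v, hv⟩
    obtain ⟨σ, hσ⟩ := exists_emb_of_prime p v hv
    exact ⟨Quotient.mk'' σ, Subtype.ext hσ⟩

/-- **primes above `p` ↔ `G_p`-orbits of `p`-adic embeddings.** -/
def orbitEquivPrimes :
    MulAction.orbitRel.Quotient (Gq p) (K →+* PadicAlgCl p) ≃ PrimesOver p K :=
  Equiv.ofBijective _ (orbitToPrime_bijective p)

instance finite_primesOver : Finite (PrimesOver p K) :=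
  Finite.of_equiv _ (orbitEquivPrimes p)

/-! ### (O5), (O6) the unconditional counts -/

section Sum

variable [Fintype (PrimesOver p K)] (rep : PrimesOver p K → (K →+* PadicAlgCl p))
  (hrep : ∀ v, primeOfEmb p (rep v) = v.1)

include hrep in
/-- **`Σ_{v | p} [K_v : ℚ_p] = [K : ℚ]`** over the primes of `𝓞 K` above `p`; `rep v` is any
embedding inducing `v` and `K_v = ℚ_p(rep v K)`. -/
theorem sum_finrank_over_primes :
    ∑ v, finrank ℚ_[p] (locField p (rep v)) = finrank ℚ K := by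
  refine sum_finrank_locField_of_unitBall p rep (fun i j h => ?_) (fun σ => ?_)
  · apply Subtype.ext
    rw [← hrep i, ← hrep j]
    exact (primeOfEmb_eq_iff_unitBall p _ _).mpr h
  · refine ⟨⟨primeOfEmb p σ, natCast_mem_primeOfEmb p σ⟩, ?_⟩
    exact (primeOfEmb_eq_iff_unitBall p _ _).mp
      (hrep ⟨primeOfEmb p σ, natCast_mem_primeOfEmb p σ⟩).symm

include hrep in
/-- **`hprod` at `p`**, unconditional: `∏_{v | p} (K_vˣ : K_vˣᵖ) = p ^ (2 #{v | p} + [K : ℚ])`. -/
theorem prod_card_units_quot_pow_over_primes {ζ : K} (hζ : IsPrimitiveRoot ζ p) :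
    ∏ v, Nat.card ((locField p (rep v))ˣ ⧸
        (powMonoidHom p : (locField p (rep v))ˣ →* (locField p (rep v))ˣ).range) =
      p ^ (2 * Fintype.card (PrimesOver p K) + finrank ℚ K) := by
  refine prod_card_units_quot_pow_of_unitBall p rep (fun i j h => ?_) (fun σ => ?_) hζ
  · apply Subtype.ext
    rw [← hrep i, ← hrep j]
    exact (primeOfEmb_eq_iff_unitBall p _ _).mpr h
  · refine ⟨⟨primeOfEmb p σ, natCast_mem_primeOfEmb p σ⟩, ?_⟩
    exact (primeOfEmb_eq_iff_unitBall p _ _).mp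
      (hrep ⟨primeOfEmb p σ, natCast_mem_primeOfEmb p σ⟩).symm

end Sum

/-- a choice of embedding for each prime above `p`. -/
def repOfPrime (v : PrimesOver p K) : K →+* PadicAlgCl p :=
  (exists_emb_of_prime p v.1 v.2).choose

theorem primeOfEmb_repOfPrime (v : PrimesOver p K) : primeOfEmb p (repOfPrime p v) = v.1 :=
  (exists_emb_of_prime p v.1 v.2).choose_spec

end Fermat.Agent.S55.OrbitHyp39
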