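/-
S55 / leaf 14f-ORBIT-HYP, bridge (helper39): `PlaceDict58.OrbitHyp L` for EVERY number field
`L ≤ ℚbar` (not only normal ones), from `OrbitHyp39.exists_emb_of_prime`.
-/
import Mathlib
import Fermat.Prelude.Def_GaloisRep_CompletionBridge
import Fermat.Agent.S55.PlaceDict58
import Fermat.Agent.S55.PlaceCount50.Dict
import Fermat.Agent.S55.OrbitHyp39

set_option autoImplicit false
set_option linter.unusedSectionVars false

noncomputable section

namespace Fermat.Agent.S55.OrbitHypBridge39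

open Fermat.Agent.S55.PlaceDict58 Fermat.Agent.S55.OrbitHyp39 Fermat.Agent.S55.LocDegSum39
open Module NumberField IsDedekindDomain

variable (q : ℕ) [Fact q.Prime] (L : IntermediateField ℚ Qb) [NumberField L]

/-- composition with `padicEmbedding q`. -/
def toPadic (σ : L →ₐ[ℚ] Qb) : L →+* PadicAlgCl q := emb q L σ

theorem toPadic_apply (σ : L →ₐ[ℚ] Qb) (x : L) : toPadic q L σ x = padicEmbedding q (σ x) := rfl

theorem toPadic_injective : Function.Injective (toPadic q L) := by
  intro σ₁ σ₂ h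
  ext x
  have := congrArg (fun f : L →+* PadicAlgCl q => f x) h
  exact (padicEmbedding q).injective this

/-- every `q`-adic embedding of `L` factors through `padicEmbedding q`. -/
theorem toPadic_bijective : Function.Bijective (toPadic q L) := by
  refine (toPadic_injective q L).bijective_of_nat_card_le ?_
  rw [card_embeddings, Nat.card_eq_fintype_card, AlgHom.card]

/-- the prime of `toPadic σ` is `placeOf q L σ`. -/
theorem primeOfEmb_toPadic (σ : L →ₐ[ℚ] Qb) : primeOfEmb q (toPadic q L σ) = placeOf q L σ := by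
  apply HeightOneSpectrum.ext
  apply Ideal.ext
  intro x
  rw [mem_primeOfEmb_iff, mem_placeOf_iff]
  rfl

/-- **the orbit hypothesis of `PlaceDict58` holds for every number field `L ≤ ℚbar`.** -/
theorem orbitHyp : OrbitHyp L := by
  intro ℓ _ v hv
  obtain ⟨σ', hσ'⟩ := exists_emb_of_prime ℓ v hv
  obtain ⟨σ, rfl⟩ := (toPadic_bijective ℓ L).2 σ'
  exact ⟨σ, (primeOfEmb_toPadic ℓ L σ).symm.trans hσ'⟩

/-- S-unit dictionary of `PlaceDict58` (P5) without hypothesis, for every number field. -/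
theorem forall_nrm_eq_one_iff' (S : Finset Nat.Primes) (x : L) :
    (∀ ℓ : Nat.Primes, ℓ ∉ S → ∀ σ : L →ₐ[ℚ] Qb,
        haveI : Fact (ℓ : ℕ).Prime := ⟨ℓ.2⟩; nrm (ℓ : ℕ) L σ x = 1) ↔
      ∀ v : HeightOneSpectrum (𝓞 L), (∀ ℓ ∈ S, ((ℓ : ℕ) : 𝓞 L) ∉ v.asIdeal) →
        v.valuation L x = 1 :=
  forall_nrm_eq_one_iff L (orbitHyp L) S x

/-- per-prime S-unit dictionary without hypothesis. -/
theorem forall_valuation_eq_one_iff' (x : L) :
    (∀ v : HeightOneSpectrum (𝓞 L), ((q : ℕ) : 𝓞 L) ∈ v.asIdeal → v.valuation L x = 1) ↔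
      ∀ σ : L →ₐ[ℚ] Qb, nrm q L σ x = 1 :=
  forall_valuation_eq_one_iff L (orbitHyp L) q x

/-! ### bridge to `PlaceCount50.primeOf` -/

section Count50

variable (M : IntermediateField ℚ Fermat.Agent.S55.Idele73.Basic.Qbar) [FiniteDimensional ℚ M]

/-- `OrbitHyp39.primeOfEmb` is `PlaceCount50.primeOf`. -/
theorem primeOfEmb_eq_primeOf (j : M →+* PadicAlgCl q) :
    primeOfEmb q j = Fermat.Agent.S55.PlaceCount50.primeOf q M j := by
  apply HeightOneSpectrum.ext
  apply Ideal.ext
  intro x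
  rw [mem_primeOfEmb_iff, Fermat.Agent.S55.PlaceCount50.mem_primeOf_iff]

/-- every prime of `𝓞 M` above `q` is `PlaceCount50.primeOf q M j` for some embedding `j`
(`M` any finite subextension of `ℚbar`, not necessarily normal). -/
theorem exists_primeOf_eq (v : HeightOneSpectrum (𝓞 M)) (hv : (q : 𝓞 M) ∈ v.asIdeal) :
    ∃ j : M →+* PadicAlgCl q, Fermat.Agent.S55.PlaceCount50.primeOf q M j = v := by
  obtain ⟨j, hj⟩ := exists_emb_of_prime q v hv
  exact ⟨j, (primeOfEmb_eq_primeOf q M j).symm.trans hj⟩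

/-- two embeddings of `M` define the same `PlaceCount50.primeOf` iff they are conjugate under
`Gal(PadicAlgCl q / ℚ_q)`. -/
theorem primeOf_eq_iff_conj (j j' : M →+* PadicAlgCl q) :
    Fermat.Agent.S55.PlaceCount50.primeOf q M j = Fermat.Agent.S55.PlaceCount50.primeOf q M j' ↔
      ∃ τ : Fermat.Agent.S55.LocField17.Gq q, ∀ x, j' x = τ (j x) := by
  rw [← primeOfEmb_eq_primeOf, ← primeOfEmb_eq_primeOf, primeOfEmb_eq_iff]

end Count50

end Fermat.Agent.S55.OrbitHypBridge39
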