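/-
S55 (helper88): the double-coset count of `Contract34.LocalDim` as the index of the decomposition
group `ShaFin.decompImage (mk' V) q` in `G_ℚ ⧸ V` (shape asked by helper38, FormalTop38 W2).
-/
import Fermat.Agent.S55.PlaceCount88
import Fermat.Agent.S55.ProfinLoc80.Density
import Fermat.Agent.S55.ProfinLocal31.ShaFin

set_option autoImplicit false

open ExtCitation
open Fermat.Agent.Lib.FrobeniusExists (Qb GQ)

namespace Fermat.Agent.S55.PlaceCountDecomp88

open Fermat.Agent.S55.ProfinLocal31 Fermat.Agent.S55.ProfinLocal26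

/-- `#(D_q \ G_ℚ / V) = [G_ℚ/V : image of D_q]`. -/
theorem card_doubleCoset_eq_index_decompImage (V : Subgroup GQ) [V.Normal] (q : Nat.Primes) :
    Nat.card (DoubleCoset.Quotient ((primeLocalToGlobal q).range : Set GQ) (V : Set GQ)) =
      (ShaFin.decompImage (QuotientGroup.mk' V) q).index := by
  rw [PlaceCount88.card_doubleCoset_eq, ShaFin.decompImage,
    ProfinLoc80.Density.range_primeLocalToGlobal]
  rfl

/-- the same with the decomposition group `Local.decomp q` itself -/
theorem card_doubleCoset_decomp_eq_index (V : Subgroup GQ) [V.Normal] (q : Nat.Primes) :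
    Nat.card (DoubleCoset.Quotient ((Local.decomp q : Subgroup GQ) : Set GQ) (V : Set GQ)) =
      (ShaFin.decompImage (QuotientGroup.mk' V) q).index := by
  rw [PlaceCount88.card_doubleCoset_eq, ShaFin.decompImage]
  rfl

end Fermat.Agent.S55.PlaceCountDecomp88
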