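/-
S55 / 90-R3-WIRING (helper52, owner of route W59): THE FINAL ARITHMETIC ASSEMBLY of route W59,
with every remaining input as a NAMED hypothesis (DISPATCH-22 (i)).

The formal layer of W59 is closed (`R3Wire52b`, `LocDual26.Wire`); the only formal statement still
to land is `LocDual26.Wire.GlobalBaseStatement` (helper11 `GlobalBase11`).  The arithmetic enters
through the six literal `Contract34` plugs; three of them have landed literal adapters from ONE
named arithmetic `Prop` each:

* (A1) `CD3.GlobalH3Base p S`            ⇒ (P1) `Contract34.GlobalRightExact p S`  (`CD3.P1`)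
* (A2) `P2Local71.LocalFund q`           ⇒ (P2) `Contract34.LocalRightExact p q`   (`P2Local71.Inputs`)
* (A4) `ShapiroLevel32.LocalBaseDim p S` ⇒ (P5) `Contract34.LocalDim p S`          (`ShapiroLevel32.LocalDim`)

and (P3P4) `Contract34.Reciprocity`, (P6) `Contract34.GlobalCokerDim`, (P7') `Contract34.HilbertCount`
are consumed literally.  Result: `s55_of_named` IS the frozen S55 statement, so that the official
`Fermat/Agent/S55.lean` is a one-line instantiation the moment the seven named inputs land.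
-/
import Fermat.Agent.S55.LocDual26.Wire
import Fermat.Agent.S55.CD3.P1
import Fermat.Agent.S55.P2Local71.Inputs
import Fermat.Agent.S55.ShapiroLevel32.LocalDim

set_option autoImplicit false

open CategoryTheory Module groupCohomology ExtCitation

namespace Fermat.Agent.S55.R3Arith52

open Fermat.Agent.S55

/-- the shape "for every odd `p` and every finite `S ∋ p`" of all global inputs -/
def ForAllOdd (P : ∀ (p : ℕ) [Fact p.Prime], Finset Nat.Primes → Prop) : Prop :=
  ∀ (p : ℕ) [Fact p.Prime], p ≠ 2 → ∀ S : Finset Nat.Primes, pPrime p ∈ S → P p S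

/-- (A1) global `H³` vanishing (`cd_p G_{K,S} ≤ 2` at the trivial module, `μ_p ⊆ K`) -/
def A1 : Prop := ForAllOdd fun p _ S => CD3.GlobalH3Base p S

/-- (A2) local fundamental classes on every finite layer of `ℚ̄_q / ℚ_q`, every prime `q` -/
def A2 : Prop := ∀ (q : ℕ) [Fact q.Prime], P2Local71.LocalFund q

/-- (P3P4) reciprocity, literal -/
def A34 : Prop := ForAllOdd fun p _ S => Contract34.Reciprocity p S

/-- (A4) the local base case `dim H²(G_{K_w}, 𝔽_p) ≤ 1`, `μ_p ⊆ K_w` -/
def A4 : Prop := ForAllOdd fun p _ S => ShapiroLevel32.LocalBaseDim p S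

/-- (P6) the global cokernel dimension, literal -/
def A5 : Prop := ForAllOdd fun p _ S => Contract34.GlobalCokerDim p S

/-- (P7') the Hilbert count, literal -/
def A6 : Prop := ForAllOdd fun p _ S => Contract34.HilbertCount p S

/-- the six literal plugs for a fixed `(p, S)` from the named inputs for that `(p, S)` -/
theorem plugsCount_of_named {p : ℕ} [Fact p.Prime] {S : Finset Nat.Primes} (hpS : pPrime p ∈ S)
    (hA1 : CD3.GlobalH3Base p S)
    (hA2 : ∀ q ∈ S, @P2Local71.LocalFund (q : ℕ) ⟨q.2⟩)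
    (hA34 : Contract34.Reciprocity p S)
    (hA4 : ShapiroLevel32.LocalBaseDim p S)
    (hA5 : Contract34.GlobalCokerDim p S)
    (hA6 : Contract34.HilbertCount p S) :
    Contract34.PlugsCount p S :=
  ⟨CD3.globalRightExact_of_base hpS hA1,
    fun q hq => P2Local71.localRightExact_of_fund p q (hA2 q hq),
    hA34, ShapiroLevel32.localDim_of_base p S hA4, hA5, hA6⟩

/-- `Contract34.ArithStatementCount` from the six named inputs -/
theorem arithStatementCount_of_named (hA1 : A1) (hA2 : A2) (hA34 : A34) (hA4 : A4) (hA5 : A5)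
    (hA6 : A6) : Contract34.ArithStatementCount :=
  fun p _ hp2 S hpS =>
    plugsCount_of_named hpS (hA1 p hp2 S hpS)
      (fun q _ => @hA2 (q : ℕ) ⟨q.2⟩) (hA34 p hp2 S hpS) (hA4 p hp2 S hpS) (hA5 p hp2 S hpS)
      (hA6 p hp2 S hpS)

/-- the S55 dimension statement from `GlobalBaseStatement` and the six named inputs -/
theorem dimStatement_of_named (hGB : LocDual26.Wire.GlobalBaseStatement)
    (hA1 : A1) (hA2 : A2) (hA34 : A34) (hA4 : A4) (hA5 : A5) (hA6 : A6) :
    Spine15.DimStatement :=
  LocDual26.Wire.dimStatement_of_globalBase hGB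
    (arithStatementCount_of_named hA1 hA2 hA34 hA4 hA5 hA6)

/-- **THE FROZEN S55 STATEMENT** (verbatim) from `GlobalBaseStatement` and the six named inputs. -/
theorem s55_of_named (hGB : LocDual26.Wire.GlobalBaseStatement)
    (hA1 : A1) (hA2 : A2) (hA34 : A34) (hA4 : A4) (hA5 : A5) (hA6 : A6)
    {p : ℕ} [Fact p.Prime] (hp2 : p ≠ 2) (S : Finset Nat.Primes) (hpS : pPrime p ∈ S)
    (M : Rep (ZMod p) (AlgebraicClosure ℚ ≃ₐ[ℚ] AlgebraicClosure ℚ))
    [FiniteDimensional (ZMod p) M]
    (hsm : ∀ m : M, ∃ F : IntermediateField ℚ (AlgebraicClosure ℚ), FiniteDimensional ℚ F ∧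
      ∀ s ∈ F.fixingSubgroup, M.ρ s m = m)
    (hMur : ∀ q : Nat.Primes, q ∉ S → ∀ A : ValuationSubring (AlgebraicClosure ℚ),
      A.LiesOverPrime (q : ℕ) → ∀ g ∈ A.inertiaSubgroupIn ℚ, M.ρ g = 1) :
    ∃ B : sha₁ S (M.dualTwist (cycloChar p)) →ₗ[ZMod p] sha₂ S M →ₗ[ZMod p] ZMod p,
      (∀ y, (∀ x, B y x = 0) → y = 0) ∧ (∀ x, (∀ y, B y x = 0) → x = 0) :=
  Spine15.s55_of_dimStatement (dimStatement_of_named hGB hA1 hA2 hA34 hA4 hA5 hA6)
    hp2 S hpS M hsm hMur

end Fermat.Agent.S55.R3Arith52
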