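/-
S55 / 90-R3-WIRING, variant W59 (helper52): Shapiro's lemma (helper32, `ShapiroLevel32`) for the
permutation modules `Dualizing59.coind V k = k^(G/V)` of route R3:

  `H2coindEquiv : 𝒰.H2 (coind V k) ≃ₗ[k] (restrictLevels 𝒰 (mk' V).ker _).H2 (triv k (mk' V).ker)`

and the resulting reduction of the local dimension bound `R3Local52.LocalDim` to the dimension of
level `H²` of the trivial module over open subgroups of the local Galois groups.
-/
import Fermat.Agent.S55.R3Local52
import Fermat.Agent.S55.ShapiroLevel32.Equiv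
import Fermat.Agent.S55.ShapiroLevel32.Perm

set_option autoImplicit false
set_option linter.style.haveILetI false

open CategoryTheory Module groupCohomology ExtCitation

namespace Fermat.Agent.S55.R3Shapiro52

open Fermat.Agent.S55.Profin15 Fermat.Agent.S55.Dualizing59 Fermat.Agent.S55.ShapiroLevel32

section Abstract

universe u

variable {k : Type u} [Field k] {G : Type u} [Group G]

lemma coindRep_inv_apply (V : Subgroup G) [V.Normal] (g : G) (a : (G ⧸ V) → k) (δ : G ⧸ V) :
    coindRep (k := k) V k g a δ⁻¹ = a (δ * QuotientGroup.mk' V g)⁻¹ := by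
  show a (g⁻¹ • δ⁻¹) = a (δ * QuotientGroup.mk' V g)⁻¹
  rw [smul_eq_mk_mul, mul_inv_rev, QuotientGroup.mk'_apply, QuotientGroup.mk_inv]

/-- coordinates presenting `Dualizing59.coind V k = k^(G/V)` as coinduced from the trivial module
of `V`: `c f δ = f δ⁻¹`. -/
noncomputable def coindCoord (V : Subgroup G) [V.Normal] :
    CoindCoord (QuotientGroup.mk' V) (coind (k := k) V k) where
  c := LinearEquiv.funCongrLeft k k (Equiv.inv (G ⧸ V))
  c_ρ g a δ := coindRep_inv_apply V g a δ

@[simp] lemma coindCoord_c (V : Subgroup G) [V.Normal] (f : coind (k := k) V k) (δ : G ⧸ V) :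
    (coindCoord (k := k) V).c f δ = f δ⁻¹ := rfl

/-- **Shapiro for the permutation modules of route R3**:
`H²(G; k^(G/V)) ≃ H²(V; k)` in level cohomology. -/
noncomputable def H2coindEquiv (𝒰 : LevelStr G) (V : Subgroup G) [V.Normal]
    (hker : ∃ W ∈ 𝒰.levels, W ≤ (QuotientGroup.mk' V).ker) :
    𝒰.H2 (coind (k := k) V k) ≃ₗ[k]
      (kerLevels 𝒰 hker).H2 (triv k (QuotientGroup.mk' V).ker) :=
  shapiroH2 𝒰 hker (coindCoord V)
    (Classical.choice (exists_sect (QuotientGroup.mk'_surjective V)))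

/-- a level contains a level inside the kernel of its own quotient map -/
lemma exists_le_ker_mk' (𝒰 : LevelStr G) {V : Subgroup G} [V.Normal] (hV : V ∈ 𝒰.levels) :
    ∃ W ∈ 𝒰.levels, W ≤ (QuotientGroup.mk' V).ker :=
  ⟨V, hV, by rw [QuotientGroup.ker_mk']⟩

/-- dimension bound for `H²(G; k^(G/V))` from the one for `H²(V; k)` -/
theorem finrank_H2_coind_le (𝒰 : LevelStr G) {V : Subgroup G} [V.Normal] (hV : V ∈ 𝒰.levels)
    (d : ℕ)
    (h : Module.Finite k ((kerLevels 𝒰 (exists_le_ker_mk' 𝒰 hV)).H2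
        (triv k (QuotientGroup.mk' V).ker)) ∧
      finrank k ((kerLevels 𝒰 (exists_le_ker_mk' 𝒰 hV)).H2
        (triv k (QuotientGroup.mk' V).ker)) ≤ d) :
    Module.Finite k (𝒰.H2 (coind (k := k) V k)) ∧ finrank k (𝒰.H2 (coind (k := k) V k)) ≤ d := by
  obtain ⟨hfin, hle⟩ := h
  haveI := hfin
  refine ⟨Module.Finite.equiv (H2coindEquiv 𝒰 V (exists_le_ker_mk' 𝒰 hV)).symm, ?_⟩
  rw [LinearEquiv.finrank_eq (H2coindEquiv 𝒰 V (exists_le_ker_mk' 𝒰 hV))]
  exact hle

end Abstract

/-! ### The instance -/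

section Instance

open Fermat.Agent.S55.R3Wire52 Fermat.Agent.S55.R3Local52
open Fermat.Agent.Lib.FrobeniusExists (Qb GQ)
open Fermat.Agent.S55.Contract34 (mu)

variable (p : ℕ) [Fact p.Prime] (S : Finset Nat.Primes)

/-- LOCAL BASE DIMENSION over ALL local levels (producer: 22b/49, `dim H²(G_K, 𝔽_p) ≤ 1` for every
finite `K/ℚ_q` containing `μ_p`): cofinally many local levels `V` at `q ∈ S` fix `μ_p` and have
level `H²` of the trivial module `𝔽_p` over `V` finite of dimension `≤ 1`.  (`N` is a variable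
equal to `V` to make transport along equalities of subgroups painless, as in
`ShapiroLevel32.LocalBaseDim`.) -/
def LocalBaseDimAll : Prop :=
  ∀ q : ↥S, ∀ U ∈ (Uq S q).levels, ∃ V ∈ (Uq S q).levels, V ≤ U ∧
    (∀ s ∈ V, ∀ m : Rep.res (rq S q) (mu p), (Rep.res (rq S q) (mu p)).ρ s m = m) ∧
    ∀ (N : Subgroup (Gq S q)), N = V → ∀ h : ∃ W ∈ (Uq S q).levels, W ≤ N,
      Module.Finite (ZMod p) ((restrictLevels (Uq S q) N h).H2 (triv (ZMod p) ↥N)) ∧
      finrank (ZMod p) ((restrictLevels (Uq S q) N h).H2 (triv (ZMod p) ↥N)) ≤ 1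

variable {p S}

/-- `R3Local52.LocalDim` from the local base dimension (level Shapiro). -/
theorem localDim_of_baseAll (h : LocalBaseDimAll p S) : LocalDim p S := by
  intro q U hU
  obtain ⟨V, hV, hVU, hVμ, hN⟩ := h q U hU
  haveI : V.Normal := (Uq S q).normal V hV
  have hker := exists_le_ker_mk' (Uq S q) hV
  have hNV : (QuotientGroup.mk' V).ker = V := QuotientGroup.ker_mk' V
  obtain ⟨hfin, hle⟩ := finrank_H2_coind_le (k := ZMod p) (Uq S q) hV 1
    (hN (QuotientGroup.mk' V).ker hNV hker)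
  exact ⟨V, hV, hVU, hVμ, hfin, hle⟩

/-- **(P4b) from nonvanishing of the local functionals, (P4a) and the local base dimension.** -/
theorem localBase_of_baseAll (hpS : pPrime p ∈ S) (inv : InvFamily p S) (hinv : ∀ q, inv q ≠ 0)
    (hRS : ∀ q : ↥S, RightExactH2 (ZMod p) (Uq S q)) (h : LocalBaseDimAll p S) :
    LocalBase inv :=
  localBase_of_dim hpS inv hinv hRS (localDim_of_baseAll h)

end Instance

end Fermat.Agent.S55.R3Shapiro52
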