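/-
S55 / 51b-P3P4-LOCAL (helper85), file 4: REQUEST (B) of helper15 (#2575):
**the finite-level local system at the top IS the limit local invariant of the inflation.**

`L/ℚ` finite Galois, `E = Elev q L = ℚ_q·ι_q(L)`, `D = Gal(E/ℚ_q)`.  For a `2`-cocycle `g` of `D`
with values in `Eˣ`, helper93's `(locSys q L h).S ⊤ g` (= helper28's invariant of `ℚ_q` on the
inflation of `g` to `G_{E^D} = G_{ℚ_q}`, model `↥(fixK E ⊤).fixingSubgroup`) equals
`localInv15 q hP [z]` for ANY level cocycle `z` of the Prelude's group `primeLocalGaloisGroup q`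
with `z (σ, τ) = ι (g (σ|E, τ|E))`.  Both sides are `IsLocalInv.inv` of the same datum after the
identification `fixK E ⊤ = ⊥`; the witnesses of `IsLocalInv` are proof-irrelevant.
-/
import Fermat.Agent.S55.RecipLocal85Final
import Fermat.Agent.S55.UnrExt93.LocSysInst

set_option autoImplicit false
set_option linter.unusedSectionVars false
set_option linter.style.haveILetI false

open CategoryTheory groupCohomology ExtCitation
open Fermat.Agent.S55.Profin15
open Fermat.Agent.S55.LocInv28.Abstract Fermat.Agent.S55.LocInv28.Padic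
open Fermat.Agent.S55.LocInv28.Main Fermat.Agent.S55.LocField17
open Fermat.Agent.S55.UnrExt93 Fermat.Agent.S55.CycloRecip37.GSys
open Fermat.Agent.S55.Idele73.Basic Fermat.Agent.S55.Idele73.Local

namespace Fermat.Agent.S55.RecipLocal85

/-- local instance: the primes of `Nat.Primes` are prime (same term as in the Prelude) -/
local instance factPrimes85d (q : Nat.Primes) : Fact (q : ℕ).Prime := ⟨q.2⟩

section Abstract

variable {q : ℕ} [Fact q.Prime]

/-- the invariant only depends on the underlying cocycle (transport along an equality of fields;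
same statement as helper37's `WildInst.inv_H2π_eq_of_eq`, restated here to keep imports light). -/
theorem inv_H2π_eq_of_field_eq (I : InvFamily q) {K K' : LF q} [FiniteDimensional ℚ_[q] K]
    [FiniteDimensional ℚ_[q] K'] (h : K = K') (c : ↥((I.lev K).Z₂ (AK K)))
    (c' : ↥((I.lev K').Z₂ (AK K')))
    (hcc : ∀ (g a : LocField17.Gq q) (hg : g ∈ K.fixingSubgroup) (ha : a ∈ K.fixingSubgroup)
      (hg' : g ∈ K'.fixingSubgroup) (ha' : a ∈ K'.fixingSubgroup),
      valΩ K ((c : GK K × GK K → AK K) (⟨g, hg⟩, ⟨a, ha⟩)) =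
        valΩ K' ((c' : GK K' × GK K' → AK K') (⟨g, hg'⟩, ⟨a, ha'⟩))) :
    (I.isInv K).inv ((I.lev K).H2π (AK K) c) = (I.isInv K').inv ((I.lev K').H2π (AK K') c') := by
  subst h
  have hc : c = c' := by
    apply Subtype.ext
    funext x
    obtain ⟨g, a⟩ := x
    exact valΩ_injective K (hcc g.1 a.1 g.2 a.2 g.2 a.2)
  rw [hc]

end Abstract

variable (q : Nat.Primes) (L : IntermediateField ℚ Qbar) [Normal ℚ L] [FiniteDimensional ℚ L]

/-- **REQUEST (B)**: `(locSys q L h).S ⊤ g = localInv15 q hP [z]` whenever the level cocycle `z` of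
`primeLocalGaloisGroup q` is the inflation of `g`. -/
theorem locSys_top_eq_localInv15 (h : KummerBr95.LocalPres q) (hP : PresCochain (K0 q))
    (g : DE (q : ℕ) L × DE (q : ℕ) L → EUnits (q : ℕ) L)
    (hg : IsCocOn (EUnits (q : ℕ) L) ⊤ g)
    (z : ↥((pullLevels (primeLocalToGlobal q)).Z₂ (RecipGlobal20.Om q)))
    (hz : ∀ x : primeLocalGaloisGroup q × primeLocalGaloisGroup q,
      (z : primeLocalGaloisGroup q × primeLocalGaloisGroup q → RecipGlobal20.Om q) x =
        eLin (q : ℕ) L (g (Idele73.Local.resE (q : ℕ) L x.1, Idele73.Local.resE (q : ℕ) L x.2))) :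
    (UnrExt93.locSys q L h).S ⊤ g =
      localInv15 q hP ((pullLevels (primeLocalToGlobal q)).H2π (RecipGlobal20.Om q) z) := by
  rw [UnrExt93.locSys_S_of_isCocOn q L h hg]
  unfold inflClass
  rw [localInv15, inv15_apply, transport_H2π]
  refine (inv_H2π_eq_of_field_eq (invFamilyOfPres q h)
    (UnrExt93.fixK_top (E := Elev (q : ℕ) L)) _
    (transportZ₂ (botEquiv q) (pullLevels (primeLocalToGlobal q)) (levelsK (K0 q)) (hlev q)
      (RecipGlobal20.Om q) z) ?_).trans rfl
  intro σ τ hσ hτ hσ' hτ'
  show valΩ _ (inclE (Elev (q : ℕ) L) _ (g (UnrExt93.resE (Elev (q : ℕ) L) σ,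
    UnrExt93.resE (Elev (q : ℕ) L) τ))) = _
  rw [valΩ_inclE]
  have := hz (σ, τ)
  exact (congrArg (fun w : Additive (PadicAlgCl (q : ℕ))ˣ =>
    ((Additive.toMul w : (PadicAlgCl (q : ℕ))ˣ) : PadicAlgCl (q : ℕ))) this).symm

/-- the same with the unconditional `omInv q` (`RecipLocal85Final`) on the right-hand side; `h` is
ANY proof of `KummerBr95.LocalPres q` (`KummerBr95.localPres q`, `P2Local71.localPres q`,
`LocDev51.Pres.localPres q`: the value of `locSys` does not depend on it). -/
theorem locSys_top_eq_omInv (h : KummerBr95.LocalPres q)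
    (g : DE (q : ℕ) L × DE (q : ℕ) L → EUnits (q : ℕ) L)
    (hg : IsCocOn (EUnits (q : ℕ) L) ⊤ g)
    (z : ↥((pullLevels (primeLocalToGlobal q)).Z₂ (RecipGlobal20.Om q)))
    (hz : ∀ x : primeLocalGaloisGroup q × primeLocalGaloisGroup q,
      (z : primeLocalGaloisGroup q × primeLocalGaloisGroup q → RecipGlobal20.Om q) x =
        eLin (q : ℕ) L (g (Idele73.Local.resE (q : ℕ) L x.1, Idele73.Local.resE (q : ℕ) L x.2))) :
    (UnrExt93.locSys q L h).S ⊤ g =
      omInv q ((pullLevels (primeLocalToGlobal q)).H2π (RecipGlobal20.Om q) z) :=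
  locSys_top_eq_localInv15 q L h (presCochain0 q) g hg z hz

/-- `locSys` does not depend on the proof of `LocalPres`. -/
theorem locSys_congr (h h' : KummerBr95.LocalPres q) :
    UnrExt93.locSys q L h = UnrExt93.locSys q L h' := rfl

end Fermat.Agent.S55.RecipLocal85
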