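/-
S55 / P3P4 (Contract34.Reciprocity), ROUTE F (helper20; owner-decision-2 of helper15, #2179):
reduction of the plug to reciprocity on the FINITE layers.

* abstract part (any groups `f : H →* G`, level structures, `k`-linear `φ : A → B` equivariant
  along `f`): `quotHom`, `layerMap`, `layerHom`, **`locLayer₂ : H²(G ⧸ U, A^U) → H²(H ⧸ V, B^V)`**
  (`= groupCohomology.map`), `trans₂_locLayer₂` (compatible with the transition maps),
  **`infl₂_locLayer₂`** (localise-then-inflate = inflate-then-localise, in `Profin15` level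
  cohomology / `LevelColim49` inflation);
* application (`G = G_ℚ`, `A = E_S`, `H = G_q`, `B = Ω q`): `locL`, `locE_infl₂`, `trans₂_locL`,
  `invL`, **`hrec_of_finiteLevel`**, **`reciprocityL_of_finiteLevel`**;
* standard data (`Ω q = (ℚ̄_q)ˣ`, `T = ℚ/ℤ = QZ33.QZ`, local invariants as `LimDesc99.InvSystem`s):
  **`reciprocityL_of_invSystem`**, **`reciprocity_of_invSystem`** (the literal slot P3P4), whose only
  global input `(FR)` is a statement about Mathlib's `groupCohomology.H2` of the FINITE groups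
  `G_ℚ ⧸ U`.
-/
import Fermat.Agent.S55.RecipGlobal20
import Fermat.Agent.S55.LevelColim49.MapForm
import Fermat.Agent.S55.LimDesc99.Level
import Fermat.Agent.S55.QZ33

set_option autoImplicit false
set_option linter.style.haveILetI false
set_option linter.unusedSectionVars false

universe u

open CategoryTheory groupCohomology
open Fermat.Agent.S55.Profin15 Fermat.Agent.S55.Profin15.LevelStr
open Fermat.Agent.S55.LevelColim49 Fermat.Agent.S55.LevelScalars13

noncomputable section

namespace Fermat.Agent.S55.RecipLevel20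

section Abstract

variable {G H : Type u} [Group G] [Group H] (f : H →* G)
variable {k : Type u} [CommRing k] (A : Rep.{u, u, u} k G) (B : Rep.{u, u, u} k H)
variable (φ : A →ₗ[k] B) (hφ : ∀ (h : H) (a : A), φ (A.ρ (f h) a) = B.ρ h (φ a))
variable {U : Subgroup G} [U.Normal] {V : Subgroup H} [V.Normal] (hVU : V ≤ U.comap f)

/-- the homomorphism of finite quotients `H ⧸ V → G ⧸ U` -/
def quotHom : H ⧸ V →* G ⧸ U := QuotientGroup.map V U f hVU

@[simp] lemma quotHom_mk (h : H) : quotHom f hVU (h : H ⧸ V) = (f h : G ⧸ U) := rfl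

include hφ hVU in
lemma layerMap_aux (x : layer A U) (s : V) : B.ρ (s : H) (φ (incl A U x)) = φ (incl A U x) := by
  rw [← hφ, incl_fixed A U x (f s) (hVU s.2)]

/-- the map on finite layers `A^U → B^V` -/
def layerMap : layer A U →ₗ[k] layer B V where
  toFun x := ⟨φ (incl A U x), fun s => layerMap_aux f A B φ hφ hVU x s⟩
  map_add' x y := by
    apply Subtype.ext
    show φ (incl A U (x + y)) = φ (incl A U x) + φ (incl A U y)
    rw [map_add, map_add]
  map_smul' c x := by
    apply Subtype.ext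
    show φ (incl A U (c • x)) = c • φ (incl A U x)
    rw [map_smul, map_smul]

@[simp] lemma incl_layerMap (x : layer A U) :
    incl B V (layerMap f A B φ hφ hVU x) = φ (incl A U x) := rfl

/-- `layerMap` as a morphism of representations of `H ⧸ V` -/
def layerHom : Rep.res (quotHom f hVU) (layer A U) ⟶ layer B V :=
  Rep.ofHom ⟨layerMap f A B φ hφ hVU, fun x => by
    obtain ⟨h, rfl⟩ := QuotientGroup.mk_surjective x
    apply LinearMap.ext
    intro a
    apply Subtype.ext
    exact hφ h (incl A U a)⟩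

/-- **finite-level localisation** `H²(G ⧸ U, A^U) → H²(H ⧸ V, B^V)` -/
def locLayer₂ : H2 (layer A U) →ₗ[k] H2 (layer B V) :=
  (groupCohomology.map (quotHom f hVU) (layerHom f A B φ hφ hVU) 2).hom

theorem locLayer₂_eq_map :
    locLayer₂ f A B φ hφ hVU = (groupCohomology.map (quotHom f hVU) (layerHom f A B φ hφ hVU) 2).hom :=
  rfl

theorem locLayer₂_H2π (c : cocycles₂ (layer A U)) :
    locLayer₂ f A B φ hφ hVU ((H2π (layer A U)).hom c) =
      (H2π (layer B V)).hom ((mapCocycles₂ (quotHom f hVU) (layerHom f A B φ hφ hVU)).hom c) := by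
  rw [locLayer₂, H2π_comp_map_apply]

/-- the value of the localised cocycle -/
theorem mapCocycles₂_layerHom_apply (c : cocycles₂ (layer A U)) (x y : H ⧸ V) :
    ((mapCocycles₂ (quotHom f hVU) (layerHom f A B φ hφ hVU)).hom c : _ → layer B V) (x, y) =
      layerMap f A B φ hφ hVU ((c : _ → layer A U) (quotHom f hVU x, quotHom f hVU y)) := rfl

/-- finite-level localisation commutes with the transition maps -/
theorem trans₂_locLayer₂ {U' : Subgroup G} [U'.Normal] {V' : Subgroup H} [V'.Normal]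
    (hV'U' : V' ≤ U'.comap f) (hU'U : U' ≤ U) (hV'V : V' ≤ V) (y : H2 (layer A U)) :
    trans₂ B hV'V (locLayer₂ f A B φ hφ hVU y) =
      locLayer₂ f A B φ hφ hV'U' (trans₂ A hU'U y) := by
  induction y using H2_induction_on with | @h c =>
  rw [locLayer₂_H2π, trans₂_H2π, trans₂_H2π, locLayer₂_H2π]
  congr 1
  apply Subtype.ext
  funext ⟨x, y⟩
  obtain ⟨h, rfl⟩ := QuotientGroup.mk_surjective x
  obtain ⟨h', rfl⟩ := QuotientGroup.mk_surjective y
  rfl

variable (𝒰 : LevelStr G) (𝒱 : LevelStr H) (hf : IsContinuous 𝒱 𝒰 f)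

include hφ in
lemma isAddEquivariant_of_lin :
    IsAddEquivariant (A := Rep.res f A) (B := B) φ.toAddMonoidHom := hφ

/-- **localise-then-inflate = inflate-then-localise.** -/
theorem infl₂_locLayer₂ (hU : U ∈ 𝒰.levels) (hV : V ∈ 𝒱.levels) (y : H2 (layer A U)) :
    infl₂ B 𝒱 hV (locLayer₂ f A B φ hφ hVU y) =
      addH2map 𝒱 (A := Rep.res f A) (B := B) φ.toAddMonoidHom
        (isAddEquivariant_of_lin f A B φ hφ) (hf.res₂ A (infl₂ A 𝒰 hU y)) := by
  induction y using H2_induction_on with | @h c =>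
  rw [locLayer₂, H2π_comp_map_apply, infl₂_H2π, infl₂_H2π]
  rfl

end Abstract

/-- an additive map between `ℤ`-modules (ANY module instances) is `ℤ`-linear -/
def intLin {M N : Type*} [AddCommGroup M] [AddCommGroup N] [Module ℤ M] [Module ℤ N]
    (φ : M →+ N) : M →ₗ[ℤ] N where
  toFun := φ
  map_add' := map_add φ
  map_smul' n x := by
    have := map_intCast_smul φ ℤ ℤ n x
    simpa using this

@[simp] lemma intLin_apply {M N : Type*} [AddCommGroup M] [AddCommGroup N] [Module ℤ M]
    [Module ℤ N] (φ : M →+ N) (x : M) : intLin φ x = φ x := rfl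

/-- `intLin` between representations over `ℤ`, with the module structures of the
representations -/
def repLin {G H : Type} [Group G] [Group H] {A : Rep.{0} ℤ G} {B : Rep.{0} ℤ H} (φ : A →+ B) :
    @LinearMap ℤ ℤ _ _ (RingHom.id ℤ) A B _ _ A.hV2 B.hV2 := @intLin A B _ _ A.hV2 B.hV2 φ

@[simp] lemma repLin_apply {G H : Type} [Group G] [Group H] {A : Rep.{0} ℤ G} {B : Rep.{0} ℤ H}
    (φ : A →+ B) (x : A) : repLin φ x = φ x := rfl

section Application

open Fermat.Agent.S55.ESDiv20 Fermat.Agent.S55.ESRep20 Fermat.Agent.S55.ESKummer20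
open Fermat.Agent.S55.RecipGlobal20 Fermat.Agent.S55.Contract34 Fermat.Agent.S55.Profin15.Plug
open ExtCitation

variable {p : ℕ} [Fact p.Prime] {S : Finset Nat.Primes}
variable {T : Type} [AddCommGroup T]
variable (Ω : ∀ q : ↥S, Rep.{0} ℤ (primeLocalGaloisGroup q.1))
variable (emb : ∀ q : ↥S, ESRep S →+ Ω q)
variable (hemb : ∀ (q : ↥S) (τ : primeLocalGaloisGroup q.1) (e : ESRep S),
    emb q ((ESRep S).ρ (primeLocalToGlobal q.1 τ) e) = (Ω q).ρ τ (emb q e))

/-- the local level under a global `S`-level -/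
theorem comap_mem_pullLevels (q : Nat.Primes) {U : Subgroup GQ}
    (hU : U ∈ (globalLevels S).levels) :
    U.comap (primeLocalToGlobal q) ∈ (pullLevels (primeLocalToGlobal q)).levels := by
  obtain ⟨hn, F, hF, rfl⟩ := hU
  exact ⟨F.fixingSubgroup, ⟨hn, F, hF.1, rfl⟩, rfl⟩

/-- **finite-level localisation at `q`**:
`H²(G_ℚ ⧸ U, E_S^U) → H²(G_q ⧸ r_q⁻¹U, (Ω q)^{r_q⁻¹ U})`. -/
def locL (q : ↥S) (U : Subgroup GQ) [U.Normal] :
    H2 (layer (ESRep S) U) →+ H2 (layer (Ω q) (U.comap (primeLocalToGlobal q.1))) :=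
  (locLayer₂ (primeLocalToGlobal q.1) (ESRep S) (Ω q) (repLin (emb q)) (hemb q)
    (le_refl _)).toAddMonoidHom

theorem locL_eq_map (q : ↥S) (U : Subgroup GQ) [U.Normal] (y : H2 (layer (ESRep S) U)) :
    locL Ω emb hemb q U y =
      (groupCohomology.map (quotHom (primeLocalToGlobal q.1) (le_refl (U.comap _)))
        (layerHom (primeLocalToGlobal q.1) (ESRep S) (Ω q) (repLin (emb q)) (hemb q)
          (le_refl _)) 2).hom y := rfl

/-- finite-level localisation commutes with the transition maps -/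
theorem trans₂_locL (q : ↥S) {U V : Subgroup GQ} [U.Normal] [V.Normal] (hVU : V ≤ U)
    (y : H2 (layer (ESRep S) U)) :
    trans₂ (Ω q) (Subgroup.comap_mono hVU) (locL Ω emb hemb q U y) =
      locL Ω emb hemb q V (trans₂ (ESRep S) hVU y) :=
  trans₂_locLayer₂ (primeLocalToGlobal q.1) (ESRep S) (Ω q) (repLin (emb q)) (hemb q)
    (le_refl _) (le_refl _) hVU (Subgroup.comap_mono hVU) y

/-- localisation commutes with inflation from the finite layers -/
theorem locE_infl₂ (q : ↥S) {U : Subgroup GQ} [U.Normal] (hU : U ∈ (globalLevels S).levels)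
    (y : H2 (layer (ESRep S) U)) :
    locE Ω emb hemb q (infl₂ (ESRep S) (globalLevels S) hU y) =
      infl₂ (Ω q) (pullLevels (primeLocalToGlobal q.1)) (comap_mem_pullLevels q.1 hU)
        (locL Ω emb hemb q U y) := by
  rw [locL, LinearMap.toAddMonoidHom_coe,
    infl₂_locLayer₂ (primeLocalToGlobal q.1) (ESRep S) (Ω q) (repLin (emb q)) (hemb q) (le_refl _)
      (globalLevels S) (pullLevels (primeLocalToGlobal q.1))
      (isContinuous_pullLevels S (primeLocalToGlobal q.1)) hU (comap_mem_pullLevels q.1 hU) y]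
  rfl

variable (inv : ∀ q : ↥S, (pullLevels (primeLocalToGlobal q.1)).H2 (Ω q) →+ T)

/-- the finite-level local invariant induced by `inv q` on the layer under a global level -/
def invL (q : ↥S) {U : Subgroup GQ} [U.Normal] (hU : U ∈ (globalLevels S).levels) :
    H2 (layer (Ω q) (U.comap (primeLocalToGlobal q.1))) →+ T :=
  (inv q).comp (infl₂ (Ω q) (pullLevels (primeLocalToGlobal q.1))
    (comap_mem_pullLevels q.1 hU)).toAddMonoidHom

theorem invL_apply (q : ↥S) {U : Subgroup GQ} [U.Normal] (hU : U ∈ (globalLevels S).levels)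
    (y : H2 (layer (Ω q) (U.comap (primeLocalToGlobal q.1)))) :
    invL Ω inv q hU y = inv q (infl₂ (Ω q) (pullLevels (primeLocalToGlobal q.1))
      (comap_mem_pullLevels q.1 hU) y) := rfl

/-- **`hrec` from reciprocity on the finite layers.**  `(FR)`: every `p`-torsion class of a
finite layer `H²(G_ℚ ⧸ U, E_S^U)` satisfies the sum formula after transition to some deeper
level. -/
theorem hrec_of_finiteLevel
    (FR : ∀ (U : Subgroup GQ) [U.Normal] (_ : U ∈ (globalLevels S).levels)
      (y : H2 (layer (ESRep S) U)), p • y = 0 →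
      ∃ (V : Subgroup GQ) (_ : V.Normal) (hV : V ∈ (globalLevels S).levels) (hVU : V ≤ U),
        ∑ q : ↥S, invL Ω inv q hV (locL Ω emb hemb q V (trans₂ (ESRep S) hVU y)) = 0)
    (z : (globalLevels S).H2 (ESRep S)) (hz : p • z = 0) :
    ∑ q : ↥S, inv q (locE Ω emb hemb q z) = 0 := by
  obtain ⟨U₀, hU₀⟩ := (globalLevels S).nonempty
  obtain ⟨W, hWn, hW, -, y, rfl⟩ := exists_infl₂_eq (globalLevels S) (ESRep_isSmooth S) z hU₀
  have h0 : infl₂ (ESRep S) (globalLevels S) hW (p • y) = 0 := by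
    rw [map_nsmul]; exact hz
  obtain ⟨V, hVn, hV, hVW, hy⟩ :=
    (infl₂_eq_zero_iff (globalLevels S) (ESRep_isSmooth S) hW (p • y)).1 h0
  rw [map_nsmul] at hy
  obtain ⟨V', hV'n, hV', hV'V, hsum⟩ := FR V hV (trans₂ (ESRep S) hVW y) hy
  rw [← hsum]
  refine Finset.sum_congr rfl fun q _ => ?_
  rw [invL_apply, ← locE_infl₂ Ω emb hemb q hV', infl₂_trans₂ (ESRep S) (globalLevels S) hV hV',
    infl₂_trans₂ (ESRep S) (globalLevels S) hW hV]

variable (hpS : pPrime p ∈ S) (ζ : Qbˣ) (hζ : ζ ^ p = 1)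
variable (jT : ZMod p →+ T) (hjT : Function.Injective jT)
  (hT : ∀ t : T, p • t = 0 → t ∈ Set.range jT)

include hjT hT in
/-- **ROUTE F: P3P4 from reciprocity on the finite layers.**  No idele class module in the limit,
no limit invariant `invC`, no capitulation: the only global input is `(FR)`. -/
theorem reciprocityL_of_finiteLevel
    (hloc : ∀ q : ↥S, ∃ y, inv q (kum hpS ζ hζ Ω emb hemb q y) ≠ 0)
    (FR : ∀ (U : Subgroup GQ) [U.Normal] (_ : U ∈ (globalLevels S).levels)
      (y : H2 (layer (ESRep S) U)), p • y = 0 →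
      ∃ (V : Subgroup GQ) (_ : V.Normal) (hV : V ∈ (globalLevels S).levels) (hVU : V ≤ U),
        ∑ q : ↥S, invL Ω inv q hV (locL Ω emb hemb q V (trans₂ (ESRep S) hVU y)) = 0) :
    ReciprocityL p S :=
  reciprocityL_of_top hpS ζ hζ Ω emb hemb inv jT hjT hT hloc
    (hrec_of_finiteLevel Ω emb hemb inv FR)

end Application

/-! ### the standard local data, `T = ℚ/ℤ`, local invariants given as `LimDesc99.InvSystem`s -/

section Standard

open Fermat.Agent.S55.ESDiv20 Fermat.Agent.S55.ESRep20 Fermat.Agent.S55.ESKummer20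
open Fermat.Agent.S55.RecipGlobal20 Fermat.Agent.S55.Contract34 Fermat.Agent.S55.Profin15.Plug
open Fermat.Agent.S55.LimDesc99 Fermat.Agent.S55.QZ33
open ExtCitation

variable {p : ℕ} [Fact p.Prime] {S : Finset Nat.Primes}

/-- `Ω q = (ℚ̄_q)ˣ` for `q ∈ S` -/
abbrev OmS (q : ↥S) : Rep.{0} ℤ (primeLocalGaloisGroup q.1) := Om q.1

/-- `E_S → (ℚ̄_q)ˣ` along the Prelude's `padicEmbedding q` -/
def embS (q : ↥S) : ESRep S →+ OmS q := embUnits q.1 (ES S) ES_galStable

theorem hembS (q : ↥S) (τ : primeLocalGaloisGroup q.1) (e : ESRep S) :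
    embS q ((ESRep S).ρ (primeLocalToGlobal q.1 τ) e) = (OmS q).ρ τ (embS q e) :=
  embUnits_equivariant q.1 (ES S) ES_galStable τ e

variable (hpS : pPrime p ∈ S) (ζ : Qbˣ) (hζ : ζ ^ p = 1)

/-- the local Kummer map `μ_p → (ℚ̄_q)ˣ`, `a ↦ ι_q(ζ)^a` -/
def jq (q : ↥S) : Rep.res (primeLocalToGlobal q.1) (mu p) →+ OmS q :=
  (embRes OmS embS q).comp (resAdd (primeLocalToGlobal q.1) (jmu (S := S) hpS ζ hζ))

theorem isAddEquivariant_jq (q : ↥S) :
    IsAddEquivariant (A := Rep.res (primeLocalToGlobal q.1) (mu p)) (B := OmS q)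
      (jq hpS ζ hζ q) :=
  ((isAddEquivariant_jmu hpS ζ hζ).res (primeLocalToGlobal q.1)).comp
    (isAddEquivariant_embRes OmS embS hembS q)

/-- the local Kummer map on level `H²` -/
def kumS (q : ↥S) :
    (pullLevels (primeLocalToGlobal q.1)).H2 (Rep.res (primeLocalToGlobal q.1) (mu p)) →+
      (pullLevels (primeLocalToGlobal q.1)).H2 (OmS q) :=
  addH2map (pullLevels (primeLocalToGlobal q.1)) (jq hpS ζ hζ q) (isAddEquivariant_jq hpS ζ hζ q)

theorem kumS_eq (q : ↥S) : kumS hpS ζ hζ q = kum hpS ζ hζ OmS embS hembS q := rfl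

/-- smoothness of `(ℚ̄_q)ˣ` for the pulled-back levels, as a hypothesis bundle (Krasner) -/
def OmSmooth (S : Finset Nat.Primes) : Prop :=
  ∀ q : ↥S, (pullLevels (primeLocalToGlobal q.1)).IsSmooth (OmS q)

variable (hΩ : OmSmooth S)
variable (I : ∀ q : ↥S, InvSystem (pullLevels (primeLocalToGlobal q.1)) (OmS q) QZ)

/-- the level under `U` at `q`, as an index of the local `InvSystem` -/
def levq (q : ↥S) {U : Subgroup GQ} (hU : U ∈ (globalLevels S).levels) :
    Lev (pullLevels (primeLocalToGlobal q.1)) :=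
  ⟨U.comap (primeLocalToGlobal q.1), comap_mem_pullLevels q.1 hU⟩

/-- **ROUTE F, final form.**  `Profin15.Plug.ReciprocityL p S` from local invariant systems
`I q` (finite-layer invariants compatible with inflation), `hne` (some Kummer class has non-zero
invariant) and `(FR)`: the sum formula on the `p`-torsion of every finite layer
`H²(G_ℚ ⧸ U, E_S^U)` (after transition to a deeper level). -/
theorem reciprocityL_of_invSystem
    (hne : ∀ q : ↥S, ∃ y, (I q).lim (hΩ q) (kumS hpS ζ hζ q y) ≠ 0)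
    (FR : ∀ (U : Subgroup GQ) [U.Normal] (_ : U ∈ (globalLevels S).levels)
      (y : H2 (layer (ESRep S) U)), p • y = 0 →
      ∃ (V : Subgroup GQ) (_ : V.Normal) (hV : V ∈ (globalLevels S).levels) (hVU : V ≤ U),
        ∑ q : ↥S, (I q).inv (levq q hV)
          (locL OmS embS hembS q V (trans₂ (ESRep S) hVU y)) = 0) :
    ReciprocityL p S := by
  have hp0 : p ≠ 0 := (Fact.out : p.Prime).ne_zero
  refine reciprocityL_of_finiteLevel OmS embS hembS (fun q => (I q).lim (hΩ q)) hpS ζ hζ
    (QZ.jT p) (QZ.jT_injective hp0) (fun t ht => QZ.mem_range_jT hp0 ht) hne ?_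
  intro U _ hU y hy
  obtain ⟨V, hVn, hV, hVU, h⟩ := FR U hU y hy
  refine ⟨V, hVn, hV, hVU, ?_⟩
  rw [← h]
  refine Finset.sum_congr rfl fun q _ => ?_
  rw [invL_apply]
  exact (I q).lim_infl₂ (hΩ q) (levq q hV) _

/-- the same in the literal `Contract34` form (slot P3P4) -/
theorem reciprocity_of_invSystem
    (hne : ∀ q : ↥S, ∃ y, (I q).lim (hΩ q) (kumS hpS ζ hζ q y) ≠ 0)
    (FR : ∀ (U : Subgroup GQ) [U.Normal] (_ : U ∈ (globalLevels S).levels)
      (y : H2 (layer (ESRep S) U)), p • y = 0 →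
      ∃ (V : Subgroup GQ) (_ : V.Normal) (hV : V ∈ (globalLevels S).levels) (hVU : V ≤ U),
        ∑ q : ↥S, (I q).inv (levq q hV)
          (locL OmS embS hembS q V (trans₂ (ESRep S) hVU y)) = 0) :
    Reciprocity p S :=
  (reciprocity_iff p S).2 (reciprocityL_of_invSystem hpS ζ hζ hΩ I hne FR)

end Standard

end Fermat.Agent.S55.RecipLevel20
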