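/-
S55 / **P7' = `Contract34.HilbertCount p S`, UNCONDITIONAL** (`p` odd, `p ∈ S`) (helper20): helper84's
`TwConj84.hilbertCount_of_reciprocity` (P7' from (A34) reciprocity alone) applied to
`RecipFinal20.reciprocity`.  Also a joint-import test of the two closures.
-/
import Fermat.Agent.S55.RecipFinal20
import Fermat.Agent.S55.TwConj84.ShaKummerFinal

set_option autoImplicit false

open ExtCitation

namespace Fermat.Agent.S55.RecipFinal20

variable {p : ℕ} [Fact p.Prime] {S : Finset Nat.Primes}

/-- **(P7') `Contract34.HilbertCount p S`, UNCONDITIONAL** (`p` odd, `p ∈ S`). -/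
theorem hilbertCount (hp2 : p ≠ 2) (hpS : pPrime p ∈ S) : Contract34.HilbertCount p S :=
  TwConj84.hilbertCount_of_reciprocity hp2 hpS (reciprocity hp2 hpS)

end Fermat.Agent.S55.RecipFinal20
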