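/-
S55 / 51b-P3P4-LOCAL (helper85): the LOCAL HALF of the reciprocity plug (P3+P4).

Consumers (helper70 `Recip70/Reduce.lean`, helper15/helper20 Route F, helper99/helper33 35-LIM)
want, for every prime `q`, an additive invariant map on the level-cohomological Brauer group of the
FULL local Galois group `primeLocalGaloisGroup q` with the levels pulled back from `G_ℚ`,

    `inv q : Recip70.Br q →+ QZ33.QZ`,        `hne q : ∃ z : Br q, p • z = 0 ∧ inv q z ≠ 0`.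

The producer (helper28, `LocInv28/Abstract.lean`) builds `IsLocalInv.inv` on `𝒱.H2 A` for ANY model
`(H, 𝒱, A)` of the local Galois group carrying an invariant datum.  This file is the TRANSPORT
between the two, written once and for all for an arbitrary model:

* `transport e 𝒰 𝒱 hlev M : 𝒰.H2 M ≃+ 𝒱.H2 (Rep.res e M)` for a group isomorphism `e : H ≃* G`
  and level structures with `LevelEquiv (𝒰.comap e) 𝒱` (formula on cocycles: `transport_H2π`);
* `transport63 … : CDArith63.H2 𝒰 M.ρ ≃+ 𝒱.H2 (Rep.res e M)` (helper70's vocabulary);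
* `inv15`, `inv63` : the transported invariants, their injectivity, the unramified formula
  `inv63_of_transport_eq_cls`, and the non-vanishing `exists_ne15`, `exists_ne63` on `p`-torsion;
* the concrete local shapes: `Om q`, `Om_ρ : (Om q).ρ = Recip70.omRep q` (`rfl`),
  `localInv`, `localInv_injective`, `local_hne` for any model of `G_{ℚ_q}`.
No arithmetic here: Mathlib + Profin15 + KummerBr95 + LocInv28.Abstract + Recip70.Reduce.
-/
import Fermat.Agent.S55.Recip70.Reduce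
import Fermat.Agent.S55.KummerBr95.Padic
import Fermat.Agent.S55.Profin15.Adapter63
import Fermat.Agent.S55.LocInv28.Abstract
import Fermat.Agent.S55.QZ33

set_option autoImplicit false
set_option linter.unusedSectionVars false

open CategoryTheory groupCohomology ExtCitation
open Fermat.Agent.S55.Profin15 Fermat.Agent.S55.CDArith63
open Fermat.Agent.S55.LocInv28.Abstract Fermat.Agent.S55.GlobalInv91

namespace Fermat.Agent.S55.RecipLocal85

/-! ## Abstract transport along a model of the group -/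

section Transport

variable {k : Type} [CommRing k] {G H : Type} [Group G] [Group H] (e : H ≃* G)
  (𝒰 : LevelStr G) (𝒱 : LevelStr H)
  (hlev : KummerBr95.LevelEquiv (𝒰.comap (e : H →* G)) 𝒱) (M : Rep.{0, 0, 0} k G)

/-- **transport of level `H²` along a model `e : H ≃* G` of the group** (Profin15 vocabulary). -/
noncomputable def transport : 𝒰.H2 M ≃+ 𝒱.H2 (Rep.res (e : H →* G) M) :=
  ((KummerBr95.resEquiv₂ 𝒰 e M).trans
    (hlev.H2Equiv (Rep.res (e : H →* G) M))).toAddEquiv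

/-- the transported cocycle: `c ∘ (e × e)`. -/
def transportZ₂ (c : ↥(𝒰.Z₂ M)) : ↥(𝒱.Z₂ (Rep.res (e : H →* G) M)) :=
  ⟨(𝒰.resZ₂ (e : H →* G) M c : H × H → Rep.res (e : H →* G) M),
    hlev.Z₂_eq (Rep.res (e : H →* G) M) ▸ (𝒰.resZ₂ (e : H →* G) M c).2⟩

@[simp] theorem coe_transportZ₂ (c : ↥(𝒰.Z₂ M)) (x : H × H) :
    (transportZ₂ e 𝒰 𝒱 hlev M c : H × H → Rep.res (e : H →* G) M) x =
      (c : G × G → M) (e x.1, e x.2) := rfl

theorem transport_H2π (c : ↥(𝒰.Z₂ M)) :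
    transport e 𝒰 𝒱 hlev M (𝒰.H2π M c) =
      𝒱.H2π (Rep.res (e : H →* G) M) (transportZ₂ e 𝒰 𝒱 hlev M c) := rfl

/-- the same in helper63/helper70's vocabulary `CDArith63.H2 𝒰 M.ρ`. -/
noncomputable def transport63 : CDArith63.H2 𝒰 M.ρ ≃+ 𝒱.H2 (Rep.res (e : H →* G) M) :=
  (Adapter63.equiv 𝒰 M).trans (transport e 𝒰 𝒱 hlev M)

theorem transport63_mk (c : ↥(Z2 𝒰 M.ρ)) :
    transport63 e 𝒰 𝒱 hlev M (H2mk 𝒰 M.ρ c) =
      𝒱.H2π (Rep.res (e : H →* G) M)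
        (transportZ₂ e 𝒰 𝒱 hlev M (Adapter63.toZ₂ 𝒰 M c)) := rfl

theorem transport63_eq (x : CDArith63.H2 𝒰 M.ρ) :
    transport63 e 𝒰 𝒱 hlev M x = transport e 𝒰 𝒱 hlev M (Adapter63.equiv 𝒰 M x) := rfl

end Transport

/-! ## The transported invariant -/

section Inv

variable {G H : Type} [Group G] [Group H] (e : H ≃* G) (𝒰 : LevelStr G) (𝒱 : LevelStr H)
  (hlev : KummerBr95.LevelEquiv (𝒰.comap (e : H →* G)) 𝒱) (M : Rep.{0, 0, 0} ℤ G)
  {D : InvDatum 𝒱 (Rep.res (e : H →* G) M)} (hD : IsLocalInv 𝒱 (Rep.res (e : H →* G) M) D)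

/-- the invariant on `𝒰.H2 M` (Profin15 vocabulary). -/
noncomputable def inv15 : 𝒰.H2 M →+ QZ33.QZ :=
  hD.inv.comp (transport e 𝒰 𝒱 hlev M).toAddMonoidHom

theorem inv15_apply (x : 𝒰.H2 M) :
    inv15 e 𝒰 𝒱 hlev M hD x = hD.inv (transport e 𝒰 𝒱 hlev M x) := rfl

theorem inv15_injective : Function.Injective (inv15 e 𝒰 𝒱 hlev M hD) := fun _ _ h =>
  (transport e 𝒰 𝒱 hlev M).injective (hD.inv_injective h)

/-- the unramified formula, transported: a class whose transport is `cls n a` has invariant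
`v a / n`. -/
theorem inv15_of_transport_eq_cls (x : 𝒰.H2 M) (n : ℕ+) (a : invts (Rep.res (e : H →* G) M))
    (hx : transport e 𝒰 𝒱 hlev M x = D.cls n a) :
    inv15 e 𝒰 𝒱 hlev M hD x = frac (D.v a) n := by
  rw [inv15_apply, hx, hD.inv_cls]

include hD in
/-- in the model: a `p`-torsion class of non-zero invariant, from an invariant element whose
valuation is prime to `p`. -/
theorem exists_ne_model (p : ℕ) (hp : 0 < p) (a : invts (Rep.res (e : H →* G) M))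
    (ha : ¬ ((p : ℤ) ∣ D.v a)) :
    ∃ y : 𝒱.H2 (Rep.res (e : H →* G) M), p • y = 0 ∧ hD.inv y ≠ 0 := by
  refine ⟨D.cls ⟨p, hp⟩ a, ?_, ?_⟩
  · rw [← map_nsmul, hD.ker]
    rw [map_nsmul, nsmul_eq_mul]
    exact ⟨D.v a, by simp⟩
  · rw [hD.inv_cls, Ne, frac_eq_zero_iff]
    exact ha

/-- **`hne`, Profin15 vocabulary.** -/
theorem exists_ne15 (p : ℕ) (hp : 0 < p) (a : invts (Rep.res (e : H →* G) M))
    (ha : ¬ ((p : ℤ) ∣ D.v a)) :
    ∃ z : 𝒰.H2 M, p • z = 0 ∧ inv15 e 𝒰 𝒱 hlev M hD z ≠ 0 := by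
  obtain ⟨y, hy0, hy⟩ := exists_ne_model e 𝒱 M hD p hp a ha
  refine ⟨(transport e 𝒰 𝒱 hlev M).symm y, ?_, ?_⟩
  · rw [← map_nsmul, hy0, map_zero]
  · rw [inv15_apply, AddEquiv.apply_symm_apply]
    exact hy

/-- **the unramified formula on `G`**: for a character `ψ` of `G` which on the model is the
`c`-th multiple of the Frobenius character `χ_n`, and `a ∈ M^G`:
`inv [δψ ∪ a] = c * v a / n`. -/
theorem inv15_carry (n : ℕ+) (ψ : G →* Multiplicative (ZMod n)) (c : ℕ)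
    (hψ : ∀ h : H, chiVal ψ (e h) = (c : ZMod n) * chiVal (D.chi n) h) (a : invts M)
    (hmem : carry M ψ (a : M) ∈ 𝒰.Z₂ M) :
    inv15 e 𝒰 𝒱 hlev M hD (𝒰.H2π M ⟨carry M ψ (a : M), hmem⟩) =
      frac ((c : ℤ) * D.v (resInvts (e : H →* G) a)) n := by
  rw [inv15_apply, transport_H2π]
  exact hD.inv_carry_of_char n (ψ.comp (e : H →* G)) c hψ (resInvts (e : H →* G) a)
    (transportZ₂ e 𝒰 𝒱 hlev M ⟨carry M ψ (a : M), hmem⟩).2

include hlev hD in
/-- the class `[δψ ∪ a]` vanishes iff `n ∣ c * v a`. -/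
theorem H2π_carry_eq_zero_iff (n : ℕ+) (ψ : G →* Multiplicative (ZMod n)) (c : ℕ)
    (hψ : ∀ h : H, chiVal ψ (e h) = (c : ZMod n) * chiVal (D.chi n) h) (a : invts M)
    (hmem : carry M ψ (a : M) ∈ 𝒰.Z₂ M) :
    𝒰.H2π M ⟨carry M ψ (a : M), hmem⟩ = 0 ↔
      ((n : ℕ) : ℤ) ∣ (c : ℤ) * D.v (resInvts (e : H →* G) a) := by
  rw [← frac_eq_zero_iff, ← inv15_carry e 𝒰 𝒱 hlev M hD n ψ c hψ a hmem]
  constructor
  · intro h; rw [h, map_zero]
  · intro h
    exact inv15_injective e 𝒰 𝒱 hlev M hD (by rw [h, map_zero])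

end Inv

/-! ## The same for a bare representation (helper70's vocabulary) -/

section Inv63

variable {G H : Type} [Group G] [Group H] (e : H ≃* G) (𝒰 : LevelStr G) (𝒱 : LevelStr H)
  (hlev : KummerBr95.LevelEquiv (𝒰.comap (e : H →* G)) 𝒱)
  {A : Type} [AddCommGroup A] (ρ : Representation ℤ G A)
  {D : InvDatum 𝒱 (Rep.res (e : H →* G) (Rep.of ρ))}
  (hD : IsLocalInv 𝒱 (Rep.res (e : H →* G) (Rep.of ρ)) D)

/-- the invariant on `CDArith63.H2 𝒰 ρ` (helper70's vocabulary). -/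
noncomputable def inv63 : CDArith63.H2 𝒰 ρ →+ QZ33.QZ :=
  hD.inv.comp (transport63 e 𝒰 𝒱 hlev (Rep.of ρ)).toAddMonoidHom

theorem inv63_apply (x : CDArith63.H2 𝒰 ρ) :
    inv63 e 𝒰 𝒱 hlev ρ hD x = hD.inv (transport63 e 𝒰 𝒱 hlev (Rep.of ρ) x) := rfl

/-- the two vocabularies carry THE SAME invariant. -/
theorem inv63_eq_inv15 (x : CDArith63.H2 𝒰 ρ) :
    inv63 e 𝒰 𝒱 hlev ρ hD x =
      inv15 e 𝒰 𝒱 hlev (Rep.of ρ) hD (Adapter63.equiv 𝒰 (Rep.of ρ) x) := rfl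

theorem inv63_injective : Function.Injective (inv63 e 𝒰 𝒱 hlev ρ hD) := fun _ _ h =>
  (transport63 e 𝒰 𝒱 hlev (Rep.of ρ)).injective (hD.inv_injective h)

theorem inv63_of_transport_eq_cls (x : CDArith63.H2 𝒰 ρ) (n : ℕ+)
    (a : invts (Rep.res (e : H →* G) (Rep.of ρ)))
    (hx : transport63 e 𝒰 𝒱 hlev (Rep.of ρ) x = D.cls n a) :
    inv63 e 𝒰 𝒱 hlev ρ hD x = frac (D.v a) n := by
  rw [inv63_apply, hx, hD.inv_cls]

/-- **`hne`, helper70's vocabulary.** -/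
theorem exists_ne63 (p : ℕ) (hp : 0 < p) (a : invts (Rep.res (e : H →* G) (Rep.of ρ)))
    (ha : ¬ ((p : ℤ) ∣ D.v a)) :
    ∃ z : CDArith63.H2 𝒰 ρ, p • z = 0 ∧ inv63 e 𝒰 𝒱 hlev ρ hD z ≠ 0 := by
  obtain ⟨y, hy0, hy⟩ := exists_ne_model e 𝒱 (Rep.of ρ) hD p hp a ha
  refine ⟨(transport63 e 𝒰 𝒱 hlev (Rep.of ρ)).symm y, ?_, ?_⟩
  · rw [← map_nsmul, hy0, map_zero]
  · rw [inv63_apply, AddEquiv.apply_symm_apply]
    exact hy

/-- **the unramified formula on `G`**, helper70's vocabulary. -/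
theorem inv63_carry (n : ℕ+) (ψ : G →* Multiplicative (ZMod n)) (c : ℕ)
    (hψ : ∀ h : H, chiVal ψ (e h) = (c : ZMod n) * chiVal (D.chi n) h) (a : invts (Rep.of ρ))
    (hmem : carry (Rep.of ρ) ψ (a : Rep.of ρ) ∈ Z2 𝒰 ρ) :
    inv63 e 𝒰 𝒱 hlev ρ hD (H2mk 𝒰 ρ ⟨carry (Rep.of ρ) ψ (a : Rep.of ρ), hmem⟩) =
      frac ((c : ℤ) * D.v (resInvts (e : H →* G) a)) n :=
  inv15_carry e 𝒰 𝒱 hlev (Rep.of ρ) hD n ψ c hψ a
    ((Adapter63.mem_Z2_iff_mem_Z₂ 𝒰 (Rep.of ρ) _).1 hmem)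

end Inv63

end Fermat.Agent.S55.RecipLocal85
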