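/-
S55 / P3P4 ROUTE F (helper20): THE SEAM between `RecipLevel20.reciprocity_of_invSystem` (finite-level
`(FR)` on `H²(G_ℚ ⧸ U, E_S^U)`) and 35-GEN (β→) `GlobalInv91.reciprocity_trans` (layer vocabulary,
`E = Q_Sˣ ⟶ J`).

* `invJq`, `invJS` : the `S`-part of the finite-level idele invariant on `H²(G_ℚ ⧸ V, J^V)`, for ANY
  `G_ℚ`-module `J` with evaluations `ev q : J →+ (ℚ̄_q)ˣ` equivariant along `primeLocalToGlobal q`:
  `∑_{q ∈ S} (I q).inv (r_q⁻¹ V) ∘ locLayer₂ (ev q)` (restrict to `G_q ⧸ r_q⁻¹V`, evaluate, finite-layer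
  local invariant);
* `locLayer₂_ev_push`, `pushQ₂_d_eq_zero` : on the image of an `S`-unit class the `q`-term is
  `RecipLevel20.locL`, and the divisor part vanishes on the nose;
* **`FR_of_reciprocity_trans`, `FR_of_invJ`** : `(FR)` from the conclusion of `reciprocity_trans`;
* **`reciprocity_of_reciprocity_trans`** : `Contract34.Reciprocity p S` end to end;
* the instance `J = J_S × I^S` on main: `JSd`, `ISd`, `Jfull`, `iFull`, `dFull`, `evFull`,
  `evFull_ρ`, `evFull_iFull`, `divLim_inclES` (the divisor of an `S`-unit vanishes: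
  `norm_padicEmbedding_eq_one`), **`reciprocity_of_reciprocity_trans_full`**.
-/
import Fermat.Agent.S55.RecipLevel20
import Fermat.Agent.S55.GlobalInv91.GenTrans
import Fermat.Agent.S55.Recip15.Ev
import Fermat.Agent.S55.CS79.DivLimit
import Fermat.Agent.S55.IdeleVal44.Class
import Fermat.Agent.S55.UnrBridge42.NormModel

set_option autoImplicit false
set_option linter.style.haveILetI false
set_option linter.unusedSectionVars false

open CategoryTheory groupCohomology ExtCitation
open Fermat.Agent.S55.Profin15 Fermat.Agent.S55.Profin15.LevelStr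
open Fermat.Agent.S55.LevelColim49 Fermat.Agent.S55.LevelScalars13
open Fermat.Agent.S55.ESDiv20 Fermat.Agent.S55.ESRep20 Fermat.Agent.S55.ESKummer20
open Fermat.Agent.S55.RecipGlobal20 Fermat.Agent.S55.RecipLevel20
open Fermat.Agent.S55.LimDesc99 Fermat.Agent.S55.QZ33

noncomputable section

namespace Fermat.Agent.S55.RecipSeam20

section Aux
universe u
variable {k G : Type u} [CommRing k] [Group G] {A B : Rep.{u, u, u} k G}

theorem pushQ₂_H2π (f : A ⟶ B) (Z : Subgroup G) [Z.Normal]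
    (c : cocycles₂ (A.quotientToInvariants Z)) :
    (GlobalInv91.pushQ₂ f Z).hom ((H2π (A.quotientToInvariants Z)).hom c) =
      (H2π (B.quotientToInvariants Z)).hom ((mapCocycles₂ (MonoidHom.id (G ⧸ Z))
        ((Rep.quotientToInvariantsFunctor k Z).map f)).hom c) :=
  H2π_comp_map_apply _ _ c

theorem gtrans₂_H2π (A : Rep.{u, u, u} k G) {U V : Subgroup G} [U.Normal] [V.Normal]
    (hVU : V ≤ U) (c : cocycles₂ (A.quotientToInvariants U)) :
    (GlobalInv91.trans₂ A hVU).hom ((H2π (A.quotientToInvariants U)).hom c) =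
      (H2π (A.quotientToInvariants V)).hom ((mapCocycles₂ (GlobalInv91.projQ hVU)
        (GlobalInv91.inclQ A hVU)).hom c) :=
  H2π_comp_map_apply _ _ c

end Aux

variable {p : ℕ} [Fact p.Prime] {S : Finset Nat.Primes}

/-- the inclusion `E_S ⟶ Q_Sˣ` -/
def inclES (S : Finset Nat.Primes) : ESRep S ⟶ QSxRep S :=
  incl (hH := ES_galStable) (hH' := QSx_galStable) ES_le_QSx

variable {J : Rep.{0} ℤ GQ} (i : QSxRep S ⟶ J)
variable (ev : ∀ q : ↥S, J →+ OmS q)
variable (hev : ∀ (q : ↥S) (τ : primeLocalGaloisGroup q.1) (x : J),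
  ev q (J.ρ (primeLocalToGlobal q.1 τ) x) = (OmS q).ρ τ (ev q x))
variable (I : ∀ q : ↥S, InvSystem (pullLevels (primeLocalToGlobal q.1)) (OmS q) QZ)

/-- the `q`-term of the finite-level idele invariant: localise at `q` (restrict to
`G_q ⧸ r_q⁻¹ V`, evaluate with `ev q`), then the finite-layer local invariant. -/
def invJq (q : ↥S) {V : Subgroup GQ} [V.Normal] (hV : V ∈ (globalLevels S).levels) :
    H2 (J.quotientToInvariants V) →+ QZ :=
  ((I q).inv (levq q hV)).comp
    (locLayer₂ (primeLocalToGlobal q.1) J (OmS q) (repLin (ev q)) (hev q)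
      (le_refl (V.comap _))).toAddMonoidHom

/-- the `S`-part of the finite-level idele invariant -/
def invJS {V : Subgroup GQ} [V.Normal] (hV : V ∈ (globalLevels S).levels) :
    H2 (J.quotientToInvariants V) →+ QZ :=
  ∑ q : ↥S, invJq ev hev I q hV

variable (hevi : ∀ (q : ↥S) (x : QSxRep S),
  ev q (i.hom x) = embUnits q.1 (QSx S) QSx_galStable x)

include hevi in
/-- on the image of an `S`-unit class, the `q`-localisation of the idele class is the
finite-level localisation `locL` of `RecipLevel20`. -/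
theorem locLayer₂_ev_push (q : ↥S) {U V : Subgroup GQ} [U.Normal] [V.Normal] (hVU : V ≤ U)
    (y : H2 (layer (ESRep S) U)) :
    locLayer₂ (primeLocalToGlobal q.1) J (OmS q) (repLin (ev q)) (hev q) (le_refl (V.comap _))
      ((GlobalInv91.pushQ₂ i V).hom ((GlobalInv91.trans₂ (QSxRep S) hVU).hom
        ((GlobalInv91.pushQ₂ (inclES S) U).hom y))) =
      locL OmS embS hembS q V (LevelColim49.trans₂ (ESRep S) hVU y) := by
  induction y using H2_induction_on with | @h c =>
  rw [pushQ₂_H2π, gtrans₂_H2π, pushQ₂_H2π, trans₂_H2π, locL_eq_map, H2π_comp_map_apply]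
  refine (locLayer₂_H2π _ _ _ _ _ _ _).trans ?_
  congr 1
  apply Subtype.ext
  funext ⟨x, y⟩
  obtain ⟨h, rfl⟩ := QuotientGroup.mk_surjective x
  obtain ⟨h', rfl⟩ := QuotientGroup.mk_surjective y
  apply Subtype.ext
  exact hevi q _

omit [Fact p.Prime] in
/-- a coefficient map killing the `S`-units kills the image of every `S`-unit class (the
"ideal part" of an `S`-unit-valued class vanishes on the nose). -/
theorem pushQ₂_d_eq_zero {I' : Rep.{0} ℤ GQ} (d : J ⟶ I')
    (hd : ∀ e : ESRep S, d.hom (i.hom ((inclES S).hom e)) = 0)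
    {U V : Subgroup GQ} [U.Normal] [V.Normal] (hVU : V ≤ U) (y : H2 (layer (ESRep S) U)) :
    (GlobalInv91.pushQ₂ d V).hom ((GlobalInv91.pushQ₂ i V).hom
      ((GlobalInv91.trans₂ (QSxRep S) hVU).hom ((GlobalInv91.pushQ₂ (inclES S) U).hom y))) = 0 := by
  induction y using H2_induction_on with | @h c =>
  rw [pushQ₂_H2π, gtrans₂_H2π, pushQ₂_H2π, pushQ₂_H2π]
  have h0 : (mapCocycles₂ (MonoidHom.id (GQ ⧸ V)) ((Rep.quotientToInvariantsFunctor ℤ V).map d)).hom
      ((mapCocycles₂ (MonoidHom.id (GQ ⧸ V)) ((Rep.quotientToInvariantsFunctor ℤ V).map i)).hom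
        ((mapCocycles₂ (GlobalInv91.projQ hVU) (GlobalInv91.inclQ (QSxRep S) hVU)).hom
          ((mapCocycles₂ (MonoidHom.id (GQ ⧸ U))
            ((Rep.quotientToInvariantsFunctor ℤ U).map (inclES S))).hom c))) = 0 := by
    apply Subtype.ext
    funext ⟨x, y⟩
    apply Subtype.ext
    exact hd _
  exact (congrArg (fun z => (H2π (I'.quotientToInvariants V)).hom z) h0).trans (map_zero _)

include hevi in
/-- **THE SEAM: `(FR)` of `RecipLevel20.reciprocity_of_invSystem` from 35-GEN (β→) in the layer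
vocabulary of `GlobalInv91.reciprocity_trans`.**  `J` any `G_ℚ`-module receiving `Q_Sˣ` (the
`S`-ideles, or `J_S × I^S`), `ev q` the evaluation of the `q`-component, `d : J ⟶ I'` any
coefficient map killing the `S`-units (the divisor map to `I^S`; take `I' = 0` if `J = J_S`),
`invI` ANY additive functionals on the layers of `I'`.  `hrec` is the conclusion of
`reciprocity_trans` for `E = QSxRep S`, `invJ = invJS + invI ∘ d_*`. -/
theorem FR_of_reciprocity_trans {I' : Rep.{0} ℤ GQ} (d : J ⟶ I')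
    (hd : ∀ e : ESRep S, d.hom (i.hom ((inclES S).hom e)) = 0)
    (invI : ∀ (V : Subgroup GQ) [V.Normal], V ∈ (globalLevels S).levels →
      (H2 (I'.quotientToInvariants V) →+ QZ))
    (hrec : ∀ (U : Subgroup GQ) [U.Normal] (_ : U ∈ (globalLevels S).levels)
      (e : H2 ((QSxRep S).quotientToInvariants U)), p • e = 0 →
      ∃ (V : Subgroup GQ) (_ : V.Normal) (hV : V ∈ (globalLevels S).levels) (hVU : V ≤ U),
        invJS ev hev I hV
            ((GlobalInv91.pushQ₂ i V).hom ((GlobalInv91.trans₂ (QSxRep S) hVU).hom e)) +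
          invI V hV ((GlobalInv91.pushQ₂ d V).hom ((GlobalInv91.pushQ₂ i V).hom
            ((GlobalInv91.trans₂ (QSxRep S) hVU).hom e))) = 0) :
    ∀ (U : Subgroup GQ) [U.Normal] (_ : U ∈ (globalLevels S).levels)
      (y : H2 (layer (ESRep S) U)), p • y = 0 →
      ∃ (V : Subgroup GQ) (_ : V.Normal) (hV : V ∈ (globalLevels S).levels) (hVU : V ≤ U),
        ∑ q : ↥S, (I q).inv (levq q hV)
          (locL OmS embS hembS q V (LevelColim49.trans₂ (ESRep S) hVU y)) = 0 := by
  intro U _ hU y hy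
  have he : p • (GlobalInv91.pushQ₂ (inclES S) U).hom y = 0 := by
    rw [← map_nsmul, hy, map_zero]
  obtain ⟨V, hVn, hV, hVU, h⟩ := hrec U hU _ he
  refine ⟨V, hVn, hV, hVU, ?_⟩
  rw [pushQ₂_d_eq_zero i d hd hVU y, map_zero, add_zero] at h
  rw [← h, invJS, AddMonoidHom.finsetSum_apply]
  refine Finset.sum_congr rfl fun q _ => ?_
  rw [← locLayer₂_ev_push i ev hev hevi q hVU y]
  rfl

include hevi in
/-- the same with a free finite-level idele invariant `invJ` that decomposes as
`invJS + invI ∘ d_*` -/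
theorem FR_of_invJ {I' : Rep.{0} ℤ GQ} (d : J ⟶ I')
    (hd : ∀ e : ESRep S, d.hom (i.hom ((inclES S).hom e)) = 0)
    (invI : ∀ (V : Subgroup GQ) [V.Normal], V ∈ (globalLevels S).levels →
      (H2 (I'.quotientToInvariants V) →+ QZ))
    (invJ : ∀ (V : Subgroup GQ) [V.Normal], V ∈ (globalLevels S).levels →
      (H2 (J.quotientToInvariants V) →+ QZ))
    (hinvJ : ∀ (V : Subgroup GQ) [V.Normal] (hV : V ∈ (globalLevels S).levels)
      (x : H2 (J.quotientToInvariants V)),
      invJ V hV x = invJS ev hev I hV x + invI V hV ((GlobalInv91.pushQ₂ d V).hom x))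
    (hrec : ∀ (U : Subgroup GQ) [U.Normal] (_ : U ∈ (globalLevels S).levels)
      (e : H2 ((QSxRep S).quotientToInvariants U)), p • e = 0 →
      ∃ (V : Subgroup GQ) (_ : V.Normal) (hV : V ∈ (globalLevels S).levels) (hVU : V ≤ U),
        invJ V hV
          ((GlobalInv91.pushQ₂ i V).hom ((GlobalInv91.trans₂ (QSxRep S) hVU).hom e)) = 0) :
    ∀ (U : Subgroup GQ) [U.Normal] (_ : U ∈ (globalLevels S).levels)
      (y : H2 (layer (ESRep S) U)), p • y = 0 →
      ∃ (V : Subgroup GQ) (_ : V.Normal) (hV : V ∈ (globalLevels S).levels) (hVU : V ≤ U),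
        ∑ q : ↥S, (I q).inv (levq q hV)
          (locL OmS embS hembS q V (LevelColim49.trans₂ (ESRep S) hVU y)) = 0 := by
  refine FR_of_reciprocity_trans i ev hev I hevi d hd invI ?_
  intro U _ hU e he
  obtain ⟨V, hVn, hV, hVU, h⟩ := hrec U hU e he
  exact ⟨V, hVn, hV, hVU, by rw [← hinvJ V hV]; exact h⟩

variable (hpS : pPrime p ∈ S) (ζ : Qbˣ) (hζ : ζ ^ p = 1) (hΩ : OmSmooth S)

include hevi in
/-- **P3P4 (Route F), end to end**: `Contract34.Reciprocity p S` from the local invariant systems,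
`hne`, and the conclusion of 35-GEN (β→) `GlobalInv91.reciprocity_trans` over `K = ℚ` for
`E = Q_Sˣ ⟶ J`. -/
theorem reciprocity_of_reciprocity_trans
    (hne : ∀ q : ↥S, ∃ y, (I q).lim (hΩ q) (kumS hpS ζ hζ q y) ≠ 0)
    {I' : Rep.{0} ℤ GQ} (d : J ⟶ I')
    (hd : ∀ e : ESRep S, d.hom (i.hom ((inclES S).hom e)) = 0)
    (invI : ∀ (V : Subgroup GQ) [V.Normal], V ∈ (globalLevels S).levels →
      (H2 (I'.quotientToInvariants V) →+ QZ))
    (invJ : ∀ (V : Subgroup GQ) [V.Normal], V ∈ (globalLevels S).levels →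
      (H2 (J.quotientToInvariants V) →+ QZ))
    (hinvJ : ∀ (V : Subgroup GQ) [V.Normal] (hV : V ∈ (globalLevels S).levels)
      (x : H2 (J.quotientToInvariants V)),
      invJ V hV x = invJS ev hev I hV x + invI V hV ((GlobalInv91.pushQ₂ d V).hom x))
    (hrec : ∀ (U : Subgroup GQ) [U.Normal] (_ : U ∈ (globalLevels S).levels)
      (e : H2 ((QSxRep S).quotientToInvariants U)), p • e = 0 →
      ∃ (V : Subgroup GQ) (_ : V.Normal) (hV : V ∈ (globalLevels S).levels) (hVU : V ≤ U),
        invJ V hV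
          ((GlobalInv91.pushQ₂ i V).hom ((GlobalInv91.trans₂ (QSxRep S) hVU).hom e)) = 0) :
    Fermat.Agent.S55.Contract34.Reciprocity p S :=
  reciprocity_of_invSystem hpS ζ hζ hΩ I hne
    (FR_of_invJ i ev hev I hevi d hd invI invJ hinvJ hrec)


section SUnitNorm

open Fermat.Agent.S55.UnrBridge42 Fermat.Agent.Lib.InertiaGenerate
open scoped Pointwise

variable {S : Finset Nat.Primes}

/-- an `S`-unit has `ℓ`-adic norm one at every conjugate, for `ℓ ∉ S` -/
theorem norm_padicEmbedding_eq_one {u : Qb} (hu : IsSUnitAt S u) (ℓ : ℕ) [Fact ℓ.Prime]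
    (hℓ : (⟨ℓ, Fact.out⟩ : Nat.Primes) ∉ S) (g : GQ) : ‖padicEmbedding ℓ (g u)‖ = 1 := by
  have hA : ((g⁻¹ : GQ) • padicPlace ℓ).LiesOverPrime ℓ :=
    liesOverPrime_smul (liesOverPrime_padicPlace ℓ) _
  obtain ⟨h1, h2⟩ := hu.2 ⟨ℓ, Fact.out⟩ hℓ _ hA
  rw [mem_smul_padicPlace_iff, inv_inv] at h1 h2
  rw [map_inv₀, map_inv₀, norm_inv] at h2
  have h0 : ‖padicEmbedding ℓ (g u)‖ ≠ 0 := by
    rw [norm_ne_zero_iff, map_ne_zero, map_ne_zero]
    exact hu.1
  have h3 : 1 ≤ ‖padicEmbedding ℓ (g u)‖ := by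
    by_contra hlt
    rw [not_le] at hlt
    have : 1 < ‖padicEmbedding ℓ (g u)‖⁻¹ := (one_lt_inv₀ (lt_of_le_of_ne (norm_nonneg _) (Ne.symm h0))).2 hlt
    exact absurd h2 (not_le.2 this)
  exact le_antisymm h1 h3

end SUnitNorm

section ProdAux

open Fermat.Agent.S55.IdeleVal44

variable {G : Type} [Group G] (A B : Rep.{0, 0, 0} ℤ G)

/-- first projection of `prodRep`, additive -/
def p1Add : prodRep A B →+ A where
  toFun := prodRep.p1 A B
  map_zero' := rfl
  map_add' _ _ := rfl

@[simp] theorem p1Add_apply (x : prodRep A B) : p1Add A B x = prodRep.p1 A B x := rfl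

end ProdAux

/-! ### the instance `J = J_S × I^S` (helper94's `JSp`, helper79's `ISlim`, helper15's `evq`) -/

section Instance

open Fermat.Agent.S55.GlobalMod94.JS Fermat.Agent.S55.CS79.DivLimit
open Fermat.Agent.S55.IdeleVal44 Fermat.Agent.S55.Recip15.Ev
open Fermat.Agent.S55.CS79.Smooth Fermat.Agent.S55.CS79.Limit

variable (S : Finset Nat.Primes)

/-- helper94's `J_S`, sealed in a `def` (instance synthesis on the carrier of the `abbrev`
`JSp S` unfolds the product and times out) -/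
def JSd : Rep.{0} ℤ GQ := JSp S

/-- helper79's `I^S`, sealed -/
def ISd : Rep.{0} ℤ GQ := ISlim S

/-- the diagonal `Q_Sˣ ⟶ J_S` -/
def diagJd : QSxRep S ⟶ JSd S := diagJ S

/-- the divisor map `Q_Sˣ ⟶ I^S` -/
def divLimd : QSxRep S ⟶ ISd S := divLim S

/-- helper15's evaluation `ev_q : J_S → (ℚ̄_q)ˣ` -/
def evqd (q : ↥S) : JSd S →+ OmS q := evq S q

theorem evqd_ρ (q : ↥S) (τ : primeLocalGaloisGroup q.1) (x : JSd S) :
    evqd S q ((JSd S).ρ (primeLocalToGlobal q.1 τ) x) = (OmS q).ρ τ (evqd S q x) :=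
  evq_ρ S q τ x

theorem evqd_diagJd (q : ↥S) (x : QSxRep S) :
    evqd S q ((diagJd S).hom x) = embUnits q.1 (QSx S) QSx_galStable x := rfl

/-- the idele module of the D2 model in the limit, `J_S × I^S` -/
def Jfull : Rep.{0} ℤ GQ := prodRep (JSd S) (ISd S)

/-- `Q_Sˣ ⟶ J_S × I^S`, `u ↦ (diag u, div u)` -/
def iFull : QSxRep S ⟶ Jfull S := prodRep.lift (diagJd S) (divLimd S)

/-- the divisor component -/
def dFull : Jfull S ⟶ ISd S := prodRep.snd (JSd S) (ISd S)

/-- evaluation at `1` of the `q`-component of the `J_S`-part -/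
def evFull (q : ↥S) : Jfull S →+ OmS q := (evqd S q).comp (p1Add (JSd S) (ISd S))

theorem evFull_ρ (q : ↥S) (τ : primeLocalGaloisGroup q.1) (x : Jfull S) :
    evFull S q ((Jfull S).ρ (primeLocalToGlobal q.1 τ) x) = (OmS q).ρ τ (evFull S q x) :=
  evqd_ρ S q τ _

theorem evFull_iFull (q : ↥S) (x : QSxRep S) :
    evFull S q ((iFull S).hom x) = embUnits q.1 (QSx S) QSx_galStable x := rfl

/-- the divisor of an `S`-unit vanishes -/
theorem divLim_inclES (e : ESRep S) :
    (divLim S).hom ((incl (hH := ES_galStable) (hH' := QSx_galStable) ES_le_QSx).hom e) = 0 := by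
  refine DFinsupp.ext fun ℓ => ?_
  apply Subtype.ext
  apply Subtype.ext
  funext g
  have h := divLim_apply S ((incl (hH := ES_galStable) (hH' := QSx_galStable) ES_le_QSx).hom e) ℓ g
  refine h.trans ?_
  have hu : IsSUnitAt S (((Additive.toMul (show Additive ↥(ES S) from e) : ↥(ES S)) : Qbˣ) : Qb) :=
    (Additive.toMul (show Additive ↥(ES S) from e) : ↥(ES S)).2.2
  have h1 := norm_padicEmbedding_eq_one hu (ℓ.1 : ℕ) (primesOut_notMem S ℓ) g
  rw [CS79.DivLimit.divAt, valAt, valAdd_apply]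
  have h2 : ‖((Additive.toMul (Additive.ofMul (locU (ℓ.1 : ℕ) g
      (toUnit S ((incl (hH := ES_galStable) (hH' := QSx_galStable) ES_le_QSx).hom e)))) :
        (PadicAlgCl (ℓ.1 : ℕ))ˣ) : PadicAlgCl (ℓ.1 : ℕ))‖ = 1 := h1
  rw [h2, Real.log_one, neg_zero, zero_div, Int.floor_zero]
  rfl

theorem dFull_iFull_inclES (e : ESRep S) :
    (dFull S).hom ((iFull S).hom
      ((incl (hH := ES_galStable) (hH' := QSx_galStable) ES_le_QSx).hom e)) = 0 :=
  divLim_inclES S e

end Instance


/-! ### Route F at the instance `J = J_S × I^S` -/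

section Final

open Fermat.Agent.S55.LimDesc99 Fermat.Agent.S55.QZ33

variable {p : ℕ} [Fact p.Prime] {S : Finset Nat.Primes}

/-- **P3P4 (Route F) at `J = J_S × I^S`.**  Everything on the global side is now on main except the
finite-level idele invariants `invJ` (with their decomposition `hinvJ` into the `S`-part `invJS`
and an arbitrary divisor part `invI`) and `hrec` = the conclusion of
`GlobalInv91.reciprocity_trans` for `E = QSxRep S`, `i = iFull S`, over `K = ℚ`. -/
theorem reciprocity_of_reciprocity_trans_full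
    (hpS : pPrime p ∈ S) (ζ : Qbˣ) (hζ : ζ ^ p = 1) (hΩ : OmSmooth S)
    (I : ∀ q : ↥S, InvSystem (pullLevels (primeLocalToGlobal q.1)) (OmS q) QZ)
    (hne : ∀ q : ↥S, ∃ y, (I q).lim (hΩ q) (kumS hpS ζ hζ q y) ≠ 0)
    (invI : ∀ (V : Subgroup GQ) [V.Normal], V ∈ (globalLevels S).levels →
      (H2 ((ISd S).quotientToInvariants V) →+ QZ))
    (invJ : ∀ (V : Subgroup GQ) [V.Normal], V ∈ (globalLevels S).levels →
      (H2 ((Jfull S).quotientToInvariants V) →+ QZ))
    (hinvJ : ∀ (V : Subgroup GQ) [V.Normal] (hV : V ∈ (globalLevels S).levels)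
      (x : H2 ((Jfull S).quotientToInvariants V)),
      invJ V hV x = invJS (evFull S) (evFull_ρ S) I hV x +
        invI V hV ((GlobalInv91.pushQ₂ (dFull S) V).hom x))
    (hrec : ∀ (U : Subgroup GQ) [U.Normal] (_ : U ∈ (globalLevels S).levels)
      (e : H2 ((QSxRep S).quotientToInvariants U)), p • e = 0 →
      ∃ (V : Subgroup GQ) (_ : V.Normal) (hV : V ∈ (globalLevels S).levels) (hVU : V ≤ U),
        invJ V hV ((GlobalInv91.pushQ₂ (iFull S) V).hom
          ((GlobalInv91.trans₂ (QSxRep S) hVU).hom e)) = 0) :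
    Fermat.Agent.S55.Contract34.Reciprocity p S :=
  reciprocity_of_reciprocity_trans (iFull S) (evFull S) (evFull_ρ S) I (evFull_iFull S)
    hpS ζ hζ hΩ hne (dFull S) (dFull_iFull_inclES S) invI invJ hinvJ hrec

end Final

end Fermat.Agent.S55.RecipSeam20
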