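/-
S55 / P3P4 ROUTE F (helper20): `Contract34.Reciprocity p S` from helper91's `GlobalInv91.TowerLayerHyp`
(35-GEN assembled per crossing, `InstLev.lean`) at `G = G_ℚ`, `X = (Q_Sˣ → J_S × I^S → C)`:
compile-checked proof that the seam `RecipSeam20` consumes `TowerLayerHyp.beta_to` LITERALLY.
-/
import Fermat.Agent.S55.RecipSeam20
import Fermat.Agent.S55.GlobalInv91.InstLev

set_option autoImplicit false
set_option linter.style.haveILetI false
set_option linter.unusedSectionVars false

open CategoryTheory groupCohomology ExtCitation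
open Fermat.Agent.S55.Profin15 Fermat.Agent.S55.Profin15.LevelStr
open Fermat.Agent.S55.ESDiv20 Fermat.Agent.S55.ESRep20
open Fermat.Agent.S55.RecipGlobal20 Fermat.Agent.S55.RecipLevel20 Fermat.Agent.S55.RecipSeam20
open Fermat.Agent.S55.LimDesc99 Fermat.Agent.S55.QZ33

noncomputable section

namespace Fermat.Agent.S55.RecipTower20

variable {p : ℕ} [Fact p.Prime] {S : Finset Nat.Primes}

/-- **P3P4 (Route F) from helper91's `GlobalInv91.TowerLayerHyp`.**  `g : J_S × I^S ⟶ C` any map
with `iFull S ≫ g = 0` (the class module); for every `S`-level `U` and every `p`-torsion class `e`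
of `H²(G_ℚ ⧸ U, (Q_Sˣ)^U)` a deeper level `V` with a tower character `χ` satisfying
`TowerLayerHyp` for the idele invariant `invJ V`, such that the idele class of `e` is split by
the tower layer (`hsplit`). -/
theorem reciprocity_of_towerLayers
    (hpS : pPrime p ∈ S) (ζ : Qbˣ) (hζ : ζ ^ p = 1) (hΩ : OmSmooth S)
    (I : ∀ q : ↥S, InvSystem (pullLevels (primeLocalToGlobal q.1)) (OmS q) QZ)
    (hne : ∀ q : ↥S, ∃ y, (I q).lim (hΩ q) (kumS hpS ζ hζ q y) ≠ 0)
    {C : Rep.{0, 0, 0} ℤ GQ} (g : Jfull S ⟶ C) (hzero : iFull S ≫ g = 0)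
    (invI : ∀ (V : Subgroup GQ) [V.Normal], V ∈ (globalLevels S).levels →
      (H2 ((ISd S).quotientToInvariants V) →+ QZ))
    (invJ : ∀ (V : Subgroup GQ) [V.Normal], V ∈ (globalLevels S).levels →
      (H2 ((Jfull S).quotientToInvariants V) →+ QZ))
    (hinvJ : ∀ (V : Subgroup GQ) [V.Normal] (hV : V ∈ (globalLevels S).levels)
      (x : H2 ((Jfull S).quotientToInvariants V)),
      invJ V hV x = invJS (evFull S) (evFull_ρ S) I hV x +
        invI V hV ((GlobalInv91.pushQ₂ (dFull S) V).hom x))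
    (hT : ∀ (U : Subgroup GQ) [U.Normal] (_ : U ∈ (globalLevels S).levels)
      (e : H2 ((QSxRep S).quotientToInvariants U)), p • e = 0 →
      ∃ (V : Subgroup GQ) (_ : V.Normal) (hV : V ∈ (globalLevels S).levels) (hVU : V ≤ U)
        (m : ℕ) (χ : GQ ⧸ V →* Multiplicative (ZMod (p ^ m))),
        GlobalInv91.TowerLayerHyp (ShortComplex.mk (iFull S) g hzero) p V m χ (invJ V hV) ∧
        (GlobalInv91.res₂ ((Jfull S).quotientToInvariants V) χ.ker).hom
          ((GlobalInv91.pushQ₂ (iFull S) V).hom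
            ((GlobalInv91.trans₂ (QSxRep S) hVU).hom e)) = 0) :
    Fermat.Agent.S55.Contract34.Reciprocity p S := by
  refine reciprocity_of_reciprocity_trans_full hpS ζ hζ hΩ I hne invI invJ hinvJ ?_
  intro U _ hU e he
  obtain ⟨V, hVn, hV, hVU, m, χ, hTL, hsplit⟩ := hT U hU e he
  refine ⟨V, hVn, hV, hVU, ?_⟩
  have he1 : p ^ 1 • e = 0 := by rw [pow_one]; exact he
  exact hTL.beta_to hVU e he1 hsplit

end Fermat.Agent.S55.RecipTower20
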