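/-
S55 / 32c-B-RELDICT (helper24): umbrella module, imports the whole relative prime dictionary
(`RelDict24/Embed` (R1), `RelDict24/Orbit` (R2), `RelDict24/Place` (R3), `RelDict24/PlaceExtra`).
All declarations live in the namespace `Fermat.Agent.S55.RelDict24`.
-/
import Fermat.Agent.S55.RelDict24.Embed
import Fermat.Agent.S55.RelDict24.Orbit
import Fermat.Agent.S55.RelDict24.Place
import Fermat.Agent.S55.RelDict24.PlaceExtra
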