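import Mathlib
import Fermat.Agent.S55.SUnit19.SUnitRank

/-!
# Place counts for a Galois extension of prime degree (S55, leaf 16-SUNIT (R3))

For `L/K` Galois of prime degree `p` (number fields):
* `card_infinitePlace_of_odd`: if `[L:K]` is odd then `#∞_L = [L:K] * #∞_K`;
* `primesAbove L S`: the finite set of primes of `L` above a finite set `S` of primes of `K`;
  `card_primesAbove : #S_L = p * (#S - t) + t`, `t = #nonsplit`;
* `rank_identity`: the numerical hypothesis of `ChevalleyHerbrand75.cyclicPair_card_mul`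
  for the `S`-units: `p * rk U_{K,S} + (p-1) = rk U_{L,S_L} + (p-1) * t` (`p` odd).
-/

set_option autoImplicit false

open NumberField IsDedekindDomain

namespace Fermat.Agent.S55.SUnitCounts75

open Fermat.Agent.S55.SUnit19.SUnitRank

variable (K L : Type*) [Field K] [NumberField K] [Field L] [NumberField L] [Algebra K L]

theorem card_infinitePlace_of_odd [IsGalois K L] (hodd : Odd (Module.finrank K L)) :
    Fintype.card (InfinitePlace L) = Module.finrank K L * Fintype.card (InfinitePlace K) := by
  have := IsUnramifiedAtInfinitePlaces_of_odd_finrank (k := K) (K := L) hodd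
  rw [IsUnramifiedAtInfinitePlaces.card_infinitePlace K L, mul_comm]

variable {K}

/-- The primes of `L` above a prime `v` of `K`. -/
def fiber (v : HeightOneSpectrum (𝓞 K)) : Set (HeightOneSpectrum (𝓞 L)) :=
  {w | w.under (𝓞 K) = v}

omit [NumberField K] [NumberField L] in
theorem image_asIdeal_fiber (v : HeightOneSpectrum (𝓞 K)) :
    HeightOneSpectrum.asIdeal '' fiber L v = v.asIdeal.primesOver (𝓞 L) := by
  ext P
  constructor
  · rintro ⟨w, hw, rfl⟩
    refine ⟨w.isPrime, ⟨?_⟩⟩
    have : (w.under (𝓞 K)).asIdeal = v.asIdeal := by rw [hw]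
    exact this.symm
  · rintro ⟨hP, hover⟩
    have hne : P ≠ ⊥ := Ideal.ne_bot_of_mem_primesOver v.ne_bot ⟨hP, hover⟩
    refine ⟨⟨P, hP, hne⟩, ?_, rfl⟩
    apply HeightOneSpectrum.ext
    exact hover.over.symm

theorem fiber_finite (v : HeightOneSpectrum (𝓞 K)) : (fiber L v).Finite := by
  have h : (HeightOneSpectrum.asIdeal '' fiber L v).Finite := by
    rw [image_asIdeal_fiber]
    exact IsDedekindDomain.primesOver_finite v.asIdeal (𝓞 L)
  exact h.of_finite_image (fun a _ b _ hab => HeightOneSpectrum.ext hab)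

omit [NumberField K] [NumberField L] in
theorem ncard_fiber (v : HeightOneSpectrum (𝓞 K)) :
    (fiber L v).ncard = (v.asIdeal.primesOver (𝓞 L)).ncard := by
  rw [← image_asIdeal_fiber, Set.ncard_image_of_injective _ (fun a b hab => HeightOneSpectrum.ext hab)]

open Classical in
/-- The finite set of primes of `L` above a finite set `S` of primes of `K`. -/
noncomputable def primesAbove (S : Finset (HeightOneSpectrum (𝓞 K))) :
    Finset (HeightOneSpectrum (𝓞 L)) :=
  S.biUnion fun v => (fiber_finite L v).toFinset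

theorem mem_primesAbove (S : Finset (HeightOneSpectrum (𝓞 K))) (w : HeightOneSpectrum (𝓞 L)) :
    w ∈ primesAbove L S ↔ w.under (𝓞 K) ∈ S := by
  classical
  unfold primesAbove
  rw [Finset.mem_biUnion]
  constructor
  · rintro ⟨v, hv, hw⟩
    rw [Set.Finite.mem_toFinset] at hw
    have : w.under (𝓞 K) = v := hw
    rwa [this]
  · intro h
    exact ⟨w.under (𝓞 K), h, by rw [Set.Finite.mem_toFinset]; rfl⟩

open Classical in
/-- The primes of `S` with exactly one prime of `L` above them. -/
noncomputable def nonsplit (S : Finset (HeightOneSpectrum (𝓞 K))) :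
    Finset (HeightOneSpectrum (𝓞 K)) :=
  S.filter fun v => (v.asIdeal.primesOver (𝓞 L)).ncard = 1

theorem ncard_primesOver_eq [IsGalois K L] {p : ℕ} (hp : p.Prime) (hdeg : Module.finrank K L = p)
    (v : HeightOneSpectrum (𝓞 K)) :
    (v.asIdeal.primesOver (𝓞 L)).ncard = 1 ∨ (v.asIdeal.primesOver (𝓞 L)).ncard = p := by
  have h := Ideal.ncard_primesOver_mul_ramificationIdxIn_mul_inertiaDegIn v.asIdeal (𝓞 L) Gal(L/K)
  rw [IsGalois.card_aut_eq_finrank, hdeg] at h
  exact (Nat.dvd_prime hp).mp (Dvd.intro _ h)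

theorem card_primesAbove [IsGalois K L] {p : ℕ} (hp : p.Prime) (hdeg : Module.finrank K L = p)
    (S : Finset (HeightOneSpectrum (𝓞 K))) :
    (primesAbove L S).card = p * (S.card - (nonsplit L S).card) + (nonsplit L S).card := by
  classical
  unfold primesAbove
  rw [Finset.card_biUnion]
  · have h1 : ∀ v ∈ S, ((fiber_finite L v).toFinset).card =
        if (v.asIdeal.primesOver (𝓞 L)).ncard = 1 then 1 else p := by
      intro v _
      rw [← Set.ncard_eq_toFinset_card _ (fiber_finite L v), ncard_fiber]
      split_ifs with h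
      · exact h
      · exact (ncard_primesOver_eq L hp hdeg v).resolve_left h
    rw [Finset.sum_congr rfl h1, Finset.sum_ite, Finset.sum_const, Finset.sum_const, smul_eq_mul,
      smul_eq_mul, mul_one]
    have h2 : (S.filter fun v => ¬ (v.asIdeal.primesOver (𝓞 L)).ncard = 1).card =
        S.card - (nonsplit L S).card := by
      unfold nonsplit
      rw [← Finset.card_filter_add_card_filter_not (s := S)
        (fun v => (v.asIdeal.primesOver (𝓞 L)).ncard = 1), Nat.add_sub_cancel_left]
    rw [h2]
    unfold nonsplit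
    ring
  · intro v _ v' _ hvv'
    rw [Function.onFun, Finset.disjoint_left]
    intro w hw hw'
    rw [Set.Finite.mem_toFinset] at hw hw'
    exact hvv' ((show w.under (𝓞 K) = v from hw).symm.trans hw')

theorem rank_arith (p a r t n c : ℕ) (hp1 : 1 ≤ p) (ht : t ≤ n) (h1 : a + 1 = n + c)
    (h2 : r + 1 = p * (n - t) + t + p * c) : p * a + (p - 1) = r + (p - 1) * t := by
  obtain ⟨q, rfl⟩ : ∃ q, p = q + 1 := ⟨p - 1, by omega⟩
  obtain ⟨m, rfl⟩ : ∃ m, n = t + m := ⟨n - t, by omega⟩
  rw [Nat.add_sub_cancel_left] at h2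
  rw [Nat.add_sub_cancel]
  have h3 : (q + 1) * (a + 1) = (q + 1) * (t + m + c) := by rw [h1]
  nlinarith [h2, h3]

/-- The numerical hypothesis of `ChevalleyHerbrand75.cyclicPair_card_mul` for `S`-units of a Galois
extension of odd prime degree `p`: `p * rk U_{K,S} + (p-1) = rk U_{L,S_L} + (p-1) * t`. -/
theorem rank_identity [IsGalois K L] {p : ℕ} (hp : p.Prime) (hodd : Odd p)
    (hdeg : Module.finrank K L = p) (S : Finset (HeightOneSpectrum (𝓞 K))) :
    p * Module.finrank ℤ (Additive ↥(sUnits K S)) + (p - 1) =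
      Module.finrank ℤ (Additive ↥(sUnits L (primesAbove L S))) +
        (p - 1) * (nonsplit L S).card := by
  have h1 := finrank_sUnits' (F := K) (T := S)
  have h2 := finrank_sUnits' (F := L) (T := primesAbove L S)
  rw [card_primesAbove L hp hdeg S, card_infinitePlace_of_odd K L (hdeg ▸ hodd), hdeg] at h2
  have ht : (nonsplit L S).card ≤ S.card := Finset.card_filter_le _ _
  exact rank_arith p _ _ _ _ _ hp.one_lt.le ht h1 h2

end Fermat.Agent.S55.SUnitCounts75
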