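import Mathlib
import Fermat.Agent.S55.Chevalley75
import Fermat.Agent.S55.SUnit19.SUnitRank

/-!
# The `T`-units modulo `n`-th powers (S55; "hunit" number of 32c / 47c)

For a number field `F`, a finite set `T` of finite primes and `n ≠ 0`:
`[U_T : U_T^n] = n ^ (#T + rank 𝓞_F^×) * #U_T[n]` (`index_pow_sUnits`), and if `F` contains a
primitive `p`-th root of unity (`p` prime) then `[U_T : U_T^p] = p ^ (#T + #∞_F)`
(`index_pow_sUnits_of_isPrimitiveRoot`).
-/

set_option autoImplicit false

open NumberField IsDedekindDomain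

namespace Fermat.Agent.S55.SUnitPow75

open Fermat.Agent.S55.SUnit19.SUnitRank Fermat.Agent.S55.Chevalley75

section General

variable {U : Type*} [CommGroup U]

theorem range_nEnd_eq (n : ℕ) :
    (nEnd (Additive U) n).toAddMonoidHom.range =
      Subgroup.toAddSubgroup (powMonoidHom n : U →* U).range := by
  ext x
  constructor
  · rintro ⟨y, rfl⟩
    exact ⟨Additive.toMul y, by simp⟩
  · rintro ⟨y, hy⟩
    refine ⟨Additive.ofMul y, ?_⟩
    show nEnd (Additive U) n (Additive.ofMul y) = x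
    rw [nEnd_apply]
    exact hy

theorem ker_nEnd_eq (n : ℕ) :
    (nEnd (Additive U) n).toAddMonoidHom.ker =
      Subgroup.toAddSubgroup (powMonoidHom n : U →* U).ker := by
  ext x
  constructor
  · intro hx
    have h : nEnd (Additive U) n x = 0 := hx
    rw [nEnd_apply] at h
    exact h
  · intro hx
    show nEnd (Additive U) n x = 0
    rw [nEnd_apply]
    exact hx

/-- For a finitely generated abelian group `U` (written multiplicatively):
`[U : U^n] = n ^ rank U * #U[n]`. -/
theorem index_range_pow [Module.Finite ℤ (Additive U)] {n : ℕ} (hn : n ≠ 0) :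
    (powMonoidHom n : U →* U).range.index =
      n ^ Module.finrank ℤ (Additive U) * Nat.card ↥(powMonoidHom n : U →* U).ker := by
  obtain ⟨_, h⟩ := ind_nEnd (Additive U) hn
  unfold ind kr at h
  rw [range_nEnd_eq, ker_nEnd_eq, Subgroup.index_toAddSubgroup] at h
  rw [h]
  rfl

end General

variable (F : Type*) [Field F] [NumberField F] (T : Finset (HeightOneSpectrum (𝓞 F)))

/-- `[U_T : U_T^n] = n ^ (#T + rank 𝓞_F^×) * #U_T[n]`. -/
theorem index_pow_sUnits {n : ℕ} (hn : n ≠ 0) :
    (powMonoidHom n : ↥(sUnits F T) →* ↥(sUnits F T)).range.index =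
      n ^ (T.card + Units.rank F) *
        Nat.card ↥(powMonoidHom n : ↥(sUnits F T) →* ↥(sUnits F T)).ker := by
  rw [index_range_pow hn, finrank_sUnits]

/-- every root of unity is a `T`-unit -/
theorem mem_sUnits_of_pow_eq_one {n : ℕ} (hn : n ≠ 0) {x : Fˣ} (hx : x ^ n = 1) :
    x ∈ sUnits F T := by
  intro v _
  have h1 : (v.valuation F (x : F)) ^ n = 1 := by
    rw [← map_pow, ← Units.val_pow_eq_pow_val, hx, Units.val_one, map_one]
  exact (pow_eq_one_iff_of_nonneg zero_le hn).mp h1

theorem card_ker_pow_sUnits {p : ℕ} [hp : Fact p.Prime] {ζ : F} (hζ : IsPrimitiveRoot ζ p) :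
    Nat.card ↥(powMonoidHom p : ↥(sUnits F T) →* ↥(sUnits F T)).ker = p := by
  have hp0 : p ≠ 0 := hp.out.ne_zero
  have : NeZero p := ⟨hp0⟩
  have hcard : Nat.card ↥(rootsOfUnity p F) = p := hζ.card_rootsOfUnity
  refine (Nat.card_congr ?_).trans hcard
  refine ⟨fun x => ⟨(x.1 : Fˣ), ?_⟩, fun y => ⟨⟨y.1, ?_⟩, ?_⟩, ?_, ?_⟩
  · rw [mem_rootsOfUnity]
    have := x.2
    rw [MonoidHom.mem_ker, powMonoidHom_apply] at this
    exact_mod_cast congrArg (fun u : ↥(sUnits F T) => (u : Fˣ)) this
  · exact mem_sUnits_of_pow_eq_one F T hp0 ((mem_rootsOfUnity _ _).mp y.2)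
  · rw [MonoidHom.mem_ker, powMonoidHom_apply]
    apply Subtype.ext
    show ((y : Fˣ)) ^ p = 1
    exact (mem_rootsOfUnity _ _).mp y.2
  · intro x; rfl
  · intro y; rfl

/-- If `F` contains a primitive `p`-th root of unity then `[U_T : U_T^p] = p ^ (#T + #∞_F)`. -/
theorem index_pow_sUnits_of_isPrimitiveRoot {p : ℕ} [hp : Fact p.Prime] {ζ : F}
    (hζ : IsPrimitiveRoot ζ p) :
    (powMonoidHom p : ↥(sUnits F T) →* ↥(sUnits F T)).range.index =
      p ^ (T.card + Fintype.card (InfinitePlace F)) := by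
  rw [index_pow_sUnits F T hp.out.ne_zero, card_ker_pow_sUnits F T hζ, ← pow_succ, Units.rank,
    add_assoc, Nat.sub_add_cancel Fintype.card_pos]

end Fermat.Agent.S55.SUnitPow75
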