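/-
S55 project, leaf 37a-S2-COUNT (helper96), part (B1): the abstract Selmer count.

`div : G →* D` a homomorphism of commutative groups (think `G = Kˣ`, `D` = group of invertible
fractional ideals, `div x = (x)`), `p` an exponent such that `D` has no `p`-torsion, `E ≤ D`
(the subgroup generated by the primes in `T`).  The abstract Selmer group is
`Sel = div⁻¹ (Dᵖ · E)`.  Then, if `D / div G` (the class group) is finite,

  `[Sel : Gᵖ] = [U : Uᵖ] · [D : Dᵖ · E · div G] · [E : E ∩ Dᵖ]`,   `U = ker div`,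

i.e. `|K(T,p)| = |Rˣ/p| · |Cl_T/p| · p^{#T}`.  Pure index arithmetic.
-/
import Mathlib

set_option autoImplicit false

open Subgroup

namespace Fermat.Agent.S55.SelmerCount96

variable {G D : Type*} [CommGroup G] [CommGroup D]

/-- the subgroup of `p`-th powers -/
abbrev pw (A : Type*) [CommGroup A] (p : ℕ) : Subgroup A := (powMonoidHom p : A →* A).range

theorem mem_pw {A : Type*} [CommGroup A] {p : ℕ} {x : A} : x ∈ pw A p ↔ ∃ y : A, y ^ p = x :=
  Iff.rfl

variable (div : G →* D) (p : ℕ)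

/-- the abstract Selmer group `div⁻¹ (Dᵖ · E)` -/
def Sel (E : Subgroup D) : Subgroup G := (pw D p ⊔ E).comap div

theorem mem_Sel {E : Subgroup D} {x : G} : x ∈ Sel div p E ↔ div x ∈ pw D p ⊔ E := Iff.rfl

theorem pw_le_Sel (E : Subgroup D) : pw G p ≤ Sel div p E := by
  rintro _ ⟨y, rfl⟩
  rw [mem_Sel]
  apply Subgroup.mem_sup_left
  exact ⟨div y, by simp [powMonoidHom_apply, map_pow]⟩

theorem ker_le_Sel (E : Subgroup D) : div.ker ≤ Sel div p E := by
  intro x hx
  rw [mem_Sel, MonoidHom.mem_ker.mp hx]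
  exact one_mem _

/-- `Gᵖ ∩ U = Uᵖ` when `D` has no `p`-torsion. -/
theorem pw_inf_ker (hD : ∀ d : D, d ^ p = 1 → d = 1) :
    pw G p ⊓ div.ker = div.ker.map (powMonoidHom p) := by
  ext x
  constructor
  · rintro ⟨⟨y, rfl⟩, hx⟩
    refine ⟨y, ?_, rfl⟩
    have hx' : div (y ^ p) = 1 := MonoidHom.mem_ker.mp hx
    show y ∈ div.ker
    rw [MonoidHom.mem_ker]
    apply hD
    rw [← map_pow]
    exact hx'
  · rintro ⟨y, hy, rfl⟩
    have hy' : div y = 1 := MonoidHom.mem_ker.mp hy
    refine ⟨⟨y, rfl⟩, ?_⟩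
    show (powMonoidHom p) y ∈ div.ker
    rw [MonoidHom.mem_ker, powMonoidHom_apply, map_pow, hy', one_pow]

theorem map_div_pw : (pw G p).map div = div.range.map (powMonoidHom p) := by
  ext x
  constructor
  · rintro ⟨_, ⟨y, rfl⟩, rfl⟩
    exact ⟨div y, ⟨y, rfl⟩, by simp [powMonoidHom_apply, map_pow]⟩
  · rintro ⟨_, ⟨y, rfl⟩, rfl⟩
    exact ⟨y ^ p, ⟨y, rfl⟩, by simp [powMonoidHom_apply, map_pow]⟩

theorem powMonoidHom_injective (hD : ∀ d : D, d ^ p = 1 → d = 1) :
    Function.Injective (powMonoidHom p : D →* D) := by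
  rw [injective_iff_map_eq_one]
  intro d hd
  exact hD d hd

/-- **The abstract Selmer count.** -/
theorem relIndex_Sel (hD : ∀ d : D, d ^ p = 1 → d = 1) (E : Subgroup D)
    (hfin : div.range.index ≠ 0) :
    (pw G p).relIndex (Sel div p E) =
      (div.ker.map (powMonoidHom p)).relIndex div.ker *
        ((pw D p ⊔ E ⊔ div.range).index * (pw D p ⊓ E).relIndex E) := by
  set U := div.ker with hU
  set Gp := pw G p with hGp
  set Dp := pw D p with hDp
  set Pr := div.range with hPr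
  set DE := Dp ⊔ E with hDE
  set S := Sel div p E with hS
  -- Step A
  have hA1 : Gp ≤ U ⊔ Gp := le_sup_right
  have hA2 : U ⊔ Gp ≤ S := sup_le (ker_le_Sel div p E) (pw_le_Sel div p E)
  have hA := relIndex_mul_relIndex Gp (U ⊔ Gp) S hA1 hA2
  -- Step B
  have hB : Gp.relIndex (U ⊔ Gp) = (U.map (powMonoidHom p)).relIndex U := by
    rw [relIndex_sup_right, ← inf_relIndex_right, pw_inf_ker div p hD]
  -- Step C
  have hC : (U ⊔ Gp).relIndex S = ((Pr.map (powMonoidHom p))).relIndex (Pr ⊓ DE) := by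
    have h1 : U ⊔ Gp = (Gp.map div).comap div := by
      rw [comap_map_eq, sup_comm]
    rw [h1, relIndex_comap, map_div_pw, hS, Sel, map_comap_eq]
  -- Step D
  set Prp := Pr.map (powMonoidHom p) with hPrp
  have hPrpDp : Prp ≤ Dp := by
    rintro _ ⟨y, -, rfl⟩
    exact ⟨y, rfl⟩
  have hDpDE : Dp ≤ DE := le_sup_left
  have hPrpX : Prp ≤ Pr ⊓ DE := by
    refine le_inf ?_ (hPrpDp.trans hDpDE)
    rintro _ ⟨y, hy, rfl⟩
    exact pow_mem hy p
  have hD1 := relIndex_mul_relIndex Prp (Pr ⊓ DE) DE hPrpX inf_le_right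
  have hD2 : (Pr ⊓ DE).relIndex DE = Pr.relIndex (DE ⊔ Pr) := by
    rw [inf_relIndex_right, relIndex_sup_right]
  have hD3 : Pr.relIndex (DE ⊔ Pr) * (DE ⊔ Pr).index = Pr.index :=
    relIndex_mul_index le_sup_right
  have hD4 := relIndex_mul_relIndex Prp Dp DE hPrpDp hDpDE
  have hD5 : Prp.relIndex Dp = Pr.index := by
    have : Dp = (⊤ : Subgroup D).map (powMonoidHom p) := by
      rw [hDp, pw, MonoidHom.range_eq_map]
    rw [this, hPrp, relIndex_map_map_of_injective _ _ (powMonoidHom_injective p hD),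
      relIndex_top_right]
  have hD6 : Dp.relIndex DE = (Dp ⊓ E).relIndex E := by
    rw [hDE, relIndex_sup_left, inf_relIndex_right]
  -- arithmetic
  set x := Prp.relIndex (Pr ⊓ DE)
  set r := Pr.relIndex (DE ⊔ Pr)
  set c := (DE ⊔ Pr).index
  set h := Pr.index
  set t := (Dp ⊓ E).relIndex E
  have hr : r ≠ 0 := by
    intro h0
    rw [h0, zero_mul] at hD3
    exact hfin hD3.symm
  have hx : x = c * t := by
    have e1 : x * r = h * t := by
      rw [← hD2, hD1, ← hD4, hD5, hD6]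
    rw [← hD3] at e1
    have e2 : r * x = r * (c * t) := by
      rw [mul_comm r x, e1]; ring
    exact Nat.eq_of_mul_eq_mul_left (Nat.pos_of_ne_zero hr) e2
  rw [← hA, hB, hC, hx]

end Fermat.Agent.S55.SelmerCount96
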