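/-
S55 SPINE, level 2 (helper33, owner/integrator of S55).

Level 1 (`Spine15`, helper15): the frozen S55 statement follows from
  finite-dimensionality of `sha₁ S M'`, `sha₂ S M` and equality of their `finrank`s (`M' = M.dualTwist χ_p`).

Level 2 (this file): the equality of dimensions follows from ONE arithmetic plug, `PTCore`:
  a perfect pairing between `H¹_c(G_S, M')` and `H²(G_S, M)` that restricts, on the image of the
  local invariants `∏_q (M')^{G_q}`, to the sum of local pairings `(M')^{G_q} × H²(G_q, M) → F_p`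
  which are non-degenerate on the `H²` side.
  Here `H¹_c(G_S, A)` (`H1c S A`) is DEFINED in Prelude vocabulary, with no arithmetic:
    pairs `(c, m)`, `c` an `S`-level-constant 1-cocycle of `Gal(Q̄/ℚ)` in `A`, `m q ∈ A` for `q ∈ S`
    with `c (r_q τ) = r_q τ • m q - m q` on the local Galois group at `q`,
    modulo the pairs `(d h, const h)`.
  The exact sequence `∏_q A^{G_q} → H¹_c(G_S, A) → H¹(G_ℚ, A)`, with image `sha₁ S A`
  (`ker_toH1`, `range_toH1`) is proved here; the rest is linear algebra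
  (`finrank_range_eq_finrank_ker`).
-/
import Mathlib
import Fermat.Prelude.Def_GroupCohomology_ContinuousUnramified
import Fermat.Agent.S55.ProfinLocal31.Sha
import Fermat.Agent.S55.Spine15

set_option autoImplicit false

open CategoryTheory groupCohomology ExtCitation Module

noncomputable section

namespace Fermat.Agent.S55.Spine33

section LinearAlgebra

variable {k : Type*} [Field k]

/-- The two ranks of a bilinear form `β : P →ₗ V →ₗ k` agree (finite-dimensional `V`). -/
theorem finrank_range_flip {P V : Type*} [AddCommGroup P] [Module k P] [AddCommGroup V] [Module k V]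
    [FiniteDimensional k V] (β : P →ₗ[k] V →ₗ[k] k) :
    finrank k (LinearMap.range β.flip) = finrank k (LinearMap.range β) := by
  have h1 : LinearMap.range β.flip = LinearMap.range (β.dualMap : Dual k (Dual k V) →ₗ[k] Dual k P) := by
    ext f
    constructor
    · rintro ⟨v, rfl⟩
      refine ⟨Dual.eval k V v, ?_⟩
      ext φ
      simp [LinearMap.dualMap_apply]
    · rintro ⟨ξ, rfl⟩
      obtain ⟨v, rfl⟩ := (Module.evalEquiv k V).surjective ξ
      refine ⟨v, ?_⟩
      ext φ
      simp [LinearMap.dualMap_apply]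
  rw [h1]
  exact LinearMap.finrank_range_dualMap_eq_finrank_range β

/-- **Abstract Poitou–Tate dimension count.** -/
theorem finrank_range_eq_finrank_ker
    {X V P Q W : Type*} [AddCommGroup X] [Module k X] [AddCommGroup V] [Module k V]
    [AddCommGroup P] [Module k P] [AddCommGroup Q] [Module k Q] [AddCommGroup W] [Module k W]
    (hfin : FiniteDimensional k V ∨ FiniteDimensional k X)
    (a : P →ₗ[k] X) (b : X →ₗ[k] W) (loc : V →ₗ[k] Q)
    (hab : LinearMap.ker b = LinearMap.range a)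
    (B : X →ₗ[k] V →ₗ[k] k) (ℓ : P →ₗ[k] Q →ₗ[k] k)
    (hBl : ∀ x, (∀ v, B x v = 0) → x = 0) (hBr : ∀ v, (∀ x, B x v = 0) → v = 0)
    (hℓ : ∀ y, (∀ φ, ℓ φ y = 0) → y = 0)
    (hcompat : ∀ φ v, B (a φ) v = ℓ φ (loc v)) :
    FiniteDimensional k V ∧ FiniteDimensional k (LinearMap.range b) ∧
      finrank k (LinearMap.range b) = finrank k (LinearMap.ker loc) := by
  classical
  have hBinj : Function.Injective B := by
    intro x y hxy
    have : x - y = 0 := hBl _ (fun v => by rw [map_sub, LinearMap.sub_apply, hxy, sub_self])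
    exact sub_eq_zero.1 this
  have hBfinj : Function.Injective B.flip := by
    intro x y hxy
    have : x - y = 0 := hBr _ (fun v => by
      have := congrArg (fun f => f v) hxy
      simp only [LinearMap.flip_apply] at this
      rw [map_sub, this, sub_self])
    exact sub_eq_zero.1 this
  have hV : FiniteDimensional k V := by
    rcases hfin with h | h
    · exact h
    · exact FiniteDimensional.of_injective B.flip hBfinj
  have hX : FiniteDimensional k X := FiniteDimensional.of_injective B hBinj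
  have hdim : finrank k X = finrank k V := by
    apply le_antisymm
    · calc finrank k X ≤ finrank k (V →ₗ[k] k) := LinearMap.finrank_le_finrank_of_injective hBinj
        _ = finrank k V := Subspace.dual_finrank_eq
    · calc finrank k V ≤ finrank k (X →ₗ[k] k) := LinearMap.finrank_le_finrank_of_injective hBfinj
        _ = finrank k X := Subspace.dual_finrank_eq
  refine ⟨hV, inferInstance, ?_⟩
  -- the bilinear form β on P × V
  set β : P →ₗ[k] V →ₗ[k] k := B ∘ₗ a with hβ
  have hβ' : β.flip = ℓ.flip ∘ₗ loc := by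
    ext v φ
    simp [hβ, hcompat]
  have hℓinj : Function.Injective ℓ.flip := by
    intro x y hxy
    have : x - y = 0 := hℓ _ (fun φ => by
      have := congrArg (fun f => f φ) hxy
      simp only [LinearMap.flip_apply] at this
      rw [map_sub, this, sub_self])
    exact sub_eq_zero.1 this
  have hr1 : finrank k (LinearMap.range β) = finrank k (LinearMap.range a) := by
    rw [hβ, LinearMap.range_comp]
    exact (LinearEquiv.finrank_eq (Submodule.equivMapOfInjective B hBinj (LinearMap.range a))).symm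
  have hr2 : finrank k (LinearMap.range β.flip) = finrank k (LinearMap.range loc) := by
    rw [hβ', LinearMap.range_comp]
    exact (LinearEquiv.finrank_eq (Submodule.equivMapOfInjective ℓ.flip hℓinj (LinearMap.range loc))).symm
  have hr : finrank k (LinearMap.range a) = finrank k (LinearMap.range loc) := by
    rw [← hr1, ← hr2, finrank_range_flip]
  have e1 := LinearMap.finrank_range_add_finrank_ker b
  have e2 := LinearMap.finrank_range_add_finrank_ker loc
  rw [hab] at e1
  omega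

end LinearAlgebra

abbrev GQ : Type := AlgebraicClosure ℚ ≃ₐ[ℚ] AlgebraicClosure ℚ

section Defs

variable {k : Type} [Field k] (S : Finset Nat.Primes) (A : Rep.{0} k GQ)

/-- local invariants `A^{G_q}` (as a subspace of `A`). -/
def locInv (q : ↥S) : Submodule k A where
  carrier := {m | ∀ τ : primeLocalGaloisGroup q.1, A.ρ (primeLocalToGlobal q.1 τ) m = m}
  add_mem' := fun {x y} hx hy τ => by rw [map_add, hx τ, hy τ]
  zero_mem' := fun τ => map_zero _
  smul_mem' := fun c x hx τ => by rw [map_smul, hx τ]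

/-- Compactly supported 1-cocycles: an `S`-level-constant 1-cocycle `c` of `Gal(Q̄/ℚ)` together with,
for every `q ∈ S`, an element `m q` trivialising `c` on the local Galois group at `q`. -/
def Z1c : Submodule k (↥(cocycles₁ A) × (↥S → A)) where
  carrier := {z | IsLevelConstantS₁ S (z.1 : GQ → A) ∧
    ∀ (q : ↥S) (τ : primeLocalGaloisGroup q.1),
      (z.1 : GQ → A) (primeLocalToGlobal q.1 τ) = A.ρ (primeLocalToGlobal q.1 τ) (z.2 q) - z.2 q}
  add_mem' := by
    rintro ⟨c, m⟩ ⟨c', m'⟩ ⟨h1, h2⟩ ⟨h1', h2'⟩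
    refine ⟨?_, fun q τ => ?_⟩
    · exact (levelCochainsS₁ S A).add_mem h1 h1'
    · have e1 := h2 q τ
      have e2 := h2' q τ
      simp only at e1 e2 ⊢
      change (c : GQ → A) _ + (c' : GQ → A) _ = _
      rw [e1, e2]
      change _ = A.ρ _ (m q + m' q) - (m q + m' q)
      rw [map_add]
      abel
  zero_mem' := by
    refine ⟨isLevelConstantS₁_const S (0 : A), fun q τ => ?_⟩
    change (0 : A) = _
    simp
  smul_mem' := by
    rintro a ⟨c, m⟩ ⟨h1, h2⟩
    refine ⟨(levelCochainsS₁ S A).smul_mem a h1, fun q τ => ?_⟩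
    have e1 := h2 q τ
    simp only at e1 ⊢
    change a • (c : GQ → A) _ = _
    rw [e1]
    change _ = A.ρ _ (a • m q) - a • m q
    rw [map_smul, smul_sub]

/-- the coboundary map `h ↦ (d h, const h)`. -/
def bdry : A →ₗ[k] (↥(cocycles₁ A) × (↥S → A)) where
  toFun h := (⟨(d₀₁ A).hom h, d₀₁_apply_mem_cocycles₁ h⟩, fun _ => h)
  map_add' x y := by
    ext : 1
    · apply Subtype.ext
      simp
    · funext q; rfl
  map_smul' c x := by
    ext : 1
    · apply Subtype.ext
      simp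
    · funext q; rfl

/-- Compactly supported 1-coboundaries. -/
def B1c : Submodule k (↥(cocycles₁ A) × (↥S → A)) := LinearMap.range (bdry S A)

/-- `H¹_c(G_S, A)`: compactly supported cohomology in degree one. -/
instance instAddCommGroupZ1c : AddCommGroup ↥(Z1c S A) := Submodule.addCommGroup _

abbrev H1c : Type := ↥(Z1c S A) ⧸ (B1c S A).comap (Z1c S A).subtype

example : AddCommGroup (H1c S A) := inferInstance
example : Module k (H1c S A) := inferInstance



/-- the projection `Z¹_c → Z¹`, `(c, m) ↦ c`. -/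
def Z1cFst : ↥(Z1c S A) →ₗ[k] ↥(cocycles₁ A) :=
  (LinearMap.fst k _ _) ∘ₗ (Z1c S A).subtype

/-- `b : H¹_c(G_S, A) → H¹(G_ℚ, A)`, `[(c, m)] ↦ [c]`. -/
def toH1 : H1c S A →ₗ[k] H1 A :=
  Submodule.liftQ _ ((H1π A).hom ∘ₗ Z1cFst S A) (by
    rintro ⟨z, hz⟩ hmem
    obtain ⟨h, hh⟩ := hmem
    rw [LinearMap.mem_ker, LinearMap.comp_apply]
    have : Z1cFst S A ⟨z, hz⟩ = ⟨(d₀₁ A).hom h, d₀₁_apply_mem_cocycles₁ h⟩ := by
      change z.1 = _
      have hh' : bdry S A h = z := hh
      rw [← hh']; rfl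
    rw [this]
    exact (H1π_eq_zero_iff _).2 ⟨h, rfl⟩)

@[simp] lemma toH1_mk (z : ↥(Z1c S A)) :
    toH1 S A (Submodule.Quotient.mk z) = (H1π A).hom z.1.1 := rfl

/-- `a : ∏_q A^{G_q} → H¹_c(G_S, A)`, `φ ↦ [(0, φ)]`. -/
def ofLocInv : (∀ q : ↥S, ↥(locInv S A q)) →ₗ[k] H1c S A where
  toFun φ := Submodule.Quotient.mk ⟨(0, fun q => (φ q : A)), by
    refine ⟨isLevelConstantS₁_const S (0 : A), fun q τ => ?_⟩
    change (0 : A) = _
    have := (φ q).2 τ
    simp only at this ⊢
    rw [this, sub_self]⟩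
  map_add' φ ψ := by
    rw [← Submodule.Quotient.mk_add]
    congr 1
    apply Subtype.ext
    ext : 1
    · simp
    · funext q; rfl
  map_smul' c φ := by
    rw [← Submodule.Quotient.mk_smul]
    congr 1
    apply Subtype.ext
    ext : 1
    · simp
    · funext q; rfl


/-- Constructor of classes in `H¹_c(G_S, A)`. -/
def H1c.mk (c : ↥(cocycles₁ A)) (m : ↥S → A) (hc : IsLevelConstantS₁ S (c : GQ → A))
    (hm : ∀ (q : ↥S) (τ : primeLocalGaloisGroup q.1),
      (c : GQ → A) (primeLocalToGlobal q.1 τ) = A.ρ (primeLocalToGlobal q.1 τ) (m q) - m q) :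
    H1c S A :=
  Submodule.Quotient.mk ⟨(c, m), hc, hm⟩

lemma H1c.exists_eq_mk (x : H1c S A) : ∃ c m hc hm, x = H1c.mk S A c m hc hm := by
  obtain ⟨⟨⟨c, m⟩, hz⟩, rfl⟩ := Submodule.Quotient.mk_surjective _ x
  exact ⟨c, m, hz.1, hz.2, rfl⟩

lemma H1c.mk_eq_zero_iff (c : ↥(cocycles₁ A)) (m : ↥S → A) (hc hm) :
    H1c.mk S A c m hc hm = 0 ↔
      ∃ h : A, (∀ g : GQ, (c : GQ → A) g = A.ρ g h - h) ∧ ∀ q : ↥S, m q = h := by
  rw [H1c.mk, Submodule.Quotient.mk_eq_zero, Submodule.mem_comap, Submodule.subtype_apply]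
  constructor
  · rintro ⟨h, hh⟩
    have h1 : (bdry S A h).1 = c := congrArg Prod.fst hh
    have h2 : (bdry S A h).2 = m := congrArg Prod.snd hh
    refine ⟨h, fun g => ?_, fun q => ?_⟩
    · rw [← h1]
      exact d₀₁_hom_apply A h g
    · rw [← h2]; rfl
  · rintro ⟨h, h1, h2⟩
    refine ⟨h, ?_⟩
    change bdry S A h = (c, m)
    ext : 1
    · apply Subtype.ext
      funext g
      change _ = (c : GQ → A) g
      rw [h1 g]
      exact d₀₁_hom_apply A h g
    · funext q
      change _ = m q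
      rw [h2 q]; rfl

@[simp] lemma toH1_H1c_mk (c : ↥(cocycles₁ A)) (m : ↥S → A) (hc hm) :
    toH1 S A (H1c.mk S A c m hc hm) = (H1π A).hom c := rfl

lemma ofLocInv_eq_mk (φ : ∀ q : ↥S, ↥(locInv S A q)) :
    ofLocInv S A φ = H1c.mk S A 0 (fun q => (φ q : A)) (isLevelConstantS₁_const S (0 : A))
      (fun q τ => by
        change (0 : A) = _
        have := (φ q).2 τ
        rw [this, sub_self]) := rfl

lemma ker_toH1 : LinearMap.ker (toH1 S A) = LinearMap.range (ofLocInv S A) := by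
  ext x
  constructor
  · intro hx
    obtain ⟨⟨⟨c, m⟩, hz⟩, rfl⟩ := Submodule.Quotient.mk_surjective _ x
    rw [LinearMap.mem_ker, toH1_mk] at hx
    obtain ⟨h, hh⟩ := (H1π_eq_zero_iff _).1 hx
    -- `c = d h`
    have hc : ∀ g, (c : GQ → A) g = A.ρ g h - h := fun g => by
      have := congrFun hh g
      rw [d₀₁_hom_apply] at this
      exact this.symm
    have hinv : ∀ q : ↥S, m q - h ∈ locInv S A q := fun q τ => by
      have e := hz.2 q τ
      simp only at e
      rw [hc] at e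
      rw [map_sub]
      have : A.ρ (primeLocalToGlobal q.1 τ) (m q) - m q = A.ρ (primeLocalToGlobal q.1 τ) h - h := e.symm
      calc A.ρ (primeLocalToGlobal q.1 τ) (m q) - A.ρ (primeLocalToGlobal q.1 τ) h
          = (A.ρ (primeLocalToGlobal q.1 τ) (m q) - m q) - (A.ρ (primeLocalToGlobal q.1 τ) h - h)
              + (m q - h) := by abel
        _ = m q - h := by rw [this, sub_self, zero_add]
    refine ⟨fun q => ⟨m q - h, hinv q⟩, ?_⟩
    change Submodule.Quotient.mk _ = Submodule.Quotient.mk _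
    rw [Submodule.Quotient.eq]
    refine ⟨-h, ?_⟩
    rw [Submodule.subtype_apply]
    change bdry S A (-h) = (0, fun q => m q - h) - (c, m)
    ext : 1
    · apply Subtype.ext
      funext g
      change (d₀₁ A).hom (-h) g = (0 - (c : GQ → A)) g
      rw [d₀₁_hom_apply, Pi.sub_apply, hc, map_neg]
      simp only [Pi.zero_apply]
      abel
    · funext q
      change -h = (m q - h) - m q
      abel
  · rintro ⟨φ, rfl⟩
    rw [LinearMap.mem_ker]
    change (H1π A).hom 0 = 0
    exact map_zero _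

end Defs

section general

variable {k : Type} [Field k]

/-- The local condition at a place, on cocycles: `loc_v [c] = 0` iff `c ∘ loc_v` is a coboundary. -/
theorem map_H1π_eq_zero_iff {H : Type} [Group H] (f : H →* GQ) (A : Rep.{0} k GQ)
    (c : ↥(cocycles₁ A)) :
    (groupCohomology.map f (𝟙 (Rep.res f A)) 1).hom ((H1π A).hom c) = 0 ↔
      ∃ m : A, ∀ τ : H, (c : GQ → A) (f τ) = A.ρ (f τ) m - m := by
  have h1 : (groupCohomology.map f (𝟙 (Rep.res f A)) 1).hom ((H1π A).hom c) =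
      (H1π (Rep.res f A)).hom ((mapCocycles₁ f (𝟙 (Rep.res f A))).hom c) := by
    have := H1π_comp_map (A := A) (B := Rep.res f A) f (𝟙 (Rep.res f A))
    exact congrArg (fun φ => φ.hom c) this
  rw [h1, H1π_eq_zero_iff]
  constructor
  · rintro ⟨m, hm⟩
    refine ⟨m, fun τ => ?_⟩
    have := congrFun hm τ
    rw [d₀₁_hom_apply] at this
    exact this.symm
  · rintro ⟨m, hm⟩
    refine ⟨m, ?_⟩
    funext τ
    rw [d₀₁_hom_apply]
    exact (hm τ).symm

end general

section Main

variable {p : ℕ} [Fact p.Prime] (S : Finset Nat.Primes) (A : Rep.{0} (ZMod p) GQ)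

/-- The image of `H¹_c(G_S, A) → H¹(G_ℚ, A)` is `sha₁ S A` (for `p` odd). -/
theorem range_toH1 (hp2 : p ≠ 2) : LinearMap.range (toH1 S A) = sha₁ S A := by
  ext x
  rw [ProfinLocal31.Sha.mem_sha₁_iff S hp2 A x]
  constructor
  · rintro ⟨y, rfl⟩
    obtain ⟨⟨⟨c, m⟩, hz⟩, rfl⟩ := Submodule.Quotient.mk_surjective _ y
    rw [toH1_mk]
    refine ⟨(mem_continuousH1S_iff S A _).2 ⟨c, hz.1, rfl⟩, fun q => ?_⟩
    exact (map_H1π_eq_zero_iff (primeLocalToGlobal q.1) A c).2 ⟨m q, hz.2 q⟩
  · rintro ⟨h1, h2⟩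
    obtain ⟨c, hc, rfl⟩ := (mem_continuousH1S_iff S A x).1 h1
    have h3 : ∀ q : ↥S, ∃ m : A, ∀ τ : primeLocalGaloisGroup q.1,
        (c : GQ → A) (primeLocalToGlobal q.1 τ) = A.ρ (primeLocalToGlobal q.1 τ) m - m :=
      fun q => (map_H1π_eq_zero_iff (primeLocalToGlobal q.1) A c).1 (h2 q)
    choose m hm using h3
    exact ⟨Submodule.Quotient.mk ⟨(c, m), hc, hm⟩, rfl⟩

/-- The local `H²` at `q ∈ S` (Prelude model: level-constant cochains of the local Galois group). -/
abbrev LocH2 (M : Rep.{0} (ZMod p) GQ) (q : ↥S) : Type :=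
  continuousH2 (primeLocalToGlobal q.1) (Rep.res (primeLocalToGlobal q.1) M)

/-- The total localisation map `H²(G_S, M) → ∏_{q ∈ S} H²(G_q, M)`. -/
def locTot₂ (M : Rep.{0} (ZMod p) GQ) : continuousH2S S M →ₗ[ZMod p] ∀ q : ↥S, LocH2 S M q :=
  LinearMap.pi fun q => locRes₂S S M (primeLocalToGlobal q.1)

theorem ker_locTot₂ (hp2 : p ≠ 2) (M : Rep.{0} (ZMod p) GQ) :
    LinearMap.ker (locTot₂ S M) = sha₂ S M := by
  ext x
  rw [ProfinLocal31.Sha.mem_sha₂_iff S hp2 M x, LinearMap.mem_ker]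
  constructor
  · intro h q
    exact congrFun h q
  · intro h
    funext q
    exact h q

/-- **The arithmetic plug of S55 at `(S, M)`** (`A = M' = M.dualTwist χ_p` in the application):
a perfect pairing `B : H¹_c(G_S, A) × H²(G_S, M) → F_p` and local pairings
`ℓ q : A^{G_q} × H²(G_q, M) → F_p`, non-degenerate on the `H²` side, such that
`B (a φ) x = ∑_q ℓ q (φ q) (loc_q x)`. -/
def PTCoreAt (M : Rep.{0} (ZMod p) GQ) : Prop :=
  ∃ (B : H1c S A →ₗ[ZMod p] continuousH2S S M →ₗ[ZMod p] ZMod p)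
    (ℓ : ∀ q : ↥S, ↥(locInv S A q) →ₗ[ZMod p] LocH2 S M q →ₗ[ZMod p] ZMod p),
    (∀ x, (∀ v, B x v = 0) → x = 0) ∧ (∀ v, (∀ x, B x v = 0) → v = 0) ∧
    (∀ (q : ↥S) (y : LocH2 S M q), (∀ φ, ℓ q φ y = 0) → y = 0) ∧
    ∀ (φ : ∀ q : ↥S, ↥(locInv S A q)) (v : continuousH2S S M),
      B (ofLocInv S A φ) v = ∑ q : ↥S, ℓ q (φ q) (locRes₂S S M (primeLocalToGlobal q.1) v)

set_option synthInstance.maxHeartbeats 400000 in
/-- Level-2 spine at `(S, M)`: the plug gives finiteness and the equality of dimensions. -/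
theorem dim_of_core (hp2 : p ≠ 2) (M : Rep.{0} (ZMod p) GQ)
    (hfin : FiniteDimensional (ZMod p) (continuousH2S S M) ∨ FiniteDimensional (ZMod p) (H1c S A))
    (hcore : PTCoreAt S A M) :
    FiniteDimensional (ZMod p) (sha₁ S A) ∧ FiniteDimensional (ZMod p) (sha₂ S M) ∧
      finrank (ZMod p) (sha₁ S A) = finrank (ZMod p) (sha₂ S M) := by
  classical
  obtain ⟨B, ℓ, hBl, hBr, hℓ, hcompat⟩ := hcore
  -- total local pairing
  let ℓtot : (∀ q : ↥S, ↥(locInv S A q)) →ₗ[ZMod p] (∀ q : ↥S, LocH2 S M q) →ₗ[ZMod p] ZMod p :=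
    ∑ q : ↥S, (ℓ q).compl₁₂ (LinearMap.proj q) (LinearMap.proj q)
  have hℓtot : ∀ φ y, ℓtot φ y = ∑ q : ↥S, ℓ q (φ q) (y q) := fun φ y => by
    simp only [ℓtot, LinearMap.sum_apply, LinearMap.compl₁₂_apply, LinearMap.proj_apply]
  have hℓnd : ∀ y, (∀ φ, ℓtot φ y = 0) → y = 0 := by
    intro y hy
    funext q₀
    refine hℓ q₀ (y q₀) fun ψ => ?_
    have := hy (Pi.single q₀ ψ)
    rw [hℓtot, Finset.sum_eq_single q₀] at this
    · simpa using this
    · intro q _ hq
      rw [Pi.single_eq_of_ne hq, map_zero, LinearMap.zero_apply]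
    · intro h; exact absurd (Finset.mem_univ _) h
  have hcomp : ∀ φ v, B (ofLocInv S A φ) v = ℓtot φ (locTot₂ S M v) := fun φ v => by
    rw [hcompat, hℓtot φ (locTot₂ S M v)]; rfl
  let iQ0 : AddCommGroup (∀ q : ↥S, LocH2 S M q) := inferInstance
  let iQ : Module (ZMod p) (∀ q : ↥S, LocH2 S M q) := inferInstance
  obtain ⟨hV, h1, h2⟩ := finrank_range_eq_finrank_ker (k := ZMod p) (X := H1c S A)
    (V := continuousH2S S M) (P := ∀ q : ↥S, ↥(locInv S A q)) (Q := ∀ q : ↥S, LocH2 S M q)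
    (W := H1 A) hfin (ofLocInv S A) (toH1 S A) (locTot₂ S M)
    (ker_toH1 S A) B ℓtot hBl hBr hℓnd hcomp
  rw [range_toH1 S A hp2, ker_locTot₂ S hp2 M] at h2
  rw [range_toH1 S A hp2] at h1
  exact ⟨h1, FiniteDimensional.finiteDimensional_submodule _, h2⟩

end Main

/-- **The plug Prop of the level-2 spine.** -/
def PTCore : Prop :=
  ∀ {p : ℕ} [Fact p.Prime], p ≠ 2 → ∀ (S : Finset Nat.Primes), pPrime p ∈ S →
    ∀ (M : Rep (ZMod p) (AlgebraicClosure ℚ ≃ₐ[ℚ] AlgebraicClosure ℚ))
      [FiniteDimensional (ZMod p) M],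
      (∀ m : M, ∃ F : IntermediateField ℚ (AlgebraicClosure ℚ), FiniteDimensional ℚ F ∧
        ∀ s ∈ F.fixingSubgroup, M.ρ s m = m) →
      (∀ q : Nat.Primes, q ∉ S → ∀ A : ValuationSubring (AlgebraicClosure ℚ),
        A.LiesOverPrime (q : ℕ) → ∀ g ∈ A.inertiaSubgroupIn ℚ, M.ρ g = 1) →
      (FiniteDimensional (ZMod p) (continuousH2S S M) ∨
        FiniteDimensional (ZMod p) (H1c S (M.dualTwist (cycloChar p)))) ∧
      PTCoreAt S (M.dualTwist (cycloChar p)) M

theorem dimStatement_of_core (H : PTCore) : Spine15.DimStatement := by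
  intro p _ hp2 S hpS M _ hsm hMur
  obtain ⟨hfin, hcore⟩ := H hp2 S hpS M hsm hMur
  exact dim_of_core S (M.dualTwist (cycloChar p)) hp2 M hfin hcore

/-- **Level-2 spine of S55**: the frozen statement from the single plug `PTCore`. -/
theorem s55_of_core (H : PTCore)
    {p : ℕ} [Fact p.Prime] (hp2 : p ≠ 2) (S : Finset Nat.Primes) (hpS : pPrime p ∈ S)
    (M : Rep (ZMod p) (AlgebraicClosure ℚ ≃ₐ[ℚ] AlgebraicClosure ℚ))
    [FiniteDimensional (ZMod p) M]
    (hsm : ∀ m : M, ∃ F : IntermediateField ℚ (AlgebraicClosure ℚ), FiniteDimensional ℚ F ∧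
      ∀ s ∈ F.fixingSubgroup, M.ρ s m = m)
    (hMur : ∀ q : Nat.Primes, q ∉ S → ∀ A : ValuationSubring (AlgebraicClosure ℚ),
      A.LiesOverPrime (q : ℕ) → ∀ g ∈ A.inertiaSubgroupIn ℚ, M.ρ g = 1) :
    ∃ B : sha₁ S (M.dualTwist (cycloChar p)) →ₗ[ZMod p] sha₂ S M →ₗ[ZMod p] ZMod p,
      (∀ y, (∀ x, B y x = 0) → y = 0) ∧ (∀ x, (∀ y, B y x = 0) → x = 0) :=
  Spine15.s55_of_dimStatement (dimStatement_of_core H) hp2 S hpS M hsm hMur

end Fermat.Agent.S55.Spine33
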