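/-
S55 / 45a-CD-ABS (second seat, helper14): the explicit degree-3 TRANSFER lemma.

For a group `G`, a subgroup `V` of finite index and a representation `ρ` of `G` on `A`:
if an inhomogeneous 3-cocycle `f : G × G × G → A` restricts on `V` to the coboundary of a
2-cochain `e : V × V → A`, then `[G : V] • f` is the coboundary of an explicit 2-cochain `b` on `G`;
moreover `b` inherits level-constancy (invariance modulo a normal subgroup `W ≤ V` of `G`
acting trivially on the values) from `f` and `e`.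

Proof: homogeneous cochains, the prism homotopy for a `V`-equivariant retraction `G → V`,
and the trace over `G ⧸ V`.  Mathlib only.
-/
import Mathlib

set_option autoImplicit false

namespace Fermat.Agent.S55.Transfer14

open scoped BigOperators

/-! ### 1. The prism identity (pure additive-group algebra) -/

section Prism

variable {G V A : Type*} [AddCommGroup A]

/-- The cochain `Φ = ρ^* E + h^* F` of the prism homotopy. -/
def prismCochain (F : G → G → G → G → A) (E : V → V → V → A) (ι : V → G) (u : G → V)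
    (a b c : G) : A :=
  E (u a) (u b) (u c) + F (ι (u a)) a b c - F (ι (u a)) (ι (u b)) b c
    + F (ι (u a)) (ι (u b)) (ι (u c)) c

/-- Prism identity: if `F` is a homogeneous cocycle and `dE = F ∘ ι`, then `dΦ = F`. -/
theorem prism (F : G → G → G → G → A) (E : V → V → V → A) (ι : V → G) (u : G → V)
    (hF : ∀ a b c d e, F b c d e - F a c d e + F a b d e - F a b c e + F a b c d = 0)
    (hE : ∀ a b c d : V, E b c d - E a c d + E a b d - E a b c = F (ι a) (ι b) (ι c) (ι d))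
    (g0 g1 g2 g3 : G) :
    prismCochain F E ι u g1 g2 g3 - prismCochain F E ι u g0 g2 g3
      + prismCochain F E ι u g0 g1 g3 - prismCochain F E ι u g0 g1 g2 = F g0 g1 g2 g3 := by
  have Ra := hF (ι (u g0)) g0 g1 g2 g3
  have Rb := hF (ι (u g0)) (ι (u g1)) g1 g2 g3
  have Rc := hF (ι (u g0)) (ι (u g1)) (ι (u g2)) g2 g3
  have Rd := hF (ι (u g0)) (ι (u g1)) (ι (u g2)) (ι (u g3)) g3
  have He := hE (u g0) (u g1) (u g2) (u g3)
  unfold prismCochain
  linear_combination (norm := skip) (1 : ℤ) • He - (1 : ℤ) • Ra + (1 : ℤ) • Rb - (1 : ℤ) • Rc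
    + (1 : ℤ) • Rd
  module

end Prism

/-! ### 2. The retraction `G → V` -/

section Retraction

variable {G : Type*} [Group G] (V : Subgroup G)

/-- A `V`-equivariant retraction `G → V`: `g = retr g * (coset representative)`. -/
noncomputable def retr (g : G) : V :=
  ⟨g * ((g⁻¹ : G) : G ⧸ V).out, by
    obtain ⟨h, hh⟩ := QuotientGroup.mk_out_eq_mul V g⁻¹
    rw [hh, mul_inv_cancel_left]
    exact h.2⟩

lemma retr_coe (g : G) : (retr V g : G) = g * ((g⁻¹ : G) : G ⧸ V).out := rfl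

lemma retr_mul_left (v : V) (g : G) : retr V ((v : G) * g) = v * retr V g := by
  apply Subtype.ext
  have h : ((((v : G) * g)⁻¹ : G) : G ⧸ V) = ((g⁻¹ : G) : G ⧸ V) := by
    rw [mul_inv_rev]
    exact QuotientGroup.mk_mul_of_mem _ (V.inv_mem v.2)
  rw [retr_coe, Subgroup.coe_mul, retr_coe, h, mul_assoc]

/-- Right multiplication by an element of a normal subgroup `W ≤ V` changes the retraction
by right multiplication by an element of `W`. -/
lemma retr_mul_right {W : Subgroup G} (hW : W.Normal) (hWV : W ≤ V) (g : G) {w : G}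
    (hw : w ∈ W) : ∃ w' : V, (w' : G) ∈ W ∧ retr V (g * w) = retr V g * w' := by
  have h : (((g * w)⁻¹ : G) : G ⧸ V) = ((g⁻¹ : G) : G ⧸ V) := by
    rw [mul_inv_rev]
    refine QuotientGroup.eq.2 ?_
    -- (w⁻¹ * g⁻¹)⁻¹ * g⁻¹ = g * w * g⁻¹
    have : (w⁻¹ * g⁻¹)⁻¹ * g⁻¹ = g * w * g⁻¹ := by group
    rw [this]
    exact hWV (hW.conj_mem w hw g)
  set o : G := ((g⁻¹ : G) : G ⧸ V).out with ho
  have hmem : o⁻¹ * w * o ∈ W := by
    have := hW.conj_mem w hw o⁻¹
    simpa using this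
  refine ⟨⟨o⁻¹ * w * o, hWV hmem⟩, hmem, ?_⟩
  apply Subtype.ext
  rw [retr_coe, h, Subgroup.coe_mul, retr_coe]
  simp only [← ho]
  group

end Retraction

/-! ### 3. Homogeneous cochains -/

section Hom

variable {k G A : Type*} [CommRing k] [Group G] [AddCommGroup A] [Module k A]
variable (ρ : Representation k G A)

/-- The homogeneous 3-cochain of an inhomogeneous one. -/
def hom3 (f : G × G × G → A) (g0 g1 g2 g3 : G) : A :=
  ρ g0 (f (g0⁻¹ * g1, g1⁻¹ * g2, g2⁻¹ * g3))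

/-- The homogeneous 2-cochain of an inhomogeneous one on a subgroup. -/
def hom2 (V : Subgroup G) (e : V × V → A) (v0 v1 v2 : V) : A :=
  ρ (v0 : G) (e (v0⁻¹ * v1, v1⁻¹ * v2))

lemma hom3_smul (f : G × G × G → A) (g g0 g1 g2 g3 : G) :
    hom3 ρ f (g * g0) (g * g1) (g * g2) (g * g3) = ρ g (hom3 ρ f g0 g1 g2 g3) := by
  unfold hom3
  rw [map_mul, Module.End.mul_apply]
  congr 3
  group

lemma hom2_smul (V : Subgroup G) (e : V × V → A) (v v0 v1 v2 : V) :
    hom2 ρ V e (v * v0) (v * v1) (v * v2) = ρ (v : G) (hom2 ρ V e v0 v1 v2) := by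
  unfold hom2
  rw [Subgroup.coe_mul, map_mul, Module.End.mul_apply]
  congr 3
  group

/-- The inhomogeneous cocycle identity gives the homogeneous one. -/
lemma hom3_cocycle (f : G × G × G → A)
    (hf : ∀ g h i j, ρ g (f (h, i, j)) - f (g * h, i, j) + f (g, h * i, j) - f (g, h, i * j)
      + f (g, h, i) = 0) (a b c d e : G) :
    hom3 ρ f b c d e - hom3 ρ f a c d e + hom3 ρ f a b d e - hom3 ρ f a b c e
      + hom3 ρ f a b c d = 0 := by
  have h := hf (a⁻¹ * b) (b⁻¹ * c) (c⁻¹ * d) (d⁻¹ * e)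
  have e1 : a⁻¹ * b * (b⁻¹ * c) = a⁻¹ * c := by group
  have e2 : b⁻¹ * c * (c⁻¹ * d) = b⁻¹ * d := by group
  have e3 : c⁻¹ * d * (d⁻¹ * e) = c⁻¹ * e := by group
  rw [e1, e2, e3] at h
  have h' := congrArg (ρ a) h
  simp only [map_add, map_sub, map_zero] at h'
  unfold hom3
  have e4 : ρ a (ρ (a⁻¹ * b) (f (b⁻¹ * c, c⁻¹ * d, d⁻¹ * e))) =
      ρ b (f (b⁻¹ * c, c⁻¹ * d, d⁻¹ * e)) := by
    rw [← Module.End.mul_apply, ← map_mul, mul_inv_cancel_left]
  rw [e4] at h'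
  exact h'

/-- The coboundary relation `d e = f` on `V` in homogeneous form. -/
lemma hom2_cobound (V : Subgroup G) (f : G × G × G → A) (e : V × V → A)
    (he : ∀ x y z : V, ρ (x : G) (e (y, z)) - e (x * y, z) + e (x, y * z) - e (x, y)
      = f ((x : G), (y : G), (z : G))) (a b c d : V) :
    hom2 ρ V e b c d - hom2 ρ V e a c d + hom2 ρ V e a b d - hom2 ρ V e a b c
      = hom3 ρ f (a : G) (b : G) (c : G) (d : G) := by
  have h := he (a⁻¹ * b) (b⁻¹ * c) (c⁻¹ * d)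
  have e1 : a⁻¹ * b * (b⁻¹ * c) = a⁻¹ * c := by group
  have e2 : b⁻¹ * c * (c⁻¹ * d) = b⁻¹ * d := by group
  rw [e1, e2] at h
  have h' := congrArg (ρ (a : G)) h
  simp only [map_sub, map_add] at h'
  unfold hom2 hom3
  have e4 : ρ (a : G) (ρ ((a⁻¹ * b : V) : G) (e (b⁻¹ * c, c⁻¹ * d))) =
      ρ (b : G) (e (b⁻¹ * c, c⁻¹ * d)) := by
    rw [← Module.End.mul_apply, ← map_mul]
    congr 2
    simp
  rw [e4] at h'
  simpa using h'

end Hom

/-! ### 4. The prism cochain `Φ` for `(f, e)` -/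

section Phi

variable {k G A : Type*} [CommRing k] [Group G] [AddCommGroup A] [Module k A]
variable (ρ : Representation k G A) (V : Subgroup G)

/-- The `V`-equivariant homogeneous 2-cochain `Φ` on `G` with `dΦ = F`. -/
noncomputable def phi (f : G × G × G → A) (e : V × V → A) (a b c : G) : A :=
  prismCochain (hom3 ρ f) (hom2 ρ V e) (fun v : V => (v : G)) (retr V) a b c

lemma phi_smul (f : G × G × G → A) (e : V × V → A) (v : V) (a b c : G) :
    phi ρ V f e ((v : G) * a) ((v : G) * b) ((v : G) * c) = ρ (v : G) (phi ρ V f e a b c) := by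
  unfold phi prismCochain
  simp only [retr_mul_left, Subgroup.coe_mul, hom2_smul, hom3_smul, map_add, map_sub]

lemma phi_d (f : G × G × G → A) (e : V × V → A)
    (hf : ∀ g h i j, ρ g (f (h, i, j)) - f (g * h, i, j) + f (g, h * i, j) - f (g, h, i * j)
      + f (g, h, i) = 0)
    (he : ∀ x y z : V, ρ (x : G) (e (y, z)) - e (x * y, z) + e (x, y * z) - e (x, y)
      = f ((x : G), (y : G), (z : G))) (g0 g1 g2 g3 : G) :
    phi ρ V f e g1 g2 g3 - phi ρ V f e g0 g2 g3 + phi ρ V f e g0 g1 g3 - phi ρ V f e g0 g1 g2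
      = hom3 ρ f g0 g1 g2 g3 :=
  prism _ _ _ _ (hom3_cocycle ρ f hf) (hom2_cobound ρ V f e he) g0 g1 g2 g3

end Phi

/-! ### 5. The trace over `G ⧸ V` -/

section Trace

variable {k G A : Type*} [CommRing k] [Group G] [AddCommGroup A] [Module k A]
variable (ρ : Representation k G A) (V : Subgroup G)

/-- One term of the trace: `ρ x (P (x⁻¹ g₀, x⁻¹ g₁, x⁻¹ g₂))`. -/
def tterm (P : G → G → G → A) (x g0 g1 g2 : G) : A :=
  ρ x (P (x⁻¹ * g0) (x⁻¹ * g1) (x⁻¹ * g2))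

variable {ρ V}

lemma tterm_mul_right {P : G → G → G → A}
    (hP : ∀ (v : V) (a b c : G), P ((v : G) * a) ((v : G) * b) ((v : G) * c) = ρ (v : G) (P a b c))
    (x : G) (v : V) (g0 g1 g2 : G) :
    tterm ρ P (x * (v : G)) g0 g1 g2 = tterm ρ P x g0 g1 g2 := by
  unfold tterm
  have h : ∀ g : G, (x * (v : G))⁻¹ * g = ((v⁻¹ : V) : G) * (x⁻¹ * g) := by
    intro g
    rw [mul_inv_rev, mul_assoc, Subgroup.coe_inv]
  rw [h g0, h g1, h g2, hP, map_mul, Module.End.mul_apply, ← Module.End.mul_apply (ρ (v : G)),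
    ← map_mul, Subgroup.coe_inv, mul_inv_cancel, map_one, Module.End.one_apply]

lemma tterm_out {P : G → G → G → A}
    (hP : ∀ (v : V) (a b c : G), P ((v : G) * a) ((v : G) * b) ((v : G) * c) = ρ (v : G) (P a b c))
    (x g0 g1 g2 : G) :
    tterm ρ P ((x : G ⧸ V).out) g0 g1 g2 = tterm ρ P x g0 g1 g2 := by
  obtain ⟨h, hh⟩ := QuotientGroup.mk_out_eq_mul V x
  rw [hh, tterm_mul_right hP]

lemma tterm_smul (P : G → G → G → A) (g x g0 g1 g2 : G) :
    tterm ρ P x (g * g0) (g * g1) (g * g2) = ρ g (tterm ρ P (g⁻¹ * x) g0 g1 g2) := by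
  unfold tterm
  have h : ∀ y : G, (g⁻¹ * x)⁻¹ * y = x⁻¹ * (g * y) := by
    intro y
    rw [mul_inv_rev, inv_inv, mul_assoc]
  rw [h g0, h g1, h g2, ← Module.End.mul_apply, ← map_mul, mul_inv_cancel_left]

variable (ρ V)

attribute [local instance] Subgroup.fintypeQuotientOfFiniteIndex

/-- The trace `Ψ(g₀,g₁,g₂) = Σ_{qV} ρ q (P (q⁻¹ g₀, q⁻¹ g₁, q⁻¹ g₂))`. -/
noncomputable def psi [V.FiniteIndex] (P : G → G → G → A) (g0 g1 g2 : G) : A :=
  ∑ q : G ⧸ V, tterm ρ P q.out g0 g1 g2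

variable {ρ V}

lemma psi_smul [V.FiniteIndex] {P : G → G → G → A}
    (hP : ∀ (v : V) (a b c : G), P ((v : G) * a) ((v : G) * b) ((v : G) * c) = ρ (v : G) (P a b c))
    (g g0 g1 g2 : G) :
    psi ρ V P (g * g0) (g * g1) (g * g2) = ρ g (psi ρ V P g0 g1 g2) := by
  unfold psi
  rw [map_sum]
  have h1 : ∀ q : G ⧸ V, tterm ρ P q.out (g * g0) (g * g1) (g * g2)
      = ρ g (tterm ρ P ((g⁻¹ • q).out) g0 g1 g2) := by
    intro q
    have hq : ((g⁻¹ * q.out : G) : G ⧸ V) = g⁻¹ • q := by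
      conv_rhs => rw [← QuotientGroup.out_eq' q]
      rfl
    rw [tterm_smul, ← tterm_out hP (g⁻¹ * q.out), hq]
  simp_rw [h1]
  exact Equiv.sum_comp (MulAction.toPerm g⁻¹ : Equiv.Perm (G ⧸ V))
    (fun q => ρ g (tterm ρ P q.out g0 g1 g2))

lemma psi_d [V.FiniteIndex] {P : G → G → G → A} {F : G → G → G → G → A}
    (hd : ∀ g0 g1 g2 g3, P g1 g2 g3 - P g0 g2 g3 + P g0 g1 g3 - P g0 g1 g2 = F g0 g1 g2 g3)
    (hF : ∀ g g0 g1 g2 g3, F (g * g0) (g * g1) (g * g2) (g * g3) = ρ g (F g0 g1 g2 g3))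
    (g0 g1 g2 g3 : G) :
    psi ρ V P g1 g2 g3 - psi ρ V P g0 g2 g3 + psi ρ V P g0 g1 g3 - psi ρ V P g0 g1 g2
      = V.index • F g0 g1 g2 g3 := by
  unfold psi
  rw [← Finset.sum_sub_distrib, ← Finset.sum_add_distrib, ← Finset.sum_sub_distrib]
  have h1 : ∀ x : G, tterm ρ P x g1 g2 g3 - tterm ρ P x g0 g2 g3 + tterm ρ P x g0 g1 g3
      - tterm ρ P x g0 g1 g2 = F g0 g1 g2 g3 := by
    intro x
    unfold tterm
    rw [← map_sub, ← map_add, ← map_sub, hd, ← hF]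
    simp
  simp_rw [h1]
  rw [Finset.sum_const, Finset.card_univ, Subgroup.index_eq_card, Nat.card_eq_fintype_card]

/-- Invariance of the trace under right translations that leave `P` invariant. -/
lemma psi_congr_right [V.FiniteIndex] {P : G → G → G → A} {W : Subgroup G}
    (hP : ∀ a b c w1 w2 w3, w1 ∈ W → w2 ∈ W → w3 ∈ W → P (a * w1) (b * w2) (c * w3) = P a b c)
    (g0 g1 g2 : G) {w0 w1 w2 : G} (h0 : w0 ∈ W) (h1 : w1 ∈ W) (h2 : w2 ∈ W) :
    psi ρ V P (g0 * w0) (g1 * w1) (g2 * w2) = psi ρ V P g0 g1 g2 := by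
  unfold psi tterm
  refine Finset.sum_congr rfl fun q _ => ?_
  rw [← mul_assoc, ← mul_assoc, ← mul_assoc, hP _ _ _ _ _ _ h0 h1 h2]

end Trace

/-! ### 6. Invariance modulo a normal subgroup `W ≤ V` -/

section Invariance

variable {k G A : Type*} [CommRing k] [Group G] [AddCommGroup A] [Module k A]
variable {ρ : Representation k G A} {V : Subgroup G}

/-- `(x₀ w₀)⁻¹ (x₁ w₁) = (x₀⁻¹ x₁) w̃` with `w̃ ∈ W` for `W` normal. -/
lemma exists_conj_mul {W : Subgroup G} (hW : W.Normal) (x0 x1 : G) {w0 w1 : G}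
    (h0 : w0 ∈ W) (h1 : w1 ∈ W) :
    ∃ w ∈ W, (x0 * w0)⁻¹ * (x1 * w1) = x0⁻¹ * x1 * w := by
  refine ⟨(x0⁻¹ * x1)⁻¹ * w0⁻¹ * (x0⁻¹ * x1) * w1, W.mul_mem ?_ h1, by group⟩
  have := hW.conj_mem w0⁻¹ (W.inv_mem h0) (x0⁻¹ * x1)⁻¹
  simpa using this

lemma hom3_inv {W : Subgroup G} (hW : W.Normal) {f : G × G × G → A}
    (hf : ∀ g h i w w' w'', w ∈ W → w' ∈ W → w'' ∈ W → f (g * w, h * w', i * w'') = f (g, h, i))
    (hρ : ∀ w ∈ W, ∀ x, ρ w (f x) = f x)
    (g0 g1 g2 g3 : G) {w0 w1 w2 w3 : G} (h0 : w0 ∈ W) (h1 : w1 ∈ W) (h2 : w2 ∈ W) (h3 : w3 ∈ W) :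
    hom3 ρ f (g0 * w0) (g1 * w1) (g2 * w2) (g3 * w3) = hom3 ρ f g0 g1 g2 g3 := by
  obtain ⟨a, ha, ea⟩ := exists_conj_mul hW g0 g1 h0 h1
  obtain ⟨b, hb, eb⟩ := exists_conj_mul hW g1 g2 h1 h2
  obtain ⟨c, hc, ec⟩ := exists_conj_mul hW g2 g3 h2 h3
  unfold hom3
  rw [ea, eb, ec, hf _ _ _ _ _ _ ha hb hc, map_mul, Module.End.mul_apply, hρ w0 h0]

lemma hom2_inv {W : Subgroup G} (hW : W.Normal) {e : V × V → A}
    (he : ∀ (x y w w' : V), (w : G) ∈ W → (w' : G) ∈ W → e (x * w, y * w') = e (x, y))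
    (hρ : ∀ w ∈ W, ∀ x, ρ w (e x) = e x)
    (v0 v1 v2 : V) {w0 w1 w2 : V} (h0 : (w0 : G) ∈ W) (h1 : (w1 : G) ∈ W) (h2 : (w2 : G) ∈ W) :
    hom2 ρ V e (v0 * w0) (v1 * w1) (v2 * w2) = hom2 ρ V e v0 v1 v2 := by
  have key : ∀ (x0 x1 : V) {u0 u1 : V}, (u0 : G) ∈ W → (u1 : G) ∈ W →
      ∃ u : V, (u : G) ∈ W ∧ (x0 * u0)⁻¹ * (x1 * u1) = x0⁻¹ * x1 * u := by
    intro x0 x1 u0 u1 hu0 hu1
    refine ⟨(x0⁻¹ * x1)⁻¹ * u0⁻¹ * (x0⁻¹ * x1) * u1, ?_, by group⟩
    have := hW.conj_mem (u0⁻¹ : V) (by simpa using W.inv_mem hu0) ((x0⁻¹ * x1 : V) : G)⁻¹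
    have h' : (((x0⁻¹ * x1)⁻¹ * u0⁻¹ * (x0⁻¹ * x1) * u1 : V) : G)
        = ((x0⁻¹ * x1 : V) : G)⁻¹ * ((u0⁻¹ : V) : G) * (((x0⁻¹ * x1 : V) : G)⁻¹)⁻¹ * (u1 : G) := by
      simp
    rw [h']
    exact W.mul_mem this hu1
  obtain ⟨a, ha, ea⟩ := key v0 v1 h0 h1
  obtain ⟨b, hb, eb⟩ := key v1 v2 h1 h2
  unfold hom2
  rw [ea, eb, he _ _ _ _ ha hb, Subgroup.coe_mul, map_mul, Module.End.mul_apply, hρ _ h0]

lemma phi_inv {W : Subgroup G} (hW : W.Normal) (hWV : W ≤ V) {f : G × G × G → A}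
    {e : V × V → A}
    (hf : ∀ g h i w w' w'', w ∈ W → w' ∈ W → w'' ∈ W → f (g * w, h * w', i * w'') = f (g, h, i))
    (he : ∀ (x y w w' : V), (w : G) ∈ W → (w' : G) ∈ W → e (x * w, y * w') = e (x, y))
    (hρf : ∀ w ∈ W, ∀ x, ρ w (f x) = f x) (hρe : ∀ w ∈ W, ∀ x, ρ w (e x) = e x)
    (a b c : G) {w1 w2 w3 : G} (h1 : w1 ∈ W) (h2 : w2 ∈ W) (h3 : w3 ∈ W) :
    phi ρ V f e (a * w1) (b * w2) (c * w3) = phi ρ V f e a b c := by
  obtain ⟨u1, hu1, e1⟩ := retr_mul_right V hW hWV a h1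
  obtain ⟨u2, hu2, e2⟩ := retr_mul_right V hW hWV b h2
  obtain ⟨u3, hu3, e3⟩ := retr_mul_right V hW hWV c h3
  unfold phi prismCochain
  rw [e1, e2, e3]
  simp only [Subgroup.coe_mul]
  rw [hom2_inv hW he hρe _ _ _ hu1 hu2 hu3,
    hom3_inv hW hf hρf _ _ _ _ hu1 h1 h2 h3,
    hom3_inv hW hf hρf _ _ _ _ hu1 hu2 h2 h3,
    hom3_inv hW hf hρf _ _ _ _ hu1 hu2 hu3 h3]

end Invariance

/-! ### 7. The transfer lemma -/

section Main

variable {k G A : Type*} [CommRing k] [Group G] [AddCommGroup A] [Module k A]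

/-- The explicit 2-cochain `b` with `d b = [G : V] • f`. -/
noncomputable def transferCochain (ρ : Representation k G A) (V : Subgroup G) [V.FiniteIndex]
    (f : G × G × G → A) (e : V × V → A) : G × G → A :=
  fun x => psi ρ V (phi ρ V f e) 1 x.1 (x.1 * x.2)

/-- **Degree-3 transfer.** If the 3-cocycle `f` on `G` restricts on the finite-index subgroup `V`
to the coboundary of `e`, then `[G : V] • f` is the coboundary of `transferCochain ρ V f e`. -/
theorem d_transferCochain (ρ : Representation k G A) (V : Subgroup G) [V.FiniteIndex]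
    (f : G × G × G → A)
    (hf : ∀ g h i j, ρ g (f (h, i, j)) - f (g * h, i, j) + f (g, h * i, j) - f (g, h, i * j)
      + f (g, h, i) = 0)
    (e : V × V → A)
    (he : ∀ x y z : V, ρ (x : G) (e (y, z)) - e (x * y, z) + e (x, y * z) - e (x, y)
      = f ((x : G), (y : G), (z : G))) (g h i : G) :
    ρ g (transferCochain ρ V f e (h, i)) - transferCochain ρ V f e (g * h, i)
      + transferCochain ρ V f e (g, h * i) - transferCochain ρ V f e (g, h)
      = V.index • f (g, h, i) := by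
  unfold transferCochain
  simp only
  have hP := phi_smul ρ V f e
  have h1 : ρ g (psi ρ V (phi ρ V f e) 1 h (h * i))
      = psi ρ V (phi ρ V f e) g (g * h) (g * h * i) := by
    rw [← psi_smul hP, mul_one, mul_assoc]
  have h2 := psi_d (ρ := ρ) (V := V) (phi_d ρ V f e hf he) (hom3_smul ρ f) 1 g (g * h) (g * h * i)
  rw [h1, ← mul_assoc g h i, h2]
  unfold hom3
  have e3 : h⁻¹ * g⁻¹ * (g * h * i) = i := by group
  simp [e3]

/-- Level-constancy of the transfer cochain is inherited from `f` and `e`. -/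
theorem transferCochain_inv (ρ : Representation k G A) (V : Subgroup G) [V.FiniteIndex]
    (f : G × G × G → A) (e : V × V → A) {W : Subgroup G} (hW : W.Normal) (hWV : W ≤ V)
    (hf : ∀ g h i w w' w'', w ∈ W → w' ∈ W → w'' ∈ W → f (g * w, h * w', i * w'') = f (g, h, i))
    (he : ∀ (x y w w' : V), (w : G) ∈ W → (w' : G) ∈ W → e (x * w, y * w') = e (x, y))
    (hρf : ∀ w ∈ W, ∀ x, ρ w (f x) = f x) (hρe : ∀ w ∈ W, ∀ x, ρ w (e x) = e x)
    (g h : G) {w w' : G} (hw : w ∈ W) (hw' : w' ∈ W) :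
    transferCochain ρ V f e (g * w, h * w') = transferCochain ρ V f e (g, h) := by
  unfold transferCochain
  simp only
  have hmem : h⁻¹ * w * h * w' ∈ W := by
    refine W.mul_mem ?_ hw'
    have := hW.conj_mem w hw h⁻¹
    simpa using this
  have e1 : g * w * (h * w') = g * h * (h⁻¹ * w * h * w') := by group
  rw [e1]
  have := psi_congr_right (ρ := ρ) (V := V) (P := phi ρ V f e) (W := W)
    (fun a b c w1 w2 w3 h1 h2 h3 => phi_inv hW hWV hf he hρf hρe a b c h1 h2 h3)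
    1 g (g * h) W.one_mem hw hmem
  rw [mul_one] at this
  exact this

/-- **The transfer lemma** in existential form. -/
theorem exists_transfer (ρ : Representation k G A) (V : Subgroup G) [V.FiniteIndex]
    (f : G × G × G → A)
    (hf : ∀ g h i j, ρ g (f (h, i, j)) - f (g * h, i, j) + f (g, h * i, j) - f (g, h, i * j)
      + f (g, h, i) = 0)
    (e : V × V → A)
    (he : ∀ x y z : V, ρ (x : G) (e (y, z)) - e (x * y, z) + e (x, y * z) - e (x, y)
      = f ((x : G), (y : G), (z : G))) :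
    ∃ b : G × G → A,
      (∀ g h i, ρ g (b (h, i)) - b (g * h, i) + b (g, h * i) - b (g, h) = V.index • f (g, h, i)) ∧
      ∀ W : Subgroup G, W.Normal → W ≤ V →
        (∀ g h i w w' w'', w ∈ W → w' ∈ W → w'' ∈ W → f (g * w, h * w', i * w'') = f (g, h, i)) →
        (∀ (x y w w' : V), (w : G) ∈ W → (w' : G) ∈ W → e (x * w, y * w') = e (x, y)) →
        (∀ w ∈ W, ∀ x, ρ w (f x) = f x) → (∀ w ∈ W, ∀ x, ρ w (e x) = e x) →
        ∀ g h w w', w ∈ W → w' ∈ W → b (g * w, h * w') = b (g, h) :=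
  ⟨transferCochain ρ V f e, d_transferCochain ρ V f hf e he,
    fun _ hW hWV hf' he' hρf hρe g h _ _ hw hw' =>
      transferCochain_inv ρ V f e hW hWV hf' he' hρf hρe g h hw hw'⟩

end Main

end Fermat.Agent.S55.Transfer14
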