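/-
S55 leaf 45-UNR-BRIDGE (helper97): "Prelude-unramified at `q`  ==>  locally unramified".

Model: `Ω := PadicAlgCl q`, `Gq := Ω ≃ₐ[ℚ_[q]] Ω`, `ι := padicEmbedding q`, `A_q := padicPlace q`.
-/
import Mathlib
import Fermat.Prelude.Def_GaloisRep_CompletionBridge
import Fermat.Prelude.Def_GroupCohomology_ContinuousUnramified

set_option autoImplicit false
set_option linter.style.haveILetI false

open Polynomial IntermediateField

namespace Fermat.Agent.S55.UnrBridge97

variable (q : ℕ) [Fact q.Prime]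

/-! ### (UB0) the `q`-adic place of `ℚ̄` lies over `q` -/

theorem norm_natCast_prime : ‖(q : PadicAlgCl q)‖ = (q : ℝ)⁻¹ := by
  rw [← map_natCast (algebraMap ℚ_[q] (PadicAlgCl q)), PadicAlgCl.norm_extends, Padic.norm_p]

theorem norm_natCast_prime_lt_one : ‖(q : PadicAlgCl q)‖ < 1 := by
  rw [norm_natCast_prime]
  have hq : (1 : ℝ) < q := by exact_mod_cast (Fact.out : q.Prime).one_lt
  exact inv_lt_one_of_one_lt₀ hq

/-- norm of the image of an element of `ℚ̄` -/
theorem mem_padicPlace_iff_norm {x : AlgebraicClosure ℚ} :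
    x ∈ padicPlace q ↔ ‖padicEmbedding q x‖ ≤ 1 := by
  rw [mem_padicPlace_iff]
  exact Iff.rfl

theorem mem_nonunits_padicPlace_iff {x : AlgebraicClosure ℚ} :
    x ∈ (padicPlace q).nonunits ↔ ‖padicEmbedding q x‖ < 1 := by
  rw [ValuationSubring.mem_nonunits_iff_or]
  constructor
  · rintro (rfl | h)
    · simp
    · rw [mem_padicPlace_iff_norm, map_inv₀, norm_inv, not_le] at h
      by_contra hcon
      rw [not_lt] at hcon
      have h0 : 0 < ‖padicEmbedding q x‖ := lt_of_lt_of_le one_pos hcon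
      have := inv_le_one_of_one_le₀ hcon
      linarith
  · intro h
    by_cases hx : x = 0
    · exact Or.inl hx
    · right
      rw [mem_padicPlace_iff_norm, map_inv₀, norm_inv, not_le]
      have h0 : 0 < ‖padicEmbedding q x‖ := by
        rw [norm_pos_iff]
        exact (_root_.map_ne_zero _).mpr hx
      exact (one_lt_inv₀ h0).mpr h

theorem padicPlace_liesOverPrime : (padicPlace q).LiesOverPrime q := by
  show (q : AlgebraicClosure ℚ) ∈ (padicPlace q).nonunits
  rw [mem_nonunits_padicPlace_iff, map_natCast]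
  exact norm_natCast_prime_lt_one q


/-! ### (UB1) Teichmüller representatives: the residue field of `PadicAlgCl q` is algebraic
over `𝔽_q` -/

/-- the valuation ring of `PadicAlgCl q` -/
noncomputable abbrev OO : ValuationSubring (PadicAlgCl q) := padicIntegers q

theorem mem_OO_iff {x : PadicAlgCl q} : x ∈ OO q ↔ ‖x‖ ≤ 1 := by
  rw [mem_padicIntegers_iff]
  exact Iff.rfl

theorem residue_eq_zero_iff_norm (x : OO q) :
    IsLocalRing.residue (OO q) x = 0 ↔ ‖(x : PadicAlgCl q)‖ < 1 := by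
  rw [IsLocalRing.residue_eq_zero_iff, ← (OO q).coe_mem_nonunits_iff,
    ValuationSubring.mem_nonunits_iff_or]
  constructor
  · rintro (h | h)
    · rw [h]; simp
    · rw [mem_OO_iff, norm_inv, not_le] at h
      by_contra hcon
      rw [not_lt] at hcon
      have := inv_le_one_of_one_le₀ hcon
      linarith
  · intro h
    by_cases hx : (x : PadicAlgCl q) = 0
    · exact Or.inl hx
    · right
      rw [mem_OO_iff, norm_inv, not_le]
      exact (one_lt_inv₀ (norm_pos_iff.mpr hx)).mpr h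

/-- the residue field of `PadicAlgCl q` has characteristic `q` -/
instance charP_residue : CharP (IsLocalRing.ResidueField (OO q)) q := by
  rw [CharP.charP_iff_prime_eq_zero (Fact.out : q.Prime)]
  have : ((q : OO q) : PadicAlgCl q) = (q : PadicAlgCl q) := by simp
  rw [← map_natCast (IsLocalRing.residue (OO q)), residue_eq_zero_iff_norm, this]
  exact norm_natCast_prime_lt_one q


/-- integers approximate `q`-adic integers modulo the maximal ideal -/
theorem exists_int_norm_sub_lt_one (a : ℚ_[q]) (ha : ‖a‖ ≤ 1) : ∃ n : ℤ, ‖a - (n : ℚ_[q])‖ < 1 := by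
  obtain ⟨n, -, hn⟩ := PadicInt.exists_mem_range (p := q) (⟨a, ha⟩ : ℤ_[q])
  refine ⟨(n : ℤ), ?_⟩
  rw [IsLocalRing.mem_maximalIdeal, PadicInt.mem_nonunits] at hn
  have : ((⟨a, ha⟩ - (n : ℤ_[q]) : ℤ_[q]) : ℚ_[q]) = a - ((n : ℤ) : ℚ_[q]) := by
    push_cast
    rfl
  rw [← this]
  exact hn

/-- A monic polynomial over `ℚ_q` with integral coefficients is congruent to a monic polynomial
over `ℤ` modulo the maximal ideal. -/
theorem exists_monic_int_approx (P : ℚ_[q][X]) (hP : P.Monic) (hc : ∀ n, ‖P.coeff n‖ ≤ 1) :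
    ∃ Pz : ℤ[X], Pz.Monic ∧ ∀ x : PadicAlgCl q, ‖x‖ ≤ 1 →
      ‖eval₂ (algebraMap ℚ_[q] (PadicAlgCl q)) x P - eval₂ (Int.castRingHom (PadicAlgCl q)) x Pz‖ < 1 := by
  classical
  choose n hn using fun i => exists_int_norm_sub_lt_one q (P.coeff i) (hc i)
  set d := P.natDegree with hd
  let Pz : ℤ[X] := X ^ d + ∑ i : Fin d, C (n i) * X ^ (i : ℕ)
  have hPz : Pz.Monic := by
    apply monic_X_pow_add
    exact degree_sum_fin_lt _
  refine ⟨Pz, hPz, fun x hx => ?_⟩
  have e1 : eval₂ (algebraMap ℚ_[q] (PadicAlgCl q)) x P =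
      x ^ d + ∑ i : Fin d, algebraMap ℚ_[q] (PadicAlgCl q) (P.coeff i) * x ^ (i : ℕ) := by
    conv_lhs => rw [hP.as_sum]
    simp only [eval₂_add, eval₂_pow, eval₂_X, eval₂_finsetSum, eval₂_mul, eval₂_C]
    rw [add_right_inj, Finset.sum_range]
  have e2 : eval₂ (Int.castRingHom (PadicAlgCl q)) x Pz =
      x ^ d + ∑ i : Fin d, ((n i : ℤ) : PadicAlgCl q) * x ^ (i : ℕ) := by
    simp only [Pz, eval₂_add, eval₂_pow, eval₂_X, eval₂_finsetSum, eval₂_mul, eval₂_C]
    simp only [eq_intCast]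
  rw [e1, e2, add_sub_add_left_eq_sub, ← Finset.sum_sub_distrib]
  by_cases hd0 : d = 0
  · have : IsEmpty (Fin d) := by rw [hd0]; infer_instance
    simp
  · have hne : (Finset.univ : Finset (Fin d)).Nonempty :=
      ⟨⟨0, Nat.pos_of_ne_zero hd0⟩, Finset.mem_univ _⟩
    obtain ⟨i, -, hi⟩ := IsUltrametricDist.exists_norm_finsetSum_le_of_nonempty hne
      (fun i : Fin d => algebraMap ℚ_[q] (PadicAlgCl q) (P.coeff i) * x ^ (i : ℕ) -
        ((n i : ℤ) : PadicAlgCl q) * x ^ (i : ℕ))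
    refine lt_of_le_of_lt hi ?_
    rw [← sub_mul, norm_mul, norm_pow]
    have h1 : ‖algebraMap ℚ_[q] (PadicAlgCl q) (P.coeff i) - ((n i : ℤ) : PadicAlgCl q)‖ < 1 := by
      have : algebraMap ℚ_[q] (PadicAlgCl q) (P.coeff i) - ((n i : ℤ) : PadicAlgCl q) =
          algebraMap ℚ_[q] (PadicAlgCl q) (P.coeff i - (n i : ℚ_[q])) := by
        rw [map_sub, map_intCast]
      rw [this, PadicAlgCl.norm_extends]
      exact hn i
    have h2 : ‖x‖ ^ (i : ℕ) ≤ 1 := pow_le_one₀ (norm_nonneg _) hx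
    calc _ ≤ ‖algebraMap ℚ_[q] (PadicAlgCl q) (P.coeff i) - ((n i : ℤ) : PadicAlgCl q)‖ * 1 :=
          mul_le_mul_of_nonneg_left h2 (norm_nonneg _)
      _ < 1 := by rw [mul_one]; exact h1


theorem norm_coeff_minpoly_le_one (x : PadicAlgCl q) (hx : ‖x‖ ≤ 1) (n : ℕ) :
    ‖(minpoly ℚ_[q] x).coeff n‖ ≤ 1 := by
  have hint : IsIntegral ℚ_[q] x := (PadicAlgCl.isAlgebraic q).isAlgebraic x |>.isIntegral
  refine (spectralValue_le_one_iff (minpoly.monic hint)).mp ?_ n
  have := PadicAlgCl.spectralNorm_eq q x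
  rw [spectralNorm] at this
  rw [this]
  exact hx

/-- every unit of the valuation ring of `PadicAlgCl q` has a power, of exponent prime to `q`,
congruent to `1` modulo the maximal ideal -/
theorem exists_pow_sub_one_norm_lt (x : PadicAlgCl q) (hx : ‖x‖ = 1) :
    ∃ N : ℕ, 0 < N ∧ ¬ q ∣ N ∧ ‖x ^ N - 1‖ < 1 := by
  classical
  have hq : q.Prime := Fact.out
  have hint : IsIntegral ℚ_[q] x := (PadicAlgCl.isAlgebraic q).isAlgebraic x |>.isIntegral
  obtain ⟨Pz, hPz, hap⟩ := exists_monic_int_approx q (minpoly ℚ_[q] x) (minpoly.monic hint)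
    (norm_coeff_minpoly_le_one q x hx.le)
  have h0 : ‖eval₂ (Int.castRingHom (PadicAlgCl q)) x Pz‖ < 1 := by
    have := hap x hx.le
    rwa [← aeval_def, minpoly.aeval, zero_sub, norm_neg] at this
  have hxO : x ∈ OO q := (mem_OO_iff q).mpr hx.le
  set xb := IsLocalRing.residue (OO q) ⟨x, hxO⟩ with hxb
  -- the residue of `x` is a root of `Pz`
  have hroot : eval₂ (Int.castRingHom (IsLocalRing.ResidueField (OO q))) xb Pz = 0 := by
    have e1 : eval₂ (Int.castRingHom (IsLocalRing.ResidueField (OO q))) xb Pz =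
        IsLocalRing.residue (OO q) (eval₂ (Int.castRingHom (OO q)) ⟨x, hxO⟩ Pz) := by
      rw [hom_eval₂]
      rfl
    rw [e1, residue_eq_zero_iff_norm]
    have e2 : ((eval₂ (Int.castRingHom (OO q)) ⟨x, hxO⟩ Pz : OO q) : PadicAlgCl q) =
        eval₂ (Int.castRingHom (PadicAlgCl q)) x Pz := by
      have := hom_eval₂ Pz (Int.castRingHom (OO q)) (OO q).subtype ⟨x, hxO⟩
      rw [show ((OO q).subtype.comp (Int.castRingHom (OO q))) = Int.castRingHom (PadicAlgCl q) from
        RingHom.ext_int _ _] at this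
      exact this
    rw [e2]
    exact h0
  have hintZ : IsIntegral ℤ xb := ⟨Pz, hPz, hroot⟩
  letI : Algebra (ZMod q) (IsLocalRing.ResidueField (OO q)) :=
    ZMod.algebra (IsLocalRing.ResidueField (OO q)) q
  have hintF : IsIntegral (ZMod q) xb := by
    refine ⟨Pz.map (Int.castRingHom (ZMod q)), hPz.map _, ?_⟩
    rw [eval₂_map, ← hroot]
    congr 1
    exact RingHom.ext_int _ _
  have hxb0 : xb ≠ 0 := by
    rw [hxb, Ne, residue_eq_zero_iff_norm]
    simp only [hx, lt_self_iff_false, not_false_eq_true]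
  have : FiniteDimensional (ZMod q) (ZMod q)⟮xb⟯ := adjoin.finiteDimensional hintF
  have : Finite (ZMod q)⟮xb⟯ := Module.finite_of_finite (ZMod q)
  letI : Fintype (ZMod q)⟮xb⟯ := Fintype.ofFinite _
  let g : (ZMod q)⟮xb⟯ := ⟨xb, mem_adjoin_simple_self _ xb⟩
  have hg0 : g ≠ 0 := fun h => hxb0 (congrArg Subtype.val h)
  have hpow := FiniteField.pow_card_sub_one_eq_one g hg0
  obtain ⟨n, -, hcard⟩ := FiniteField.card (ZMod q)⟮xb⟯ q
  refine ⟨q ^ (n : ℕ) - 1, ?_, ?_, ?_⟩
  · have : 2 ≤ q ^ (n : ℕ) := le_trans hq.two_le (Nat.le_self_pow n.pos.ne' q)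
    omega
  · intro hdvd
    have h1 : q ∣ q ^ (n : ℕ) := dvd_pow_self q n.pos.ne'
    have h2 : 1 ≤ q ^ (n : ℕ) := Nat.one_le_pow _ _ hq.pos
    have : q ∣ 1 := by
      have := (Nat.dvd_sub h1 hdvd)
      rwa [Nat.sub_sub_self h2] at this
    exact hq.one_lt.ne' (Nat.dvd_one.mp this)
  · rw [hcard] at hpow
    have hxbpow : xb ^ (q ^ (n : ℕ) - 1) = 1 := by
      have := congrArg Subtype.val hpow
      simpa [g] using this
    have : IsLocalRing.residue (OO q) (⟨x, hxO⟩ ^ (q ^ (n : ℕ) - 1) - 1) = 0 := by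
      rw [map_sub, map_pow, map_one, ← hxb, hxbpow, sub_self]
    rw [residue_eq_zero_iff_norm] at this
    simpa using this


theorem norm_sub_le_max' (x y : PadicAlgCl q) : ‖x - y‖ ≤ max ‖x‖ ‖y‖ := by
  have := IsUltrametricDist.norm_add_le_max x (-y)
  rwa [norm_neg, ← sub_eq_add_neg] at this

/-- **(UB1)** Teichmüller representatives: every unit of the valuation ring of `PadicAlgCl q` is
congruent, modulo the maximal ideal, to a root of unity of order prime to `q`. -/
theorem exists_rootOfUnity_close (x : PadicAlgCl q) (hx : ‖x‖ = 1) :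
    ∃ (m : ℕ) (ζ : PadicAlgCl q), 0 < m ∧ ¬ q ∣ m ∧ ζ ^ m = 1 ∧ ‖x - ζ‖ < 1 := by
  classical
  obtain ⟨N, hN0, hqN, hlt⟩ := exists_pow_sub_one_norm_lt q x hx
  refine ⟨N, ?_⟩
  let f : (PadicAlgCl q)[X] := X ^ N - 1
  have hfm : f.Monic := monic_X_pow_sub_C (1 : PadicAlgCl q) hN0.ne'
  have hsplit : f.Splits := IsAlgClosed.splits f
  have hev : f.eval x = (f.roots.map (x - ·)).prod := hsplit.eval_eq_prod_roots_of_monic hfm x
  have hev' : f.eval x = x ^ N - 1 := by simp [f]
  by_contra hcon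
  push Not at hcon
  -- every factor has norm one
  have hfac : ∀ ζ ∈ f.roots, ‖x - ζ‖ = 1 := by
    intro ζ hζ
    have hζ' : ζ ^ N = 1 := by
      have := (mem_roots hfm.ne_zero).mp hζ
      simpa [f, sub_eq_zero] using this
    have hge := hcon ζ hN0 hqN hζ'
    have hζn : ‖ζ‖ = 1 := by
      have h1 : ‖ζ‖ ^ N = 1 := by rw [← norm_pow, hζ', norm_one]
      exact (pow_eq_one_iff_of_nonneg (norm_nonneg _) hN0.ne').mp h1
    have hle : ‖x - ζ‖ ≤ 1 := by
      refine (norm_sub_le_max' q x ζ).trans ?_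
      rw [hx, hζn, max_self]
    exact le_antisymm hle hge
  have hprod : ‖(f.roots.map (x - ·)).prod‖ = 1 := by
    have : ∀ s : Multiset (PadicAlgCl q), (∀ ζ ∈ s, ‖x - ζ‖ = 1) → ‖(s.map (x - ·)).prod‖ = 1 := by
      intro s
      induction s using Multiset.induction_on with
      | empty => intro _; simp
      | cons a s ih =>
        intro h
        rw [Multiset.map_cons, Multiset.prod_cons, norm_mul, h a (Multiset.mem_cons_self a s),
          ih (fun ζ hζ => h ζ (Multiset.mem_cons_of_mem hζ)), mul_one]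
    exact this _ hfac
  rw [← hev, hev'] at hprod
  linarith

/-- **(UB2)** an automorphism fixing all roots of unity of order prime to `q` acts trivially on
the residue field: it lies in the local inertia group. -/
theorem norm_sub_lt_one_of_fixes_roots (τ : PadicAlgCl q ≃ₐ[ℚ_[q]] PadicAlgCl q)
    (hτ : ∀ (m : ℕ) (ζ : PadicAlgCl q), ¬ q ∣ m → ζ ^ m = 1 → τ ζ = ζ)
    (x : PadicAlgCl q) (hx : ‖x‖ ≤ 1) : ‖τ x - x‖ < 1 := by
  have hiso : ∀ y : PadicAlgCl q, ‖τ y‖ = ‖y‖ := fun y => by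
    have := nnnorm_padicAlgCl_algEquiv q τ y
    exact congrArg NNReal.toReal this
  rcases hx.lt_or_eq with hlt | heq
  · refine lt_of_le_of_lt (norm_sub_le_max' q _ _) ?_
    rw [hiso, max_self]
    exact hlt
  · obtain ⟨m, ζ, -, hqm, hζ, hclose⟩ := exists_rootOfUnity_close q x heq
    have hfix := hτ m ζ hqm hζ
    have : τ x - x = τ (x - ζ) - (x - ζ) := by
      rw [map_sub, hfix]; ring
    rw [this]
    refine lt_of_le_of_lt (norm_sub_le_max' q _ _) ?_
    rw [hiso, max_self]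
    exact hclose


/-- **(UB3)** the local inertia group maps into the Prelude inertia group of `padicPlace q`. -/
theorem localGaloisToGlobal_mem_inertiaSubgroupIn (τ : PadicAlgCl q ≃ₐ[ℚ_[q]] PadicAlgCl q)
    (hτ : ∀ (m : ℕ) (ζ : PadicAlgCl q), ¬ q ∣ m → ζ ^ m = 1 → τ ζ = ζ) :
    localGaloisToGlobal q τ ∈ (padicPlace q).inertiaSubgroupIn ℚ := by
  have hdec := localGaloisToGlobal_mem_decompositionSubgroup q τ
  refine ⟨⟨localGaloisToGlobal q τ, hdec⟩, ?_, rfl⟩
  show (⟨localGaloisToGlobal q τ, hdec⟩ : (padicPlace q).decompositionSubgroup ℚ) ∈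
    (padicPlace q).inertiaSubgroup ℚ
  rw [ValuationSubring.inertiaSubgroup, MonoidHom.mem_ker]
  ext y
  obtain ⟨a, rfl⟩ := IsLocalRing.residue_surjective y
  show (⟨localGaloisToGlobal q τ, hdec⟩ : (padicPlace q).decompositionSubgroup ℚ) •
    (IsLocalRing.residue (padicPlace q) a) = IsLocalRing.residue (padicPlace q) a
  rw [← IsLocalRing.ResidueField.residue_smul, ← sub_eq_zero, ← map_sub,
    IsLocalRing.residue_eq_zero_iff, ← (padicPlace q).coe_mem_nonunits_iff]
  show localGaloisToGlobal q τ (a : AlgebraicClosure ℚ) - (a : AlgebraicClosure ℚ) ∈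
    (padicPlace q).nonunits
  rw [mem_nonunits_padicPlace_iff, map_sub, padicEmbedding_localGaloisToGlobal]
  exact norm_sub_lt_one_of_fixes_roots q τ hτ _ ((mem_padicPlace_iff_norm q).mp a.2)

/-- the local level of a subfield `F` of `ℚ̄`: the field `ℚ_q(ι F)` -/
noncomputable def localLevel (F : IntermediateField ℚ (AlgebraicClosure ℚ)) :
    IntermediateField ℚ_[q] (PadicAlgCl q) :=
  adjoin ℚ_[q] ((padicEmbedding q) '' (F : Set (AlgebraicClosure ℚ)))

/-- **(UB4)** if the Prelude inertia group of `padicPlace q` fixes `F`, every element of the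
local inertia group fixes the local level of `F`. -/
theorem fixes_localLevel (F : IntermediateField ℚ (AlgebraicClosure ℚ))
    (hF : (padicPlace q).inertiaSubgroupIn ℚ ≤ F.fixingSubgroup)
    (τ : PadicAlgCl q ≃ₐ[ℚ_[q]] PadicAlgCl q)
    (hτ : ∀ (m : ℕ) (ζ : PadicAlgCl q), ¬ q ∣ m → ζ ^ m = 1 → τ ζ = ζ) :
    ∀ y ∈ localLevel q F, τ y = y := by
  have hmem := hF (localGaloisToGlobal_mem_inertiaSubgroupIn q τ hτ)
  rw [IntermediateField.mem_fixingSubgroup_iff] at hmem
  have hle : localLevel q F ≤ IntermediateField.fixedField (Subgroup.zpowers τ) := by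
    rw [localLevel, IntermediateField.adjoin_le_iff]
    rintro _ ⟨x, hx, rfl⟩
    rw [SetLike.mem_coe, IntermediateField.mem_fixedField_iff]
    intro σ hσ
    obtain ⟨k, rfl⟩ := Subgroup.mem_zpowers_iff.mp hσ
    have h1 : τ (padicEmbedding q x) = padicEmbedding q x := by
      rw [← padicEmbedding_localGaloisToGlobal, hmem x hx]
    have h2 : ∀ n : ℕ, (τ ^ n) (padicEmbedding q x) = padicEmbedding q x := by
      intro n
      induction n with
      | zero => simp
      | succ n ih => rw [pow_succ, AlgEquiv.mul_apply, h1, ih]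
    have h1' : τ⁻¹ (padicEmbedding q x) = padicEmbedding q x := by
      conv_lhs => rw [← h1]
      exact τ.symm_apply_apply _
    have h3 : ∀ n : ℕ, (τ⁻¹ ^ n) (padicEmbedding q x) = padicEmbedding q x := by
      intro n
      induction n with
      | zero => simp
      | succ n ih => rw [pow_succ, AlgEquiv.mul_apply, h1', ih]
    rcases Int.eq_nat_or_neg k with ⟨n, rfl | rfl⟩
    · rw [zpow_natCast]; exact h2 n
    · rw [zpow_neg, zpow_natCast, ← inv_pow]; exact h3 n
  intro y hy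
  have := hle hy
  rw [IntermediateField.mem_fixedField_iff] at this
  exact this τ (Subgroup.mem_zpowers τ)


/-! ### (UB5) the local level is unramified -/

/-- the maximal unramified extension of `ℚ_q` inside `PadicAlgCl q`: generated by the roots of
unity of order prime to `q` -/
noncomputable def unrField : IntermediateField ℚ_[q] (PadicAlgCl q) :=
  adjoin ℚ_[q] {ζ : PadicAlgCl q | ∃ m : ℕ, 0 < m ∧ ¬ q ∣ m ∧ ζ ^ m = 1}

/-- the field of `m`-th roots of unity over `ℚ_q` -/
noncomputable def unrLevel (m : ℕ) : IntermediateField ℚ_[q] (PadicAlgCl q) :=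
  adjoin ℚ_[q] {ζ : PadicAlgCl q | ζ ^ m = 1}

theorem unrLevel_mono {m n : ℕ} (h : m ∣ n) : unrLevel q m ≤ unrLevel q n := by
  apply adjoin.mono
  intro ζ hζ
  obtain ⟨k, rfl⟩ := h
  show ζ ^ (m * k) = 1
  rw [pow_mul, show ζ ^ m = 1 from hζ, one_pow]

theorem unrLevel_le_unrField {m : ℕ} (hm : 0 < m) (hqm : ¬ q ∣ m) : unrLevel q m ≤ unrField q :=
  adjoin.mono _ _ _ fun _ hζ => ⟨m, hm, hqm, hζ⟩

/-- **(UB5)** if the Prelude inertia group at `padicPlace q` fixes `F`, the local level of `F` is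
contained in the maximal unramified extension of `ℚ_q`. -/
theorem localLevel_le_unrField (F : IntermediateField ℚ (AlgebraicClosure ℚ))
    (hF : (padicPlace q).inertiaSubgroupIn ℚ ≤ F.fixingSubgroup) :
    localLevel q F ≤ unrField q := by
  rw [← InfiniteGalois.fixedField_fixingSubgroup (unrField q)]
  intro y hy
  rw [IntermediateField.mem_fixedField_iff]
  intro τ hτ
  refine fixes_localLevel q F hF τ (fun m ζ hqm hζ => ?_) y hy
  rw [IntermediateField.mem_fixingSubgroup_iff] at hτ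
  refine hτ ζ (subset_adjoin _ _ ⟨m, Nat.pos_of_ne_zero ?_, hqm, hζ⟩)
  rintro rfl
  exact hqm (dvd_zero q)

theorem exists_pow_eq_one_of_finset (T : Finset (PadicAlgCl q))
    (hT : ∀ ζ ∈ T, ∃ m : ℕ, 0 < m ∧ ¬ q ∣ m ∧ ζ ^ m = 1) :
    ∃ M : ℕ, 0 < M ∧ ¬ q ∣ M ∧ ∀ ζ ∈ T, ζ ^ M = 1 := by
  classical
  have hq : q.Prime := Fact.out
  induction T using Finset.induction_on with
  | empty => exact ⟨1, one_pos, fun h => hq.one_lt.ne' (Nat.dvd_one.mp h), by simp⟩
  | insert a T _ ih =>
    obtain ⟨M, hM0, hqM, hM⟩ := ih fun ζ hζ => hT ζ (Finset.mem_insert_of_mem hζ)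
    obtain ⟨m, hm0, hqm, hm⟩ := hT a (Finset.mem_insert_self a T)
    refine ⟨m * M, Nat.mul_pos hm0 hM0, ?_, ?_⟩
    · intro h
      rcases hq.dvd_mul.mp h with h | h
      · exact hqm h
      · exact hqM h
    · intro ζ hζ
      rcases Finset.mem_insert.mp hζ with rfl | hζ
      · rw [pow_mul, hm, one_pow]
      · rw [mul_comm, pow_mul, hM ζ hζ, one_pow]

theorem exists_unrLevel_of_mem_unrField {g : PadicAlgCl q} (hg : g ∈ unrField q) :
    ∃ M : ℕ, 0 < M ∧ ¬ q ∣ M ∧ g ∈ unrLevel q M := by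
  obtain ⟨T, hTS, hgT⟩ := exists_finset_of_mem_adjoin hg
  obtain ⟨M, hM0, hqM, hM⟩ := exists_pow_eq_one_of_finset q T fun ζ hζ => hTS hζ
  refine ⟨M, hM0, hqM, ?_⟩
  exact (adjoin.mono _ _ _ fun ζ hζ => hM ζ hζ) hgT

theorem exists_unrLevel_of_finset (G : Finset (PadicAlgCl q)) (hG : ∀ g ∈ G, g ∈ unrField q) :
    ∃ M : ℕ, 0 < M ∧ ¬ q ∣ M ∧ ∀ g ∈ G, g ∈ unrLevel q M := by
  classical
  have hq : q.Prime := Fact.out
  induction G using Finset.induction_on with
  | empty => exact ⟨1, one_pos, fun h => hq.one_lt.ne' (Nat.dvd_one.mp h), by simp⟩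
  | insert a G _ ih =>
    obtain ⟨M, hM0, hqM, hM⟩ := ih fun g hg => hG g (Finset.mem_insert_of_mem hg)
    obtain ⟨m, hm0, hqm, hm⟩ := exists_unrLevel_of_mem_unrField q (hG a (Finset.mem_insert_self a G))
    refine ⟨m * M, Nat.mul_pos hm0 hM0, ?_, ?_⟩
    · intro h
      rcases hq.dvd_mul.mp h with h | h
      · exact hqm h
      · exact hqM h
    · intro g hg
      rcases Finset.mem_insert.mp hg with rfl | hg
      · exact unrLevel_mono q (dvd_mul_right m M) hm
      · exact unrLevel_mono q (dvd_mul_left M m) (hM g hg)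

/-- the local level of a finite extension is generated by the image of a basis -/
theorem localLevel_eq_adjoin_basis (F : IntermediateField ℚ (AlgebraicClosure ℚ))
    {n : ℕ} (b : Module.Basis (Fin n) ℚ F) :
    localLevel q F = adjoin ℚ_[q] (Set.range fun i => padicEmbedding q (b i : AlgebraicClosure ℚ)) := by
  apply le_antisymm
  · rw [localLevel, adjoin_le_iff]
    rintro _ ⟨x, hx, rfl⟩
    have hsum := b.sum_repr ⟨x, hx⟩
    have hx' : x = ∑ i, (b.repr ⟨x, hx⟩ i) • (b i : AlgebraicClosure ℚ) := by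
      have := congrArg (Subtype.val) hsum
      simp only [AddSubmonoidClass.coe_finsetSum, SetLike.val_smul] at this
      exact this.symm
    rw [hx', map_sum]
    refine sum_mem fun i _ => ?_
    rw [Algebra.smul_def, map_mul]
    refine mul_mem ?_ (subset_adjoin _ _ ⟨i, rfl⟩)
    have : padicEmbedding q (algebraMap ℚ (AlgebraicClosure ℚ) (b.repr ⟨x, hx⟩ i)) =
        algebraMap ℚ_[q] (PadicAlgCl q) ((b.repr ⟨x, hx⟩ i : ℚ) : ℚ_[q]) := by
      rw [AlgHom.commutes]
      simp
    rw [this]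
    exact (adjoin ℚ_[q] _).algebraMap_mem _
  · rw [localLevel]
    apply adjoin.mono
    rintro _ ⟨i, rfl⟩
    exact ⟨_, (b i).2, rfl⟩

/-- **(UB5), finite form**: the local level of a finite `F/ℚ` fixed by the Prelude inertia group
at `padicPlace q` is contained in `ℚ_q(μ_m)` for some `m` prime to `q`. -/
theorem exists_unr_level (F : IntermediateField ℚ (AlgebraicClosure ℚ)) [FiniteDimensional ℚ F]
    (hF : (padicPlace q).inertiaSubgroupIn ℚ ≤ F.fixingSubgroup) :
    ∃ m : ℕ, 0 < m ∧ ¬ q ∣ m ∧ localLevel q F ≤ unrLevel q m := by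
  classical
  let b := Module.finBasis ℚ F
  have hle := localLevel_le_unrField q F hF
  rw [localLevel_eq_adjoin_basis q F b] at hle ⊢
  obtain ⟨M, hM0, hqM, hM⟩ := exists_unrLevel_of_finset q
    (Finset.univ.image fun i => padicEmbedding q (b i : AlgebraicClosure ℚ)) (by
      intro g hg
      obtain ⟨i, -, rfl⟩ := Finset.mem_image.mp hg
      exact hle (subset_adjoin _ _ ⟨i, rfl⟩))
  refine ⟨M, hM0, hqM, ?_⟩
  rw [adjoin_le_iff]
  rintro _ ⟨i, rfl⟩
  exact hM _ (Finset.mem_image.mpr ⟨i, Finset.mem_univ _, rfl⟩)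


theorem mem_fixingSubgroup_unrField_iff (τ : PadicAlgCl q ≃ₐ[ℚ_[q]] PadicAlgCl q) :
    τ ∈ (unrField q).fixingSubgroup ↔
      ∀ (m : ℕ) (ζ : PadicAlgCl q), ¬ q ∣ m → ζ ^ m = 1 → τ ζ = ζ := by
  rw [IntermediateField.mem_fixingSubgroup_iff]
  constructor
  · intro h m ζ hqm hζ
    refine h ζ (subset_adjoin _ _ ⟨m, Nat.pos_of_ne_zero ?_, hqm, hζ⟩)
    rintro rfl
    exact hqm (dvd_zero q)
  · intro h y hy
    have hle : unrField q ≤ IntermediateField.fixedField (Subgroup.closure {τ}) := by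
      rw [unrField, adjoin_le_iff]
      rintro ζ ⟨m, -, hqm, hζ⟩
      rw [SetLike.mem_coe, IntermediateField.mem_fixedField_iff]
      intro σ hσ
      induction hσ using Subgroup.closure_induction with
      | mem x hx => rw [Set.mem_singleton_iff.mp hx]; exact h m ζ hqm hζ
      | one => rfl
      | mul x y _ _ hx hy => rw [AlgEquiv.mul_apply, hy, hx]
      | inv x _ hx =>
        conv_lhs => rw [← hx]
        exact x.symm_apply_apply _
    have := hle hy
    rw [IntermediateField.mem_fixedField_iff] at this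
    exact this τ (Subgroup.subset_closure rfl)

/-- the local inertia group (= the fixing subgroup of the maximal unramified extension) maps into
the Prelude inertia group -/
theorem localGaloisToGlobal_mem_inertiaSubgroupIn' (τ : PadicAlgCl q ≃ₐ[ℚ_[q]] PadicAlgCl q)
    (hτ : τ ∈ (unrField q).fixingSubgroup) :
    localGaloisToGlobal q τ ∈ (padicPlace q).inertiaSubgroupIn ℚ :=
  localGaloisToGlobal_mem_inertiaSubgroupIn q τ ((mem_fixingSubgroup_unrField_iff q τ).mp hτ)

/-! ### (UB6) Prelude shapes -/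

/-- **(UB6)** a level `F` unramified outside `S` (Prelude sense) has, at every `q ∉ S`, local
level inside `ℚ_q(μ_m)` with `m` prime to `q`. -/
theorem exists_unr_level_of_isUnramifiedOutside (S : Finset Nat.Primes)
    (F : IntermediateField ℚ (AlgebraicClosure ℚ)) (hF : F.IsUnramifiedOutside S)
    (r : Nat.Primes) (hr : r ∉ S) :
    haveI : Fact (r : ℕ).Prime := ⟨r.2⟩
    ∃ m : ℕ, 0 < m ∧ ¬ (r : ℕ) ∣ m ∧ localLevel (r : ℕ) F ≤ unrLevel (r : ℕ) m := by
  haveI : Fact (r : ℕ).Prime := ⟨r.2⟩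
  haveI := hF.1
  exact exists_unr_level (r : ℕ) F (hF.2 r hr _ (padicPlace_liesOverPrime (r : ℕ)))

/-- **(UB6)** a representation on which the Prelude inertia group at `padicPlace q` acts
trivially is trivial on the local inertia group. -/
theorem rho_localGaloisToGlobal_eq_one {k : Type*} [CommRing k]
    (M : Rep k (AlgebraicClosure ℚ ≃ₐ[ℚ] AlgebraicClosure ℚ))
    (hM : ∀ g ∈ (padicPlace q).inertiaSubgroupIn ℚ, M.ρ g = 1)
    (τ : PadicAlgCl q ≃ₐ[ℚ_[q]] PadicAlgCl q) (hτ : τ ∈ (unrField q).fixingSubgroup) :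
    M.ρ (localGaloisToGlobal q τ) = 1 :=
  hM _ (localGaloisToGlobal_mem_inertiaSubgroupIn' q τ hτ)

end Fermat.Agent.S55.UnrBridge97
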