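import Mathlib
import Fermat.Agent.S55.Idele73.Basic
import Fermat.Agent.S55.ProfinLoc80.Decomp

/-!
# `[34c-WEAK-APPROX]` weak approximation in the coinduced idele model (helper81)

`E` is a level (finite normal subfield of `ℚbar`), `T` a finite set of rational primes.  A family of
"coinduced" functions `f_l : Gal(E/ℚ) → PadicAlgCl l` (`f (τ|_E * g) = τ (f g)`, i.e. an element of
`E ⊗ ℚ_l` in the model of `Idele73`) can be approximated simultaneously, at all `l ∈ T` and all
`g`, by a single global element `x ∈ E`: `‖ι_l (g x) - f_l g‖ < ε`.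
-/

set_option autoImplicit false
set_option linter.unusedSectionVars false

namespace Fermat.Agent.S55.WeakApprox81

open Fermat.Agent.S55.Idele73.Basic Fermat.Agent.S55.ProfinLoc80

/-- Abstract weak approximation (Mathlib's `AbsoluteValue.denseRange_algebraMap_pi`) in
`ε`-form. -/
theorem weak_approx_abs {F : Type*} [Field F] {ι : Type*} [Finite ι] (v : ι → AbsoluteValue F ℝ)
    (h : ∀ i, (v i).IsNontrivial) (hv : Pairwise fun i j ↦ ¬(v i).IsEquiv (v j))
    (z : ι → F) {ε : ℝ} (hε : 0 < ε) : ∃ x : F, ∀ i, v i (x - z i) < ε := by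
  have := Fintype.ofFinite ι
  obtain ⟨x, hx⟩ := (AbsoluteValue.denseRange_algebraMap_pi h hv).exists_dist_lt
    (fun i => WithAbs.toAbs (v i) (z i)) hε
  refine ⟨x, fun i => ?_⟩
  rw [dist_comm, dist_pi_lt_iff hε] at hx
  have := hx i
  rw [dist_eq_norm] at this
  exact this

section OnePrime

variable (l : ℕ) [Fact l.Prime] (E : IntermediateField ℚ Qbar) [Normal ℚ E]

/-- The absolute value `x ↦ ‖ι_l (g x)‖` on `E` (the place `g⁻¹ w_l` of `E`). -/
noncomputable def abv (g : GalL E) : AbsoluteValue E ℝ where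
  toFun x := ‖iotaL l E (g x)‖
  map_mul' x y := by rw [map_mul, map_mul, norm_mul]
  nonneg' x := norm_nonneg _
  eq_zero' x := by
    rw [norm_eq_zero, map_eq_zero, EmbeddingLike.map_eq_zero_iff]
  add_le' x y := by rw [map_add, map_add]; exact norm_add_le _ _

lemma abv_apply (g : GalL E) (x : E) : abv l E g x = ‖iotaL l E (g x)‖ := rfl

lemma abv_natCast_self (g : GalL E) : abv l E g (l : E) = (l : ℝ)⁻¹ := by
  rw [abv_apply, map_natCast, map_natCast]; exact norm_natCast_q l

lemma abv_isNontrivial (g : GalL E) : (abv l E g).IsNontrivial := by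
  refine ⟨(l : E), Nat.cast_ne_zero.mpr (Fact.out : l.Prime).ne_zero, ?_⟩
  rw [abv_natCast_self]
  have := one_lt_q l
  intro h
  rw [inv_eq_one] at h
  linarith

/-- The norm of a prime `l' ≠ l` in `PadicAlgCl l` is one. -/
lemma norm_natCast_of_ne {l' : ℕ} (hl' : l'.Prime) (hne : l' ≠ l) :
    ‖(l' : PadicAlgCl l)‖ = 1 := by
  rw [← map_natCast (algebraMap ℚ_[l] (PadicAlgCl l)), PadicAlgCl.norm_extends,
    Padic.norm_natCast_eq_one_iff]
  exact (Nat.coprime_primes (Fact.out : l.Prime) hl').mpr hne.symm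

lemma abv_natCast_of_ne (g : GalL E) {l' : ℕ} (hl' : l'.Prime) (hne : l' ≠ l) :
    abv l E g (l' : E) = 1 := by
  rw [abv_apply, map_natCast, map_natCast]; exact norm_natCast_of_ne l hl' hne

/-- Equivalent absolute values `abv l E g`, `abv l E g'` (same prime) are equal. -/
lemma abv_eq_of_isEquiv {g g' : GalL E} (h : (abv l E g).IsEquiv (abv l E g')) :
    abv l E g = abv l E g' := by
  -- `σ = g⁻¹ g'` preserves the unit ball of `‖ι (g ·)‖`
  let j : E →+* PadicAlgCl l := (iotaL l E).comp (g : E →+* E)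
  let σ : E ≃+* E := (g⁻¹ * g' : GalL E).toRingEquiv
  have hjσ : ∀ x, j (σ x) = iotaL l E (g' x) := fun x => by
    change iotaL l E (g ((g⁻¹ * g') x)) = _
    rw [AlgEquiv.mul_apply]
    change iotaL l E (g (g.symm (g' x))) = _
    rw [AlgEquiv.apply_symm_apply]
  have key : ∀ x, ‖j (σ x)‖ ≤ 1 ↔ ‖j x‖ ≤ 1 := fun x => by
    rw [hjσ]
    exact (h.le_one_iff (x := x)).symm
  ext x
  have := norm_map_eq_of_unitBall l j σ key x
  rw [hjσ] at this
  exact this.symm

/-- Elements of the local Galois group are isometries. -/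
lemma norm_algEquiv (τ : Gq l) (y : PadicAlgCl l) : ‖τ y‖ = ‖y‖ :=
  congrArg NNReal.toReal (nnnorm_padicAlgCl_algEquiv l τ y)

/-- The places of `E` above `l` are the cosets `D_l \ Gal(E/ℚ)`. -/
theorem abv_eq_iff {g g' : GalL E} :
    abv l E g = abv l E g' ↔ ∃ τ : Gq l, locHom l E τ * g = g' := by
  constructor
  · intro h
    let σ : GalL E := g' * g⁻¹
    have hσ : ∀ x : E, ‖padicEmbedding l ((σ x : E) : AlgebraicClosure ℚ)‖ =
        ‖padicEmbedding l (x : AlgebraicClosure ℚ)‖ := by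
      intro x
      have h1 : abv l E g' (g⁻¹ x) = abv l E g (g⁻¹ x) := by rw [h]
      rw [abv_apply, abv_apply] at h1
      have h2 : g (g⁻¹ x) = x := AlgEquiv.apply_symm_apply g x
      rw [h2] at h1
      exact h1
    obtain ⟨τ, hτ⟩ := exists_local_lift_of_norm l E σ hσ
    refine ⟨τ, ?_⟩
    have hloc : locHom l E τ = σ := by
      ext x
      apply padicEmbedding_injective l
      have := iotaL_locHom l E τ x
      rw [iotaL_apply, iotaL_apply] at this
      rw [this, hτ]
    rw [hloc]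
    change g' * g⁻¹ * g = g'
    group
  · rintro ⟨τ, rfl⟩
    ext x
    rw [abv_apply, abv_apply, AlgEquiv.mul_apply, iotaL_locHom, norm_algEquiv]

/-- The additive coinduction condition (membership in `Rep.coind (locHom l E) _`). -/
def IsCoind (f : GalL E → PadicAlgCl l) : Prop :=
  ∀ (τ : Gq l) (g : GalL E), f (locHom l E τ * g) = τ (f g)

/-- The values of a coinduced function lie in the local level `ℚ_l(ι E)`. -/
theorem coind_mem_localLevel {f : GalL E → PadicAlgCl l} (hf : IsCoind l E f) (g : GalL E) :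
    f g ∈ localLevel l E := by
  rw [← InfiniteGalois.fixedField_fixingSubgroup (localLevel l E),
    IntermediateField.mem_fixedField_iff]
  intro τ hτ
  have h1 : localGaloisToGlobal l τ ∈ E.fixingSubgroup :=
    (mem_fixingSubgroup_localLevel_iff l E τ).1 hτ
  have h2 : locHom l E τ = 1 := by
    ext x
    change ((resL E (localGaloisToGlobal l τ) x : E) : Qbar) = (x : Qbar)
    rw [resL_apply]
    exact (IntermediateField.mem_fixingSubgroup_iff _ _).1 h1 x x.2
  have := hf τ g
  rw [h2, one_mul] at this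
  exact this.symm

end OnePrime

section Main

variable (E : IntermediateField ℚ Qbar) [FiniteDimensional ℚ E] [Normal ℚ E]

/-- `Fact` instance of a bundled prime (a `Prop`, so any two such instances agree). -/
theorem factOfPrimes (l : Nat.Primes) : Fact (l : ℕ).Prime := ⟨l.2⟩

attribute [local instance] factOfPrimes

/-- Equivalent absolute values `abv l E g`, `abv l' E g'` live over the same prime. -/
lemma prime_eq_of_isEquiv {l l' : Nat.Primes} {g g' : GalL E}
    (h : (abv l E g).IsEquiv (abv l' E g')) : l = l' := by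
  by_contra hne
  have hne' : (l : ℕ) ≠ (l' : ℕ) := fun e => hne (Subtype.ext e)
  have h1 : abv l E g ((l : ℕ) : E) < 1 := by
    rw [abv_natCast_self]
    exact inv_lt_one_of_one_lt₀ (one_lt_q l)
  have h2 : abv l' E g' ((l : ℕ) : E) < 1 := h.lt_one_iff.mp h1
  rw [abv_natCast_of_ne (l' : ℕ) E g' l.2 hne'] at h2
  exact lt_irrefl _ h2

/-- **Weak approximation in the coinduced model.** -/
theorem weak_approx (T : Finset Nat.Primes) (f : ∀ l : Nat.Primes, GalL E → PadicAlgCl l)
    (hf : ∀ l ∈ T, IsCoind l E (f l)) {ε : ℝ} (hε : 0 < ε) :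
    ∃ x : E, ∀ l ∈ T, ∀ g : GalL E, ‖iotaL l E (g x) - f l g‖ < ε := by
  classical
  -- the finite set of absolute values above `T`
  let A : Set (AbsoluteValue E ℝ) := {v | ∃ l ∈ T, ∃ g : GalL E, v = abv l E g}
  have hAfin : A.Finite := by
    refine Set.Finite.subset
      (Set.Finite.image (fun p : Nat.Primes × GalL E => abv p.1 E p.2)
        ((T.finite_toSet).prod (Set.finite_univ (α := GalL E)))) ?_
    rintro v ⟨l, hl, g, rfl⟩
    exact ⟨(l, g), ⟨hl, Set.mem_univ _⟩, rfl⟩
  have : Finite A := hAfin.to_subtype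
  have hnontriv : ∀ i : A, (i.1).IsNontrivial := by
    rintro ⟨v, l, hl, g, rfl⟩
    exact abv_isNontrivial l E g
  have hpair : Pairwise fun i j : A => ¬ (i.1).IsEquiv (j.1) := by
    rintro ⟨v, l, hl, g, rfl⟩ ⟨v', l', hl', g', rfl⟩ hij heq
    apply hij
    apply Subtype.ext
    have hll : l = l' := prime_eq_of_isEquiv E heq
    subst hll
    exact abv_eq_of_isEquiv l E heq
  have hε2 : 0 < ε / 2 := half_pos hε
  -- for each place a target in `E`
  have key : ∀ i : A, ∃ z : E, ∀ (l : Nat.Primes), l ∈ T → ∀ g : GalL E, i.1 = abv l E g →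
      ∀ x : E, i.1 (x - z) < ε / 2 → ‖iotaL l E (g x) - f l g‖ < ε := by
    rintro ⟨v, l₀, hl₀, g₀, rfl⟩
    obtain ⟨y, hy⟩ := exists_norm_sub_lt l₀ E (coind_mem_localLevel l₀ E (hf l₀ hl₀) g₀) hε2
    refine ⟨g₀⁻¹ y, fun l hl g hvg x hx => ?_⟩
    have hll : l₀ = l := prime_eq_of_isEquiv E (by rw [← hvg]; exact AbsoluteValue.IsEquiv.rfl)
    subst hll
    obtain ⟨τ, rfl⟩ := (abv_eq_iff l₀ E).1 hvg
    rw [hf l₀ hl₀ τ g₀, AlgEquiv.mul_apply, iotaL_locHom, ← map_sub, norm_algEquiv]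
    have h1 : ‖iotaL l₀ E (g₀ x) - padicEmbedding l₀ (y : AlgebraicClosure ℚ)‖ < ε / 2 := by
      have h2 : abv l₀ E g₀ (x - g₀⁻¹ y) < ε / 2 := hx
      rw [abv_apply, map_sub, map_sub] at h2
      have h3 : g₀ (g₀⁻¹ y) = y := AlgEquiv.apply_symm_apply g₀ y
      rw [h3] at h2
      exact h2
    calc ‖iotaL l₀ E (g₀ x) - f l₀ g₀‖
        = ‖(iotaL l₀ E (g₀ x) - padicEmbedding l₀ (y : AlgebraicClosure ℚ)) +
            (padicEmbedding l₀ (y : AlgebraicClosure ℚ) - f l₀ g₀)‖ := by
          congr 1; ring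
      _ ≤ ‖iotaL l₀ E (g₀ x) - padicEmbedding l₀ (y : AlgebraicClosure ℚ)‖ +
            ‖padicEmbedding l₀ (y : AlgebraicClosure ℚ) - f l₀ g₀‖ := norm_add_le _ _
      _ < ε / 2 + ε / 2 := by
          rw [norm_sub_rev (padicEmbedding l₀ (y : AlgebraicClosure ℚ))]
          exact add_lt_add h1 hy
      _ = ε := add_halves ε
  choose z hz using key
  obtain ⟨x, hx⟩ := weak_approx_abs (fun i : A => i.1) hnontriv hpair z hε2
  refine ⟨x, fun l hl g => ?_⟩
  exact hz ⟨abv l E g, l, hl, g, rfl⟩ l hl g rfl x (hx ⟨abv l E g, l, hl, g, rfl⟩)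

/-- A positive function on a finite set has a positive lower bound. -/
lemma exists_pos_le_of_pos {α : Type*} (s : Finset α) (N : α → ℝ) (hN : ∀ a ∈ s, 0 < N a) :
    ∃ m : ℝ, 0 < m ∧ ∀ a ∈ s, m ≤ N a := by
  classical
  induction s using Finset.induction_on with
  | empty => exact ⟨1, one_pos, by simp⟩
  | insert a s ha ih =>
    obtain ⟨m, hm, h'⟩ := ih (fun b hb => hN b (Finset.mem_insert_of_mem hb))
    refine ⟨min m (N a), lt_min hm (hN a (Finset.mem_insert_self _ _)), fun b hb => ?_⟩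
    rcases Finset.mem_insert.mp hb with rfl | hb
    · exact min_le_right _ _
    · exact (min_le_left _ _).trans (h' b hb)

/-- **Weak approximation, multiplicative form.**  A coinduced family of units is approximated
multiplicatively by a single global unit. -/
theorem weak_approx_units (T : Finset Nat.Primes)
    (f : ∀ l : Nat.Primes, GalL E → (PadicAlgCl l)ˣ)
    (hf : ∀ l ∈ T, ∀ (τ : Gq l) (g : GalL E),
      ((f l (locHom l E τ * g) : (PadicAlgCl l)ˣ) : PadicAlgCl l) = τ (f l g))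
    {ε : ℝ} (hε : 0 < ε) :
    ∃ x : Eˣ, ∀ l ∈ T, ∀ g : GalL E,
      ‖iotaL l E (g x) * (((f l g)⁻¹ : (PadicAlgCl l)ˣ) : PadicAlgCl l) - 1‖ < ε := by
  classical
  have := Fintype.ofFinite (GalL E)
  -- lower bound for the norms of the targets
  obtain ⟨m, hm, hmle⟩ := exists_pos_le_of_pos (T ×ˢ (Finset.univ : Finset (GalL E)))
    (fun p => ‖((f p.1 p.2 : (PadicAlgCl p.1)ˣ) : PadicAlgCl p.1)‖)
    (fun p _ => norm_pos_iff.mpr (Units.ne_zero _))
  have hε' : 0 < min ε 1 * m := mul_pos (lt_min hε one_pos) hm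
  obtain ⟨x, hx⟩ := weak_approx E T (fun l g => ((f l g : (PadicAlgCl l)ˣ) : PadicAlgCl l))
    (fun l hl τ g => hf l hl τ g) hε'
  -- main estimate
  have hmain : ∀ l ∈ T, ∀ g : GalL E,
      ‖iotaL l E (g x) - (f l g : PadicAlgCl l)‖ < min ε 1 * ‖(f l g : PadicAlgCl l)‖ := by
    intro l hl g
    refine lt_of_lt_of_le (hx l hl g) ?_
    exact mul_le_mul_of_nonneg_left
      (hmle (l, g) (Finset.mem_product.mpr ⟨hl, Finset.mem_univ _⟩)) (lt_min hε one_pos).le
  by_cases hT : T = ∅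
  · subst hT
    exact ⟨1, fun l hl => absurd hl (Finset.notMem_empty l)⟩
  obtain ⟨l₁, hl₁⟩ := Finset.nonempty_iff_ne_empty.mpr hT
  have hx0 : x ≠ 0 := by
    rintro rfl
    have := hmain l₁ hl₁ 1
    rw [map_zero, map_zero, zero_sub, norm_neg] at this
    have h1 : min ε 1 * ‖(f l₁ 1 : PadicAlgCl l₁)‖ ≤ 1 * ‖(f l₁ 1 : PadicAlgCl l₁)‖ :=
      mul_le_mul_of_nonneg_right (min_le_right _ _) (norm_nonneg _)
    rw [one_mul] at h1
    exact absurd this (not_lt.mpr h1)
  refine ⟨Units.mk0 x hx0, fun l hl g => ?_⟩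
  have hfpos : 0 < ‖(f l g : PadicAlgCl l)‖ := norm_pos_iff.mpr (Units.ne_zero _)
  have hrew : iotaL l E (g ((Units.mk0 x hx0 : Eˣ) : E)) *
      (((f l g)⁻¹ : (PadicAlgCl l)ˣ) : PadicAlgCl l) - 1 =
      (iotaL l E (g x) - (f l g : PadicAlgCl l)) *
        (((f l g)⁻¹ : (PadicAlgCl l)ˣ) : PadicAlgCl l) := by
    rw [Units.val_mk0, sub_mul, Units.mul_inv]
  rw [hrew, norm_mul, Units.val_inv_eq_inv_val, norm_inv, ← div_eq_mul_inv, div_lt_iff₀ hfpos]
  exact lt_of_lt_of_le (hmain l hl g)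
    (mul_le_mul_of_nonneg_right (min_le_left _ _) hfpos.le)

/-- `diag` of `Idele73.Basic` in coordinates: `x ↦ (g ↦ ι_l (g x))`. -/
theorem diag_apply_coe (l : Nat.Primes) (x : Eˣ) (g : GalL E) :
    ((Additive.toMul (((diag l E).hom (Additive.ofMul x : Lx E)).1 g) : (PadicAlgCl l)ˣ) :
      PadicAlgCl l) = iotaL l E (g x) := rfl

/-- **Weak approximation for `Idele73`'s idele components `Jq l E`.**  Given `y_l ∈ J_l(E)` for
all primes `l` and a finite set `T`, there is a global unit `x` with `diag x / y_l` `ε`-close to `1`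
in every coordinate `g`, for all `l ∈ T`. -/
theorem weak_approx_Jq (T : Finset Nat.Primes) (y : ∀ l : Nat.Primes, Jq l E)
    {ε : ℝ} (hε : 0 < ε) :
    ∃ x : Eˣ, ∀ l ∈ T, ∀ g : GalL E,
      ‖iotaL l E (g x) *
        (((Additive.toMul ((y l).1 g))⁻¹ : (PadicAlgCl l)ˣ) : PadicAlgCl l) - 1‖ < ε := by
  refine weak_approx_units E T (fun l g => Additive.toMul ((y l).1 g)) (fun l _ τ g => ?_) hε
  have := (y l).2 τ g
  change ((Additive.toMul ((y l).1 (locHom l E τ * g)) : (PadicAlgCl l)ˣ) : PadicAlgCl l) = _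
  rw [this]
  rfl

end Main

section Ultrametric

variable {K : Type*} [NormedField K] [IsUltrametricDist K]

/-- In an ultrametric normed field, a finite product of elements `ε`-close to `1` (`ε ≤ 1`) is
`ε`-close to `1`. -/
theorem norm_prod_sub_one_lt {ι : Type*} (s : Finset ι) (u : ι → K) {ε : ℝ} (hε : 0 < ε)
    (hε1 : ε ≤ 1) (hu : ∀ i ∈ s, ‖u i - 1‖ < ε) : ‖∏ i ∈ s, u i - 1‖ < ε := by
  classical
  induction s using Finset.induction_on with
  | empty => simpa using hε
  | insert a s ha ih =>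
    have h1 := hu a (Finset.mem_insert_self _ _)
    have h2 := ih (fun i hi => hu i (Finset.mem_insert_of_mem hi))
    rw [Finset.prod_insert ha]
    have hnorm : ‖∏ i ∈ s, u i‖ ≤ 1 := by
      have : ∏ i ∈ s, u i = (∏ i ∈ s, u i - 1) + 1 := by ring
      rw [this]
      refine (IsUltrametricDist.norm_add_le_max _ _).trans (max_le (h2.le.trans hε1) ?_)
      rw [norm_one]
    have hsplit : u a * ∏ i ∈ s, u i - 1 = (u a - 1) * ∏ i ∈ s, u i + (∏ i ∈ s, u i - 1) := by
      ring
    rw [hsplit]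
    refine lt_of_le_of_lt (IsUltrametricDist.norm_add_le_max _ _) (max_lt ?_ h2)
    rw [norm_mul]
    calc ‖u a - 1‖ * ‖∏ i ∈ s, u i‖ ≤ ‖u a - 1‖ * 1 :=
          mul_le_mul_of_nonneg_left hnorm (norm_nonneg _)
      _ = ‖u a - 1‖ := mul_one _
      _ < ε := h1

end Ultrametric

end Fermat.Agent.S55.WeakApprox81
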